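/-
K-machine, piece K6 — TYPE `χ` AT A PRIME `r` OF A `Γ_H`-LEVEL: interface (helper4).
Plan: `NOTES/RT-K6.md`.  World: ES₁ (`F = fieldBar L M H ⊂ ℚ̄((q))`, `JH L M H = Pic⁰ F`).

`r` prime, `r ∣ M ∣ L`, `r ∥ L`; `A ⊂ ℚ̄` a valuation ring over `r`; `σ` in the inertia group of
`A`; `c ∈ (ℤ/M)ˣ` the class with `σ ζ = ζ ^ c` on `μ_r` and `c ≡ 1` mod `M / r`; `δ = δ_c`.

* `IsCycAt M r σ c`  : `c` is the cyclotomic image of `σ` at `r` (trivial away from `r`).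
* `IsAtR M r c`      : `c ≡ 1` mod `M / r` (a diamond at `r`).
* `IsStarStable M r H` : `±H` is stable under inverting the `r`-component (true for products);
                       ALL statements below are for such `H` (helper96: `StmtB` is false otherwise).
* `chiExpr g δ u`    : `(σ − 1)(δσ − 1) u`, multiplicatively.
* `StmtChiKummer`    : **(χ-K)** `(δ′ − 1)(σ − 1)(δ_c σ − 1) u ∈ F^{×m}` for `m ∣ div u`, `r ∤ m`,
                       `δ′` a diamond at `r`.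
* `StmtChiJ`         : **(χ-J)** `(σ − 1)(δ_c σ − 1) = 0` on `JH[m]`, `r ∤ m`.
* `IsWAt L M H r w`, `StmtB` : **piece B** — the Atkin–Lehner automorphism `w = w_r` of
                       `fieldBar L M H` with `σ w σ⁻¹ = w δ_{c(σ)}`.
* `StmtDiamondGauss` : **piece G** — the diamonds preserve the Gauss valuation `v_∞`
                       (`v_∞` is the only extension of the Gauss valuation of the `Γ₀(L)`-field).
The sign was checked against the ES₁ normalisation by helper36 (note of 21:35Z): on the `g`-part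
`δ_c = θ(c)⁻¹`, `det ρ = χ_cyc · θ∘c`, so the eigenvalues of `σ ∈ I_r` are `1`, `θ(c(σ))`.
-/
import Fermat.Agent.ES1.G2.Plan
import Fermat.Agent.ES1.Group

set_option autoImplicit false

noncomputable section

namespace Fermat.Agent.RT.K6

open ModularCurve AlgebraicCurve HahnSeries Fermat.Agent.ES Fermat.Agent.ES1
  Fermat.Agent.ES1.G2

/-- `c ≡ 1` mod `M / r`: the diamond `δ_c` is a diamond "at `r`". -/
def IsAtR (M r : ℕ) (c : (ZMod M)ˣ) : Prop :=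
  (((c : ZMod M).val : ℕ) : ZMod (M / r)) = 1

/-- `±H` is stable under the involution `*` of `(ℤ/M)ˣ = (ℤ/r)ˣ × (ℤ/(M/r))ˣ` which inverts the
`r`-component (helper96, 21:49Z: `w_r` maps `F_H` ONTO `F_{H*}`, so `w_r` is an automorphism of
`fieldBar L M H` only for such `H`; true for `H = ∏ H_q`, the case of the K-machine). -/
def IsStarStable (M r : ℕ) (H : Subgroup (ZMod M)ˣ) : Prop :=
  ∀ h ∈ H, ∀ h' : (ZMod M)ˣ,
    (((h' : ZMod M).val : ℕ) : ZMod r) = ((((h⁻¹ : (ZMod M)ˣ) : ZMod M).val : ℕ) : ZMod r) →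
    (((h' : ZMod M).val : ℕ) : ZMod (M / r)) = (((h : ZMod M).val : ℕ) : ZMod (M / r)) →
      h' ∈ pmH H

/-- `c` is the cyclotomic image of `σ` at `r`: `σ ζ = ζ ^ c` for `ζ ∈ μ_r`, and `c ≡ 1` mod
`M / r`. -/
def IsCycAt (M r : ℕ) (σ : QbH ≃ₐ[ℚ] QbH) (c : (ZMod M)ˣ) : Prop :=
  (∀ ζ : QbH, ζ ^ r = 1 → σ ζ = ζ ^ ((c : ZMod M).val)) ∧ IsAtR M r c

/-- `(σ − 1)(δσ − 1) u` in multiplicative notation: `σδσu · u / (σu · δσu)`. -/
def chiExpr {L M : ℕ} {H : Subgroup (ZMod M)ˣ} (σ : QbH ≃ₐ[ℚ] QbH)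
    (δ : fieldBar L M H ≃ₐ[QbH] fieldBar L M H) (u : fieldBar L M H) : fieldBar L M H :=
  (arithmeticGalois (fieldQ L M H) σ • δ (arithmeticGalois (fieldQ L M H) σ • u) * u) /
    ((arithmeticGalois (fieldQ L M H) σ • u) * δ (arithmeticGalois (fieldQ L M H) σ • u))

/-- **(χ-K)**: type `χ` at `r`, Kummer form.  For `u ∈ F^×` with `m ∣ div u`, `r ∤ m`, `σ` in
an inertia group at `r` with cyclotomic image `c`, and every diamond `δ′` at `r`:
`(δ′ − 1)(σ − 1)(δ_c σ − 1) u` is an `m`-th power. -/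
def StmtChiKummer : Prop :=
  ∀ (L M : ℕ) (H : Subgroup (ZMod M)ˣ) (r : ℕ), L ≠ 0 → M ∣ L → r.Prime → r ∣ M → ¬ r ^ 2 ∣ L →
    IsStarStable M r H →
    ∀ A : ValuationSubring QbH, A.LiesOverPrime r →
      ∀ m : ℕ, ¬ r ∣ m →
        ∀ σ ∈ A.inertiaSubgroupIn ℚ, ∀ c : (ZMod M)ˣ, IsCycAt M r σ c →
        ∀ δ : fieldBar L M H ≃ₐ[QbH] fieldBar L M H, IsDiamondH L M H c δ →
        ∀ (c' : (ZMod M)ˣ), IsAtR M r c' →
        ∀ δ' : fieldBar L M H ≃ₐ[QbH] fieldBar L M H, IsDiamondH L M H c' δ' →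
          ∀ u : fieldBar L M H, u ≠ 0 →
            (∀ P : Place QbH (fieldBar L M H), (m : ℤ) ∣ P.ord u) →
              ∃ h : fieldBar L M H, h ^ m = δ' (chiExpr σ δ u) / chiExpr σ δ u

/-- **(χ-J)**: type `χ` at `r` on the Jacobian: `(σ − 1)(δ_c σ − 1) x = 0` for `x ∈ JH[m]`,
`r ∤ m`, `σ` in an inertia group at `r` with cyclotomic image `c`. -/
def StmtChiJ : Prop :=
  ∀ (L M : ℕ) (H : Subgroup (ZMod M)ˣ) (r : ℕ), L ≠ 0 → M ∣ L → r.Prime → r ∣ M → ¬ r ^ 2 ∣ L →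
    IsStarStable M r H →
    ∀ A : ValuationSubring QbH, A.LiesOverPrime r →
      ∀ m : ℕ, ¬ r ∣ m →
        ∀ σ ∈ A.inertiaSubgroupIn ℚ, ∀ c : (ZMod M)ˣ, IsCycAt M r σ c →
        ∀ δ : fieldBar L M H ≃ₐ[QbH] fieldBar L M H, IsDiamondH L M H c δ →
          ∀ x : JH L M H, m • x = 0 →
            σ • diamondJ δ (σ • x) - σ • x - diamondJ δ (σ • x) + x = 0

/-- **The Atkin–Lehner automorphism `w_r` of `fieldBar L M H`** (`r ∥ L`, `r ∣ M`). -/
structure IsWAt (L M : ℕ) (H : Subgroup (ZMod M)ˣ) (r : ℕ)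
    (w : fieldBar L M H ≃ₐ[QbH] fieldBar L M H) : Prop where
  /-- `σ w σ⁻¹ = w δ_{c(σ)}`, in the form `σ w = w δ σ` -/
  galois : ∀ (σ : QbH ≃ₐ[ℚ] QbH) (c : (ZMod M)ˣ), IsCycAt M r σ c →
    ∀ δ : fieldBar L M H ≃ₐ[QbH] fieldBar L M H, IsDiamondH L M H c δ →
      ∀ x : fieldBar L M H,
        arithmeticGalois (fieldQ L M H) σ • w x =
          w (δ (arithmeticGalois (fieldQ L M H) σ • x))
  /-- on the `Γ₀(L)`-field `w` is the Atkin–Lehner involution: `j(q^d) ↦ j(q^{dr})` for `r ∤ d`,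
  `j(q^d) ↦ j(q^{d/r})` for `r ∣ d` -/
  map_j : ∀ (d d' : ℕ) [NeZero d] [NeZero d'], d ∣ L →
    d' = (if r ∣ d then d / r else d * r) → ∀ x : fieldBar L M H,
      (x : LaurentSeries QbH) = qExpand QbH d (jqModC QbH) →
        ((w x : fieldBar L M H) : LaurentSeries QbH) = qExpand QbH d' (jqModC QbH)
  /-- `w δ_c = δ_{c⁻¹} w` for the diamonds at `r` -/
  diamond : ∀ (c : (ZMod M)ˣ), IsAtR M r c →
    ∀ δ δ' : fieldBar L M H ≃ₐ[QbH] fieldBar L M H,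
      IsDiamondH L M H c δ → IsDiamondH L M H c⁻¹ δ' → ∀ x : fieldBar L M H, w (δ x) = δ' (w x)

/-- **Piece B**: `w_r` exists. -/
def StmtB : Prop :=
  ∀ (L M : ℕ) (H : Subgroup (ZMod M)ˣ) (r : ℕ), L ≠ 0 → M ∣ L → r.Prime → r ∣ M → ¬ r ^ 2 ∣ L →
    IsStarStable M r H →
    ∃ w : fieldBar L M H ≃ₐ[QbH] fieldBar L M H, IsWAt L M H r w

/-- **Piece G**: the diamonds preserve the Gauss valuation `v_∞` (at every valuation ring `A`
of `ℚ̄`, every level). -/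
def StmtDiamondGauss : Prop :=
  ∀ (L M : ℕ) (H : Subgroup (ZMod M)ˣ), L ≠ 0 → M ∣ L → ∀ A : ValuationSubring QbH,
    ∀ (c : (ZMod M)ˣ) (δ : fieldBar L M H ≃ₐ[QbH] fieldBar L M H), IsDiamondH L M H c δ →
      ∀ e : fieldBar L M H, ReducesToOneF A (fieldBar L M H) e →
        ReducesToOneF A (fieldBar L M H) (δ e)

end Fermat.Agent.RT.K6
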