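/-
K-machine, piece K6 — the statements of `RT/K6/Plan.lean` in the TAME case (helper4).

The proof of (χ-K) goes through the Kummer cover `F_H = F_{H⁺}(y)`, `y ^ d = u₀`, where `H⁺` is
`H` with all diamonds at `r` added and `d = [H⁺ : H]`.  The route needs `F_H / F_{H⁺}` unramified
at every place (`ES1.stmtRamJH`: ramification over the `j`-line divides `2`, `3`, `L`), i.e.
`gcd (d, 6 L) = 1`.  This is the case of the K-machine (`d` a power of `p ≥ 5`, `p ∤ L`).

* `IsTameAt L M r H` : some `d` prime to `6 L` kills ALL diamonds modulo `±H`.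
* `StmtChiKummerP`, `StmtChiJP` : `StmtChiKummer`, `StmtChiJ` with the extra hypothesis
  `IsTameAt L M r H`.  THESE are the targets of pieces D, E, F, AUX.
-/
import Fermat.Agent.RT.K6.Plan

set_option autoImplicit false

noncomputable section

namespace Fermat.Agent.RT.K6

open ModularCurve AlgebraicCurve HahnSeries Fermat.Agent.ES Fermat.Agent.ES1
  Fermat.Agent.ES1.G2

/-- the WHOLE group of diamonds `(ℤ/M)ˣ / ±H` has exponent prime to `6 L` (v2, 23:10Z: ALL `c`,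
not only the diamonds at `r`, and `±H`: then `F_H / F_{Γ₀(L)}` is a Kummer extension of exponent
prime to `6 L`, unramified at every place; the `K`-machine has `(ℤ/M)ˣ / ±H` a `p`-group, `p ≥ 5`,
`p ∤ L`).  The argument `r` is kept for compatibility. -/
def IsTameAt (L M _r : ℕ) (H : Subgroup (ZMod M)ˣ) : Prop :=
  ∃ d : ℕ, Nat.Coprime d (6 * L) ∧ ∀ c : (ZMod M)ˣ, c ^ d ∈ pmH H

/-- **(χ-K), tame case.** -/
def StmtChiKummerP : Prop :=
  ∀ (L M : ℕ) (H : Subgroup (ZMod M)ˣ) (r : ℕ), L ≠ 0 → M ∣ L → r.Prime → r ∣ M → ¬ r ^ 2 ∣ L →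
    IsStarStable M r H → IsTameAt L M r H →
    ∀ A : ValuationSubring QbH, A.LiesOverPrime r →
      ∀ m : ℕ, ¬ r ∣ m →
        ∀ σ ∈ A.inertiaSubgroupIn ℚ, ∀ c : (ZMod M)ˣ, IsCycAt M r σ c →
        ∀ δ : fieldBar L M H ≃ₐ[QbH] fieldBar L M H, IsDiamondH L M H c δ →
        ∀ (c' : (ZMod M)ˣ), IsAtR M r c' →
        ∀ δ' : fieldBar L M H ≃ₐ[QbH] fieldBar L M H, IsDiamondH L M H c' δ' →
          ∀ u : fieldBar L M H, u ≠ 0 →
            (∀ P : Place QbH (fieldBar L M H), (m : ℤ) ∣ P.ord u) →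
              ∃ h : fieldBar L M H, h ^ m = δ' (chiExpr σ δ u) / chiExpr σ δ u

/-- **(χ-J), tame case.** -/
def StmtChiJP : Prop :=
  ∀ (L M : ℕ) (H : Subgroup (ZMod M)ˣ) (r : ℕ), L ≠ 0 → M ∣ L → r.Prime → r ∣ M → ¬ r ^ 2 ∣ L →
    IsStarStable M r H → IsTameAt L M r H →
    ∀ A : ValuationSubring QbH, A.LiesOverPrime r →
      ∀ m : ℕ, ¬ r ∣ m →
        ∀ σ ∈ A.inertiaSubgroupIn ℚ, ∀ c : (ZMod M)ˣ, IsCycAt M r σ c →
        ∀ δ : fieldBar L M H ≃ₐ[QbH] fieldBar L M H, IsDiamondH L M H c δ →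
          ∀ x : JH L M H, m • x = 0 →
            σ • diamondJ δ (σ • x) - σ • x - diamondJ δ (σ • x) + x = 0

/-- the general statements imply the tame ones -/
theorem stmtChiKummerP_of (h : StmtChiKummer) : StmtChiKummerP :=
  fun L M H r hL hM hr hrM hr2 hstar _ => h L M H r hL hM hr hrM hr2 hstar

theorem stmtChiJP_of (h : StmtChiJ) : StmtChiJP :=
  fun L M H r hL hM hr hrM hr2 hstar _ => h L M H r hL hM hr hrM hr2 hstar

end Fermat.Agent.RT.K6
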