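/-
K-machine, piece K6 / F (helper66): interface.

* `StmtUnipH`   : **UNIP for `Γ_H`-levels without diamonds at `r`** (Kummer form): if all diamonds at
                  `r` are trivial on `fieldBar L M H` (`IsAtR M r c → c ∈ ±H`), then
                  `(σ − 1)² u ∈ F^{×m}` for `σ` in an inertia group at `r`, `m ∣ div u`, `r ∤ m`.
                  (For `M = r` it is `UNIP.StmtUnipKummer`.  It is the case `d = 1` of piece E.)
* `IsDivJ x`    : `x` is divisible in `JH L M H` (every member of a Tate tower is).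
* `StmtChiJDiv` : **(χ-J) on the divisible elements**, tame case: `StmtChiJP` with the extra
                  hypothesis `IsDivJ x`.
* `StmtTorsDivH`: the torsion of `JH L M H` is divisible (NOT in the library; S27-type statement).

Deliverables (`RT/K6/F.lean`):
  `stmtChiJDiv_of : StmtChiKummerP → StmtUnipH → StmtChiJDiv`,
  `stmtChiJP_of_div : StmtTorsDivH → StmtChiKummerP → StmtUnipH → StmtChiJP`.
-/
import Fermat.Agent.RT.K6.PlanP

set_option autoImplicit false

noncomputable section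

namespace Fermat.Agent.RT.K6

open ModularCurve AlgebraicCurve HahnSeries Fermat.Agent.ES Fermat.Agent.ES1
  Fermat.Agent.ES1.G2

/-- **UNIP for the levels without diamonds at `r`**, Kummer form. -/
def StmtUnipH : Prop :=
  ∀ (L M : ℕ) (H : Subgroup (ZMod M)ˣ) (r : ℕ), L ≠ 0 → M ∣ L → r.Prime → r ∣ M → ¬ r ^ 2 ∣ L →
    (∀ c : (ZMod M)ˣ, IsAtR M r c → c ∈ pmH H) →
    ∀ A : ValuationSubring QbH, A.LiesOverPrime r →
      ∀ m : ℕ, ¬ r ∣ m →
        ∀ σ ∈ A.inertiaSubgroupIn ℚ,
          ∀ u : fieldBar L M H, u ≠ 0 →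
            (∀ P : Place QbH (fieldBar L M H), (m : ℤ) ∣ P.ord u) →
              ∃ h : fieldBar L M H,
                h ^ m =
                  (arithmeticGalois (fieldQ L M H) σ •
                      ((arithmeticGalois (fieldQ L M H) σ • u) / u)) /
                    ((arithmeticGalois (fieldQ L M H) σ • u) / u)

/-- `x` is divisible -/
def IsDivJ {L M : ℕ} {H : Subgroup (ZMod M)ˣ} (x : JH L M H) : Prop :=
  ∀ e : ℕ, e ≠ 0 → ∃ y : JH L M H, e • y = x

/-- **(χ-J) on the divisible elements**, tame case. -/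
def StmtChiJDiv : Prop :=
  ∀ (L M : ℕ) (H : Subgroup (ZMod M)ˣ) (r : ℕ), L ≠ 0 → M ∣ L → r.Prime → r ∣ M → ¬ r ^ 2 ∣ L →
    IsStarStable M r H → IsTameAt L M r H →
    ∀ A : ValuationSubring QbH, A.LiesOverPrime r →
      ∀ m : ℕ, ¬ r ∣ m →
        ∀ σ ∈ A.inertiaSubgroupIn ℚ, ∀ c : (ZMod M)ˣ, IsCycAt M r σ c →
        ∀ δ : fieldBar L M H ≃ₐ[QbH] fieldBar L M H, IsDiamondH L M H c δ →
          ∀ x : JH L M H, m • x = 0 → IsDivJ x →
            σ • diamondJ δ (σ • x) - σ • x - diamondJ δ (σ • x) + x = 0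

/-- the torsion of `JH L M H` is divisible -/
def StmtTorsDivH : Prop :=
  ∀ (L M : ℕ) (H : Subgroup (ZMod M)ˣ), L ≠ 0 → M ∣ L →
    ∀ (m : ℕ) (x : JH L M H), m ≠ 0 → m • x = 0 → IsDivJ x

end Fermat.Agent.RT.K6
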