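/-
K-machine, piece K6 / F (helper66): the abstract Kummer step.

`K` a field, `F / K` a function field, `g`, `Dl` semilinear automorphisms of `F`
(`g` = Galois, `Dl` = diamond), `t = (g − 1)(Dl g − 1) = g Dl g − g − Dl g + 1`.

* `rtk6f_chi u` : `t u` in multiplicative notation;
* `rtk6f_pic0_of_pow` : if `(m d₀) D = div u` and `(t u) ^ d₀ = G ^ (m d₀)` then
  `d₀ • t [D] = 0` in `Pic⁰`;
* `rtk6fChi_smul`, `rtk6fChi_prod`, `rtk6fChi_of_fixed`, `rtk6fChi_pow_card` : formal properties;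
* `rtk6f_abs` : **the abstract step**: `(D_i − 1) t u = h_i ^ n`, `t (∏ D_i u) = h₊ ^ n`,
  `n = m #ι`, `n D = div u` ⇒ `t (#ι • [D]) = 0`.
-/
import Fermat.Agent.ES.G2.Unram

set_option autoImplicit false

noncomputable section

namespace Fermat.Agent.RT.K6

open AlgebraicCurve Fermat.Agent.ES.G2

section Generic

variable {K F : Type*} [Field K] [Field F] [Algebra K F]

/-- `(g − 1)(Dl g − 1) u`, multiplicatively -/
def rtk6fChi (g Dl : SemilinearAut K F) (u : F) : F :=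
  ((g • Dl • g • u) * u) / ((g • u) * (Dl • g • u))

theorem rtk6f_smul_ne_zero (G : SemilinearAut K F) {u : F} (hu : u ≠ 0) : G • u ≠ 0 := by
  rw [SemilinearAut.smul_def]
  exact (map_ne_zero_iff _ (SemilinearAut.toRingAut G).injective).mpr hu

theorem rtk6f_ord_smul_eq (G : SemilinearAut K F) (v : Place K F) (u : F) :
    v.ord (G • u) = (G⁻¹ • v).ord u := by
  have := SemilinearAut.ord_smul G (G⁻¹ • v) u
  rwa [smul_inv_smul] at this

theorem rtk6fChi_ne_zero (g Dl : SemilinearAut K F) {u : F} (hu : u ≠ 0) :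
    rtk6fChi g Dl u ≠ 0 := by
  have h1 : g • u ≠ 0 := rtk6f_smul_ne_zero g hu
  have h2 : Dl • g • u ≠ 0 := rtk6f_smul_ne_zero Dl h1
  have h3 : g • Dl • g • u ≠ 0 := rtk6f_smul_ne_zero g h2
  exact div_ne_zero (mul_ne_zero h3 hu) (mul_ne_zero h1 h2)

/-- the order of `t u` -/
theorem rtk6f_ord_chi (g Dl : SemilinearAut K F) {u : F} (hu : u ≠ 0) (v : Place K F) :
    v.ord (rtk6fChi g Dl u) =
      (g⁻¹ • Dl⁻¹ • g⁻¹ • v).ord u + v.ord u - (g⁻¹ • v).ord u - (g⁻¹ • Dl⁻¹ • v).ord u := by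
  have h1 : g • u ≠ 0 := rtk6f_smul_ne_zero g hu
  have h2 : Dl • g • u ≠ 0 := rtk6f_smul_ne_zero Dl h1
  have h3 : g • Dl • g • u ≠ 0 := rtk6f_smul_ne_zero g h2
  unfold rtk6fChi
  rw [unram_ord_div v (mul_ne_zero h3 hu) (mul_ne_zero h1 h2), v.ord_mul h3 hu,
    v.ord_mul h1 h2, rtk6f_ord_smul_eq g v, rtk6f_ord_smul_eq Dl, rtk6f_ord_smul_eq g,
    rtk6f_ord_smul_eq g v u, rtk6f_ord_smul_eq Dl v, rtk6f_ord_smul_eq g]
  ring

/-- **The abstract Kummer step.**  If `(m d₀) D = div u` and `(t u) ^ d₀ = G ^ (m d₀)`, then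
`d₀ • t [D] = 0`. -/
theorem rtk6f_pic0_of_pow (g Dl : SemilinearAut K F) (D : Divisor.degZero (K := K) (F := F))
    (m d₀ : ℕ) (hm : m ≠ 0) (hd : d₀ ≠ 0) (u : F) (hu : u ≠ 0)
    (hD : ∀ v : Place K F, ((m * d₀ : ℕ) : ℤ) * (D : Divisor K F) v = v.ord u)
    (G : F) (hG : G ^ (m * d₀) = rtk6fChi g Dl u ^ d₀) :
    d₀ • (g • Dl • g • Pic0.mk D - g • Pic0.mk D - Dl • g • Pic0.mk D + Pic0.mk D) = 0 := by
  have hmd : m * d₀ ≠ 0 := Nat.mul_ne_zero hm hd
  have hmd' : ((m * d₀ : ℕ) : ℤ) ≠ 0 := by exact_mod_cast hmd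
  have hG0 : G ≠ 0 := by
    intro h0
    rw [h0, zero_pow hmd] at hG
    exact pow_ne_zero _ (rtk6fChi_ne_zero g Dl hu) hG.symm
  set E : Divisor.degZero (K := K) (F := F) :=
    d₀ • (SemilinearAut.degZeroSMulHom g (SemilinearAut.degZeroSMulHom Dl
        (SemilinearAut.degZeroSMulHom g D))
      - SemilinearAut.degZeroSMulHom g D
      - SemilinearAut.degZeroSMulHom Dl (SemilinearAut.degZeroSMulHom g D) + D) with hE
  have key : ∀ v : Place K F, (E : Divisor K F) v = v.ord G := by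
    intro v
    have h1 : ((m * d₀ : ℕ) : ℤ) * v.ord G = (d₀ : ℤ) * v.ord (rtk6fChi g Dl u) := by
      rw [← unram_ord_pow, hG, unram_ord_pow]
    have e1 : (E : Divisor K F) v
        = (d₀ : ℤ) * ((D : Divisor K F) (g⁻¹ • Dl⁻¹ • g⁻¹ • v) - (D : Divisor K F) (g⁻¹ • v)
            - (D : Divisor K F) (g⁻¹ • Dl⁻¹ • v) + (D : Divisor K F) v) := by
      show (d₀ • ((g • (Dl • (g • (D : Divisor K F)))) - g • (D : Divisor K F)
          - Dl • (g • (D : Divisor K F)) + (D : Divisor K F))) v = _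
      rw [Finsupp.smul_apply, Finsupp.add_apply, Finsupp.sub_apply, Finsupp.sub_apply,
        SemilinearAut.divisor_smul_apply, SemilinearAut.divisor_smul_apply,
        SemilinearAut.divisor_smul_apply, SemilinearAut.divisor_smul_apply,
        SemilinearAut.divisor_smul_apply, SemilinearAut.divisor_smul_apply, nsmul_eq_mul]
    have h4 : ((m * d₀ : ℕ) : ℤ) * v.ord G = ((m * d₀ : ℕ) : ℤ) * (E : Divisor K F) v := by
      rw [h1, rtk6f_ord_chi g Dl hu v, ← hD, ← hD, ← hD, ← hD, e1]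
      ring
    exact (mul_left_cancel₀ hmd' h4).symm
  have hzero : Pic0.mk E = 0 := by
    unfold Pic0.mk
    rw [QuotientAddGroup.eq_zero_iff, AddSubgroup.mem_addSubgroupOf]
    exact ⟨G, hG0, key⟩
  have e2 : Pic0.mk E
      = d₀ • (g • Dl • g • Pic0.mk D - g • Pic0.mk D - Dl • g • Pic0.mk D + Pic0.mk D) := by
    rw [SemilinearAut.pic0_smul_mk, SemilinearAut.pic0_smul_mk, SemilinearAut.pic0_smul_mk]
    rfl
  rw [e2] at hzero
  exact hzero

/-! ## Formal properties of `t` -/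

theorem rtk6f_smul_div (G : SemilinearAut K F) (a b : F) : G • (a / b) = (G • a) / (G • b) := by
  simp only [SemilinearAut.smul_def, map_div₀]

theorem rtk6f_smul_mul (G : SemilinearAut K F) (a b : F) : G • (a * b) = (G • a) * (G • b) := by
  simp only [SemilinearAut.smul_def, map_mul]

theorem rtk6f_smul_pow (G : SemilinearAut K F) (a : F) (n : ℕ) : G • (a ^ n) = (G • a) ^ n := by
  simp only [SemilinearAut.smul_def, map_pow]

theorem rtk6f_smul_prod (G : SemilinearAut K F) {ι : Type*} (s : Finset ι) (f : ι → F) :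
    G • ∏ i ∈ s, f i = ∏ i ∈ s, G • f i := by
  simp only [SemilinearAut.smul_def]
  exact map_prod _ _ _

theorem rtk6f_smul_comm {G G' : SemilinearAut K F} (h : G' * G = G * G') (z : F) :
    G' • G • z = G • G' • z := by
  rw [← mul_smul, ← mul_smul, h]

/-- `t` commutes with every `D'` commuting with `g` and `Dl` -/
theorem rtk6fChi_smul (g Dl D' : SemilinearAut K F) (h1 : D' * g = g * D')
    (h2 : D' * Dl = Dl * D') (u : F) : D' • rtk6fChi g Dl u = rtk6fChi g Dl (D' • u) := by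
  unfold rtk6fChi
  rw [rtk6f_smul_div, rtk6f_smul_mul, rtk6f_smul_mul, rtk6f_smul_comm h1 (Dl • g • u),
    rtk6f_smul_comm h2 (g • u), rtk6f_smul_comm h1 u]

/-- `t` is multiplicative -/
theorem rtk6fChi_prod (g Dl : SemilinearAut K F) {ι : Type*} (s : Finset ι) (f : ι → F) :
    rtk6fChi g Dl (∏ i ∈ s, f i) = ∏ i ∈ s, rtk6fChi g Dl (f i) := by
  unfold rtk6fChi
  rw [rtk6f_smul_prod, rtk6f_smul_prod, rtk6f_smul_prod, Finset.prod_div_distrib,
    Finset.prod_mul_distrib, Finset.prod_mul_distrib]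

/-- `t = (g − 1)²` on the elements `z` with `Dl (g z) = g z` -/
theorem rtk6fChi_of_fixed (g Dl : SemilinearAut K F) {z : F} (hz : z ≠ 0)
    (hfix : Dl • g • z = g • z) :
    rtk6fChi g Dl z = (g • ((g • z) / z)) / ((g • z) / z) := by
  unfold rtk6fChi
  rw [hfix, rtk6f_smul_div]
  have h1 : g • z ≠ 0 := rtk6f_smul_ne_zero _ hz
  have h2 : g • g • z ≠ 0 := rtk6f_smul_ne_zero _ h1
  field_simp

/-- **the norm computation**: if `(D_i − 1) t u = h_i ^ n` for all `i` and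
`t (∏_i D_i u) = h₊ ^ n`, then `(t u) ^ #ι = (h₊ / ∏ h_i) ^ n`. -/
theorem rtk6fChi_pow_card (g Dl : SemilinearAut K F) {ι : Type*} [Fintype ι]
    (Di : ι → SemilinearAut K F) (h1 : ∀ i, Di i * g = g * Di i)
    (h2 : ∀ i, Di i * Dl = Dl * Di i) (n : ℕ) (hn : n ≠ 0) {u : F} (hu : u ≠ 0)
    (hi : ι → F) (hhi : ∀ i, hi i ^ n = (Di i • rtk6fChi g Dl u) / rtk6fChi g Dl u)
    (hp : F) (hhp : hp ^ n = rtk6fChi g Dl (∏ i, Di i • u)) :
    (hp / ∏ i, hi i) ^ n = rtk6fChi g Dl u ^ Fintype.card ι := by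
  have hT0 : rtk6fChi g Dl u ≠ 0 := rtk6fChi_ne_zero g Dl hu
  have hhi0 : ∀ i, hi i ≠ 0 := by
    intro i h0
    have h3 := hhi i
    rw [h0, zero_pow hn] at h3
    exact div_ne_zero (rtk6f_smul_ne_zero _ hT0) hT0 h3.symm
  have e1 : ∀ i, Di i • rtk6fChi g Dl u = rtk6fChi g Dl u * hi i ^ n := by
    intro i
    rw [hhi i, mul_div_cancel₀ _ hT0]
  have e2 : rtk6fChi g Dl (∏ i, Di i • u) =
      rtk6fChi g Dl u ^ Fintype.card ι * (∏ i, hi i) ^ n := by
    rw [rtk6fChi_prod]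
    have : ∀ i, rtk6fChi g Dl (Di i • u) = rtk6fChi g Dl u * hi i ^ n := by
      intro i
      rw [← rtk6fChi_smul g Dl (Di i) (h1 i) (h2 i) u, e1 i]
    simp only [this]
    rw [Finset.prod_mul_distrib, Finset.prod_const, Finset.card_univ, Finset.prod_pow]
  rw [div_pow, hhp, e2]
  exact mul_div_cancel_right₀ _ (pow_ne_zero _ (Finset.prod_ne_zero_iff.mpr fun i _ => hhi0 i))

/-- Kummer data of a torsion class -/
theorem rtk6f_exists_kummer (D : Divisor.degZero (K := K) (F := F)) (n : ℕ)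
    (h : n • Pic0.mk D = 0) :
    ∃ u : F, u ≠ 0 ∧ ∀ v : Place K F, (n : ℤ) * (D : Divisor K F) v = v.ord u := by
  have hprin : ((n • D : Divisor.degZero (K := K) (F := F)) : Divisor K F) ∈
      Divisor.principal := by
    have h1 : Pic0.mk (n • D) = 0 := by
      rw [← h]; rfl
    unfold Pic0.mk at h1
    rw [QuotientAddGroup.eq_zero_iff, AddSubgroup.mem_addSubgroupOf] at h1
    exact h1
  obtain ⟨u, hu, hDu⟩ := hprin
  refine ⟨u, hu, fun v => ?_⟩
  rw [← hDu v, AddSubgroup.coe_nsmul, Finsupp.smul_apply, nsmul_eq_mul]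

/-- the operator `t` on `Pic⁰` -/
def rtk6fChiJ (g Dl : SemilinearAut K F) (x : Pic0 K F) : Pic0 K F :=
  g • Dl • g • x - g • x - Dl • g • x + x

theorem rtk6fChiJ_nsmul (g Dl : SemilinearAut K F) (d : ℕ) (x : Pic0 K F) :
    rtk6fChiJ g Dl (d • x) = d • rtk6fChiJ g Dl x := by
  have e : ∀ (G : SemilinearAut K F) (z : Pic0 K F), G • (d • z) = d • (G • z) :=
    fun G z => map_nsmul (DistribSMul.toAddMonoidHom (Pic0 K F) G) d z
  unfold rtk6fChiJ
  rw [e, e, e, ← nsmul_sub, ← nsmul_sub, ← nsmul_add]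

/-- **The abstract step of K6 / F.** -/
theorem rtk6f_abs (g Dl : SemilinearAut K F) {ι : Type*} [Fintype ι]
    (Di : ι → SemilinearAut K F) (h1 : ∀ i, Di i * g = g * Di i)
    (h2 : ∀ i, Di i * Dl = Dl * Di i) (m : ℕ) (hm : m ≠ 0) (hd : Fintype.card ι ≠ 0)
    (D : Divisor.degZero (K := K) (F := F)) {u : F} (hu : u ≠ 0)
    (hD : ∀ v : Place K F,
      ((m * Fintype.card ι : ℕ) : ℤ) * (D : Divisor K F) v = v.ord u)
    (hi : ι → F)
    (hhi : ∀ i, hi i ^ (m * Fintype.card ι) = (Di i • rtk6fChi g Dl u) / rtk6fChi g Dl u)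
    (hp : F) (hhp : hp ^ (m * Fintype.card ι) = rtk6fChi g Dl (∏ i, Di i • u)) :
    rtk6fChiJ g Dl (Fintype.card ι • Pic0.mk D) = 0 := by
  rw [rtk6fChiJ_nsmul]
  exact rtk6f_pic0_of_pow g Dl D m (Fintype.card ι) hm hd u hu hD _
    (rtk6fChi_pow_card g Dl Di h1 h2 _ (Nat.mul_ne_zero hm hd) hu hi hhi hp hhp)

end Generic

end Fermat.Agent.RT.K6
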