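/-
K-machine, piece K6 / F (helper66): cosets.  `H ≤ H'` subgroups of `(ℤ/M)ˣ` (only
`±H ≤ ±H'` is used), `c : ι → (ℤ/M)ˣ` a system of representatives of `±H' / ±H`.

* `IsRelRep H H' c`;
* `rtk6f_inPM_iff` : `InPM H a b ↔ a⁻¹ b ∈ ±H`;
* `rtk6f_sS_eq_sum` : `S_{M,H',a} = Σ_i S_{M,H,a·c_i}`;
* `rtk6f_exists_relRep` : representatives exist, inside any set `C` with `±H' ⊆ C · ±H`;
* `rtk6f_card_relIdx`, `rtk6f_card_of_relRep` : `#ι = [±H' : ±H]`;
* `rtk6f_index_of_repFam` : `m + 1 = [(ℤ/M)ˣ : ±H]` for `IsRepFam H a`.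
-/
import Fermat.Agent.ES1.ConjC
import Fermat.Agent.ES1.ConjDeg

set_option autoImplicit false

noncomputable section

namespace Fermat.Agent.RT.K6

open ModularCurve AlgebraicCurve Fermat.Agent.ES Fermat.Agent.ES1

variable {M : ℕ}

/-- `InPM H a b ↔ a⁻¹ b ∈ ±H` -/
theorem rtk6f_inPM_iff {H : Subgroup (ZMod M)ˣ} {a b : (ZMod M)ˣ} :
    InPM H a (b : ZMod M) ↔ a⁻¹ * b ∈ pmH H := by
  constructor
  · intro h
    have := es1cj_mem_pmH_of_inPM h
    rwa [mul_comm] at this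
  · intro h
    have := es1rc_inPM_mul_of_mem (H := H) a h
    rwa [mul_inv_cancel_left] at this

/-- a system of representatives of `±H' / ±H` -/
structure IsRelRep (H H' : Subgroup (ZMod M)ˣ) {ι : Type*} (c : ι → (ZMod M)ˣ) : Prop where
  le : pmH H ≤ pmH H'
  mem : ∀ i, c i ∈ pmH H'
  inj : ∀ i j, (c i)⁻¹ * c j ∈ pmH H → i = j
  surj : ∀ g ∈ pmH H', ∃ i, (c i)⁻¹ * g ∈ pmH H

section Sum

variable {H H' : Subgroup (ZMod M)ˣ} {ι : Type*} [Fintype ι] {c : ι → (ZMod M)ˣ}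

theorem rtk6f_cosetReps_eq_biUnion [DecidableEq ℕ] (hc : IsRelRep H H' c) (a : (ZMod M)ˣ) :
    cosetReps M H' a = Finset.univ.biUnion fun i => cosetReps M H (a * c i) := by
  ext a'
  rw [Finset.mem_biUnion, es1f_mem_cosetReps]
  constructor
  · rintro ⟨hr, hin⟩
    obtain ⟨b, hb⟩ := hin.isUnit
    rw [← hb] at hin
    have h1 : a⁻¹ * b ∈ pmH H' := rtk6f_inPM_iff.mp hin
    obtain ⟨i, hi⟩ := hc.surj _ h1
    refine ⟨i, Finset.mem_univ _, ?_⟩
    rw [es1f_mem_cosetReps]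
    refine ⟨hr, ?_⟩
    rw [← hb, rtk6f_inPM_iff]
    have e : (a * c i)⁻¹ * b = (c i)⁻¹ * (a⁻¹ * b) := by
      rw [mul_inv, mul_comm a⁻¹ (c i)⁻¹, mul_assoc]
    rw [e]
    exact hi
  · rintro ⟨i, -, hi⟩
    rw [es1f_mem_cosetReps] at hi
    refine ⟨hi.1, ?_⟩
    obtain ⟨b, hb⟩ := hi.2.isUnit
    have hin := hi.2
    rw [← hb] at hin ⊢
    rw [rtk6f_inPM_iff] at hin ⊢
    have e : a⁻¹ * b = c i * ((a * c i)⁻¹ * b) := by
      rw [mul_inv, ← mul_assoc, ← mul_assoc, mul_comm (c i) a⁻¹, mul_assoc a⁻¹ (c i),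
        mul_inv_cancel, mul_one]
    rw [e]
    exact mul_mem (hc.mem i) (hc.le hin)

omit [Fintype ι] in
theorem rtk6f_cosetReps_disjoint (hc : IsRelRep H H' c) (a : (ZMod M)ˣ) {i j : ι}
    (hij : i ≠ j) : Disjoint (cosetReps M H (a * c i)) (cosetReps M H (a * c j)) := by
  rw [Finset.disjoint_left]
  intro a' hi hj
  apply hij
  apply hc.inj
  have h := rtk6f_inPM_iff.mp (es1f_inPM_of_mem hi hj)
  have e : (a * c i)⁻¹ * (a * c j) = (c i)⁻¹ * c j := by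
    rw [mul_inv, mul_comm a⁻¹ (c i)⁻¹, mul_assoc, inv_mul_cancel_left]
  rwa [e] at h

/-- `S_{M,H',a} = Σ_i S_{M,H,a c_i}` over `ℤ` -/
theorem rtk6f_sZ_eq_sum (hc : IsRelRep H H' c) (a : (ZMod M)ˣ) :
    sZ M H' a = ∑ i, sZ M H (a * c i) := by
  classical
  unfold sZ
  rw [rtk6f_cosetReps_eq_biUnion hc a]
  exact Finset.sum_biUnion fun i _ j _ hij => rtk6f_cosetReps_disjoint hc a hij

/-- `S_{M,H',a} = Σ_i S_{M,H,a c_i}` -/
theorem rtk6f_sS_eq_sum (R : Type*) [CommRing R] (hc : IsRelRep H H' c) (a : (ZMod M)ˣ) :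
    sS R M H' a = ∑ i, sS R M H (a * c i) := by
  unfold sS
  rw [rtk6f_sZ_eq_sum hc a, map_sum]

end Sum

section Exists

variable (H H' : Subgroup (ZMod M)ˣ)

/-- the index type: `±H' / ±H` -/
abbrev RelIdx : Type := ↥(pmH H') ⧸ (pmH H).subgroupOf (pmH H')

variable {H H'}

/-- representatives exist, inside any set `C` with `±H' ⊆ C · ±H` -/
theorem rtk6f_exists_relRep (hle : pmH H ≤ pmH H') (C : Set (ZMod M)ˣ)
    (hC : ∀ g ∈ pmH H', ∃ x ∈ C, x ∈ pmH H' ∧ x⁻¹ * g ∈ pmH H) :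
    ∃ c : RelIdx H H' → (ZMod M)ˣ, IsRelRep H H' c ∧ ∀ i, c i ∈ C := by
  classical
  have hout : ∀ i : RelIdx H H', ∃ x ∈ C, x ∈ pmH H' ∧
      x⁻¹ * ((Quotient.out i : ↥(pmH H')) : (ZMod M)ˣ) ∈ pmH H :=
    fun i => hC _ (Quotient.out i).2
  choose c hcC hcH' hcH using hout
  have hrel : ∀ (i : RelIdx H H') (g : ↥(pmH H')),
      (QuotientGroup.mk g : RelIdx H H') = i ↔
        (((Quotient.out i : ↥(pmH H')) : (ZMod M)ˣ))⁻¹ * (g : (ZMod M)ˣ) ∈ pmH H := by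
    intro i g
    have h1 : (QuotientGroup.mk (Quotient.out i) : RelIdx H H') = i := Quotient.out_eq i
    constructor
    · intro h
      have h2 : (QuotientGroup.mk (Quotient.out i) : RelIdx H H') = QuotientGroup.mk g := by
        rw [h1, h]
      rw [QuotientGroup.eq, Subgroup.mem_subgroupOf] at h2
      exact h2
    · intro h
      rw [← h1]
      symm
      rw [QuotientGroup.eq, Subgroup.mem_subgroupOf]
      exact h
  refine ⟨c, ⟨hle, hcH', ?_, ?_⟩, hcC⟩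
  · intro i j hij
    have h1 : (((Quotient.out i : ↥(pmH H')) : (ZMod M)ˣ))⁻¹ *
        ((Quotient.out j : ↥(pmH H')) : (ZMod M)ˣ) ∈ pmH H := by
      have e : (((Quotient.out i : ↥(pmH H')) : (ZMod M)ˣ))⁻¹ *
          ((Quotient.out j : ↥(pmH H')) : (ZMod M)ˣ)
          = ((c i)⁻¹ * ((Quotient.out i : ↥(pmH H')) : (ZMod M)ˣ))⁻¹ * ((c i)⁻¹ * c j) *
            ((c j)⁻¹ * ((Quotient.out j : ↥(pmH H')) : (ZMod M)ˣ)) := by
        group
      rw [e]
      exact mul_mem (mul_mem (inv_mem (hcH i)) hij) (hcH j)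
    have h2 := (hrel i (Quotient.out j)).mpr h1
    rw [← h2]
    exact Quotient.out_eq j
  · intro g hg
    refine ⟨QuotientGroup.mk ⟨g, hg⟩, ?_⟩
    set i : RelIdx H H' := QuotientGroup.mk ⟨g, hg⟩ with hi
    have h1 := (hrel i ⟨g, hg⟩).mp rfl
    have e : (c i)⁻¹ * g = ((c i)⁻¹ * ((Quotient.out i : ↥(pmH H')) : (ZMod M)ˣ)) *
        ((((Quotient.out i : ↥(pmH H')) : (ZMod M)ˣ))⁻¹ * g) := by
      rw [mul_assoc, mul_inv_cancel_left]
    rw [e]
    exact mul_mem (hcH i) h1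

/-- `#(±H' / ±H) = [±H' : ±H]` -/
theorem rtk6f_card_relIdx : Nat.card (RelIdx H H') = (pmH H).relIndex (pmH H') := rfl

/-- every system of representatives has `[±H' : ±H]` elements -/
theorem rtk6f_card_of_relRep {ι : Type*} [Fintype ι] {c : ι → (ZMod M)ˣ}
    (hc : IsRelRep H H' c) : Fintype.card ι = (pmH H).relIndex (pmH H') := by
  have hbij : Function.Bijective
      (fun i : ι => (QuotientGroup.mk (⟨c i, hc.mem i⟩ : ↥(pmH H')) : RelIdx H H')) := by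
    constructor
    · intro i j hij
      apply hc.inj
      have h1 : (QuotientGroup.mk (⟨c i, hc.mem i⟩ : ↥(pmH H')) : RelIdx H H')
          = QuotientGroup.mk (⟨c j, hc.mem j⟩ : ↥(pmH H')) := hij
      rw [QuotientGroup.eq, Subgroup.mem_subgroupOf] at h1
      exact h1
    · intro x
      obtain ⟨g, rfl⟩ := QuotientGroup.mk_surjective x
      obtain ⟨i, hi⟩ := hc.surj g g.2
      refine ⟨i, ?_⟩
      show (QuotientGroup.mk (⟨c i, hc.mem i⟩ : ↥(pmH H')) : RelIdx H H') = QuotientGroup.mk g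
      rw [QuotientGroup.eq, Subgroup.mem_subgroupOf]
      exact hi
  rw [← rtk6f_card_relIdx, ← Nat.card_eq_fintype_card]
  exact Nat.card_eq_of_bijective _ hbij

end Exists

section RepFam

variable {H : Subgroup (ZMod M)ˣ}

/-- `m + 1 = [(ℤ/M)ˣ : ±H]` -/
theorem rtk6f_index_of_repFam {m : ℕ} {a : Fin (m + 1) → (ZMod M)ˣ} (ha : IsRepFam H a) :
    (pmH H).index = m + 1 := by
  have hbij : Function.Bijective
      (fun i : Fin (m + 1) => (QuotientGroup.mk (a i) : (ZMod M)ˣ ⧸ pmH H)) := by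
    constructor
    · intro i j hij
      apply ha.inj
      have h1 : (QuotientGroup.mk (a i) : (ZMod M)ˣ ⧸ pmH H) = QuotientGroup.mk (a j) := hij
      rw [QuotientGroup.eq] at h1
      exact rtk6f_inPM_iff.mpr h1
    · intro x
      obtain ⟨g, rfl⟩ := QuotientGroup.mk_surjective x
      obtain ⟨i, hi⟩ := ha.surj g
      refine ⟨i, ?_⟩
      show (QuotientGroup.mk (a i) : (ZMod M)ˣ ⧸ pmH H) = QuotientGroup.mk g
      rw [QuotientGroup.eq]
      exact rtk6f_inPM_iff.mp hi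
  have h := Nat.card_eq_of_bijective _ hbij
  rw [Nat.card_eq_fintype_card, Fintype.card_fin] at h
  rw [Subgroup.index, ← h]

end RepFam

end Fermat.Agent.RT.K6
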