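/-
K-machine, piece K6 / F (helper66): the Galois theory of `F_H / F_{H'}` (`±H ≤ ±H'`).

`F = fieldBar L M H`, `F' = fieldBar L M H'`, `c : ι → (ℤ/M)ˣ` a system of representatives of
`±H' / ±H`, `δ_i` the diamond `⟨c_i⟩` of `F`.

* `rtk6f_fieldBar_le`  : `F' ≤ F`;
* `rtk6fFixed`, `rtk6f_le_fixed`, `rtk6f_diamond_fix` : the diamonds `⟨g⟩`, `g ∈ ±H'`, of `F`
  fix `F'`;
* `rtk6f_relfinrank_bar`, `rtk6f_relfinrank` : `[F : F₀] = [(ℤ/M)ˣ : ±H]`, `[F : F'] = #ι`;
* `rtk6fNorm`, `rtk6f_norm_eq_prod` : `N_{F/F'} x = ∏_i δ_i x`;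
* `rtk6f_dvd_ord_norm` : `n D = div u` on `F` ⇒ `n ∣ ord_v (N u)` for all places `v` of `F'`;
* `rtk6f_incl_smul`    : the inclusion commutes with the arithmetic Galois action.
-/
import Fermat.Agent.RT.K6.FCoset
import Fermat.Agent.ES1.G2.DiamBar
import Fermat.Agent.ES1.G2.DegH
import Fermat.Agent.ES1.HFinal
import Fermat.Agent.ES1.Conj
import Fermat.Agent.ES1.ConjUse
import Fermat.Agent.S36.N2Abs

set_option autoImplicit false
set_option linter.style.haveILetI false
set_option linter.unusedSectionVars false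

noncomputable section

namespace Fermat.Agent.RT.K6

open ModularCurve AlgebraicCurve HahnSeries IntermediateField Fermat.Agent.ES Fermat.Agent.ES1
  Fermat.Agent.ES1.G2 Fermat.Agent.ES.G2 Fermat.Agent.S36

variable {L M : ℕ} {H H' : Subgroup (ZMod M)ˣ} {ι : Type*} [Fintype ι] {c : ι → (ZMod M)ˣ}

theorem rtk6f_fieldC_le (K : Type*) [Field K] (L : ℕ) (hc : IsRelRep H H' c) :
    fieldC K L M H' ≤ fieldC K L M H := by
  unfold fieldC
  rw [IntermediateField.adjoin_le_iff]
  rintro x (hx | ⟨e, he, a, heL, rfl⟩)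
  · exact IntermediateField.subset_adjoin K _ (Or.inl hx)
  · rw [rtk6f_sS_eq_sum K hc a, map_sum]
    exact sum_mem fun i _ => qExpand_sS_mem K L M H heL (a * c i)

theorem rtk6f_fieldBar_le (L : ℕ) (hc : IsRelRep H H' c) : fieldBar L M H' ≤ fieldBar L M H := by
  rw [es1f_fieldBar_eq, es1f_fieldBar_eq]
  exact rtk6f_fieldC_le _ L hc

theorem rtk6f_sS_mem_bar {e : ℕ} [NeZero e] (he : e * M ∣ L) (b : (ZMod M)ˣ) :
    qExpand QbH e (sS QbH M H b) ∈ fieldBar L M H := by
  rw [es1f_fieldBar_eq]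
  exact qExpand_sS_mem _ L M H he b

/-- the set of elements of `ℚ̄((q))` which lie in `F` and are fixed by `δ` -/
def rtk6fFixed (δ : fieldBar L M H ≃ₐ[QbH] fieldBar L M H) :
    IntermediateField QbH (LaurentSeries QbH) where
  carrier := {y | ∃ hy : y ∈ fieldBar L M H, δ ⟨y, hy⟩ = ⟨y, hy⟩}
  mul_mem' := by
    rintro a b ⟨ha, ha'⟩ ⟨hb, hb'⟩
    refine ⟨mul_mem ha hb, ?_⟩
    have : (⟨a * b, mul_mem ha hb⟩ : fieldBar L M H) = ⟨a, ha⟩ * ⟨b, hb⟩ := rfl
    rw [this, map_mul, ha', hb']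
  add_mem' := by
    rintro a b ⟨ha, ha'⟩ ⟨hb, hb'⟩
    refine ⟨add_mem ha hb, ?_⟩
    have : (⟨a + b, add_mem ha hb⟩ : fieldBar L M H) = ⟨a, ha⟩ + ⟨b, hb⟩ := rfl
    rw [this, map_add, ha', hb']
  algebraMap_mem' := by
    intro a
    refine ⟨(fieldBar L M H).algebraMap_mem a, ?_⟩
    have : (⟨algebraMap QbH (LaurentSeries QbH) a, (fieldBar L M H).algebraMap_mem a⟩ :
        fieldBar L M H) = algebraMap QbH (fieldBar L M H) a := rfl
    rw [this, δ.commutes]
  inv_mem' := by
    rintro a ⟨ha, ha'⟩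
    refine ⟨inv_mem ha, ?_⟩
    have : (⟨a⁻¹, inv_mem ha⟩ : fieldBar L M H) = (⟨a, ha⟩ : fieldBar L M H)⁻¹ := rfl
    rw [this, map_inv₀, ha']

theorem mem_rtk6fFixed {δ : fieldBar L M H ≃ₐ[QbH] fieldBar L M H} {y : LaurentSeries QbH} :
    y ∈ rtk6fFixed δ ↔ ∃ hy : y ∈ fieldBar L M H, δ ⟨y, hy⟩ = ⟨y, hy⟩ := Iff.rfl


/-- **the diamonds of `±H'` fix the generators of `F'`** -/
theorem rtk6f_le_fixed (hc : IsRelRep H H' c) {g : (ZMod M)ˣ} (hg : g ∈ pmH H')
    {δ : fieldBar L M H ≃ₐ[QbH] fieldBar L M H} (hδ : IsDiamondH L M H g δ) :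
    fieldBar L M H' ≤ rtk6fFixed δ := by
  rw [es1f_fieldBar_eq L M H']
  unfold fieldC
  rw [IntermediateField.adjoin_le_iff]
  rintro y (⟨d, hd, hdL, rfl⟩ | ⟨e, he, a, heL, rfl⟩)
  · have hy : qExpand QbH d (jqModC QbH) ∈ fieldBar L M H := by
      rw [es1f_fieldBar_eq]
      exact jd_mem_fieldC _ L M H hdL
    exact ⟨hy, hδ.fix_j d hdL ⟨_, hy⟩ rfl⟩
  · have hy : qExpand QbH e (sS QbH M H' a) ∈ fieldBar L M H :=
      rtk6f_fieldBar_le L hc (rtk6f_sS_mem_bar heL a)
    refine ⟨hy, ?_⟩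
    have h0 : (⟨qExpand QbH e (sS QbH M H' a), hy⟩ : fieldBar L M H)
        = ∑ i, (⟨qExpand QbH e (sS QbH M H (a * c i)), rtk6f_sS_mem_bar heL _⟩ :
          fieldBar L M H) := by
      apply Subtype.ext
      rw [IntermediateField.coe_sum]
      show qExpand QbH e (sS QbH M H' a) = ∑ i, qExpand QbH e (sS QbH M H (a * c i))
      rw [rtk6f_sS_eq_sum QbH hc a, map_sum]
    apply Subtype.ext
    rw [h0, map_sum, IntermediateField.coe_sum, IntermediateField.coe_sum]
    have h1 : ∀ i, ((δ (⟨qExpand QbH e (sS QbH M H (a * c i)), rtk6f_sS_mem_bar heL _⟩ :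
        fieldBar L M H) : fieldBar L M H) : LaurentSeries QbH)
        = qExpand QbH e (sS QbH M H (a * g * c i)) := by
      intro i
      rw [hδ.map_s e (a * c i) heL _ rfl, mul_right_comm]
    simp only [h1]
    show ∑ i, qExpand QbH e (sS QbH M H (a * g * c i))
      = ∑ i, qExpand QbH e (sS QbH M H (a * c i))
    rw [← map_sum, ← map_sum, ← rtk6f_sS_eq_sum QbH hc (a * g), ← rtk6f_sS_eq_sum QbH hc a]
    congr 1
    refine es1f_sS_eq_of_inPM QbH ?_
    rw [rtk6f_inPM_iff, inv_mul_cancel_left]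
    exact hg

theorem rtk6f_diamond_fix (hc : IsRelRep H H' c) {g : (ZMod M)ˣ} (hg : g ∈ pmH H')
    {δ : fieldBar L M H ≃ₐ[QbH] fieldBar L M H} (hδ : IsDiamondH L M H g δ)
    (x : fieldBar L M H') :
    δ (IntermediateField.inclusion (rtk6f_fieldBar_le L hc) x) =
      IntermediateField.inclusion (rtk6f_fieldBar_le L hc) x := by
  obtain ⟨hy, h⟩ := rtk6f_le_fixed hc hg hδ x.2
  exact h


/-! ## The degree -/

theorem rtk6f_relfinrank_bar (hL : L ≠ 0) (hML : M ∣ L) (H : Subgroup (ZMod M)ˣ) :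
    (modularFunctionFieldBar L).relfinrank (fieldBar L M H) = (pmH H).index := by
  have hM : M ≠ 0 := fun h => hL (by rw [h] at hML; exact Nat.eq_zero_of_zero_dvd hML)
  obtain ⟨m, a, ha⟩ := exists_isRepFam hM H
  rw [rtk6f_index_of_repFam ha, Fermat.Agent.INJ.nf_bar_eq_fullC, es1f_fieldBar_eq]
  haveI : Algebra.IsAlgebraic ℚ Fermat.Agent.INJ.NfQb := by
    have h := AlgebraicClosure.isAlgebraic ℚ
    convert h
    · rfl
    · exact Subsingleton.elim _ _
  exact es1cu_relfinrank stmtDiamondH Fermat.Agent.INJ.NfQb L M H a hL hML ha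

theorem rtk6f_relfinrank (hL : L ≠ 0) (hML : M ∣ L) (hc : IsRelRep H H' c) :
    (fieldBar L M H').relfinrank (fieldBar L M H) = Fintype.card ι := by
  have h1 := IntermediateField.relfinrank_mul_relfinrank (dlh_bar_le_fieldBar L M H')
    (rtk6f_fieldBar_le L hc)
  rw [rtk6f_relfinrank_bar hL hML H, rtk6f_relfinrank_bar hL hML H',
    ← Subgroup.relIndex_mul_index hc.le, ← rtk6f_card_of_relRep hc, mul_comm] at h1
  exact Nat.eq_of_mul_eq_mul_right (Nat.pos_of_ne_zero Subgroup.index_ne_zero_of_finite) h1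

/-! ## The norm -/

/-- the norm `F → F'` -/
def rtk6fNorm (hle : fieldBar L M H' ≤ fieldBar L M H) (x : fieldBar L M H) :
    fieldBar L M H' :=
  letI := (IntermediateField.inclusion hle).toRingHom.toAlgebra
  Algebra.norm (fieldBar L M H') x

theorem rtk6f_finite (hL : L ≠ 0) (hML : M ∣ L) (hle : fieldBar L M H' ≤ fieldBar L M H) :
    letI := (IntermediateField.inclusion hle).toRingHom.toAlgebra
    Module.Finite (fieldBar L M H') (fieldBar L M H) :=
  es1h_finiteAlong (IntermediateField.inclusion hle) (es1hFin_all hL hML) (es1hFin_all hL hML)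

theorem rtk6f_charZero (L : ℕ) (H : Subgroup (ZMod M)ˣ) : CharZero (fieldBar L M H) :=
  charZero_of_injective_algebraMap (algebraMap QbH (fieldBar L M H)).injective

theorem rtk6fNorm_ne_zero (hL : L ≠ 0) (hML : M ∣ L) (hle : fieldBar L M H' ≤ fieldBar L M H)
    {x : fieldBar L M H} (hx : x ≠ 0) : rtk6fNorm hle x ≠ 0 := by
  letI := (IntermediateField.inclusion hle).toRingHom.toAlgebra
  haveI : Module.Finite (fieldBar L M H') (fieldBar L M H) := rtk6f_finite hL hML hle
  haveI : Module.Free (fieldBar L M H') (fieldBar L M H) := Module.Free.of_divisionRing _ _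
  exact Algebra.norm_ne_zero_iff.mpr hx


theorem rtk6f_diamond_injective (hL : L ≠ 0) (hML : M ∣ L) (hc : IsRelRep H H' c)
    (δ : ι → (fieldBar L M H ≃ₐ[QbH] fieldBar L M H))
    (hδ : ∀ i, IsDiamondH L M H (c i) (δ i)) :
    Function.Injective
      (fun i => ((δ i : fieldBar L M H ≃+* fieldBar L M H) :
        fieldBar L M H →+* fieldBar L M H)) := by
  have hM : M ≠ 0 := fun h => hL (by rw [h] at hML; exact Nat.eq_zero_of_zero_dvd hML)
  have h1M : 1 * M ∣ L := by rwa [one_mul]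
  intro i j hij
  apply hc.inj
  by_cases h3 : 3 ≤ M
  · have e : ∀ k, ((δ k (⟨qExpand QbH 1 (sS QbH M H 1), rtk6f_sS_mem_bar h1M 1⟩ :
        fieldBar L M H) : fieldBar L M H) : LaurentSeries QbH) = sS QbH M H (c k) := by
      intro k
      have := (hδ k).map_s 1 1 h1M ⟨qExpand QbH 1 (sS QbH M H 1), rtk6f_sS_mem_bar h1M 1⟩ rfl
      rw [one_mul] at this
      exact this.trans (qExpand_one_apply _)
    have h2 : δ i (⟨qExpand QbH 1 (sS QbH M H 1), rtk6f_sS_mem_bar h1M 1⟩ : fieldBar L M H)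
        = δ j (⟨qExpand QbH 1 (sS QbH M H 1), rtk6f_sS_mem_bar h1M 1⟩ : fieldBar L M H) :=
      congrArg (fun ψ : fieldBar L M H →+* fieldBar L M H =>
        ψ ⟨qExpand QbH 1 (sS QbH M H 1), rtk6f_sS_mem_bar h1M 1⟩) hij
    have h4 : sS QbH M H (c i) = sS QbH M H (c j) := by
      rw [← e i, ← e j, h2]
    exact rtk6f_inPM_iff.mp ((es1f_sS_eq_iff QbH h3).mp h4)
  · haveI := es1cu_units_subsingleton hM h3
    rw [Subsingleton.elim ((c i)⁻¹ * c j) 1]
    exact one_mem _

/-- **the norm is the product of the diamonds** -/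
theorem rtk6f_norm_eq_prod (hL : L ≠ 0) (hML : M ∣ L) (hc : IsRelRep H H' c)
    (δ : ι → (fieldBar L M H ≃ₐ[QbH] fieldBar L M H))
    (hδ : ∀ i, IsDiamondH L M H (c i) (δ i)) (x : fieldBar L M H) :
    IntermediateField.inclusion (rtk6f_fieldBar_le L hc) (rtk6fNorm (rtk6f_fieldBar_le L hc) x)
      = ∏ i, δ i x := by
  have hle := rtk6f_fieldBar_le L hc
  haveI := rtk6f_charZero L H'
  have hfin := rtk6f_finite hL hML hle
  have hsep : letI := (IntermediateField.inclusion hle).toRingHom.toAlgebra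
      Algebra.IsSeparable (fieldBar L M H') (fieldBar L M H) := by
    letI := (IntermediateField.inclusion hle).toRingHom.toAlgebra
    haveI : Module.Finite (fieldBar L M H') (fieldBar L M H) := hfin
    infer_instance
  have hcard : letI := (IntermediateField.inclusion hle).toRingHom.toAlgebra
      Fintype.card ι = Module.finrank (fieldBar L M H') (fieldBar L M H) := by
    rw [hdeg_finrank_inclusion hle, rtk6f_relfinrank hL hML hc]
  exact s36n2_hom_norm_eq_prod (IntermediateField.inclusion hle).toRingHom hfin hsep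
    (IntermediateField.inclusion hle).toRingHom
    (fun i => ((δ i : fieldBar L M H ≃+* fieldBar L M H) : fieldBar L M H →+* fieldBar L M H))
    (fun i y => rtk6f_diamond_fix hc (hc.mem i) (hδ i) y)
    (rtk6f_diamond_injective hL hML hc δ hδ) hcard x


/-- **the divisor of the norm**: `n D = div u` on `F` ⇒ `n ∣ ord_v (N u)` on `F'` -/
theorem rtk6f_dvd_ord_norm (hL : L ≠ 0) (hML : M ∣ L) (hle : fieldBar L M H' ≤ fieldBar L M H)
    (n : ℕ) (D : Divisor QbH (fieldBar L M H)) (u : fieldBar L M H) (hu : u ≠ 0)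
    (hD : ∀ w : Place QbH (fieldBar L M H), (n : ℤ) * D w = w.ord u)
    (v : Place QbH (fieldBar L M H')) : (n : ℤ) ∣ v.ord (rtk6fNorm hle u) := by
  have hF : Es1hFin L M H := es1hFin_all hL hML
  have hF' : Es1hFin L M H' := es1hFin_all hL hML
  have hNF := es1h_normFormulaAlong (IntermediateField.inclusion hle) hF' hF
  letI := algebraAlong (IntermediateField.inclusion hle)
  haveI := isScalarTower_along (IntermediateField.inclusion hle)
  haveI : FiniteDimensional (fieldBar L M H') (fieldBar L M H) :=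
    es1h_finiteAlong (IntermediateField.inclusion hle) hF' hF
  haveI : Algebra.IsIntegral (fieldBar L M H') (fieldBar L M H) := Algebra.IsIntegral.of_finite _ _
  haveI := es1h_hasPrincipalDivisors hF
  have hnD : ∀ w : Place QbH (fieldBar L M H), (n • D) w = w.ord u := by
    intro w
    rw [Finsupp.smul_apply, nsmul_eq_mul]
    exact hD w
  have h2 := hNF u hu (n • D) hnD v
  rw [map_nsmul, Finsupp.smul_apply, nsmul_eq_mul] at h2
  exact ⟨_, h2.symm⟩

/-! ## Galois -/

/-- the inclusion commutes with the arithmetic Galois action -/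
theorem rtk6f_incl_smul (hle : fieldBar L M H' ≤ fieldBar L M H) (σ : QbH ≃ₐ[ℚ] QbH)
    (x : fieldBar L M H') :
    arithmeticGalois (fieldQ L M H) σ • IntermediateField.inclusion hle x =
      IntermediateField.inclusion hle (arithmeticGalois (fieldQ L M H') σ • x) := by
  apply Subtype.ext
  rw [coe_arithmeticGalois_smul, IntermediateField.coe_inclusion,
    IntermediateField.coe_inclusion, coe_arithmeticGalois_smul]

end Fermat.Agent.RT.K6
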