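/-
K-machine, piece K6 / F (helper66): **(χ-J) from (χ-K) and UNIP for the level without diamonds
at `r`**, on the divisible elements.

`F = fieldBar L M H`, `H⁺ = H ⊔ {diamonds at r}`, `F⁺ = fieldBar L M H⁺`, `c_i` representatives of
`±H⁺ / ±H` among the diamonds at `r`, `d₀` their number (`d₀ ≤ r − 1`), `t = (σ − 1)(δ_c σ − 1)`.
For `x = d₀ y`, `y = [D]`, `(m d₀) D = div u`:
  `∏_i δ_i (t u) = (t u) ^ d₀ · (∏ h_i) ^ (m d₀)`          by (χ-K),
  `∏_i δ_i (t u) = t (N u) = (σ − 1)² (N u) = h₊ ^ (m d₀)`    by UNIP for `F⁺`,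
hence `(t u) ^ d₀ = G ^ (m d₀)`, `d₀ t D = div G` and `t x = 0`.

* `ChiKummerAt L M H r`, `UnipHAt L M H r`, `ChiJDivAt L M H r` : the statements at one level;
* `rtk6f_main : ChiKummerAt L M H r → UnipHAt L M H⁺ r → ChiJDivAt L M H r`;
* `stmtChiJDiv_of : StmtChiKummerP → StmtUnipH → StmtChiJDiv`;
* `stmtChiJP_of_div : StmtTorsDivH → StmtChiKummerP → StmtUnipH → StmtChiJP`.
-/
import Fermat.Agent.RT.K6.FAbs
import Fermat.Agent.RT.K6.FGal
import Fermat.Agent.RT.K6.FAtR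

set_option autoImplicit false
set_option linter.style.haveILetI false

noncomputable section

namespace Fermat.Agent.RT.K6

open ModularCurve AlgebraicCurve HahnSeries IntermediateField Fermat.Agent.ES Fermat.Agent.ES1
  Fermat.Agent.ES1.G2

section Formal

variable {L M : ℕ} {H H' : Subgroup (ZMod M)ˣ}

theorem rtk6f_chiExpr_eq (σ : QbH ≃ₐ[ℚ] QbH) (δ : fieldBar L M H ≃ₐ[QbH] fieldBar L M H)
    (u : fieldBar L M H) :
    chiExpr σ δ u =
      rtk6fChi (arithmeticGalois (fieldQ L M H) σ) (SemilinearAut.ofAlgAut δ) u := rfl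

theorem rtk6f_chiJ_eq (σ : QbH ≃ₐ[ℚ] QbH) (δ : fieldBar L M H ≃ₐ[QbH] fieldBar L M H)
    (x : JH L M H) :
    σ • diamondJ δ (σ • x) - σ • x - diamondJ δ (σ • x) + x =
      rtk6fChiJ (arithmeticGalois (fieldQ L M H) σ) (SemilinearAut.ofAlgAut δ) x := rfl

/-- the diamonds commute -/
theorem rtk6f_diamond_comm {c c' : (ZMod M)ˣ} {δ δ' : fieldBar L M H ≃ₐ[QbH] fieldBar L M H}
    (hδ : IsDiamondH L M H c δ) (hδ' : IsDiamondH L M H c' δ') :
    SemilinearAut.ofAlgAut δ' * SemilinearAut.ofAlgAut δ =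
      SemilinearAut.ofAlgAut δ * SemilinearAut.ofAlgAut δ' := by
  have h1 : IsDiamondH L M H (c * c') (δ' * δ) := by
    have := hδ'.mul hδ
    rwa [mul_comm c' c] at this
  have h2 := h1.unique (hδ.mul hδ')
  rw [← map_mul, ← map_mul, h2]

theorem rtk6f_coe_unip (σ : QbH ≃ₐ[ℚ] QbH) (v : fieldBar L M H) :
    (((arithmeticGalois (fieldQ L M H) σ • ((arithmeticGalois (fieldQ L M H) σ • v) / v)) /
          ((arithmeticGalois (fieldQ L M H) σ • v) / v) : fieldBar L M H) :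
          LaurentSeries QbH) =
      coeffMap (σ : QbH →+* QbH)
          (coeffMap (σ : QbH →+* QbH) (v : LaurentSeries QbH) / (v : LaurentSeries QbH)) /
        (coeffMap (σ : QbH →+* QbH) (v : LaurentSeries QbH) / (v : LaurentSeries QbH)) := rfl

/-- the inclusion and `(σ − 1)²` -/
theorem rtk6f_incl_unip (hle : fieldBar L M H' ≤ fieldBar L M H) (σ : QbH ≃ₐ[ℚ] QbH)
    (v : fieldBar L M H') :
    IntermediateField.inclusion hle
        ((arithmeticGalois (fieldQ L M H') σ • ((arithmeticGalois (fieldQ L M H') σ • v) / v)) /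
          ((arithmeticGalois (fieldQ L M H') σ • v) / v)) =
      (arithmeticGalois (fieldQ L M H) σ •
          ((arithmeticGalois (fieldQ L M H) σ • IntermediateField.inclusion hle v) /
            IntermediateField.inclusion hle v)) /
        ((arithmeticGalois (fieldQ L M H) σ • IntermediateField.inclusion hle v) /
          IntermediateField.inclusion hle v) := by
  apply Subtype.ext
  rw [IntermediateField.coe_inclusion, rtk6f_coe_unip σ v,
    rtk6f_coe_unip σ (IntermediateField.inclusion hle v), IntermediateField.coe_inclusion]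

end Formal

/-! ## The statements at one level -/

section Level

variable (L M : ℕ) (H : Subgroup (ZMod M)ˣ) (r : ℕ)

/-- (χ-K) at the level `(L; M, H)` and the prime `r` (all exponents prime to `r`) -/
def ChiKummerAt : Prop :=
  ∀ A : ValuationSubring QbH, A.LiesOverPrime r →
    ∀ m : ℕ, ¬ r ∣ m →
      ∀ σ ∈ A.inertiaSubgroupIn ℚ, ∀ c : (ZMod M)ˣ, IsCycAt M r σ c →
      ∀ δ : fieldBar L M H ≃ₐ[QbH] fieldBar L M H, IsDiamondH L M H c δ →
      ∀ (c' : (ZMod M)ˣ), IsAtR M r c' →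
      ∀ δ' : fieldBar L M H ≃ₐ[QbH] fieldBar L M H, IsDiamondH L M H c' δ' →
        ∀ u : fieldBar L M H, u ≠ 0 →
          (∀ P : Place QbH (fieldBar L M H), (m : ℤ) ∣ P.ord u) →
            ∃ h : fieldBar L M H, h ^ m = δ' (chiExpr σ δ u) / chiExpr σ δ u

/-- UNIP (Kummer form) at the level `(L; M, H)` and the prime `r` -/
def UnipHAt : Prop :=
  ∀ A : ValuationSubring QbH, A.LiesOverPrime r →
    ∀ m : ℕ, ¬ r ∣ m →
      ∀ σ ∈ A.inertiaSubgroupIn ℚ,
        ∀ u : fieldBar L M H, u ≠ 0 →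
          (∀ P : Place QbH (fieldBar L M H), (m : ℤ) ∣ P.ord u) →
            ∃ h : fieldBar L M H,
              h ^ m =
                (arithmeticGalois (fieldQ L M H) σ •
                    ((arithmeticGalois (fieldQ L M H) σ • u) / u)) /
                  ((arithmeticGalois (fieldQ L M H) σ • u) / u)

/-- (χ-J) on the divisible elements at the level `(L; M, H)` and the prime `r` -/
def ChiJDivAt : Prop :=
  ∀ A : ValuationSubring QbH, A.LiesOverPrime r →
    ∀ m : ℕ, ¬ r ∣ m →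
      ∀ σ ∈ A.inertiaSubgroupIn ℚ, ∀ c : (ZMod M)ˣ, IsCycAt M r σ c →
      ∀ δ : fieldBar L M H ≃ₐ[QbH] fieldBar L M H, IsDiamondH L M H c δ →
        ∀ x : JH L M H, m • x = 0 → IsDivJ x →
          σ • diamondJ δ (σ • x) - σ • x - diamondJ δ (σ • x) + x = 0

end Level

/-- **K6 / F at one level.** -/
theorem rtk6f_main {L M : ℕ} {H : Subgroup (ZMod M)ˣ} {r : ℕ} (hL : L ≠ 0) (hML : M ∣ L)
    (hr : r.Prime) (hrM : r ∣ M) (hr2 : ¬ r ^ 2 ∣ L) (hK : ChiKummerAt L M H r)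
    (hU : UnipHAt L M (H ⊔ rtk6fAtR M r hrM) r) : ChiJDivAt L M H r := by
  intro A hA m hm σ hσ c hcyc δ hδ x hx hdiv
  have hM0 : M ≠ 0 := fun h => hL (by rw [h] at hML; exact Nat.eq_zero_of_zero_dvd hML)
  haveI : NeZero M := ⟨hM0⟩
  have hr2M : ¬ r ^ 2 ∣ M := fun h => hr2 (h.trans hML)
  have hm0 : m ≠ 0 := by rintro rfl; exact hm (dvd_zero r)
  letI : Fintype (RelIdx H (H ⊔ rtk6fAtR M r hrM)) := Fintype.ofFinite _
  obtain ⟨cc, hcc, hccR, hd0, hrd⟩ := rtk6f_exists_relRep_atR H hrM hr hr2M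
  rw [Nat.card_eq_fintype_card] at hd0 hrd
  -- the diamonds `δ_i`
  have hB := stmtDiamondBarH_of_diamond stmtDiamondH
  choose δi hδi using fun i => hB L M H hL hML (cc i)
  -- `x = d₀ y`, `y = [D]`, `(m d₀) D = div u`
  obtain ⟨y, rfl⟩ := hdiv _ hd0
  obtain ⟨D, rfl⟩ := Pic0.mk_surjective y
  have hn : (m * Fintype.card (RelIdx H (H ⊔ rtk6fAtR M r hrM))) • Pic0.mk D = 0 := by
    rw [mul_smul]; exact hx
  obtain ⟨u, hu, hDu⟩ := rtk6f_exists_kummer D _ hn
  have hdvd : ∀ P : Place QbH (fieldBar L M H),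
      ((m * Fintype.card (RelIdx H (H ⊔ rtk6fAtR M r hrM)) : ℕ) : ℤ) ∣ P.ord u :=
    fun P => ⟨_, (hDu P).symm⟩
  have hrn : ¬ r ∣ m * Fintype.card (RelIdx H (H ⊔ rtk6fAtR M r hrM)) :=
    fun h => (hr.dvd_mul.mp h).elim hm hrd
  -- (χ-K)
  choose hi hhi using fun i =>
    hK A hA _ hrn σ hσ c hcyc δ hδ (cc i) (hccR i) (δi i) (hδi i) u hu hdvd
  -- UNIP for `F⁺`
  have hle := rtk6f_fieldBar_le L hcc
  have hv0 : rtk6fNorm hle u ≠ 0 := rtk6fNorm_ne_zero hL hML hle hu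
  obtain ⟨hp, hhp⟩ := hU A hA _ hrn σ hσ (rtk6fNorm hle u) hv0
    (fun P => rtk6f_dvd_ord_norm hL hML hle _ D u hu hDu P)
  -- `t (N u) = h₊ ^ (m d₀)`
  have hcmem : c ∈ pmH (H ⊔ rtk6fAtR M r hrM) :=
    rtk6f_atR_le H hrM ((mem_rtk6fAtR hrM).mpr hcyc.2)
  have hincl0 : IntermediateField.inclusion hle (rtk6fNorm hle u) ≠ 0 :=
    (map_ne_zero_iff _ (IntermediateField.inclusion hle).toRingHom.injective).mpr hv0
  have hfix : SemilinearAut.ofAlgAut δ • arithmeticGalois (fieldQ L M H) σ •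
      IntermediateField.inclusion hle (rtk6fNorm hle u) =
      arithmeticGalois (fieldQ L M H) σ • IntermediateField.inclusion hle (rtk6fNorm hle u) := by
    rw [rtk6f_incl_smul hle σ]
    exact rtk6f_diamond_fix hcc hcmem hδ _
  have hhp' : IntermediateField.inclusion hle hp ^
      (m * Fintype.card (RelIdx H (H ⊔ rtk6fAtR M r hrM))) =
      rtk6fChi (arithmeticGalois (fieldQ L M H) σ) (SemilinearAut.ofAlgAut δ)
        (∏ i, SemilinearAut.ofAlgAut (δi i) • u) := by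
    have e : (∏ i, SemilinearAut.ofAlgAut (δi i) • u) =
        IntermediateField.inclusion hle (rtk6fNorm hle u) :=
      (rtk6f_norm_eq_prod hL hML hcc δi hδi u).symm
    rw [e, rtk6fChi_of_fixed _ _ hincl0 hfix, ← rtk6f_incl_unip hle σ, ← hhp, map_pow]
  -- conclusion
  rw [rtk6f_chiJ_eq]
  exact rtk6f_abs (arithmeticGalois (fieldQ L M H) σ) (SemilinearAut.ofAlgAut δ)
    (fun i => SemilinearAut.ofAlgAut (δi i)) (fun i => (diamb_galois_field (hδi i) σ).symm)
    (fun i => rtk6f_diamond_comm hδ (hδi i)) m hm0 hd0 D hu hDu hi hhi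
    (IntermediateField.inclusion hle hp) hhp'

/-- **K6 / F.**  (χ-J) on the divisible elements, from (χ-K) and UNIP for the levels without
diamonds at `r`. -/
theorem stmtChiJDiv_of (hK : StmtChiKummerP) (hU : StmtUnipH) : StmtChiJDiv := by
  intro L M H r hL hML hr hrM hr2 hstar htame
  have hM0 : M ≠ 0 := fun h => hL (by rw [h] at hML; exact Nat.eq_zero_of_zero_dvd hML)
  haveI : NeZero M := ⟨hM0⟩
  exact rtk6f_main hL hML hr hrM hr2 (hK L M H r hL hML hr hrM hr2 hstar htame)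
    (hU L M (H ⊔ rtk6fAtR M r hrM) r hL hML hr hrM hr2
      (fun c' hc' => rtk6f_atR_le H hrM ((mem_rtk6fAtR hrM).mpr hc')))

/-- **K6 / F**, full form, from the divisibility of the torsion of `JH`. -/
theorem stmtChiJP_of_div (hdiv : StmtTorsDivH) (hK : StmtChiKummerP) (hU : StmtUnipH) :
    StmtChiJP := by
  intro L M H r hL hML hr hrM hr2 hstar htame A hA m hm σ hσ c hcyc δ hδ x hx
  have hm0 : m ≠ 0 := by rintro rfl; exact hm (dvd_zero r)
  exact stmtChiJDiv_of hK hU L M H r hL hML hr hrM hr2 hstar htame A hA m hm σ hσ c hcyc δ hδ x hx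
    (hdiv L M H hL hML m x hm0 hx)

end Fermat.Agent.RT.K6
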