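/-
K-machine, piece K6 / F + AUX (helper66): **(χ-J) on the divisible elements from (χ-K) and UNIP
at the rigid levels `36 ∣ L` only**.

Fork of helper94's AUX (`RT/K6/AuxAbs.lean`, `AuxLevel.lean`) for the statement on the DIVISIBLE
classes: the pull-back of a divisible class is divisible.

* `rtk6fa_abs`  : abstract descent along a map of degree prime to `m`, divisible classes;
* `ChiJDivAtM L M H r m` : (χ-J) on the divisible `m`-torsion classes at one level;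
* `rtk6fa_step`, `rtk6fa_pow` : descent from the level `L ℓ₀`, resp. `L 2^a 3^b`, to the level `L`;
* `StmtChiKummerPRigid36`, `StmtUnipHRigid36` : (χ-K) (tame form) and UNIP (levels without
  diamonds at `r`) at the levels with `36 ∣ L` — THE TARGETS OF PIECE E;
* `StmtChiJDiv5` : (χ-J) on the divisible classes, tame levels, `r ≥ 5`, exponents prime to `6`;
* `stmtChiJDiv5_of_rigid : StmtChiKummerPRigid36 → StmtUnipHRigid36 → StmtChiJDiv5`.
-/
import Fermat.Agent.RT.K6.AuxLevel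
import Fermat.Agent.RT.K6.F

set_option autoImplicit false
set_option linter.unusedSectionVars false
set_option linter.style.haveILetI false

noncomputable section

open AlgebraicCurve AlgebraicCurve.SemilinearAut Module ModularCurve IntermediateField

namespace Fermat.Agent.RT.K6

open Fermat.Agent.ES Fermat.Agent.ES1 Fermat.Agent.ES1.G2 Fermat.Agent.W1 Fermat.Agent.STB
  Fermat.Agent.S15.LD

section Abs

variable {K F F' : Type*} [Field K] [Field F] [Field F'] [Algebra K F] [Algebra K F']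
  [HasPrincipalDivisors K F']

/-- **AUX, abstract, divisible classes.** -/
theorem rtk6fa_abs
    (hres : ∀ v : Place K F, Function.Bijective (algebraMap K v.ResidueField))
    (hres' : ∀ v : Place K F', Function.Bijective (algebraMap K v.ResidueField))
    (φ : F →ₐ[K] F') (hφ : φ.toRingHom.IsIntegral) (hFI : FundamentalIdentityAlong K φ hφ)
    (hfin : FiniteAlong K φ) (hN : NormFormulaAlong K φ hfin)
    {g h : SemilinearAut K F} {g' h' : SemilinearAut K F'}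
    (hg : IntertwinesAlong (φ : F →+* F') g g') (hh : IntertwinesAlong (φ : F →+* F') h h')
    (m : ℕ) (hcop : Nat.Coprime m (finrankAlong K φ))
    (H' : ∀ y : Pic0 K F', m • y = 0 → (∀ e : ℕ, e ≠ 0 → ∃ z : Pic0 K F', e • z = y) →
      rtk6auxChi g' h' y = 0)
    (x : Pic0 K F) (hx : m • x = 0) (hdiv : ∀ e : ℕ, e ≠ 0 → ∃ z : Pic0 K F, e • z = x) :
    rtk6auxChi g h x = 0 := by
  set z := rtk6auxChi g h x with hz
  have hmz : m • z = 0 := by
    rw [hz, ← rtk6auxChi_nsmul, hx]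
    have h0 := rtk6auxChi_nsmul g h 0 x
    rwa [zero_nsmul, zero_nsmul] at h0
  have hpull : lvlPic0 φ hφ hFI z = 0 := by
    rw [hz, rtk6aux_pull_chi φ hφ hFI hg hh]
    apply H'
    · rw [← map_nsmul, hx, map_zero]
    · intro e he
      obtain ⟨w, hw⟩ := hdiv e he
      exact ⟨lvlPic0 φ hφ hFI w, by rw [← map_nsmul, hw]⟩
  have hD : finrankAlong K φ • z = 0 := by
    rw [← ld_push_pull hres hres' φ hφ hFI hfin hN z, hpull, map_zero]
  have hb := Nat.gcd_eq_gcd_ab m (finrankAlong K φ)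
  rw [hcop.gcd_eq_one] at hb
  have e1 : ((m : ℤ) * m.gcdA (finrankAlong K φ)) • z = 0 := by
    rw [mul_comm, mul_zsmul, natCast_zsmul, hmz, zsmul_zero]
  have e2 : (((finrankAlong K φ : ℕ) : ℤ) * m.gcdB (finrankAlong K φ)) • z = 0 := by
    rw [mul_comm, mul_zsmul, natCast_zsmul, hD, zsmul_zero]
  have h1 : ((1 : ℕ) : ℤ) • z = 0 := by
    rw [hb, add_zsmul, e1, e2, add_zero]
  rwa [Nat.cast_one, one_zsmul] at h1

end Abs

/-! ## (χ-J) on the divisible classes at one level and one exponent -/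

section Level

variable (L M : ℕ) (H : Subgroup (ZMod M)ˣ)

/-- (χ-J) on the divisible `m`-torsion classes at the level `(L; M, H)` -/
def ChiJDivAtM (r m : ℕ) : Prop :=
  ∀ A : ValuationSubring QbH, A.LiesOverPrime r →
    ∀ σ ∈ A.inertiaSubgroupIn ℚ, ∀ c : (ZMod M)ˣ, IsCycAt M r σ c →
    ∀ δ : fieldBar L M H ≃ₐ[QbH] fieldBar L M H, IsDiamondH L M H c δ →
      ∀ x : JH L M H, m • x = 0 → IsDivJ x →
        σ • diamondJ δ (σ • x) - σ • x - diamondJ δ (σ • x) + x = 0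

/-- **one prime step** -/
theorem rtk6fa_step (r m ℓ₀ : ℕ) (hL : L ≠ 0) (hML : M ∣ L) (hℓ₀ : ℓ₀.Prime)
    (hm : Nat.Coprime m (if ℓ₀ ∣ L then ℓ₀ else ℓ₀ + 1))
    (h : ChiJDivAtM (L * ℓ₀) M H r m) : ChiJDivAtM L M H r m := by
  intro A hA σ hσ c hc δ hδ x hx hdiv
  have hL' : L * ℓ₀ ≠ 0 := Nat.mul_ne_zero hL hℓ₀.ne_zero
  have hML' : M ∣ L * ℓ₀ := Dvd.dvd.mul_right hML ℓ₀
  obtain ⟨δ', hδ'⟩ := stmtDiamondBarH_of_diamond stmtDiamondH (L * ℓ₀) M H hL' hML' c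
  have hF : Es1hFin L M H := es1hFin_all hL hML
  have hF' : Es1hFin (L * ℓ₀) M H := es1hFin_all hL' hML'
  haveI : HasPrincipalDivisors QbH (fieldBar (L * ℓ₀) M H) := es1h_hasPrincipalDivisors hF'
  have hφ := es1h_integral (es1hAlpha L M H ℓ₀) hF hF'
  have hfin := es1h_finiteAlong (es1hAlpha L M H ℓ₀) hF hF'
  rw [rtk6aux_chi_eq]
  refine rtk6fa_abs (es1h_residue_bijective hF) (es1h_residue_bijective hF')
    (es1hAlpha L M H ℓ₀) hφ (es1h_fundamentalIdentityAlong (es1hAlpha L M H ℓ₀) hF hF')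
    hfin (es1h_normFormulaAlong (es1hAlpha L M H ℓ₀) hF hF')
    (rtk6aux_intertwines_gal L M H ℓ₀ σ) (rtk6aux_intertwines_diamond ℓ₀ hδ hδ') m ?_ ?_ x hx
    hdiv
  · rw [rtk6aux_finrankAlong L M H ℓ₀ hL hML hℓ₀]
    exact hm
  · intro y hy hydiv
    rw [← rtk6aux_chi_eq]
    exact h A hA σ hσ c hc δ' hδ' y hy hydiv

variable {L}

/-- **general auxiliary level** `2 ^ a * 3 ^ b`, exponents prime to `6` -/
theorem rtk6fa_pow (r m : ℕ) (hm : Nat.Coprime m 6) (a b : ℕ) :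
    ∀ L : ℕ, L ≠ 0 → M ∣ L → ChiJDivAtM (L * 2 ^ a * 3 ^ b) M H r m → ChiJDivAtM L M H r m := by
  have h2 : Nat.Coprime m 2 := Nat.Coprime.coprime_dvd_right (by norm_num : 2 ∣ 6) hm
  have h3 : Nat.Coprime m 3 := Nat.Coprime.coprime_dvd_right (by norm_num : 3 ∣ 6) hm
  have h4 : Nat.Coprime m 4 := by
    have : (4 : ℕ) = 2 ^ 2 := by norm_num
    rw [this]
    exact Nat.Coprime.pow_right 2 h2
  have hc2 : ∀ L' : ℕ, Nat.Coprime m (if 2 ∣ L' then 2 else 2 + 1) := by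
    intro L'
    split_ifs
    · exact h2
    · exact h3
  have hc3 : ∀ L' : ℕ, Nat.Coprime m (if 3 ∣ L' then 3 else 3 + 1) := by
    intro L'
    split_ifs
    · exact h3
    · exact h4
  induction b with
  | zero =>
    induction a with
    | zero =>
      intro L _ _ h
      simpa using h
    | succ a iha =>
      intro L hL hML h
      refine rtk6fa_step L M H r m 2 hL hML Nat.prime_two (hc2 L) ?_
      refine iha (L * 2) (Nat.mul_ne_zero hL two_ne_zero) (Dvd.dvd.mul_right hML 2) ?_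
      have e : L * 2 * 2 ^ a * 3 ^ 0 = L * 2 ^ (a + 1) * 3 ^ 0 := by ring
      rw [e]
      exact h
  | succ b ihb =>
    intro L hL hML h
    refine rtk6fa_step L M H r m 3 hL hML Nat.prime_three (hc3 L) ?_
    refine ihb (L * 3) (Nat.mul_ne_zero hL three_ne_zero) (Dvd.dvd.mul_right hML 3) ?_
    have e : L * 3 * 2 ^ a * 3 ^ b = L * 2 ^ a * 3 ^ (b + 1) := by ring
    rw [e]
    exact h

end Level

/-! ## The statements -/

/-- **(χ-K), tame case, at the levels with `36 ∣ L`** (target of piece E). -/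
def StmtChiKummerPRigid36 : Prop :=
  ∀ (L M : ℕ) (H : Subgroup (ZMod M)ˣ) (r : ℕ), L ≠ 0 → M ∣ L → r.Prime → r ∣ M → ¬ r ^ 2 ∣ L →
    IsStarStable M r H → IsTameAt L M r H → 36 ∣ L → 5 ≤ r → ChiKummerAt L M H r

/-- **UNIP for the levels without diamonds at `r`, at the levels with `36 ∣ L`** (target of
piece E, case `d = 1`). -/
def StmtUnipHRigid36 : Prop :=
  ∀ (L M : ℕ) (H : Subgroup (ZMod M)ˣ) (r : ℕ), L ≠ 0 → M ∣ L → r.Prime → r ∣ M → ¬ r ^ 2 ∣ L →
    (∀ c : (ZMod M)ˣ, IsAtR M r c → c ∈ pmH H) → 36 ∣ L → 5 ≤ r → UnipHAt L M H r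

/-- **(χ-J) on the divisible classes**, tame levels, `r ≥ 5`, exponents prime to `6`. -/
def StmtChiJDiv5 : Prop :=
  ∀ (L M : ℕ) (H : Subgroup (ZMod M)ˣ) (r : ℕ), L ≠ 0 → M ∣ L → r.Prime → r ∣ M → ¬ r ^ 2 ∣ L →
    IsStarStable M r H → IsTameAt L M r H → 5 ≤ r →
    ∀ A : ValuationSubring QbH, A.LiesOverPrime r →
      ∀ m : ℕ, ¬ r ∣ m → Nat.Coprime m 6 →
        ∀ σ ∈ A.inertiaSubgroupIn ℚ, ∀ c : (ZMod M)ˣ, IsCycAt M r σ c →
        ∀ δ : fieldBar L M H ≃ₐ[QbH] fieldBar L M H, IsDiamondH L M H c δ →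
          ∀ x : JH L M H, m • x = 0 → IsDivJ x →
            σ • diamondJ δ (σ • x) - σ • x - diamondJ δ (σ • x) + x = 0

/-- **K6 / F + AUX.**  (χ-J) on the divisible classes at ALL tame levels (`r ≥ 5`, exponents prime
to `6`) from (χ-K) and UNIP at the rigid levels `36 ∣ L`. -/
theorem stmtChiJDiv5_of_rigid (hK : StmtChiKummerPRigid36) (hU : StmtUnipHRigid36) :
    StmtChiJDiv5 := by
  intro L M H r hL hML hr hrM hr2 hstar htame hr5 A hA m hrm hm6 σ hσ c hc δ hδ x hx hdiv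
  have hM0 : M ≠ 0 := fun h => hL (by rw [h] at hML; exact Nat.eq_zero_of_zero_dvd hML)
  haveI : NeZero M := ⟨hM0⟩
  have hL36 : L * 2 ^ 2 * 3 ^ 2 ≠ 0 :=
    Nat.mul_ne_zero (Nat.mul_ne_zero hL (by norm_num)) (by norm_num)
  have hML36 : M ∣ L * 2 ^ 2 * 3 ^ 2 := Dvd.dvd.mul_right (Dvd.dvd.mul_right hML _) _
  have hr2' : Nat.Coprime r 2 :=
    (Nat.coprime_primes hr Nat.prime_two).mpr (by omega)
  have hr3' : Nat.Coprime r 3 :=
    (Nat.coprime_primes hr Nat.prime_three).mpr (by omega)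
  have hcop : Nat.Coprime (r ^ 2) (2 ^ 2 * 3 ^ 2) :=
    Nat.Coprime.pow_left 2 (Nat.Coprime.mul_right (Nat.Coprime.pow_right 2 hr2')
      (Nat.Coprime.pow_right 2 hr3'))
  have hr36 : ¬ r ^ 2 ∣ L * 2 ^ 2 * 3 ^ 2 := by
    intro h
    rw [mul_assoc] at h
    exact hr2 (hcop.dvd_of_dvd_mul_right h)
  have h36 : 36 ∣ L * 2 ^ 2 * 3 ^ 2 := ⟨L, by ring⟩
  have hmain : ChiJDivAt (L * 2 ^ 2 * 3 ^ 2) M H r :=
    rtk6f_main hL36 hML36 hr hrM hr36
      (hK _ M H r hL36 hML36 hr hrM hr36 hstar (rtk6aux_isTameAt_36 htame) h36 hr5)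
      (hU _ M (H ⊔ rtk6fAtR M r hrM) r hL36 hML36 hr hrM hr36
        (fun c' hc' => rtk6f_atR_le H hrM ((mem_rtk6fAtR hrM).mpr hc')) h36 hr5)
  have key : ChiJDivAtM (L * 2 ^ 2 * 3 ^ 2) M H r m :=
    fun A' hA' σ' hσ' c' hc' δ' hδ' y hy hyd =>
      hmain A' hA' m hrm σ' hσ' c' hc' δ' hδ' y hy hyd
  exact rtk6fa_pow M H r m hm6 2 2 L hL hML key A hA σ hσ c hc δ hδ x hx hdiv

end Fermat.Agent.RT.K6
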