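/-
K-machine, piece K6, piece D-LF-abs (helper80): the ABSTRACT half of the local factorisation (LF).

Pure algebra (Mathlib + `DUfd.lean` + the dictionary of `S36/N2PtsFac.lean`).

* `rtk6lf_ufd` : a noetherian local domain `O` with `𝔪 = (X, Y)`, `X` a prime element, is a UFD
  (Kaplansky's criterion + `rtk6d_principal_of_node`).
* `rtk6lf_fac_tube`, `rtk6lf_fac` : `O` a UFD with fraction field `F ⊇ E`, `V c` (`thr c`) the components through the
  point, the DICTIONARY `S36n2pDict E O thr V`, `X`, `Y` prime elements such that every component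
  through the point is the `X`-component or the `Y`-component.  If `y ∈ F^×` and `m ∣ ord_P y`
  for every place `P` of `F / E`, then

      `y = ε · X ^ a · Y ^ b · γ ^ m`,   `ε ∈ O^×`, `a, b ∈ ℤ`, `γ ∈ F^×` a unit at every `V c`.

* `rtk6lf_val_X`, `rtk6lf_val_Y` : the exponents `a`, `b` are the valuations of `y` at the
  components (`X ∤ Y`, `Y ∤ X`).
* `rtk6lf_absorb` : if `m ∣ a` then `y = ε · Y ^ b · γ′ ^ m` (the form (LF) of `NOTES/RT-K6-D.md`).
-/
import Fermat.Agent.RT.K6.DUfd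
import Fermat.Agent.S36.N2PtsFac

set_option autoImplicit false
set_option linter.style.haveILetI false
set_option linter.unusedSectionVars false

namespace Fermat.Agent.RT.K6

open IsLocalRing AlgebraicCurve Fermat.Agent.S36

section UFD

variable {O : Type*} [CommRing O] [IsDomain O] [IsLocalRing O] [IsNoetherianRing O]

/-- A noetherian local domain whose maximal ideal is `(X, Y)` with `X` a prime element is
factorial. -/
theorem rtk6lf_ufd (X Y : O) (hm : maximalIdeal O = Ideal.span {X, Y}) (hX : Prime X) :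
    UniqueFactorizationMonoid O := by
  refine UniqueFactorizationMonoid.iff_exists_prime_mem_of_isPrime.mpr ?_
  intro I hI hIp
  by_cases hXI : X ∈ I
  · exact ⟨X, hXI, hX⟩
  · haveI := hIp
    obtain ⟨g, hgI, hg⟩ := rtk6d_principal_of_node X Y hm I hXI
    refine ⟨g, hgI, ?_⟩
    have hg0 : g ≠ 0 := by
      rintro rfl
      apply hI
      rw [hg]
      simp
    rw [← Ideal.span_singleton_prime hg0, ← hg]
    exact hIp

end UFD

section Fac

variable {E O F : Type*} [Field E] [CommRing O] [IsDomain O] [UniqueFactorizationMonoid O]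
  [Field F] [Algebra O F] [IsFractionRing O F] [Algebra E F] {κ : Type*}

omit [UniqueFactorizationMonoid O] in
theorem rtk6lf_map_ne_zero {z : O} (hz : z ≠ 0) : algebraMap O F z ≠ 0 := fun h0 =>
  hz ((IsFractionRing.injective O F) (by rw [h0, map_zero]))

omit [UniqueFactorizationMonoid O] [Field F] [Algebra O F] [IsFractionRing O F] in
/-- a prime element dividing a prime element divides conversely -/
theorem rtk6lf_dvd_symm {f g : O} (hf : Prime f) (hg : Prime g) (h : f ∣ g) : g ∣ f := by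
  obtain ⟨c, hc⟩ := h
  rcases hg.irreducible.isUnit_or_isUnit hc with h1 | h1
  · exact absurd h1 hf.not_isUnit
  · obtain ⟨u, rfl⟩ := h1
    refine ⟨(u⁻¹ : Oˣ), ?_⟩
    rw [hc, mul_assoc, Units.mul_inv, mul_one]

/-- the multiplicity of a HORIZONTAL prime in the numerator of a reduced fraction of `y` is
divisible by `m` -/
theorem rtk6lf_mult_dvd_num (m : ℕ) {y : F}
    (hhor : ∀ P : Place E F, (∀ x : O, algebraMap O F x ∈ P.toValuationSubring) →
      (m : ℤ) ∣ P.ord y)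
    {a b : O} (hb0 : b ≠ 0) (hab : IsRelPrime a b)
    (hyab : y * algebraMap O F b = algebraMap O F a)
    {f : O} (hf : Prime f)
    (hE : ∀ e : E, ∃ a b : O, ¬ f ∣ b ∧ algebraMap E F e * algebraMap O F b = algebraMap O F a)
    {n : ℕ} {a' : O} (ha : a = f ^ n * a') (ha' : ¬ f ∣ a') : m ∣ n := by
  rcases Nat.eq_zero_or_pos n with rfl | hn
  · exact dvd_zero m
  have hfb : ¬ f ∣ b := by
    intro hfb
    apply hf.not_isUnit
    refine hab ?_ hfb
    rw [ha]
    exact Dvd.dvd.mul_right (dvd_pow_self f hn.ne') _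
  have hbF : algebraMap O F b ≠ 0 := rtk6lf_map_ne_zero hb0
  have hy : y = algebraMap O F f ^ (n : ℤ) * (algebraMap O F a' / algebraMap O F b) := by
    have e : y = algebraMap O F a / algebraMap O F b := by
      rw [← hyab]; field_simp
    rw [e, ha, map_mul, map_pow, zpow_natCast]
    field_simp
  have hord := s36n2p_ord (E := E) f hf hE ha' hfb hy
  have hdvd := hhor (s36n2pPlace (E := E) f hf hE)
    (fun x => s36n2p_algebraMap_mem_loc (F := F) hf x)
  rw [hord] at hdvd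
  exact Int.natCast_dvd_natCast.mp hdvd

/-- the same for the denominator -/
theorem rtk6lf_mult_dvd_den (m : ℕ) {y : F}
    (hhor : ∀ P : Place E F, (∀ x : O, algebraMap O F x ∈ P.toValuationSubring) →
      (m : ℤ) ∣ P.ord y)
    {a b : O} (hab : IsRelPrime a b)
    (hyab : y * algebraMap O F b = algebraMap O F a)
    {f : O} (hf : Prime f)
    (hE : ∀ e : E, ∃ a b : O, ¬ f ∣ b ∧ algebraMap E F e * algebraMap O F b = algebraMap O F a)
    {k : ℕ} {b' : O} (hb : b = f ^ k * b') (hb' : ¬ f ∣ b') : m ∣ k := by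
  rcases Nat.eq_zero_or_pos k with rfl | hk
  · exact dvd_zero m
  have hfa : ¬ f ∣ a := by
    intro hfa
    apply hf.not_isUnit
    refine hab hfa ?_
    rw [hb]
    exact Dvd.dvd.mul_right (dvd_pow_self f hk.ne') _
  have hb'0 : b' ≠ 0 := fun h0 => hb' (by rw [h0]; exact dvd_zero f)
  have hf0 : algebraMap O F f ≠ 0 := rtk6lf_map_ne_zero hf.ne_zero
  have hb'F : algebraMap O F b' ≠ 0 := rtk6lf_map_ne_zero hb'0
  have hy : y = algebraMap O F f ^ (-(k : ℤ)) * (algebraMap O F a / algebraMap O F b') := by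
    have hbF : algebraMap O F b ≠ 0 := by
      rw [hb, map_mul, map_pow]
      exact mul_ne_zero (pow_ne_zero k hf0) hb'F
    have e : y = algebraMap O F a / algebraMap O F b := by
      rw [← hyab]; field_simp
    rw [e, hb, map_mul, map_pow, zpow_neg, zpow_natCast]
    field_simp
  have hord := s36n2p_ord (E := E) f hf hE hfa hb' hy
  have hdvd := hhor (s36n2pPlace (E := E) f hf hE)
    (fun x => s36n2p_algebraMap_mem_loc (F := F) hf x)
  rw [hord] at hdvd
  exact Int.natCast_dvd_natCast.mp ((dvd_neg (a := (m : ℤ))).mp hdvd)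

/-- splitting off the `X`-part and the `Y`-part of a nonzero element -/
theorem rtk6lf_split {X Y : O} (hX : Prime X) (hY : Prime Y) {a : O} (ha : a ≠ 0) :
    ∃ (i j : ℕ) (a' : O), a = X ^ i * Y ^ j * a' ∧ ¬ X ∣ a' ∧ ¬ Y ∣ a' := by
  obtain ⟨i, a₁, h1, h1'⟩ := s36n2p_exists_mult hX ha
  have ha₁ : a₁ ≠ 0 := fun h0 => h1' (by rw [h0]; exact dvd_zero X)
  obtain ⟨j, a₂, h2, h2'⟩ := s36n2p_exists_mult hY ha₁
  refine ⟨i, j, a₂, ?_, ?_, h2'⟩
  · rw [h1, h2]; ring
  · intro h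
    apply h1'
    rw [h2]
    exact Dvd.dvd.mul_left h _

variable (thr : κ → Prop) (V : κ → ValuationSubring F)

/-- an element of `O` prime to `X` and `Y` is a unit at every component through the point -/
theorem rtk6lf_val_one (hOV : ∀ c, thr c → ∀ x : O, algebraMap O F x ∈ V c) {X Y : O}
    (hvert : ∀ c, thr c → (∀ x : O, algebraMap O F x ∈ (V c).nonunits → X ∣ x) ∨
      (∀ x : O, algebraMap O F x ∈ (V c).nonunits → Y ∣ x))
    {z : O} (hzX : ¬ X ∣ z) (hzY : ¬ Y ∣ z) (c : κ) (hc : thr c) :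
    (V c).valuation (algebraMap O F z) = 1 := by
  refine le_antisymm (((V c).valuation_le_one_iff _).2 (hOV c hc z)) (not_lt.1 fun h => ?_)
  have hmem : algebraMap O F z ∈ (V c).nonunits := (ValuationSubring.mem_nonunits_iff (V c)).2 h
  rcases hvert c hc with h1 | h1
  · exact hzX (h1 z hmem)
  · exact hzY (h1 z hmem)

/-- the primes of the part prime to `X`, `Y` of a reduced fraction are horizontal -/
theorem rtk6lf_horizontal (hdict : S36n2pDict E O thr V) {X Y : O}
    (hvert : ∀ c, thr c → (∀ x : O, algebraMap O F x ∈ (V c).nonunits → X ∣ x) ∨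
      (∀ x : O, algebraMap O F x ∈ (V c).nonunits → Y ∣ x))
    {f : O} (hf : Prime f) (hfX : ¬ X ∣ f) (hfY : ¬ Y ∣ f) :
    ∀ e : E, ∃ a b : O, ¬ f ∣ b ∧ algebraMap E F e * algebraMap O F b = algebraMap O F a := by
  rcases hdict f hf with ⟨c, hc, hfc, -⟩ | hE
  · exfalso
    rcases hvert c hc with h1 | h1
    · exact hfX (h1 f hfc)
    · exact hfY (h1 f hfc)
  · exact hE

/-- **(LF), abstract form**: `y = ε · X ^ a · Y ^ b · γ ^ m`; only the places of `F / E` CENTRED
on `O` (the places in the tube of the point) are used. -/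
theorem rtk6lf_fac_tube (hOV : ∀ c, thr c → ∀ x : O, algebraMap O F x ∈ V c)
    (hdict : S36n2pDict E O thr V) {X Y : O} (hX : Prime X) (hY : Prime Y)
    (hvert : ∀ c, thr c → (∀ x : O, algebraMap O F x ∈ (V c).nonunits → X ∣ x) ∨
      (∀ x : O, algebraMap O F x ∈ (V c).nonunits → Y ∣ x))
    (m : ℕ) {y : F} (hy : y ≠ 0) (hhor : ∀ P : Place E F, (∀ x : O, algebraMap O F x ∈ P.toValuationSubring) →
      (m : ℤ) ∣ P.ord y) :
    ∃ (γ : F) (ε : Oˣ) (a b : ℤ),
      y = algebraMap O F (ε : O) * algebraMap O F X ^ a * algebraMap O F Y ^ b * γ ^ m ∧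
      γ ≠ 0 ∧ ∀ c, thr c → (V c).valuation γ = 1 := by
  classical
  obtain ⟨A, B, hAB, hyAB⟩ := IsFractionRing.exists_reduced_fraction O y
  have hB0' : (B : O) ≠ 0 := nonZeroDivisors.ne_zero B.2
  have hB0 : algebraMap O F (B : O) ≠ 0 := rtk6lf_map_ne_zero hB0'
  have hyB : y * algebraMap O F (B : O) = algebraMap O F A := by
    rw [← hyAB, IsLocalization.mk'_spec]
  have hA0' : A ≠ 0 := by
    rintro rfl
    rw [map_zero] at hyB
    rcases mul_eq_zero.mp hyB with h | h
    · exact hy h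
    · exact hB0 h
  obtain ⟨i, j, A', hA, hA'X, hA'Y⟩ := rtk6lf_split hX hY hA0'
  obtain ⟨i', j', B', hB, hB'X, hB'Y⟩ := rtk6lf_split hX hY hB0'
  have hA'0 : A' ≠ 0 := fun h0 => hA'X (by rw [h0]; exact dvd_zero X)
  have hB'0 : B' ≠ 0 := fun h0 => hB'X (by rw [h0]; exact dvd_zero X)
  have hXF : algebraMap O F X ≠ 0 := rtk6lf_map_ne_zero hX.ne_zero
  have hYF : algebraMap O F Y ≠ 0 := rtk6lf_map_ne_zero hY.ne_zero
  have hA'F : algebraMap O F A' ≠ 0 := rtk6lf_map_ne_zero hA'0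
  have hB'F : algebraMap O F B' ≠ 0 := rtk6lf_map_ne_zero hB'0
  -- the shape of `y`
  have e : y = algebraMap O F X ^ ((i : ℤ) - i') * algebraMap O F Y ^ ((j : ℤ) - j') *
      (algebraMap O F A' / algebraMap O F B') := by
    have e0 : y = algebraMap O F A / algebraMap O F (B : O) := by
      rw [← hyB]; field_simp
    rw [e0, hA, hB, zpow_sub₀ hXF, zpow_sub₀ hYF, zpow_natCast, zpow_natCast, zpow_natCast,
      zpow_natCast]
    simp only [map_mul, map_pow]
    field_simp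
  -- a prime dividing `A'` or `B'` is prime to `X`, `Y`
  have hprime : ∀ (z : O), ¬ X ∣ z → ¬ Y ∣ z → ∀ f : O, Prime f → f ∣ z → ¬ X ∣ f ∧ ¬ Y ∣ f := by
    intro z hzX hzY f hf hfz
    exact ⟨fun h => hzX (h.trans hfz), fun h => hzY (h.trans hfz)⟩
  -- the multiplicities in `A'`
  have hmA : ∀ f : O, Prime f → ∀ (n : ℕ) (a' : O), A' = f ^ n * a' → ¬ f ∣ a' → m ∣ n := by
    intro f hf n a' hn ha'
    rcases Nat.eq_zero_or_pos n with rfl | hn0
    · exact dvd_zero m
    have hfA' : f ∣ A' := by rw [hn]; exact Dvd.dvd.mul_right (dvd_pow_self f hn0.ne') _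
    obtain ⟨hfX, hfY⟩ := hprime A' hA'X hA'Y f hf hfA'
    have hE := rtk6lf_horizontal thr V hdict hvert hf hfX hfY
    have hXf : ¬ f ∣ X := fun h => hfX (rtk6lf_dvd_symm hf hX h)
    have hYf : ¬ f ∣ Y := fun h => hfY (rtk6lf_dvd_symm hf hY h)
    have hA2 : A = f ^ n * (X ^ i * Y ^ j * a') := by rw [hA, hn]; ring
    have hnd : ¬ f ∣ X ^ i * Y ^ j * a' := by
      intro h
      rcases hf.dvd_or_dvd h with h1 | h1
      · rcases hf.dvd_or_dvd h1 with h2 | h2
        · exact hXf (hf.dvd_of_dvd_pow h2)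
        · exact hYf (hf.dvd_of_dvd_pow h2)
      · exact ha' h1
    exact rtk6lf_mult_dvd_num (E := E) m hhor hB0' hAB hyB hf hE hA2 hnd
  have hmB : ∀ f : O, Prime f → ∀ (n : ℕ) (b' : O), B' = f ^ n * b' → ¬ f ∣ b' → m ∣ n := by
    intro f hf n b' hn hb'
    rcases Nat.eq_zero_or_pos n with rfl | hn0
    · exact dvd_zero m
    have hfB' : f ∣ B' := by rw [hn]; exact Dvd.dvd.mul_right (dvd_pow_self f hn0.ne') _
    obtain ⟨hfX, hfY⟩ := hprime B' hB'X hB'Y f hf hfB'
    have hE := rtk6lf_horizontal thr V hdict hvert hf hfX hfY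
    have hXf : ¬ f ∣ X := fun h => hfX (rtk6lf_dvd_symm hf hX h)
    have hYf : ¬ f ∣ Y := fun h => hfY (rtk6lf_dvd_symm hf hY h)
    have hB2 : (B : O) = f ^ n * (X ^ i' * Y ^ j' * b') := by rw [hB, hn]; ring
    have hnd : ¬ f ∣ X ^ i' * Y ^ j' * b' := by
      intro h
      rcases hf.dvd_or_dvd h with h1 | h1
      · rcases hf.dvd_or_dvd h1 with h2 | h2
        · exact hXf (hf.dvd_of_dvd_pow h2)
        · exact hYf (hf.dvd_of_dvd_pow h2)
      · exact hb' h1
    exact rtk6lf_mult_dvd_den (E := E) m hhor hAB hyB hf hE hB2 hnd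
  obtain ⟨u, c, hc⟩ := s36n2p_pow_of_mult m hA'0 hmA
  obtain ⟨u', d, hd⟩ := s36n2p_pow_of_mult m hB'0 hmB
  have hinv : algebraMap O F ((u'⁻¹ : Oˣ) : O) = (algebraMap O F ((u' : Oˣ) : O))⁻¹ := by
    apply eq_inv_of_mul_eq_one_left
    rw [← map_mul, Units.inv_mul, map_one]
  have hu'0 : algebraMap O F ((u' : Oˣ) : O) ≠ 0 := rtk6lf_map_ne_zero u'.ne_zero
  rcases Nat.eq_zero_or_pos m with rfl | hm
  · refine ⟨1, u * u'⁻¹, (i : ℤ) - i', (j : ℤ) - j', ?_, one_ne_zero, fun c _ => map_one _⟩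
    rw [pow_zero, mul_one] at hc hd
    rw [e, hc, hd, Units.val_mul, map_mul, hinv, pow_zero, mul_one, div_eq_mul_inv]
    ring
  have hc0 : c ≠ 0 := by
    rintro rfl
    apply hA'0
    rw [hc, zero_pow hm.ne', mul_zero]
  have hd0 : d ≠ 0 := by
    rintro rfl
    apply hB'0
    rw [hd, zero_pow hm.ne', mul_zero]
  have hcF : algebraMap O F c ≠ 0 := rtk6lf_map_ne_zero hc0
  have hdF : algebraMap O F d ≠ 0 := rtk6lf_map_ne_zero hd0
  have hcX : ¬ X ∣ c := fun h => hA'X (by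
    rw [hc]; exact Dvd.dvd.mul_left (h.trans (dvd_pow_self c hm.ne')) _)
  have hcY : ¬ Y ∣ c := fun h => hA'Y (by
    rw [hc]; exact Dvd.dvd.mul_left (h.trans (dvd_pow_self c hm.ne')) _)
  have hdX : ¬ X ∣ d := fun h => hB'X (by
    rw [hd]; exact Dvd.dvd.mul_left (h.trans (dvd_pow_self d hm.ne')) _)
  have hdY : ¬ Y ∣ d := fun h => hB'Y (by
    rw [hd]; exact Dvd.dvd.mul_left (h.trans (dvd_pow_self d hm.ne')) _)
  refine ⟨algebraMap O F c / algebraMap O F d, u * u'⁻¹, (i : ℤ) - i', (j : ℤ) - j', ?_,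
    div_ne_zero hcF hdF, fun κ₀ hκ₀ => ?_⟩
  · rw [e, hc, hd, Units.val_mul, map_mul, map_mul, map_mul, map_pow, map_pow, hinv, div_pow]
    field_simp
  · rw [map_div₀, rtk6lf_val_one thr V hOV hvert hcX hcY κ₀ hκ₀,
      rtk6lf_val_one thr V hOV hvert hdX hdY κ₀ hκ₀, div_one]

/-- **(LF), abstract form**, with the hypothesis on ALL places of `F / E`. -/
theorem rtk6lf_fac (hOV : ∀ c, thr c → ∀ x : O, algebraMap O F x ∈ V c)
    (hdict : S36n2pDict E O thr V) {X Y : O} (hX : Prime X) (hY : Prime Y)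
    (hvert : ∀ c, thr c → (∀ x : O, algebraMap O F x ∈ (V c).nonunits → X ∣ x) ∨
      (∀ x : O, algebraMap O F x ∈ (V c).nonunits → Y ∣ x))
    (m : ℕ) {y : F} (hy : y ≠ 0) (hhor : ∀ P : Place E F, (m : ℤ) ∣ P.ord y) :
    ∃ (γ : F) (ε : Oˣ) (a b : ℤ),
      y = algebraMap O F (ε : O) * algebraMap O F X ^ a * algebraMap O F Y ^ b * γ ^ m ∧
      γ ≠ 0 ∧ ∀ c, thr c → (V c).valuation γ = 1 :=
  rtk6lf_fac_tube thr V hOV hdict hX hY hvert m hy (fun P _ => hhor P)

omit [UniqueFactorizationMonoid O] in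
/-- a unit of `O` is a unit at every component through the point -/
theorem rtk6lf_val_unit (hOV : ∀ c, thr c → ∀ x : O, algebraMap O F x ∈ V c) (ε : Oˣ)
    (c : κ) (hc : thr c) : (V c).valuation (algebraMap O F (ε : O)) = 1 := by
  have h1 : (V c).valuation (algebraMap O F (ε : O)) ≤ 1 :=
    ((V c).valuation_le_one_iff _).2 (hOV c hc _)
  have h2 : (V c).valuation (algebraMap O F ((ε⁻¹ : Oˣ) : O)) ≤ 1 :=
    ((V c).valuation_le_one_iff _).2 (hOV c hc _)
  have h3 : (V c).valuation (algebraMap O F (ε : O)) *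
      (V c).valuation (algebraMap O F ((ε⁻¹ : Oˣ) : O)) = 1 := by
    rw [← map_mul, ← map_mul, Units.mul_inv, map_one, map_one]
  refine le_antisymm h1 ?_
  by_contra hlt
  push Not at hlt
  have h4 : (V c).valuation (algebraMap O F (ε : O)) *
      (V c).valuation (algebraMap O F ((ε⁻¹ : Oˣ) : O)) < 1 :=
    lt_of_le_of_lt (mul_le_mul' le_rfl h2) (by rwa [mul_one])
  exact absurd h3 h4.ne

omit [UniqueFactorizationMonoid O] in
/-- **the exponents are the valuations**: for `y = ε · X ^ a · Y ^ b · γ ^ m` with `γ` a unit at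
the components through the point, `v_c(y) = v_c(X) ^ a · v_c(Y) ^ b`. -/
theorem rtk6lf_val (hOV : ∀ c, thr c → ∀ x : O, algebraMap O F x ∈ V c) {X Y : O}
    {m : ℕ} {y γ : F} {ε : Oˣ} {a b : ℤ}
    (h : y = algebraMap O F (ε : O) * algebraMap O F X ^ a * algebraMap O F Y ^ b * γ ^ m)
    (hγ : ∀ c, thr c → (V c).valuation γ = 1) (c : κ) (hc : thr c) :
    (V c).valuation y =
      (V c).valuation (algebraMap O F X) ^ a * (V c).valuation (algebraMap O F Y) ^ b := by
  rw [h, map_mul, map_mul, map_mul, map_pow, map_zpow₀, map_zpow₀, hγ c hc, one_pow, mul_one,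
    rtk6lf_val_unit thr V hOV ε c hc, one_mul]

omit [UniqueFactorizationMonoid O] in
/-- the valuation of `Y` at an `X`-component is `1` (`X ∤ Y`) -/
theorem rtk6lf_val_other (hOV : ∀ c, thr c → ∀ x : O, algebraMap O F x ∈ V c) {X Y : O}
    (hXY : ¬ X ∣ Y) (c : κ) (hc : thr c)
    (hcX : ∀ x : O, algebraMap O F x ∈ (V c).nonunits → X ∣ x) :
    (V c).valuation (algebraMap O F Y) = 1 := by
  refine le_antisymm (((V c).valuation_le_one_iff _).2 (hOV c hc Y)) (not_lt.1 fun h => ?_)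
  exact hXY (hcX Y ((ValuationSubring.mem_nonunits_iff (V c)).2 h))

omit [UniqueFactorizationMonoid O] in
/-- **absorbing the `X`-part**: if `m ∣ a` then `y = ε · Y ^ b · γ′ ^ m`, the form (LF). -/
theorem rtk6lf_absorb {X Y : O} (hX0 : X ≠ 0) {m : ℕ} {y γ : F} {ε : Oˣ} {a b : ℤ}
    (h : y = algebraMap O F (ε : O) * algebraMap O F X ^ a * algebraMap O F Y ^ b * γ ^ m)
    (ha : (m : ℤ) ∣ a) :
    ∃ γ' : F, y = algebraMap O F (ε : O) * algebraMap O F Y ^ b * γ' ^ m := by
  obtain ⟨k, rfl⟩ := ha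
  have hXF : algebraMap O F X ≠ 0 := rtk6lf_map_ne_zero hX0
  refine ⟨algebraMap O F X ^ k * γ, ?_⟩
  rw [h, mul_pow, ← zpow_natCast (algebraMap O F X ^ k) m, ← zpow_mul, mul_comm k (m : ℤ)]
  ring

end Fac

section SubringForm

variable {E F : Type*} [Field E] [Field F] [Algebra E F] {κ : Type*}

/-- **(LF), abstract form, for a subring `O ⊆ F`** (the local ring of the chart at a closed
point). -/
theorem rtk6lf_facAt (O : Subring F) [UniqueFactorizationMonoid O]
    (hfrac : ∀ x : F, ∃ a b : O, (b : F) ≠ 0 ∧ x * (b : F) = (a : F))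
    (thr : κ → Prop) (V : κ → ValuationSubring F)
    (hOV : ∀ c, thr c → ∀ x ∈ O, x ∈ V c)
    (hdict : S36n2pDict E O thr V) {X Y : O} (hX : Prime X) (hY : Prime Y)
    (hvert : ∀ c, thr c → (∀ x : O, (x : F) ∈ (V c).nonunits → X ∣ x) ∨
      (∀ x : O, (x : F) ∈ (V c).nonunits → Y ∣ x))
    (m : ℕ) {y : F} (hy : y ≠ 0)
    (hhor : ∀ P : Place E F, (∀ x ∈ O, x ∈ P.toValuationSubring) → (m : ℤ) ∣ P.ord y) :
    ∃ (γ : F) (ε : O) (a b : ℤ), IsUnit ε ∧
      y = (ε : F) * (X : F) ^ a * (Y : F) ^ b * γ ^ m ∧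
      γ ≠ 0 ∧ (∀ c, thr c → (V c).valuation γ = 1) ∧
      ∀ c, thr c → (V c).valuation y = (V c).valuation (X : F) ^ a * (V c).valuation (Y : F) ^ b := by
  haveI := s36n2p_isFractionRing O hfrac
  obtain ⟨γ, ε, a, b, h, hγ0, hγ⟩ := rtk6lf_fac_tube (E := E) (O := O) thr V
    (fun c hc x => hOV c hc x x.2) hdict hX hY hvert m hy
    (fun P hP => hhor P (fun x hx => hP ⟨x, hx⟩))
  exact ⟨γ, (ε : O), a, b, ε.isUnit, h, hγ0, hγ,
    rtk6lf_val (O := O) thr V (fun c hc x => hOV c hc x x.2) h hγ⟩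

end SubringForm

end Fermat.Agent.RT.K6
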