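/-
K-machine, piece K6, piece D-LF (helper54): the PER-POINT layer of the local factorisation (LF),
abstract chart form.

Setting of `S36/N2PtsReg.lean`: `B` a chart (`Algebra B F`, injective), `𝔫` a prime of `B`,
`O = ls_localSubring 𝔫 = B_𝔫 ⊆ F`; `V : κ → ValuationSubring F` the vertical valuations, `ϖ ∈ B`
the uniformizer of the (unramified) base, with the globals
 (KR)  `ϖ x ∈ B`, `x ∈ ⋂ V c` ⇒ `x ∈ B`      (from (SS1): `RIB.MP.ribmp_fac_hKR`),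
 (U)   `𝔪(V c) = ϖ V c`                      (the special fibre is reduced: `STB.stb_sp_princ`).

THIN CROSSING POINT: `w ϖ = X Y` with `w ∉ 𝔫`, `X ∈ 𝔪(V c₁)`, `Y ∈ 𝔪(V c₂)`, and
`NodesLocGen 𝔫 {ϖ, X, Y}` (the output of S36 G-thin (T4) at a rigid level).  Then
* `rtk6lfp_cross_val`   : `X` is a uniformizer of `V c₁` and a unit of `V c₂` (and `c₁ ≠ c₂`);
* `rtk6lfp_cross_dvd`   : `𝔪(V c₁) ∩ O = X O`;
* `rtk6lfp_cross_prime` : `X` is a prime element of `O`;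
* `rtk6lfp_cross_max`   : `𝔪_O = (X, Y)`;
* `rtk6lfp_cross_ufd`   : `O` is a UFD (`rtk6lf_ufd`);
* `rtk6lfp_cross_fac`   : **(LF)** `y = ε · X ^ a · Y ^ b · γ ^ m` for `y ∈ F^×` with `m ∣ ord_P y`
  at the places `P` of `F / E` centred on `O`; `γ` is a unit at `V c₁`, `V c₂`, and
  `v_{c₁}(y) = v_{c₁}(ϖ) ^ a`, `v_{c₂}(y) = v_{c₂}(ϖ) ^ b`;
* `rtk6lfp_cross_LF`    : the form of `NOTES/RT-K6-D.md`: if `y` is a unit at `V c₁` then
  `y = ε · Y ^ b · γ ^ m`.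

SMOOTH POINT: exactly one component `V c` through `𝔫`, `NodesLocGen 𝔫 {ϖ, s}`.  Then
* `rtk6lfp_smooth_dvd`, `rtk6lfp_smooth_prime`, `rtk6lfp_smooth_max`, `rtk6lfp_smooth_ufd`;
* `rtk6lfp_smooth_fac`  : **(LF)** `y = ε · ϖ ^ a · γ ^ m`, `v_c(y) = v_c(ϖ) ^ a`.
-/
import Fermat.Agent.RT.K6.DLFAbs
import Fermat.Agent.S36.N2PtsReg

set_option autoImplicit false
set_option linter.unusedSectionVars false
set_option linter.unusedVariables false
set_option linter.style.haveILetI false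

namespace Fermat.Agent.RT.K6

open Fermat.Agent.UNIP Fermat.Agent.STB Fermat.Agent.S36 AlgebraicCurve IsLocalRing

section Val

variable {F : Type*} [Field F]

/-- in a valuation ring, the factors of a unit are units -/
theorem rtk6lfp_val_eq_one_of_mul (V : ValuationSubring F) {a b c : F} (ha : a ∈ V)
    (hb : b ∈ V) (hc : V.valuation c = 1) (h : c = a * b) :
    V.valuation a = 1 ∧ V.valuation b = 1 := by
  have h1 : V.valuation a ≤ 1 := (V.valuation_le_one_iff a).2 ha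
  have h2 : V.valuation b ≤ 1 := (V.valuation_le_one_iff b).2 hb
  have h3 : V.valuation a * V.valuation b = 1 := by rw [← map_mul, ← h, hc]
  constructor
  · refine le_antisymm h1 ?_
    by_contra hlt
    push Not at hlt
    have h4 : V.valuation a * V.valuation b < 1 :=
      lt_of_le_of_lt (mul_le_mul' le_rfl h2) (by rwa [mul_one])
    exact absurd h3 h4.ne
  · refine le_antisymm h2 ?_
    by_contra hlt
    push Not at hlt
    have h4 : V.valuation a * V.valuation b < 1 :=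
      lt_of_le_of_lt (mul_le_mul' h1 le_rfl) (by rwa [one_mul])
    exact absurd h3 h4.ne

/-- an element of valuation `1` is not in the maximal ideal -/
theorem rtk6lfp_not_mem_nonunits (V : ValuationSubring F) {a : F} (ha : V.valuation a = 1) :
    a ∉ V.nonunits := by
  intro h
  rw [ValuationSubring.mem_nonunits_iff, ha] at h
  exact lt_irrefl _ h

/-- the inverse of an element of valuation `1` lies in the valuation ring -/
theorem rtk6lfp_inv_mem (V : ValuationSubring F) {a : F} (ha : V.valuation a = 1) :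
    a⁻¹ ∈ V := by
  rw [← V.valuation_le_one_iff, map_inv₀, ha, inv_one]

end Val

section Core

variable {E F : Type*} [Field E] [Field F] [Algebra E F] {B : Type*} [CommRing B] [Algebra B F]
variable (hinj : Function.Injective (algebraMap B F)) (𝔫 : Ideal B) [h𝔫 : 𝔫.IsPrime]
variable {κ : Type*}

/-- an element of `B` outside `𝔫` is a unit of every component through `𝔫` -/
theorem rtk6lfp_val_unit (V : ValuationSubring F) (hBV : ∀ b : B, algebraMap B F b ∈ V)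
    (hthr : ∀ b : B, algebraMap B F b ∈ V.nonunits → b ∈ 𝔫) {w : B} (hw : w ∉ 𝔫) :
    V.valuation (algebraMap B F w) = 1 :=
  stb_gc_val_eq_one V (hBV w) (fun h => hw (hthr w h))

/-! ### thin crossing points -/

/-- **the valuations of the coordinates of a thin crossing point**: `X = ϖ · unit` and
`Y = unit` at `V c₁`. -/
theorem rtk6lfp_cross_val (V₁ : ValuationSubring F) (hBV₁ : ∀ b : B, algebraMap B F b ∈ V₁)
    (ϖ : B) (hU₁ : ∀ x : F, x ∈ V₁.nonunits → ∃ z ∈ V₁, x = algebraMap B F ϖ * z)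
    (hϖ0 : algebraMap B F ϖ ≠ 0)
    (hthr₁ : ∀ b : B, algebraMap B F b ∈ V₁.nonunits → b ∈ 𝔫)
    {X Y w : B} (hw : w ∉ 𝔫) (hXY : w * ϖ = X * Y) (hX : algebraMap B F X ∈ V₁.nonunits) :
    V₁.valuation (algebraMap B F Y) = 1 ∧
      V₁.valuation (algebraMap B F X) = V₁.valuation (algebraMap B F ϖ) := by
  obtain ⟨z, hz, hXz⟩ := hU₁ _ hX
  have hwv := rtk6lfp_val_unit 𝔫 V₁ hBV₁ hthr₁ hw
  have e : algebraMap B F w = z * algebraMap B F Y := by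
    have h1 : algebraMap B F w * algebraMap B F ϖ = algebraMap B F X * algebraMap B F Y := by
      rw [← map_mul, ← map_mul, hXY]
    rw [hXz] at h1
    have h2 : algebraMap B F ϖ * algebraMap B F w = algebraMap B F ϖ * (z * algebraMap B F Y) := by
      rw [mul_comm, h1]; ring
    exact mul_left_cancel₀ hϖ0 h2
  obtain ⟨h1, h2⟩ := rtk6lfp_val_eq_one_of_mul V₁ hz (hBV₁ Y) hwv e
  refine ⟨h2, ?_⟩
  rw [hXz, map_mul, h1, mul_one]

/-- the two components of a thin crossing point are different -/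
theorem rtk6lfp_cross_ne (V : κ → ValuationSubring F)
    (hBV : ∀ c (b : B), algebraMap B F b ∈ V c) (ϖ : B)
    (hU : ∀ c (x : F), x ∈ (V c).nonunits → ∃ z ∈ V c, x = algebraMap B F ϖ * z)
    (hϖ0 : algebraMap B F ϖ ≠ 0) (c₁ c₂ : κ)
    (hthr₁ : ∀ b : B, algebraMap B F b ∈ (V c₁).nonunits → b ∈ 𝔫)
    {X Y w : B} (hw : w ∉ 𝔫) (hXY : w * ϖ = X * Y)
    (hX : algebraMap B F X ∈ (V c₁).nonunits) (hY : algebraMap B F Y ∈ (V c₂).nonunits) :
    c₁ ≠ c₂ := by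
  rintro rfl
  have h := (rtk6lfp_cross_val 𝔫 (V c₁) (hBV c₁) ϖ (hU c₁) hϖ0 hthr₁ hw hXY hX).1
  exact rtk6lfp_not_mem_nonunits (V c₁) h hY

variable [Finite κ]

include hinj in
/-- **`𝔪(V c₁) ∩ B_𝔫 = X B_𝔫`** at a thin crossing point. -/
theorem rtk6lfp_cross_dvd (V : κ → ValuationSubring F)
    (hBV : ∀ c (b : B), algebraMap B F b ∈ V c) (ϖ : B)
    (hKR : ∀ x : F, (∃ b : B, algebraMap B F ϖ * x = algebraMap B F b) → (∀ c, x ∈ V c) →
      ∃ b : B, x = algebraMap B F b)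
    (hU : ∀ c (x : F), x ∈ (V c).nonunits → ∃ z ∈ V c, x = algebraMap B F ϖ * z)
    (hϖ0 : algebraMap B F ϖ ≠ 0) (c₁ c₂ : κ)
    (hκ : ∀ c, (∀ b : B, algebraMap B F b ∈ (V c).nonunits → b ∈ 𝔫) → c = c₁ ∨ c = c₂)
    (hthr₁ : ∀ b : B, algebraMap B F b ∈ (V c₁).nonunits → b ∈ 𝔫)
    (hthr₂ : ∀ b : B, algebraMap B F b ∈ (V c₂).nonunits → b ∈ 𝔫)
    {X Y w : B} (hw : w ∉ 𝔫) (hXY : w * ϖ = X * Y)
    (hX : algebraMap B F X ∈ (V c₁).nonunits) (hY : algebraMap B F Y ∈ (V c₂).nonunits)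
    (y : ls_localSubring (F := F) 𝔫) (hy : (y : F) ∈ (V c₁).nonunits) :
    s36n2pToLoc (F := F) 𝔫 X ∣ y := by
  have hXY' : algebraMap B F w * algebraMap B F ϖ = algebraMap B F X * algebraMap B F Y := by
    rw [← map_mul, ← map_mul, hXY]
  have hw0 : algebraMap B F w ≠ 0 := stb_gc_algebraMap_ne_zero hinj 𝔫 hw
  have hX0 : algebraMap B F X ≠ 0 := by
    intro h0
    rw [h0, zero_mul] at hXY'
    exact (mul_ne_zero hw0 hϖ0) hXY'
  have hY0 : algebraMap B F Y ≠ 0 := by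
    intro h0
    rw [h0, mul_zero] at hXY'
    exact (mul_ne_zero hw0 hϖ0) hXY'
  obtain ⟨hY1, hX1⟩ := rtk6lfp_cross_val 𝔫 (V c₁) (hBV c₁) ϖ (hU c₁) hϖ0 hthr₁ hw hXY hX
  have hXY₂ : w * ϖ = Y * X := by rw [hXY, mul_comm]
  obtain ⟨hX2, hY2⟩ := rtk6lfp_cross_val 𝔫 (V c₂) (hBV c₂) ϖ (hU c₂) hϖ0 hthr₂ hw hXY₂ hY
  have hmem : (y : F) / algebraMap B F X ∈ ls_localSubring (F := F) 𝔫 := by
    refine s36n2p_KRloc 𝔫 V hBV ϖ hKR 1
      (fun c x hx => by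
        obtain ⟨z, hz, hxz⟩ := hU c x hx
        exact ⟨z, hz, by rw [pow_one, hxz]⟩) _ ?_ ?_
    · -- `ϖ (y / X) = (Y / w) y`
      have e : algebraMap B F ϖ * ((y : F) / algebraMap B F X) =
          (algebraMap B F Y * (y : F)) * (algebraMap B F w)⁻¹ := by
        have : algebraMap B F ϖ = algebraMap B F X * algebraMap B F Y * (algebraMap B F w)⁻¹ := by
          rw [← hXY']; field_simp
        rw [this]; field_simp
      rw [e]
      have hwu : IsUnit (s36n2pToLoc (F := F) 𝔫 w) :=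
        ls_isUnit_of_not_mem hinj 𝔫 _ (b := w) (s := 1) hw
          (fun h => h𝔫.ne_top ((Ideal.eq_top_iff_one 𝔫).mpr h)) (by rw [map_one, one_mul]; rfl)
      obtain ⟨v, hv⟩ := hwu
      have hvinv : (((v⁻¹ : (ls_localSubring (F := F) 𝔫)ˣ) : ls_localSubring (F := F) 𝔫) : F) =
          (algebraMap B F w)⁻¹ := by
        have h1 : ((v : ls_localSubring (F := F) 𝔫) : F) = algebraMap B F w := by rw [hv]; rfl
        have h2 : ((v : ls_localSubring (F := F) 𝔫) : F) *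
            (((v⁻¹ : (ls_localSubring (F := F) 𝔫)ˣ) : ls_localSubring (F := F) 𝔫) : F) = 1 :=
          congrArg Subtype.val v.mul_inv
        rw [h1] at h2
        exact eq_inv_of_mul_eq_one_right h2
      rw [← hvinv]
      exact (s36n2pToLoc (F := F) 𝔫 Y * y *
        ((v⁻¹ : (ls_localSubring (F := F) 𝔫)ˣ) : ls_localSubring (F := F) 𝔫)).2
    · intro c hc
      rcases hκ c hc with rfl | rfl
      · obtain ⟨z, hz, hyz⟩ := hU c _ hy
        obtain ⟨z', hz', hXz'⟩ := hU c _ hX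
        have hz'1 : (V c).valuation z' = 1 := by
          have h1 := hX1
          rw [hXz', map_mul] at h1
          have hϖv : (V c).valuation (algebraMap B F ϖ) ≠ 0 :=
            (Valuation.ne_zero_iff _).2 hϖ0
          exact mul_left_cancel₀ hϖv (by rw [h1, mul_one])
        have hz'0 : z' ≠ 0 := fun h0 => by
          rw [h0, map_zero] at hz'1
          exact zero_ne_one hz'1
        have e : (y : F) / algebraMap B F X = z * z'⁻¹ := by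
          rw [hyz, hXz']; field_simp
        rw [e]
        exact mul_mem hz (rtk6lfp_inv_mem (V c) hz'1)
      · rw [div_eq_mul_inv]
        exact mul_mem (stb_gc_le 𝔫 (V c) (hBV c) hc _ y.2) (rtk6lfp_inv_mem (V c) hX2)
  exact ⟨⟨_, hmem⟩, Subtype.ext (by
    show (y : F) = algebraMap B F X * ((y : F) / algebraMap B F X)
    field_simp)⟩

include hinj in
/-- **`X` is a prime element of `B_𝔫`** at a thin crossing point. -/
theorem rtk6lfp_cross_prime (V : κ → ValuationSubring F)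
    (hBV : ∀ c (b : B), algebraMap B F b ∈ V c) (ϖ : B)
    (hKR : ∀ x : F, (∃ b : B, algebraMap B F ϖ * x = algebraMap B F b) → (∀ c, x ∈ V c) →
      ∃ b : B, x = algebraMap B F b)
    (hU : ∀ c (x : F), x ∈ (V c).nonunits → ∃ z ∈ V c, x = algebraMap B F ϖ * z)
    (hϖ0 : algebraMap B F ϖ ≠ 0) (c₁ c₂ : κ)
    (hκ : ∀ c, (∀ b : B, algebraMap B F b ∈ (V c).nonunits → b ∈ 𝔫) → c = c₁ ∨ c = c₂)
    (hthr₁ : ∀ b : B, algebraMap B F b ∈ (V c₁).nonunits → b ∈ 𝔫)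
    (hthr₂ : ∀ b : B, algebraMap B F b ∈ (V c₂).nonunits → b ∈ 𝔫)
    {X Y w : B} (hw : w ∉ 𝔫) (hXY : w * ϖ = X * Y)
    (hX : algebraMap B F X ∈ (V c₁).nonunits) (hY : algebraMap B F Y ∈ (V c₂).nonunits) :
    Prime (s36n2pToLoc (F := F) 𝔫 X) := by
  have hXY' : algebraMap B F w * algebraMap B F ϖ = algebraMap B F X * algebraMap B F Y := by
    rw [← map_mul, ← map_mul, hXY]
  have hw0 : algebraMap B F w ≠ 0 := stb_gc_algebraMap_ne_zero hinj 𝔫 hw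
  have hX0 : algebraMap B F X ≠ 0 := by
    intro h0
    rw [h0, zero_mul] at hXY'
    exact (mul_ne_zero hw0 hϖ0) hXY'
  exact s36n2p_prime hinj 𝔫 (V c₁) (hBV c₁) hthr₁ _
    (fun h0 => hX0 (congrArg Subtype.val h0)) hX
    (fun y hy => rtk6lfp_cross_dvd hinj 𝔫 V hBV ϖ hKR hU hϖ0 c₁ c₂ hκ hthr₁ hthr₂ hw hXY hX hY
      y hy)

include hinj in
/-- **`𝔪(B_𝔫) = (X, Y)`** at a thin crossing point. -/
theorem rtk6lfp_cross_max [IsLocalRing (ls_localSubring (F := F) 𝔫)]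
    (ϖ : B) {X Y w : B} (hw : w ∉ 𝔫) (hXY : w * ϖ = X * Y) (hX𝔫 : X ∈ 𝔫) (hY𝔫 : Y ∈ 𝔫)
    (hgen : NodesLocGen 𝔫 {ϖ, X, Y}) :
    maximalIdeal (ls_localSubring (F := F) 𝔫) =
      Ideal.span {s36n2pToLoc (F := F) 𝔫 X, s36n2pToLoc (F := F) 𝔫 Y} := by
  have h1 : (1 : B) ∉ 𝔫 := fun h => h𝔫.ne_top ((Ideal.eq_top_iff_one 𝔫).mpr h)
  have hunit : ∀ v : B, v ∉ 𝔫 → IsUnit (s36n2pToLoc (F := F) 𝔫 v) := fun v hv =>
    ls_isUnit_of_not_mem hinj 𝔫 _ (b := v) (s := 1) hv h1 (by rw [map_one, one_mul]; rfl)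
  apply le_antisymm
  · intro r hr
    obtain ⟨b, s, hb, hs, hbs⟩ := stb_gc_exists_of_mem_maximalIdeal hinj 𝔫 r hr
    obtain ⟨v, hv, hvb⟩ := hgen b hb
    rw [Ideal.mem_span_insert] at hvb
    obtain ⟨α, z, hz, hvb⟩ := hvb
    rw [Ideal.mem_span_pair] at hz
    obtain ⟨β, γ, rfl⟩ := hz
    -- `w v s r = (α Y + w β) X + (w γ) Y`
    have e : s36n2pToLoc (F := F) 𝔫 (w * v * s) * r =
        s36n2pToLoc (F := F) 𝔫 (α * Y + w * β) * s36n2pToLoc (F := F) 𝔫 X +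
          s36n2pToLoc (F := F) 𝔫 (w * γ) * s36n2pToLoc (F := F) 𝔫 Y := by
      apply Subtype.ext
      show algebraMap B F (w * v * s) * (r : F) =
        algebraMap B F (α * Y + w * β) * algebraMap B F X +
          algebraMap B F (w * γ) * algebraMap B F Y
      have h2 : algebraMap B F (w * v * s) * (r : F) = algebraMap B F (w * (v * b)) := by
        rw [map_mul, map_mul, map_mul, map_mul, ← hbs]; ring
      rw [h2, hvb, ← map_mul, ← map_mul, ← map_add]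
      congr 1
      linear_combination α * hXY
    have hu : IsUnit (s36n2pToLoc (F := F) 𝔫 (w * v * s)) := hunit _ (fun h => by
      rcases h𝔫.mem_or_mem h with h' | h'
      · rcases h𝔫.mem_or_mem h' with h'' | h''
        · exact hw h''
        · exact hv h''
      · exact hs h')
    obtain ⟨u, hu⟩ := hu
    have e2 : r = ((u⁻¹ : (ls_localSubring (F := F) 𝔫)ˣ) : ls_localSubring (F := F) 𝔫) *
        (s36n2pToLoc (F := F) 𝔫 (α * Y + w * β) * s36n2pToLoc (F := F) 𝔫 X +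
          s36n2pToLoc (F := F) 𝔫 (w * γ) * s36n2pToLoc (F := F) 𝔫 Y) := by
      rw [← e, ← hu, ← mul_assoc, Units.inv_mul, one_mul]
    rw [e2]
    refine Ideal.mul_mem_left _ _ (Ideal.add_mem _ ?_ ?_)
    · exact Ideal.mul_mem_left _ _ (Ideal.subset_span (by simp))
    · exact Ideal.mul_mem_left _ _ (Ideal.subset_span (by simp))
  · rw [Ideal.span_le]
    intro z hz
    rcases hz with rfl | rfl
    · exact stb_gc_mem_maximalIdeal hinj 𝔫 _ (b := X) (s := 1) hX𝔫 h1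
        (by rw [map_one, one_mul]; rfl)
    · exact stb_gc_mem_maximalIdeal hinj 𝔫 _ (b := Y) (s := 1) hY𝔫 h1
        (by rw [map_one, one_mul]; rfl)

include hinj in
/-- **`B_𝔫` is a UFD** at a thin crossing point. -/
theorem rtk6lfp_cross_ufd [IsNoetherianRing B] (V : κ → ValuationSubring F)
    (hBV : ∀ c (b : B), algebraMap B F b ∈ V c) (ϖ : B)
    (hKR : ∀ x : F, (∃ b : B, algebraMap B F ϖ * x = algebraMap B F b) → (∀ c, x ∈ V c) →
      ∃ b : B, x = algebraMap B F b)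
    (hU : ∀ c (x : F), x ∈ (V c).nonunits → ∃ z ∈ V c, x = algebraMap B F ϖ * z)
    (hϖ0 : algebraMap B F ϖ ≠ 0) (c₁ c₂ : κ)
    (hκ : ∀ c, (∀ b : B, algebraMap B F b ∈ (V c).nonunits → b ∈ 𝔫) → c = c₁ ∨ c = c₂)
    (hthr₁ : ∀ b : B, algebraMap B F b ∈ (V c₁).nonunits → b ∈ 𝔫)
    (hthr₂ : ∀ b : B, algebraMap B F b ∈ (V c₂).nonunits → b ∈ 𝔫)
    {X Y w : B} (hw : w ∉ 𝔫) (hXY : w * ϖ = X * Y)
    (hX : algebraMap B F X ∈ (V c₁).nonunits) (hY : algebraMap B F Y ∈ (V c₂).nonunits)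
    (hgen : NodesLocGen 𝔫 {ϖ, X, Y}) :
    UniqueFactorizationMonoid (ls_localSubring (F := F) 𝔫) := by
  haveI := ls_localSubring_isLocalRing (F := F) hinj 𝔫
  haveI := s36n2p_isNoetherianRing (F := F) hinj 𝔫
  exact rtk6lf_ufd _ _
    (rtk6lfp_cross_max hinj 𝔫 ϖ hw hXY (hthr₁ X hX) (hthr₂ Y hY) hgen)
    (rtk6lfp_cross_prime hinj 𝔫 V hBV ϖ hKR hU hϖ0 c₁ c₂ hκ hthr₁ hthr₂ hw hXY hX hY)

include hinj in
/-- **(LF) at a thin crossing point.** -/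
theorem rtk6lfp_cross_fac [IsNoetherianRing B] (V : κ → ValuationSubring F)
    (hBV : ∀ c (b : B), algebraMap B F b ∈ V c) (ϖ : B)
    (hKR : ∀ x : F, (∃ b : B, algebraMap B F ϖ * x = algebraMap B F b) → (∀ c, x ∈ V c) →
      ∃ b : B, x = algebraMap B F b)
    (hU : ∀ c (x : F), x ∈ (V c).nonunits → ∃ z ∈ V c, x = algebraMap B F ϖ * z)
    (hϖ0 : algebraMap B F ϖ ≠ 0) (hϖV : ∀ c, algebraMap B F ϖ ∈ (V c).nonunits)
    (hE : ∀ e : E, ∃ (n : ℕ) (a : B),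
      algebraMap E F e * algebraMap B F ϖ ^ n = algebraMap B F a)
    (hfrac : ∀ x : F, ∃ a b : B, b ≠ 0 ∧ x * algebraMap B F b = algebraMap B F a)
    (c₁ c₂ : κ)
    (hκ : ∀ c, (∀ b : B, algebraMap B F b ∈ (V c).nonunits → b ∈ 𝔫) → c = c₁ ∨ c = c₂)
    (hthr₁ : ∀ b : B, algebraMap B F b ∈ (V c₁).nonunits → b ∈ 𝔫)
    (hthr₂ : ∀ b : B, algebraMap B F b ∈ (V c₂).nonunits → b ∈ 𝔫)
    {X Y w : B} (hw : w ∉ 𝔫) (hXY : w * ϖ = X * Y)
    (hX : algebraMap B F X ∈ (V c₁).nonunits) (hY : algebraMap B F Y ∈ (V c₂).nonunits)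
    (hgen : NodesLocGen 𝔫 {ϖ, X, Y})
    (m : ℕ) {y : F} (hy : y ≠ 0)
    (hhor : ∀ P : Place E F, (∀ x ∈ ls_localSubring (F := F) 𝔫, x ∈ P.toValuationSubring) →
      (m : ℤ) ∣ P.ord y) :
    ∃ (γ : F) (ε : ls_localSubring (F := F) 𝔫) (a b : ℤ), IsUnit ε ∧
      y = (ε : F) * algebraMap B F X ^ a * algebraMap B F Y ^ b * γ ^ m ∧ γ ≠ 0 ∧
      (V c₁).valuation γ = 1 ∧ (V c₂).valuation γ = 1 ∧
      (V c₁).valuation y = (V c₁).valuation (algebraMap B F ϖ) ^ a ∧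
      (V c₂).valuation y = (V c₂).valuation (algebraMap B F ϖ) ^ b := by
  haveI : UniqueFactorizationMonoid (ls_localSubring (F := F) 𝔫) :=
    rtk6lfp_cross_ufd hinj 𝔫 V hBV ϖ hKR hU hϖ0 c₁ c₂ hκ hthr₁ hthr₂ hw hXY hX hY hgen
  have hXY₂ : w * ϖ = Y * X := by rw [hXY, mul_comm]
  have hκ₂ : ∀ c, (∀ b : B, algebraMap B F b ∈ (V c).nonunits → b ∈ 𝔫) → c = c₂ ∨ c = c₁ :=
    fun c hc => (hκ c hc).symm
  have hpX := rtk6lfp_cross_prime hinj 𝔫 V hBV ϖ hKR hU hϖ0 c₁ c₂ hκ hthr₁ hthr₂ hw hXY hX hY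
  have hpY := rtk6lfp_cross_prime hinj 𝔫 V hBV ϖ hKR hU hϖ0 c₂ c₁ hκ₂ hthr₂ hthr₁ hw hXY₂ hY hX
  have hdict := s36n2p_dict (E := E) hinj 𝔫 V hBV ϖ hKR 1
    (fun c x hx => by
      obtain ⟨z, hz, hxz⟩ := hU c x hx
      exact ⟨z, hz, by rw [pow_one, hxz]⟩) hϖ0 hϖV hE hfrac
  obtain ⟨γ, ε, a, b, hε, hyε, hγ0, hγ, hval⟩ := rtk6lf_facAt (E := E)
    (ls_localSubring (F := F) 𝔫)
    (fun x => by
      obtain ⟨a, b, hb, h⟩ := hfrac x
      exact ⟨s36n2pToLoc (F := F) 𝔫 a, s36n2pToLoc (F := F) 𝔫 b,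
        fun h0 => hb (hinj (by rw [map_zero]; exact h0)), h⟩)
    (fun c => ∀ b : B, algebraMap B F b ∈ (V c).nonunits → b ∈ 𝔫) V
    (fun c hc => stb_gc_le 𝔫 (V c) (hBV c) hc) hdict hpX hpY
    (fun c hc => by
      rcases hκ c hc with rfl | rfl
      · exact Or.inl (fun x hx =>
          rtk6lfp_cross_dvd hinj 𝔫 V hBV ϖ hKR hU hϖ0 c c₂ hκ hthr₁ hthr₂ hw hXY hX hY x hx)
      · exact Or.inr (fun x hx =>
          rtk6lfp_cross_dvd hinj 𝔫 V hBV ϖ hKR hU hϖ0 c c₁ hκ₂ hthr₂ hthr₁ hw hXY₂ hY hX x hx))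
    m hy hhor
  obtain ⟨hY1, hX1⟩ := rtk6lfp_cross_val 𝔫 (V c₁) (hBV c₁) ϖ (hU c₁) hϖ0 hthr₁ hw hXY hX
  obtain ⟨hX2, hY2⟩ := rtk6lfp_cross_val 𝔫 (V c₂) (hBV c₂) ϖ (hU c₂) hϖ0 hthr₂ hw hXY₂ hY
  refine ⟨γ, ε, a, b, hε, hyε, hγ0, hγ c₁ hthr₁, hγ c₂ hthr₂, ?_, ?_⟩
  · have h := hval c₁ hthr₁
    change (V c₁).valuation y = (V c₁).valuation (algebraMap B F X) ^ a *
      (V c₁).valuation (algebraMap B F Y) ^ b at h
    rw [h, hY1, hX1, one_zpow, mul_one]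
  · have h := hval c₂ hthr₂
    change (V c₂).valuation y = (V c₂).valuation (algebraMap B F X) ^ a *
      (V c₂).valuation (algebraMap B F Y) ^ b at h
    rw [h, hX2, hY2, one_zpow, one_mul]

/-! ### the form (LF) of `NOTES/RT-K6-D.md` -/

/-- a power of a nonzero element of the maximal ideal of a valuation ring has valuation `1`
only for the exponent `0` -/
theorem rtk6lfp_zpow_eq_one (V : ValuationSubring F) {p : F} (hp : p ∈ V.nonunits)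
    (hp0 : p ≠ 0) {a : ℤ} (h : V.valuation p ^ a = 1) : a = 0 := by
  have h1 : V.valuation p ≠ 1 := fun h1 => by
    rw [ValuationSubring.mem_nonunits_iff, h1] at hp
    exact lt_irrefl _ hp
  exact (zpow_eq_one_iff_right₀ zero_le h1).1 h

include hinj in
/-- **(LF) at a thin crossing point, for a unit at `V c₁`**: `y = ε · Y ^ b · γ ^ m` with
`v_{c₂}(y) = v_{c₂}(ϖ) ^ b`. -/
theorem rtk6lfp_cross_LF [IsNoetherianRing B] (V : κ → ValuationSubring F)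
    (hBV : ∀ c (b : B), algebraMap B F b ∈ V c) (ϖ : B)
    (hKR : ∀ x : F, (∃ b : B, algebraMap B F ϖ * x = algebraMap B F b) → (∀ c, x ∈ V c) →
      ∃ b : B, x = algebraMap B F b)
    (hU : ∀ c (x : F), x ∈ (V c).nonunits → ∃ z ∈ V c, x = algebraMap B F ϖ * z)
    (hϖ0 : algebraMap B F ϖ ≠ 0) (hϖV : ∀ c, algebraMap B F ϖ ∈ (V c).nonunits)
    (hE : ∀ e : E, ∃ (n : ℕ) (a : B),
      algebraMap E F e * algebraMap B F ϖ ^ n = algebraMap B F a)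
    (hfrac : ∀ x : F, ∃ a b : B, b ≠ 0 ∧ x * algebraMap B F b = algebraMap B F a)
    (c₁ c₂ : κ)
    (hκ : ∀ c, (∀ b : B, algebraMap B F b ∈ (V c).nonunits → b ∈ 𝔫) → c = c₁ ∨ c = c₂)
    (hthr₁ : ∀ b : B, algebraMap B F b ∈ (V c₁).nonunits → b ∈ 𝔫)
    (hthr₂ : ∀ b : B, algebraMap B F b ∈ (V c₂).nonunits → b ∈ 𝔫)
    {X Y w : B} (hw : w ∉ 𝔫) (hXY : w * ϖ = X * Y)
    (hX : algebraMap B F X ∈ (V c₁).nonunits) (hY : algebraMap B F Y ∈ (V c₂).nonunits)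
    (hgen : NodesLocGen 𝔫 {ϖ, X, Y})
    (m : ℕ) {y : F} (hy : y ≠ 0)
    (hhor : ∀ P : Place E F, (∀ x ∈ ls_localSubring (F := F) 𝔫, x ∈ P.toValuationSubring) →
      (m : ℤ) ∣ P.ord y)
    (hy₁ : (V c₁).valuation y = 1) :
    ∃ (γ : F) (ε : ls_localSubring (F := F) 𝔫) (b : ℤ), IsUnit ε ∧
      y = (ε : F) * algebraMap B F Y ^ b * γ ^ m ∧ γ ≠ 0 ∧
      (V c₁).valuation γ = 1 ∧ (V c₂).valuation γ = 1 ∧
      (V c₂).valuation y = (V c₂).valuation (algebraMap B F ϖ) ^ b := by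
  obtain ⟨γ, ε, a, b, hε, hyε, hγ0, hγ₁, hγ₂, hv₁, hv₂⟩ :=
    rtk6lfp_cross_fac (E := E) hinj 𝔫 V hBV ϖ hKR hU hϖ0 hϖV hE hfrac c₁ c₂ hκ hthr₁ hthr₂ hw
      hXY hX hY hgen m hy hhor
  have ha : a = 0 := by
    rw [hy₁] at hv₁
    exact rtk6lfp_zpow_eq_one (V c₁) (hϖV c₁) hϖ0 hv₁.symm
  subst ha
  refine ⟨γ, ε, b, hε, ?_, hγ0, hγ₁, hγ₂, hv₂⟩
  rw [hyε, zpow_zero, mul_one]

/-! ### smooth points -/

include hinj in
/-- **`𝔪(V c) ∩ B_𝔫 = ϖ B_𝔫`** at a point with only one component through it. -/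
theorem rtk6lfp_smooth_dvd (V : κ → ValuationSubring F)
    (hBV : ∀ c (b : B), algebraMap B F b ∈ V c) (ϖ : B)
    (hKR : ∀ x : F, (∃ b : B, algebraMap B F ϖ * x = algebraMap B F b) → (∀ c, x ∈ V c) →
      ∃ b : B, x = algebraMap B F b)
    (hU : ∀ c (x : F), x ∈ (V c).nonunits → ∃ z ∈ V c, x = algebraMap B F ϖ * z)
    (c : κ)
    (hone : ∀ c', (∀ b : B, algebraMap B F b ∈ (V c').nonunits → b ∈ 𝔫) → c' = c)
    (y : ls_localSubring (F := F) 𝔫) (hy : (y : F) ∈ (V c).nonunits) :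
    s36n2pToLoc (F := F) 𝔫 ϖ ∣ y := by
  obtain ⟨z, hz, hyz⟩ := hU c _ hy
  have hmem : z ∈ ls_localSubring (F := F) 𝔫 := by
    refine s36n2p_KRloc 𝔫 V hBV ϖ hKR 1
      (fun c x hx => by
        obtain ⟨z, hz, hxz⟩ := hU c x hx
        exact ⟨z, hz, by rw [pow_one, hxz]⟩) _ ?_ ?_
    · rw [← hyz]
      exact y.2
    · intro c' hc'
      rw [hone c' hc']
      exact hz
  exact ⟨⟨z, hmem⟩, Subtype.ext hyz⟩

include hinj in
/-- **`ϖ` is a prime element of `B_𝔫`** at a point with only one component through it. -/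
theorem rtk6lfp_smooth_prime (V : κ → ValuationSubring F)
    (hBV : ∀ c (b : B), algebraMap B F b ∈ V c) (ϖ : B)
    (hKR : ∀ x : F, (∃ b : B, algebraMap B F ϖ * x = algebraMap B F b) → (∀ c, x ∈ V c) →
      ∃ b : B, x = algebraMap B F b)
    (hU : ∀ c (x : F), x ∈ (V c).nonunits → ∃ z ∈ V c, x = algebraMap B F ϖ * z)
    (hϖ0 : algebraMap B F ϖ ≠ 0) (hϖV : ∀ c, algebraMap B F ϖ ∈ (V c).nonunits)
    (c : κ) (hthr : ∀ b : B, algebraMap B F b ∈ (V c).nonunits → b ∈ 𝔫)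
    (hone : ∀ c', (∀ b : B, algebraMap B F b ∈ (V c').nonunits → b ∈ 𝔫) → c' = c) :
    Prime (s36n2pToLoc (F := F) 𝔫 ϖ) :=
  s36n2p_prime hinj 𝔫 (V c) (hBV c) hthr _ (fun h0 => hϖ0 (congrArg Subtype.val h0)) (hϖV c)
    (fun y hy => rtk6lfp_smooth_dvd hinj 𝔫 V hBV ϖ hKR hU c hone y hy)

include hinj in
/-- **`𝔪(B_𝔫) = (ϖ, s)`** at a smooth point. -/
theorem rtk6lfp_smooth_max [IsLocalRing (ls_localSubring (F := F) 𝔫)]
    (ϖ : B) {s : B} (hϖ𝔫 : ϖ ∈ 𝔫) (hs𝔫 : s ∈ 𝔫) (hgen : NodesLocGen 𝔫 {ϖ, s}) :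
    maximalIdeal (ls_localSubring (F := F) 𝔫) =
      Ideal.span {s36n2pToLoc (F := F) 𝔫 ϖ, s36n2pToLoc (F := F) 𝔫 s} := by
  have h1 : (1 : B) ∉ 𝔫 := fun h => h𝔫.ne_top ((Ideal.eq_top_iff_one 𝔫).mpr h)
  have hunit : ∀ v : B, v ∉ 𝔫 → IsUnit (s36n2pToLoc (F := F) 𝔫 v) := fun v hv =>
    ls_isUnit_of_not_mem hinj 𝔫 _ (b := v) (s := 1) hv h1 (by rw [map_one, one_mul]; rfl)
  apply le_antisymm
  · intro r hr
    obtain ⟨b, d, hb, hd, hbd⟩ := stb_gc_exists_of_mem_maximalIdeal hinj 𝔫 r hr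
    obtain ⟨v, hv, hvb⟩ := hgen b hb
    rw [Ideal.mem_span_pair] at hvb
    obtain ⟨α, β, hvb⟩ := hvb
    have e : s36n2pToLoc (F := F) 𝔫 (v * d) * r =
        s36n2pToLoc (F := F) 𝔫 α * s36n2pToLoc (F := F) 𝔫 ϖ +
          s36n2pToLoc (F := F) 𝔫 β * s36n2pToLoc (F := F) 𝔫 s := by
      apply Subtype.ext
      show algebraMap B F (v * d) * (r : F) =
        algebraMap B F α * algebraMap B F ϖ + algebraMap B F β * algebraMap B F s
      have h2 : algebraMap B F (v * d) * (r : F) = algebraMap B F (v * b) := by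
        rw [map_mul, map_mul, ← hbd]; ring
      rw [h2, ← hvb, map_add, map_mul, map_mul]
    have hu : IsUnit (s36n2pToLoc (F := F) 𝔫 (v * d)) := hunit _ (fun h => by
      rcases h𝔫.mem_or_mem h with h' | h'
      · exact hv h'
      · exact hd h')
    obtain ⟨u, hu⟩ := hu
    have e2 : r = ((u⁻¹ : (ls_localSubring (F := F) 𝔫)ˣ) : ls_localSubring (F := F) 𝔫) *
        (s36n2pToLoc (F := F) 𝔫 α * s36n2pToLoc (F := F) 𝔫 ϖ +
          s36n2pToLoc (F := F) 𝔫 β * s36n2pToLoc (F := F) 𝔫 s) := by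
      rw [← e, ← hu, ← mul_assoc, Units.inv_mul, one_mul]
    rw [e2]
    refine Ideal.mul_mem_left _ _ (Ideal.add_mem _ ?_ ?_)
    · exact Ideal.mul_mem_left _ _ (Ideal.subset_span (by simp))
    · exact Ideal.mul_mem_left _ _ (Ideal.subset_span (by simp))
  · rw [Ideal.span_le]
    intro z hz
    rcases hz with rfl | rfl
    · exact stb_gc_mem_maximalIdeal hinj 𝔫 _ (b := ϖ) (s := 1) hϖ𝔫 h1
        (by rw [map_one, one_mul]; rfl)
    · exact stb_gc_mem_maximalIdeal hinj 𝔫 _ (b := s) (s := 1) hs𝔫 h1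
        (by rw [map_one, one_mul]; rfl)

include hinj in
/-- **`B_𝔫` is a UFD** at a smooth point. -/
theorem rtk6lfp_smooth_ufd [IsNoetherianRing B] (V : κ → ValuationSubring F)
    (hBV : ∀ c (b : B), algebraMap B F b ∈ V c) (ϖ : B)
    (hKR : ∀ x : F, (∃ b : B, algebraMap B F ϖ * x = algebraMap B F b) → (∀ c, x ∈ V c) →
      ∃ b : B, x = algebraMap B F b)
    (hU : ∀ c (x : F), x ∈ (V c).nonunits → ∃ z ∈ V c, x = algebraMap B F ϖ * z)
    (hϖ0 : algebraMap B F ϖ ≠ 0) (hϖV : ∀ c, algebraMap B F ϖ ∈ (V c).nonunits)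
    (c : κ) (hthr : ∀ b : B, algebraMap B F b ∈ (V c).nonunits → b ∈ 𝔫)
    (hone : ∀ c', (∀ b : B, algebraMap B F b ∈ (V c').nonunits → b ∈ 𝔫) → c' = c)
    {s : B} (hs𝔫 : s ∈ 𝔫) (hgen : NodesLocGen 𝔫 {ϖ, s}) :
    UniqueFactorizationMonoid (ls_localSubring (F := F) 𝔫) := by
  haveI := ls_localSubring_isLocalRing (F := F) hinj 𝔫
  haveI := s36n2p_isNoetherianRing (F := F) hinj 𝔫
  exact rtk6lf_ufd _ _
    (rtk6lfp_smooth_max hinj 𝔫 ϖ (hthr ϖ (hϖV c)) hs𝔫 hgen)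
    (rtk6lfp_smooth_prime hinj 𝔫 V hBV ϖ hKR hU hϖ0 hϖV c hthr hone)

include hinj in
/-- **(LF) at a smooth point**: `y = ε · ϖ ^ a · γ ^ m`, `v_c(y) = v_c(ϖ) ^ a`. -/
theorem rtk6lfp_smooth_fac [IsNoetherianRing B] (V : κ → ValuationSubring F)
    (hBV : ∀ c (b : B), algebraMap B F b ∈ V c) (ϖ : B)
    (hKR : ∀ x : F, (∃ b : B, algebraMap B F ϖ * x = algebraMap B F b) → (∀ c, x ∈ V c) →
      ∃ b : B, x = algebraMap B F b)
    (hU : ∀ c (x : F), x ∈ (V c).nonunits → ∃ z ∈ V c, x = algebraMap B F ϖ * z)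
    (hϖ0 : algebraMap B F ϖ ≠ 0) (hϖV : ∀ c, algebraMap B F ϖ ∈ (V c).nonunits)
    (hE : ∀ e : E, ∃ (n : ℕ) (a : B),
      algebraMap E F e * algebraMap B F ϖ ^ n = algebraMap B F a)
    (hfrac : ∀ x : F, ∃ a b : B, b ≠ 0 ∧ x * algebraMap B F b = algebraMap B F a)
    (c : κ) (hthr : ∀ b : B, algebraMap B F b ∈ (V c).nonunits → b ∈ 𝔫)
    (hone : ∀ c', (∀ b : B, algebraMap B F b ∈ (V c').nonunits → b ∈ 𝔫) → c' = c)
    {s : B} (hs𝔫 : s ∈ 𝔫) (hgen : NodesLocGen 𝔫 {ϖ, s})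
    (m : ℕ) {y : F} (hy : y ≠ 0)
    (hhor : ∀ P : Place E F, (∀ x ∈ ls_localSubring (F := F) 𝔫, x ∈ P.toValuationSubring) →
      (m : ℤ) ∣ P.ord y) :
    ∃ (γ : F) (ε : ls_localSubring (F := F) 𝔫) (a : ℤ), IsUnit ε ∧
      y = (ε : F) * algebraMap B F ϖ ^ a * γ ^ m ∧ γ ≠ 0 ∧
      (V c).valuation γ = 1 ∧
      (V c).valuation y = (V c).valuation (algebraMap B F ϖ) ^ a := by
  haveI : UniqueFactorizationMonoid (ls_localSubring (F := F) 𝔫) :=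
    rtk6lfp_smooth_ufd hinj 𝔫 V hBV ϖ hKR hU hϖ0 hϖV c hthr hone hs𝔫 hgen
  have hp := rtk6lfp_smooth_prime hinj 𝔫 V hBV ϖ hKR hU hϖ0 hϖV c hthr hone
  have hdict := s36n2p_dict (E := E) hinj 𝔫 V hBV ϖ hKR 1
    (fun c x hx => by
      obtain ⟨z, hz, hxz⟩ := hU c x hx
      exact ⟨z, hz, by rw [pow_one, hxz]⟩) hϖ0 hϖV hE hfrac
  obtain ⟨γ, ε, a, b, hε, hyε, hγ0, hγ, hval⟩ := rtk6lf_facAt (E := E)
    (ls_localSubring (F := F) 𝔫)
    (fun x => by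
      obtain ⟨a, b, hb, h⟩ := hfrac x
      exact ⟨s36n2pToLoc (F := F) 𝔫 a, s36n2pToLoc (F := F) 𝔫 b,
        fun h0 => hb (hinj (by rw [map_zero]; exact h0)), h⟩)
    (fun c => ∀ b : B, algebraMap B F b ∈ (V c).nonunits → b ∈ 𝔫) V
    (fun c hc => stb_gc_le 𝔫 (V c) (hBV c) hc) hdict hp hp
    (fun c' hc' => by
      rw [hone c' hc']
      exact Or.inl (fun x hx => rtk6lfp_smooth_dvd hinj 𝔫 V hBV ϖ hKR hU c hone x hx))
    m hy hhor
  refine ⟨γ, ε, a + b, hε, ?_, hγ0, hγ c hthr, ?_⟩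
  · rw [hyε, zpow_add₀ hϖ0]
    change (ε : F) * algebraMap B F ϖ ^ a * algebraMap B F ϖ ^ b * γ ^ m = _
    ring
  · have h := hval c hthr
    change (V c).valuation y = (V c).valuation (algebraMap B F ϖ) ^ a *
      (V c).valuation (algebraMap B F ϖ) ^ b at h
    have hϖv : (V c).valuation (algebraMap B F ϖ) ≠ 0 := (Valuation.ne_zero_iff _).2 hϖ0
    rw [h, zpow_add₀ hϖv]

end Core

end Fermat.Agent.RT.K6
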