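/-
K-machine, piece K6, piece D-LF (helper54): the local factorisation (LF) at the closed points of a
chart over a discrete valuation ring with REDUCED special fibre and THIN nodes — chart form.

Setting of `STB/MainTwo.lean`, `RIB/MP/FacRig.lean`: `A₀` a DVR (uniformizer `π`), `E = Frac A₀`,
`F / E(u)` finite, `B_u = zchClosure {u}` the chart, `V : κ → ValuationSubring F` the vertical
valuation rings, `κ = {c₁, c₂}`, with
 (SS1) `B_u ∩ ⋂ 𝔪(V c) = π B_u`,   (U) `𝔪(V c) = π V c`.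

* `Rtk6lfThinAt V c₁ c₂ 𝔫` : **the dichotomy of U5 with THIN nodes** at the closed point `𝔫`:
  smooth point `𝔫 = (π, s)` locally, or crossing point `𝔫 = (π, X, Y)` locally with
  `w π = X Y`, `w ∉ 𝔫`, `X ∈ 𝔪(V c₁)`, `Y ∈ 𝔪(V c₂)`.
* `rtk6lfc_hU` : (U) from (SS1), `V c = (B_u)_{𝔭_c}` (`hVloc`) and `V c₁ ≠ V c₂`
  (`STB.stb_sp_princ`).
* `rtk6lfc_cross_ufd`, `rtk6lfc_smooth_ufd`, `rtk6lfc_ufd` : `atLoc 𝔫` is a UFD.
* `rtk6lfc_cross_fac`, `rtk6lfc_cross_LF`, `rtk6lfc_smooth_fac` : **(LF)** (see `DLFPt.lean`).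
* `rtk6lfc_facAt` : `StbFacAt (atLoc 𝔫) m y` for `y` a unit at the components (MP-FAC form).
-/
import Fermat.Agent.RT.K6.DLFPt
import Fermat.Agent.RIB.MP.FacRig
import Fermat.Agent.STB.SmoothOnly
import Fermat.Agent.STB.MainTwo

set_option autoImplicit false
set_option linter.unusedSectionVars false
set_option linter.unusedVariables false
set_option linter.style.haveILetI false

namespace Fermat.Agent.RT.K6

open Fermat.Agent.UNIP Fermat.Agent.STB Fermat.Agent.INJ Fermat.Agent.S36 Fermat.Agent.RIB.MP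
  IntermediateField AlgebraicCurve

section Chart

universe u

variable {A₀ E F : Type u} [CommRing A₀] [IsDomain A₀] [IsDiscreteValuationRing A₀]
  [Field E] [Algebra A₀ E] [IsFractionRing A₀ E] [CharZero E]
  [Field F] [Algebra E F] [Algebra A₀ F] [IsScalarTower A₀ E F]
  {π : A₀} {κ : Type*}

/-- **The thin crossing datum** at the closed point `𝔫` of the chart `u`: both components pass
through `𝔫`, `𝔫 = (π, X, Y)` locally, `w π = X Y` with `w ∉ 𝔫`, `X ∈ 𝔪(V₁)`, `Y ∈ 𝔪(V₂)`. -/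
def Rtk6lfCrossAt (V₁ V₂ : ValuationSubring F) {u : F} (𝔫 : AtPt (F := F) π u)
    (X Y : ↥(zchClosure (A₀ := A₀) ({u} : Set F))) : Prop :=
  atThrough 𝔫 V₁ ∧ atThrough 𝔫 V₂ ∧ (X : F) ∈ V₁.nonunits ∧ (Y : F) ∈ V₂.nonunits ∧
    (∃ w : ↥(zchClosure (A₀ := A₀) ({u} : Set F)), w ∉ 𝔫.1 ∧
      w * algebraMap A₀ ↥(zchClosure (A₀ := A₀) ({u} : Set F)) π = X * Y) ∧
    NodesLocGen 𝔫.1 {algebraMap A₀ ↥(zchClosure (A₀ := A₀) ({u} : Set F)) π, X, Y}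

/-- **The dichotomy of U5 with thin nodes** at the closed point `𝔫` of the chart `u`. -/
def Rtk6lfThinAt (V₁ V₂ : ValuationSubring F) {u : F} (𝔫 : AtPt (F := F) π u) : Prop :=
  (∃ s : ↥(zchClosure (A₀ := A₀) ({u} : Set F)), s ∈ 𝔫.1 ∧
    NodesLocGen 𝔫.1 {algebraMap A₀ ↥(zchClosure (A₀ := A₀) ({u} : Set F)) π, s}) ∨
  ∃ X Y : ↥(zchClosure (A₀ := A₀) ({u} : Set F)), Rtk6lfCrossAt V₁ V₂ 𝔫 X Y

/-- a thin node is a node -/
theorem Rtk6lfThinAt.stbNodeAt {V₁ V₂ : ValuationSubring F} {u : F} {𝔫 : AtPt (F := F) π u}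
    (h : Rtk6lfThinAt V₁ V₂ 𝔫) :
    StbNodeAt V₁ V₂ 𝔫 (RingHom.id ↥(zchClosure (A₀ := A₀) ({u} : Set F)))
      (algebraMap A₀ ↥(zchClosure (A₀ := A₀) ({u} : Set F)) π) := by
  rcases h with ⟨s, hs, hgen⟩ | ⟨X, Y, h₁, h₂, hX, hY, -, hgen⟩
  · exact Or.inl ⟨s, hs, hgen⟩
  · exact Or.inr ⟨fun x hx => h₁ x hx, fun x hx => h₂ x hx, X, Y, hX, hY, hgen⟩

include E in
/-- **(U)** `𝔪(V c) = π V c`, from (SS1), `V c = (B_u)_{𝔭_c}` and the distinctness of the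
vertical valuation rings. -/
theorem rtk6lfc_hU (hπ : Irreducible π) {u : F} [Finite κ] (V : κ → ValuationSubring F)
    (hBV : ∀ c (b : F), IsIntegral ↥(Algebra.adjoin A₀ {u}) b → b ∈ V c)
    (hπV : ∀ c, algebraMap A₀ F π ∈ (V c).nonunits)
    (hSS1 : ∀ b : F, IsIntegral ↥(Algebra.adjoin A₀ {u}) b → (∀ c, b ∈ (V c).nonunits) →
      ∃ b' : F, IsIntegral ↥(Algebra.adjoin A₀ {u}) b' ∧ b = algebraMap A₀ F π * b')
    (harch : ∀ c (a x : F), a ∈ (V c).nonunits → ∃ N : ℕ, a ^ N * x ∈ (V c).nonunits)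
    (hVloc : ∀ c (x : F), x ∈ V c → ∃ b s : F, IsIntegral ↥(Algebra.adjoin A₀ {u}) b ∧
      IsIntegral ↥(Algebra.adjoin A₀ {u}) s ∧ s ∉ (V c).nonunits ∧ s * x = b)
    (hne : ∀ c c', c ≠ c' → V c ≠ V c') :
    ∀ c (x : F), x ∈ (V c).nonunits → ∃ z ∈ V c, x = algebraMap A₀ F π * z := by
  have hπ0 : algebraMap A₀ F π ≠ 0 := ei_algebraMap_ne_zero (E := E) hπ
  have harch' : ∀ c, StbArch (V c) := fun c x a ha => by
    obtain ⟨N, hN⟩ := harch c a x ha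
    exact ⟨N, by rw [mul_comm]; exact hN⟩
  intro c
  exact stb_sp_princ V hBV hSS1 hVloc c fun c' hc' =>
    stb_not_le_of_ne (harch' c) hπ0 (hπV c') (hne c c' (Ne.symm hc'))

variable [Finite κ]

/-! ### crossing points -/

include E in
/-- **`atLoc 𝔫` is a UFD** at a thin crossing point. -/
theorem rtk6lfc_cross_ufd (hπ : Irreducible π) {u : F}
    [IsNoetherianRing ↥(zchClosure (A₀ := A₀) ({u} : Set F))]
    (V : κ → ValuationSubring F) (c₁ c₂ : κ) (hκ : ∀ c, c = c₁ ∨ c = c₂)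
    (hBV : ∀ c (b : F), IsIntegral ↥(Algebra.adjoin A₀ {u}) b → b ∈ V c)
    (hπV : ∀ c, algebraMap A₀ F π ∈ (V c).nonunits)
    (hSS1 : ∀ b : F, IsIntegral ↥(Algebra.adjoin A₀ {u}) b → (∀ c, b ∈ (V c).nonunits) →
      ∃ b' : F, IsIntegral ↥(Algebra.adjoin A₀ {u}) b' ∧ b = algebraMap A₀ F π * b')
    (hU : ∀ c (x : F), x ∈ (V c).nonunits → ∃ z ∈ V c, x = algebraMap A₀ F π * z)
    (𝔫 : AtPt (F := F) π u) {X Y : ↥(zchClosure (A₀ := A₀) ({u} : Set F))}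
    (h : Rtk6lfCrossAt (V c₁) (V c₂) 𝔫 X Y) :
    UniqueFactorizationMonoid ↥(atLoc 𝔫) := by
  haveI := 𝔫.2.1.isPrime
  obtain ⟨h₁, h₂, hX, hY, ⟨w, hw, hXY⟩, hgen⟩ := h
  have hπ0 : algebraMap A₀ F π ≠ 0 := ei_algebraMap_ne_zero (E := E) hπ
  exact rtk6lfp_cross_ufd (B := ↥(zchClosure (A₀ := A₀) ({u} : Set F)))
    Subtype.val_injective 𝔫.1 V (fun c b => hBV c _ b.2)
    (algebraMap A₀ ↥(zchClosure (A₀ := A₀) ({u} : Set F)) π)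
    (ribmp_fac_hKR hπ0 V hπV hSS1) hU hπ0 c₁ c₂ (fun c _ => hκ c) h₁ h₂ hw hXY hX hY hgen

/-- **(LF) at a thin crossing point** of the chart `u`. -/
theorem rtk6lfc_cross_fac (hπ : Irreducible π) {u : F} [FiniteDimensional E⟮u⟯ F]
    [IsNoetherianRing ↥(zchClosure (A₀ := A₀) ({u} : Set F))]
    (V : κ → ValuationSubring F) (c₁ c₂ : κ) (hκ : ∀ c, c = c₁ ∨ c = c₂)
    (hBV : ∀ c (b : F), IsIntegral ↥(Algebra.adjoin A₀ {u}) b → b ∈ V c)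
    (hπV : ∀ c, algebraMap A₀ F π ∈ (V c).nonunits)
    (hSS1 : ∀ b : F, IsIntegral ↥(Algebra.adjoin A₀ {u}) b → (∀ c, b ∈ (V c).nonunits) →
      ∃ b' : F, IsIntegral ↥(Algebra.adjoin A₀ {u}) b' ∧ b = algebraMap A₀ F π * b')
    (hU : ∀ c (x : F), x ∈ (V c).nonunits → ∃ z ∈ V c, x = algebraMap A₀ F π * z)
    (𝔫 : AtPt (F := F) π u) {X Y : ↥(zchClosure (A₀ := A₀) ({u} : Set F))}
    (h : Rtk6lfCrossAt (V c₁) (V c₂) 𝔫 X Y)
    (m : ℕ) {y : F} (hy : y ≠ 0)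
    (hhor : ∀ P : Place E F, (∀ x ∈ atLoc 𝔫, x ∈ P.toValuationSubring) → (m : ℤ) ∣ P.ord y) :
    ∃ (γ : F) (ε : ↥(atLoc 𝔫)) (a b : ℤ), IsUnit ε ∧
      y = (ε : F) * (X : F) ^ a * (Y : F) ^ b * γ ^ m ∧ γ ≠ 0 ∧
      (V c₁).valuation γ = 1 ∧ (V c₂).valuation γ = 1 ∧
      (V c₁).valuation y = (V c₁).valuation (algebraMap A₀ F π) ^ a ∧
      (V c₂).valuation y = (V c₂).valuation (algebraMap A₀ F π) ^ b := by
  haveI := 𝔫.2.1.isPrime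
  obtain ⟨h₁, h₂, hX, hY, ⟨w, hw, hXY⟩, hgen⟩ := h
  have hπ0 : algebraMap A₀ F π ≠ 0 := ei_algebraMap_ne_zero (E := E) hπ
  exact rtk6lfp_cross_fac (E := E) (B := ↥(zchClosure (A₀ := A₀) ({u} : Set F)))
    Subtype.val_injective 𝔫.1 V (fun c b => hBV c _ b.2)
    (algebraMap A₀ ↥(zchClosure (A₀ := A₀) ({u} : Set F)) π)
    (ribmp_fac_hKR hπ0 V hπV hSS1) hU hπ0 hπV (ribmp_fac_hE hπ u) (ribmp_fac_hfrac (E := E) u)
    c₁ c₂ (fun c _ => hκ c) h₁ h₂ hw hXY hX hY hgen m hy hhor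

/-- **(LF) at a thin crossing point, for a unit at `V c₁`**: `y = ε · Y ^ b · γ ^ m`,
`v_{c₂}(y) = v_{c₂}(π) ^ b`. -/
theorem rtk6lfc_cross_LF (hπ : Irreducible π) {u : F} [FiniteDimensional E⟮u⟯ F]
    [IsNoetherianRing ↥(zchClosure (A₀ := A₀) ({u} : Set F))]
    (V : κ → ValuationSubring F) (c₁ c₂ : κ) (hκ : ∀ c, c = c₁ ∨ c = c₂)
    (hBV : ∀ c (b : F), IsIntegral ↥(Algebra.adjoin A₀ {u}) b → b ∈ V c)
    (hπV : ∀ c, algebraMap A₀ F π ∈ (V c).nonunits)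
    (hSS1 : ∀ b : F, IsIntegral ↥(Algebra.adjoin A₀ {u}) b → (∀ c, b ∈ (V c).nonunits) →
      ∃ b' : F, IsIntegral ↥(Algebra.adjoin A₀ {u}) b' ∧ b = algebraMap A₀ F π * b')
    (hU : ∀ c (x : F), x ∈ (V c).nonunits → ∃ z ∈ V c, x = algebraMap A₀ F π * z)
    (𝔫 : AtPt (F := F) π u) {X Y : ↥(zchClosure (A₀ := A₀) ({u} : Set F))}
    (h : Rtk6lfCrossAt (V c₁) (V c₂) 𝔫 X Y)
    (m : ℕ) {y : F} (hy : y ≠ 0)
    (hhor : ∀ P : Place E F, (∀ x ∈ atLoc 𝔫, x ∈ P.toValuationSubring) → (m : ℤ) ∣ P.ord y)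
    (hy₁ : (V c₁).valuation y = 1) :
    ∃ (γ : F) (ε : ↥(atLoc 𝔫)) (b : ℤ), IsUnit ε ∧
      y = (ε : F) * (Y : F) ^ b * γ ^ m ∧ γ ≠ 0 ∧
      (V c₁).valuation γ = 1 ∧ (V c₂).valuation γ = 1 ∧
      (V c₂).valuation y = (V c₂).valuation (algebraMap A₀ F π) ^ b := by
  haveI := 𝔫.2.1.isPrime
  obtain ⟨h₁, h₂, hX, hY, ⟨w, hw, hXY⟩, hgen⟩ := h
  have hπ0 : algebraMap A₀ F π ≠ 0 := ei_algebraMap_ne_zero (E := E) hπ
  exact rtk6lfp_cross_LF (E := E) (B := ↥(zchClosure (A₀ := A₀) ({u} : Set F)))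
    Subtype.val_injective 𝔫.1 V (fun c b => hBV c _ b.2)
    (algebraMap A₀ ↥(zchClosure (A₀ := A₀) ({u} : Set F)) π)
    (ribmp_fac_hKR hπ0 V hπV hSS1) hU hπ0 hπV (ribmp_fac_hE hπ u) (ribmp_fac_hfrac (E := E) u)
    c₁ c₂ (fun c _ => hκ c) h₁ h₂ hw hXY hX hY hgen m hy hhor hy₁

/-! ### smooth points -/

include E in
/-- **`atLoc 𝔫` is a UFD** at a smooth point. -/
theorem rtk6lfc_smooth_ufd (hπ : Irreducible π) {u : F}
    [IsNoetherianRing ↥(zchClosure (A₀ := A₀) ({u} : Set F))]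
    (V : κ → ValuationSubring F)
    (hBV : ∀ c (b : F), IsIntegral ↥(Algebra.adjoin A₀ {u}) b → b ∈ V c)
    (hπV : ∀ c, algebraMap A₀ F π ∈ (V c).nonunits)
    (hSS1 : ∀ b : F, IsIntegral ↥(Algebra.adjoin A₀ {u}) b → (∀ c, b ∈ (V c).nonunits) →
      ∃ b' : F, IsIntegral ↥(Algebra.adjoin A₀ {u}) b' ∧ b = algebraMap A₀ F π * b')
    (hU : ∀ c (x : F), x ∈ (V c).nonunits → ∃ z ∈ V c, x = algebraMap A₀ F π * z)
    (𝔫 : AtPt (F := F) π u) (c : κ) (hthr : atThrough 𝔫 (V c))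
    (hone : ∀ c', atThrough 𝔫 (V c') → c' = c)
    {s : ↥(zchClosure (A₀ := A₀) ({u} : Set F))} (hs : s ∈ 𝔫.1)
    (hgen : NodesLocGen 𝔫.1 {algebraMap A₀ ↥(zchClosure (A₀ := A₀) ({u} : Set F)) π, s}) :
    UniqueFactorizationMonoid ↥(atLoc 𝔫) := by
  haveI := 𝔫.2.1.isPrime
  have hπ0 : algebraMap A₀ F π ≠ 0 := ei_algebraMap_ne_zero (E := E) hπ
  exact rtk6lfp_smooth_ufd (B := ↥(zchClosure (A₀ := A₀) ({u} : Set F)))
    Subtype.val_injective 𝔫.1 V (fun c b => hBV c _ b.2)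
    (algebraMap A₀ ↥(zchClosure (A₀ := A₀) ({u} : Set F)) π)
    (ribmp_fac_hKR hπ0 V hπV hSS1) hU hπ0 hπV c hthr hone hs hgen

/-- **(LF) at a smooth point** of the chart `u`: `y = ε · π ^ a · γ ^ m`. -/
theorem rtk6lfc_smooth_fac (hπ : Irreducible π) {u : F} [FiniteDimensional E⟮u⟯ F]
    [IsNoetherianRing ↥(zchClosure (A₀ := A₀) ({u} : Set F))]
    (V : κ → ValuationSubring F)
    (hBV : ∀ c (b : F), IsIntegral ↥(Algebra.adjoin A₀ {u}) b → b ∈ V c)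
    (hπV : ∀ c, algebraMap A₀ F π ∈ (V c).nonunits)
    (hSS1 : ∀ b : F, IsIntegral ↥(Algebra.adjoin A₀ {u}) b → (∀ c, b ∈ (V c).nonunits) →
      ∃ b' : F, IsIntegral ↥(Algebra.adjoin A₀ {u}) b' ∧ b = algebraMap A₀ F π * b')
    (hU : ∀ c (x : F), x ∈ (V c).nonunits → ∃ z ∈ V c, x = algebraMap A₀ F π * z)
    (𝔫 : AtPt (F := F) π u) (c : κ) (hthr : atThrough 𝔫 (V c))
    (hone : ∀ c', atThrough 𝔫 (V c') → c' = c)
    {s : ↥(zchClosure (A₀ := A₀) ({u} : Set F))} (hs : s ∈ 𝔫.1)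
    (hgen : NodesLocGen 𝔫.1 {algebraMap A₀ ↥(zchClosure (A₀ := A₀) ({u} : Set F)) π, s})
    (m : ℕ) {y : F} (hy : y ≠ 0)
    (hhor : ∀ P : Place E F, (∀ x ∈ atLoc 𝔫, x ∈ P.toValuationSubring) → (m : ℤ) ∣ P.ord y) :
    ∃ (γ : F) (ε : ↥(atLoc 𝔫)) (a : ℤ), IsUnit ε ∧
      y = (ε : F) * algebraMap A₀ F π ^ a * γ ^ m ∧ γ ≠ 0 ∧
      (V c).valuation γ = 1 ∧
      (V c).valuation y = (V c).valuation (algebraMap A₀ F π) ^ a := by
  haveI := 𝔫.2.1.isPrime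
  have hπ0 : algebraMap A₀ F π ≠ 0 := ei_algebraMap_ne_zero (E := E) hπ
  exact rtk6lfp_smooth_fac (E := E) (B := ↥(zchClosure (A₀ := A₀) ({u} : Set F)))
    Subtype.val_injective 𝔫.1 V (fun c b => hBV c _ b.2)
    (algebraMap A₀ ↥(zchClosure (A₀ := A₀) ({u} : Set F)) π)
    (ribmp_fac_hKR hπ0 V hπV hSS1) hU hπ0 hπV (ribmp_fac_hE hπ u) (ribmp_fac_hfrac (E := E) u)
    c hthr hone hs hgen m hy hhor

/-! ### all closed points -/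

include E in
/-- **`atLoc 𝔫` is a UFD** at every closed point of a chart with thin nodes. -/
theorem rtk6lfc_ufd (hπ : Irreducible π) {u : F}
    [IsNoetherianRing ↥(zchClosure (A₀ := A₀) ({u} : Set F))]
    (V : κ → ValuationSubring F) (c₁ c₂ : κ) (hκ : ∀ c, c = c₁ ∨ c = c₂)
    (hBV : ∀ c (b : F), IsIntegral ↥(Algebra.adjoin A₀ {u}) b → b ∈ V c)
    (hπV : ∀ c, algebraMap A₀ F π ∈ (V c).nonunits)
    (hSS1 : ∀ b : F, IsIntegral ↥(Algebra.adjoin A₀ {u}) b → (∀ c, b ∈ (V c).nonunits) →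
      ∃ b' : F, IsIntegral ↥(Algebra.adjoin A₀ {u}) b' ∧ b = algebraMap A₀ F π * b')
    (harch : ∀ c (a x : F), a ∈ (V c).nonunits → ∃ N : ℕ, a ^ N * x ∈ (V c).nonunits)
    (hVloc : ∀ c (x : F), x ∈ V c → ∃ b s : F, IsIntegral ↥(Algebra.adjoin A₀ {u}) b ∧
      IsIntegral ↥(Algebra.adjoin A₀ {u}) s ∧ s ∉ (V c).nonunits ∧ s * x = b)
    (hne : ∀ c c', c ≠ c' → V c ≠ V c')
    (𝔫 : AtPt (F := F) π u) (h : Rtk6lfThinAt (V c₁) (V c₂) 𝔫) :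
    UniqueFactorizationMonoid ↥(atLoc 𝔫) := by
  have hπ0 : algebraMap A₀ F π ≠ 0 := ei_algebraMap_ne_zero (E := E) hπ
  have hU := rtk6lfc_hU (E := E) hπ V hBV hπV hSS1 harch hVloc hne
  have harch' : ∀ c, StbArch (V c) := fun c x a ha => by
    obtain ⟨N, hN⟩ := harch c a x ha
    exact ⟨N, by rw [mul_comm]; exact hN⟩
  rcases h with ⟨s, hs, hgen⟩ | ⟨X, Y, h⟩
  · obtain ⟨c, hc, hone⟩ := stb_sx_exists_unique V hBV hπV hSS1 hVloc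
      (fun c c' hcc' => stb_not_le_of_ne (harch' c) hπ0 (hπV c') (hne c c' hcc')) 𝔫 s hs hgen
    exact rtk6lfc_smooth_ufd (E := E) hπ V hBV hπV hSS1 hU 𝔫 c hc hone hs hgen
  · exact rtk6lfc_cross_ufd (E := E) hπ V c₁ c₂ hκ hBV hπV hSS1 hU 𝔫 h

/-- **MP-FAC form**: at every closed point of a chart with thin nodes, a function which is a unit
at the vertical valuations and whose divisor is divisible by `m` is a unit of the local ring times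
an `m`-th power. -/
theorem rtk6lfc_facAt (hπ : Irreducible π) {u : F} [FiniteDimensional E⟮u⟯ F]
    [IsNoetherianRing ↥(zchClosure (A₀ := A₀) ({u} : Set F))]
    (V : κ → ValuationSubring F) (c₁ c₂ : κ) (hκ : ∀ c, c = c₁ ∨ c = c₂)
    (hBV : ∀ c (b : F), IsIntegral ↥(Algebra.adjoin A₀ {u}) b → b ∈ V c)
    (hπV : ∀ c, algebraMap A₀ F π ∈ (V c).nonunits)
    (hSS1 : ∀ b : F, IsIntegral ↥(Algebra.adjoin A₀ {u}) b → (∀ c, b ∈ (V c).nonunits) →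
      ∃ b' : F, IsIntegral ↥(Algebra.adjoin A₀ {u}) b' ∧ b = algebraMap A₀ F π * b')
    (harch : ∀ c (a x : F), a ∈ (V c).nonunits → ∃ N : ℕ, a ^ N * x ∈ (V c).nonunits)
    (hVloc : ∀ c (x : F), x ∈ V c → ∃ b s : F, IsIntegral ↥(Algebra.adjoin A₀ {u}) b ∧
      IsIntegral ↥(Algebra.adjoin A₀ {u}) s ∧ s ∉ (V c).nonunits ∧ s * x = b)
    (hne : ∀ c c', c ≠ c' → V c ≠ V c')
    (𝔫 : AtPt (F := F) π u) (h : Rtk6lfThinAt (V c₁) (V c₂) 𝔫)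
    (m : ℕ) (y : F) (hy : y ≠ 0) (hhor : ∀ P : Place E F, (m : ℤ) ∣ P.ord y)
    (hunit : ∀ c, (V c).valuation y = 1) :
    StbFacAt (atLoc 𝔫) m y :=
  ribmp_fac_ufd_chart (E := E) hπ V hBV hπV hSS1
    (rtk6lfc_hU (E := E) hπ V hBV hπV hSS1 harch hVloc hne) 𝔫
    (rtk6lfc_ufd (E := E) hπ V c₁ c₂ hκ hBV hπV hSS1 harch hVloc hne 𝔫 h) m y hy hhor hunit

end Chart

end Fermat.Agent.RT.K6
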