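/-
K-machine, piece K6, piece D-LF (helper54), the BRIDGE `ρ → V`, abstract part.

UNIP's U5 (`nodesReg_chart_J`) and the thin node of S36 (`s36tm_node`, helper80) live on the chart
`B₀ = integralClosure A₀[u] F` (a subalgebra over `A₀[u]`) and speak of the two reductions
`ρ₁, ρ₂`; the factorisation statements of `DLFChart.lean` live on `B = zchClosure {u}` (the same
subring of `F`, as an `A₀`-subalgebra) and speak of the two vertical valuation rings `V₁, V₂`.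

* `rtk6lfb_locGen_map` : `NodesLocGen` along a surjective ring homomorphism;
* `rtk6lfb_locGen_thin` : in the thin relation `w p = X Y″` one may replace the (SS3) coordinate
  `Y` (`ρ₂ Y = 0`) by `Y″`: `NodesLocGen 𝔫 {p, X, Y} → NodesLocGen 𝔫 {p, X, Y″}`  (uses (SS1));
* `rtk6lfbToZch` : the identification `B₀ → zchClosure {u}` (`rtk6lfbToZch_coe`, `_bijective`,
  `_algebraMap`);
* `rtk6lfb_thinAt_of_rho` : **the bridge**: the thin dichotomy in `ρ`-form at `𝔫 ∩ B₀` gives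
  `Rtk6lfThinAt V₁ V₂ 𝔫`.
-/
import Fermat.Agent.RT.K6.DLFChart

set_option autoImplicit false
set_option linter.unusedSectionVars false
set_option linter.unusedVariables false
set_option linter.style.haveILetI false

namespace Fermat.Agent.RT.K6

open Fermat.Agent.UNIP Fermat.Agent.STB Fermat.Agent.INJ Fermat.Agent.S36 Fermat.Agent.RIB.MP
  IntermediateField AlgebraicCurve

section Abs

variable {B₀ B : Type*} [CommRing B₀] [CommRing B]

/-- `NodesLocGen` along a surjective ring homomorphism. -/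
theorem rtk6lfb_locGen_map (e : B₀ →+* B) (he : Function.Surjective e) (𝔫 : Ideal B)
    {T : Set B₀} (h : NodesLocGen (𝔫.comap e) T) : NodesLocGen 𝔫 (e '' T) := by
  intro b hb
  obtain ⟨b₀, rfl⟩ := he b
  obtain ⟨u, hu, hub⟩ := h b₀ (Ideal.mem_comap.2 hb)
  refine ⟨e u, fun hu' => hu (Ideal.mem_comap.2 hu'), ?_⟩
  rw [← map_mul, ← Ideal.map_span]
  exact Ideal.mem_map_of_mem e hub

/-- **Replacing the coordinate `Y` by the thin one `Y″`.**  `B₀` a domain, (SS1)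
`ker ρ₁ ∩ ker ρ₂ = p B₀`, `w p = X Y″` with `w ∉ 𝔫`, `ρ₁ X = 0`, `ρ₂ Y = 0`: then `Y″ ∣ w Y`, so
`{p, X, Y″}` generates `𝔫` locally if `{p, X, Y}` does. -/
theorem rtk6lfb_locGen_thin [IsDomain B₀] {S₁ S₂ : Type*} [CommRing S₁] [CommRing S₂]
    (ρ₁ : B₀ →+* S₁) (ρ₂ : B₀ →+* S₂) {p : B₀} (hp0 : p ≠ 0)
    (hSS1 : ∀ x, ρ₁ x = 0 → ρ₂ x = 0 → p ∣ x)
    (𝔫 : Ideal B₀) [h𝔫 : 𝔫.IsPrime] {X Y Y'' w : B₀} (hw : w ∉ 𝔫) (hXY : w * p = X * Y'')
    (hX : ρ₁ X = 0) (hY : ρ₂ Y = 0) (hgen : NodesLocGen 𝔫 {p, X, Y}) :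
    NodesLocGen 𝔫 {p, X, Y''} := by
  have hw0 : w ≠ 0 := fun h => hw (h ▸ 𝔫.zero_mem)
  have hX0 : X ≠ 0 := by
    rintro rfl
    rw [zero_mul] at hXY
    exact mul_ne_zero hw0 hp0 hXY
  -- `Y″ ∣ w Y`
  obtain ⟨c, hc⟩ := hSS1 (X * Y) (by rw [map_mul, hX, zero_mul]) (by rw [map_mul, hY, mul_zero])
  have hYY : w * Y = Y'' * c := by
    apply mul_left_cancel₀ hX0
    calc X * (w * Y) = w * (X * Y) := by ring
      _ = w * p * c := by rw [hc]; ring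
      _ = X * (Y'' * c) := by rw [hXY]; ring
  intro b hb
  obtain ⟨v, hv, hvb⟩ := hgen b hb
  refine ⟨w * v, fun h => (h𝔫.mem_or_mem h).elim hw hv, ?_⟩
  obtain ⟨a₁, z₁, hz₁, h₁⟩ := Ideal.mem_span_insert.1 hvb
  obtain ⟨a₂, z₂, hz₂, h₂⟩ := Ideal.mem_span_insert.1 hz₁
  obtain ⟨a₃, h₃⟩ := Ideal.mem_span_singleton'.1 hz₂
  have : w * v * b = (w * a₁) * p + ((w * a₂) * X + (a₃ * c) * Y'') := by
    calc w * v * b = w * (v * b) := by ring
      _ = w * (a₁ * p + (a₂ * X + a₃ * Y)) := by rw [h₁, h₂, ← h₃]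
      _ = (w * a₁) * p + ((w * a₂) * X + a₃ * (w * Y)) := by ring
      _ = (w * a₁) * p + ((w * a₂) * X + (a₃ * c) * Y'') := by rw [hYY]; ring
  rw [this]
  exact Ideal.mem_span_insert.2 ⟨w * a₁, _, Ideal.mem_span_insert.2 ⟨w * a₂, _,
    Ideal.mem_span_singleton'.2 ⟨a₃ * c, rfl⟩, rfl⟩, rfl⟩

end Abs

section Chart

universe u

variable {A₀ E F : Type u} [CommRing A₀] [IsDomain A₀] [IsDiscreteValuationRing A₀]
  [Field E] [Algebra A₀ E] [IsFractionRing A₀ E] [CharZero E]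
  [Field F] [Algebra E F] [Algebra A₀ F] [IsScalarTower A₀ E F]
  {π : A₀}

/-- The identification of the chart `integralClosure A₀[S] F` (a subalgebra over `A₀[S]`) with
`zchClosure S` (the same subring, as an `A₀`-subalgebra). -/
def rtk6lfbToZch (S : Set F) :
    ↥(integralClosure ↥(Algebra.adjoin A₀ S) F) →+* ↥(zchClosure (A₀ := A₀) S) where
  toFun x := ⟨(x : F), mem_zchClosure.2 x.2⟩
  map_one' := rfl
  map_mul' _ _ := rfl
  map_zero' := rfl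
  map_add' _ _ := rfl

@[simp]
theorem rtk6lfbToZch_coe (S : Set F) (x : ↥(integralClosure ↥(Algebra.adjoin A₀ S) F)) :
    ((rtk6lfbToZch (A₀ := A₀) S x : ↥(zchClosure (A₀ := A₀) S)) : F) = (x : F) := rfl

theorem rtk6lfbToZch_mk (S : Set F) (b : ↥(zchClosure (A₀ := A₀) S)) :
    rtk6lfbToZch (A₀ := A₀) S ⟨(b : F), mem_zchClosure.1 b.2⟩ = b :=
  Subtype.ext (rtk6lfbToZch_coe S _)

theorem rtk6lfbToZch_injective (S : Set F) :
    Function.Injective (rtk6lfbToZch (A₀ := A₀) (F := F) S) := fun x y h =>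
  Subtype.ext ((rtk6lfbToZch_coe S x).symm.trans ((congrArg Subtype.val h).trans
    (rtk6lfbToZch_coe S y)))

theorem rtk6lfbToZch_surjective (S : Set F) :
    Function.Surjective (rtk6lfbToZch (A₀ := A₀) (F := F) S) := fun b =>
  ⟨⟨(b : F), mem_zchClosure.1 b.2⟩, rtk6lfbToZch_mk S b⟩

theorem rtk6lfbToZch_algebraMap (S : Set F) (a : A₀) :
    rtk6lfbToZch (A₀ := A₀) S (algebraMap A₀ ↥(integralClosure ↥(Algebra.adjoin A₀ S) F) a) =
      algebraMap A₀ ↥(zchClosure (A₀ := A₀) S) a :=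
  Subtype.ext rfl

/-- a component whose kernel lies in `𝔫 ∩ B₀` passes through `𝔫` -/
theorem rtk6lfb_through (W : ValuationSubring F) {u : F} {S : Type*} [CommRing S]
    (ρ : ↥(integralClosure ↥(Algebra.adjoin A₀ ({u} : Set F)) F) →+* S)
    (hρ : ∀ x : ↥(integralClosure ↥(Algebra.adjoin A₀ ({u} : Set F)) F),
      (x : F) ∈ W.nonunits ↔ ρ x = 0)
    (𝔫 : AtPt (F := F) π u)
    (hker : ∀ x, ρ x = 0 → x ∈ 𝔫.1.comap (rtk6lfbToZch (A₀ := A₀) ({u} : Set F))) :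
    atThrough 𝔫 W := by
  intro b hb
  have := hker ⟨(b : F), mem_zchClosure.1 b.2⟩ ((hρ _).1 hb)
  rw [Ideal.mem_comap, rtk6lfbToZch_mk] at this
  exact this

/-- **The bridge `ρ → V` at one closed point.**  `ρ₁, ρ₂` two ring homomorphisms on the chart
`B₀ = integralClosure A₀[u] F` with `ker ρ_i = 𝔪(V_i) ∩ B₀`; the thin dichotomy in `ρ`-form at
`𝔫 ∩ B₀` gives the thin dichotomy `Rtk6lfThinAt V₁ V₂ 𝔫`. -/
theorem rtk6lfb_thinAt_of_rho (V₁ V₂ : ValuationSubring F) {u : F}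
    {S₁ S₂ : Type*} [CommRing S₁] [CommRing S₂]
    (ρ₁ : ↥(integralClosure ↥(Algebra.adjoin A₀ ({u} : Set F)) F) →+* S₁)
    (ρ₂ : ↥(integralClosure ↥(Algebra.adjoin A₀ ({u} : Set F)) F) →+* S₂)
    (hρ₁ : ∀ x : ↥(integralClosure ↥(Algebra.adjoin A₀ ({u} : Set F)) F),
      (x : F) ∈ V₁.nonunits ↔ ρ₁ x = 0)
    (hρ₂ : ∀ x : ↥(integralClosure ↥(Algebra.adjoin A₀ ({u} : Set F)) F),
      (x : F) ∈ V₂.nonunits ↔ ρ₂ x = 0)
    (𝔫 : AtPt (F := F) π u)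
    (h : (∃ s ∈ 𝔫.1.comap (rtk6lfbToZch (A₀ := A₀) ({u} : Set F)),
        NodesLocGen (𝔫.1.comap (rtk6lfbToZch (A₀ := A₀) ({u} : Set F)))
          {algebraMap A₀ ↥(integralClosure ↥(Algebra.adjoin A₀ ({u} : Set F)) F) π, s}) ∨
      ((∀ x, ρ₁ x = 0 → x ∈ 𝔫.1.comap (rtk6lfbToZch (A₀ := A₀) ({u} : Set F))) ∧
       (∀ x, ρ₂ x = 0 → x ∈ 𝔫.1.comap (rtk6lfbToZch (A₀ := A₀) ({u} : Set F))) ∧
        ∃ X Y w : ↥(integralClosure ↥(Algebra.adjoin A₀ ({u} : Set F)) F),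
          ρ₁ X = 0 ∧ ρ₂ Y = 0 ∧ w ∉ 𝔫.1.comap (rtk6lfbToZch (A₀ := A₀) ({u} : Set F)) ∧
          w * algebraMap A₀ ↥(integralClosure ↥(Algebra.adjoin A₀ ({u} : Set F)) F) π = X * Y ∧
          NodesLocGen (𝔫.1.comap (rtk6lfbToZch (A₀ := A₀) ({u} : Set F)))
            {algebraMap A₀ ↥(integralClosure ↥(Algebra.adjoin A₀ ({u} : Set F)) F) π, X, Y})) :
    Rtk6lfThinAt V₁ V₂ 𝔫 := by
  rcases h with ⟨s, hs, hgen⟩ | ⟨h1, h2, X, Y, w, hX, hY, hw, hXY, hgen⟩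
  · refine Or.inl ⟨rtk6lfbToZch (A₀ := A₀) ({u} : Set F) s, Ideal.mem_comap.1 hs, ?_⟩
    have := rtk6lfb_locGen_map _ (rtk6lfbToZch_surjective (A₀ := A₀) ({u} : Set F)) 𝔫.1 hgen
    rwa [Set.image_insert_eq, Set.image_singleton, rtk6lfbToZch_algebraMap] at this
  · refine Or.inr ⟨rtk6lfbToZch (A₀ := A₀) ({u} : Set F) X,
      rtk6lfbToZch (A₀ := A₀) ({u} : Set F) Y, rtk6lfb_through V₁ ρ₁ hρ₁ 𝔫 h1, rtk6lfb_through V₂ ρ₂ hρ₂ 𝔫 h2,
      (hρ₁ X).2 hX, (hρ₂ Y).2 hY,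
      ⟨rtk6lfbToZch (A₀ := A₀) ({u} : Set F) w, fun h => hw (Ideal.mem_comap.2 h), ?_⟩, ?_⟩
    · rw [← rtk6lfbToZch_algebraMap, ← map_mul, hXY, map_mul]
    · have := rtk6lfb_locGen_map _ (rtk6lfbToZch_surjective (A₀ := A₀) ({u} : Set F)) 𝔫.1 hgen
      rwa [Set.image_insert_eq, Set.image_insert_eq, Set.image_singleton,
        rtk6lfbToZch_algebraMap] at this

end Chart

end Fermat.Agent.RT.K6
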