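/-
K-machine, piece K6, piece D-LF (helper54), the BRIDGE `ρ → V`, concrete part
(= MP-FAC piece FAC-A, chart `j`, with the thin relation kept).

Level `M q`, `q ∤ M`, RIGID: `4 ∣ M` if `q ≠ 2`, `9 ∣ M` if `q = 2`.  `A` a valuation subring of
`ℚ̄` over `q`, `K₀ ⊆ ℚ̄` with `A₀ = A ∩ K₀` a DVR, UNRAMIFIED (`q` a uniformizer), stable under a
Frobenius element; `F = F_{Mq}(K₀)`, chart `j`, `V = mgvV hπ ιC hq hqM` (`V true = V_∞`,
`V false = V_0`).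

* `rtk6lfb_gen_thin_J` : generic base (setting of `UNIP/NodesFinalReg.lean`): the dichotomy of U5
  on the chart `j` with THIN crossing points, in `ρ`-form: smooth point, or
  `w π = X Y`, `w ∉ 𝔫`, `ρ X = 0`, `ρ₀ Y = 0`, `𝔫 = (π, X, Y)` locally
  (`nodesReg_chart_J` + `S36.s36tm_node` + `rtk6lfb_locGen_thin`);
* `rtk6lfb_thinAt_J` : **`Rtk6lfThinAt V_∞ V_0 𝔫` at every closed point `𝔫` of the chart `j`**;
* `rtk6lfb_ufd_J` : `atLoc 𝔫` is a UFD (= `hufd` of `RIB.MP.ribmp_fc_main` on the chart `j`);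
* `rtk6lfb_val_zpow` : `v_c(y) = v_c(π) ^ n` for some `n : ℤ` (the vertical valuations are discrete);
* `rtk6lfb_cross_LF_J`, `rtk6lfb_smooth_LF_J`, `rtk6lfb_LF_J` : **(LF)** for a function `y ≠ 0`,
  unit at `V_∞`, `v_0(y) = v_0(π) ^ n₀`, whose divisor is divisible by `m`: at every closed point
  `y = ε Y ^ n₀ γ ^ m` (crossing point), `y = ε π ^ n₀ γ ^ m` (smooth point of `Σ_0`),
  `y = ε γ ^ m` (smooth point of `Σ_∞`);
* `rtk6lfb0_thinAt_J`, `rtk6lfb0_ufd_J`, `rtk6lfb0_LF_J` : the same for `K₀ = ℚ̄^I = beta0Field A`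
  (no hypothesis left but the rigidity of the level).
-/
import Fermat.Agent.RT.K6.DLFBridge
import Fermat.Agent.S36.ThinMod
import Fermat.Agent.UNIP.MGChartsBeta0RegU5
import Fermat.Agent.RIB.MP.FacConc
import Fermat.Agent.INJ.ChartFinite
import Fermat.Agent.Common.FrobExists
import Fermat.Agent.UNIP.Beta0Frob
import Fermat.Agent.STB.FrobLift
import Fermat.Agent.STB.MGNodeReg
import Fermat.Agent.UNIP.MGVloc
import Fermat.Agent.UNIP.MGVertLocMain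

set_option autoImplicit false
set_option linter.style.haveILetI false
set_option linter.unusedSectionVars false
set_option linter.unusedVariables false
set_option linter.style.longLine false
set_option synthInstance.maxHeartbeats 400000
set_option maxHeartbeats 8000000

noncomputable section

namespace Fermat.Agent.RT.K6

open ModularCurve Polynomial IntermediateField Fermat.Agent.INJ Fermat.Agent.AL AlgebraicCurve
open Fermat.Agent.ES Fermat.Agent.ES.G2 Fermat.Agent.STB Fermat.Agent.UNIP Fermat.Agent.S36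
open Fermat.Agent.RIB.MP

section Val

/-- auxiliary: descent for `rtk6lfb_val_zpow` -/
theorem rtk6lfb_val_pow_aux {F : Type*} [Field F] (V : ValuationSubring F) {p : F}
    (hp0 : p ≠ 0) (hU : ∀ x : F, x ∈ V.nonunits → ∃ z ∈ V, x = p * z) :
    ∀ (N : ℕ) (y : F), y ∈ V → y ≠ 0 → p ^ N * y⁻¹ ∈ V.nonunits →
      ∃ n : ℕ, V.valuation y = V.valuation p ^ n := by
  intro N
  induction N with
  | zero =>
    intro y hyV hy h
    exfalso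
    rw [pow_zero, one_mul, ValuationSubring.mem_nonunits_iff, map_inv₀] at h
    have h1 : V.valuation y ≤ 1 := (V.valuation_le_one_iff y).2 hyV
    have hy0 : V.valuation y ≠ 0 := (Valuation.ne_zero_iff _).2 hy
    have h2 : (1 : ValuationSubring.ValueGroup V) ≤ (V.valuation y)⁻¹ :=
      (one_le_inv₀ (zero_lt_iff.2 hy0)).2 h1
    exact absurd h (not_lt.2 h2)
  | succ N ih =>
    intro y hyV hy h
    by_cases hyu : y ∈ V.nonunits
    · obtain ⟨z, hzV, rfl⟩ := hU y hyu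
      have hz0 : z ≠ 0 := fun h0 => hy (by rw [h0, mul_zero])
      have h' : p ^ N * z⁻¹ ∈ V.nonunits := by
        have : p ^ (N + 1) * (p * z)⁻¹ = p ^ N * z⁻¹ := by
          rw [pow_succ, mul_inv]
          field_simp
        rwa [this] at h
      obtain ⟨n, hn⟩ := ih z hzV hz0 h'
      exact ⟨n + 1, by rw [map_mul, hn, pow_succ, mul_comm]⟩
    · refine ⟨0, ?_⟩
      rw [pow_zero]
      rw [ValuationSubring.mem_nonunits_iff, not_lt] at hyu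
      exact le_antisymm ((V.valuation_le_one_iff y).2 hyV) hyu

/-- **The valuation of a valuation ring with principal maximal ideal `(p)` and archimedean value
group is discrete**: every nonzero `y` has `v(y) = v(p) ^ n`. -/
theorem rtk6lfb_val_zpow {F : Type*} [Field F] (V : ValuationSubring F) {p : F}
    (hp : p ∈ V.nonunits) (hp0 : p ≠ 0)
    (hU : ∀ x : F, x ∈ V.nonunits → ∃ z ∈ V, x = p * z)
    (harch : ∀ a x : F, a ∈ V.nonunits → ∃ N : ℕ, a ^ N * x ∈ V.nonunits)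
    {y : F} (hy : y ≠ 0) : ∃ n : ℤ, V.valuation y = V.valuation p ^ n := by
  rcases V.mem_or_inv_mem y with hyV | hyV
  · obtain ⟨N, hN⟩ := harch p y⁻¹ hp
    obtain ⟨n, hn⟩ := rtk6lfb_val_pow_aux V hp0 hU N y hyV hy hN
    exact ⟨n, by rw [hn, zpow_natCast]⟩
  · obtain ⟨N, hN⟩ := harch p y hp
    have hN' : p ^ N * (y⁻¹)⁻¹ ∈ V.nonunits := by rwa [inv_inv]
    obtain ⟨n, hn⟩ := rtk6lfb_val_pow_aux V hp0 hU N y⁻¹ hyV (inv_ne_zero hy) hN'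
    refine ⟨-(n : ℤ), ?_⟩
    rw [zpow_neg, zpow_natCast, ← hn, map_inv₀, inv_inv]

/-- injectivity of `n ↦ v(p) ^ n` for `p ≠ 0` in the maximal ideal -/
theorem rtk6lfb_zpow_inj {F : Type*} [Field F] (V : ValuationSubring F) {p : F}
    (hp : p ∈ V.nonunits) (hp0 : p ≠ 0) {a b : ℤ}
    (h : V.valuation p ^ a = V.valuation p ^ b) : a = b := by
  have hv0 : V.valuation p ≠ 0 := (Valuation.ne_zero_iff _).2 hp0
  have h1 : V.valuation p ^ (a - b) = 1 := by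
    rw [zpow_sub₀ hv0, h]
    exact mul_inv_cancel₀ (zpow_ne_zero _ hv0)
  have := rtk6lfp_zpow_eq_one V hp hp0 h1
  omega

end Val

section Generic

variable (K₀ : IntermediateField ℚ NfQb) {A₀ : Type} [CommRing A₀] [IsDomain A₀]
  [IsDiscreteValuationRing A₀] [Algebra A₀ K₀] [IsFractionRing A₀ K₀]
  {k : Type*} [Field k] (r : A₀ →+* k) {π : A₀} (ιC : K₀ →+* ℂ)
  {q M : ℕ} [NeZero q] [NeZero M] [NeZero (M * q)] (hq : q.Prime) (hqM : ¬ q ∣ M)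
  (ψA : A₀ →+* A₀) (ψE : K₀ →+* K₀) (θ : k →+* k)
  [Algebra A₀ (modularFunctionFieldFullC K₀ M)]
  [IsScalarTower A₀ K₀ (modularFunctionFieldFullC K₀ M)]
  [Algebra A₀ (modularFunctionFieldFullC K₀ (M * q))]
  [IsScalarTower A₀ K₀ (modularFunctionFieldFullC K₀ (M * q))]

include ψA ψE θ in
/-- **The dichotomy of U5 on the chart `j` with THIN crossing points, `ρ`-form**, generic base,
rigid level. -/
theorem rtk6lfb_gen_thin_J [Fact q.Prime] [CharP k q]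
    (hπ : Irreducible π) (hr : ∀ a, r a = 0 → π ∣ a) (hrπ : r π = 0)
    (hrs : Function.Surjective r) (hqπ : Associated ((q : ℕ) : A₀) π)
    (rigid : (q ≠ 2 → 4 ∣ M) ∧ (q = 2 → 9 ∣ M))
    (h : RegChart (E := K₀) π (bgJ K₀ M))
    (hψ : ∀ a, ψE (algebraMap A₀ K₀ a) = algebraMap A₀ K₀ (ψA a))
    (hθ : ∀ a, r (ψA a) = θ (r a)) (hθq : ∀ x, θ x ^ q = x)
    (t : modularFunctionFieldFullC K₀ (M * q))
    (e : nodesInstIncl K₀ M q (bgJ K₀ M) = t)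
    (ht : (t : LaurentSeries K₀) ∈ gaussRing (algebraMap A₀ K₀) r)
    (hwt : (((atkinLehner K₀ ιC hq hqM).toAlgHom t : modularFunctionFieldFullC K₀ (M * q)) :
      LaurentSeries K₀) ∈ gaussRing (algebraMap A₀ K₀) r)
    (𝔫 : Ideal (integralClosure (Algebra.adjoin A₀ {t}) (modularFunctionFieldFullC K₀ (M * q))))
    (h𝔫 : 𝔫.IsMaximal)
    (hπ𝔫 : algebraMap A₀ (integralClosure (Algebra.adjoin A₀ {t})
      (modularFunctionFieldFullC K₀ (M * q))) π ∈ 𝔫) :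
    (∃ s ∈ 𝔫, NodesLocGen 𝔫 {algebraMap A₀ (integralClosure (Algebra.adjoin A₀ {t})
      (modularFunctionFieldFullC K₀ (M * q))) π, s}) ∨
    ((∀ x, nodesFrobChartRed r hπ.ne_zero hπ.not_isUnit hr hrπ (nodesFrob_full_le (M * q)) t ht x
        = 0 → x ∈ 𝔫) ∧
     (∀ x, nodesSwapRho₀ r hπ.ne_zero hπ.not_isUnit hr hrπ (nodesFrob_full_le (M * q))
        (atkinLehner K₀ ιC hq hqM).toAlgHom t hwt x = 0 → x ∈ 𝔫) ∧
      ∃ X Y w : integralClosure (Algebra.adjoin A₀ {t}) (modularFunctionFieldFullC K₀ (M * q)),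
        nodesFrobChartRed r hπ.ne_zero hπ.not_isUnit hr hrπ (nodesFrob_full_le (M * q)) t ht X
          = 0 ∧
        nodesSwapRho₀ r hπ.ne_zero hπ.not_isUnit hr hrπ (nodesFrob_full_le (M * q))
          (atkinLehner K₀ ιC hq hqM).toAlgHom t hwt Y = 0 ∧
        w ∉ 𝔫 ∧
        w * algebraMap A₀ (integralClosure (Algebra.adjoin A₀ {t})
          (modularFunctionFieldFullC K₀ (M * q))) π = X * Y ∧
        NodesLocGen 𝔫 {algebraMap A₀ (integralClosure (Algebra.adjoin A₀ {t})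
          (modularFunctionFieldFullC K₀ (M * q))) π, X, Y}) := by
  subst e
  haveI := h𝔫.isPrime
  rcases nodesReg_chart_J K₀ r ιC hq hqM ψA ψE θ hπ hr hrπ h hψ hθ hθq 𝔫 h𝔫 hπ𝔫 with
    h0 | ⟨h1, h2, X, Y, hX, hY, hsX, hsY, hXY, hgen⟩
  · exact Or.inl h0
  · haveI := stbmn_fd_J K₀ (M := M) (q := q)
    have htr : Transcendental K₀ (nodesInstIncl K₀ M q (bgJ K₀ M)) := by
      rw [stbmn_incl_J_gen]
      exact bgConst_transcendental_bgJ K₀ (M * q)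
    haveI : IsNoetherianRing (integralClosure (Algebra.adjoin A₀ {nodesInstIncl K₀ M q (bgJ K₀ M)})
        (modularFunctionFieldFullC K₀ (M * q))) :=
      chart_closure_isNoetherianRing (A₀ := A₀) (E := K₀) htr
    have hJ : IsIntegral (Algebra.adjoin A₀ {nodesInstIncl K₀ M q (bgJ K₀ M)})
        (nodesFrobJ K₀ M q) := by
      rw [nodesFinal_incl_J]
      exact mgvl_isIntegral_J
    have hSS1 := fun x hx hx₀ => nodesReg_ker_J K₀ r ιC hq hqM hπ hr hrπ h x hx hx₀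
    obtain ⟨-, -, Y'', w, hw, hwπ, hY'', -⟩ := s36tm_node r ιC hq hqM hπ.ne_zero hπ.not_isUnit
      hr hrπ (atkinLehner K₀ ιC hq hqM).toAlgHom (nodesInstIncl K₀ M q (bgJ K₀ M))
      (nodesInst_ht' r M q (bgJ K₀ M) (nodesFinal_J_mem K₀ r))
      (nodesFinal_wJ_mem K₀ r ιC hq hqM) (fun _ => rfl) hqπ hrs rigid hJ hSS1
      (fun b => nodesSwap_swap_J (A := A₀) (E := K₀) r ιC hq hqM hπ.ne_zero hπ.not_isUnit hr hrπ
        (nodesInstIncl K₀ M q (bgJ K₀ M)) (nodesInstIncl_coe M q (bgJ K₀ M))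
        (nodesInst_ht' r M q (bgJ K₀ M) (nodesFinal_J_mem K₀ r))
        (nodesFinal_wJ_mem K₀ r ιC hq hqM) b)
      𝔫 h1 h2 hX hY hsX hsY
    have hπB : algebraMap A₀ (integralClosure (Algebra.adjoin A₀ {nodesInstIncl K₀ M q (bgJ K₀ M)})
        (modularFunctionFieldFullC K₀ (M * q))) π ≠ 0 := by
      intro h0
      have h1 := congrArg (fun z : integralClosure
        (Algebra.adjoin A₀ {nodesInstIncl K₀ M q (bgJ K₀ M)})
        (modularFunctionFieldFullC K₀ (M * q)) => (z : modularFunctionFieldFullC K₀ (M * q))) h0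
      exact s36tu_algebraMap_ne_zero hπ.ne_zero h1
    exact Or.inr ⟨h1, h2, X, Y'', w, hX, hY'', hw, hwπ,
      rtk6lfb_locGen_thin _ _ hπB hSS1 𝔫 hw hwπ hX hY hgen⟩

end Generic

section Reg

variable {A : ValuationSubring Qb} {K₀ : IntermediateField ℚ Qb}
  [IsDiscreteValuationRing ↥(beta0Ring A K₀)] {π : ↥(beta0Ring A K₀)} (hπ : Irreducible π)
  (ιC : ↥K₀ →+* ℂ) {q M : ℕ} [NeZero q] [NeZero M] [NeZero (M * q)]
  (hq : q.Prime) (hqM : ¬ q ∣ M)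

include hπ ιC hq hqM in
theorem rtk6lfb_thinAt_J_aux (hA : A.LiesOverPrime q) {φ : Qb ≃ₐ[ℚ] Qb}
    (hφF : A.IsFrobeniusAt φ q) (hφ : ∀ x ∈ K₀, φ x ∈ K₀)
    (hqπ : Associated ((q : ℕ) : ↥(beta0Ring A K₀)) π)
    (rigid : (q ≠ 2 → 4 ∣ M) ∧ (q = 2 → 9 ∣ M))
    (h : RegChart (E := ↥K₀) π (bgJ ↥K₀ M))
    (t : ↥(modularFunctionFieldFullC ↥K₀ (M * q)))
    (e : nodesInstIncl ↥K₀ M q (bgJ ↥K₀ M) = t)
    (𝔫 : AtPt (F := ↥(modularFunctionFieldFullC ↥K₀ (M * q))) π t) :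
    Rtk6lfThinAt (mgvV hπ ιC hq hqM true) (mgvV hπ ιC hq hqM false) 𝔫 := by
  haveI : Fact q.Prime := ⟨hq⟩
  haveI : CharP (IsLocalRing.ResidueField ↥(beta0Ring A K₀)) q := frobLift_charP A K₀ hq hA
  have ht : (t : LaurentSeries ↥K₀) ∈ gaussRing (algebraMap ↥(beta0Ring A K₀) ↥K₀)
      (IsLocalRing.residue ↥(beta0Ring A K₀)) := by
    rw [← e]
    exact nodesInst_ht' (IsLocalRing.residue ↥(beta0Ring A K₀)) M q (bgJ ↥K₀ M)
      (nodesFinal_J_mem K₀ (IsLocalRing.residue ↥(beta0Ring A K₀)))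
  have hwt : (((atkinLehner ↥K₀ ιC hq hqM).toAlgHom t : ↥(modularFunctionFieldFullC ↥K₀ (M * q))) :
      LaurentSeries ↥K₀) ∈ gaussRing (algebraMap ↥(beta0Ring A K₀) ↥K₀)
        (IsLocalRing.residue ↥(beta0Ring A K₀)) := by
    rw [← e]
    exact nodesFinal_wJ_mem K₀ (IsLocalRing.residue ↥(beta0Ring A K₀)) ιC hq hqM
  refine rtk6lfb_thinAt_of_rho (mgvV hπ ιC hq hqM true) (mgvV hπ ιC hq hqM false)
    (nodesFrobChartRed (IsLocalRing.residue ↥(beta0Ring A K₀)) hπ.ne_zero hπ.not_isUnit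
      (stb_residue_ker hπ) (stb_residue_pi hπ) (nodesFrob_full_le (M * q)) t ht)
    (nodesSwapRho₀ (IsLocalRing.residue ↥(beta0Ring A K₀)) hπ.ne_zero hπ.not_isUnit
      (stb_residue_ker hπ) (stb_residue_pi hπ) (nodesFrob_full_le (M * q))
      (atkinLehner ↥K₀ ιC hq hqM).toAlgHom t hwt)
    (fun x => (mgcb_rho_eq_zero_iff_mgvV hπ ιC hq hqM _ (stb_residue_ker hπ) (stb_residue_pi hπ)
      t ht x).symm)
    (fun x => (mgcb_rho₀_eq_zero_iff_mgvV hπ ιC hq hqM _ (stb_residue_ker hπ)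
      (stb_residue_pi hπ) t hwt x).symm) 𝔫 ?_
  have hmax : (𝔫.1.comap (rtk6lfbToZch (A₀ := ↥(beta0Ring A K₀))
      ({t} : Set ↥(modularFunctionFieldFullC ↥K₀ (M * q))))).IsMaximal :=
    haveI := 𝔫.2.1
    Ideal.comap_isMaximal_of_surjective (rtk6lfbToZch (A₀ := ↥(beta0Ring A K₀))
      ({t} : Set ↥(modularFunctionFieldFullC ↥K₀ (M * q)))) (rtk6lfbToZch_surjective _)
  have hπ𝔫 : algebraMap ↥(beta0Ring A K₀) ↥(integralClosure
      ↥(Algebra.adjoin ↥(beta0Ring A K₀) ({t} : Set ↥(modularFunctionFieldFullC ↥K₀ (M * q))))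
      ↥(modularFunctionFieldFullC ↥K₀ (M * q))) π ∈
      𝔫.1.comap (rtk6lfbToZch (A₀ := ↥(beta0Ring A K₀))
        ({t} : Set ↥(modularFunctionFieldFullC ↥K₀ (M * q)))) := by
    rw [Ideal.mem_comap, rtk6lfbToZch_algebraMap]
    exact 𝔫.2.2
  exact rtk6lfb_gen_thin_J K₀ (IsLocalRing.residue ↥(beta0Ring A K₀)) ιC hq hqM
    ((stbLiftA hφF hφ).symm : ↥(beta0Ring A K₀) →+* ↥(beta0Ring A K₀))
    ((mgaRestrictEquiv K₀ φ hφ).symm : ↥K₀ →+* ↥K₀)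
    (stbLiftTheta hφF hφ) hπ (stb_residue_ker hπ) (stb_residue_pi hπ)
    Ideal.Quotient.mk_surjective hqπ rigid h
    (stbLift_hψ' hφF hφ) (stbLift_hθ hφF hφ) (stbLift_hθq hφF hφ)
    t e ht hwt _ hmax hπ𝔫

include hπ ιC hq hqM in
/-- **The thin dichotomy at every closed point of the chart `j`** of `F_{Mq}(K₀)` over
`A₀ = A ∩ K₀` (unramified, Frobenius-stable), rigid level. -/
theorem rtk6lfb_thinAt_J (hA : A.LiesOverPrime q) {φ : Qb ≃ₐ[ℚ] Qb}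
    (hφF : A.IsFrobeniusAt φ q) (hφ : ∀ x ∈ K₀, φ x ∈ K₀)
    (hqπ : Associated ((q : ℕ) : ↥(beta0Ring A K₀)) π)
    (rigid : (q ≠ 2 → 4 ∣ M) ∧ (q = 2 → 9 ∣ M))
    (h : RegChart (E := ↥K₀) π (bgJ ↥K₀ M))
    (𝔫 : AtPt (F := ↥(modularFunctionFieldFullC ↥K₀ (M * q))) π (bgJ ↥K₀ (M * q))) :
    Rtk6lfThinAt (mgvV hπ ιC hq hqM true) (mgvV hπ ιC hq hqM false) 𝔫 :=
  rtk6lfb_thinAt_J_aux hπ ιC hq hqM hA hφF hφ hqπ rigid h _ mgcb_incl_bgJ 𝔫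

/-! ### the globals on the chart `j` -/

omit [NeZero M] in
theorem rtk6lfb_rigid_h2 (rigid : (q ≠ 2 → 4 ∣ M) ∧ (q = 2 → 9 ∣ M)) : q = 2 → 3 ∣ M :=
  fun h => Dvd.dvd.trans (by norm_num) (rigid.2 h)

omit [NeZero M] in
theorem rtk6lfb_rigid_h3 (rigid : (q ≠ 2 → 4 ∣ M) ∧ (q = 2 → 9 ∣ M)) : q = 3 → 2 ∣ M :=
  fun h => Dvd.dvd.trans (by norm_num) (rigid.1 (by omega))

include hπ ιC hq hqM in
/-- `V_∞ ≠ V_0`, in the form `hne` -/
theorem rtk6lfb_hne (hA : A.LiesOverPrime q) :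
    ∀ c c' : Bool, c ≠ c' → mgvV hπ ιC hq hqM c ≠ mgvV hπ ιC hq hqM c' := by
  intro c c' hcc'
  cases c <;> cases c'
  · exact absurd rfl hcc'
  · exact (mgvl_hne hπ ιC hq hqM hA).symm
  · exact mgvl_hne hπ ιC hq hqM hA
  · exact absurd rfl hcc'

/-- the chart `j` is noetherian -/
theorem rtk6lfb_noeth_J :
    IsNoetherianRing ↥(zchClosure (A₀ := ↥(beta0Ring A K₀))
      ({bgJ ↥K₀ (M * q)} : Set ↥(modularFunctionFieldFullC ↥K₀ (M * q)))) := by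
  haveI := ribmp_fc_fin (K₀ := K₀) (M * q)
  exact chart_closure_isNoetherianRing (A₀ := ↥(beta0Ring A K₀)) (E := ↥K₀)
    (ribmp_fc_trans (K₀ := K₀) (M * q))

include hπ ιC hq hqM in
/-- **`atLoc 𝔫` is a UFD at every closed point of the chart `j`** (rigid level, unramified
Frobenius-stable base) — the hypothesis `hufd` of `RIB.MP.ribmp_fc_main` on the chart `j`. -/
theorem rtk6lfb_ufd_J (hA : A.LiesOverPrime q) (hE : beta0Field A ≤ K₀) {φ : Qb ≃ₐ[ℚ] Qb}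
    (hφF : A.IsFrobeniusAt φ q) (hφ : ∀ x ∈ K₀, φ x ∈ K₀)
    (hqπ : Associated ((q : ℕ) : ↥(beta0Ring A K₀)) π)
    (rigid : (q ≠ 2 → 4 ∣ M) ∧ (q = 2 → 9 ∣ M))
    (𝔫 : AtPt (F := ↥(modularFunctionFieldFullC ↥K₀ (M * q))) π (bgJ ↥K₀ (M * q))) :
    UniqueFactorizationMonoid ↥(atLoc 𝔫) := by
  haveI := rtk6lfb_noeth_J (A := A) (K₀ := K₀) (M := M) (q := q)
  have h2 := rtk6lfb_rigid_h2 rigid
  have h3 := rtk6lfb_rigid_h3 rigid
  have hSS1 := ribmp_fc_hSS1 hπ ιC hq hqM hA hE h2 h3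
  exact rtk6lfc_ufd (E := ↥K₀) hπ (mgvV hπ ιC hq hqM) true false mgv_hκ
    (mgv_hBV₁ hπ ιC hq hqM) (mgv_hπV hπ ιC hq hqM) hSS1 (mgv_harch hπ ιC hq hqM)
    (mgv_hVloc₁ hπ ιC hq hqM hA hSS1) (rtk6lfb_hne hπ ιC hq hqM hA) 𝔫
    (rtk6lfb_thinAt_J hπ ιC hq hqM hA hφF hφ hqπ rigid
      (stb_regChart_conc_J M hq hA hE hπ hqM h2 h3) 𝔫)

include hπ ιC hq hqM in
/-- the vertical valuations are discrete with uniformizer `π` -/
theorem rtk6lfb_val_zpow_J (c : Bool) {y : ↥(modularFunctionFieldFullC ↥K₀ (M * q))}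
    (hy : y ≠ 0) :
    ∃ n : ℤ, (mgvV hπ ιC hq hqM c).valuation y = (mgvV hπ ιC hq hqM c).valuation
      (algebraMap ↥(beta0Ring A K₀) ↥(modularFunctionFieldFullC ↥K₀ (M * q)) π) ^ n :=
  rtk6lfb_val_zpow _ (mgv_hπV hπ ιC hq hqM c) (ribmp_fc_hπ0 hπ) (ribmp_fc_hU hπ ιC hq hqM c)
    (mgv_harch hπ ιC hq hqM c) hy

/-! ### (LF) -/

include hπ ιC hq hqM in
/-- **(LF) at a thin crossing point** of the chart `j`: `y = ε · Y ^ n₀ · γ ^ m`. -/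
theorem rtk6lfb_cross_LF_J (hA : A.LiesOverPrime q) (hE : beta0Field A ≤ K₀)
    (h2 : q = 2 → 3 ∣ M) (h3 : q = 3 → 2 ∣ M)
    (𝔫 : AtPt (F := ↥(modularFunctionFieldFullC ↥K₀ (M * q))) π (bgJ ↥K₀ (M * q)))
    {X Y : ↥(zchClosure (A₀ := ↥(beta0Ring A K₀))
      ({bgJ ↥K₀ (M * q)} : Set ↥(modularFunctionFieldFullC ↥K₀ (M * q))))}
    (h : Rtk6lfCrossAt (mgvV hπ ιC hq hqM true) (mgvV hπ ιC hq hqM false) 𝔫 X Y)
    (m : ℕ) {y : ↥(modularFunctionFieldFullC ↥K₀ (M * q))} (hy : y ≠ 0)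
    (hhor : ∀ P : Place ↥K₀ ↥(modularFunctionFieldFullC ↥K₀ (M * q)),
      (∀ x ∈ atLoc 𝔫, x ∈ P.toValuationSubring) → (m : ℤ) ∣ P.ord y)
    (hy₁ : (mgvV hπ ιC hq hqM true).valuation y = 1) {n₀ : ℤ}
    (hn₀ : (mgvV hπ ιC hq hqM false).valuation y = (mgvV hπ ιC hq hqM false).valuation
      (algebraMap ↥(beta0Ring A K₀) ↥(modularFunctionFieldFullC ↥K₀ (M * q)) π) ^ n₀) :
    ∃ (γ : ↥(modularFunctionFieldFullC ↥K₀ (M * q))) (ε : ↥(atLoc 𝔫)), IsUnit ε ∧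
      y = (ε : ↥(modularFunctionFieldFullC ↥K₀ (M * q))) *
        (Y : ↥(modularFunctionFieldFullC ↥K₀ (M * q))) ^ n₀ * γ ^ m ∧ γ ≠ 0 ∧
      (mgvV hπ ιC hq hqM true).valuation γ = 1 ∧ (mgvV hπ ιC hq hqM false).valuation γ = 1 := by
  haveI := rtk6lfb_noeth_J (A := A) (K₀ := K₀) (M := M) (q := q)
  haveI := ribmp_fc_fin (K₀ := K₀) (M * q)
  obtain ⟨γ, ε, b, hε, hyε, hγ, hγ₁, hγ₂, hb⟩ := rtk6lfc_cross_LF (E := ↥K₀) hπ
    (mgvV hπ ιC hq hqM) true false mgv_hκ (mgv_hBV₁ hπ ιC hq hqM) (mgv_hπV hπ ιC hq hqM)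
    (ribmp_fc_hSS1 hπ ιC hq hqM hA hE h2 h3) (ribmp_fc_hU hπ ιC hq hqM) 𝔫 h m hy hhor hy₁
  have hbn : b = n₀ := rtk6lfb_zpow_inj _ (mgv_hπV hπ ιC hq hqM false) (ribmp_fc_hπ0 hπ)
    (hb.symm.trans hn₀)
  subst hbn
  exact ⟨γ, ε, hε, hyε, hγ, hγ₁, hγ₂⟩

include hπ ιC hq hqM in
/-- **(LF) at a smooth point** of the chart `j` on the component `V c`:
`y = ε · π ^ n · γ ^ m`, `v_c(y) = v_c(π) ^ n`. -/
theorem rtk6lfb_smooth_LF_J (hA : A.LiesOverPrime q) (hE : beta0Field A ≤ K₀)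
    (h2 : q = 2 → 3 ∣ M) (h3 : q = 3 → 2 ∣ M)
    (𝔫 : AtPt (F := ↥(modularFunctionFieldFullC ↥K₀ (M * q))) π (bgJ ↥K₀ (M * q)))
    {s : ↥(zchClosure (A₀ := ↥(beta0Ring A K₀))
      ({bgJ ↥K₀ (M * q)} : Set ↥(modularFunctionFieldFullC ↥K₀ (M * q))))} (hs : s ∈ 𝔫.1)
    (hgen : NodesLocGen 𝔫.1 {algebraMap ↥(beta0Ring A K₀) ↥(zchClosure (A₀ := ↥(beta0Ring A K₀))
      ({bgJ ↥K₀ (M * q)} : Set ↥(modularFunctionFieldFullC ↥K₀ (M * q)))) π, s})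
    (m : ℕ) {y : ↥(modularFunctionFieldFullC ↥K₀ (M * q))} (hy : y ≠ 0)
    (hhor : ∀ P : Place ↥K₀ ↥(modularFunctionFieldFullC ↥K₀ (M * q)),
      (∀ x ∈ atLoc 𝔫, x ∈ P.toValuationSubring) → (m : ℤ) ∣ P.ord y) :
    ∃ c : Bool, atThrough 𝔫 (mgvV hπ ιC hq hqM c) ∧
      (∀ c', atThrough 𝔫 (mgvV hπ ιC hq hqM c') → c' = c) ∧
      ∀ n : ℤ, (mgvV hπ ιC hq hqM c).valuation y = (mgvV hπ ιC hq hqM c).valuation
          (algebraMap ↥(beta0Ring A K₀) ↥(modularFunctionFieldFullC ↥K₀ (M * q)) π) ^ n →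
        ∃ (γ : ↥(modularFunctionFieldFullC ↥K₀ (M * q))) (ε : ↥(atLoc 𝔫)), IsUnit ε ∧
          y = (ε : ↥(modularFunctionFieldFullC ↥K₀ (M * q))) *
            algebraMap ↥(beta0Ring A K₀) ↥(modularFunctionFieldFullC ↥K₀ (M * q)) π ^ n *
              γ ^ m ∧ γ ≠ 0 ∧ (mgvV hπ ιC hq hqM c).valuation γ = 1 := by
  haveI := rtk6lfb_noeth_J (A := A) (K₀ := K₀) (M := M) (q := q)
  haveI := ribmp_fc_fin (K₀ := K₀) (M * q)
  have hSS1 := ribmp_fc_hSS1 hπ ιC hq hqM hA hE h2 h3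
  have harch' : ∀ c, StbArch (mgvV hπ ιC hq hqM c) := fun c x a ha => by
    obtain ⟨N, hN⟩ := mgv_harch hπ ιC hq hqM c a x ha
    exact ⟨N, by rw [mul_comm x (a ^ N)]; exact hN⟩
  obtain ⟨c, hc, hone⟩ := stb_sx_exists_unique (mgvV hπ ιC hq hqM) (mgv_hBV₁ hπ ιC hq hqM)
    (mgv_hπV hπ ιC hq hqM) hSS1 (mgv_hVloc₁ hπ ιC hq hqM hA hSS1)
    (fun c c' hcc' => stb_not_le_of_ne (harch' c) (ribmp_fc_hπ0 hπ) (mgv_hπV hπ ιC hq hqM c')
      (rtk6lfb_hne hπ ιC hq hqM hA c c' hcc')) 𝔫 s hs hgen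
  refine ⟨c, hc, hone, fun n hn => ?_⟩
  obtain ⟨γ, ε, a, hε, hyε, hγ, hγ₁, ha⟩ := rtk6lfc_smooth_fac (E := ↥K₀) hπ
    (mgvV hπ ιC hq hqM) (mgv_hBV₁ hπ ιC hq hqM) (mgv_hπV hπ ιC hq hqM)
    hSS1 (ribmp_fc_hU hπ ιC hq hqM) 𝔫 c hc hone hs hgen m hy hhor
  have han : a = n := rtk6lfb_zpow_inj _ (mgv_hπV hπ ιC hq hqM c) (ribmp_fc_hπ0 hπ)
    (ha.symm.trans hn)
  subst han
  exact ⟨γ, ε, hε, hyε, hγ, hγ₁⟩

include hπ ιC hq hqM in
/-- **(LF) at every closed point of the chart `j`** (rigid level, unramified Frobenius-stable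
base): `y ≠ 0` with divisor divisible by `m`, unit at `V_∞`, `v_0(y) = v_0(π) ^ n₀`.  Then at `𝔫`:
* crossing point `𝔫 = (π, X, Y)`, `w π = X Y`: `y = ε · Y ^ n₀ · γ ^ m`;
* smooth point of `Σ_0`: `y = ε · π ^ n₀ · γ ^ m`;
* smooth point of `Σ_∞`: `y = ε · γ ^ m`;
with `ε` a unit of `atLoc 𝔫` and `γ` a unit at the components through `𝔫`. -/
theorem rtk6lfb_LF_J (hA : A.LiesOverPrime q) (hE : beta0Field A ≤ K₀) {φ : Qb ≃ₐ[ℚ] Qb}
    (hφF : A.IsFrobeniusAt φ q) (hφ : ∀ x ∈ K₀, φ x ∈ K₀)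
    (hqπ : Associated ((q : ℕ) : ↥(beta0Ring A K₀)) π)
    (rigid : (q ≠ 2 → 4 ∣ M) ∧ (q = 2 → 9 ∣ M))
    (m : ℕ) {y : ↥(modularFunctionFieldFullC ↥K₀ (M * q))} (hy : y ≠ 0)
    (hhor : ∀ P : Place ↥K₀ ↥(modularFunctionFieldFullC ↥K₀ (M * q)), (m : ℤ) ∣ P.ord y)
    (hy₁ : (mgvV hπ ιC hq hqM true).valuation y = 1) {n₀ : ℤ}
    (hn₀ : (mgvV hπ ιC hq hqM false).valuation y = (mgvV hπ ιC hq hqM false).valuation
      (algebraMap ↥(beta0Ring A K₀) ↥(modularFunctionFieldFullC ↥K₀ (M * q)) π) ^ n₀)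
    (𝔫 : AtPt (F := ↥(modularFunctionFieldFullC ↥K₀ (M * q))) π (bgJ ↥K₀ (M * q))) :
    (∃ X Y : ↥(zchClosure (A₀ := ↥(beta0Ring A K₀))
        ({bgJ ↥K₀ (M * q)} : Set ↥(modularFunctionFieldFullC ↥K₀ (M * q)))),
      Rtk6lfCrossAt (mgvV hπ ιC hq hqM true) (mgvV hπ ιC hq hqM false) 𝔫 X Y ∧
      ∃ (γ : ↥(modularFunctionFieldFullC ↥K₀ (M * q))) (ε : ↥(atLoc 𝔫)), IsUnit ε ∧
        y = (ε : ↥(modularFunctionFieldFullC ↥K₀ (M * q))) *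
          (Y : ↥(modularFunctionFieldFullC ↥K₀ (M * q))) ^ n₀ * γ ^ m ∧ γ ≠ 0 ∧
        (mgvV hπ ιC hq hqM true).valuation γ = 1 ∧
        (mgvV hπ ιC hq hqM false).valuation γ = 1) ∨
    (atThrough 𝔫 (mgvV hπ ιC hq hqM false) ∧ ¬ atThrough 𝔫 (mgvV hπ ιC hq hqM true) ∧
      (∃ s : ↥(zchClosure (A₀ := ↥(beta0Ring A K₀))
          ({bgJ ↥K₀ (M * q)} : Set ↥(modularFunctionFieldFullC ↥K₀ (M * q)))), s ∈ 𝔫.1 ∧
        NodesLocGen 𝔫.1 {algebraMap ↥(beta0Ring A K₀) ↥(zchClosure (A₀ := ↥(beta0Ring A K₀))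
          ({bgJ ↥K₀ (M * q)} : Set ↥(modularFunctionFieldFullC ↥K₀ (M * q)))) π, s}) ∧
      ∃ (γ : ↥(modularFunctionFieldFullC ↥K₀ (M * q))) (ε : ↥(atLoc 𝔫)), IsUnit ε ∧
        y = (ε : ↥(modularFunctionFieldFullC ↥K₀ (M * q))) *
          algebraMap ↥(beta0Ring A K₀) ↥(modularFunctionFieldFullC ↥K₀ (M * q)) π ^ n₀ *
            γ ^ m ∧ γ ≠ 0 ∧ (mgvV hπ ιC hq hqM false).valuation γ = 1) ∨
    (atThrough 𝔫 (mgvV hπ ιC hq hqM true) ∧ ¬ atThrough 𝔫 (mgvV hπ ιC hq hqM false) ∧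
      (∃ s : ↥(zchClosure (A₀ := ↥(beta0Ring A K₀))
          ({bgJ ↥K₀ (M * q)} : Set ↥(modularFunctionFieldFullC ↥K₀ (M * q)))), s ∈ 𝔫.1 ∧
        NodesLocGen 𝔫.1 {algebraMap ↥(beta0Ring A K₀) ↥(zchClosure (A₀ := ↥(beta0Ring A K₀))
          ({bgJ ↥K₀ (M * q)} : Set ↥(modularFunctionFieldFullC ↥K₀ (M * q)))) π, s}) ∧
      ∃ (γ : ↥(modularFunctionFieldFullC ↥K₀ (M * q))) (ε : ↥(atLoc 𝔫)), IsUnit ε ∧
        y = (ε : ↥(modularFunctionFieldFullC ↥K₀ (M * q))) * γ ^ m ∧ γ ≠ 0 ∧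
        (mgvV hπ ιC hq hqM true).valuation γ = 1) := by
  have h2 := rtk6lfb_rigid_h2 rigid
  have h3 := rtk6lfb_rigid_h3 rigid
  rcases rtk6lfb_thinAt_J hπ ιC hq hqM hA hφF hφ hqπ rigid
    (stb_regChart_conc_J M hq hA hE hπ hqM h2 h3) 𝔫 with ⟨s, hs, hgen⟩ | ⟨X, Y, h⟩
  · obtain ⟨c, hc, hone, hfac⟩ := rtk6lfb_smooth_LF_J hπ ιC hq hqM hA hE h2 h3 𝔫 hs hgen m hy
      (fun P _ => hhor P)
    cases c
    · -- the point lies on `Σ_0`
      obtain ⟨γ, ε, hε, hyε, hγ, hγ₁⟩ := hfac n₀ hn₀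
      exact Or.inr (Or.inl ⟨hc, fun h => Bool.noConfusion (hone true h), ⟨s, hs, hgen⟩,
        γ, ε, hε, hyε, hγ, hγ₁⟩)
    · -- the point lies on `Σ_∞`
      obtain ⟨γ, ε, hε, hyε, hγ, hγ₁⟩ := hfac 0 (by rw [hy₁, zpow_zero])
      rw [zpow_zero, mul_one] at hyε
      exact Or.inr (Or.inr ⟨hc, fun h => Bool.noConfusion (hone false h), ⟨s, hs, hgen⟩,
        γ, ε, hε, hyε, hγ, hγ₁⟩)
  · exact Or.inl ⟨X, Y, h, rtk6lfb_cross_LF_J hπ ιC hq hqM hA hE h2 h3 𝔫 h m hy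
      (fun P _ => hhor P) hy₁ hn₀⟩

end Reg

/-! ### `K₀ = ℚ̄^I` -/

section Base

variable {A : ValuationSubring Qb} {q M : ℕ} [NeZero q] [NeZero M] [NeZero (M * q)]
  [IsDiscreteValuationRing ↥(beta0Ring A (beta0Field A))]
  {π : ↥(beta0Ring A (beta0Field A))} (hπ : Irreducible π)
  (ιC : ↥(beta0Field A) →+* ℂ) (hq : q.Prime) (hqM : ¬ q ∣ M)

include hπ in
/-- `q` is a uniformizer of `A ∩ ℚ̄^I` -/
theorem rtk6lfb0_hqπ (hq : q.Prime) (hA : A.LiesOverPrime q) :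
    Associated ((q : ℕ) : ↥(beta0Ring A (beta0Field A))) π :=
  IsDiscreteValuationRing.associated_of_irreducible _ (beta0Ring_irreducible_q hq hA) hπ

include hπ ιC hq hqM in
/-- **The thin dichotomy at every closed point of the chart `j`** of `F_{Mq}(ℚ̄^I)`, rigid level. -/
theorem rtk6lfb0_thinAt_J (hA : A.LiesOverPrime q)
    (rigid : (q ≠ 2 → 4 ∣ M) ∧ (q = 2 → 9 ∣ M))
    (𝔫 : AtPt (F := ↥(modularFunctionFieldFullC ↥(beta0Field A) (M * q))) π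
      (bgJ ↥(beta0Field A) (M * q))) :
    Rtk6lfThinAt (mgvV hπ ιC hq hqM true) (mgvV hπ ιC hq hqM false) 𝔫 := by
  obtain ⟨φ, hφF⟩ := Fermat.Agent.Common.exists_isFrobeniusAt_of_liesOverPrime q hq A hA
  exact rtk6lfb_thinAt_J hπ ιC hq hqM hA hφF
    (fun x hx => beta0_decomp_apply_mem hφF.mem_decompositionSubgroup hx)
    (rtk6lfb0_hqπ hπ hq hA) rigid
    (stb_regChart_conc_J M hq hA le_rfl hπ hqM (rtk6lfb_rigid_h2 rigid)
      (rtk6lfb_rigid_h3 rigid)) 𝔫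

include hπ ιC hq hqM in
/-- **`atLoc 𝔫` is a UFD at every closed point of the chart `j`** of `F_{Mq}(ℚ̄^I)`, rigid
level. -/
theorem rtk6lfb0_ufd_J (hA : A.LiesOverPrime q)
    (rigid : (q ≠ 2 → 4 ∣ M) ∧ (q = 2 → 9 ∣ M))
    (𝔫 : AtPt (F := ↥(modularFunctionFieldFullC ↥(beta0Field A) (M * q))) π
      (bgJ ↥(beta0Field A) (M * q))) :
    UniqueFactorizationMonoid ↥(atLoc 𝔫) := by
  obtain ⟨φ, hφF⟩ := Fermat.Agent.Common.exists_isFrobeniusAt_of_liesOverPrime q hq A hA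
  exact rtk6lfb_ufd_J hπ ιC hq hqM hA le_rfl hφF
    (fun x hx => beta0_decomp_apply_mem hφF.mem_decompositionSubgroup hx)
    (rtk6lfb0_hqπ hπ hq hA) rigid 𝔫

include hπ ιC hq hqM in
/-- **(LF) at every closed point of the chart `j`** of `F_{Mq}(ℚ̄^I)`, rigid level
(see `rtk6lfb_LF_J`). -/
theorem rtk6lfb0_LF_J (hA : A.LiesOverPrime q)
    (rigid : (q ≠ 2 → 4 ∣ M) ∧ (q = 2 → 9 ∣ M))
    (m : ℕ) {y : ↥(modularFunctionFieldFullC ↥(beta0Field A) (M * q))} (hy : y ≠ 0)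
    (hhor : ∀ P : Place ↥(beta0Field A) ↥(modularFunctionFieldFullC ↥(beta0Field A) (M * q)),
      (m : ℤ) ∣ P.ord y)
    (hy₁ : (mgvV hπ ιC hq hqM true).valuation y = 1) {n₀ : ℤ}
    (hn₀ : (mgvV hπ ιC hq hqM false).valuation y = (mgvV hπ ιC hq hqM false).valuation
      (algebraMap ↥(beta0Ring A (beta0Field A))
        ↥(modularFunctionFieldFullC ↥(beta0Field A) (M * q)) π) ^ n₀)
    (𝔫 : AtPt (F := ↥(modularFunctionFieldFullC ↥(beta0Field A) (M * q))) π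
      (bgJ ↥(beta0Field A) (M * q))) :
    (∃ X Y : ↥(zchClosure (A₀ := ↥(beta0Ring A (beta0Field A)))
        ({bgJ ↥(beta0Field A) (M * q)} :
          Set ↥(modularFunctionFieldFullC ↥(beta0Field A) (M * q)))),
      Rtk6lfCrossAt (mgvV hπ ιC hq hqM true) (mgvV hπ ιC hq hqM false) 𝔫 X Y ∧
      ∃ (γ : ↥(modularFunctionFieldFullC ↥(beta0Field A) (M * q))) (ε : ↥(atLoc 𝔫)), IsUnit ε ∧
        y = (ε : ↥(modularFunctionFieldFullC ↥(beta0Field A) (M * q))) *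
          (Y : ↥(modularFunctionFieldFullC ↥(beta0Field A) (M * q))) ^ n₀ * γ ^ m ∧ γ ≠ 0 ∧
        (mgvV hπ ιC hq hqM true).valuation γ = 1 ∧
        (mgvV hπ ιC hq hqM false).valuation γ = 1) ∨
    (atThrough 𝔫 (mgvV hπ ιC hq hqM false) ∧ ¬ atThrough 𝔫 (mgvV hπ ιC hq hqM true) ∧
      (∃ s : ↥(zchClosure (A₀ := ↥(beta0Ring A (beta0Field A)))
          ({bgJ ↥(beta0Field A) (M * q)} :
            Set ↥(modularFunctionFieldFullC ↥(beta0Field A) (M * q)))), s ∈ 𝔫.1 ∧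
        NodesLocGen 𝔫.1 {algebraMap ↥(beta0Ring A (beta0Field A))
          ↥(zchClosure (A₀ := ↥(beta0Ring A (beta0Field A)))
            ({bgJ ↥(beta0Field A) (M * q)} :
              Set ↥(modularFunctionFieldFullC ↥(beta0Field A) (M * q)))) π, s}) ∧
      ∃ (γ : ↥(modularFunctionFieldFullC ↥(beta0Field A) (M * q))) (ε : ↥(atLoc 𝔫)), IsUnit ε ∧
        y = (ε : ↥(modularFunctionFieldFullC ↥(beta0Field A) (M * q))) *
          algebraMap ↥(beta0Ring A (beta0Field A))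
            ↥(modularFunctionFieldFullC ↥(beta0Field A) (M * q)) π ^ n₀ *
            γ ^ m ∧ γ ≠ 0 ∧ (mgvV hπ ιC hq hqM false).valuation γ = 1) ∨
    (atThrough 𝔫 (mgvV hπ ιC hq hqM true) ∧ ¬ atThrough 𝔫 (mgvV hπ ιC hq hqM false) ∧
      (∃ s : ↥(zchClosure (A₀ := ↥(beta0Ring A (beta0Field A)))
          ({bgJ ↥(beta0Field A) (M * q)} :
            Set ↥(modularFunctionFieldFullC ↥(beta0Field A) (M * q)))), s ∈ 𝔫.1 ∧
        NodesLocGen 𝔫.1 {algebraMap ↥(beta0Ring A (beta0Field A))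
          ↥(zchClosure (A₀ := ↥(beta0Ring A (beta0Field A)))
            ({bgJ ↥(beta0Field A) (M * q)} :
              Set ↥(modularFunctionFieldFullC ↥(beta0Field A) (M * q)))) π, s}) ∧
      ∃ (γ : ↥(modularFunctionFieldFullC ↥(beta0Field A) (M * q))) (ε : ↥(atLoc 𝔫)), IsUnit ε ∧
        y = (ε : ↥(modularFunctionFieldFullC ↥(beta0Field A) (M * q))) * γ ^ m ∧ γ ≠ 0 ∧
        (mgvV hπ ιC hq hqM true).valuation γ = 1) := by
  obtain ⟨φ, hφF⟩ := Fermat.Agent.Common.exists_isFrobeniusAt_of_liesOverPrime q hq A hA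
  exact rtk6lfb_LF_J hπ ιC hq hqM hA le_rfl hφF
    (fun x hx => beta0_decomp_apply_mem hφF.mem_decompositionSubgroup hx)
    (rtk6lfb0_hqπ hπ hq hA) rigid m hy hhor hy₁ hn₀ 𝔫

end Base

end Fermat.Agent.RT.K6
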