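import Fermat.Agent.RT.K6.BGal

/-!
# RT-K6 / B (10): `StmtB` — the Atkin–Lehner automorphism `w_r` exists (helper96)

`stmtB : StmtB`: for `r ∥ L`, `r ∣ M ∣ L` and star-stable `H` there is
`w : fieldBar L M H ≃ₐ[ℚ̄] fieldBar L M H` with `IsWAt L M H r w`:
* `galois`  : `σ (w x) = w (δ_c (σ x))` for `σ ζ_r = ζ_r ^ c`, `c ≡ 1` mod `M / r`;
* `map_j`   : `w j(q^d) = j(q^{d'})`, `d' = d / r` resp. `d r`;
* `diamond` : `w δ_c = δ_{c⁻¹} w` for the diamonds at `r`.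
-/

set_option autoImplicit false
set_option linter.style.haveILetI false
set_option linter.unusedSectionVars false

open UpperHalfPlane ModularForm CongruenceSubgroup Matrix
open Fermat.Agent.ES Fermat.Agent.S23 Fermat.Agent.S24 Fermat.Agent.S28
open Fermat.Agent.ES1 Fermat.Agent.ES1.G2 Fermat.Agent.ES.G2 ModularCurve
open scoped MatrixGroups Manifold Real

noncomputable section

namespace Fermat.Agent.RT.K6

/-! ### conjugating an algebra endomorphism by a semilinear automorphism -/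

section ConjHom

variable {K F : Type*} [Field K] [Field F] [Algebra K F]

/-- `x ↦ Σ (w (Σ⁻¹ x))` for a `σ`-semilinear ring automorphism `Σ` -/
def rtk6bConjHom (S : F ≃+* F) (σ : K ≃+* K)
    (hS : ∀ a : K, S (algebraMap K F a) = algebraMap K F (σ a)) (w : F →ₐ[K] F) : F →ₐ[K] F :=
  { toRingHom := (S.toRingHom.comp w.toRingHom).comp S.symm.toRingHom
    commutes' := fun a => by
      show S (w (S.symm (algebraMap K F a))) = algebraMap K F a
      have h : S.symm (algebraMap K F a) = algebraMap K F (σ.symm a) := by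
        rw [RingEquiv.symm_apply_eq, hS, RingEquiv.apply_symm_apply]
      rw [h, AlgHom.commutes, hS, RingEquiv.apply_symm_apply] }

theorem rtk6bConjHom_apply (S : F ≃+* F) (σ : K ≃+* K)
    (hS : ∀ a : K, S (algebraMap K F a) = algebraMap K F (σ a)) (w : F →ₐ[K] F) (x : F) :
    rtk6bConjHom S σ hS w x = S (w (S.symm x)) := rfl

end ConjHom

/-! ### the three properties -/

section Final

variable {L M r : ℕ} [NeZero L] [NeZero M] [NeZero r] (D : RtBDat L M r)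
  (H : Subgroup (ZMod M)ˣ)

variable {D H}

theorem IsW0.gen_eq {φ : fieldBar L M H →ₐ[Kb] fieldBar L M H} (hφ : IsW0 D H φ)
    (hs : IsStarStable M r H) (i : SwhIx L M) (hi : swhB L M H i ∈ fieldBar L M H) :
    φ ⟨swhB L M H i, hi⟩ = ⟨rtk6bTB D H i, rtk6bTB_mem D H hs i⟩ :=
  Subtype.ext (hφ.apply_gen i hi)

theorem IsW0.map_j {φ : fieldBar L M H →ₐ[Kb] fieldBar L M H} (hφ : IsW0 D H φ)
    (d d' : ℕ) [NeZero d] [NeZero d'] (hd : d ∣ L)
    (hd' : d' = (if r ∣ d then d / r else d * r)) (x : fieldBar L M H)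
    (hx : (x : LaurentSeries Kb) = qExpand Kb d (jqModC Kb)) :
    ((φ x : fieldBar L M H) : LaurentSeries Kb) = qExpand Kb d' (jqModC Kb) := by
  have hx' : x = ⟨swhB L M H (Sum.inl ⟨d, hd⟩), rtk6b_swhB_mem H _⟩ := Subtype.ext hx
  rw [hx', hφ.apply_gen]
  show swhB L M H (Sum.inl (rtk6bSd D ⟨d, hd⟩)) = _
  by_cases h : r ∣ d
  · rw [rtk6bSd_of_dvd D d hd h]
    rw [if_pos h] at hd'
    exact swhB_inl_congr L M H d' _ hd'.symm
  · rw [rtk6bSd_of_not_dvd D d hd h]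
    rw [if_neg h] at hd'
    exact swhB_inl_congr L M H d' _ hd'.symm

theorem IsW0.diamond {φ : fieldBar L M H →ₐ[Kb] fieldBar L M H} (hφ : IsW0 D H φ)
    (hs : IsStarStable M r H) (c : (ZMod M)ˣ) (hc : IsAtR M r c)
    (δ δ' : fieldBar L M H ≃ₐ[Kb] fieldBar L M H) (hδ : IsDiamondH L M H c δ)
    (hδ' : IsDiamondH L M H c⁻¹ δ') (x : fieldBar L M H) : φ (δ x) = δ' (φ x) := by
  have hrM : r ∣ M := Dvd.intro_left D.M' D.hM.symm
  have h : φ.comp (δ : fieldBar L M H →ₐ[Kb] fieldBar L M H) =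
      (δ' : fieldBar L M H →ₐ[Kb] fieldBar L M H).comp φ := by
    apply IntermediateField.algHom_ext_of_eq_adjoin Kb (swh_fieldBar_eq L M H)
    rintro _ ⟨i, rfl⟩
    show φ (δ ⟨swhB L M H i, _⟩) = δ' (φ ⟨swhB L M H i, _⟩)
    rw [rtk6b_diamond_gen H hδ i _, hφ.gen_eq hs, hφ.gen_eq hs,
      rtk6b_diamond_target D H hs (isStarOf_inv_of_isAtR hrM hc) hδ' i _]
  exact congrArg (fun f : fieldBar L M H →ₐ[Kb] fieldBar L M H => f x) h

theorem rtk6b_arith_gen (σ : Kb ≃ₐ[ℚ] Kb) (i : SwhIx L M)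
    (hi : swhB L M H i ∈ fieldBar L M H) :
    arithmeticRingAut (fieldQ L M H) σ ⟨swhB L M H i, hi⟩ = ⟨swhB L M H i, hi⟩ :=
  Subtype.ext (rtk6b_swhB_rational H _ i)

theorem rtk6b_arith_target (hs : IsStarStable M r H) (σ : Kb ≃ₐ[ℚ] Kb) (c : (ZMod M)ˣ)
    (hc : IsCycAt M r σ c) (i : SwhIx L M) (hi : rtk6bTB D H i ∈ fieldBar L M H) :
    arithmeticRingAut (fieldQ L M H) σ ⟨rtk6bTB D H i, hi⟩ =
      ⟨rtk6bTB D H (rtk6bAct c i), rtk6bTB_mem D H hs _⟩ :=
  Subtype.ext (rtk6bTB_galois D H σ c hc i)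

theorem IsW0.galois {φ : fieldBar L M H →ₐ[Kb] fieldBar L M H} (hφ : IsW0 D H φ)
    (hs : IsStarStable M r H) (σ : Kb ≃ₐ[ℚ] Kb) (c : (ZMod M)ˣ) (hc : IsCycAt M r σ c)
    (δ : fieldBar L M H ≃ₐ[Kb] fieldBar L M H) (hδ : IsDiamondH L M H c δ)
    (x : fieldBar L M H) :
    arithmeticGalois (fieldQ L M H) σ • φ x =
      φ (δ (arithmeticGalois (fieldQ L M H) σ • x)) := by
  have h : rtk6bConjHom (arithmeticRingAut (fieldQ L M H) σ) σ.toRingEquiv
      (fun a => arithmeticRingAut_algebraMap (fieldQ L M H) σ a) φ =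
      φ.comp (δ : fieldBar L M H →ₐ[Kb] fieldBar L M H) := by
    apply IntermediateField.algHom_ext_of_eq_adjoin Kb (swh_fieldBar_eq L M H)
    rintro _ ⟨i, rfl⟩
    rw [rtk6bConjHom_apply]
    show _ = φ (δ ⟨swhB L M H i, _⟩)
    have h1 : (arithmeticRingAut (fieldQ L M H) σ).symm
        ⟨swhB L M H i, rtk6b_swhB_mem H i⟩ = ⟨swhB L M H i, rtk6b_swhB_mem H i⟩ := by
      rw [RingEquiv.symm_apply_eq, rtk6b_arith_gen]
    rw [h1, hφ.gen_eq hs, rtk6b_arith_target hs σ c hc, rtk6b_diamond_gen H hδ i _,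
      hφ.gen_eq hs]
  have h2 := congrArg (fun f : fieldBar L M H →ₐ[Kb] fieldBar L M H =>
    f (arithmeticRingAut (fieldQ L M H) σ x)) h
  simp only [rtk6bConjHom_apply, RingEquiv.symm_apply_apply] at h2
  exact h2

end Final

/-- **Piece B**: the Atkin–Lehner automorphism `w_r` of `fieldBar L M H` exists. -/
theorem stmtB : StmtB := by
  intro L M H r hL0 hML hr hrM hr2 hs
  obtain ⟨D⟩ := rtk6b_exists_dat hL0 hML hr hrM hr2
  haveI : NeZero L := ⟨hL0⟩
  haveI : NeZero M := ⟨fun h => hL0 (by rw [h] at hML; exact Nat.eq_zero_of_zero_dvd hML)⟩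
  haveI : NeZero r := ⟨hr.ne_zero⟩
  obtain ⟨φ, hφ0⟩ := rtk6b_exists_w0 D H hs
  have hφ : IsW0 D H φ := hφ0
  refine ⟨AlgEquiv.ofBijective φ hφ.bijective, ?_, ?_, ?_⟩
  · intro σ c hc δ hδ x
    exact hφ.galois hs σ c hc δ hδ x
  · intro d d' _ _ hd hd' x hx
    exact hφ.map_j d d' hd hd' x hx
  · intro c hc δ δ' hδ hδ' x
    exact hφ.diamond hs c hc δ δ' hδ hδ' x

end Fermat.Agent.RT.K6
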