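/-
K-machine, piece K6, piece **E-INST** (helper18), part 2: **`StmtChiKummerRig` and `StmtUnipHRig`
(`RT/K6/EFinal.lean`) from the open geometric inputs**, quantified over the tame rigid levels.

* `StmtRtk6GeomChi` : at every tame rigid level `L = M₁ q`, every `w₀` (piece B) and every `A`
  over `q`: a number field `K₀` such that for all Galois number fields `K₁ ⊇ K₀` (with
  `A ∩ E′` a DVR, `μ_q ⊆ E′`) and all uniformizers `π`: `Rtk6m4Stab` (HSTAB) and `Rtk6eiGeom`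
  for `g = σ̂` (`σ` in the inertia group), `Φ = δ′₀` (a diamond at `q`);
* `StmtRtk6GeomUnip` : the same for `g = Φ = σ̂` when `±H` contains the diamonds at `q`
  (no HSTAB);
* `rtk6ei_starStable_of_hat` : `±H ⊇` diamonds at `r` ⇒ `H` is star-stable;
* **`rtk6ei_stmtChiKummerRig : StmtRtk6GeomChi → StmtChiKummerRig`**,
  **`rtk6ei_stmtUnipHRig : StmtRtk6GeomUnip → StmtUnipHRig`** (piece B = `stmtB` is used).
-/
import Fermat.Agent.RT.K6.EInst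
import Fermat.Agent.RT.K6.BFinal

set_option autoImplicit false
set_option linter.style.haveILetI false
set_option linter.unusedSectionVars false
set_option linter.unusedVariables false

noncomputable section

namespace Fermat.Agent.RT.K6

open ModularCurve AlgebraicCurve Fermat.Agent.ES Fermat.Agent.ES.G2 Fermat.Agent.INJ
open Fermat.Agent.UNIP Fermat.Agent.STB Fermat.Agent.ES1 Fermat.Agent.ES1.G2 IntermediateField

/-- **The open geometric statement of piece E, case (χ)**: (HSTAB), (SS1-inst), (C4 + D-BC +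
FAM-res), (FIX-inst) at the tame rigid levels `L = M₁ q`. -/
def StmtRtk6GeomChi : Prop :=
  ∀ (q M₁ : ℕ) [NeZero q] [NeZero M₁] [NeZero (M₁ * q)] (M : ℕ) (H : Subgroup (ZMod M)ˣ)
    (hq : q.Prime) (hqM' : q ∣ M) (hM0 : M ≠ 0), ¬ q ∣ M₁ → M ∣ M₁ * q →
    IsStarStable M q H → IsTameAt (M₁ * q) M q H → 4 ∣ M₁ * q →
    ∀ (w₀ : fieldBar (M₁ * q) M H ≃ₐ[Qb] fieldBar (M₁ * q) M H)
      (hw₀ : IsWAt (M₁ * q) M H q w₀) (A : ValuationSubring Qb), A.LiesOverPrime q →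
      ∃ K₀ : IntermediateField ℚ Qb, FiniteDimensional ℚ K₀ ∧
        ∀ (K₁ : IntermediateField ℚ Qb) [NumberField K₁] [IsGalois ℚ K₁]
          [IsDiscreteValuationRing ↥(mgcA A K₁)], K₀ ≤ K₁ →
          ∀ (hζ : ∀ ζ : Qb, ζ ^ q = 1 → ζ ∈ mgcE A K₁) {π : ↥(mgcA A K₁)}
            (hπ : Irreducible π),
            Rtk6m4Stab hπ M H (rtk6diwW (K₀ := mgcE A K₁) w₀ hw₀ hM0 hq hqM' hζ) ∧
            ∀ σ ∈ A.inertiaSubgroupIn ℚ, ∀ (hσE : ∀ x ∈ mgcE A K₁, σ x ∈ mgcE A K₁)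
              (c' : (ZMod M)ˣ), IsAtR M q c' →
              ∀ δ₀' : ↥(rtk6diF A K₁ (M₁ * q) M H) ≃ₐ[↥(mgcE A K₁)]
                  ↥(rtk6diF A K₁ (M₁ * q) M H),
                IsDiamondC ↥(mgcE A K₁) (M₁ * q) M H c' δ₀' →
                Rtk6eiGeom hπ w₀ hw₀ hM0 hq hqM' hζ (rtk6diGal (M₁ * q) M H σ hσE)
                  (SemilinearAut.ofAlgAut δ₀')

/-- **The open geometric statement of piece E, case (U)** (`±H` contains the diamonds at `q`):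
(SS1-inst), (C4-U + D-BC + FAM-res), (FIX-U) at the tame rigid levels `L = M₁ q`. -/
def StmtRtk6GeomUnip : Prop :=
  ∀ (q M₁ : ℕ) [NeZero q] [NeZero M₁] [NeZero (M₁ * q)] (M : ℕ) (H : Subgroup (ZMod M)ˣ)
    (hq : q.Prime) (hqM' : q ∣ M) (hM0 : M ≠ 0), ¬ q ∣ M₁ → M ∣ M₁ * q →
    (∀ c : (ZMod M)ˣ, IsAtR M q c → c ∈ pmH H) → IsTameAt (M₁ * q) M q H → 4 ∣ M₁ * q →
    ∀ (w₀ : fieldBar (M₁ * q) M H ≃ₐ[Qb] fieldBar (M₁ * q) M H)
      (hw₀ : IsWAt (M₁ * q) M H q w₀) (A : ValuationSubring Qb), A.LiesOverPrime q →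
      ∃ K₀ : IntermediateField ℚ Qb, FiniteDimensional ℚ K₀ ∧
        ∀ (K₁ : IntermediateField ℚ Qb) [NumberField K₁] [IsGalois ℚ K₁]
          [IsDiscreteValuationRing ↥(mgcA A K₁)], K₀ ≤ K₁ →
          ∀ (hζ : ∀ ζ : Qb, ζ ^ q = 1 → ζ ∈ mgcE A K₁) {π : ↥(mgcA A K₁)}
            (hπ : Irreducible π),
            ∀ σ ∈ A.inertiaSubgroupIn ℚ, ∀ (hσE : ∀ x ∈ mgcE A K₁, σ x ∈ mgcE A K₁),
              Rtk6eiGeom hπ w₀ hw₀ hM0 hq hqM' hζ (rtk6diGal (M₁ * q) M H σ hσE)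
                (rtk6diGal (M₁ * q) M H σ hσE)

/-- if `±H` contains the diamonds at `r`, `H` is star-stable -/
theorem rtk6ei_starStable_of_hat {M r : ℕ} (hM0 : M ≠ 0) (hrM : r ∣ M)
    {H : Subgroup (ZMod M)ˣ} (hat : ∀ c : (ZMod M)ˣ, IsAtR M r c → c ∈ pmH H) :
    IsStarStable M r H := by
  intro h hh h' _ h2
  haveI : NeZero M := ⟨hM0⟩
  have hM1 : M / r ∣ M := Nat.div_dvd_of_dvd hrM
  have hcast : ∀ x : ZMod M, ((x.val : ℕ) : ZMod (M / r)) =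
      ZMod.castHom hM1 (ZMod (M / r)) x := fun x => by
    rw [ZMod.natCast_val, ZMod.castHom_apply]
  have hc : IsAtR M r (h' * h⁻¹) := by
    unfold IsAtR
    rw [hcast, hcast] at h2
    rw [hcast, Units.val_mul, map_mul, h2, ← map_mul, ← Units.val_mul, mul_inv_cancel,
      Units.val_one, map_one]
  have := (pmH H).mul_mem (hat _ hc) (le_pmH H hh)
  rwa [inv_mul_cancel_right] at this

/-- the arithmetic of the level: `L = M₁ r`, `r ∤ M₁` -/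
theorem rtk6ei_level {L M r : ℕ} (hML : M ∣ L) (hrM : r ∣ M) (hr2 : ¬ r ^ 2 ∣ L) :
    ∃ M₁ : ℕ, L = M₁ * r ∧ ¬ r ∣ M₁ := by
  obtain ⟨M₁, hM₁⟩ := hrM.trans hML
  refine ⟨M₁, by rw [hM₁, mul_comm], fun h => hr2 ?_⟩
  rw [hM₁, pow_two]
  exact Nat.mul_dvd_mul (dvd_refl r) h

/-- **E-INST, final form (χ-K)**: `StmtChiKummerRig` from the open geometric statement. -/
theorem rtk6ei_stmtChiKummerRig (h : StmtRtk6GeomChi) : StmtChiKummerRig := by
  intro L M H r hL hML hr hrM hr2 hstar htame h4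
  obtain ⟨M₁, rfl, hqM⟩ := rtk6ei_level hML hrM hr2
  haveI : NeZero r := ⟨hr.ne_zero⟩
  haveI : NeZero (M₁ * r) := ⟨hL⟩
  haveI : NeZero M₁ := ⟨fun h0 => hL (by rw [h0, zero_mul])⟩
  have hM0 : M ≠ 0 := fun h0 => hL (by rw [h0] at hML; exact Nat.eq_zero_of_zero_dvd hML)
  obtain ⟨w₀, hw₀⟩ := stmtB (M₁ * r) M H r hL hML hr hrM hr2 hstar
  exact chiKummerAt_of_fieldPP hr (rtk6ei_chiFieldPPAt hr hqM hML hrM hM0 w₀ hw₀
    (h r M₁ M H hr hrM hM0 hqM hML hstar htame h4 w₀ hw₀))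

/-- **E-INST, final form (UNIP_H)**: `StmtUnipHRig` from the open geometric statement. -/
theorem rtk6ei_stmtUnipHRig (h : StmtRtk6GeomUnip) : StmtUnipHRig := by
  intro L M H r hL hML hr hrM hr2 hat htame h4
  obtain ⟨M₁, rfl, hqM⟩ := rtk6ei_level hML hrM hr2
  haveI : NeZero r := ⟨hr.ne_zero⟩
  haveI : NeZero (M₁ * r) := ⟨hL⟩
  haveI : NeZero M₁ := ⟨fun h0 => hL (by rw [h0, zero_mul])⟩
  have hM0 : M ≠ 0 := fun h0 => hL (by rw [h0] at hML; exact Nat.eq_zero_of_zero_dvd hML)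
  obtain ⟨w₀, hw₀⟩ := stmtB (M₁ * r) M H r hL hML hr hrM hr2
    (rtk6ei_starStable_of_hat hM0 hrM hat)
  exact unipHAt_of_fieldPP hr (rtk6ei_unipFieldPPAt hr hqM hML hrM hM0 hat w₀ hw₀
    (h r M₁ M H hr hrM hM0 hqM hML hat htame h4 w₀ hw₀))

end Fermat.Agent.RT.K6
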