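/-
K-machine, piece K6: **the master wiring** (helper66, integration check).

  `StmtRtk6GeomChi` + `StmtRtk6GeomUnip`   (the two open geometric Props, `EInstRig.lean`, helper18)
    ⟹ `StmtChiKummerRig` + `StmtUnipHRig`   (`rtk6ei_stmtChiKummerRig`, `rtk6ei_stmtUnipHRig`)
    ⟹ `StmtChiJDiv5`                         (`stmtChiJDiv5_of_rig`, `FAuxRig.lean`)

* `rtk6_master` : `StmtRtk6GeomChi → StmtRtk6GeomUnip → StmtChiJDiv5`.
-/
import Fermat.Agent.RT.K6.EInstRig
import Fermat.Agent.RT.K6.FAuxRig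

set_option autoImplicit false

namespace Fermat.Agent.RT.K6

/-- **K6, master wiring**: (χ-J) on the divisible classes at all tame levels (`r ≥ 5`, exponents
prime to `6`) from the two geometric Props. -/
theorem rtk6_master (hχ : StmtRtk6GeomChi) (hU : StmtRtk6GeomUnip) : StmtChiJDiv5 :=
  stmtChiJDiv5_of_rig (rtk6ei_stmtChiKummerRig hχ) (rtk6ei_stmtUnipHRig hU)

end Fermat.Agent.RT.K6
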