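/-
K-machine, piece K6, LOCAL UNIQUENESS ((M3) of `NOTES/RT-K6-D.md` v5; helper94).

Abstract (Mathlib + `UNIP.NodesLocGen`).  `B` a noetherian ring (the chart), `ι : B →+* F`,
`𝔫` a prime of `B` (a closed point).  The valuation rings `W ⊇ ι B` of `F` considered here are
  * localisations of `B`      : `∀ x ∈ W, ∃ b s, ι s ∉ 𝔪(W) ∧ ι s * x = ι b`      (`hVloc`),
  * archimedean               : `∀ a x, a ∈ 𝔪(W) → ∃ N, a ^ N * x ∈ 𝔪(W)`          (`harch`),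
  * through `𝔫`               : `∀ b, ι b ∈ 𝔪(W) → b ∈ 𝔫`                          (`atThrough`),
  * vertical                  : `ϖ ∈ 𝔪(W)`, `ϖ ≠ 0`.

* `rtk6lu_sat`        : (Nakayama) `𝔫` generated locally by `T ∪ {Y}`, `Y ∈ 𝔫`; a prime `𝔭 ≤ 𝔫`
                        with `T ⊆ 𝔭`, `Y ∉ 𝔭` is generated by `T` locally at `𝔫`;
* `rtk6lu_le_of_centre`, `rtk6lu_eq_of_le` : `W = B_𝔭`; `W ≤ V`, `W` archimedean, `V ≠ ⊤` ⇒ `W = V`;
* `rtk6lu_eq_of_mem`  : two such valuation rings through `𝔫` with `ι T ⊆ 𝔪` are EQUAL;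
* `rtk6lu_cross`      : crossing point (`NodesLocGen 𝔫 {ϖ, X, Y}`, `X Y = w ϖ`, `ι X ∈ 𝔪(V₁)`,
                        `ι Y ∈ 𝔪(V₂)`): every such `W` with `ι ϖ ∈ 𝔪(W)` is `V₁` or `V₂`
                        (thin or thick node, any base: no hypothesis on `w`);
* `rtk6lu_smooth`     : smooth point (`NodesLocGen 𝔫 {ϖ, s}`): at most one such `W`.
The forms for the charts `zchClosure {u}`, `AtPt`, `atThrough` are in `DGLUniqEW.lean`.
-/
import Mathlib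
import Fermat.Agent.UNIP.NodesMain

set_option autoImplicit false
set_option linter.style.haveILetI false
set_option linter.unusedSectionVars false

namespace Fermat.Agent.RT.K6

open Fermat.Agent.UNIP IsLocalRing

section Sat

variable {B : Type*} [CommRing B]

/-- **Nakayama at a node.**  `𝔫` a prime of the noetherian ring `B`, generated locally by
`T ∪ {Y}`, `Y ∈ 𝔫`; a prime `𝔭 ≤ 𝔫` with `T ⊆ 𝔭`, `Y ∉ 𝔭` is generated by `T` locally at `𝔫`. -/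
theorem rtk6lu_sat [IsNoetherianRing B] (𝔫 : Ideal B) [h𝔫 : 𝔫.IsPrime] {Y : B} {T : Set B}
    (hY𝔫 : Y ∈ 𝔫) (hgen : NodesLocGen 𝔫 (insert Y T)) (𝔭 : Ideal B) [h𝔭 : 𝔭.IsPrime]
    (hle : 𝔭 ≤ 𝔫) (hT : T ⊆ 𝔭) (hY : Y ∉ 𝔭) {b : B} (hb : b ∈ 𝔭) :
    ∃ u : B, u ∉ 𝔫 ∧ u * b ∈ Ideal.span T := by
  set O := Localization.AtPrime 𝔫 with hO
  set N : Ideal O := 𝔭.map (algebraMap B O) with hN
  set J : Ideal O := (Ideal.span T).map (algebraMap B O) with hJ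
  have hTle : Ideal.span T ≤ 𝔭 := Ideal.span_le.mpr hT
  have hfg : (N : Submodule O O).FG := Ideal.FG.map (IsNoetherian.noetherian 𝔭) _
  have hjac : maximalIdeal O ≤ Ideal.jacobson ⊥ := by
    rw [IsLocalRing.jacobson_eq_maximalIdeal ⊥ bot_ne_top]
  have hYm : algebraMap B O Y ∈ maximalIdeal O :=
    (IsLocalization.AtPrime.to_map_mem_maximal_iff O 𝔫 Y).mpr hY𝔫
  have hstep : (N : Submodule O O) ≤ (J : Ideal O) ⊔ maximalIdeal O • (N : Submodule O O) := by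
    have h1 : 𝔭 ≤ ((J : Ideal O) ⊔ maximalIdeal O • N).comap (algebraMap B O) := by
      intro b hb
      rw [Ideal.mem_comap]
      obtain ⟨u, hu, hub⟩ := hgen b (hle hb)
      obtain ⟨a, z, hz, haz⟩ := Ideal.mem_span_insert.mp hub
      have ha : a ∈ 𝔭 := by
        have h1 : a * Y ∈ 𝔭 := by
          have : a * Y = u * b - z := by rw [haz]; ring
          rw [this]
          exact 𝔭.sub_mem (𝔭.mul_mem_left _ hb) (hTle hz)
        exact (h𝔭.mem_or_mem h1).resolve_right hY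
      obtain ⟨v, hv⟩ := IsLocalization.map_units O (⟨u, hu⟩ : 𝔫.primeCompl)
      have hv' : (v : O) = algebraMap B O u := hv
      have e : algebraMap B O b = (↑v⁻¹ : O) * (algebraMap B O z +
          algebraMap B O Y * algebraMap B O a) := by
        have h2 : algebraMap B O u * algebraMap B O b =
            algebraMap B O z + algebraMap B O Y * algebraMap B O a := by
          rw [← map_mul, haz, map_add, map_mul]
          ring
        rw [← h2, ← hv', ← mul_assoc, Units.inv_mul, one_mul]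
      rw [e]
      refine Ideal.mul_mem_left _ _ (Ideal.add_mem _ ?_ ?_)
      · exact Ideal.mem_sup_left (Ideal.mem_map_of_mem (algebraMap B O) hz)
      · exact Ideal.mem_sup_right
          (Submodule.smul_mem_smul hYm (Ideal.mem_map_of_mem (algebraMap B O) ha))
    exact Ideal.map_le_iff_le_comap.mpr h1
  have hNle : (N : Submodule O O) ≤ (J : Ideal O) :=
    Submodule.le_of_le_smul_of_le_jacobson_bot hfg hjac hstep
  have hfb : algebraMap B O b ∈ J := hNle (Ideal.mem_map_of_mem (algebraMap B O) hb)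
  obtain ⟨⟨i, s⟩, his⟩ := (IsLocalization.mem_map_algebraMap_iff 𝔫.primeCompl O).mp hfb
  have his' : algebraMap B O b * algebraMap B O (s : B) = algebraMap B O (i : B) := his
  have h2 : algebraMap B O ((s : B) * b) = algebraMap B O (i : B) := by
    rw [map_mul, ← his']
    ring
  obtain ⟨t, ht⟩ := (IsLocalization.eq_iff_exists 𝔫.primeCompl O).mp h2
  refine ⟨(t : B) * (s : B), ?_, ?_⟩
  · intro h
    rcases h𝔫.mem_or_mem h with h1 | h1
    · exact t.2 h1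
    · exact s.2 h1
  · rw [mul_assoc, ht]
    exact Ideal.mul_mem_left _ _ i.2

end Sat

section Val

variable {F : Type*} [Field F]

/-- **Rank one.**  Valuation rings `W ≤ V` of `F`, `W` archimedean, `V ≠ F` (a nonzero
`ϖ ∈ 𝔪(V)`): then `W = V`. -/
theorem rtk6lu_eq_of_le {W V : ValuationSubring F} (hle : W ≤ V)
    (harch : ∀ a x : F, a ∈ W.nonunits → ∃ N : ℕ, a ^ N * x ∈ W.nonunits)
    {ϖ : F} (hϖ0 : ϖ ≠ 0) (hϖV : ϖ ∈ V.nonunits) : W = V := by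
  refine le_antisymm hle fun x hx => ?_
  by_contra hxW
  have hx0 : x ≠ 0 := fun h => hxW (h ▸ W.zero_mem)
  have hxinv : x⁻¹ ∈ W.nonunits := (ValuationSubring.inv_mem_nonunits_iff W).mpr (Or.inr hxW)
  obtain ⟨N, hN⟩ := harch x⁻¹ ϖ⁻¹ hxinv
  have h1 : x⁻¹ ^ N * ϖ⁻¹ ∈ V := hle (ValuationSubring.nonunits_subset hN)
  have h2 : ϖ⁻¹ ∈ V := by
    have e : ϖ⁻¹ = x ^ N * (x⁻¹ ^ N * ϖ⁻¹) := by
      rw [← mul_assoc, ← mul_pow, mul_inv_cancel₀ hx0, one_pow, one_mul]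
    rw [e]
    exact V.mul_mem _ _ (V.pow_mem hx N) h1
  -- `ϖ` and `ϖ⁻¹` in `V`, `ϖ` a nonunit: contradiction
  have h3 : V.valuation ϖ < 1 := (ValuationSubring.mem_nonunits_iff V).mp hϖV
  have h4 : V.valuation ϖ⁻¹ ≤ 1 := (ValuationSubring.valuation_le_one_iff V _).mpr h2
  have h5 : V.valuation ϖ * V.valuation ϖ⁻¹ = 1 := by
    rw [← map_mul, mul_inv_cancel₀ hϖ0, map_one]
  have h6 : V.valuation ϖ * V.valuation ϖ⁻¹ < 1 := by
    calc V.valuation ϖ * V.valuation ϖ⁻¹ ≤ V.valuation ϖ * 1 := by gcongr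
      _ = V.valuation ϖ := mul_one _
      _ < 1 := h3
  rw [h5] at h6
  exact lt_irrefl _ h6

variable {B : Type*} [CommRing B]

/-- `W = B_𝔭(W)`, `V ⊇ ι B`: if the centre of `V` on `B` is contained in the centre of `W`,
then `W ≤ V`. -/
theorem rtk6lu_le_of_centre (ι : B →+* F) {W V : ValuationSubring F}
    (hBV : ∀ b, ι b ∈ V)
    (hWloc : ∀ x ∈ W, ∃ b s : B, ι s ∉ W.nonunits ∧ ι s * x = ι b)
    (hcen : ∀ b : B, ι b ∈ V.nonunits → ι b ∈ W.nonunits) : W ≤ V := by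
  intro x hx
  obtain ⟨b, s, hs, hsx⟩ := hWloc x hx
  have hsV : ι s ∉ V.nonunits := fun h => hs (hcen s h)
  have hs1 : V.valuation (ι s) = 1 := by
    have h1 : V.valuation (ι s) ≤ 1 := (ValuationSubring.valuation_le_one_iff V _).mpr (hBV s)
    have h2 : ¬ V.valuation (ι s) < 1 := fun h => hsV ((ValuationSubring.mem_nonunits_iff V).mpr h)
    exact le_antisymm h1 (not_lt.mp h2)
  have h3 : V.valuation x = V.valuation (ι b) := by
    rw [← hsx, map_mul, hs1, one_mul]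
  rw [← ValuationSubring.valuation_le_one_iff, h3]
  exact (ValuationSubring.valuation_le_one_iff V _).mpr (hBV b)

/-- the centre of a valuation ring `W ⊇ ι B` on `B` -/
def rtk6luCentre (ι : B →+* F) (W : ValuationSubring F) (hB : ∀ b, ι b ∈ W) : Ideal B :=
  (maximalIdeal W).comap (ι.codRestrict W hB)

theorem rtk6lu_mem_centre (ι : B →+* F) (W : ValuationSubring F) (hB : ∀ b, ι b ∈ W) {b : B} :
    b ∈ rtk6luCentre ι W hB ↔ ι b ∈ W.nonunits := by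
  rw [rtk6luCentre, Ideal.mem_comap, ValuationSubring.valuation_lt_one_iff,
    ValuationSubring.mem_nonunits_iff]
  rfl

instance rtk6luCentre_isPrime (ι : B →+* F) (W : ValuationSubring F) (hB : ∀ b, ι b ∈ W) :
    (rtk6luCentre ι W hB).IsPrime :=
  Ideal.comap_isPrime _ _

/-- **Local uniqueness, general form.**  `𝔫 = (T, Y)` locally, `Y ∈ 𝔫`; two valuation rings
`W`, `V` of `F` which are localisations of `B`, archimedean, vertical, pass through `𝔫` and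
contain `ι T` in their maximal ideals are equal. -/
theorem rtk6lu_eq_of_mem [IsNoetherianRing B] (ι : B →+* F) (𝔫 : Ideal B) [h𝔫 : 𝔫.IsPrime]
    {Y : B} {T : Set B} (hY𝔫 : Y ∈ 𝔫) (hgen : NodesLocGen 𝔫 (insert Y T))
    {W V : ValuationSubring F} (hBW : ∀ b, ι b ∈ W) (hBV : ∀ b, ι b ∈ V)
    (hWloc : ∀ x ∈ W, ∃ b s : B, ι s ∉ W.nonunits ∧ ι s * x = ι b)
    (hVloc : ∀ x ∈ V, ∃ b s : B, ι s ∉ V.nonunits ∧ ι s * x = ι b)
    (hWarch : ∀ a x : F, a ∈ W.nonunits → ∃ N : ℕ, a ^ N * x ∈ W.nonunits)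
    (hVarch : ∀ a x : F, a ∈ V.nonunits → ∃ N : ℕ, a ^ N * x ∈ V.nonunits)
    (hWthr : ∀ b, ι b ∈ W.nonunits → b ∈ 𝔫) (hVthr : ∀ b, ι b ∈ V.nonunits → b ∈ 𝔫)
    {ϖ : F} (hϖ0 : ϖ ≠ 0) (hϖW : ϖ ∈ W.nonunits) (hϖV : ϖ ∈ V.nonunits)
    (hTW : ∀ t ∈ T, ι t ∈ W.nonunits) (hTV : ∀ t ∈ T, ι t ∈ V.nonunits) : W = V := by
  have hcW : rtk6luCentre ι W hBW ≤ 𝔫 := fun b hb =>
    hWthr b ((rtk6lu_mem_centre ι W hBW).mp hb)
  have hcV : rtk6luCentre ι V hBV ≤ 𝔫 := fun b hb =>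
    hVthr b ((rtk6lu_mem_centre ι V hBV).mp hb)
  have hTcW : T ⊆ rtk6luCentre ι W hBW := fun t ht => (rtk6lu_mem_centre ι W hBW).mpr (hTW t ht)
  have hTcV : T ⊆ rtk6luCentre ι V hBV := fun t ht => (rtk6lu_mem_centre ι V hBV).mpr (hTV t ht)
  -- if `Y` lies in the centre `𝔭` (a prime `≤ 𝔫` containing `T`), then `𝔫 ≤ 𝔭`
  have hfull : ∀ (𝔭 : Ideal B) [𝔭.IsPrime], 𝔭 ≤ 𝔫 → T ⊆ 𝔭 → Y ∈ 𝔭 → 𝔫 ≤ 𝔭 := by
    intro 𝔭 h𝔭 hle hT hY b hb
    obtain ⟨u, hu, hub⟩ := hgen b hb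
    have h1 : u * b ∈ 𝔭 := by
      refine (Ideal.span_le.mpr ?_) hub
      intro z hz
      rcases hz with rfl | hz
      · exact hY
      · exact hT hz
    exact (h𝔭.mem_or_mem h1).resolve_left (fun h => hu (hle h))
  by_cases hYW : ι Y ∈ W.nonunits
  · -- the centre of `W` is `𝔫`: `W = B_𝔫 ≤ V`
    have h1 := hfull (rtk6luCentre ι W hBW) hcW hTcW ((rtk6lu_mem_centre ι W hBW).mpr hYW)
    exact rtk6lu_eq_of_le (rtk6lu_le_of_centre ι hBV hWloc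
      (fun b hb => (rtk6lu_mem_centre ι W hBW).mp (h1 (hVthr b hb)))) hWarch hϖ0 hϖV
  by_cases hYV : ι Y ∈ V.nonunits
  · have h1 := hfull (rtk6luCentre ι V hBV) hcV hTcV ((rtk6lu_mem_centre ι V hBV).mpr hYV)
    exact (rtk6lu_eq_of_le (rtk6lu_le_of_centre ι hBW hVloc
      (fun b hb => (rtk6lu_mem_centre ι V hBV).mp (h1 (hWthr b hb)))) hVarch hϖ0 hϖW).symm
  -- both centres are `(T)` locally
  have hWV : ∀ b : B, ι b ∈ W.nonunits → ι b ∈ V.nonunits := by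
    intro b hb
    obtain ⟨u, hu, hub⟩ := rtk6lu_sat 𝔫 hY𝔫 hgen (rtk6luCentre ι W hBW) hcW hTcW
      (fun h => hYW ((rtk6lu_mem_centre ι W hBW).mp h)) ((rtk6lu_mem_centre ι W hBW).mpr hb)
    have h1 : u * b ∈ rtk6luCentre ι V hBV := (Ideal.span_le.mpr hTcV) hub
    exact (rtk6lu_mem_centre ι V hBV).mp
      (((rtk6luCentre_isPrime ι V hBV).mem_or_mem h1).resolve_left (fun h => hu (hcV h)))
  have hVW : ∀ b : B, ι b ∈ V.nonunits → ι b ∈ W.nonunits := by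
    intro b hb
    obtain ⟨u, hu, hub⟩ := rtk6lu_sat 𝔫 hY𝔫 hgen (rtk6luCentre ι V hBV) hcV hTcV
      (fun h => hYV ((rtk6lu_mem_centre ι V hBV).mp h)) ((rtk6lu_mem_centre ι V hBV).mpr hb)
    have h1 : u * b ∈ rtk6luCentre ι W hBW := (Ideal.span_le.mpr hTcW) hub
    exact (rtk6lu_mem_centre ι W hBW).mp
      (((rtk6luCentre_isPrime ι W hBW).mem_or_mem h1).resolve_left (fun h => hu (hcW h)))
  exact le_antisymm (rtk6lu_le_of_centre ι hBV hWloc hVW) (rtk6lu_le_of_centre ι hBW hVloc hWV)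

/-- **Local uniqueness at a smooth point** (`𝔫 = (ϖ, s)` locally): at most one vertical
valuation ring of the family passes through `𝔫`. -/
theorem rtk6lu_smooth [IsNoetherianRing B] (ι : B →+* F) (𝔫 : Ideal B) [h𝔫 : 𝔫.IsPrime]
    {ϖ s : B} (hs : s ∈ 𝔫) (hgen : NodesLocGen 𝔫 {ϖ, s})
    {W V : ValuationSubring F} (hBW : ∀ b, ι b ∈ W) (hBV : ∀ b, ι b ∈ V)
    (hWloc : ∀ x ∈ W, ∃ b s : B, ι s ∉ W.nonunits ∧ ι s * x = ι b)
    (hVloc : ∀ x ∈ V, ∃ b s : B, ι s ∉ V.nonunits ∧ ι s * x = ι b)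
    (hWarch : ∀ a x : F, a ∈ W.nonunits → ∃ N : ℕ, a ^ N * x ∈ W.nonunits)
    (hVarch : ∀ a x : F, a ∈ V.nonunits → ∃ N : ℕ, a ^ N * x ∈ V.nonunits)
    (hWthr : ∀ b, ι b ∈ W.nonunits → b ∈ 𝔫) (hVthr : ∀ b, ι b ∈ V.nonunits → b ∈ 𝔫)
    (hϖ0 : ι ϖ ≠ 0) (hϖW : ι ϖ ∈ W.nonunits) (hϖV : ι ϖ ∈ V.nonunits) : W = V := by
  have hgen' : NodesLocGen 𝔫 (insert s ({ϖ} : Set B)) := by
    have e : (insert s ({ϖ} : Set B)) = {ϖ, s} := Set.pair_comm s ϖ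
    rw [e]
    exact hgen
  refine rtk6lu_eq_of_mem ι 𝔫 hs hgen' hBW hBV hWloc hVloc hWarch hVarch hWthr hVthr hϖ0 hϖW
    hϖV ?_ ?_
  · intro t ht
    rw [Set.mem_singleton_iff.mp ht]
    exact hϖW
  · intro t ht
    rw [Set.mem_singleton_iff.mp ht]
    exact hϖV

/-- **Local uniqueness at a crossing point** (`𝔫 = (ϖ, X, Y)` locally, `ϖ ∣ X Y`,
`X ∈ 𝔪(V₁)`, `Y ∈ 𝔪(V₂)`): every vertical valuation ring of the family through `𝔫` is `V₁` or
`V₂`. -/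
theorem rtk6lu_cross [IsNoetherianRing B] (ι : B →+* F) (𝔫 : Ideal B) [h𝔫 : 𝔫.IsPrime]
    {ϖ X Y w : B} (hXY : X * Y = w * ϖ) (hgen : NodesLocGen 𝔫 {ϖ, X, Y})
    {V₁ V₂ W : ValuationSubring F}
    (hB₁ : ∀ b, ι b ∈ V₁) (hB₂ : ∀ b, ι b ∈ V₂) (hBW : ∀ b, ι b ∈ W)
    (hloc₁ : ∀ x ∈ V₁, ∃ b s : B, ι s ∉ V₁.nonunits ∧ ι s * x = ι b)
    (hloc₂ : ∀ x ∈ V₂, ∃ b s : B, ι s ∉ V₂.nonunits ∧ ι s * x = ι b)
    (hlocW : ∀ x ∈ W, ∃ b s : B, ι s ∉ W.nonunits ∧ ι s * x = ι b)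
    (harch₁ : ∀ a x : F, a ∈ V₁.nonunits → ∃ N : ℕ, a ^ N * x ∈ V₁.nonunits)
    (harch₂ : ∀ a x : F, a ∈ V₂.nonunits → ∃ N : ℕ, a ^ N * x ∈ V₂.nonunits)
    (harchW : ∀ a x : F, a ∈ W.nonunits → ∃ N : ℕ, a ^ N * x ∈ W.nonunits)
    (hthr₁ : ∀ b, ι b ∈ V₁.nonunits → b ∈ 𝔫) (hthr₂ : ∀ b, ι b ∈ V₂.nonunits → b ∈ 𝔫)
    (hthrW : ∀ b, ι b ∈ W.nonunits → b ∈ 𝔫)
    (hϖ0 : ι ϖ ≠ 0) (hϖ₁ : ι ϖ ∈ V₁.nonunits) (hϖ₂ : ι ϖ ∈ V₂.nonunits)
    (hϖW : ι ϖ ∈ W.nonunits)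
    (hX : ι X ∈ V₁.nonunits) (hY : ι Y ∈ V₂.nonunits) : W = V₁ ∨ W = V₂ := by
  have hX𝔫 : X ∈ 𝔫 := hthr₁ X hX
  have hY𝔫 : Y ∈ 𝔫 := hthr₂ Y hY
  have hXYc : X * Y ∈ rtk6luCentre ι W hBW := by
    rw [hXY]
    exact Ideal.mul_mem_left _ _ ((rtk6lu_mem_centre ι W hBW).mpr hϖW)
  rcases (rtk6luCentre_isPrime ι W hBW).mem_or_mem hXYc with h | h
  · left
    have hgen' : NodesLocGen 𝔫 (insert Y ({ϖ, X} : Set B)) := by
      have e : (insert Y ({ϖ, X} : Set B)) = {ϖ, X, Y} := by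
        ext z
        simp only [Set.mem_insert_iff, Set.mem_singleton_iff]
        tauto
      rw [e]
      exact hgen
    refine rtk6lu_eq_of_mem ι 𝔫 hY𝔫 hgen' hBW hB₁ hlocW hloc₁ harchW harch₁ hthrW hthr₁ hϖ0 hϖW
      hϖ₁ ?_ ?_
    · intro t ht
      rcases ht with rfl | ht
      · exact hϖW
      · rw [Set.mem_singleton_iff.mp ht]
        exact (rtk6lu_mem_centre ι W hBW).mp h
    · intro t ht
      rcases ht with rfl | ht
      · exact hϖ₁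
      · rw [Set.mem_singleton_iff.mp ht]
        exact hX
  · right
    have hgen' : NodesLocGen 𝔫 (insert X ({ϖ, Y} : Set B)) := by
      have e : (insert X ({ϖ, Y} : Set B)) = {ϖ, X, Y} := by
        ext z
        simp only [Set.mem_insert_iff, Set.mem_singleton_iff]
        tauto
      rw [e]
      exact hgen
    refine rtk6lu_eq_of_mem ι 𝔫 hX𝔫 hgen' hBW hB₂ hlocW hloc₂ harchW harch₂ hthrW hthr₂ hϖ0 hϖW
      hϖ₂ ?_ ?_
    · intro t ht
      rcases ht with rfl | ht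
      · exact hϖW
      · rw [Set.mem_singleton_iff.mp ht]
        exact (rtk6lu_mem_centre ι W hBW).mp h
    · intro t ht
      rcases ht with rfl | ht
      · exact hϖ₂
      · rw [Set.mem_singleton_iff.mp ht]
        exact hY

end Val

end Fermat.Agent.RT.K6
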