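/-
K-machine, piece K6, LOCAL UNIQUENESS ((M3) of `NOTES/RT-K6-D.md` v5; helper94), part 2:
the forms for the charts `B_u = zchClosure {u}`, `𝔫 : AtPt π u`, `atThrough`, with the
hypotheses `hBV`, `hπV`, `harch`, `hVloc` of `rtk6ew_main_two` for a family `V : κ → …`.

* `rtk6lu_ew_cross`       : crossing point (`NodesLocGen 𝔫 {ϖ, X, Y}`, `X Y = w ϖ`,
                            `X ∈ 𝔪(V c₁)`, `Y ∈ 𝔪(V c₂)`, both through `𝔫`):
                            `atThrough 𝔫 (V c) → V c = V c₁ ∨ V c = V c₂`;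
* `rtk6lu_ew_cross_inj`   : … `→ c = c₁ ∨ c = c₂` for an injective family;
* `rtk6lu_ew_smooth`      : smooth point (`NodesLocGen 𝔫 {ϖ, s}`): `atThrough 𝔫 (V c)`,
                            `atThrough 𝔫 (V c') → V c = V c'`;  `rtk6lu_ew_smooth_inj`.
`ϖ` is any element of the chart with `ϖ ≠ 0`, `ϖ ∈ 𝔪(V c)` for all `c` (e.g. `ϖ = π`, or the
uniformizer `ϖ₁` of a smaller base); the node may be thin or thick (no hypothesis on `w`).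
-/
import Fermat.Agent.RT.K6.DGLUniq
import Fermat.Agent.UNIP.AbstractT

set_option autoImplicit false
set_option linter.style.haveILetI false
set_option linter.unusedSectionVars false
set_option linter.unusedVariables false

namespace Fermat.Agent.RT.K6

open Fermat.Agent.INJ Fermat.Agent.UNIP

section EW

variable {A₀ E F : Type*} [CommRing A₀] [IsDomain A₀] [IsDiscreteValuationRing A₀]
  [Field E] [Algebra A₀ E] [IsFractionRing A₀ E] [CharZero E]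
  [Field F] [Algebra E F] [Algebra A₀ F] [IsScalarTower A₀ E F]
  {π : A₀} {κ : Type*}

/-- the inclusion of the chart `B_u` in `F`, as a ring homomorphism -/
def rtk6luVal (u : F) : ↥(zchClosure (A₀ := A₀) ({u} : Set F)) →+* F :=
  (zchClosure (A₀ := A₀) ({u} : Set F)).toSubring.subtype

theorem rtk6luVal_apply (u : F) (b : ↥(zchClosure (A₀ := A₀) ({u} : Set F))) :
    rtk6luVal (A₀ := A₀) u b = (b : F) := rfl

/-- `hVloc` in the form of `DGLUniq.lean` -/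
theorem rtk6lu_ew_loc {u : F} (W : ValuationSubring F)
    (hWloc : ∀ x : F, x ∈ W → ∃ b s : F, IsIntegral ↥(Algebra.adjoin A₀ {u}) b ∧
      IsIntegral ↥(Algebra.adjoin A₀ {u}) s ∧ s ∉ W.nonunits ∧ s * x = b) :
    ∀ x ∈ W, ∃ b s : ↥(zchClosure (A₀ := A₀) ({u} : Set F)),
      rtk6luVal (A₀ := A₀) u s ∉ W.nonunits ∧
        rtk6luVal (A₀ := A₀) u s * x = rtk6luVal (A₀ := A₀) u b := by
  intro x hx
  obtain ⟨b, s, hb, hs, hsW, hsx⟩ := hWloc x hx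
  exact ⟨⟨b, mem_zchClosure.mpr hb⟩, ⟨s, mem_zchClosure.mpr hs⟩, hsW, hsx⟩

/-- **Local uniqueness at a crossing point of the chart `u`.** -/
theorem rtk6lu_ew_cross {u : F} [IsNoetherianRing ↥(zchClosure (A₀ := A₀) ({u} : Set F))]
    (V : κ → ValuationSubring F)
    (hBV : ∀ c (b : F), IsIntegral ↥(Algebra.adjoin A₀ {u}) b → b ∈ V c)
    (harch : ∀ c (a x : F), a ∈ (V c).nonunits → ∃ N : ℕ, a ^ N * x ∈ (V c).nonunits)
    (hVloc : ∀ c (x : F), x ∈ V c → ∃ b s : F, IsIntegral ↥(Algebra.adjoin A₀ {u}) b ∧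
      IsIntegral ↥(Algebra.adjoin A₀ {u}) s ∧ s ∉ (V c).nonunits ∧ s * x = b)
    (𝔫 : AtPt (F := F) π u)
    {ϖ X Y w : ↥(zchClosure (A₀ := A₀) ({u} : Set F))}
    (hϖ0 : (ϖ : F) ≠ 0) (hϖV : ∀ c, (ϖ : F) ∈ (V c).nonunits)
    (hXY : X * Y = w * ϖ) (hgen : NodesLocGen 𝔫.1 {ϖ, X, Y})
    (c₁ c₂ : κ) (hthr₁ : atThrough 𝔫 (V c₁)) (hthr₂ : atThrough 𝔫 (V c₂))
    (hX : (X : F) ∈ (V c₁).nonunits) (hY : (Y : F) ∈ (V c₂).nonunits)
    (c : κ) (hthr : atThrough 𝔫 (V c)) : V c = V c₁ ∨ V c = V c₂ := by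
  haveI : 𝔫.1.IsPrime := 𝔫.2.1.isPrime
  have hB : ∀ c (b : ↥(zchClosure (A₀ := A₀) ({u} : Set F))),
      rtk6luVal (A₀ := A₀) u b ∈ V c := fun c b => hBV c _ (mem_zchClosure.mp b.2)
  exact rtk6lu_cross (rtk6luVal (A₀ := A₀) u) 𝔫.1 hXY hgen (hB c₁) (hB c₂) (hB c)
    (rtk6lu_ew_loc (V c₁) (hVloc c₁)) (rtk6lu_ew_loc (V c₂) (hVloc c₂))
    (rtk6lu_ew_loc (V c) (hVloc c)) (harch c₁) (harch c₂) (harch c)
    hthr₁ hthr₂ hthr hϖ0 (hϖV c₁) (hϖV c₂) (hϖV c) hX hY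

/-- **Local uniqueness at a crossing point, injective family.** -/
theorem rtk6lu_ew_cross_inj {u : F} [IsNoetherianRing ↥(zchClosure (A₀ := A₀) ({u} : Set F))]
    (V : κ → ValuationSubring F) (hinj : Function.Injective V)
    (hBV : ∀ c (b : F), IsIntegral ↥(Algebra.adjoin A₀ {u}) b → b ∈ V c)
    (harch : ∀ c (a x : F), a ∈ (V c).nonunits → ∃ N : ℕ, a ^ N * x ∈ (V c).nonunits)
    (hVloc : ∀ c (x : F), x ∈ V c → ∃ b s : F, IsIntegral ↥(Algebra.adjoin A₀ {u}) b ∧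
      IsIntegral ↥(Algebra.adjoin A₀ {u}) s ∧ s ∉ (V c).nonunits ∧ s * x = b)
    (𝔫 : AtPt (F := F) π u)
    {ϖ X Y w : ↥(zchClosure (A₀ := A₀) ({u} : Set F))}
    (hϖ0 : (ϖ : F) ≠ 0) (hϖV : ∀ c, (ϖ : F) ∈ (V c).nonunits)
    (hXY : X * Y = w * ϖ) (hgen : NodesLocGen 𝔫.1 {ϖ, X, Y})
    (c₁ c₂ : κ) (hthr₁ : atThrough 𝔫 (V c₁)) (hthr₂ : atThrough 𝔫 (V c₂))
    (hX : (X : F) ∈ (V c₁).nonunits) (hY : (Y : F) ∈ (V c₂).nonunits)
    (c : κ) (hthr : atThrough 𝔫 (V c)) : c = c₁ ∨ c = c₂ :=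
  (rtk6lu_ew_cross V hBV harch hVloc 𝔫 hϖ0 hϖV hXY hgen c₁ c₂ hthr₁ hthr₂ hX hY c hthr).imp
    (fun h => hinj h) (fun h => hinj h)

/-- **Local uniqueness at a smooth point of the chart `u`.** -/
theorem rtk6lu_ew_smooth {u : F} [IsNoetherianRing ↥(zchClosure (A₀ := A₀) ({u} : Set F))]
    (V : κ → ValuationSubring F)
    (hBV : ∀ c (b : F), IsIntegral ↥(Algebra.adjoin A₀ {u}) b → b ∈ V c)
    (harch : ∀ c (a x : F), a ∈ (V c).nonunits → ∃ N : ℕ, a ^ N * x ∈ (V c).nonunits)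
    (hVloc : ∀ c (x : F), x ∈ V c → ∃ b s : F, IsIntegral ↥(Algebra.adjoin A₀ {u}) b ∧
      IsIntegral ↥(Algebra.adjoin A₀ {u}) s ∧ s ∉ (V c).nonunits ∧ s * x = b)
    (𝔫 : AtPt (F := F) π u)
    {ϖ s : ↥(zchClosure (A₀ := A₀) ({u} : Set F))}
    (hϖ0 : (ϖ : F) ≠ 0) (hϖV : ∀ c, (ϖ : F) ∈ (V c).nonunits)
    (hs : s ∈ 𝔫.1) (hgen : NodesLocGen 𝔫.1 {ϖ, s})
    (c c' : κ) (hthr : atThrough 𝔫 (V c)) (hthr' : atThrough 𝔫 (V c')) : V c = V c' := by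
  haveI : 𝔫.1.IsPrime := 𝔫.2.1.isPrime
  have hB : ∀ c (b : ↥(zchClosure (A₀ := A₀) ({u} : Set F))),
      rtk6luVal (A₀ := A₀) u b ∈ V c := fun c b => hBV c _ (mem_zchClosure.mp b.2)
  exact rtk6lu_smooth (rtk6luVal (A₀ := A₀) u) 𝔫.1 hs hgen (hB c) (hB c')
    (rtk6lu_ew_loc (V c) (hVloc c)) (rtk6lu_ew_loc (V c') (hVloc c'))
    (harch c) (harch c') hthr hthr' hϖ0 (hϖV c) (hϖV c')

/-- **Local uniqueness at a smooth point, injective family.** -/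
theorem rtk6lu_ew_smooth_inj {u : F} [IsNoetherianRing ↥(zchClosure (A₀ := A₀) ({u} : Set F))]
    (V : κ → ValuationSubring F) (hinj : Function.Injective V)
    (hBV : ∀ c (b : F), IsIntegral ↥(Algebra.adjoin A₀ {u}) b → b ∈ V c)
    (harch : ∀ c (a x : F), a ∈ (V c).nonunits → ∃ N : ℕ, a ^ N * x ∈ (V c).nonunits)
    (hVloc : ∀ c (x : F), x ∈ V c → ∃ b s : F, IsIntegral ↥(Algebra.adjoin A₀ {u}) b ∧
      IsIntegral ↥(Algebra.adjoin A₀ {u}) s ∧ s ∉ (V c).nonunits ∧ s * x = b)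
    (𝔫 : AtPt (F := F) π u)
    {ϖ s : ↥(zchClosure (A₀ := A₀) ({u} : Set F))}
    (hϖ0 : (ϖ : F) ≠ 0) (hϖV : ∀ c, (ϖ : F) ∈ (V c).nonunits)
    (hs : s ∈ 𝔫.1) (hgen : NodesLocGen 𝔫.1 {ϖ, s})
    (c c' : κ) (hthr : atThrough 𝔫 (V c)) (hthr' : atThrough 𝔫 (V c')) : c = c' :=
  hinj (rtk6lu_ew_smooth V hBV harch hVloc 𝔫 hϖ0 hϖV hs hgen c c' hthr hthr')

end EW

end Fermat.Agent.RT.K6
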