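import Fermat.Agent.RT.K6.EWCoord
import Fermat.Agent.STB.MainTwo

/-!
# RT-K6 / E-W, part 2 — (T″) for two components with TWO automorphisms, `g • q = c * q`

Forks of `STB.stb_cross_facAt` (STB/CrossFac.lean), `stb_cp_cross` (STB/CrossPoint.lean),
`stb_mt_hpts_inl`, `stb_mt_hpts_inr`, `stb_mt_hpts`, `stb_main_two` (STB/MainTwo.lean) with

1. TWO maps: `g` (semilinear, in the factorisation `y = g • x / x`; it has to fix the crossing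
   points only: `Rtk6ewFix`) and `Φ` (semilinear, e.g. a linear diamond `δ′` with `Q = 1`; it has
   to satisfy `Φ b ≡ b ^ Q` mod `𝔫` at the crossing points: `Rtk6ewCong`);
2. no hypothesis `g • q = q`: `g` and `g⁻¹` preserve `A₀`, hence `g • q = c * q`
   (`rtk6ew_smul_dvd`); the coordinates `X`, `Y` of the crossing points need not be fixed by `g`
   (it is enough that `g` preserves the two vertical valuations, `hgV`).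

Conclusion of `rtk6ew_main_two`: `Φ y / y ^ Q` is a `p ^ r`-th power, `y = g • x / x` toric.
-/

set_option autoImplicit false
set_option linter.style.haveILetI false
set_option linter.unusedSectionVars false
set_option linter.unusedVariables false

namespace Fermat.Agent.RT.K6

open Polynomial IntermediateField Fermat.Agent.INJ AlgebraicCurve Fermat.Agent.UNIP
  Fermat.Agent.STB

section EWCross

variable {A₀ E F : Type*} [CommRing A₀] [IsDomain A₀] [IsDiscreteValuationRing A₀]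
  [Field E] [Algebra A₀ E] [IsFractionRing A₀ E] [CharZero E]
  [Field F] [Algebra E F] [Algebra A₀ F] [IsScalarTower A₀ E F]
  {π : A₀} {κ : Type*}

/-- **`g` fixes the closed point `𝔫` of the chart `u`**: `g 𝔫 ⊆ 𝔫` and `g⁻¹ 𝔫 ⊆ 𝔫`. -/
def Rtk6ewFix (g : SemilinearAut E F) {u : F} (𝔫 : AtPt (F := F) π u) : Prop :=
  (∀ b : ↥(zchClosure (A₀ := A₀) ({u} : Set F)), b ∈ 𝔫.1 →
    ∃ b' : ↥(zchClosure (A₀ := A₀) ({u} : Set F)), b' ∈ 𝔫.1 ∧ g • (b : F) = b') ∧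
  (∀ b : ↥(zchClosure (A₀ := A₀) ({u} : Set F)), b ∈ 𝔫.1 →
    ∃ b' : ↥(zchClosure (A₀ := A₀) ({u} : Set F)), b' ∈ 𝔫.1 ∧ g⁻¹ • (b : F) = b')

/-- **`Φ b ≡ b ^ Q` mod `𝔫` on the chart `u`** (for `Q = 1`: `Φ` acts trivially on the residue
field of `𝔫`; this contains `Φ 𝔫 ⊆ 𝔫`). -/
def Rtk6ewCong (Φ : F →+* F) (Q : ℕ) {u : F} (𝔫 : AtPt (F := F) π u) : Prop :=
  ∀ b : ↥(zchClosure (A₀ := A₀) ({u} : Set F)),
    ∃ c : ↥(zchClosure (A₀ := A₀) ({u} : Set F)), c ∈ 𝔫.1 ∧ Φ (b : F) = (b : F) ^ Q + (c : F)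

/-- `StbCrossFrob g Q 𝔫` is `Rtk6ewFix g 𝔫` together with `Rtk6ewCong g Q 𝔫`. -/
theorem rtk6ew_crossFrob_iff (g : SemilinearAut E F) (Q : ℕ) {u : F}
    (𝔫 : AtPt (F := F) π u) :
    StbCrossFrob g Q 𝔫 ↔
      Rtk6ewFix g 𝔫 ∧ Rtk6ewCong (SemilinearAut.toRingAut g : F ≃+* F).toRingHom Q 𝔫 :=
  ⟨fun h => ⟨⟨h.1, h.2.1⟩, h.2.2⟩, fun h => ⟨h.1.1, h.1.2, h.2⟩⟩

/-- **(F) at a closed point of the chart `u` fixed by `g`**, in the form `StbFacAt`: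
fork of `STB.stb_cross_facAt` with `g • q = c * q`. -/
theorem rtk6ew_cross_facAt (hπ : Irreducible π) {u : F} (hu : Transcendental E u)
    [FiniteDimensional E⟮u⟯ F] [Finite κ]
    [IsNoetherianRing ↥(zchClosure (A₀ := A₀) ({u} : Set F))]
    (V : κ → ValuationSubring F)
    (hBV : ∀ c (b : F), IsIntegral ↥(Algebra.adjoin A₀ {u}) b → b ∈ V c)
    (hπV : ∀ c, algebraMap A₀ F π ∈ (V c).nonunits)
    (hSS1 : ∀ b : F, IsIntegral ↥(Algebra.adjoin A₀ {u}) b → (∀ c, b ∈ (V c).nonunits) →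
      ∃ b' : F, IsIntegral ↥(Algebra.adjoin A₀ {u}) b' ∧ b = algebraMap A₀ F π * b')
    (hVloc : ∀ c (x : F), x ∈ V c → ∃ b s : F, IsIntegral ↥(Algebra.adjoin A₀ {u}) b ∧
      IsIntegral ↥(Algebra.adjoin A₀ {u}) s ∧ s ∉ (V c).nonunits ∧ s * x = b)
    (g : SemilinearAut E F) (hgu : g • u = u)
    (𝔫 : AtPt (F := F) π u)
    (hgB : ∀ b : ↥(zchClosure (A₀ := A₀) ({u} : Set F)), b ∈ 𝔫.1 →
      ∃ b' : ↥(zchClosure (A₀ := A₀) ({u} : Set F)), b' ∈ 𝔫.1 ∧ g • (b : F) = b')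
    (hgB' : ∀ b : ↥(zchClosure (A₀ := A₀) ({u} : Set F)), b ∈ 𝔫.1 →
      ∃ b' : ↥(zchClosure (A₀ := A₀) ({u} : Set F)), b' ∈ 𝔫.1 ∧ g⁻¹ • (b : F) = b')
    (hgB₀ : ∀ b : F, IsIntegral ↥(Algebra.adjoin A₀ {u}) b →
      IsIntegral ↥(Algebra.adjoin A₀ {u}) (g • b))
    (hgB₀' : ∀ b : F, IsIntegral ↥(Algebra.adjoin A₀ {u}) b →
      IsIntegral ↥(Algebra.adjoin A₀ {u}) (g⁻¹ • b))
    (hgV : ∀ c (f : F), f ≠ 0 → (V c).valuation (g • f / f) = 1)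
    (hgA : ∀ α : A₀, ∃ α' : A₀, g • algebraMap A₀ F α = algebraMap A₀ F α')
    (q : A₀) (hq0 : q ≠ 0) (hqπ : π ∣ q) (hgq : ∃ c : A₀, g • algebraMap A₀ F q = algebraMap A₀ F (c * q))
    {R : Type*} [CommRing R] (j : R →+* ↥(zchClosure (A₀ := A₀) ({u} : Set F))) (p : R)
    (hram : MgcRamified j (algebraMap A₀ ↥(zchClosure (A₀ := A₀) ({u} : Set F)) π) p)
    (hjp : j p = algebraMap A₀ ↥(zchClosure (A₀ := A₀) ({u} : Set F)) q)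
    (c₁ c₂ : κ) (hκ : ∀ c, c = c₁ ∨ c = c₂)
    (hnode : (∃ s : R, j s ∈ 𝔫.1 ∧ NodesLocGen (𝔫.1.comap j) {p, s}) ∨
      ((∀ x : R, ((j x : ↥(zchClosure (A₀ := A₀) ({u} : Set F))) : F) ∈ (V c₁).nonunits →
          j x ∈ 𝔫.1) ∧
       (∀ x : R, ((j x : ↥(zchClosure (A₀ := A₀) ({u} : Set F))) : F) ∈ (V c₂).nonunits →
          j x ∈ 𝔫.1) ∧
       ∃ X Y : R, ((j X : ↥(zchClosure (A₀ := A₀) ({u} : Set F))) : F) ∈ (V c₁).nonunits ∧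
         ((j Y : ↥(zchClosure (A₀ := A₀) ({u} : Set F))) : F) ∈ (V c₂).nonunits ∧
         NodesLocGen (𝔫.1.comap j) {p, X, Y}))
    {x : F} (hx : x ≠ 0) (m : ℕ)
    (hfin : {P : Place E F | LsTube ↥(zchClosure (A₀ := A₀) ({u} : Set F)) u 𝔫.1 P ∧
      g • P ≠ P ∧ P.ord x ≠ 0}.Finite)
    (hm : ∀ P : Place E F, LsTube ↥(zchClosure (A₀ := A₀) ({u} : Set F)) u 𝔫.1 P → g • P ≠ P →
      (m : ℤ) ∣ P.ord x)
    (hrat : ∀ P : Place E F, LsTube ↥(zchClosure (A₀ := A₀) ({u} : Set F)) u 𝔫.1 P →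
      g • P ≠ P → P.ord x ≠ 0 → ∀ f ∈ P.toValuationSubring,
        ∃ c : E, f - algebraMap E F c ∈ P.toValuationSubring.nonunits) :
    StbFacAt (atLoc 𝔫) m (g • x / x) := by
  haveI := 𝔫.2.1.isPrime
  obtain ⟨g₀, e, hg₀, he, he', h⟩ := at_local_factor hπ hu V hBV hπV hSS1 hVloc g hgu 𝔫.1 hgB hgB'
    hgB₀ hgB₀' hgV hx m hfin hm
    (rtk6ew_hcoord_of_nodes hπ hu V hBV hπV hSS1 hVloc g hgu 𝔫.1 𝔫.2.2 hgB hgB₀' hgV hgA q hq0 hqπ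
      hgq j p hram hjp c₁ c₂ hκ hnode hrat)
  obtain ⟨-, hform⟩ := stb_factor_form g hx hg₀ m h
  exact stb_facAt_of_mem _ (stb_smul_div_ne_zero g hx) he he' hform

/-- **Fork of `STB.stb_cp_cross` with TWO maps.**  The hypotheses `StbCross` of
`stb_main_points` at a crossing point `𝔫` of the chart `u` fixed by `g`, for `y = g • x / x` and
ANY ring endomorphism `Φ` with `Φ b ≡ b ^ Q` mod `𝔫` on the chart (`hfrobB`), from the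
crossing datum of U5 on the unramified chart (`hthr₁ … hgen`), the Frobenius congruence on the
chart (`hfrobB`, STB-X) and the local factor (`stb_cross_facAt`, STB-L). -/
theorem rtk6ew_cp_cross (hπ : Irreducible π) {u : F} (hu : Transcendental E u)
    [FiniteDimensional E⟮u⟯ F] [Finite κ]
    [IsNoetherianRing ↥(zchClosure (A₀ := A₀) ({u} : Set F))]
    (V : κ → ValuationSubring F)
    (hBV : ∀ c (b : F), IsIntegral ↥(Algebra.adjoin A₀ {u}) b → b ∈ V c)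
    (hπV : ∀ c, algebraMap A₀ F π ∈ (V c).nonunits)
    (hSS1 : ∀ b : F, IsIntegral ↥(Algebra.adjoin A₀ {u}) b → (∀ c, b ∈ (V c).nonunits) →
      ∃ b' : F, IsIntegral ↥(Algebra.adjoin A₀ {u}) b' ∧ b = algebraMap A₀ F π * b')
    (hVloc : ∀ c (x : F), x ∈ V c → ∃ b s : F, IsIntegral ↥(Algebra.adjoin A₀ {u}) b ∧
      IsIntegral ↥(Algebra.adjoin A₀ {u}) s ∧ s ∉ (V c).nonunits ∧ s * x = b)
    (g : SemilinearAut E F) (hgu : g • u = u)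
    (𝔫 : AtPt (F := F) π u)
    (hgB : ∀ b : ↥(zchClosure (A₀ := A₀) ({u} : Set F)), b ∈ 𝔫.1 →
      ∃ b' : ↥(zchClosure (A₀ := A₀) ({u} : Set F)), b' ∈ 𝔫.1 ∧ g • (b : F) = b')
    (hgB' : ∀ b : ↥(zchClosure (A₀ := A₀) ({u} : Set F)), b ∈ 𝔫.1 →
      ∃ b' : ↥(zchClosure (A₀ := A₀) ({u} : Set F)), b' ∈ 𝔫.1 ∧ g⁻¹ • (b : F) = b')
    (hgB₀ : ∀ b : F, IsIntegral ↥(Algebra.adjoin A₀ {u}) b →
      IsIntegral ↥(Algebra.adjoin A₀ {u}) (g • b))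
    (hgB₀' : ∀ b : F, IsIntegral ↥(Algebra.adjoin A₀ {u}) b →
      IsIntegral ↥(Algebra.adjoin A₀ {u}) (g⁻¹ • b))
    (hgV : ∀ c (f : F), f ≠ 0 → (V c).valuation (g • f / f) = 1)
    (hgA : ∀ α : A₀, ∃ α' : A₀, g • algebraMap A₀ F α = algebraMap A₀ F α')
    (q : A₀) (hq0 : q ≠ 0) (hqπ : π ∣ q) (hgq : ∃ c : A₀, g • algebraMap A₀ F q = algebraMap A₀ F (c * q))
    {R : Type*} [CommRing R] (j : R →+* ↥(zchClosure (A₀ := A₀) ({u} : Set F))) (p : R)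
    (hram : MgcRamified j (algebraMap A₀ ↥(zchClosure (A₀ := A₀) ({u} : Set F)) π) p)
    (hjp : j p = algebraMap A₀ ↥(zchClosure (A₀ := A₀) ({u} : Set F)) q)
    (c₁ c₂ : κ) (hκ : ∀ c, c = c₁ ∨ c = c₂)
    (hthr₁ : ∀ x : R, ((j x : ↥(zchClosure (A₀ := A₀) ({u} : Set F))) : F) ∈ (V c₁).nonunits → j x ∈ 𝔫.1)
    (hthr₂ : ∀ x : R, ((j x : ↥(zchClosure (A₀ := A₀) ({u} : Set F))) : F) ∈ (V c₂).nonunits → j x ∈ 𝔫.1)
    (X Y : R) (hX : ((j X : ↥(zchClosure (A₀ := A₀) ({u} : Set F))) : F) ∈ (V c₁).nonunits)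
    (hY : ((j Y : ↥(zchClosure (A₀ := A₀) ({u} : Set F))) : F) ∈ (V c₂).nonunits)
    (hgen : NodesLocGen (𝔫.1.comap j) {p, X, Y})
    (Φ : F →+* F) (Q : ℕ)
    (hfrobB : ∀ b : ↥(zchClosure (A₀ := A₀) ({u} : Set F)), ∃ c : ↥(zchClosure (A₀ := A₀) ({u} : Set F)), c ∈ 𝔫.1 ∧ Φ (b : F) = (b : F) ^ Q + (c : F))
    {x : F} (hx : x ≠ 0) (m : ℕ)
    (hfin : {P : Place E F | LsTube ↥(zchClosure (A₀ := A₀) ({u} : Set F)) u 𝔫.1 P ∧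
      g • P ≠ P ∧ P.ord x ≠ 0}.Finite)
    (hm : ∀ P : Place E F, LsTube ↥(zchClosure (A₀ := A₀) ({u} : Set F)) u 𝔫.1 P → g • P ≠ P →
      (m : ℤ) ∣ P.ord x)
    (hrat : ∀ P : Place E F, LsTube ↥(zchClosure (A₀ := A₀) ({u} : Set F)) u 𝔫.1 P →
      g • P ≠ P → P.ord x ≠ 0 → ∀ f ∈ P.toValuationSubring,
        ∃ c : E, f - algebraMap E F c ∈ P.toValuationSubring.nonunits) :
    atThrough 𝔫 (V c₁) ∧ atThrough 𝔫 (V c₂) ∧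
      StbCross (atLoc 𝔫) (V c₁) (V c₂) Φ Q m (g • x / x) := by
  haveI := 𝔫.2.1.isPrime
  have hT₁ : atThrough 𝔫 (V c₁) := stb_cp_through (V c₁) (hBV c₁) (hπV c₁) 𝔫 j p hram hthr₁
  have hT₂ : atThrough 𝔫 (V c₂) := stb_cp_through (V c₂) (hBV c₂) (hπV c₂) 𝔫 j p hram hthr₂
  have hG := stb_cp_locGen 𝔫 j p hram X Y hgen
  refine ⟨hT₁, hT₂, ?_, ?_, ?_, ?_, ?_⟩
  · exact stb_cp_sum (V c₁) (V c₂) (hBV c₁) (hBV c₂) (hπV c₁) 𝔫 hT₁ hT₂ (j X) (j Y) hX hY hG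
  · exact stb_cp_res₁ (V c₁) (hBV c₁) (hπV c₁) (hVloc c₁) 𝔫 hT₁ (j X) (j Y) hX (hT₂ _ hY) hG
  · exact stb_cp_res₂ (V c₂) (hBV c₂) (hπV c₂) (hVloc c₂) 𝔫 hT₂ (j X) (j Y) (hT₁ _ hX) hY hG
  · exact stb_cp_frob 𝔫 Φ Q hfrobB
  · exact rtk6ew_cross_facAt hπ hu V hBV hπV hSS1 hVloc g hgu 𝔫 hgB hgB' hgB₀ hgB₀' hgV hgA q hq0
      hqπ hgq j p hram hjp c₁ c₂ hκ (Or.inr ⟨hthr₁, hthr₂, X, Y, hX, hY, hgen⟩) hx m hfin hm hrat

/-- **Chart `t`**: the hypothesis `hpts (Sum.inl 𝔫)` of `stb_main_points` for `y = g • x / x`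
and the map `Φ`, from the dichotomy of U5 at `𝔫`; at the crossing points `g` fixes `𝔫` and
`Φ b ≡ b ^ Q` mod `𝔫`.  Fork of `STB.stb_mt_hpts_inl`. -/
theorem rtk6ew_hpts_inl (hπ : Irreducible π) {t : F} (ht : Transcendental E t)
    [FiniteDimensional E⟮t⟯ F] [Finite κ]
    [IsNoetherianRing ↥(zchClosure (A₀ := A₀) ({t} : Set F))]
    (V : κ → ValuationSubring F) (c₁ c₂ : κ) (hκ : ∀ c, c = c₁ ∨ c = c₂) (hne : V c₁ ≠ V c₂)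
    (hBV : ∀ c (b : F), IsIntegral ↥(Algebra.adjoin A₀ {t}) b → b ∈ V c)
    (hπV : ∀ c, algebraMap A₀ F π ∈ (V c).nonunits)
    (hSS1 : ∀ b : F, IsIntegral ↥(Algebra.adjoin A₀ {t}) b → (∀ c, b ∈ (V c).nonunits) →
      ∃ b' : F, IsIntegral ↥(Algebra.adjoin A₀ {t}) b' ∧ b = algebraMap A₀ F π * b')
    (harch : ∀ c (a x : F), a ∈ (V c).nonunits → ∃ N : ℕ, a ^ N * x ∈ (V c).nonunits)
    (hVloc : ∀ c (x : F), x ∈ V c → ∃ b s : F, IsIntegral ↥(Algebra.adjoin A₀ {t}) b ∧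
      IsIntegral ↥(Algebra.adjoin A₀ {t}) s ∧ s ∉ (V c).nonunits ∧ s * x = b)
    (g : SemilinearAut E F) (hgu : g • t = t)
    (hgV : ∀ c (f : F), f ≠ 0 → (V c).valuation (g • f / f) = 1)
    (hgA : ∀ α : A₀, ∃ α' : A₀, g • algebraMap A₀ F α = algebraMap A₀ F α')
    (hgA' : ∀ α : A₀, ∃ α' : A₀, g⁻¹ • algebraMap A₀ F α = algebraMap A₀ F α')
    (Φ : SemilinearAut E F) (hΦu : Φ • t = t)
    (hΦV : ∀ c (f : F), f ≠ 0 → (V c).valuation (Φ • f / f) = 1)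
    (hΦA : ∀ α : A₀, ∃ α' : A₀, Φ • algebraMap A₀ F α = algebraMap A₀ F α')
    (hΦA' : ∀ α : A₀, ∃ α' : A₀, Φ⁻¹ • algebraMap A₀ F α = algebraMap A₀ F α')
    (q : A₀) (hq0 : q ≠ 0) (hqπ : π ∣ q)
    {R : Type*} [CommRing R] (j : R →+* ↥(zchClosure (A₀ := A₀) ({t} : Set F))) (p : R)
    (hram : MgcRamified j (algebraMap A₀ ↥(zchClosure (A₀ := A₀) ({t} : Set F)) π) p)
    (hjp : j p = algebraMap A₀ ↥(zchClosure (A₀ := A₀) ({t} : Set F)) q)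
    (𝔫 : AtPt (F := F) π t)
    (hnode : StbNodeAt (V c₁) (V c₂) 𝔫 j p)
    (Q : ℕ)
    (hfix : atThrough 𝔫 (V c₁) → atThrough 𝔫 (V c₂) → Rtk6ewFix g 𝔫)
    (Φ' : F →+* F) (hΦ' : ∀ x : F, Φ' x = Φ • x)
    (hcong : atThrough 𝔫 (V c₁) → atThrough 𝔫 (V c₂) → Rtk6ewCong Φ' Q 𝔫)
    {x : F} (hx : x ≠ 0) (m : ℕ)
    (hfin : {P : Place E F | P.ord x ≠ 0}.Finite)
    (hm : ∀ P : Place E F, (m : ℤ) ∣ P.ord x)
    (hrat : ∀ P : Place E F, P.ord x ≠ 0 → ∀ f ∈ P.toValuationSubring,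
      ∃ c : E, f - algebraMap E F c ∈ P.toValuationSubring.nonunits)
    (tt : κ → F) (htoric : ∀ c, (g • x / x) / tt c ^ m - 1 ∈ (V c).nonunits) :
    (atInc π t V (Sum.inl 𝔫) c₁ ∧ atInc π t V (Sum.inl 𝔫) c₂ ∧
      StbCross (atO π t (Sum.inl 𝔫)) (V c₁) (V c₂) Φ' Q m (g • x / x)) ∨
    (∃ c, atInc π t V (Sum.inl 𝔫) c ∧ (∀ c', atInc π t V (Sum.inl 𝔫) c' → c' = c) ∧
      ∃ i₁ : AtPt (F := F) π t ⊕ AtPt (F := F) π t⁻¹, atInc π t V i₁ c ∧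
        StbSmooth (atO π t (Sum.inl 𝔫)) (atO π t i₁) (V c) Φ' m (g • x / x)) := by
  have hΦeq : Φ' = (SemilinearAut.toRingAut Φ : F ≃+* F).toRingHom := RingHom.ext hΦ'
  subst hΦeq
  have hgB₀ : ∀ b : F, IsIntegral ↥(Algebra.adjoin A₀ {t}) b →
      IsIntegral ↥(Algebra.adjoin A₀ {t}) (g • b) :=
    fun b hb => stb_mt_isIntegral_smul g hgu hgA hb
  have hgu' : g⁻¹ • t = t := by
    conv_lhs => rw [← hgu]
    rw [inv_smul_smul]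
  have hgB₀' : ∀ b : F, IsIntegral ↥(Algebra.adjoin A₀ {t}) b →
      IsIntegral ↥(Algebra.adjoin A₀ {t}) (g⁻¹ • b) :=
    fun b hb => stb_mt_isIntegral_smul g⁻¹ hgu' hgA' hb
  have hΦB₀ : ∀ b : F, IsIntegral ↥(Algebra.adjoin A₀ {t}) b →
      IsIntegral ↥(Algebra.adjoin A₀ {t}) (Φ • b) :=
    fun b hb => stb_mt_isIntegral_smul Φ hΦu hΦA hb
  have hΦu' : Φ⁻¹ • t = t := by
    conv_lhs => rw [← hΦu]
    rw [inv_smul_smul]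
  have hΦB₀' : ∀ b : F, IsIntegral ↥(Algebra.adjoin A₀ {t}) b →
      IsIntegral ↥(Algebra.adjoin A₀ {t}) (Φ⁻¹ • b) :=
    fun b hb => stb_mt_isIntegral_smul Φ⁻¹ hΦu' hΦA' hb
  rcases hnode with ⟨s, hs, hgen⟩ | ⟨hthr₁, hthr₂, X, Y, hX, hY, hgen⟩
  · -- smooth point
    right
    have hne' : ∀ c c', c ≠ c' → V c ≠ V c' := by
      intro c c' hcc' h
      rcases hκ c with rfl | rfl <;> rcases hκ c' with rfl | rfl
      · exact hcc' rfl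
      · exact hne h
      · exact hne h.symm
      · exact hcc' rfl
    have hyfin : ∀ 𝔫' : AtPt (F := F) π t, {P : Place E F |
        LsTube ↥(zchClosure (A₀ := A₀) ({t} : Set F)) t 𝔫'.1 P ∧
          P.ord (g • x / x) ≠ 0}.Finite := by
      intro 𝔫'
      have h2 : {P : Place E F | (g⁻¹ • P).ord x ≠ 0}.Finite := by
        have := hfin.image (fun P : Place E F => g • P)
        refine this.subset ?_
        intro P hP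
        exact ⟨g⁻¹ • P, hP, smul_inv_smul g P⟩
      refine (hfin.union h2).subset ?_
      rintro P ⟨-, hP⟩
      rw [stb_mt_ord_div g P hx] at hP
      by_contra hcon
      rw [Set.mem_union, not_or] at hcon
      have h3 : P.ord x = 0 := not_not.mp hcon.1
      have h4 : (g⁻¹ • P).ord x = 0 := not_not.mp hcon.2
      exact hP (by rw [h3, h4, sub_zero])
    have hym : ∀ 𝔫' : AtPt (F := F) π t, ∀ P : Place E F,
        LsTube ↥(zchClosure (A₀ := A₀) ({t} : Set F)) t 𝔫'.1 P →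
          (m : ℤ) ∣ P.ord (g • x / x) := by
      intro 𝔫' P _
      rw [stb_mt_ord_div g P hx]
      exact dvd_sub (hm _) (hm _)
    have hyrat : ∀ 𝔫' : AtPt (F := F) π t, ∀ P : Place E F,
        LsTube ↥(zchClosure (A₀ := A₀) ({t} : Set F)) t 𝔫'.1 P → P.ord (g • x / x) ≠ 0 →
        ∀ f ∈ P.toValuationSubring,
          ∃ c : E, f - algebraMap E F c ∈ P.toValuationSubring.nonunits := by
      intro 𝔫' P _ hP
      by_cases h3 : P.ord x = 0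
      · have h4 : (g⁻¹ • P).ord x ≠ 0 := by
          intro h4
          rw [stb_mt_ord_div g P hx, h3, h4, sub_zero] at hP
          exact hP rfl
        have := stb_mt_rat_smul g (g⁻¹ • P) (hrat _ h4)
        rwa [smul_inv_smul] at this
      · exact hrat P h3
    exact stb_sx_hpts_inl hπ ht V hBV hπV hSS1 hVloc hne' harch (SemilinearAut.toRingAut Φ)
      hΦB₀ hΦB₀'
      (stb_st_map_pi E hπ (SemilinearAut.toRingAut Φ) hΦA hΦA')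
      (stb_st_map_pi E hπ (SemilinearAut.toRingAut Φ).symm hΦA' hΦA)
      (fun c x hx' => stb_mt_map_nonunits Φ (V c) (hΦV c) hx')
      (fun c x hx' => stb_mt_map_nonunits Φ⁻¹ (V c) (stb_mt_inv_valuation Φ (V c) (hΦV c)) hx')
      𝔫 (j s) hs (hram.mgg_locGen_pair 𝔫.2.2 s hgen) m tt htoric hyfin hym hyrat
  · -- crossing point
    left
    have hT₁ : atThrough 𝔫 (V c₁) := stb_cp_through (V c₁) (hBV c₁) (hπV c₁) 𝔫 j p hram hthr₁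
    have hT₂ : atThrough 𝔫 (V c₂) := stb_cp_through (V c₂) (hBV c₂) (hπV c₂) 𝔫 j p hram hthr₂
    obtain ⟨hgB, hgB'⟩ := hfix hT₁ hT₂
    exact rtk6ew_cp_cross hπ ht V hBV hπV hSS1 hVloc g hgu 𝔫 hgB hgB' hgB₀ hgB₀' hgV hgA
      q hq0 hqπ (rtk6ew_smul_dvd g hgA hgA' q) j p hram hjp c₁ c₂ hκ hthr₁ hthr₂ X Y hX hY hgen
      (SemilinearAut.toRingAut Φ : F ≃+* F).toRingHom Q (hcong hT₁ hT₂) hx m
      (hfin.subset fun P hP => hP.2.2) (fun P _ _ => hm P) (fun P _ _ hP => hrat P hP)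

/-- **Chart `t⁻¹`**: the hypothesis `hpts (Sum.inr 𝔫)` of `stb_main_points` for `y = g • x / x`
and the map `Φ`, from the dichotomy of U5 at `𝔫`; at the crossing points `g` fixes `𝔫` and
`Φ b ≡ b ^ Q` mod `𝔫`.  Fork of `STB.stb_mt_hpts_inr`. -/
theorem rtk6ew_hpts_inr (hπ : Irreducible π) {t : F} (ht' : Transcendental E t⁻¹)
    [FiniteDimensional E⟮t⁻¹⟯ F] [Finite κ]
    [IsNoetherianRing ↥(zchClosure (A₀ := A₀) ({t⁻¹} : Set F))]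
    (V : κ → ValuationSubring F) (c₁ c₂ : κ) (hκ : ∀ c, c = c₁ ∨ c = c₂) (hne : V c₁ ≠ V c₂)
    (hBV : ∀ c (b : F), IsIntegral ↥(Algebra.adjoin A₀ {t⁻¹}) b → b ∈ V c)
    (hπV : ∀ c, algebraMap A₀ F π ∈ (V c).nonunits)
    (hSS1 : ∀ b : F, IsIntegral ↥(Algebra.adjoin A₀ {t⁻¹}) b → (∀ c, b ∈ (V c).nonunits) →
      ∃ b' : F, IsIntegral ↥(Algebra.adjoin A₀ {t⁻¹}) b' ∧ b = algebraMap A₀ F π * b')
    (harch : ∀ c (a x : F), a ∈ (V c).nonunits → ∃ N : ℕ, a ^ N * x ∈ (V c).nonunits)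
    (hVloc : ∀ c (x : F), x ∈ V c → ∃ b s : F, IsIntegral ↥(Algebra.adjoin A₀ {t⁻¹}) b ∧
      IsIntegral ↥(Algebra.adjoin A₀ {t⁻¹}) s ∧ s ∉ (V c).nonunits ∧ s * x = b)
    (g : SemilinearAut E F) (hgu : g • t⁻¹ = t⁻¹)
    (hgV : ∀ c (f : F), f ≠ 0 → (V c).valuation (g • f / f) = 1)
    (hgA : ∀ α : A₀, ∃ α' : A₀, g • algebraMap A₀ F α = algebraMap A₀ F α')
    (hgA' : ∀ α : A₀, ∃ α' : A₀, g⁻¹ • algebraMap A₀ F α = algebraMap A₀ F α')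
    (Φ : SemilinearAut E F) (hΦu : Φ • t⁻¹ = t⁻¹)
    (hΦV : ∀ c (f : F), f ≠ 0 → (V c).valuation (Φ • f / f) = 1)
    (hΦA : ∀ α : A₀, ∃ α' : A₀, Φ • algebraMap A₀ F α = algebraMap A₀ F α')
    (hΦA' : ∀ α : A₀, ∃ α' : A₀, Φ⁻¹ • algebraMap A₀ F α = algebraMap A₀ F α')
    (q : A₀) (hq0 : q ≠ 0) (hqπ : π ∣ q)
    {R : Type*} [CommRing R] (j : R →+* ↥(zchClosure (A₀ := A₀) ({t⁻¹} : Set F))) (p : R)
    (hram : MgcRamified j (algebraMap A₀ ↥(zchClosure (A₀ := A₀) ({t⁻¹} : Set F)) π) p)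
    (hjp : j p = algebraMap A₀ ↥(zchClosure (A₀ := A₀) ({t⁻¹} : Set F)) q)
    (𝔫 : AtPt (F := F) π t⁻¹)
    (hnode : StbNodeAt (V c₁) (V c₂) 𝔫 j p)
    (Q : ℕ)
    (hfix : atThrough 𝔫 (V c₁) → atThrough 𝔫 (V c₂) → Rtk6ewFix g 𝔫)
    (Φ' : F →+* F) (hΦ' : ∀ x : F, Φ' x = Φ • x)
    (hcong : atThrough 𝔫 (V c₁) → atThrough 𝔫 (V c₂) → Rtk6ewCong Φ' Q 𝔫)
    {x : F} (hx : x ≠ 0) (m : ℕ)
    (hfin : {P : Place E F | P.ord x ≠ 0}.Finite)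
    (hm : ∀ P : Place E F, (m : ℤ) ∣ P.ord x)
    (hrat : ∀ P : Place E F, P.ord x ≠ 0 → ∀ f ∈ P.toValuationSubring,
      ∃ c : E, f - algebraMap E F c ∈ P.toValuationSubring.nonunits)
    (tt : κ → F) (htoric : ∀ c, (g • x / x) / tt c ^ m - 1 ∈ (V c).nonunits) :
    (atInc π t V (Sum.inr 𝔫) c₁ ∧ atInc π t V (Sum.inr 𝔫) c₂ ∧
      StbCross (atO π t (Sum.inr 𝔫)) (V c₁) (V c₂) Φ' Q m (g • x / x)) ∨
    (∃ c, atInc π t V (Sum.inr 𝔫) c ∧ (∀ c', atInc π t V (Sum.inr 𝔫) c' → c' = c) ∧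
      ∃ i₁ : AtPt (F := F) π t ⊕ AtPt (F := F) π t⁻¹, atInc π t V i₁ c ∧
        StbSmooth (atO π t (Sum.inr 𝔫)) (atO π t i₁) (V c) Φ' m (g • x / x)) := by
  have hΦeq : Φ' = (SemilinearAut.toRingAut Φ : F ≃+* F).toRingHom := RingHom.ext hΦ'
  subst hΦeq
  have hgB₀ : ∀ b : F, IsIntegral ↥(Algebra.adjoin A₀ {t⁻¹}) b →
      IsIntegral ↥(Algebra.adjoin A₀ {t⁻¹}) (g • b) :=
    fun b hb => stb_mt_isIntegral_smul g hgu hgA hb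
  have hgu' : g⁻¹ • t⁻¹ = t⁻¹ := by
    conv_lhs => rw [← hgu]
    rw [inv_smul_smul]
  have hgB₀' : ∀ b : F, IsIntegral ↥(Algebra.adjoin A₀ {t⁻¹}) b →
      IsIntegral ↥(Algebra.adjoin A₀ {t⁻¹}) (g⁻¹ • b) :=
    fun b hb => stb_mt_isIntegral_smul g⁻¹ hgu' hgA' hb
  have hΦB₀ : ∀ b : F, IsIntegral ↥(Algebra.adjoin A₀ {t⁻¹}) b →
      IsIntegral ↥(Algebra.adjoin A₀ {t⁻¹}) (Φ • b) :=
    fun b hb => stb_mt_isIntegral_smul Φ hΦu hΦA hb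
  have hΦu' : Φ⁻¹ • t⁻¹ = t⁻¹ := by
    conv_lhs => rw [← hΦu]
    rw [inv_smul_smul]
  have hΦB₀' : ∀ b : F, IsIntegral ↥(Algebra.adjoin A₀ {t⁻¹}) b →
      IsIntegral ↥(Algebra.adjoin A₀ {t⁻¹}) (Φ⁻¹ • b) :=
    fun b hb => stb_mt_isIntegral_smul Φ⁻¹ hΦu' hΦA' hb
  rcases hnode with ⟨s, hs, hgen⟩ | ⟨hthr₁, hthr₂, X, Y, hX, hY, hgen⟩
  · -- smooth point
    right
    have hne' : ∀ c c', c ≠ c' → V c ≠ V c' := by
      intro c c' hcc' h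
      rcases hκ c with rfl | rfl <;> rcases hκ c' with rfl | rfl
      · exact hcc' rfl
      · exact hne h
      · exact hne h.symm
      · exact hcc' rfl
    have hyfin : ∀ 𝔫' : AtPt (F := F) π t⁻¹, {P : Place E F |
        LsTube ↥(zchClosure (A₀ := A₀) ({t⁻¹} : Set F)) t⁻¹ 𝔫'.1 P ∧
          P.ord (g • x / x) ≠ 0}.Finite := by
      intro 𝔫'
      have h2 : {P : Place E F | (g⁻¹ • P).ord x ≠ 0}.Finite := by
        have := hfin.image (fun P : Place E F => g • P)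
        refine this.subset ?_
        intro P hP
        exact ⟨g⁻¹ • P, hP, smul_inv_smul g P⟩
      refine (hfin.union h2).subset ?_
      rintro P ⟨-, hP⟩
      rw [stb_mt_ord_div g P hx] at hP
      by_contra hcon
      rw [Set.mem_union, not_or] at hcon
      have h3 : P.ord x = 0 := not_not.mp hcon.1
      have h4 : (g⁻¹ • P).ord x = 0 := not_not.mp hcon.2
      exact hP (by rw [h3, h4, sub_zero])
    have hym : ∀ 𝔫' : AtPt (F := F) π t⁻¹, ∀ P : Place E F,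
        LsTube ↥(zchClosure (A₀ := A₀) ({t⁻¹} : Set F)) t⁻¹ 𝔫'.1 P →
          (m : ℤ) ∣ P.ord (g • x / x) := by
      intro 𝔫' P _
      rw [stb_mt_ord_div g P hx]
      exact dvd_sub (hm _) (hm _)
    have hyrat : ∀ 𝔫' : AtPt (F := F) π t⁻¹, ∀ P : Place E F,
        LsTube ↥(zchClosure (A₀ := A₀) ({t⁻¹} : Set F)) t⁻¹ 𝔫'.1 P → P.ord (g • x / x) ≠ 0 →
        ∀ f ∈ P.toValuationSubring,
          ∃ c : E, f - algebraMap E F c ∈ P.toValuationSubring.nonunits := by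
      intro 𝔫' P _ hP
      by_cases h3 : P.ord x = 0
      · have h4 : (g⁻¹ • P).ord x ≠ 0 := by
          intro h4
          rw [stb_mt_ord_div g P hx, h3, h4, sub_zero] at hP
          exact hP rfl
        have := stb_mt_rat_smul g (g⁻¹ • P) (hrat _ h4)
        rwa [smul_inv_smul] at this
      · exact hrat P h3
    exact stb_sx_hpts_inr hπ ht' V hBV hπV hSS1 hVloc hne' harch (SemilinearAut.toRingAut Φ)
      hΦB₀ hΦB₀'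
      (stb_st_map_pi E hπ (SemilinearAut.toRingAut Φ) hΦA hΦA')
      (stb_st_map_pi E hπ (SemilinearAut.toRingAut Φ).symm hΦA' hΦA)
      (fun c x hx' => stb_mt_map_nonunits Φ (V c) (hΦV c) hx')
      (fun c x hx' => stb_mt_map_nonunits Φ⁻¹ (V c) (stb_mt_inv_valuation Φ (V c) (hΦV c)) hx')
      𝔫 (j s) hs (hram.mgg_locGen_pair 𝔫.2.2 s hgen) m tt htoric hyfin hym hyrat
  · -- crossing point
    left
    have hT₁ : atThrough 𝔫 (V c₁) := stb_cp_through (V c₁) (hBV c₁) (hπV c₁) 𝔫 j p hram hthr₁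
    have hT₂ : atThrough 𝔫 (V c₂) := stb_cp_through (V c₂) (hBV c₂) (hπV c₂) 𝔫 j p hram hthr₂
    obtain ⟨hgB, hgB'⟩ := hfix hT₁ hT₂
    exact rtk6ew_cp_cross hπ ht' V hBV hπV hSS1 hVloc g hgu 𝔫 hgB hgB' hgB₀ hgB₀' hgV hgA
      q hq0 hqπ (rtk6ew_smul_dvd g hgA hgA' q) j p hram hjp c₁ c₂ hκ hthr₁ hthr₂ X Y hX hY hgen
      (SemilinearAut.toRingAut Φ : F ≃+* F).toRingHom Q (hcong hT₁ hT₂) hx m
      (hfin.subset fun P hP => hP.2.2) (fun P _ _ => hm P) (fun P _ _ hP => hrat P hP)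

/-- **The hypothesis `hpts` of `stb_main_points`** (all closed points of both charts) for
`y = g • x / x` and the map `Φ`.  Fork of `STB.stb_mt_hpts`. -/
theorem rtk6ew_hpts (hπ : Irreducible π) {t : F} (ht : Transcendental E t)
    [FiniteDimensional E⟮t⟯ F] [Finite κ]
    [IsNoetherianRing ↥(zchClosure (A₀ := A₀) ({t} : Set F))]
    [IsNoetherianRing ↥(zchClosure (A₀ := A₀) ({t⁻¹} : Set F))]
    (V : κ → ValuationSubring F) (c₁ c₂ : κ) (hκ : ∀ c, c = c₁ ∨ c = c₂) (hne : V c₁ ≠ V c₂)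
    (hBV₁ : ∀ c (b : F), IsIntegral ↥(Algebra.adjoin A₀ {t}) b → b ∈ V c)
    (hBV₂ : ∀ c (b : F), IsIntegral ↥(Algebra.adjoin A₀ {t⁻¹}) b → b ∈ V c)
    (hπV : ∀ c, algebraMap A₀ F π ∈ (V c).nonunits)
    (hSS1 : ∀ b : F, IsIntegral ↥(Algebra.adjoin A₀ {t}) b → (∀ c, b ∈ (V c).nonunits) →
      ∃ b' : F, IsIntegral ↥(Algebra.adjoin A₀ {t}) b' ∧ b = algebraMap A₀ F π * b')
    (harch : ∀ c (a x : F), a ∈ (V c).nonunits → ∃ N : ℕ, a ^ N * x ∈ (V c).nonunits)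
    (hVloc₁ : ∀ c (x : F), x ∈ V c → ∃ b s : F, IsIntegral ↥(Algebra.adjoin A₀ {t}) b ∧
      IsIntegral ↥(Algebra.adjoin A₀ {t}) s ∧ s ∉ (V c).nonunits ∧ s * x = b)
    (hVloc₂ : ∀ c (x : F), x ∈ V c → ∃ b s : F, IsIntegral ↥(Algebra.adjoin A₀ {t⁻¹}) b ∧
      IsIntegral ↥(Algebra.adjoin A₀ {t⁻¹}) s ∧ s ∉ (V c).nonunits ∧ s * x = b)
    (g : SemilinearAut E F) (hgt : g • t = t)
    (hgV : ∀ c (f : F), f ≠ 0 → (V c).valuation (g • f / f) = 1)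
    (hgA : ∀ α : A₀, ∃ α' : A₀, g • algebraMap A₀ F α = algebraMap A₀ F α')
    (hgA' : ∀ α : A₀, ∃ α' : A₀, g⁻¹ • algebraMap A₀ F α = algebraMap A₀ F α')
    (Φ : SemilinearAut E F) (hΦt : Φ • t = t)
    (hΦV : ∀ c (f : F), f ≠ 0 → (V c).valuation (Φ • f / f) = 1)
    (hΦA : ∀ α : A₀, ∃ α' : A₀, Φ • algebraMap A₀ F α = algebraMap A₀ F α')
    (hΦA' : ∀ α : A₀, ∃ α' : A₀, Φ⁻¹ • algebraMap A₀ F α = algebraMap A₀ F α')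
    (q : A₀) (hq0 : q ≠ 0) (hqπ : π ∣ q)
    {R₁ : Type*} [CommRing R₁] (j₁ : R₁ →+* ↥(zchClosure (A₀ := A₀) ({t} : Set F))) (p₁ : R₁)
    (hram₁ : MgcRamified j₁ (algebraMap A₀ ↥(zchClosure (A₀ := A₀) ({t} : Set F)) π) p₁)
    (hjp₁ : j₁ p₁ = algebraMap A₀ ↥(zchClosure (A₀ := A₀) ({t} : Set F)) q)
    {R₂ : Type*} [CommRing R₂] (j₂ : R₂ →+* ↥(zchClosure (A₀ := A₀) ({t⁻¹} : Set F))) (p₂ : R₂)
    (hram₂ : MgcRamified j₂ (algebraMap A₀ ↥(zchClosure (A₀ := A₀) ({t⁻¹} : Set F)) π) p₂)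
    (hjp₂ : j₂ p₂ = algebraMap A₀ ↥(zchClosure (A₀ := A₀) ({t⁻¹} : Set F)) q)
    (hnode₁ : ∀ 𝔫 : AtPt (F := F) π t, StbNodeAt (V c₁) (V c₂) 𝔫 j₁ p₁)
    (hnode₂ : ∀ 𝔫 : AtPt (F := F) π t⁻¹, StbNodeAt (V c₁) (V c₂) 𝔫 j₂ p₂)
    (Q : ℕ)
    (hfix₁ : ∀ 𝔫 : AtPt (F := F) π t, atThrough 𝔫 (V c₁) → atThrough 𝔫 (V c₂) →
      Rtk6ewFix g 𝔫)
    (hfix₂ : ∀ 𝔫 : AtPt (F := F) π t⁻¹, atThrough 𝔫 (V c₁) → atThrough 𝔫 (V c₂) →
      Rtk6ewFix g 𝔫)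
    (Φ' : F →+* F) (hΦ' : ∀ x : F, Φ' x = Φ • x)
    (hcong₁ : ∀ 𝔫 : AtPt (F := F) π t, atThrough 𝔫 (V c₁) → atThrough 𝔫 (V c₂) →
      Rtk6ewCong Φ' Q 𝔫)
    (hcong₂ : ∀ 𝔫 : AtPt (F := F) π t⁻¹, atThrough 𝔫 (V c₁) → atThrough 𝔫 (V c₂) →
      Rtk6ewCong Φ' Q 𝔫)
    {x : F} (hx : x ≠ 0) (m : ℕ)
    (hfin : {P : Place E F | P.ord x ≠ 0}.Finite)
    (hm : ∀ P : Place E F, (m : ℤ) ∣ P.ord x)
    (hrat : ∀ P : Place E F, P.ord x ≠ 0 → ∀ f ∈ P.toValuationSubring,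
      ∃ c : E, f - algebraMap E F c ∈ P.toValuationSubring.nonunits)
    (tt : κ → F) (htoric : ∀ c, (g • x / x) / tt c ^ m - 1 ∈ (V c).nonunits) :
    ∀ i : AtPt (F := F) π t ⊕ AtPt (F := F) π t⁻¹,
      (atInc π t V i c₁ ∧ atInc π t V i c₂ ∧
        StbCross (atO π t i) (V c₁) (V c₂) Φ' Q m (g • x / x)) ∨
      (∃ c, atInc π t V i c ∧ (∀ c', atInc π t V i c' → c' = c) ∧
        ∃ i₁ : AtPt (F := F) π t ⊕ AtPt (F := F) π t⁻¹, atInc π t V i₁ c ∧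
          StbSmooth (atO π t i) (atO π t i₁) (V c) Φ' m (g • x / x)) := by
  haveI : FiniteDimensional E⟮t⁻¹⟯ F := at_finiteDimensional_inv t
  have ht' : Transcendental E t⁻¹ := zch_transcendental_inv ht
  rintro (𝔫 | 𝔫)
  · exact rtk6ew_hpts_inl hπ ht V c₁ c₂ hκ hne hBV₁ hπV hSS1 harch hVloc₁ g hgt hgV hgA hgA'
      Φ hΦt hΦV hΦA hΦA' q hq0 hqπ j₁ p₁ hram₁ hjp₁ 𝔫 (hnode₁ 𝔫) Q (hfix₁ 𝔫) Φ' hΦ' (hcong₁ 𝔫)
      hx m hfin hm hrat tt htoric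
  · exact rtk6ew_hpts_inr hπ ht' V c₁ c₂ hκ hne hBV₂ hπV (ats_SS1_inv ht hπ V hBV₁ hSS1) harch
      hVloc₂ g (at_smul_inv hgt) hgV hgA hgA' Φ (at_smul_inv hΦt) hΦV hΦA hΦA' q hq0 hqπ
      j₂ p₂ hram₂ hjp₂ 𝔫 (hnode₂ 𝔫) Q (hfix₂ 𝔫) Φ' hΦ' (hcong₂ 𝔫) hx m hfin hm hrat tt htoric

/-- **(T″) for two components with TWO automorphisms** — the twin of `STB.stb_main_two` for K6.
`g`, `Φ` semilinear automorphisms fixing `t`, preserving `A₀` (with their inverses) and the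
vertical valuations; at every crossing point `𝔫` of the two charts `g 𝔫 = 𝔫` and `Φ b ≡ b ^ Q`
mod `𝔫`; `p ^ r ∣ div x`, rational support, `y = g • x / x` toric.  Then `Φ y / y ^ Q` is a
`p ^ r`-th power.  (No hypothesis `g • q = q`; the coordinates of the crossing points need not
be fixed by `g`.) -/
theorem rtk6ew_main_two (hπ : Irreducible π) {t : F} (ht : Transcendental E t)
    (hcl : ∀ x : F, IsAlgebraic E x → x ∈ (algebraMap E F).range)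
    {p : ℕ} (hp : p.Prime) (hpu : IsUnit (p : A₀)) {ζ : A₀} (hζ : IsPrimitiveRoot ζ p)
    (hunit : ∀ a : A₀, IsUnit a → ∃ d : A₀, d ^ p = a)
    [FiniteDimensional E⟮t⟯ F] [Finite κ]
    [IsNoetherianRing ↥(zchClosure (A₀ := A₀) ({t} : Set F))]
    [IsNoetherianRing ↥(zchClosure (A₀ := A₀) ({t⁻¹} : Set F))]
    (V : κ → ValuationSubring F) (c₁ c₂ : κ) (hκ : ∀ c, c = c₁ ∨ c = c₂) (hne : V c₁ ≠ V c₂)
    (hBV₁ : ∀ c (b : F), IsIntegral ↥(Algebra.adjoin A₀ {t}) b → b ∈ V c)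
    (hBV₂ : ∀ c (b : F), IsIntegral ↥(Algebra.adjoin A₀ {t⁻¹}) b → b ∈ V c)
    (hπV : ∀ c, algebraMap A₀ F π ∈ (V c).nonunits)
    (hSS1 : ∀ b : F, IsIntegral ↥(Algebra.adjoin A₀ {t}) b → (∀ c, b ∈ (V c).nonunits) →
      ∃ b' : F, IsIntegral ↥(Algebra.adjoin A₀ {t}) b' ∧ b = algebraMap A₀ F π * b')
    (harch : ∀ c (a x : F), a ∈ (V c).nonunits → ∃ N : ℕ, a ^ N * x ∈ (V c).nonunits)
    (hVloc₁ : ∀ c (x : F), x ∈ V c → ∃ b s : F, IsIntegral ↥(Algebra.adjoin A₀ {t}) b ∧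
      IsIntegral ↥(Algebra.adjoin A₀ {t}) s ∧ s ∉ (V c).nonunits ∧ s * x = b)
    (hVloc₂ : ∀ c (x : F), x ∈ V c → ∃ b s : F, IsIntegral ↥(Algebra.adjoin A₀ {t⁻¹}) b ∧
      IsIntegral ↥(Algebra.adjoin A₀ {t⁻¹}) s ∧ s ∉ (V c).nonunits ∧ s * x = b)
    (g : SemilinearAut E F) (hgt : g • t = t)
    (hgV : ∀ c (f : F), f ≠ 0 → (V c).valuation (g • f / f) = 1)
    (hgA : ∀ α : A₀, ∃ α' : A₀, g • algebraMap A₀ F α = algebraMap A₀ F α')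
    (hgA' : ∀ α : A₀, ∃ α' : A₀, g⁻¹ • algebraMap A₀ F α = algebraMap A₀ F α')
    (Φ : SemilinearAut E F) (hΦt : Φ • t = t)
    (hΦV : ∀ c (f : F), f ≠ 0 → (V c).valuation (Φ • f / f) = 1)
    (hΦA : ∀ α : A₀, ∃ α' : A₀, Φ • algebraMap A₀ F α = algebraMap A₀ F α')
    (hΦA' : ∀ α : A₀, ∃ α' : A₀, Φ⁻¹ • algebraMap A₀ F α = algebraMap A₀ F α')
    (q : A₀) (hq0 : q ≠ 0) (hqπ : π ∣ q)
    {R₁ : Type*} [CommRing R₁] (j₁ : R₁ →+* ↥(zchClosure (A₀ := A₀) ({t} : Set F))) (p₁ : R₁)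
    (hram₁ : MgcRamified j₁ (algebraMap A₀ ↥(zchClosure (A₀ := A₀) ({t} : Set F)) π) p₁)
    (hjp₁ : j₁ p₁ = algebraMap A₀ ↥(zchClosure (A₀ := A₀) ({t} : Set F)) q)
    {R₂ : Type*} [CommRing R₂] (j₂ : R₂ →+* ↥(zchClosure (A₀ := A₀) ({t⁻¹} : Set F))) (p₂ : R₂)
    (hram₂ : MgcRamified j₂ (algebraMap A₀ ↥(zchClosure (A₀ := A₀) ({t⁻¹} : Set F)) π) p₂)
    (hjp₂ : j₂ p₂ = algebraMap A₀ ↥(zchClosure (A₀ := A₀) ({t⁻¹} : Set F)) q)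
    (hnode₁ : ∀ 𝔫 : AtPt (F := F) π t, StbNodeAt (V c₁) (V c₂) 𝔫 j₁ p₁)
    (hnode₂ : ∀ 𝔫 : AtPt (F := F) π t⁻¹, StbNodeAt (V c₁) (V c₂) 𝔫 j₂ p₂)
    (Q : ℕ)
    (hfix₁ : ∀ 𝔫 : AtPt (F := F) π t, atThrough 𝔫 (V c₁) → atThrough 𝔫 (V c₂) →
      Rtk6ewFix g 𝔫)
    (hfix₂ : ∀ 𝔫 : AtPt (F := F) π t⁻¹, atThrough 𝔫 (V c₁) → atThrough 𝔫 (V c₂) →
      Rtk6ewFix g 𝔫)
    (Φ' : F →+* F) (hΦ' : ∀ x : F, Φ' x = Φ • x)
    (hcong₁ : ∀ 𝔫 : AtPt (F := F) π t, atThrough 𝔫 (V c₁) → atThrough 𝔫 (V c₂) →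
      Rtk6ewCong Φ' Q 𝔫)
    (hcong₂ : ∀ 𝔫 : AtPt (F := F) π t⁻¹, atThrough 𝔫 (V c₁) → atThrough 𝔫 (V c₂) →
      Rtk6ewCong Φ' Q 𝔫)
    {x : F} (hx : x ≠ 0) (r : ℕ)
    (hfin : {P : Place E F | P.ord x ≠ 0}.Finite)
    (hm : ∀ P : Place E F, ((p ^ r : ℕ) : ℤ) ∣ P.ord x)
    (hrat : ∀ P : Place E F, P.ord x ≠ 0 → ∀ f ∈ P.toValuationSubring,
      ∃ c : E, f - algebraMap E F c ∈ P.toValuationSubring.nonunits)
    (tt : κ → F) (htoric : ∀ c, (g • x / x) / tt c ^ (p ^ r) - 1 ∈ (V c).nonunits) :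
    ∃ h : F, h ^ (p ^ r) = Φ' (g • x / x) / (g • x / x) ^ Q :=
  stb_main_points hπ ht hcl hp hpu hζ hunit V c₁ c₂ hκ hne hBV₁ hBV₂ hπV hSS1 harch Φ'
    (fun c y hy => by
      rw [hΦ']
      exact stb_mt_map_nonunits Φ (V c) (hΦV c) hy) Q r tt htoric
    (rtk6ew_hpts hπ ht V c₁ c₂ hκ hne hBV₁ hBV₂ hπV hSS1 harch hVloc₁ hVloc₂ g hgt hgV hgA hgA'
      Φ hΦt hΦV hΦA hΦA' q hq0 hqπ j₁ p₁ hram₁ hjp₁ j₂ p₂ hram₂ hjp₂ hnode₁ hnode₂ Q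
      hfix₁ hfix₂ Φ' hΦ' hcong₁ hcong₂ hx (p ^ r) hfin hm hrat tt htoric)

end EWCross

end Fermat.Agent.RT.K6
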