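/-
K-machine, piece K6, piece E-W-multi (M6 of `NOTES/RT-K6-D.md` v5), part 1 (helper18):
the abstract theorem (T″) for a FINITE FAMILY of vertical valuation rings.

Chart setting of `STB/AbstractT2.lean`: `A₀` a DVR (uniformizer `π`), `E = Frac A₀`, `F / E(t)`
finite, charts `B_t`, `B_{t⁻¹}`; `V : κ → ValuationSubring F` an INJECTIVE finite family of
vertical valuation rings (no hypothesis `κ = {c₁, c₂}`).

* `rtk6ewm_hinc`  : the `V c` are pairwise incomparable;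
* `rtk6ewm_hU`    : (U) `𝔪(V c) = π · V c`;
* `rtk6ewm_hKR`   : (KR) from (SS1);
* `rtk6ewm_hconn` : the incidence graph of the components is connected (`S36.aq_hconn`);
* `rtk6ewm_main_abs`    : fork of `STB.stb_main` (weak approximation `S36.aqw_weakApprox`);
* `rtk6ewm_main_points` : fork of `STB.stb_main_points`; at a crossing point the pair of
  components `c₁, c₂` depends on the point and is LOCALLY the set of all components through it.
-/
import Fermat.Agent.STB.AbstractT2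
import Fermat.Agent.STB.SmoothPoint
import Fermat.Agent.S36.ConnQ
import Fermat.Agent.S36.WeakApproxN

set_option autoImplicit false
set_option linter.unusedSectionVars false
set_option linter.unusedVariables false
set_option linter.style.haveILetI false

namespace Fermat.Agent.RT.K6

open Polynomial IntermediateField Fermat.Agent.INJ Fermat.Agent.UNIP Fermat.Agent.STB
  Fermat.Agent.S36

section MultiAbs

variable {A₀ E F : Type*} [CommRing A₀] [IsDomain A₀] [IsDiscreteValuationRing A₀]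
  [Field E] [Algebra A₀ E] [IsFractionRing A₀ E] [CharZero E]
  [Field F] [Algebra E F] [Algebra A₀ F] [IsScalarTower A₀ E F]
  {π : A₀} {κ : Type*}

/-- the archimedean property in the form `StbArch` -/
theorem rtk6ewm_arch (V : κ → ValuationSubring F)
    (harch : ∀ c (a x : F), a ∈ (V c).nonunits → ∃ N : ℕ, a ^ N * x ∈ (V c).nonunits) :
    ∀ c, StbArch (V c) := by
  intro c x z hz
  obtain ⟨N, hN⟩ := harch c z x hz
  exact ⟨N, by rwa [mul_comm] at hN⟩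

/-- the members of an injective family of archimedean vertical valuation rings are pairwise
incomparable -/
theorem rtk6ewm_hinc (hπ0 : algebraMap A₀ F π ≠ 0) (V : κ → ValuationSubring F)
    (hinj : Function.Injective V)
    (hπV : ∀ c, algebraMap A₀ F π ∈ (V c).nonunits)
    (harch : ∀ c (a x : F), a ∈ (V c).nonunits → ∃ N : ℕ, a ^ N * x ∈ (V c).nonunits) :
    ∀ c c', c ≠ c' → ¬ V c ≤ V c' := fun c c' hcc' =>
  stb_not_le_of_ne (rtk6ewm_arch V harch c) hπ0 (hπV c') (fun h => hcc' (hinj h))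

/-- **(U)** `𝔪(V c) = π · V c` for an injective family. -/
theorem rtk6ewm_hU (hπ0 : algebraMap A₀ F π ≠ 0) {u : F} [Finite κ]
    (V : κ → ValuationSubring F) (hinj : Function.Injective V)
    (hBV : ∀ c (b : F), IsIntegral ↥(Algebra.adjoin A₀ {u}) b → b ∈ V c)
    (hπV : ∀ c, algebraMap A₀ F π ∈ (V c).nonunits)
    (hSS1 : ∀ b : F, IsIntegral ↥(Algebra.adjoin A₀ {u}) b → (∀ c, b ∈ (V c).nonunits) →
      ∃ b' : F, IsIntegral ↥(Algebra.adjoin A₀ {u}) b' ∧ b = algebraMap A₀ F π * b')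
    (harch : ∀ c (a x : F), a ∈ (V c).nonunits → ∃ N : ℕ, a ^ N * x ∈ (V c).nonunits)
    (hVloc : ∀ c (x : F), x ∈ V c → ∃ b s : F, IsIntegral ↥(Algebra.adjoin A₀ {u}) b ∧
      IsIntegral ↥(Algebra.adjoin A₀ {u}) s ∧ s ∉ (V c).nonunits ∧ s * x = b) :
    ∀ c (x : F), x ∈ (V c).nonunits → ∃ z ∈ V c, x = algebraMap A₀ F π * z := fun c =>
  stb_sp_princ V hBV hSS1 hVloc c fun c' hc' =>
    rtk6ewm_hinc hπ0 V hinj hπV harch c c' (Ne.symm hc')

/-- **(KR)** from (SS1), in the form of `S36.aq_hconn`. -/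
theorem rtk6ewm_hKR (hπ0 : algebraMap A₀ F π ≠ 0) {u : F} (V : κ → ValuationSubring F)
    (hπV : ∀ c, algebraMap A₀ F π ∈ (V c).nonunits)
    (hSS1 : ∀ b : F, IsIntegral ↥(Algebra.adjoin A₀ {u}) b → (∀ c, b ∈ (V c).nonunits) →
      ∃ b' : F, IsIntegral ↥(Algebra.adjoin A₀ {u}) b' ∧ b = algebraMap A₀ F π * b') :
    ∀ x : F, IsIntegral ↥(Algebra.adjoin A₀ {u}) (algebraMap A₀ F π * x) →
      (∀ c, x ∈ V c) → IsIntegral ↥(Algebra.adjoin A₀ {u}) x := by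
  intro x hx hxV
  obtain ⟨b', hb', hbb'⟩ := hSS1 _ hx (fun c => by
    rw [mul_comm]
    exact pwi_mul_mem_nonunits (V c) (hxV c) (hπV c))
  rw [mul_left_cancel₀ hπ0 hbb']
  exact hb'

/-- **Connectedness** of the incidence graph of the components, for an injective finite family
with (SS1) and `V c = (B_t)_{𝔭_c}`. -/
theorem rtk6ewm_hconn (hπ : Irreducible π) {t : F} (ht : Transcendental E t)
    [FiniteDimensional E⟮t⟯ F]
    (hcl : ∀ x : F, IsAlgebraic E x → x ∈ (algebraMap E F).range)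
    [Finite κ] (V : κ → ValuationSubring F) (hinj : Function.Injective V)
    (hBV₁ : ∀ c (b : F), IsIntegral ↥(Algebra.adjoin A₀ {t}) b → b ∈ V c)
    (hBV₂ : ∀ c (b : F), IsIntegral ↥(Algebra.adjoin A₀ {t⁻¹}) b → b ∈ V c)
    (hπV : ∀ c, algebraMap A₀ F π ∈ (V c).nonunits)
    (hSS1 : ∀ b : F, IsIntegral ↥(Algebra.adjoin A₀ {t}) b → (∀ c, b ∈ (V c).nonunits) →
      ∃ b' : F, IsIntegral ↥(Algebra.adjoin A₀ {t}) b' ∧ b = algebraMap A₀ F π * b')
    (harch : ∀ c (a x : F), a ∈ (V c).nonunits → ∃ N : ℕ, a ^ N * x ∈ (V c).nonunits)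
    (hVloc₁ : ∀ c (x : F), x ∈ V c → ∃ b s : F, IsIntegral ↥(Algebra.adjoin A₀ {t}) b ∧
      IsIntegral ↥(Algebra.adjoin A₀ {t}) s ∧ s ∉ (V c).nonunits ∧ s * x = b) :
    ∀ c c' : κ, Relation.ReflTransGen
      (fun a b => ∃ i, atInc π t V i a ∧ atInc π t V i b) c c' := by
  have hπ0 : algebraMap A₀ F π ≠ 0 :=
    (map_ne_zero_iff _ (zch_algebraMap_injective (A₀ := A₀) (E := E) (L := F))).mpr hπ.ne_zero
  refine aq_hconn hπ ht hcl V hBV₁ hBV₂ hπV (rtk6ewm_hKR hπ0 V hπV hSS1) (Q := 1) ?_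
  intro c x hx
  obtain ⟨z, hz, hxz⟩ := rtk6ewm_hU hπ0 V hinj hBV₁ hπV hSS1 harch hVloc₁ c x hx
  exact ⟨z, hz, by rw [pow_one, hxz]⟩

/-- **(T″) for a finite family, abstract per-point form.**  Fork of `STB.stb_main`: the family
`V` is injective and finite; weak approximation and connectedness for the whole family. -/
theorem rtk6ewm_main_abs (hπ : Irreducible π) {t : F} (ht : Transcendental E t)
    [FiniteDimensional E⟮t⟯ F]
    (hcl : ∀ x : F, IsAlgebraic E x → x ∈ (algebraMap E F).range)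
    {p : ℕ} (hp : p.Prime) (hpu : IsUnit (p : A₀)) {ζ : A₀} (hζ : IsPrimitiveRoot ζ p)
    (hunit : ∀ a : A₀, IsUnit a → ∃ d : A₀, d ^ p = a)
    [Finite κ] (V : κ → ValuationSubring F) (hinj : Function.Injective V)
    (hBV₁ : ∀ c (b : F), IsIntegral ↥(Algebra.adjoin A₀ {t}) b → b ∈ V c)
    (hBV₂ : ∀ c (b : F), IsIntegral ↥(Algebra.adjoin A₀ {t⁻¹}) b → b ∈ V c)
    (hπV : ∀ c, algebraMap A₀ F π ∈ (V c).nonunits)
    (hSS1 : ∀ b : F, IsIntegral ↥(Algebra.adjoin A₀ {t}) b → (∀ c, b ∈ (V c).nonunits) →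
      ∃ b' : F, IsIntegral ↥(Algebra.adjoin A₀ {t}) b' ∧ b = algebraMap A₀ F π * b')
    (harch : ∀ c (a x : F), a ∈ (V c).nonunits → ∃ N : ℕ, a ^ N * x ∈ (V c).nonunits)
    (hVloc₁ : ∀ c (x : F), x ∈ V c → ∃ b s : F, IsIntegral ↥(Algebra.adjoin A₀ {t}) b ∧
      IsIntegral ↥(Algebra.adjoin A₀ {t}) s ∧ s ∉ (V c).nonunits ∧ s * x = b)
    (Φ : F →+* F) (hΦV : ∀ c, ∀ x ∈ (V c).nonunits, Φ x ∈ (V c).nonunits) (Q r : ℕ)
    {y : F} (tt : κ → F) (htoric : ∀ c, y / tt c ^ (p ^ r) - 1 ∈ (V c).nonunits)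
    (hpoint : ∀ H : F, (∀ c, H / (Φ (tt c) / tt c ^ Q) - 1 ∈ (V c).nonunits) →
      ∀ i, ∃ ε' γ' : F, ∃ hε' : ε' ∈ atO π t i, (⟨ε', hε'⟩ - 1 : atO π t i) ∈ atJ π t i ∧
        (∀ c, atInc π t V i c → γ' - 1 ∈ (V c).nonunits) ∧
        Φ y / y ^ Q / H ^ (p ^ r) = ε' * γ' ^ (p ^ r)) :
    ∃ h : F, h ^ (p ^ r) = Φ y / y ^ Q := by
  have hm : 0 < p ^ r := pow_pos hp.pos r
  have hπ0 : algebraMap A₀ F π ≠ 0 :=
    (map_ne_zero_iff _ (zch_algebraMap_injective (A₀ := A₀) (E := E) (L := F))).mpr hπ.ne_zero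
  have htt0 : ∀ c, tt c ≠ 0 := by
    intro c h
    have h1 := stb_ne_zero_of_congr (V c) (htoric c)
    rw [h, zero_pow hm.ne', div_zero] at h1
    exact h1 rfl
  have hT0 : ∀ c, Φ (tt c) / tt c ^ Q ≠ 0 := fun c =>
    div_ne_zero ((_root_.map_ne_zero Φ).2 (htt0 c)) (pow_ne_zero _ (htt0 c))
  obtain ⟨H, hH0, hH⟩ := aqw_weakApprox V (rtk6ewm_hinc hπ0 V hinj hπV harch)
    (rtk6ewm_arch V harch) (fun c => Φ (tt c) / tt c ^ Q) hT0
  have hshape : PwiShape V (atO π t) (atJ π t) (atInc π t V) (p ^ r)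
      (Φ y / y ^ Q / H ^ (p ^ r)) :=
    ⟨fun c => stb_vertical (V c) Φ (hΦV c) Q (p ^ r) (htoric c) (hH c), hpoint H hH⟩
  obtain ⟨h, hh⟩ := at_pow_of_shape hπ ht hcl hp hpu hζ hunit V hBV₁ hBV₂ hπV hSS1 harch
    (rtk6ewm_hconn hπ ht hcl V hinj hBV₁ hBV₂ hπV hSS1 harch hVloc₁) r _ hshape
  refine ⟨h * H, ?_⟩
  rw [mul_pow, hh]
  field_simp

/-- **(T″) for a finite family.**  Fork of `STB.stb_main_points`: every closed point `i` of the
special fibre is either a crossing point of two components `c₁, c₂` (depending on `i`), which are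
the only components through `i` (`StbCross`), or has exactly one component `c` through it and a
preimage `i₁` under `Φ` on the same component (`StbSmooth`). -/
theorem rtk6ewm_main_points (hπ : Irreducible π) {t : F} (ht : Transcendental E t)
    [FiniteDimensional E⟮t⟯ F]
    (hcl : ∀ x : F, IsAlgebraic E x → x ∈ (algebraMap E F).range)
    {p : ℕ} (hp : p.Prime) (hpu : IsUnit (p : A₀)) {ζ : A₀} (hζ : IsPrimitiveRoot ζ p)
    (hunit : ∀ a : A₀, IsUnit a → ∃ d : A₀, d ^ p = a)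
    [Finite κ] (V : κ → ValuationSubring F) (hinj : Function.Injective V)
    (hBV₁ : ∀ c (b : F), IsIntegral ↥(Algebra.adjoin A₀ {t}) b → b ∈ V c)
    (hBV₂ : ∀ c (b : F), IsIntegral ↥(Algebra.adjoin A₀ {t⁻¹}) b → b ∈ V c)
    (hπV : ∀ c, algebraMap A₀ F π ∈ (V c).nonunits)
    (hSS1 : ∀ b : F, IsIntegral ↥(Algebra.adjoin A₀ {t}) b → (∀ c, b ∈ (V c).nonunits) →
      ∃ b' : F, IsIntegral ↥(Algebra.adjoin A₀ {t}) b' ∧ b = algebraMap A₀ F π * b')
    (harch : ∀ c (a x : F), a ∈ (V c).nonunits → ∃ N : ℕ, a ^ N * x ∈ (V c).nonunits)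
    (hVloc₁ : ∀ c (x : F), x ∈ V c → ∃ b s : F, IsIntegral ↥(Algebra.adjoin A₀ {t}) b ∧
      IsIntegral ↥(Algebra.adjoin A₀ {t}) s ∧ s ∉ (V c).nonunits ∧ s * x = b)
    (Φ : F →+* F) (hΦV : ∀ c, ∀ x ∈ (V c).nonunits, Φ x ∈ (V c).nonunits) (Q r : ℕ)
    {y : F} (tt : κ → F) (htoric : ∀ c, y / tt c ^ (p ^ r) - 1 ∈ (V c).nonunits)
    (hpts : ∀ i : AtPt (F := F) π t ⊕ AtPt (F := F) π t⁻¹,
      (∃ c₁ c₂ : κ, atInc π t V i c₁ ∧ atInc π t V i c₂ ∧
        (∀ c, atInc π t V i c → c = c₁ ∨ c = c₂) ∧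
        StbCross (atO π t i) (V c₁) (V c₂) Φ Q (p ^ r) y) ∨
      (∃ c, atInc π t V i c ∧ (∀ c', atInc π t V i c' → c' = c) ∧
        ∃ i₁ : AtPt (F := F) π t ⊕ AtPt (F := F) π t⁻¹, atInc π t V i₁ c ∧
          StbSmooth (atO π t i) (atO π t i₁) (V c) Φ (p ^ r) y)) :
    ∃ h : F, h ^ (p ^ r) = Φ y / y ^ Q := by
  have hm : 0 < p ^ r := pow_pos hp.pos r
  refine rtk6ewm_main_abs hπ ht hcl hp hpu hζ hunit V hinj hBV₁ hBV₂ hπV hSS1 harch hVloc₁ Φ hΦV
    Q r tt htoric ?_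
  intro H hH i
  haveI := stb_atO_isLocalRing (π := π) t i
  rcases hpts i with ⟨c₁, c₂, hi1, hi2, hloc, hsum, hres1, hres2, hfrob, γ, ε, hε, hy⟩ |
    ⟨c, hc, honly, i₁, hi₁, hΦO, hres, hres₁, hfac, hfac₁⟩
  · obtain ⟨ε', γ', hε', hJ, hγ1, hγ2, hw⟩ := stb_glue_frob (atO π t i) (atJ π t i) (V c₁) (V c₂)
      (stb_atO_le V hBV₁ hBV₂ i c₁ hi1) (stb_atO_le V hBV₁ hBV₂ i c₂ hi2)
      (fun x h1 h2 => stb_atO_inter hπ ht V hBV₁ hBV₂ hSS1 i x (fun c hc => by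
        rcases hloc c hc with rfl | rfl
        · exact h1
        · exact h2))
      (fun x hx => hsum x ((IsLocalRing.mem_maximalIdeal _).1 hx))
      hres1 hres2 Φ Q (hΦV c₁) (hΦV c₂)
      (fun x => by
        obtain ⟨z, hz, hzx⟩ := hfrob x
        exact ⟨z, (IsLocalRing.mem_maximalIdeal _).2 hz, hzx⟩)
      hm ε hε hy (htoric c₁) (htoric c₂) (hH c₁) (hH c₂)
    refine ⟨ε', γ', hε', hJ, fun c hc => ?_, hw⟩
    rcases hloc c hc with rfl | rfl
    · exact hγ1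
    · exact hγ2
  · haveI := stb_atO_isLocalRing (π := π) t i₁
    obtain ⟨ε', γ', hε', hJ, hγ, hw⟩ := stb_point_one (atO π t i) (atO π t i₁) (atJ π t i) (V c)
      (stb_atO_le V hBV₁ hBV₂ i c hc) (stb_atO_le V hBV₁ hBV₂ i₁ c hi₁)
      (fun x hx => stb_atO_inter hπ ht V hBV₁ hBV₂ hSS1 i x (fun c' hc' => by
        rw [honly c' hc']
        exact hx))
      hres hres₁ Φ Q (hΦV c) hΦO hm hfac hfac₁ (htoric c) (hH c)
    refine ⟨ε', γ', hε', hJ, fun c' hc' => ?_, hw⟩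
    rw [honly c' hc']
    exact hγ

end MultiAbs

end Fermat.Agent.RT.K6
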