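/-
K-machine, piece K6, piece E-W-multi (M6 of `NOTES/RT-K6-D.md` v5), part 2 (helper18):
**(T″) for a FINITE FAMILY of vertical valuation rings with TWO automorphisms** — the twin of
`rtk6ew_main_two` (RT/K6/EWCross.lean) without the hypothesis `κ = {c₁, c₂}`.

`V : κ → ValuationSubring F` is an injective finite family.  The dichotomy at the closed points is
`Rtk6ewmNodeAt V 𝔫 j p` ((M3)): on the unramified chart `R` (`j : R →+* B_u`,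
`MgcRamified j π p`) the point is smooth (`𝔫 ∩ R = (p, s)` locally) or a THIN crossing point of two
components `c₁, c₂` DEPENDING ON THE POINT (`𝔫 ∩ R = (p, X, Y)` locally, `w p = X Y`, `j w ∉ 𝔫`,
`X ∈ 𝔪(V c₁)`, `Y ∈ 𝔪(V c₂)`).

* `rtk6ewm_loc_dvd`     : local (SS1) in divisibility form;
* `rtk6ewm_cross_only`  : LOCAL UNIQUENESS at a crossing point (helper94's `rtk6lu_ew_cross_inj`);
* `rtk6ewm_cross_not_mem` : `X ∉ 𝔪(V c₂)` (hence `c₁ ≠ c₂`);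
* `rtk6ewm_cross_facAt` : (F) at a crossing point fixed by `g` (`at_local_factor` +
  `rtk6ew_hcoord_node`);
* `rtk6ewm_cp_cross`    : the crossing disjunct of `rtk6ewm_main_points`;
* `rtk6ewm_hpts_inl`, `rtk6ewm_hpts_inr`, `rtk6ewm_hpts` : the hypothesis `hpts`;
* `rtk6ew_main_multi`   : **the main theorem**.
-/
import Fermat.Agent.RT.K6.EWMultiAbs
import Fermat.Agent.RT.K6.EWCross
import Fermat.Agent.RT.K6.DGLUniqEW

set_option autoImplicit false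
set_option linter.style.haveILetI false
set_option linter.unusedSectionVars false
set_option linter.unusedVariables false

namespace Fermat.Agent.RT.K6

open Polynomial IntermediateField Fermat.Agent.INJ AlgebraicCurve Fermat.Agent.UNIP
  Fermat.Agent.STB

section EWMulti

variable {A₀ E F : Type*} [CommRing A₀] [IsDomain A₀] [IsDiscreteValuationRing A₀]
  [Field E] [Algebra A₀ E] [IsFractionRing A₀ E] [CharZero E]
  [Field F] [Algebra E F] [Algebra A₀ F] [IsScalarTower A₀ E F]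
  {π : A₀} {κ : Type*}

/-- **The thin crossing datum (M3)** at the closed point `𝔫` of the chart `u`, on the unramified
chart `R`, for the components `W₁`, `W₂`: both pass through `𝔫 ∩ R`, `𝔫 ∩ R = (p, X, Y)` locally,
`w p = X Y` with `j w ∉ 𝔫`, `X ∈ 𝔪(W₁)`, `Y ∈ 𝔪(W₂)`. -/
def Rtk6ewmCrossAt (W₁ W₂ : ValuationSubring F) {u : F} (𝔫 : AtPt (F := F) π u)
    {R : Type*} [CommRing R] (j : R →+* ↥(zchClosure (A₀ := A₀) ({u} : Set F))) (p : R)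
    (X Y w : R) : Prop :=
  (∀ x : R, ((j x : ↥(zchClosure (A₀ := A₀) ({u} : Set F))) : F) ∈ W₁.nonunits → j x ∈ 𝔫.1) ∧
  (∀ x : R, ((j x : ↥(zchClosure (A₀ := A₀) ({u} : Set F))) : F) ∈ W₂.nonunits → j x ∈ 𝔫.1) ∧
  ((j X : ↥(zchClosure (A₀ := A₀) ({u} : Set F))) : F) ∈ W₁.nonunits ∧
  ((j Y : ↥(zchClosure (A₀ := A₀) ({u} : Set F))) : F) ∈ W₂.nonunits ∧
  j w ∉ 𝔫.1 ∧ w * p = X * Y ∧ NodesLocGen (𝔫.1.comap j) {p, X, Y}

/-- **The dichotomy (M3) at the closed point `𝔫` of the chart `u`** for the family `V`, on the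
unramified chart `R`: smooth point, or thin crossing point of two components of the family
(depending on the point). -/
def Rtk6ewmNodeAt (V : κ → ValuationSubring F) {u : F} (𝔫 : AtPt (F := F) π u)
    {R : Type*} [CommRing R] (j : R →+* ↥(zchClosure (A₀ := A₀) ({u} : Set F))) (p : R) : Prop :=
  (∃ s : R, j s ∈ 𝔫.1 ∧ NodesLocGen (𝔫.1.comap j) {p, s}) ∨
  ∃ (c₁ c₂ : κ) (X Y w : R), Rtk6ewmCrossAt (V c₁) (V c₂) 𝔫 j p X Y w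

/-- a thin node of two components is a node in the sense of `STB.StbNodeAt` -/
theorem Rtk6ewmCrossAt.stbNodeAt {W₁ W₂ : ValuationSubring F} {u : F} {𝔫 : AtPt (F := F) π u}
    {R : Type*} [CommRing R] {j : R →+* ↥(zchClosure (A₀ := A₀) ({u} : Set F))} {p : R}
    {X Y w : R} (h : Rtk6ewmCrossAt W₁ W₂ 𝔫 j p X Y w) : StbNodeAt W₁ W₂ 𝔫 j p :=
  Or.inr ⟨h.1, h.2.1, X, Y, h.2.2.1, h.2.2.2.1, h.2.2.2.2.2.2⟩

/-- **Local (SS1) in divisibility form**: an element of the chart lying in `𝔪(V c)` for all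
components `c` through `𝔫` is divisible by `π` after multiplication by an element outside `𝔫`. -/
theorem rtk6ewm_loc_dvd (hπ0 : algebraMap A₀ F π ≠ 0) [Finite κ] {u : F}
    (V : κ → ValuationSubring F)
    (hBV : ∀ c (b : F), IsIntegral ↥(Algebra.adjoin A₀ {u}) b → b ∈ V c)
    (hSS1 : ∀ b : F, IsIntegral ↥(Algebra.adjoin A₀ {u}) b → (∀ c, b ∈ (V c).nonunits) →
      ∃ b' : F, IsIntegral ↥(Algebra.adjoin A₀ {u}) b' ∧ b = algebraMap A₀ F π * b')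
    (𝔫 : AtPt (F := F) π u) (b : ↥(zchClosure (A₀ := A₀) ({u} : Set F)))
    (hb : ∀ c, atThrough 𝔫 (V c) → (b : F) ∈ (V c).nonunits) :
    ∃ d b' : ↥(zchClosure (A₀ := A₀) ({u} : Set F)), d ∉ 𝔫.1 ∧
      d * b = algebraMap A₀ ↥(zchClosure (A₀ := A₀) ({u} : Set F)) π * b' := by
  haveI := 𝔫.2.1.isPrime
  have hmem : (b : F) ∈ atLoc 𝔫 := ls_algebraMap_mem 𝔫.1 b
  have h := stb_loc_inter hπ0 V hBV hSS1 𝔫 ⟨(b : F), hmem⟩ hb
  obtain ⟨y, ⟨b', s, hs, hsy⟩, hxy⟩ := (ls_mem_localIdeal 𝔫.1 _).mp h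
  refine ⟨s, b', hs, Subtype.ext ?_⟩
  have hsy' : (s : F) * y = (b' : F) := hsy
  have hxy' : (b : F) = algebraMap A₀ F π * y := hxy
  show (s : F) * (b : F) = algebraMap A₀ F π * (b' : F)
  rw [hxy', ← hsy']
  ring

/-- `atThrough` on the chart from "through" on the unramified chart, at a thin crossing point -/
theorem Rtk6ewmCrossAt.through {u : F} (V : κ → ValuationSubring F)
    (hBV : ∀ c (b : F), IsIntegral ↥(Algebra.adjoin A₀ {u}) b → b ∈ V c)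
    (hπV : ∀ c, algebraMap A₀ F π ∈ (V c).nonunits)
    {𝔫 : AtPt (F := F) π u}
    {R : Type*} [CommRing R] {j : R →+* ↥(zchClosure (A₀ := A₀) ({u} : Set F))} {p : R}
    (hram : MgcRamified j (algebraMap A₀ ↥(zchClosure (A₀ := A₀) ({u} : Set F)) π) p)
    {c₁ c₂ : κ} {X Y w : R} (h : Rtk6ewmCrossAt (V c₁) (V c₂) 𝔫 j p X Y w) :
    atThrough 𝔫 (V c₁) ∧ atThrough 𝔫 (V c₂) :=
  ⟨stb_cp_through (V c₁) (hBV c₁) (hπV c₁) 𝔫 j p hram h.1,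
    stb_cp_through (V c₂) (hBV c₂) (hπV c₂) 𝔫 j p hram h.2.1⟩

/-- **Local uniqueness at a thin crossing point**: every component of the family through `𝔫` is
one of the two components of the crossing datum. -/
theorem rtk6ewm_cross_only {u : F} [IsNoetherianRing ↥(zchClosure (A₀ := A₀) ({u} : Set F))]
    (hπ0 : algebraMap A₀ F π ≠ 0)
    (V : κ → ValuationSubring F) (hinj : Function.Injective V)
    (hBV : ∀ c (b : F), IsIntegral ↥(Algebra.adjoin A₀ {u}) b → b ∈ V c)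
    (hπV : ∀ c, algebraMap A₀ F π ∈ (V c).nonunits)
    (harch : ∀ c (a x : F), a ∈ (V c).nonunits → ∃ N : ℕ, a ^ N * x ∈ (V c).nonunits)
    (hVloc : ∀ c (x : F), x ∈ V c → ∃ b s : F, IsIntegral ↥(Algebra.adjoin A₀ {u}) b ∧
      IsIntegral ↥(Algebra.adjoin A₀ {u}) s ∧ s ∉ (V c).nonunits ∧ s * x = b)
    (𝔫 : AtPt (F := F) π u)
    {R : Type*} [CommRing R] (j : R →+* ↥(zchClosure (A₀ := A₀) ({u} : Set F))) (p : R)
    (hram : MgcRamified j (algebraMap A₀ ↥(zchClosure (A₀ := A₀) ({u} : Set F)) π) p)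
    {c₁ c₂ : κ} {X Y w : R} (h : Rtk6ewmCrossAt (V c₁) (V c₂) 𝔫 j p X Y w) :
    ∀ c, atThrough 𝔫 (V c) → c = c₁ ∨ c = c₂ := by
  intro c hc
  obtain ⟨hT₁, hT₂⟩ := h.through V hBV hπV hram
  obtain ⟨-, -, hX, hY, hw, hXY, hgen⟩ := h
  obtain ⟨z, hz⟩ := hram.dvd
  have hXY' : j X * j Y = (j w * z) * algebraMap A₀ ↥(zchClosure (A₀ := A₀) ({u} : Set F)) π := by
    rw [← map_mul, ← hXY, map_mul, hz]
    ring
  exact rtk6lu_ew_cross_inj V hinj hBV harch hVloc 𝔫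
    (ϖ := algebraMap A₀ ↥(zchClosure (A₀ := A₀) ({u} : Set F)) π) hπ0 hπV hXY'
    (stb_cp_locGen 𝔫 j p hram X Y hgen) c₁ c₂ hT₁ hT₂ hX hY c hc

/-- **`X ∉ 𝔪(V c₂)` at a thin crossing point** (so the two components are different and the
hypothesis `hstage` of `rtk6ew_hcoord_node` holds with `n′ = 1`). -/
theorem rtk6ewm_cross_not_mem {u : F} [Finite κ]
    [IsNoetherianRing ↥(zchClosure (A₀ := A₀) ({u} : Set F))]
    (hπ0 : algebraMap A₀ F π ≠ 0)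
    (V : κ → ValuationSubring F) (hinj : Function.Injective V)
    (hBV : ∀ c (b : F), IsIntegral ↥(Algebra.adjoin A₀ {u}) b → b ∈ V c)
    (hπV : ∀ c, algebraMap A₀ F π ∈ (V c).nonunits)
    (hSS1 : ∀ b : F, IsIntegral ↥(Algebra.adjoin A₀ {u}) b → (∀ c, b ∈ (V c).nonunits) →
      ∃ b' : F, IsIntegral ↥(Algebra.adjoin A₀ {u}) b' ∧ b = algebraMap A₀ F π * b')
    (harch : ∀ c (a x : F), a ∈ (V c).nonunits → ∃ N : ℕ, a ^ N * x ∈ (V c).nonunits)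
    (hVloc : ∀ c (x : F), x ∈ V c → ∃ b s : F, IsIntegral ↥(Algebra.adjoin A₀ {u}) b ∧
      IsIntegral ↥(Algebra.adjoin A₀ {u}) s ∧ s ∉ (V c).nonunits ∧ s * x = b)
    (𝔫 : AtPt (F := F) π u)
    {R : Type*} [CommRing R] (j : R →+* ↥(zchClosure (A₀ := A₀) ({u} : Set F))) (p : R)
    (hram : MgcRamified j (algebraMap A₀ ↥(zchClosure (A₀ := A₀) ({u} : Set F)) π) p)
    (hjp0 : j p ≠ 0)
    {c₁ c₂ : κ} {X Y w : R} (h : Rtk6ewmCrossAt (V c₁) (V c₂) 𝔫 j p X Y w) :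
    ((j X : ↥(zchClosure (A₀ := A₀) ({u} : Set F))) : F) ∉ (V c₂).nonunits := by
  haveI := 𝔫.2.1.isPrime
  intro hX2
  have hloc := rtk6ewm_cross_only hπ0 V hinj hBV hπV harch hVloc 𝔫 j p hram h
  obtain ⟨hT₁, hT₂⟩ := h.through V hBV hπV hram
  obtain ⟨-, -, hX, hY, hw, hXY, hgen⟩ := h
  obtain ⟨d, b', hd, hdb⟩ := rtk6ewm_loc_dvd hπ0 V hBV hSS1 𝔫 (j X) (fun c hc => by
    rcases hloc c hc with rfl | rfl
    · exact hX
    · exact hX2)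
  obtain ⟨d₀, z, hdz⟩ := hram.decomp d
  have hd₀ : j d₀ ∉ 𝔫.1 := by
    intro h0
    apply hd
    rw [hdz]
    exact Ideal.add_mem _ h0 (Ideal.mul_mem_right _ _ 𝔫.2.2)
  have hdvd : algebraMap A₀ ↥(zchClosure (A₀ := A₀) ({u} : Set F)) π ∣ j (d₀ * X) := by
    refine ⟨b' - z * j X, ?_⟩
    have e : j d₀ = d - algebraMap A₀ ↥(zchClosure (A₀ := A₀) ({u} : Set F)) π * z := by
      rw [hdz]; ring
    rw [map_mul, e, sub_mul, hdb]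
    ring
  obtain ⟨X', hX'⟩ := hram.cancel _ hdvd
  have key : j p * (j d₀ * j w) = j p * (j X' * j Y) := by
    have e1 : d₀ * w * p = p * X' * Y := by
      calc d₀ * w * p = d₀ * (w * p) := by ring
        _ = d₀ * (X * Y) := by rw [hXY]
        _ = (d₀ * X) * Y := by ring
        _ = p * X' * Y := by rw [hX']
    have e2 := congrArg j e1
    simp only [map_mul] at e2
    rw [← mul_assoc, ← mul_assoc, ← e2]
    ring
  have key' : j d₀ * j w = j X' * j Y := mul_left_cancel₀ hjp0 key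
  have hmem : j d₀ * j w ∈ 𝔫.1 := by
    rw [key']
    exact Ideal.mul_mem_left _ _ (hT₂ _ hY)
  rcases (inferInstance : 𝔫.1.IsPrime).mem_or_mem hmem with h1 | h1
  · exact hd₀ h1
  · exact hw h1


/-- the symmetric crossing datum -/
theorem Rtk6ewmCrossAt.symm {W₁ W₂ : ValuationSubring F} {u : F} {𝔫 : AtPt (F := F) π u}
    {R : Type*} [CommRing R] {j : R →+* ↥(zchClosure (A₀ := A₀) ({u} : Set F))} {p : R}
    {X Y w : R} (h : Rtk6ewmCrossAt W₁ W₂ 𝔫 j p X Y w) : Rtk6ewmCrossAt W₂ W₁ 𝔫 j p Y X w := by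
  obtain ⟨h1, h2, hX, hY, hw, hXY, hgen⟩ := h
  refine ⟨h2, h1, hY, hX, hw, by rw [hXY, mul_comm], ?_⟩
  have e : ({p, Y, X} : Set R) = {p, X, Y} := by rw [Set.pair_comm Y X]
  rw [e]
  exact hgen

include E in
/-- `j p ≠ 0` -/
theorem rtk6ewm_jp_ne_zero (hπ : Irreducible π) {u : F} (q : A₀) (hq0 : q ≠ 0)
    {R : Type*} [CommRing R] (j : R →+* ↥(zchClosure (A₀ := A₀) ({u} : Set F))) (p : R)
    (hjp : j p = algebraMap A₀ ↥(zchClosure (A₀ := A₀) ({u} : Set F)) q) : j p ≠ 0 := by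
  rw [hjp]
  intro h0
  have h1 : algebraMap A₀ F q = 0 :=
    congrArg (fun z : ↥(zchClosure (A₀ := A₀) ({u} : Set F)) => (z : F)) h0
  exact hq0 ((map_eq_zero_iff _ (zch_algebraMap_injective (A₀ := A₀) (E := E) (L := F))).mp h1)

include E in
/-- the two components of a thin crossing point are different -/
theorem rtk6ewm_cross_ne (hπ : Irreducible π) {u : F} [Finite κ]
    [IsNoetherianRing ↥(zchClosure (A₀ := A₀) ({u} : Set F))]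
    (V : κ → ValuationSubring F) (hinj : Function.Injective V)
    (hBV : ∀ c (b : F), IsIntegral ↥(Algebra.adjoin A₀ {u}) b → b ∈ V c)
    (hπV : ∀ c, algebraMap A₀ F π ∈ (V c).nonunits)
    (hSS1 : ∀ b : F, IsIntegral ↥(Algebra.adjoin A₀ {u}) b → (∀ c, b ∈ (V c).nonunits) →
      ∃ b' : F, IsIntegral ↥(Algebra.adjoin A₀ {u}) b' ∧ b = algebraMap A₀ F π * b')
    (harch : ∀ c (a x : F), a ∈ (V c).nonunits → ∃ N : ℕ, a ^ N * x ∈ (V c).nonunits)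
    (hVloc : ∀ c (x : F), x ∈ V c → ∃ b s : F, IsIntegral ↥(Algebra.adjoin A₀ {u}) b ∧
      IsIntegral ↥(Algebra.adjoin A₀ {u}) s ∧ s ∉ (V c).nonunits ∧ s * x = b)
    (𝔫 : AtPt (F := F) π u) (q : A₀) (hq0 : q ≠ 0)
    {R : Type*} [CommRing R] (j : R →+* ↥(zchClosure (A₀ := A₀) ({u} : Set F))) (p : R)
    (hram : MgcRamified j (algebraMap A₀ ↥(zchClosure (A₀ := A₀) ({u} : Set F)) π) p)
    (hjp : j p = algebraMap A₀ ↥(zchClosure (A₀ := A₀) ({u} : Set F)) q)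
    {c₁ c₂ : κ} {X Y w : R} (h : Rtk6ewmCrossAt (V c₁) (V c₂) 𝔫 j p X Y w) : c₁ ≠ c₂ := by
  have hπ0 : algebraMap A₀ F π ≠ 0 :=
    (map_ne_zero_iff _ (zch_algebraMap_injective (A₀ := A₀) (E := E) (L := F))).mpr hπ.ne_zero
  rintro rfl
  exact rtk6ewm_cross_not_mem hπ0 V hinj hBV hπV hSS1 harch hVloc 𝔫 j p hram
    (rtk6ewm_jp_ne_zero (E := E) hπ q hq0 j p hjp) h h.2.2.1

/-- **(F) at a thin crossing point of the chart `u` fixed by `g`**, in the form `StbFacAt`: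
fork of `rtk6ew_cross_facAt` for a finite family. -/
theorem rtk6ewm_cross_facAt (hπ : Irreducible π) {u : F} (hu : Transcendental E u)
    [FiniteDimensional E⟮u⟯ F] [Finite κ]
    [IsNoetherianRing ↥(zchClosure (A₀ := A₀) ({u} : Set F))]
    (V : κ → ValuationSubring F) (hinj : Function.Injective V)
    (hBV : ∀ c (b : F), IsIntegral ↥(Algebra.adjoin A₀ {u}) b → b ∈ V c)
    (hπV : ∀ c, algebraMap A₀ F π ∈ (V c).nonunits)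
    (hSS1 : ∀ b : F, IsIntegral ↥(Algebra.adjoin A₀ {u}) b → (∀ c, b ∈ (V c).nonunits) →
      ∃ b' : F, IsIntegral ↥(Algebra.adjoin A₀ {u}) b' ∧ b = algebraMap A₀ F π * b')
    (harch : ∀ c (a x : F), a ∈ (V c).nonunits → ∃ N : ℕ, a ^ N * x ∈ (V c).nonunits)
    (hVloc : ∀ c (x : F), x ∈ V c → ∃ b s : F, IsIntegral ↥(Algebra.adjoin A₀ {u}) b ∧
      IsIntegral ↥(Algebra.adjoin A₀ {u}) s ∧ s ∉ (V c).nonunits ∧ s * x = b)
    (g : SemilinearAut E F) (hgu : g • u = u)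
    (𝔫 : AtPt (F := F) π u)
    (hgB : ∀ b : ↥(zchClosure (A₀ := A₀) ({u} : Set F)), b ∈ 𝔫.1 →
      ∃ b' : ↥(zchClosure (A₀ := A₀) ({u} : Set F)), b' ∈ 𝔫.1 ∧ g • (b : F) = b')
    (hgB' : ∀ b : ↥(zchClosure (A₀ := A₀) ({u} : Set F)), b ∈ 𝔫.1 →
      ∃ b' : ↥(zchClosure (A₀ := A₀) ({u} : Set F)), b' ∈ 𝔫.1 ∧ g⁻¹ • (b : F) = b')
    (hgB₀ : ∀ b : F, IsIntegral ↥(Algebra.adjoin A₀ {u}) b →
      IsIntegral ↥(Algebra.adjoin A₀ {u}) (g • b))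
    (hgB₀' : ∀ b : F, IsIntegral ↥(Algebra.adjoin A₀ {u}) b →
      IsIntegral ↥(Algebra.adjoin A₀ {u}) (g⁻¹ • b))
    (hgV : ∀ c (f : F), f ≠ 0 → (V c).valuation (g • f / f) = 1)
    (hgA : ∀ α : A₀, ∃ α' : A₀, g • algebraMap A₀ F α = algebraMap A₀ F α')
    (q : A₀) (hq0 : q ≠ 0) (hqπ : π ∣ q)
    (hgq : ∃ c : A₀, g • algebraMap A₀ F q = algebraMap A₀ F (c * q))
    {R : Type*} [CommRing R] (j : R →+* ↥(zchClosure (A₀ := A₀) ({u} : Set F))) (p : R)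
    (hram : MgcRamified j (algebraMap A₀ ↥(zchClosure (A₀ := A₀) ({u} : Set F)) π) p)
    (hjp : j p = algebraMap A₀ ↥(zchClosure (A₀ := A₀) ({u} : Set F)) q)
    {c₁ c₂ : κ} {X Y w : R} (h : Rtk6ewmCrossAt (V c₁) (V c₂) 𝔫 j p X Y w)
    {x : F} (hx : x ≠ 0) (m : ℕ)
    (hfin : {P : Place E F | LsTube ↥(zchClosure (A₀ := A₀) ({u} : Set F)) u 𝔫.1 P ∧
      g • P ≠ P ∧ P.ord x ≠ 0}.Finite)
    (hm : ∀ P : Place E F, LsTube ↥(zchClosure (A₀ := A₀) ({u} : Set F)) u 𝔫.1 P → g • P ≠ P →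
      (m : ℤ) ∣ P.ord x)
    (hrat : ∀ P : Place E F, LsTube ↥(zchClosure (A₀ := A₀) ({u} : Set F)) u 𝔫.1 P →
      g • P ≠ P → P.ord x ≠ 0 → ∀ f ∈ P.toValuationSubring,
        ∃ c : E, f - algebraMap E F c ∈ P.toValuationSubring.nonunits) :
    StbFacAt (atLoc 𝔫) m (g • x / x) := by
  haveI := 𝔫.2.1.isPrime
  have hπ0 : algebraMap A₀ F π ≠ 0 :=
    (map_ne_zero_iff _ (zch_algebraMap_injective (A₀ := A₀) (E := E) (L := F))).mpr hπ.ne_zero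
  have hjp0 := rtk6ewm_jp_ne_zero (E := E) hπ q hq0 j p hjp
  obtain ⟨hT₁, hT₂⟩ := h.through V hBV hπV hram
  have hX2 := rtk6ewm_cross_not_mem hπ0 V hinj hBV hπV hSS1 harch hVloc 𝔫 j p hram hjp0 h
  have hY1 := rtk6ewm_cross_not_mem hπ0 V hinj hBV hπV hSS1 harch hVloc 𝔫 j p hram hjp0 h.symm
  have hG := stb_cp_locGen 𝔫 j p hram X Y h.2.2.2.2.2.2
  obtain ⟨g₀, e, hg₀, he, he', hfac⟩ := at_local_factor hπ hu V hBV hπV hSS1 hVloc g hgu 𝔫.1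
    hgB hgB' hgB₀ hgB₀' hgV hx m hfin hm
    (rtk6ew_hcoord_node hπ hu V hBV hπV hVloc g hgu 𝔫.1 𝔫.2.2 hgB hgB₀' hgV hgA q hq0 hqπ hgq
      c₁ c₂ hT₁ hT₂
      (fun n hn => ⟨1, j X, j Y, j w, h.2.2.1, h.2.2.2.1, hX2, hY1, by
        rw [pow_one, ← hjp, ← map_mul, ← map_mul, ← h.2.2.2.2.2.1, mul_comm], hG,
        Or.inr h.2.2.2.2.1⟩) hrat)
  obtain ⟨-, hform⟩ := stb_factor_form g hx hg₀ m hfac
  exact stb_facAt_of_mem _ (stb_smul_div_ne_zero g hx) he he' hform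

/-- **The crossing disjunct of `rtk6ewm_main_points`** at a thin crossing point `𝔫` of the chart
`u` fixed by `g`, for `y = g • x / x` and ANY ring endomorphism `Φ` with `Φ b ≡ b ^ Q` mod `𝔫` on
the chart.  Fork of `rtk6ew_cp_cross` for a finite family. -/
theorem rtk6ewm_cp_cross (hπ : Irreducible π) {u : F} (hu : Transcendental E u)
    [FiniteDimensional E⟮u⟯ F] [Finite κ]
    [IsNoetherianRing ↥(zchClosure (A₀ := A₀) ({u} : Set F))]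
    (V : κ → ValuationSubring F) (hinj : Function.Injective V)
    (hBV : ∀ c (b : F), IsIntegral ↥(Algebra.adjoin A₀ {u}) b → b ∈ V c)
    (hπV : ∀ c, algebraMap A₀ F π ∈ (V c).nonunits)
    (hSS1 : ∀ b : F, IsIntegral ↥(Algebra.adjoin A₀ {u}) b → (∀ c, b ∈ (V c).nonunits) →
      ∃ b' : F, IsIntegral ↥(Algebra.adjoin A₀ {u}) b' ∧ b = algebraMap A₀ F π * b')
    (harch : ∀ c (a x : F), a ∈ (V c).nonunits → ∃ N : ℕ, a ^ N * x ∈ (V c).nonunits)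
    (hVloc : ∀ c (x : F), x ∈ V c → ∃ b s : F, IsIntegral ↥(Algebra.adjoin A₀ {u}) b ∧
      IsIntegral ↥(Algebra.adjoin A₀ {u}) s ∧ s ∉ (V c).nonunits ∧ s * x = b)
    (g : SemilinearAut E F) (hgu : g • u = u)
    (𝔫 : AtPt (F := F) π u)
    (hgB : ∀ b : ↥(zchClosure (A₀ := A₀) ({u} : Set F)), b ∈ 𝔫.1 →
      ∃ b' : ↥(zchClosure (A₀ := A₀) ({u} : Set F)), b' ∈ 𝔫.1 ∧ g • (b : F) = b')
    (hgB' : ∀ b : ↥(zchClosure (A₀ := A₀) ({u} : Set F)), b ∈ 𝔫.1 →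
      ∃ b' : ↥(zchClosure (A₀ := A₀) ({u} : Set F)), b' ∈ 𝔫.1 ∧ g⁻¹ • (b : F) = b')
    (hgB₀ : ∀ b : F, IsIntegral ↥(Algebra.adjoin A₀ {u}) b →
      IsIntegral ↥(Algebra.adjoin A₀ {u}) (g • b))
    (hgB₀' : ∀ b : F, IsIntegral ↥(Algebra.adjoin A₀ {u}) b →
      IsIntegral ↥(Algebra.adjoin A₀ {u}) (g⁻¹ • b))
    (hgV : ∀ c (f : F), f ≠ 0 → (V c).valuation (g • f / f) = 1)
    (hgA : ∀ α : A₀, ∃ α' : A₀, g • algebraMap A₀ F α = algebraMap A₀ F α')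
    (q : A₀) (hq0 : q ≠ 0) (hqπ : π ∣ q)
    (hgq : ∃ c : A₀, g • algebraMap A₀ F q = algebraMap A₀ F (c * q))
    {R : Type*} [CommRing R] (j : R →+* ↥(zchClosure (A₀ := A₀) ({u} : Set F))) (p : R)
    (hram : MgcRamified j (algebraMap A₀ ↥(zchClosure (A₀ := A₀) ({u} : Set F)) π) p)
    (hjp : j p = algebraMap A₀ ↥(zchClosure (A₀ := A₀) ({u} : Set F)) q)
    {c₁ c₂ : κ} {X Y w : R} (h : Rtk6ewmCrossAt (V c₁) (V c₂) 𝔫 j p X Y w)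
    (Φ : F →+* F) (Q : ℕ) (hfrobB : Rtk6ewCong Φ Q 𝔫)
    {x : F} (hx : x ≠ 0) (m : ℕ)
    (hfin : {P : Place E F | LsTube ↥(zchClosure (A₀ := A₀) ({u} : Set F)) u 𝔫.1 P ∧
      g • P ≠ P ∧ P.ord x ≠ 0}.Finite)
    (hm : ∀ P : Place E F, LsTube ↥(zchClosure (A₀ := A₀) ({u} : Set F)) u 𝔫.1 P → g • P ≠ P →
      (m : ℤ) ∣ P.ord x)
    (hrat : ∀ P : Place E F, LsTube ↥(zchClosure (A₀ := A₀) ({u} : Set F)) u 𝔫.1 P →
      g • P ≠ P → P.ord x ≠ 0 → ∀ f ∈ P.toValuationSubring,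
        ∃ c : E, f - algebraMap E F c ∈ P.toValuationSubring.nonunits) :
    atThrough 𝔫 (V c₁) ∧ atThrough 𝔫 (V c₂) ∧ (∀ c, atThrough 𝔫 (V c) → c = c₁ ∨ c = c₂) ∧
      StbCross (atLoc 𝔫) (V c₁) (V c₂) Φ Q m (g • x / x) := by
  haveI := 𝔫.2.1.isPrime
  have hπ0 : algebraMap A₀ F π ≠ 0 :=
    (map_ne_zero_iff _ (zch_algebraMap_injective (A₀ := A₀) (E := E) (L := F))).mpr hπ.ne_zero
  obtain ⟨hT₁, hT₂⟩ := h.through V hBV hπV hram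
  have hG := stb_cp_locGen 𝔫 j p hram X Y h.2.2.2.2.2.2
  have hX := h.2.2.1
  have hY := h.2.2.2.1
  refine ⟨hT₁, hT₂, rtk6ewm_cross_only hπ0 V hinj hBV hπV harch hVloc 𝔫 j p hram h,
    ?_, ?_, ?_, ?_, ?_⟩
  · exact stb_cp_sum (V c₁) (V c₂) (hBV c₁) (hBV c₂) (hπV c₁) 𝔫 hT₁ hT₂ (j X) (j Y) hX hY hG
  · exact stb_cp_res₁ (V c₁) (hBV c₁) (hπV c₁) (hVloc c₁) 𝔫 hT₁ (j X) (j Y) hX (hT₂ _ hY) hG
  · exact stb_cp_res₂ (V c₂) (hBV c₂) (hπV c₂) (hVloc c₂) 𝔫 hT₂ (j X) (j Y) (hT₁ _ hX) hY hG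
  · exact stb_cp_frob 𝔫 Φ Q hfrobB
  · exact rtk6ewm_cross_facAt hπ hu V hinj hBV hπV hSS1 harch hVloc g hgu 𝔫 hgB hgB' hgB₀ hgB₀'
      hgV hgA q hq0 hqπ hgq j p hram hjp h hx m hfin hm hrat

/-- **Chart `t`**: the hypothesis `hpts (Sum.inl 𝔫)` of `rtk6ewm_main_points` for `y = g • x / x`
and the map `Φ`, from the dichotomy (M3) at `𝔫`; at the crossing points `g` fixes `𝔫` and
`Φ b ≡ b ^ Q` mod `𝔫`.  Fork of `rtk6ew_hpts_inl` for a finite family. -/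
theorem rtk6ewm_hpts_inl (hπ : Irreducible π) {t : F} (ht : Transcendental E t)
    [FiniteDimensional E⟮t⟯ F] [Finite κ]
    [IsNoetherianRing ↥(zchClosure (A₀ := A₀) ({t} : Set F))]
    (V : κ → ValuationSubring F) (hinj : Function.Injective V)
    (hBV : ∀ c (b : F), IsIntegral ↥(Algebra.adjoin A₀ {t}) b → b ∈ V c)
    (hπV : ∀ c, algebraMap A₀ F π ∈ (V c).nonunits)
    (hSS1 : ∀ b : F, IsIntegral ↥(Algebra.adjoin A₀ {t}) b → (∀ c, b ∈ (V c).nonunits) →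
      ∃ b' : F, IsIntegral ↥(Algebra.adjoin A₀ {t}) b' ∧ b = algebraMap A₀ F π * b')
    (harch : ∀ c (a x : F), a ∈ (V c).nonunits → ∃ N : ℕ, a ^ N * x ∈ (V c).nonunits)
    (hVloc : ∀ c (x : F), x ∈ V c → ∃ b s : F, IsIntegral ↥(Algebra.adjoin A₀ {t}) b ∧
      IsIntegral ↥(Algebra.adjoin A₀ {t}) s ∧ s ∉ (V c).nonunits ∧ s * x = b)
    (g : SemilinearAut E F) (hgu : g • t = t)
    (hgV : ∀ c (f : F), f ≠ 0 → (V c).valuation (g • f / f) = 1)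
    (hgA : ∀ α : A₀, ∃ α' : A₀, g • algebraMap A₀ F α = algebraMap A₀ F α')
    (hgA' : ∀ α : A₀, ∃ α' : A₀, g⁻¹ • algebraMap A₀ F α = algebraMap A₀ F α')
    (Φ : SemilinearAut E F) (hΦu : Φ • t = t)
    (hΦV : ∀ c (f : F), f ≠ 0 → (V c).valuation (Φ • f / f) = 1)
    (hΦA : ∀ α : A₀, ∃ α' : A₀, Φ • algebraMap A₀ F α = algebraMap A₀ F α')
    (hΦA' : ∀ α : A₀, ∃ α' : A₀, Φ⁻¹ • algebraMap A₀ F α = algebraMap A₀ F α')
    (q : A₀) (hq0 : q ≠ 0) (hqπ : π ∣ q)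
    {R : Type*} [CommRing R] (j : R →+* ↥(zchClosure (A₀ := A₀) ({t} : Set F))) (p : R)
    (hram : MgcRamified j (algebraMap A₀ ↥(zchClosure (A₀ := A₀) ({t} : Set F)) π) p)
    (hjp : j p = algebraMap A₀ ↥(zchClosure (A₀ := A₀) ({t} : Set F)) q)
    (𝔫 : AtPt (F := F) π t)
    (hnode : Rtk6ewmNodeAt V 𝔫 j p)
    (Q : ℕ)
    (hfix : ∀ c₁ c₂ : κ, c₁ ≠ c₂ → atThrough 𝔫 (V c₁) → atThrough 𝔫 (V c₂) → Rtk6ewFix g 𝔫)
    (Φ' : F →+* F) (hΦ' : ∀ x : F, Φ' x = Φ • x)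
    (hcong : ∀ c₁ c₂ : κ, c₁ ≠ c₂ → atThrough 𝔫 (V c₁) → atThrough 𝔫 (V c₂) →
      Rtk6ewCong Φ' Q 𝔫)
    {x : F} (hx : x ≠ 0) (m : ℕ)
    (hfin : {P : Place E F | P.ord x ≠ 0}.Finite)
    (hm : ∀ P : Place E F, (m : ℤ) ∣ P.ord x)
    (hrat : ∀ P : Place E F, P.ord x ≠ 0 → ∀ f ∈ P.toValuationSubring,
      ∃ c : E, f - algebraMap E F c ∈ P.toValuationSubring.nonunits)
    (tt : κ → F) (htoric : ∀ c, (g • x / x) / tt c ^ m - 1 ∈ (V c).nonunits) :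
    (∃ c₁ c₂ : κ, atInc π t V (Sum.inl 𝔫) c₁ ∧ atInc π t V (Sum.inl 𝔫) c₂ ∧
      (∀ c, atInc π t V (Sum.inl 𝔫) c → c = c₁ ∨ c = c₂) ∧
      StbCross (atO π t (Sum.inl 𝔫)) (V c₁) (V c₂) Φ' Q m (g • x / x)) ∨
    (∃ c, atInc π t V (Sum.inl 𝔫) c ∧ (∀ c', atInc π t V (Sum.inl 𝔫) c' → c' = c) ∧
      ∃ i₁ : AtPt (F := F) π t ⊕ AtPt (F := F) π t⁻¹, atInc π t V i₁ c ∧
        StbSmooth (atO π t (Sum.inl 𝔫)) (atO π t i₁) (V c) Φ' m (g • x / x)) := by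
  have hΦeq : Φ' = (SemilinearAut.toRingAut Φ : F ≃+* F).toRingHom := RingHom.ext hΦ'
  subst hΦeq
  have hgB₀ : ∀ b : F, IsIntegral ↥(Algebra.adjoin A₀ {t}) b →
      IsIntegral ↥(Algebra.adjoin A₀ {t}) (g • b) :=
    fun b hb => stb_mt_isIntegral_smul g hgu hgA hb
  have hgu' : g⁻¹ • t = t := by
    conv_lhs => rw [← hgu]
    rw [inv_smul_smul]
  have hgB₀' : ∀ b : F, IsIntegral ↥(Algebra.adjoin A₀ {t}) b →
      IsIntegral ↥(Algebra.adjoin A₀ {t}) (g⁻¹ • b) :=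
    fun b hb => stb_mt_isIntegral_smul g⁻¹ hgu' hgA' hb
  have hΦB₀ : ∀ b : F, IsIntegral ↥(Algebra.adjoin A₀ {t}) b →
      IsIntegral ↥(Algebra.adjoin A₀ {t}) (Φ • b) :=
    fun b hb => stb_mt_isIntegral_smul Φ hΦu hΦA hb
  have hΦu' : Φ⁻¹ • t = t := by
    conv_lhs => rw [← hΦu]
    rw [inv_smul_smul]
  have hΦB₀' : ∀ b : F, IsIntegral ↥(Algebra.adjoin A₀ {t}) b →
      IsIntegral ↥(Algebra.adjoin A₀ {t}) (Φ⁻¹ • b) :=
    fun b hb => stb_mt_isIntegral_smul Φ⁻¹ hΦu' hΦA' hb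
  rcases hnode with ⟨s, hs, hgen⟩ | ⟨c₁, c₂, X, Y, w, hcr⟩
  · -- smooth point
    right
    have hne' : ∀ c c', c ≠ c' → V c ≠ V c' := fun c c' hcc' h => hcc' (hinj h)
    have hyfin : ∀ 𝔫' : AtPt (F := F) π t, {P : Place E F |
        LsTube ↥(zchClosure (A₀ := A₀) ({t} : Set F)) t 𝔫'.1 P ∧
          P.ord (g • x / x) ≠ 0}.Finite := by
      intro 𝔫'
      have h2 : {P : Place E F | (g⁻¹ • P).ord x ≠ 0}.Finite := by
        have := hfin.image (fun P : Place E F => g • P)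
        refine this.subset ?_
        intro P hP
        exact ⟨g⁻¹ • P, hP, smul_inv_smul g P⟩
      refine (hfin.union h2).subset ?_
      rintro P ⟨-, hP⟩
      rw [stb_mt_ord_div g P hx] at hP
      by_contra hcon
      rw [Set.mem_union, not_or] at hcon
      have h3 : P.ord x = 0 := not_not.mp hcon.1
      have h4 : (g⁻¹ • P).ord x = 0 := not_not.mp hcon.2
      exact hP (by rw [h3, h4, sub_zero])
    have hym : ∀ 𝔫' : AtPt (F := F) π t, ∀ P : Place E F,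
        LsTube ↥(zchClosure (A₀ := A₀) ({t} : Set F)) t 𝔫'.1 P →
          (m : ℤ) ∣ P.ord (g • x / x) := by
      intro 𝔫' P _
      rw [stb_mt_ord_div g P hx]
      exact dvd_sub (hm _) (hm _)
    have hyrat : ∀ 𝔫' : AtPt (F := F) π t, ∀ P : Place E F,
        LsTube ↥(zchClosure (A₀ := A₀) ({t} : Set F)) t 𝔫'.1 P → P.ord (g • x / x) ≠ 0 →
        ∀ f ∈ P.toValuationSubring,
          ∃ c : E, f - algebraMap E F c ∈ P.toValuationSubring.nonunits := by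
      intro 𝔫' P _ hP
      by_cases h3 : P.ord x = 0
      · have h4 : (g⁻¹ • P).ord x ≠ 0 := by
          intro h4
          rw [stb_mt_ord_div g P hx, h3, h4, sub_zero] at hP
          exact hP rfl
        have := stb_mt_rat_smul g (g⁻¹ • P) (hrat _ h4)
        rwa [smul_inv_smul] at this
      · exact hrat P h3
    exact stb_sx_hpts_inl hπ ht V hBV hπV hSS1 hVloc hne' harch (SemilinearAut.toRingAut Φ)
      hΦB₀ hΦB₀'
      (stb_st_map_pi E hπ (SemilinearAut.toRingAut Φ) hΦA hΦA')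
      (stb_st_map_pi E hπ (SemilinearAut.toRingAut Φ).symm hΦA' hΦA)
      (fun c x hx' => stb_mt_map_nonunits Φ (V c) (hΦV c) hx')
      (fun c x hx' => stb_mt_map_nonunits Φ⁻¹ (V c) (stb_mt_inv_valuation Φ (V c) (hΦV c)) hx')
      𝔫 (j s) hs (hram.mgg_locGen_pair 𝔫.2.2 s hgen) m tt htoric hyfin hym hyrat
  · -- crossing point
    left
    obtain ⟨hT₁, hT₂⟩ := hcr.through V hBV hπV hram
    have hcc := rtk6ewm_cross_ne (E := E) hπ V hinj hBV hπV hSS1 harch hVloc 𝔫 q hq0 j p hram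
      hjp hcr
    obtain ⟨hgB, hgB'⟩ := hfix c₁ c₂ hcc hT₁ hT₂
    exact ⟨c₁, c₂, rtk6ewm_cp_cross hπ ht V hinj hBV hπV hSS1 harch hVloc g hgu 𝔫 hgB hgB'
      hgB₀ hgB₀' hgV hgA q hq0 hqπ (rtk6ew_smul_dvd g hgA hgA' q) j p hram hjp hcr
      (SemilinearAut.toRingAut Φ : F ≃+* F).toRingHom Q (hcong c₁ c₂ hcc hT₁ hT₂) hx m
      (hfin.subset fun P hP => hP.2.2) (fun P _ _ => hm P) (fun P _ _ hP => hrat P hP)⟩

/-- **Chart `t⁻¹`**: the hypothesis `hpts (Sum.inr 𝔫)` of `rtk6ewm_main_points` for `y = g • x / x`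
and the map `Φ`, from the dichotomy (M3) at `𝔫`; at the crossing points `g` fixes `𝔫` and
`Φ b ≡ b ^ Q` mod `𝔫`.  Fork of `rtk6ew_hpts_inr` for a finite family. -/
theorem rtk6ewm_hpts_inr (hπ : Irreducible π) {t : F} (ht' : Transcendental E t⁻¹)
    [FiniteDimensional E⟮t⁻¹⟯ F] [Finite κ]
    [IsNoetherianRing ↥(zchClosure (A₀ := A₀) ({t⁻¹} : Set F))]
    (V : κ → ValuationSubring F) (hinj : Function.Injective V)
    (hBV : ∀ c (b : F), IsIntegral ↥(Algebra.adjoin A₀ {t⁻¹}) b → b ∈ V c)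
    (hπV : ∀ c, algebraMap A₀ F π ∈ (V c).nonunits)
    (hSS1 : ∀ b : F, IsIntegral ↥(Algebra.adjoin A₀ {t⁻¹}) b → (∀ c, b ∈ (V c).nonunits) →
      ∃ b' : F, IsIntegral ↥(Algebra.adjoin A₀ {t⁻¹}) b' ∧ b = algebraMap A₀ F π * b')
    (harch : ∀ c (a x : F), a ∈ (V c).nonunits → ∃ N : ℕ, a ^ N * x ∈ (V c).nonunits)
    (hVloc : ∀ c (x : F), x ∈ V c → ∃ b s : F, IsIntegral ↥(Algebra.adjoin A₀ {t⁻¹}) b ∧
      IsIntegral ↥(Algebra.adjoin A₀ {t⁻¹}) s ∧ s ∉ (V c).nonunits ∧ s * x = b)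
    (g : SemilinearAut E F) (hgu : g • t⁻¹ = t⁻¹)
    (hgV : ∀ c (f : F), f ≠ 0 → (V c).valuation (g • f / f) = 1)
    (hgA : ∀ α : A₀, ∃ α' : A₀, g • algebraMap A₀ F α = algebraMap A₀ F α')
    (hgA' : ∀ α : A₀, ∃ α' : A₀, g⁻¹ • algebraMap A₀ F α = algebraMap A₀ F α')
    (Φ : SemilinearAut E F) (hΦu : Φ • t⁻¹ = t⁻¹)
    (hΦV : ∀ c (f : F), f ≠ 0 → (V c).valuation (Φ • f / f) = 1)
    (hΦA : ∀ α : A₀, ∃ α' : A₀, Φ • algebraMap A₀ F α = algebraMap A₀ F α')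
    (hΦA' : ∀ α : A₀, ∃ α' : A₀, Φ⁻¹ • algebraMap A₀ F α = algebraMap A₀ F α')
    (q : A₀) (hq0 : q ≠ 0) (hqπ : π ∣ q)
    {R : Type*} [CommRing R] (j : R →+* ↥(zchClosure (A₀ := A₀) ({t⁻¹} : Set F))) (p : R)
    (hram : MgcRamified j (algebraMap A₀ ↥(zchClosure (A₀ := A₀) ({t⁻¹} : Set F)) π) p)
    (hjp : j p = algebraMap A₀ ↥(zchClosure (A₀ := A₀) ({t⁻¹} : Set F)) q)
    (𝔫 : AtPt (F := F) π t⁻¹)
    (hnode : Rtk6ewmNodeAt V 𝔫 j p)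
    (Q : ℕ)
    (hfix : ∀ c₁ c₂ : κ, c₁ ≠ c₂ → atThrough 𝔫 (V c₁) → atThrough 𝔫 (V c₂) → Rtk6ewFix g 𝔫)
    (Φ' : F →+* F) (hΦ' : ∀ x : F, Φ' x = Φ • x)
    (hcong : ∀ c₁ c₂ : κ, c₁ ≠ c₂ → atThrough 𝔫 (V c₁) → atThrough 𝔫 (V c₂) →
      Rtk6ewCong Φ' Q 𝔫)
    {x : F} (hx : x ≠ 0) (m : ℕ)
    (hfin : {P : Place E F | P.ord x ≠ 0}.Finite)
    (hm : ∀ P : Place E F, (m : ℤ) ∣ P.ord x)
    (hrat : ∀ P : Place E F, P.ord x ≠ 0 → ∀ f ∈ P.toValuationSubring,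
      ∃ c : E, f - algebraMap E F c ∈ P.toValuationSubring.nonunits)
    (tt : κ → F) (htoric : ∀ c, (g • x / x) / tt c ^ m - 1 ∈ (V c).nonunits) :
    (∃ c₁ c₂ : κ, atInc π t V (Sum.inr 𝔫) c₁ ∧ atInc π t V (Sum.inr 𝔫) c₂ ∧
      (∀ c, atInc π t V (Sum.inr 𝔫) c → c = c₁ ∨ c = c₂) ∧
      StbCross (atO π t (Sum.inr 𝔫)) (V c₁) (V c₂) Φ' Q m (g • x / x)) ∨
    (∃ c, atInc π t V (Sum.inr 𝔫) c ∧ (∀ c', atInc π t V (Sum.inr 𝔫) c' → c' = c) ∧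
      ∃ i₁ : AtPt (F := F) π t ⊕ AtPt (F := F) π t⁻¹, atInc π t V i₁ c ∧
        StbSmooth (atO π t (Sum.inr 𝔫)) (atO π t i₁) (V c) Φ' m (g • x / x)) := by
  have hΦeq : Φ' = (SemilinearAut.toRingAut Φ : F ≃+* F).toRingHom := RingHom.ext hΦ'
  subst hΦeq
  have hgB₀ : ∀ b : F, IsIntegral ↥(Algebra.adjoin A₀ {t⁻¹}) b →
      IsIntegral ↥(Algebra.adjoin A₀ {t⁻¹}) (g • b) :=
    fun b hb => stb_mt_isIntegral_smul g hgu hgA hb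
  have hgu' : g⁻¹ • t⁻¹ = t⁻¹ := by
    conv_lhs => rw [← hgu]
    rw [inv_smul_smul]
  have hgB₀' : ∀ b : F, IsIntegral ↥(Algebra.adjoin A₀ {t⁻¹}) b →
      IsIntegral ↥(Algebra.adjoin A₀ {t⁻¹}) (g⁻¹ • b) :=
    fun b hb => stb_mt_isIntegral_smul g⁻¹ hgu' hgA' hb
  have hΦB₀ : ∀ b : F, IsIntegral ↥(Algebra.adjoin A₀ {t⁻¹}) b →
      IsIntegral ↥(Algebra.adjoin A₀ {t⁻¹}) (Φ • b) :=
    fun b hb => stb_mt_isIntegral_smul Φ hΦu hΦA hb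
  have hΦu' : Φ⁻¹ • t⁻¹ = t⁻¹ := by
    conv_lhs => rw [← hΦu]
    rw [inv_smul_smul]
  have hΦB₀' : ∀ b : F, IsIntegral ↥(Algebra.adjoin A₀ {t⁻¹}) b →
      IsIntegral ↥(Algebra.adjoin A₀ {t⁻¹}) (Φ⁻¹ • b) :=
    fun b hb => stb_mt_isIntegral_smul Φ⁻¹ hΦu' hΦA' hb
  rcases hnode with ⟨s, hs, hgen⟩ | ⟨c₁, c₂, X, Y, w, hcr⟩
  · -- smooth point
    right
    have hne' : ∀ c c', c ≠ c' → V c ≠ V c' := fun c c' hcc' h => hcc' (hinj h)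
    have hyfin : ∀ 𝔫' : AtPt (F := F) π t⁻¹, {P : Place E F |
        LsTube ↥(zchClosure (A₀ := A₀) ({t⁻¹} : Set F)) t⁻¹ 𝔫'.1 P ∧
          P.ord (g • x / x) ≠ 0}.Finite := by
      intro 𝔫'
      have h2 : {P : Place E F | (g⁻¹ • P).ord x ≠ 0}.Finite := by
        have := hfin.image (fun P : Place E F => g • P)
        refine this.subset ?_
        intro P hP
        exact ⟨g⁻¹ • P, hP, smul_inv_smul g P⟩
      refine (hfin.union h2).subset ?_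
      rintro P ⟨-, hP⟩
      rw [stb_mt_ord_div g P hx] at hP
      by_contra hcon
      rw [Set.mem_union, not_or] at hcon
      have h3 : P.ord x = 0 := not_not.mp hcon.1
      have h4 : (g⁻¹ • P).ord x = 0 := not_not.mp hcon.2
      exact hP (by rw [h3, h4, sub_zero])
    have hym : ∀ 𝔫' : AtPt (F := F) π t⁻¹, ∀ P : Place E F,
        LsTube ↥(zchClosure (A₀ := A₀) ({t⁻¹} : Set F)) t⁻¹ 𝔫'.1 P →
          (m : ℤ) ∣ P.ord (g • x / x) := by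
      intro 𝔫' P _
      rw [stb_mt_ord_div g P hx]
      exact dvd_sub (hm _) (hm _)
    have hyrat : ∀ 𝔫' : AtPt (F := F) π t⁻¹, ∀ P : Place E F,
        LsTube ↥(zchClosure (A₀ := A₀) ({t⁻¹} : Set F)) t⁻¹ 𝔫'.1 P → P.ord (g • x / x) ≠ 0 →
        ∀ f ∈ P.toValuationSubring,
          ∃ c : E, f - algebraMap E F c ∈ P.toValuationSubring.nonunits := by
      intro 𝔫' P _ hP
      by_cases h3 : P.ord x = 0
      · have h4 : (g⁻¹ • P).ord x ≠ 0 := by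
          intro h4
          rw [stb_mt_ord_div g P hx, h3, h4, sub_zero] at hP
          exact hP rfl
        have := stb_mt_rat_smul g (g⁻¹ • P) (hrat _ h4)
        rwa [smul_inv_smul] at this
      · exact hrat P h3
    exact stb_sx_hpts_inr hπ ht' V hBV hπV hSS1 hVloc hne' harch (SemilinearAut.toRingAut Φ)
      hΦB₀ hΦB₀'
      (stb_st_map_pi E hπ (SemilinearAut.toRingAut Φ) hΦA hΦA')
      (stb_st_map_pi E hπ (SemilinearAut.toRingAut Φ).symm hΦA' hΦA)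
      (fun c x hx' => stb_mt_map_nonunits Φ (V c) (hΦV c) hx')
      (fun c x hx' => stb_mt_map_nonunits Φ⁻¹ (V c) (stb_mt_inv_valuation Φ (V c) (hΦV c)) hx')
      𝔫 (j s) hs (hram.mgg_locGen_pair 𝔫.2.2 s hgen) m tt htoric hyfin hym hyrat
  · -- crossing point
    left
    obtain ⟨hT₁, hT₂⟩ := hcr.through V hBV hπV hram
    have hcc := rtk6ewm_cross_ne (E := E) hπ V hinj hBV hπV hSS1 harch hVloc 𝔫 q hq0 j p hram
      hjp hcr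
    obtain ⟨hgB, hgB'⟩ := hfix c₁ c₂ hcc hT₁ hT₂
    exact ⟨c₁, c₂, rtk6ewm_cp_cross hπ ht' V hinj hBV hπV hSS1 harch hVloc g hgu 𝔫 hgB hgB'
      hgB₀ hgB₀' hgV hgA q hq0 hqπ (rtk6ew_smul_dvd g hgA hgA' q) j p hram hjp hcr
      (SemilinearAut.toRingAut Φ : F ≃+* F).toRingHom Q (hcong c₁ c₂ hcc hT₁ hT₂) hx m
      (hfin.subset fun P hP => hP.2.2) (fun P _ _ => hm P) (fun P _ _ hP => hrat P hP)⟩

/-- **The hypothesis `hpts` of `rtk6ewm_main_points`** (all closed points of both charts) for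
`y = g • x / x` and the map `Φ`.  Fork of `rtk6ew_hpts` for a finite family. -/
theorem rtk6ewm_hpts (hπ : Irreducible π) {t : F} (ht : Transcendental E t)
    [FiniteDimensional E⟮t⟯ F] [Finite κ]
    [IsNoetherianRing ↥(zchClosure (A₀ := A₀) ({t} : Set F))]
    [IsNoetherianRing ↥(zchClosure (A₀ := A₀) ({t⁻¹} : Set F))]
    (V : κ → ValuationSubring F) (hinj : Function.Injective V)
    (hBV₁ : ∀ c (b : F), IsIntegral ↥(Algebra.adjoin A₀ {t}) b → b ∈ V c)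
    (hBV₂ : ∀ c (b : F), IsIntegral ↥(Algebra.adjoin A₀ {t⁻¹}) b → b ∈ V c)
    (hπV : ∀ c, algebraMap A₀ F π ∈ (V c).nonunits)
    (hSS1 : ∀ b : F, IsIntegral ↥(Algebra.adjoin A₀ {t}) b → (∀ c, b ∈ (V c).nonunits) →
      ∃ b' : F, IsIntegral ↥(Algebra.adjoin A₀ {t}) b' ∧ b = algebraMap A₀ F π * b')
    (harch : ∀ c (a x : F), a ∈ (V c).nonunits → ∃ N : ℕ, a ^ N * x ∈ (V c).nonunits)
    (hVloc₁ : ∀ c (x : F), x ∈ V c → ∃ b s : F, IsIntegral ↥(Algebra.adjoin A₀ {t}) b ∧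
      IsIntegral ↥(Algebra.adjoin A₀ {t}) s ∧ s ∉ (V c).nonunits ∧ s * x = b)
    (hVloc₂ : ∀ c (x : F), x ∈ V c → ∃ b s : F, IsIntegral ↥(Algebra.adjoin A₀ {t⁻¹}) b ∧
      IsIntegral ↥(Algebra.adjoin A₀ {t⁻¹}) s ∧ s ∉ (V c).nonunits ∧ s * x = b)
    (g : SemilinearAut E F) (hgt : g • t = t)
    (hgV : ∀ c (f : F), f ≠ 0 → (V c).valuation (g • f / f) = 1)
    (hgA : ∀ α : A₀, ∃ α' : A₀, g • algebraMap A₀ F α = algebraMap A₀ F α')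
    (hgA' : ∀ α : A₀, ∃ α' : A₀, g⁻¹ • algebraMap A₀ F α = algebraMap A₀ F α')
    (Φ : SemilinearAut E F) (hΦt : Φ • t = t)
    (hΦV : ∀ c (f : F), f ≠ 0 → (V c).valuation (Φ • f / f) = 1)
    (hΦA : ∀ α : A₀, ∃ α' : A₀, Φ • algebraMap A₀ F α = algebraMap A₀ F α')
    (hΦA' : ∀ α : A₀, ∃ α' : A₀, Φ⁻¹ • algebraMap A₀ F α = algebraMap A₀ F α')
    (q : A₀) (hq0 : q ≠ 0) (hqπ : π ∣ q)
    {R₁ : Type*} [CommRing R₁] (j₁ : R₁ →+* ↥(zchClosure (A₀ := A₀) ({t} : Set F))) (p₁ : R₁)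
    (hram₁ : MgcRamified j₁ (algebraMap A₀ ↥(zchClosure (A₀ := A₀) ({t} : Set F)) π) p₁)
    (hjp₁ : j₁ p₁ = algebraMap A₀ ↥(zchClosure (A₀ := A₀) ({t} : Set F)) q)
    {R₂ : Type*} [CommRing R₂] (j₂ : R₂ →+* ↥(zchClosure (A₀ := A₀) ({t⁻¹} : Set F))) (p₂ : R₂)
    (hram₂ : MgcRamified j₂ (algebraMap A₀ ↥(zchClosure (A₀ := A₀) ({t⁻¹} : Set F)) π) p₂)
    (hjp₂ : j₂ p₂ = algebraMap A₀ ↥(zchClosure (A₀ := A₀) ({t⁻¹} : Set F)) q)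
    (hnode₁ : ∀ 𝔫 : AtPt (F := F) π t, Rtk6ewmNodeAt V 𝔫 j₁ p₁)
    (hnode₂ : ∀ 𝔫 : AtPt (F := F) π t⁻¹, Rtk6ewmNodeAt V 𝔫 j₂ p₂)
    (Q : ℕ)
    (hfix₁ : ∀ (𝔫 : AtPt (F := F) π t) (c₁ c₂ : κ), c₁ ≠ c₂ → atThrough 𝔫 (V c₁) →
      atThrough 𝔫 (V c₂) → Rtk6ewFix g 𝔫)
    (hfix₂ : ∀ (𝔫 : AtPt (F := F) π t⁻¹) (c₁ c₂ : κ), c₁ ≠ c₂ → atThrough 𝔫 (V c₁) →
      atThrough 𝔫 (V c₂) → Rtk6ewFix g 𝔫)
    (Φ' : F →+* F) (hΦ' : ∀ x : F, Φ' x = Φ • x)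
    (hcong₁ : ∀ (𝔫 : AtPt (F := F) π t) (c₁ c₂ : κ), c₁ ≠ c₂ → atThrough 𝔫 (V c₁) →
      atThrough 𝔫 (V c₂) → Rtk6ewCong Φ' Q 𝔫)
    (hcong₂ : ∀ (𝔫 : AtPt (F := F) π t⁻¹) (c₁ c₂ : κ), c₁ ≠ c₂ → atThrough 𝔫 (V c₁) →
      atThrough 𝔫 (V c₂) → Rtk6ewCong Φ' Q 𝔫)
    {x : F} (hx : x ≠ 0) (m : ℕ)
    (hfin : {P : Place E F | P.ord x ≠ 0}.Finite)
    (hm : ∀ P : Place E F, (m : ℤ) ∣ P.ord x)
    (hrat : ∀ P : Place E F, P.ord x ≠ 0 → ∀ f ∈ P.toValuationSubring,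
      ∃ c : E, f - algebraMap E F c ∈ P.toValuationSubring.nonunits)
    (tt : κ → F) (htoric : ∀ c, (g • x / x) / tt c ^ m - 1 ∈ (V c).nonunits) :
    ∀ i : AtPt (F := F) π t ⊕ AtPt (F := F) π t⁻¹,
      (∃ c₁ c₂ : κ, atInc π t V i c₁ ∧ atInc π t V i c₂ ∧
        (∀ c, atInc π t V i c → c = c₁ ∨ c = c₂) ∧
        StbCross (atO π t i) (V c₁) (V c₂) Φ' Q m (g • x / x)) ∨
      (∃ c, atInc π t V i c ∧ (∀ c', atInc π t V i c' → c' = c) ∧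
        ∃ i₁ : AtPt (F := F) π t ⊕ AtPt (F := F) π t⁻¹, atInc π t V i₁ c ∧
          StbSmooth (atO π t i) (atO π t i₁) (V c) Φ' m (g • x / x)) := by
  haveI : FiniteDimensional E⟮t⁻¹⟯ F := at_finiteDimensional_inv t
  have ht' : Transcendental E t⁻¹ := zch_transcendental_inv ht
  rintro (𝔫 | 𝔫)
  · exact rtk6ewm_hpts_inl hπ ht V hinj hBV₁ hπV hSS1 harch hVloc₁ g hgt hgV hgA hgA'
      Φ hΦt hΦV hΦA hΦA' q hq0 hqπ j₁ p₁ hram₁ hjp₁ 𝔫 (hnode₁ 𝔫) Q (hfix₁ 𝔫) Φ' hΦ' (hcong₁ 𝔫)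
      hx m hfin hm hrat tt htoric
  · exact rtk6ewm_hpts_inr hπ ht' V hinj hBV₂ hπV (ats_SS1_inv ht hπ V hBV₁ hSS1) harch
      hVloc₂ g (at_smul_inv hgt) hgV hgA hgA' Φ (at_smul_inv hΦt) hΦV hΦA hΦA' q hq0 hqπ
      j₂ p₂ hram₂ hjp₂ 𝔫 (hnode₂ 𝔫) Q (hfix₂ 𝔫) Φ' hΦ' (hcong₂ 𝔫) hx m hfin hm hrat tt htoric

/-- **(T″) for a FINITE FAMILY of components with TWO automorphisms** — (M6) of
`NOTES/RT-K6-D.md` v5, the twin of `rtk6ew_main_two` without `κ = {c₁, c₂}`.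
`V : κ → ValuationSubring F` an injective finite family of vertical valuation rings with (SS1),
`hBV`, `hVloc`, `harch`; `g`, `Φ` semilinear automorphisms fixing `t`, preserving `A₀` (with their
inverses) and EVERY `V c`; every closed point of the two charts is smooth or a thin crossing point
of two components of the family (`Rtk6ewmNodeAt`); at every point where two distinct components
pass, `g 𝔫 = 𝔫` and `Φ b ≡ b ^ Q` mod `𝔫`; `p ^ r ∣ div x`, rational support, `y = g • x / x`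
toric at every `V c`.  Then `Φ y / y ^ Q` is a `p ^ r`-th power. -/
theorem rtk6ew_main_multi (hπ : Irreducible π) {t : F} (ht : Transcendental E t)
    (hcl : ∀ x : F, IsAlgebraic E x → x ∈ (algebraMap E F).range)
    {p : ℕ} (hp : p.Prime) (hpu : IsUnit (p : A₀)) {ζ : A₀} (hζ : IsPrimitiveRoot ζ p)
    (hunit : ∀ a : A₀, IsUnit a → ∃ d : A₀, d ^ p = a)
    [FiniteDimensional E⟮t⟯ F] [Finite κ]
    [IsNoetherianRing ↥(zchClosure (A₀ := A₀) ({t} : Set F))]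
    [IsNoetherianRing ↥(zchClosure (A₀ := A₀) ({t⁻¹} : Set F))]
    (V : κ → ValuationSubring F) (hinj : Function.Injective V)
    (hBV₁ : ∀ c (b : F), IsIntegral ↥(Algebra.adjoin A₀ {t}) b → b ∈ V c)
    (hBV₂ : ∀ c (b : F), IsIntegral ↥(Algebra.adjoin A₀ {t⁻¹}) b → b ∈ V c)
    (hπV : ∀ c, algebraMap A₀ F π ∈ (V c).nonunits)
    (hSS1 : ∀ b : F, IsIntegral ↥(Algebra.adjoin A₀ {t}) b → (∀ c, b ∈ (V c).nonunits) →
      ∃ b' : F, IsIntegral ↥(Algebra.adjoin A₀ {t}) b' ∧ b = algebraMap A₀ F π * b')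
    (harch : ∀ c (a x : F), a ∈ (V c).nonunits → ∃ N : ℕ, a ^ N * x ∈ (V c).nonunits)
    (hVloc₁ : ∀ c (x : F), x ∈ V c → ∃ b s : F, IsIntegral ↥(Algebra.adjoin A₀ {t}) b ∧
      IsIntegral ↥(Algebra.adjoin A₀ {t}) s ∧ s ∉ (V c).nonunits ∧ s * x = b)
    (hVloc₂ : ∀ c (x : F), x ∈ V c → ∃ b s : F, IsIntegral ↥(Algebra.adjoin A₀ {t⁻¹}) b ∧
      IsIntegral ↥(Algebra.adjoin A₀ {t⁻¹}) s ∧ s ∉ (V c).nonunits ∧ s * x = b)
    (g : SemilinearAut E F) (hgt : g • t = t)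
    (hgV : ∀ c (f : F), f ≠ 0 → (V c).valuation (g • f / f) = 1)
    (hgA : ∀ α : A₀, ∃ α' : A₀, g • algebraMap A₀ F α = algebraMap A₀ F α')
    (hgA' : ∀ α : A₀, ∃ α' : A₀, g⁻¹ • algebraMap A₀ F α = algebraMap A₀ F α')
    (Φ : SemilinearAut E F) (hΦt : Φ • t = t)
    (hΦV : ∀ c (f : F), f ≠ 0 → (V c).valuation (Φ • f / f) = 1)
    (hΦA : ∀ α : A₀, ∃ α' : A₀, Φ • algebraMap A₀ F α = algebraMap A₀ F α')
    (hΦA' : ∀ α : A₀, ∃ α' : A₀, Φ⁻¹ • algebraMap A₀ F α = algebraMap A₀ F α')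
    (q : A₀) (hq0 : q ≠ 0) (hqπ : π ∣ q)
    {R₁ : Type*} [CommRing R₁] (j₁ : R₁ →+* ↥(zchClosure (A₀ := A₀) ({t} : Set F))) (p₁ : R₁)
    (hram₁ : MgcRamified j₁ (algebraMap A₀ ↥(zchClosure (A₀ := A₀) ({t} : Set F)) π) p₁)
    (hjp₁ : j₁ p₁ = algebraMap A₀ ↥(zchClosure (A₀ := A₀) ({t} : Set F)) q)
    {R₂ : Type*} [CommRing R₂] (j₂ : R₂ →+* ↥(zchClosure (A₀ := A₀) ({t⁻¹} : Set F))) (p₂ : R₂)
    (hram₂ : MgcRamified j₂ (algebraMap A₀ ↥(zchClosure (A₀ := A₀) ({t⁻¹} : Set F)) π) p₂)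
    (hjp₂ : j₂ p₂ = algebraMap A₀ ↥(zchClosure (A₀ := A₀) ({t⁻¹} : Set F)) q)
    (hnode₁ : ∀ 𝔫 : AtPt (F := F) π t, Rtk6ewmNodeAt V 𝔫 j₁ p₁)
    (hnode₂ : ∀ 𝔫 : AtPt (F := F) π t⁻¹, Rtk6ewmNodeAt V 𝔫 j₂ p₂)
    (Q : ℕ)
    (hfix₁ : ∀ (𝔫 : AtPt (F := F) π t) (c₁ c₂ : κ), c₁ ≠ c₂ → atThrough 𝔫 (V c₁) →
      atThrough 𝔫 (V c₂) → Rtk6ewFix g 𝔫)
    (hfix₂ : ∀ (𝔫 : AtPt (F := F) π t⁻¹) (c₁ c₂ : κ), c₁ ≠ c₂ → atThrough 𝔫 (V c₁) →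
      atThrough 𝔫 (V c₂) → Rtk6ewFix g 𝔫)
    (Φ' : F →+* F) (hΦ' : ∀ x : F, Φ' x = Φ • x)
    (hcong₁ : ∀ (𝔫 : AtPt (F := F) π t) (c₁ c₂ : κ), c₁ ≠ c₂ → atThrough 𝔫 (V c₁) →
      atThrough 𝔫 (V c₂) → Rtk6ewCong Φ' Q 𝔫)
    (hcong₂ : ∀ (𝔫 : AtPt (F := F) π t⁻¹) (c₁ c₂ : κ), c₁ ≠ c₂ → atThrough 𝔫 (V c₁) →
      atThrough 𝔫 (V c₂) → Rtk6ewCong Φ' Q 𝔫)
    {x : F} (hx : x ≠ 0) (r : ℕ)
    (hfin : {P : Place E F | P.ord x ≠ 0}.Finite)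
    (hm : ∀ P : Place E F, ((p ^ r : ℕ) : ℤ) ∣ P.ord x)
    (hrat : ∀ P : Place E F, P.ord x ≠ 0 → ∀ f ∈ P.toValuationSubring,
      ∃ c : E, f - algebraMap E F c ∈ P.toValuationSubring.nonunits)
    (tt : κ → F) (htoric : ∀ c, (g • x / x) / tt c ^ (p ^ r) - 1 ∈ (V c).nonunits) :
    ∃ h : F, h ^ (p ^ r) = Φ' (g • x / x) / (g • x / x) ^ Q :=
  rtk6ewm_main_points hπ ht hcl hp hpu hζ hunit V hinj hBV₁ hBV₂ hπV hSS1 harch hVloc₁ Φ'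
    (fun c y hy => by
      rw [hΦ']
      exact stb_mt_map_nonunits Φ (V c) (hΦV c) hy) Q r tt htoric
    (rtk6ewm_hpts hπ ht V hinj hBV₁ hBV₂ hπV hSS1 harch hVloc₁ hVloc₂ g hgt hgV hgA hgA'
      Φ hΦt hΦV hΦA hΦA' q hq0 hqπ j₁ p₁ hram₁ hjp₁ j₂ p₂ hram₂ hjp₂ hnode₁ hnode₂ Q
      hfix₁ hfix₂ Φ' hΦ' hcong₁ hcong₂ hx (p ^ r) hfin hm hrat tt htoric)

/-- **`rtk6ew_main_two` is the case `κ = {c₁, c₂}` of `rtk6ew_main_multi`** (sanity check of the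
shape of the hypotheses): the thin dichotomy for the pair `(V c₁, V c₂)` gives `Rtk6ewmNodeAt`. -/
theorem rtk6ewm_nodeAt_of_pair (V : κ → ValuationSubring F) (c₁ c₂ : κ) {u : F}
    (𝔫 : AtPt (F := F) π u)
    {R : Type*} [CommRing R] (j : R →+* ↥(zchClosure (A₀ := A₀) ({u} : Set F))) (p : R)
    (h : (∃ s : R, j s ∈ 𝔫.1 ∧ NodesLocGen (𝔫.1.comap j) {p, s}) ∨
      ∃ X Y w : R, Rtk6ewmCrossAt (V c₁) (V c₂) 𝔫 j p X Y w) :
    Rtk6ewmNodeAt V 𝔫 j p := by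
  rcases h with h | ⟨X, Y, w, h⟩
  · exact Or.inl h
  · exact Or.inr ⟨c₁, c₂, X, Y, w, h⟩

end EWMulti

end Fermat.Agent.RT.K6
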