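/-
K-machine, piece K6, piece **C4-inst (B)** (helper81): THE TOP HALF of the instance of
`Rtk6emNode` (`RT/K6/EMain.lean`), generic in the intermediate level `K₁′ ≤ K₁`
(case (U): `K₁′ = rtk6ebK q 1`, unramified; case (χ): `K₁′ = rtk6ebK r d`, thin).

`A₁ = mgcA A K₁′` (uniformizer `ϖ₁`), `A′ = mgcA A K₁` (uniformizer `π`),
`F₁ = rtk6diF A K₁′ L M H`, `F′ = rtk6diF A K₁ L M H`, `ι : F₁ → F′` coefficientwise,
`R₁ = zchClosure {u₁}` the chart of `F₁` over `A₁`, `B′ = zchClosure {u}` the chart of `F′`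
over `A′`, `j : R₁ →+* B′` the (D-BC) map (`MgcRamified j π ϖ₁`, `(j b : F′) = ι b`).

* `rtk6c4b_comap_isMaximal`, `rtk6c4bPt` : a closed point `𝔫` of the special fibre of `B′` lies
  over the closed point `𝔫 ∩ R₁` of the special fibre of `R₁`;
* `rtk6c4b_nodeAt` : **transfer of the dichotomy** (FAM-res (R3)):
  `Rtk6ewmNodeAt V₁ (𝔫 ∩ R₁) id ϖ₁ → Rtk6ewmNodeAt V 𝔫 j ϖ₁`, if every component of the family
  `V₁` is the restriction of a component of `V` (FAM-res (R2));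
* `rtk6c4b_chartAt_abs` : `∃ R j p, MgcRamified j π p ∧ j p = q′ ∧ ∀ 𝔫, Rtk6ewmNodeAt V 𝔫 j p`
  (the body of `Rtk6emChartAt`) from the dichotomy at the level `A₁`;
* `rtk6c4b_dbc_zch` : the (D-BC) datum of `rtk6dbc_ramified_gen` (domain
  `integralClosure A₁[u₁] F₁`) in the shape of the chart `zchClosure {u₁}`.
The concrete theorem `rtk6c4b_node` (`Rtk6emNode` at `K₁`) is in `RT/K6/C4InstBNode.lean`.
-/
import Fermat.Agent.RT.K6.EWMulti

set_option autoImplicit false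
set_option linter.style.haveILetI false
set_option linter.unusedSectionVars false
set_option linter.unusedVariables false
set_option linter.style.longLine false

namespace Fermat.Agent.RT.K6

open Polynomial IntermediateField Fermat.Agent.INJ AlgebraicCurve Fermat.Agent.UNIP
  Fermat.Agent.STB

/-! ### Closed points under a (D-BC) map -/

section Ram

variable {R R' : Type*} [CommRing R] [CommRing R'] {j : R →+* R'} {ϖ : R'} {p : R}

/-- the contraction of a maximal ideal `𝔫 ∋ ϖ` along a (D-BC) map is maximal -/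
theorem rtk6c4b_comap_isMaximal (hram : MgcRamified j ϖ p) (𝔫 : Ideal R') (h𝔫 : 𝔫.IsMaximal)
    (hϖ : ϖ ∈ 𝔫) : (𝔫.comap j).IsMaximal := by
  haveI := h𝔫
  have hsurj : Function.Surjective ((Ideal.Quotient.mk 𝔫).comp j) := by
    intro y
    obtain ⟨x, rfl⟩ := Ideal.Quotient.mk_surjective y
    obtain ⟨c, z, hx⟩ := hram.decomp x
    refine ⟨c, ?_⟩
    rw [RingHom.comp_apply, hx, map_add, map_mul, Ideal.Quotient.eq_zero_iff_mem.mpr hϖ,
      zero_mul, add_zero]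
  have hker : RingHom.ker ((Ideal.Quotient.mk 𝔫).comp j) = 𝔫.comap j := by
    ext x
    rw [RingHom.mem_ker, RingHom.comp_apply, Ideal.Quotient.eq_zero_iff_mem, Ideal.mem_comap]
  rw [← hker]
  letI := Ideal.Quotient.field 𝔫
  exact RingHom.ker_isMaximal_of_surjective _ hsurj

/-- `p` lies in the contraction of every ideal containing `ϖ` -/
theorem rtk6c4b_mem_comap (hram : MgcRamified j ϖ p) (𝔫 : Ideal R') (hϖ : ϖ ∈ 𝔫) :
    p ∈ 𝔫.comap j := by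
  obtain ⟨z, hz⟩ := hram.dvd
  rw [Ideal.mem_comap, hz]
  exact Ideal.mul_mem_right _ _ hϖ

end Ram

/-! ### Transfer of the dichotomy -/

section Transfer

universe v

variable {A₁ E₁ : Type*} {F₁ : Type v} [CommRing A₁] [IsDomain A₁] [IsDiscreteValuationRing A₁]
  [Field E₁] [Algebra A₁ E₁] [IsFractionRing A₁ E₁] [CharZero E₁]
  [Field F₁] [Algebra E₁ F₁] [Algebra A₁ F₁] [IsScalarTower A₁ E₁ F₁]
  {A' E' F' : Type*} [CommRing A'] [IsDomain A'] [IsDiscreteValuationRing A']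
  [Field E'] [Algebra A' E'] [IsFractionRing A' E'] [CharZero E']
  [Field F'] [Algebra E' F'] [Algebra A' F'] [IsScalarTower A' E' F']
  {ϖ₁ : A₁} {π : A'} {u₁ : F₁} {u : F'}
  {κ₁ κ : Type*} (V₁ : κ₁ → ValuationSubring F₁) (V : κ → ValuationSubring F')
  (ι : F₁ →+* F')
  (j : ↥(zchClosure (A₀ := A₁) ({u₁} : Set F₁)) →+* ↥(zchClosure (A₀ := A') ({u} : Set F')))

/-- the closed point `𝔫 ∩ R₁` of the chart `R₁` under the closed point `𝔫` of the chart `B′` -/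
def rtk6c4bPt
    (hram : MgcRamified j (algebraMap A' ↥(zchClosure (A₀ := A') ({u} : Set F')) π)
      (algebraMap A₁ ↥(zchClosure (A₀ := A₁) ({u₁} : Set F₁)) ϖ₁))
    (𝔫 : AtPt (F := F') π u) : AtPt (F := F₁) ϖ₁ u₁ :=
  ⟨𝔫.1.comap j, rtk6c4b_comap_isMaximal hram 𝔫.1 𝔫.2.1 𝔫.2.2,
    rtk6c4b_mem_comap hram 𝔫.1 𝔫.2.2⟩

@[simp] theorem rtk6c4bPt_val
    (hram : MgcRamified j (algebraMap A' ↥(zchClosure (A₀ := A') ({u} : Set F')) π)
      (algebraMap A₁ ↥(zchClosure (A₀ := A₁) ({u₁} : Set F₁)) ϖ₁))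
    (𝔫 : AtPt (F := F') π u) : (rtk6c4bPt j hram 𝔫).1 = 𝔫.1.comap j := rfl

/-- **FAM-res (R3): transfer of the dichotomy** from the chart `R₁` (over `A₁`) to `(B′, j)`. -/
theorem rtk6c4b_nodeAt
    (hj : ∀ b, ((j b : ↥(zchClosure (A₀ := A') ({u} : Set F'))) : F') = ι (b : F₁))
    (hram : MgcRamified j (algebraMap A' ↥(zchClosure (A₀ := A') ({u} : Set F')) π)
      (algebraMap A₁ ↥(zchClosure (A₀ := A₁) ({u₁} : Set F₁)) ϖ₁))
    (hR2 : ∀ c₁ : κ₁, ∃ c : κ, ∀ x : F₁, ι x ∈ (V c).nonunits ↔ x ∈ (V₁ c₁).nonunits)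
    (𝔫 : AtPt (F := F') π u)
    (h : Rtk6ewmNodeAt V₁ (rtk6c4bPt j hram 𝔫) (RingHom.id _)
      (algebraMap A₁ ↥(zchClosure (A₀ := A₁) ({u₁} : Set F₁)) ϖ₁)) :
    Rtk6ewmNodeAt V 𝔫 j (algebraMap A₁ ↥(zchClosure (A₀ := A₁) ({u₁} : Set F₁)) ϖ₁) := by
  rcases h with ⟨s, hs, hgen⟩ | ⟨c₁, c₂, X, Y, w, h1, h2, hX, hY, hw, hwp, hgen⟩
  · exact Or.inl ⟨s, hs, hgen⟩
  · obtain ⟨c₁', hc₁'⟩ := hR2 c₁
    obtain ⟨c₂', hc₂'⟩ := hR2 c₂
    refine Or.inr ⟨c₁', c₂', X, Y, w, ?_, ?_, ?_, ?_, hw, hwp, hgen⟩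
    · intro x hx
      rw [hj] at hx
      exact h1 x ((hc₁' _).mp hx)
    · intro x hx
      rw [hj] at hx
      exact h2 x ((hc₂' _).mp hx)
    · rw [hj]
      exact (hc₁' _).mpr hX
    · rw [hj]
      exact (hc₂' _).mpr hY

/-- **The body of `Rtk6emChartAt`** from the dichotomy on the chart `R₁` over `A₁`:
`R := R₁`, `p := ϖ₁`. -/
theorem rtk6c4b_chartAt_abs
    (hj : ∀ b, ((j b : ↥(zchClosure (A₀ := A') ({u} : Set F'))) : F') = ι (b : F₁))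
    (hram : MgcRamified j (algebraMap A' ↥(zchClosure (A₀ := A') ({u} : Set F')) π)
      (algebraMap A₁ ↥(zchClosure (A₀ := A₁) ({u₁} : Set F₁)) ϖ₁))
    {q' : A'}
    (hjp : j (algebraMap A₁ ↥(zchClosure (A₀ := A₁) ({u₁} : Set F₁)) ϖ₁) =
      algebraMap A' ↥(zchClosure (A₀ := A') ({u} : Set F')) q')
    (hR2 : ∀ c₁ : κ₁, ∃ c : κ, ∀ x : F₁, ι x ∈ (V c).nonunits ↔ x ∈ (V₁ c₁).nonunits)
    (hA : ∀ 𝔫₁ : AtPt (F := F₁) ϖ₁ u₁, Rtk6ewmNodeAt V₁ 𝔫₁ (RingHom.id _)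
      (algebraMap A₁ ↥(zchClosure (A₀ := A₁) ({u₁} : Set F₁)) ϖ₁)) :
    ∃ (R : Type v) (_ : CommRing R)
      (j' : R →+* ↥(zchClosure (A₀ := A') ({u} : Set F'))) (p : R),
      MgcRamified j' (algebraMap A' ↥(zchClosure (A₀ := A') ({u} : Set F')) π) p ∧
      j' p = algebraMap A' ↥(zchClosure (A₀ := A') ({u} : Set F')) q' ∧
      ∀ 𝔫 : AtPt (F := F') π u, Rtk6ewmNodeAt V 𝔫 j' p :=
  ⟨↥(zchClosure (A₀ := A₁) ({u₁} : Set F₁)), inferInstance, j,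
    algebraMap A₁ ↥(zchClosure (A₀ := A₁) ({u₁} : Set F₁)) ϖ₁, hram, hjp,
    fun 𝔫 => rtk6c4b_nodeAt V₁ V ι j hj hram hR2 𝔫 (hA _)⟩

end Transfer

/-! ### The (D-BC) datum in the two shapes of the chart -/

section Shape

variable {A₁ F₁ R' F' : Type*} [CommRing A₁] [Field F₁] [Algebra A₁ F₁] [CommRing R']
  {u₁ : F₁} {ϖ₁ : A₁} {ϖ' q' : R'}

/-- the (D-BC) datum of `rtk6dbc_ramified_gen` (domain `integralClosure A₁[u₁] F₁`) in the shape
of the charts `zchClosure {u₁}` (generic, so that the conversion is checked once, with small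
instances) -/
theorem rtk6c4b_dbc_zch (c : R' → F') (ι : F₁ → F')
    (hD : ∃ j : ↥(integralClosure (Algebra.adjoin A₁ ({u₁} : Set F₁)) F₁) →+* R',
      (∀ b, c (j b) = ι (b : F₁)) ∧
      MgcRamified j ϖ'
        (algebraMap A₁ ↥(integralClosure (Algebra.adjoin A₁ ({u₁} : Set F₁)) F₁) ϖ₁) ∧
      j (algebraMap A₁ ↥(integralClosure (Algebra.adjoin A₁ ({u₁} : Set F₁)) F₁) ϖ₁) = q') :
    ∃ j : ↥(zchClosure (A₀ := A₁) ({u₁} : Set F₁)) →+* R',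
      (∀ b, c (j b) = ι (b : F₁)) ∧
      MgcRamified j ϖ' (algebraMap A₁ ↥(zchClosure (A₀ := A₁) ({u₁} : Set F₁)) ϖ₁) ∧
      j (algebraMap A₁ ↥(zchClosure (A₀ := A₁) ({u₁} : Set F₁)) ϖ₁) = q' := hD

end Shape

end Fermat.Agent.RT.K6
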