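import Fermat.Agent.ES1.ConjUse
import Fermat.Agent.RT.K6.Plan

/-!
# RT-K6 / D0 — the Kummer generator (Lagrange resolvent) of `fieldC K L M H` (helper36)

`M ∣ L`, `H, D ≤ (ℤ/M)ˣ`, `ψ : (ℤ/M)ˣ →* Kˣ` a character (in the application `D` = the diamonds
at `r`, `ψ` trivial on `±H` and faithful on the image of `D` in `(ℤ/M)ˣ/±H`).

* `rtk6d0Y K M H D ψ = Σ_{c ∈ D} ψ(c)⁻¹ S_{M,H,c} ∈ K((q))` — the resolvent.
* `rtk6d0Y_mem`      : it lies in `fieldC K L M H`.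
* `rtk6d0_map`       : an automorphism `σ` with `σ S_b = S_{bc}` (`c ∈ D`) maps `y` to `ψ(c) · y`.
* `rtk6d0N M H D`    : `n₀ = #(D ∩ ±H)`; `rtk6d0N_pos`.
* `rtk6d0_coeff_three`, `rtk6d0_coeff_lt` : `y = n₀ q³ + …` (if `ψ` is trivial on `±H`, `3 ≤ M`).
* `rtk6d0Y_ne_zero`  : `y ≠ 0` in characteristic `0`.
* `rtk6d0_kronPrim`  : over `ℚ̄`, `y` is primitive at every valuation ring `A` in which `n₀` is a
  unit (e.g. `A` over `r`, `D` the diamonds at `r`: `n₀ ∣ r − 1`).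
-/

set_option autoImplicit false

noncomputable section

namespace Fermat.Agent.RT.K6

open HahnSeries ModularCurve AlgebraicCurve Fermat.Agent.ES Fermat.Agent.ES1
  Fermat.Agent.ES1.G2

section Resolvent

variable (K : Type*) [Field K] (M : ℕ) [NeZero M] (H D : Subgroup (ZMod M)ˣ)
  (ψ : (ZMod M)ˣ →* Kˣ)

open Classical in
/-- the elements of `D`, as a finset -/
def rtk6d0Set : Finset (ZMod M)ˣ := Finset.univ.filter (· ∈ D)

variable {M} in
theorem rtk6d0_mem_set {D : Subgroup (ZMod M)ˣ} {c : (ZMod M)ˣ} :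
    c ∈ rtk6d0Set M D ↔ c ∈ D := by
  classical
  simp [rtk6d0Set]

/-- **The Lagrange resolvent** `y_ψ = Σ_{c ∈ D} ψ(c)⁻¹ S_{M,H,c}`. -/
def rtk6d0Y : LaurentSeries K :=
  ∑ c ∈ rtk6d0Set M D, HahnSeries.C (((ψ c)⁻¹ : Kˣ) : K) * sS K M H c

theorem rtk6d0_sS_mem {L : ℕ} (hML : M ∣ L) (c : (ZMod M)ˣ) :
    sS K M H c ∈ fieldC K L M H := by
  have h1 : (1 : ℕ) * M ∣ L := by rwa [one_mul]
  have := qExpand_sS_mem K L M H (e := 1) h1 c
  rwa [qExpand_one_apply] at this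

theorem rtk6d0_C_mem {L : ℕ} (a : K) : (HahnSeries.C a : LaurentSeries K) ∈ fieldC K L M H := by
  rw [← LaurentSeries.algebraMap_apply K a]
  exact (fieldC K L M H).algebraMap_mem a

theorem rtk6d0Y_mem {L : ℕ} (hML : M ∣ L) : rtk6d0Y K M H D ψ ∈ fieldC K L M H := by
  unfold rtk6d0Y
  exact sum_mem fun c _ => mul_mem (rtk6d0_C_mem K M H _) (rtk6d0_sS_mem K M H hML c)

/-- **The eigen-property.**  An automorphism `σ` of `fieldC K L M H` with `σ S_b = S_{bc}` for all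
`b` (`c ∈ D`) maps the resolvent `y` to `ψ(c) · y`. -/
theorem rtk6d0_map {L : ℕ} (hML : M ∣ L) {c : (ZMod M)ˣ} (hc : c ∈ D)
    (σ : fieldC K L M H ≃ₐ[K] fieldC K L M H)
    (hσ : ∀ b : (ZMod M)ˣ,
      ((σ ⟨sS K M H b, rtk6d0_sS_mem K M H hML b⟩ : fieldC K L M H) : LaurentSeries K)
        = sS K M H (b * c)) :
    ((σ ⟨rtk6d0Y K M H D ψ, rtk6d0Y_mem K M H D ψ hML⟩ : fieldC K L M H) : LaurentSeries K)
      = HahnSeries.C ((ψ c : Kˣ) : K) * rtk6d0Y K M H D ψ := by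
  classical
  have hY : (⟨rtk6d0Y K M H D ψ, rtk6d0Y_mem K M H D ψ hML⟩ : fieldC K L M H)
      = ∑ b ∈ rtk6d0Set M D, (((ψ b)⁻¹ : Kˣ) : K) •
          (⟨sS K M H b, rtk6d0_sS_mem K M H hML b⟩ : fieldC K L M H) := by
    apply Subtype.ext
    rw [AddSubmonoidClass.coe_finsetSum]
    unfold rtk6d0Y
    refine Finset.sum_congr rfl fun b _ => ?_
    rw [IntermediateField.coe_smul, Algebra.smul_def, LaurentSeries.algebraMap_apply]
  rw [hY, map_sum, AddSubmonoidClass.coe_finsetSum]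
  have h1 : ∀ b ∈ rtk6d0Set M D,
      ((σ ((((ψ b)⁻¹ : Kˣ) : K) •
          (⟨sS K M H b, rtk6d0_sS_mem K M H hML b⟩ : fieldC K L M H)) : fieldC K L M H) :
        LaurentSeries K)
      = HahnSeries.C ((ψ c : Kˣ) : K) *
          (HahnSeries.C (((ψ (b * c))⁻¹ : Kˣ) : K) * sS K M H (b * c)) := by
    intro b _
    have hu : ((ψ b)⁻¹ : Kˣ) = ψ c * (ψ (b * c))⁻¹ := by
      rw [map_mul, mul_inv_rev, mul_inv_cancel_left]
    rw [map_smul, IntermediateField.coe_smul, Algebra.smul_def, LaurentSeries.algebraMap_apply,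
      hσ b, ← mul_assoc, ← map_mul, hu, Units.val_mul]
  rw [Finset.sum_congr rfl h1, ← Finset.mul_sum]
  congr 1
  unfold rtk6d0Y
  exact Finset.sum_equiv (Equiv.mulRight c)
    (fun b => by
      rw [rtk6d0_mem_set, rtk6d0_mem_set, Equiv.coe_mulRight]
      exact (D.mul_mem_cancel_right hc).symm)
    (fun b _ => rfl)

/-! ## The leading term -/

open Classical in
/-- `n₀ = #(D ∩ ±H)` -/
def rtk6d0N : ℕ := ((rtk6d0Set M D).filter fun c => InPM H c (1 : ZMod M)).card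

theorem rtk6d0N_pos : 0 < rtk6d0N M H D := by
  classical
  unfold rtk6d0N
  rw [Finset.card_pos]
  refine ⟨1, ?_⟩
  rw [Finset.mem_filter, rtk6d0_mem_set]
  refine ⟨D.one_mem, ?_⟩
  have := InPM.self (H := H) (1 : (ZMod M)ˣ)
  rwa [Units.val_one] at this

variable {M H}

/-- `lead = 1` iff the class is `±H` -/
theorem rtk6d0_lead_eq_one_iff (hM : 3 ≤ M) (c : (ZMod M)ˣ) :
    es1fLead M H c = 1 ↔ InPM H c (1 : ZMod M) := by
  constructor
  · intro h
    have h1 := es1f_lead_mem (H := H) hM c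
    rw [h, es1f_mem_cosetReps] at h1
    have h2 := h1.2
    rwa [Nat.cast_one] at h2
  · intro h
    have h1 : (1 : ℕ) ∈ cosetReps M H c := by
      rw [es1f_mem_cosetReps]
      refine ⟨⟨le_rfl, ?_⟩, by rwa [Nat.cast_one]⟩
      omega
    have h2 := es1f_lead_mem (H := H) hM c
    rw [es1f_mem_cosetReps] at h2
    have h3 : es1fLead M H c ≤ 1 := by
      rw [es1fLead, dif_pos ⟨1, h1⟩]
      exact Finset.min'_le _ _ h1
    omega

theorem rtk6d0_one_le_lead (hM : 3 ≤ M) (c : (ZMod M)ˣ) : 1 ≤ es1fLead M H c := by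
  have h2 := es1f_lead_mem (H := H) hM c
  rw [es1f_mem_cosetReps] at h2
  exact h2.1.1

/-- the coefficients of `S_{M,H,c}` up to `q³` -/
theorem rtk6d0_sS_coeff_lt (hM : 3 ≤ M) (c : (ZMod M)ˣ) {k : ℤ} (hk : k < 3) :
    (sS K M H c).coeff k = 0 := by
  have h := es1f_monicAt_sS K (H := H) hM c
  refine h.2 k ?_
  have := rtk6d0_one_le_lead (H := H) hM c
  have : (1 : ℤ) ≤ es1fLead M H c := by exact_mod_cast this
  linarith

open Classical in
theorem rtk6d0_sS_coeff_three (hM : 3 ≤ M) (c : (ZMod M)ˣ) :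
    (sS K M H c).coeff 3 = if InPM H c (1 : ZMod M) then 1 else 0 := by
  have h := es1f_monicAt_sS K (H := H) hM c
  by_cases hc : InPM H c (1 : ZMod M)
  · rw [if_pos hc]
    have h1 := (rtk6d0_lead_eq_one_iff hM c).mpr hc
    rw [h1] at h
    have h2 := h.1
    norm_num at h2
    exact h2
  · rw [if_neg hc]
    refine h.2 3 ?_
    have h1 : es1fLead M H c ≠ 1 := fun h1 => hc ((rtk6d0_lead_eq_one_iff hM c).mp h1)
    have h2 := rtk6d0_one_le_lead (H := H) hM c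
    have h3 : 2 ≤ es1fLead M H c := by omega
    have : (2 : ℤ) ≤ es1fLead M H c := by exact_mod_cast h3
    linarith

variable {K} in
/-- `ψ` is trivial on `±H` -/
theorem rtk6d0_psi_eq_one {ψ : (ZMod M)ˣ →* Kˣ} (hψH : ∀ h ∈ H, ψ h = 1) (hψ1 : ψ (-1) = 1)
    {c : (ZMod M)ˣ} (hc : InPM H c (1 : ZMod M)) : ψ c = 1 := by
  obtain ⟨h, hh, h1 | h1⟩ := hc
  · have h2 : c * h = 1 := by
      apply Units.ext
      rw [Units.val_one]
      exact h1.symm
    have h3 := congrArg ψ h2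
    rw [map_mul, hψH h hh, mul_one, map_one] at h3
    exact h3
  · have h2 : c * h = -1 := by
      apply Units.ext
      rw [Units.val_neg, Units.val_one, h1, neg_neg]
    have h3 := congrArg ψ h2
    rw [map_mul, hψH h hh, mul_one, hψ1] at h3
    exact h3

variable (M H) in
theorem rtk6d0Y_coeff (k : ℤ) :
    (rtk6d0Y K M H D ψ).coeff k
      = ∑ c ∈ rtk6d0Set M D, (((ψ c)⁻¹ : Kˣ) : K) * (sS K M H c).coeff k := by
  unfold rtk6d0Y
  rw [HahnSeries.coeff_sum]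
  refine Finset.sum_congr rfl fun c _ => ?_
  rw [HahnSeries.C_mul_eq_smul, HahnSeries.coeff_smul, smul_eq_mul]

/-- `y = n₀ q³ + …` : the coefficients below `q³` vanish -/
theorem rtk6d0_coeff_lt (hM : 3 ≤ M) {k : ℤ} (hk : k < 3) :
    (rtk6d0Y K M H D ψ).coeff k = 0 := by
  rw [rtk6d0Y_coeff]
  refine Finset.sum_eq_zero fun c _ => ?_
  rw [rtk6d0_sS_coeff_lt K hM c hk, mul_zero]

/-- `y = n₀ q³ + …` : the coefficient of `q³` is `n₀ = #(D ∩ ±H)` -/
theorem rtk6d0_coeff_three (hM : 3 ≤ M) (hψH : ∀ h ∈ H, ψ h = 1) (hψ1 : ψ (-1) = 1) :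
    (rtk6d0Y K M H D ψ).coeff 3 = (rtk6d0N M H D : K) := by
  classical
  rw [rtk6d0Y_coeff, rtk6d0N, Finset.card_filter, Nat.cast_sum]
  refine Finset.sum_congr rfl fun c _ => ?_
  rw [rtk6d0_sS_coeff_three K hM c]
  by_cases hc : InPM H c (1 : ZMod M)
  · rw [if_pos hc, if_pos hc, rtk6d0_psi_eq_one hψH hψ1 hc, inv_one, Units.val_one, mul_one,
      Nat.cast_one]
  · rw [if_neg hc, if_neg hc, mul_zero, Nat.cast_zero]

/-- the resolvent is nonzero in characteristic `0` -/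
theorem rtk6d0Y_ne_zero [CharZero K] (hM : 3 ≤ M) (hψH : ∀ h ∈ H, ψ h = 1) (hψ1 : ψ (-1) = 1) :
    rtk6d0Y K M H D ψ ≠ 0 := by
  intro h0
  have h1 := rtk6d0_coeff_three K D ψ hM hψH hψ1
  rw [h0, HahnSeries.coeff_zero] at h1
  have h2 := rtk6d0N_pos M H D
  have h3 : (rtk6d0N M H D : K) ≠ 0 := by exact_mod_cast h2.ne'
  exact h3 h1.symm

/-- a root of unity lies in every valuation subring -/
theorem rtk6d0_unit_mem (A : ValuationSubring K) (u : Kˣ) {n : ℕ} (hn : n ≠ 0)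
    (hu : u ^ n = 1) : (u : K) ∈ A := by
  rw [← A.valuation_le_one_iff]
  have h1 : A.valuation (u : K) ^ n = 1 := by
    rw [← map_pow, ← Units.val_pow_eq_pow_val, hu, Units.val_one, map_one]
  exact ((pow_eq_one_iff_of_nonneg zero_le' hn).mp h1).le

/-- **Primitivity.**  The resolvent is integral at every valuation subring `A`, and primitive if
`n₀` is a unit of `A`. -/
theorem rtk6d0_kronPrim (A : ValuationSubring K) (hM : 3 ≤ M) (hψH : ∀ h ∈ H, ψ h = 1)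
    (hψ1 : ψ (-1) = 1) (hn : (rtk6d0N M H D : K) ∉ A.nonunits) :
    KronPrim A (rtk6d0Y K M H D ψ) := by
  refine ⟨fun k => ?_, 3, by rw [rtk6d0_coeff_three K D ψ hM hψH hψ1]; exact hn⟩
  rw [rtk6d0Y_coeff]
  refine sum_mem fun c _ => mul_mem ?_ ?_
  · have hcard : (ψ c)⁻¹ ^ Fintype.card (ZMod M)ˣ = 1 := by
      rw [inv_pow, ← map_pow, pow_card_eq_one, map_one, inv_one]
    exact rtk6d0_unit_mem K A _ Fintype.card_ne_zero hcard
  · unfold sS
    rw [coeffMap_coeff]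
    exact intCast_mem A _

end Resolvent

end Fermat.Agent.RT.K6
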