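import Fermat.Agent.ES1.Conj
import Fermat.Agent.ES1.ConjDeg
import Fermat.Agent.ES1.KDLiftSetup
import Fermat.Agent.RT.K6.D0

/-!
# RT-K6 / D0, part (b) — Galois theory of `fieldC K L M H` over the `Γ₀(L)`-field (helper36)

`K` of characteristic `0`, algebraic over `ℚ`; `F₀ = modularFunctionFieldFullC K L`,
`F = fieldC K L M H`.

* `IsDiamondC K L M H c σ` : `σ` is the diamond automorphism `δ_c` of `F` over `K`
  (fixes `F₀`, `σ S_b(q^e) = S_{bc}(q^e)`); `rtk6d0_exists_diamond` (from `stmtDiamondH`).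
* `rtk6d0_mem_full_of_fixed` : an element of `F` fixed by all diamonds lies in `F₀`
  (`F / F₀` is Galois with group `{δ_c}`).
* `rtk6d0_diamond_Y` : `δ_c y_ψ = ψ(c) y_ψ` for the resolvent `y_ψ = rtk6d0Y K M H ⊤ ψ`.
* `rtk6d0_pow_mem_full` : `y_ψ ^ n ∈ F₀` if `ψ ^ n = 1` — **the Kummer element `u₀ = y ^ d`**.
* `rtk6d0_gen` : `F = F₀(y_ψ : ψ ∈ Ψ)` for a family `Ψ` of characters trivial on `±H` which is
  jointly faithful on `(ℤ/M)ˣ/±H`.
-/

set_option autoImplicit false
set_option linter.style.haveILetI false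
set_option linter.unusedSectionVars false

noncomputable section

namespace Fermat.Agent.RT.K6

open HahnSeries ModularCurve AlgebraicCurve Polynomial IntermediateField
open Fermat.Agent.ES Fermat.Agent.ES1

/-- `σ` is the diamond automorphism `δ_c` of `fieldC K L M H` (over a general field `K`) -/
structure IsDiamondC (K : Type) [Field K] (L M : ℕ) (H : Subgroup (ZMod M)ˣ) (c : (ZMod M)ˣ)
    (σ : fieldC K L M H ≃ₐ[K] fieldC K L M H) : Prop where
  /-- `σ` fixes the `Γ₀(L)`-field -/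
  fix : ∀ f : fieldC K L M H, (f : LaurentSeries K) ∈ modularFunctionFieldFullC K L → σ f = f
  /-- `σ S_b(q^e) = S_{bc}(q^e)` -/
  map_s : ∀ (e : ℕ) [NeZero e] (he : e * M ∣ L) (b : (ZMod M)ˣ),
    ((σ ⟨qExpand K e (sS K M H b), qExpand_sS_mem K L M H he b⟩ : fieldC K L M H) :
      LaurentSeries K) = qExpand K e (sS K M H (b * c))

section Gal

variable (K : Type) [Field K] [CharZero K] [Algebra.IsAlgebraic ℚ K]
  {L M : ℕ} [NeZero M] (H : Subgroup (ZMod M)ˣ)

/-- diamonds exist (F3-conj) -/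
theorem rtk6d0_exists_diamond (hL : L ≠ 0) (hML : M ∣ L) (c : (ZMod M)ˣ) :
    ∃ σ : fieldC K L M H ≃ₐ[K] fieldC K L M H, IsDiamondC K L M H c σ := by
  obtain ⟨m, a, ha⟩ := exists_isRepFam (NeZero.ne M) H
  obtain ⟨-, -, haut⟩ := stmtDiamondH K L M H a hL hML ha
  obtain ⟨σ, h1, h2⟩ := haut c
  exact ⟨σ, ⟨h1, fun e _ he b => h2 e he b⟩⟩

variable {K H}

/-- the value of a diamond on `S_b` -/
theorem IsDiamondC.map_sS {c : (ZMod M)ˣ} {σ : fieldC K L M H ≃ₐ[K] fieldC K L M H}
    (h : IsDiamondC K L M H c σ) (hML : M ∣ L) (b : (ZMod M)ˣ) :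
    ((σ ⟨sS K M H b, rtk6d0_sS_mem K M H hML b⟩ : fieldC K L M H) : LaurentSeries K)
      = sS K M H (b * c) := by
  have h1 : (1 : ℕ) * M ∣ L := by rwa [one_mul]
  have h2 := h.map_s 1 h1 b
  have h3 : (⟨sS K M H b, rtk6d0_sS_mem K M H hML b⟩ : fieldC K L M H)
      = ⟨qExpand K 1 (sS K M H b), qExpand_sS_mem K L M H h1 b⟩ := by
    apply Subtype.ext
    show sS K M H b = qExpand K 1 (sS K M H b)
    rw [qExpand_one_apply]
  rw [h3, h2, qExpand_one_apply]

/-- **`δ_c y_ψ = ψ(c) y_ψ`** for the resolvent of `D = ⊤`. -/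
theorem rtk6d0_diamond_Y (ψ : (ZMod M)ˣ →* Kˣ) (hML : M ∣ L) {c : (ZMod M)ˣ}
    {σ : fieldC K L M H ≃ₐ[K] fieldC K L M H} (h : IsDiamondC K L M H c σ) :
    ((σ ⟨rtk6d0Y K M H ⊤ ψ, rtk6d0Y_mem K M H ⊤ ψ hML⟩ : fieldC K L M H) : LaurentSeries K)
      = HahnSeries.C ((ψ c : Kˣ) : K) * rtk6d0Y K M H ⊤ ψ :=
  rtk6d0_map K M H ⊤ ψ hML (Subgroup.mem_top c) σ (fun b => h.map_sS hML b)

variable (K H)

/-- **The Galois package of `F / F₀`.**  With the algebra structure `kdlAlg`:
`F / F₀` is finite Galois, an `F₀`-automorphism fixing `S_1` is the identity, and every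
`F₀`-automorphism is a diamond. -/
theorem rtk6d0_galois (hL : L ≠ 0) (hML : M ∣ L) :
    letI := kdlAlg (full_le_fieldC K L M H)
    FiniteDimensional (modularFunctionFieldFullC K L) (fieldC K L M H) ∧
    IsGalois (modularFunctionFieldFullC K L) (fieldC K L M H) ∧
    (∀ f : fieldC K L M H ≃ₐ[modularFunctionFieldFullC K L] fieldC K L M H,
      ((f ⟨sS K M H 1, rtk6d0_sS_mem K M H hML 1⟩ : fieldC K L M H) : LaurentSeries K)
        = sS K M H 1 → f = 1) ∧
    (∀ f : fieldC K L M H ≃ₐ[modularFunctionFieldFullC K L] fieldC K L M H,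
      ∃ (c : (ZMod M)ˣ) (σ : fieldC K L M H ≃ₐ[K] fieldC K L M H),
        IsDiamondC K L M H c σ ∧ ∀ x, f x = σ x) := by
  classical
  have hM0 : M ≠ 0 := NeZero.ne M
  obtain ⟨m, a, ha⟩ := exists_isRepFam hM0 H
  obtain ⟨hgen0, ⟨P, hP, hdeg, hroot0⟩, -⟩ := stmtDiamondH K L M H a hL hML ha
  have hle : modularFunctionFieldFullC K L ≤ fieldC K L M H := full_le_fieldC K L M H
  letI := kdlAlg hle
  haveI := kdlAlg_isScalarTower hle
  have hcoe : ∀ z : modularFunctionFieldFullC K L,
      ((algebraMap (modularFunctionFieldFullC K L) (fieldC K L M H) z : fieldC K L M H) :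
        LaurentSeries K) = (z : LaurentSeries K) := fun _ => rfl
  set θ : fieldC K L M H := ⟨sS K M H 1, rtk6d0_sS_mem K M H hML 1⟩ with hθ
  -- generation
  have hgen : (modularFunctionFieldFullC K L)⟮θ⟯ = ⊤ := by
    rw [eq_top_iff]
    intro f _
    set K' : IntermediateField K (LaurentSeries K) :=
      (((modularFunctionFieldFullC K L)⟮θ⟯).restrictScalars K).map (fieldC K L M H).val
      with hK'
    have hle' : IntermediateField.adjoin K
        ((modularFunctionFieldFullC K L : Set (LaurentSeries K)) ∪ {sS K M H 1}) ≤ K' := by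
      rw [IntermediateField.adjoin_le_iff]
      rintro z (hz | hz)
      · exact SetLike.mem_coe.mpr ((IntermediateField.mem_map _).mpr
          ⟨algebraMap (modularFunctionFieldFullC K L) (fieldC K L M H) ⟨z, hz⟩,
            (IntermediateField.mem_restrictScalars K).mpr
              (IntermediateField.algebraMap_mem _ _), rfl⟩)
      · rw [Set.mem_singleton_iff] at hz
        exact SetLike.mem_coe.mpr ((IntermediateField.mem_map _).mpr
          ⟨θ, (IntermediateField.mem_restrictScalars K).mpr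
            (IntermediateField.mem_adjoin_simple_self (modularFunctionFieldFullC K L) _),
            hz.symm⟩)
    have hf := hle' (hgen0 f.2)
    rw [hK', IntermediateField.mem_map] at hf
    obtain ⟨w, hw, hwf⟩ := hf
    have : w = f := Subtype.ext hwf
    rw [← this]
    exact hw
  -- the polynomial
  have hroot : aeval θ P = 0 := by
    apply (fieldC K L M H).val.injective
    rw [map_zero, aeval_def]
    have h1 := Polynomial.hom_eval₂ P
      (algebraMap (modularFunctionFieldFullC K L) (fieldC K L M H))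
      (fieldC K L M H).val.toRingHom θ
    have h2 : (fieldC K L M H).val.toRingHom.comp
        (algebraMap (modularFunctionFieldFullC K L) (fieldC K L M H))
        = (modularFunctionFieldFullC K L).val.toRingHom :=
      RingHom.ext (fun z => hcoe z)
    rw [h2] at h1
    exact h1.trans hroot0
  -- the automorphisms
  choose τ hτ using fun c : (ZMod M)ˣ => rtk6d0_exists_diamond K H hL hML c
  let σ : Fin (m + 1) → (fieldC K L M H ≃ₐ[modularFunctionFieldFullC K L] fieldC K L M H) :=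
    fun b => AlgEquiv.ofRingEquiv (f := (τ (a b)).toRingEquiv)
      (fun z => (hτ (a b)).fix _ (by rw [hcoe]; exact z.2))
  have hσθ : ∀ b, ((σ b θ : fieldC K L M H) : LaurentSeries K) = sS K M H (a b) := by
    intro b
    have := (hτ (a b)).map_sS hML 1
    rw [one_mul] at this
    exact this
  have hσinj : Function.Injective (fun b => σ b θ) := by
    intro b b' hbb'
    have h1 : sS K M H (a b) = sS K M H (a b') := by
      rw [← hσθ b, ← hσθ b']
      exact congrArg Subtype.val hbb'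
    exact es1cu_sS_injective K hM0 ha h1
  have hfin := kdl_finiteDimensional θ hgen P hP hroot
  have hgal := kdl_isGalois θ hgen P hP hdeg hroot σ hσinj
  have hbij := kdl_sigma_bijective θ hgen P hP hdeg hroot σ hσinj
  refine ⟨hfin, hgal, fun f hf => ?_, fun f => ?_⟩
  · obtain ⟨b, rfl⟩ := hbij.2 f
    obtain ⟨b₁, hb₁⟩ := hbij.2 1
    have h0 : ∀ b' : Fin (m + 1),
        ((σ b' θ : fieldC K L M H) : LaurentSeries K) = sS K M H 1 → b' = 0 := by
      intro b' hb'
      have h2 : sS K M H (a b') = sS K M H (a 0) := by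
        rw [← hσθ b', hb', ha.zero]
      exact es1cu_sS_injective K hM0 ha h2
    have e1 : b = 0 := h0 b hf
    have e2 : b₁ = 0 := h0 b₁ (by rw [hb₁]; rfl)
    rw [e1, ← e2, hb₁]
  · obtain ⟨b, rfl⟩ := hbij.2 f
    exact ⟨a b, τ (a b), hτ (a b), fun _ => rfl⟩

/-- **Galois descent to the `Γ₀(L)`-field.**  An element of `fieldC K L M H` which is fixed by
all the diamond automorphisms lies in `modularFunctionFieldFullC K L`. -/
theorem rtk6d0_mem_full_of_fixed (hL : L ≠ 0) (hML : M ∣ L) (x : fieldC K L M H)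
    (hfix : ∀ (c : (ZMod M)ˣ) (σ : fieldC K L M H ≃ₐ[K] fieldC K L M H),
      IsDiamondC K L M H c σ → σ x = x) :
    (x : LaurentSeries K) ∈ modularFunctionFieldFullC K L := by
  letI := kdlAlg (full_le_fieldC K L M H)
  obtain ⟨hfin, hgal, -, hall⟩ := rtk6d0_galois K H hL hML
  haveI := hfin
  haveI := hgal
  have hx : x ∈ Set.range
      (algebraMap (modularFunctionFieldFullC K L) (fieldC K L M H)) := by
    rw [IsGalois.mem_range_algebraMap_iff_fixed]
    intro f
    obtain ⟨c, σ, hσ, hfσ⟩ := hall f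
    rw [hfσ]
    exact hfix c σ hσ
  obtain ⟨z, rfl⟩ := hx
  exact z.2

/-- **The Kummer element.**  If `ψ ^ n = 1`, then `y_ψ ^ n` lies in the `Γ₀(L)`-field. -/
theorem rtk6d0_pow_mem_full (ψ : (ZMod M)ˣ →* Kˣ) (hL : L ≠ 0) (hML : M ∣ L) {n : ℕ}
    (hn : ∀ c, ψ c ^ n = 1) :
    rtk6d0Y K M H ⊤ ψ ^ n ∈ modularFunctionFieldFullC K L := by
  have h := rtk6d0_mem_full_of_fixed K H hL hML
    (⟨rtk6d0Y K M H ⊤ ψ, rtk6d0Y_mem K M H ⊤ ψ hML⟩ ^ n) (fun c σ hσ => by
      apply Subtype.ext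
      rw [map_pow]
      show ((σ ⟨rtk6d0Y K M H ⊤ ψ, rtk6d0Y_mem K M H ⊤ ψ hML⟩ : fieldC K L M H) :
        LaurentSeries K) ^ n = rtk6d0Y K M H ⊤ ψ ^ n
      rw [rtk6d0_diamond_Y ψ hML hσ, mul_pow, ← map_pow, ← Units.val_pow_eq_pow_val, hn c,
        Units.val_one, map_one, one_mul])
  exact h

/-- **Generation.**  For a family `ψ i` of characters, trivial on `±H` and jointly faithful on
`(ℤ/M)ˣ/±H`, the resolvents `y_{ψ i}` generate `fieldC K L M H` over the `Γ₀(L)`-field. -/
theorem rtk6d0_gen {ι : Type*} (ψ : ι → ((ZMod M)ˣ →* Kˣ)) (hL : L ≠ 0) (hML : M ∣ L)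
    (hM : 3 ≤ M) (hψH : ∀ i, ∀ h ∈ H, ψ i h = 1) (hψ1 : ∀ i, ψ i (-1) = 1)
    (hfaith : ∀ c : (ZMod M)ˣ, (∀ i, ψ i c = 1) → InPM H 1 (c : ZMod M)) :
    fieldC K L M H ≤ IntermediateField.adjoin K
      ((modularFunctionFieldFullC K L : Set (LaurentSeries K)) ∪
        Set.range fun i => rtk6d0Y K M H ⊤ (ψ i)) := by
  classical
  letI := kdlAlg (full_le_fieldC K L M H)
  haveI := kdlAlg_isScalarTower (full_le_fieldC K L M H)
  obtain ⟨hfin, hgal, hone, hall⟩ := rtk6d0_galois K H hL hML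
  haveI := hfin
  haveI := hgal
  set T : Set (fieldC K L M H) :=
    Set.range fun i => (⟨rtk6d0Y K M H ⊤ (ψ i), rtk6d0Y_mem K M H ⊤ (ψ i) hML⟩ :
      fieldC K L M H) with hT
  -- the fixing subgroup of `F₀(T)` is trivial
  have hfixing : (IntermediateField.adjoin (modularFunctionFieldFullC K L) T).fixingSubgroup
      = ⊥ := by
    rw [eq_bot_iff]
    intro f hf
    rw [Subgroup.mem_bot]
    obtain ⟨c, σ, hσ, hfσ⟩ := hall f
    apply hone f
    have hc : InPM H 1 (c : ZMod M) := by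
      apply hfaith c
      intro i
      have h1 : f ⟨rtk6d0Y K M H ⊤ (ψ i), rtk6d0Y_mem K M H ⊤ (ψ i) hML⟩
          = ⟨rtk6d0Y K M H ⊤ (ψ i), rtk6d0Y_mem K M H ⊤ (ψ i) hML⟩ := by
        have h2 := (IntermediateField.mem_fixingSubgroup_iff _ _).mp hf
          ⟨rtk6d0Y K M H ⊤ (ψ i), rtk6d0Y_mem K M H ⊤ (ψ i) hML⟩
          (IntermediateField.subset_adjoin _ _ ⟨i, rfl⟩)
        exact h2
      have h3 := congrArg Subtype.val h1
      rw [hfσ] at h3
      have h4 := rtk6d0_diamond_Y (ψ i) hML hσ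
      rw [h4] at h3
      have hy := rtk6d0Y_ne_zero K ⊤ (ψ i) hM (hψH i) (hψ1 i)
      have h5 : (HahnSeries.C ((ψ i c : Kˣ) : K) - 1) * rtk6d0Y K M H ⊤ (ψ i) = 0 := by
        rw [sub_mul, one_mul]
        exact sub_eq_zero.mpr h3
      have h6 := (mul_eq_zero.mp h5).resolve_right hy
      have h7 : (HahnSeries.C ((ψ i c : Kˣ) : K) : LaurentSeries K) = HahnSeries.C (1 : K) := by
        rw [map_one]
        exact sub_eq_zero.mp h6
      have h8 := HahnSeries.C_injective h7
      exact Units.ext h8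
    rw [hfσ]
    have h9 := hσ.map_sS hML 1
    rw [one_mul] at h9
    rw [h9]
    exact es1f_sS_eq_of_inPM K hc
  have htop : IntermediateField.adjoin (modularFunctionFieldFullC K L) T = ⊤ := by
    have h1 := IsGalois.fixedField_fixingSubgroup
      (IntermediateField.adjoin (modularFunctionFieldFullC K L) T)
    rw [hfixing, IntermediateField.fixedField_bot] at h1
    exact h1.symm
  -- back to `K((q))`
  set Ω := IntermediateField.adjoin K
      ((modularFunctionFieldFullC K L : Set (LaurentSeries K)) ∪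
        Set.range fun i => rtk6d0Y K M H ⊤ (ψ i)) with hΩ
  let S₁ : Subfield (fieldC K L M H) := Ω.toSubfield.comap (fieldC K L M H).val.toRingHom
  have hS₁ : ∀ z : modularFunctionFieldFullC K L,
      algebraMap (modularFunctionFieldFullC K L) (fieldC K L M H) z ∈ S₁ := by
    intro z
    show ((algebraMap (modularFunctionFieldFullC K L) (fieldC K L M H) z : fieldC K L M H) :
      LaurentSeries K) ∈ Ω
    exact IntermediateField.subset_adjoin K _ (Or.inl z.2)
  let E₁ : IntermediateField (modularFunctionFieldFullC K L) (fieldC K L M H) :=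
    S₁.toIntermediateField hS₁
  have hE₁ : IntermediateField.adjoin (modularFunctionFieldFullC K L) T ≤ E₁ := by
    rw [IntermediateField.adjoin_le_iff]
    rintro _ ⟨i, rfl⟩
    show rtk6d0Y K M H ⊤ (ψ i) ∈ Ω
    exact IntermediateField.subset_adjoin K _ (Or.inr ⟨i, rfl⟩)
  intro x hx
  have h1 : (⟨x, hx⟩ : fieldC K L M H) ∈ E₁ := hE₁ (by rw [htop]; exact IntermediateField.mem_top)
  exact h1

end Gal

end Fermat.Agent.RT.K6
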