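/-
K-machine, piece K6 / D-I (helper82), part 2a: a vertical valuation ring is the localisation of
the chart at its centre — ABSTRACT form (Mathlib only).

`B` a noetherian integrally closed domain with fraction field `F`, `V ⊇ B` a valuation subring
of `F`, `𝔓 = 𝔪(V) ∩ B` its centre.  If `𝔓 ≠ 0` and `𝔓` has height one (every nonzero prime
`𝔔 ≤ 𝔓` is `𝔓`), then `B_𝔓` is a discrete valuation ring, hence `V = B_𝔓`:

* `rtk6dl_loc_of_height_one` : every `x ∈ V` is `b / s` with `b, s ∈ B`, `s ∉ 𝔪(V)`.

No hypothesis on the other components, no (SS1), no separating elements.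
-/
import Mathlib

set_option autoImplicit false
set_option linter.style.haveILetI false
set_option linter.deprecated false

namespace Fermat.Agent.RT.K6

open IsLocalRing

section Abs

variable {B F : Type*} [CommRing B] [IsDomain B] [IsNoetherianRing B] [IsIntegrallyClosed B]
  [Field F] [Algebra B F] [IsFractionRing B F]

/-- **`V = B_𝔓`** for a valuation ring `V ⊇ B` whose centre `𝔓` on the noetherian normal domain
`B` is nonzero of height one. -/
theorem rtk6dl_loc_of_height_one (V : ValuationSubring F) (hBV : ∀ b : B, algebraMap B F b ∈ V)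
    (𝔓 : Ideal B) [h𝔓p : 𝔓.IsPrime] (h𝔓 : ∀ b, b ∈ 𝔓 ↔ algebraMap B F b ∈ V.nonunits)
    (hne : 𝔓 ≠ ⊥)
    (hht : ∀ 𝔔 : Ideal B, 𝔔.IsPrime → 𝔔 ≠ ⊥ → 𝔔 ≤ 𝔓 → 𝔔 = 𝔓) :
    ∀ x ∈ V, ∃ b s : B, algebraMap B F s ∉ V.nonunits ∧ algebraMap B F s * x = algebraMap B F b := by
  intro x hx
  by_cases hx0 : x = 0
  · refine ⟨0, 1, ?_, by rw [hx0, mul_zero, map_zero]⟩
    rw [map_one, ValuationSubring.mem_nonunits_iff, map_one]
    exact lt_irrefl _
  have hinj : Function.Injective (algebraMap B F) := IsFractionRing.injective B F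
  have hunitS : ∀ s : 𝔓.primeCompl, IsUnit (algebraMap B F (s : B)) := by
    intro s
    refine IsUnit.mk0 _ ?_
    intro h0
    have : (s : B) = 0 := hinj (by rw [h0, map_zero])
    exact s.2 (this ▸ 𝔓.zero_mem)
  -- the valuation of an element of the prime complement is `1`
  have hvalS : ∀ s : B, s ∉ 𝔓 → V.valuation (algebraMap B F s) = 1 := by
    intro s hs
    have h1 : V.valuation (algebraMap B F s) ≤ 1 := (V.valuation_le_one_iff _).mpr (hBV s)
    have h2 : ¬ V.valuation (algebraMap B F s) < 1 := fun h =>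
      hs ((h𝔓 s).mpr ((ValuationSubring.mem_nonunits_iff (A := V)).mpr h))
    exact le_antisymm h1 (not_lt.mp h2)
  let O := Localization.AtPrime 𝔓
  letI algOF : Algebra O F := (IsLocalization.lift (M := 𝔓.primeCompl) (S := O)
    (g := algebraMap B F) hunitS).toAlgebra
  have halg : ∀ o : O, algebraMap O F o =
      IsLocalization.lift (M := 𝔓.primeCompl) (S := O) (g := algebraMap B F) hunitS o :=
    fun _ => rfl
  haveI : IsScalarTower B O F := IsScalarTower.of_algebraMap_eq (fun b => by
    rw [halg, IsLocalization.lift_eq])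
  haveI : IsFractionRing O F :=
    IsFractionRing.isFractionRing_of_isDomain_of_isLocalization 𝔓.primeCompl O F
  haveI : IsNoetherianRing O := IsLocalization.isNoetherianRing 𝔓.primeCompl O inferInstance
  haveI : IsDomain O := IsLocalization.isDomain_localization 𝔓.primeCompl_le_nonZeroDivisors
  haveI : IsIntegrallyClosed O :=
    isIntegrallyClosed_of_isLocalization O 𝔓.primeCompl 𝔓.primeCompl_le_nonZeroDivisors
  have hmax : Ideal.map (algebraMap B O) 𝔓 = maximalIdeal O :=
    IsLocalization.AtPrime.map_eq_maximalIdeal 𝔓 O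
  have hinjO : Function.Injective (algebraMap B O) :=
    IsLocalization.injective O 𝔓.primeCompl_le_nonZeroDivisors
  have hmaxne : maximalIdeal O ≠ ⊥ := by
    intro h0
    apply hne
    rw [eq_bot_iff]
    intro b hb
    have h1 : algebraMap B O b ∈ maximalIdeal O := by
      rw [← hmax]; exact Ideal.mem_map_of_mem _ hb
    rw [h0, Ideal.mem_bot] at h1
    rw [Ideal.mem_bot]
    exact hinjO (by rw [h1, map_zero])
  have hfield : ¬ IsField O := fun hF =>
    hmaxne (IsLocalRing.isField_iff_maximalIdeal_eq.mp hF)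
  have huniq : ∃! P : Ideal O, P ≠ ⊥ ∧ P.IsPrime := by
    refine ⟨maximalIdeal O, ⟨hmaxne, inferInstance⟩, ?_⟩
    rintro P ⟨hP0, hPp⟩
    have hPle : P ≤ maximalIdeal O := IsLocalRing.le_maximalIdeal hPp.ne_top
    have hcP : (Ideal.comap (algebraMap B O) P).IsPrime := Ideal.comap_isPrime _ _
    have hmc : Ideal.map (algebraMap B O) (Ideal.comap (algebraMap B O) P) = P :=
      IsLocalization.map_comap 𝔓.primeCompl O P
    have hcne : Ideal.comap (algebraMap B O) P ≠ ⊥ := by
      intro h0
      apply hP0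
      rw [← hmc, h0, Ideal.map_bot]
    have hcle : Ideal.comap (algebraMap B O) P ≤ 𝔓 := by
      have h1 : Ideal.comap (algebraMap B O) P ≤ Ideal.comap (algebraMap B O) (maximalIdeal O) :=
        Ideal.comap_mono hPle
      have h2 : Ideal.comap (algebraMap B O) (maximalIdeal O) = 𝔓 :=
        IsLocalization.AtPrime.comap_maximalIdeal O 𝔓
      rwa [h2] at h1
    rw [← hmc, hht _ hcP hcne hcle, hmax]
  have h31 : (IsIntegrallyClosed O ∧ ∃! P : Ideal O, P ≠ ⊥ ∧ P.IsPrime) ↔ ValuationRing O :=
    (IsDiscreteValuationRing.TFAE O hfield).out 3 1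
  haveI hval : ValuationRing O := h31.mp ⟨inferInstance, huniq⟩
  -- the image of an element of `O`
  have himg : ∀ o : O, ∃ b s : B, s ∉ 𝔓 ∧ (o ∈ maximalIdeal O ↔ b ∈ 𝔓) ∧
      algebraMap B F s * algebraMap O F o = algebraMap B F b := by
    intro o
    obtain ⟨⟨b, s⟩, rfl⟩ := IsLocalization.mk'_surjective 𝔓.primeCompl o
    refine ⟨b, s, s.2, IsLocalization.AtPrime.mk'_mem_maximal_iff O 𝔓 b s, ?_⟩
    rw [IsScalarTower.algebraMap_apply B O F (s : B), ← map_mul, mul_comm,
      IsLocalization.mk'_spec, ← IsScalarTower.algebraMap_apply]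
  rcases ValuationRing.isInteger_or_isInteger O x with ⟨o, ho⟩ | ⟨o, ho⟩
  · obtain ⟨b, s, hs, -, hbs⟩ := himg o
    refine ⟨b, s, ?_, by rw [← ho]; exact hbs⟩
    rw [ValuationSubring.mem_nonunits_iff, hvalS s hs]
    exact lt_irrefl _
  · -- `x⁻¹ ∈ O`: it is a unit of `O`, since `x ∈ V`
    obtain ⟨b, s, hs, hmem, hbs⟩ := himg o
    have hb : b ∉ 𝔓 := by
      intro hb
      have h1 : V.valuation (algebraMap B F b) < 1 :=
        (ValuationSubring.mem_nonunits_iff (A := V)).mp ((h𝔓 b).mp hb)
      have h2 : V.valuation x ≤ 1 := (V.valuation_le_one_iff x).mpr hx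
      have h3 : algebraMap B F s = algebraMap B F b * x := by
        have ho' : algebraMap O F o = x⁻¹ := ho
        rw [ho'] at hbs
        rw [← hbs]
        field_simp
      have h4 : V.valuation (algebraMap B F s) < 1 := by
        rw [h3, map_mul]
        calc V.valuation (algebraMap B F b) * V.valuation x
            ≤ V.valuation (algebraMap B F b) * 1 := by gcongr
          _ = V.valuation (algebraMap B F b) := mul_one _
          _ < 1 := h1
      rw [hvalS s hs] at h4
      exact lt_irrefl _ h4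
    refine ⟨s, b, ?_, ?_⟩
    · rw [ValuationSubring.mem_nonunits_iff, hvalS b hb]
      exact lt_irrefl _
    · have ho' : algebraMap O F o = x⁻¹ := ho
      rw [ho'] at hbs
      rw [← hbs]
      field_simp

end Abs

end Fermat.Agent.RT.K6
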