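/-
K-machine, piece K6 / D-I (helper82), part 2b: `hVloc` for ONE vertical valuation ring of a
chart, without (SS1) and without separating elements.

Chart setting of UNIP / STB / E-W: `A₀` a DVR with uniformizer `π`, `E = Frac A₀` (char 0),
`F / E(u)` finite, `u` transcendental, `B_u` = the integral closure of `A₀[u]` in `F`.
`V ⊇ B_u` a valuation subring of `F` with `π ∈ 𝔪(V)` in which the polynomials in `u` prime to
`π` are units (`hprim`: the centre of `V` on `A₀[u]` is `π A₀[u]`).  Then the centre `𝔓` of `V`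
on `B_u` has height one (incomparability), `(B_u)_𝔓` is a DVR and

* `rtk6dl_hVloc` : every `x ∈ V` is `b / s` with `b, s ∈ B_u`, `s ∉ 𝔪(V)`
  (the hypotheses `hVloc₁`, `hVloc₂` of `rtk6ew_main_two`, for ONE component at a time: usable
  for any finite family of components).
-/
import Fermat.Agent.RT.K6.DILocAbs
import Fermat.Agent.INJ.ChartFinite
import Fermat.Agent.UNIP.Adapter

set_option autoImplicit false
set_option linter.style.haveILetI false
set_option linter.unusedSectionVars false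
set_option linter.unusedVariables false

namespace Fermat.Agent.RT.K6

open Polynomial IntermediateField Fermat.Agent.INJ Fermat.Agent.UNIP IsLocalRing

section Chart

universe u

variable {A₀ E F : Type u} [CommRing A₀] [IsDomain A₀] [IsDiscreteValuationRing A₀]
  [Field E] [Algebra A₀ E] [IsFractionRing A₀ E] [CharZero E]
  [Field F] [Algebra E F] [Algebra A₀ F] [IsScalarTower A₀ E F]
  {π : A₀} {u : F}

/-- **hVloc for one vertical valuation ring**: `V` is the localisation of the chart `B_u` at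
its centre. -/
theorem rtk6dl_hVloc (hu : Transcendental E u) (hπ : Irreducible π) [FiniteDimensional E⟮u⟯ F]
    (V : ValuationSubring F)
    (hBV : ∀ b : F, IsIntegral ↥(Algebra.adjoin A₀ {u}) b → b ∈ V)
    (hπV : algebraMap A₀ F π ∈ V.nonunits)
    (hprim : ∀ s : F, EIPrimeTo π u s → s ∉ V.nonunits) :
    ∀ x : F, x ∈ V → ∃ b s : F, IsIntegral ↥(Algebra.adjoin A₀ {u}) b ∧
      IsIntegral ↥(Algebra.adjoin A₀ {u}) s ∧ s ∉ V.nonunits ∧ s * x = b := by
  -- the instances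
  letI : Algebra ↥(Algebra.adjoin A₀ {u}) E⟮u⟯ :=
    (ChartGB.chartIncl (A₀ := A₀) (E := E) u).toAlgebra
  haveI : IsScalarTower ↥(Algebra.adjoin A₀ {u}) E⟮u⟯ F :=
    IsScalarTower.of_algebraMap_eq (fun _ => rfl)
  haveI := ChartGB.isFractionRing_adjoinSimple (A₀ := A₀) (E := E) u
  haveI := chart_isIntegrallyClosed (A₀ := A₀) (E := E) hu
  haveI := chart_isNoetherianRing (A₀ := A₀) (E := E) hu
  haveI := chart_ufm (A₀ := A₀) (E := E) hu
  haveI : IsNoetherianRing ↥(integralClosure ↥(Algebra.adjoin A₀ {u}) F) :=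
    chart_closure_isNoetherianRing (A₀ := A₀) (E := E) hu
  haveI : IsIntegrallyClosed ↥(integralClosure ↥(Algebra.adjoin A₀ {u}) F) :=
    integralClosure.isIntegrallyClosedOfFiniteExtension E⟮u⟯
  haveI : IsFractionRing ↥(integralClosure ↥(Algebra.adjoin A₀ {u}) F) F :=
    IsIntegralClosure.isFractionRing_of_finite_extension ↥(Algebra.adjoin A₀ {u}) E⟮u⟯ F
      ↥(integralClosure ↥(Algebra.adjoin A₀ {u}) F)
  have hprime := chart_prime (A₀ := A₀) (E := E) hu hπ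
  -- the centre
  let φ : ↥(integralClosure ↥(Algebra.adjoin A₀ {u}) F) →+* ↥V :=
    { toFun := fun b => ⟨(b : F), hBV _ b.2⟩
      map_one' := rfl
      map_mul' := fun _ _ => rfl
      map_zero' := rfl
      map_add' := fun _ _ => rfl }
  let 𝔓 : Ideal ↥(integralClosure ↥(Algebra.adjoin A₀ {u}) F) :=
    Ideal.comap φ (maximalIdeal ↥V)
  haveI h𝔓p : 𝔓.IsPrime := Ideal.comap_isPrime _ _
  have h𝔓 : ∀ b : ↥(integralClosure ↥(Algebra.adjoin A₀ {u}) F),
      b ∈ 𝔓 ↔ algebraMap ↥(integralClosure ↥(Algebra.adjoin A₀ {u}) F) F b ∈ V.nonunits := by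
    intro b
    show φ b ∈ maximalIdeal ↥V ↔ (b : F) ∈ V.nonunits
    rw [ValuationSubring.valuation_lt_one_iff, ValuationSubring.mem_nonunits_iff]
    exact Iff.rfl
  -- `π ∈ 𝔓`
  have hπint : IsIntegral ↥(Algebra.adjoin A₀ {u}) (algebraMap A₀ F π) :=
    isIntegral_algebraMap (R := ↥(Algebra.adjoin A₀ {u}))
      (x := algebraMap A₀ ↥(Algebra.adjoin A₀ {u}) π)
  have hπ0 : algebraMap A₀ F π ≠ 0 := ei_algebraMap_ne_zero (E := E) hπ
  have hne : 𝔓 ≠ ⊥ := by
    intro h0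
    have h1 : (⟨algebraMap A₀ F π, hπint⟩ : ↥(integralClosure ↥(Algebra.adjoin A₀ {u}) F)) ∈ 𝔓 :=
      (h𝔓 _).mpr hπV
    rw [h0, Ideal.mem_bot] at h1
    exact hπ0 (congrArg Subtype.val h1)
  -- elements of `A₀[u]` in `𝔪(V)` are divisible by `π`
  have hdvd : ∀ s : ↥(Algebra.adjoin A₀ {u}), (s : F) ∈ V.nonunits →
      algebraMap A₀ ↥(Algebra.adjoin A₀ {u}) π ∣ s := by
    intro s hs
    by_contra hnd
    exact hprim (s : F) ((eiPrimeTo_iff s.2).mpr hnd) hs
  -- height one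
  have hht : ∀ 𝔔 : Ideal ↥(integralClosure ↥(Algebra.adjoin A₀ {u}) F), 𝔔.IsPrime → 𝔔 ≠ ⊥ →
      𝔔 ≤ 𝔓 → 𝔔 = 𝔓 := by
    intro 𝔔 h𝔔p h𝔔0 hle
    by_contra hne'
    obtain ⟨x, hx𝔓, hx𝔔⟩ : ∃ x, x ∈ 𝔓 ∧ x ∉ 𝔔 := by
      by_contra hcon
      push Not at hcon
      exact hne' (le_antisymm hle hcon)
    have hlt := Ideal.comap_lt_comap_of_integral_mem_sdiff (R := ↥(Algebra.adjoin A₀ {u}))
      hle (x := x) ⟨hx𝔓, hx𝔔⟩ (integralClosure.isIntegral x)
    -- but `comap 𝔓 ≤ comap 𝔔`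
    obtain ⟨y, hy𝔔, hy0⟩ : ∃ y, y ∈ 𝔔 ∧ y ≠ 0 := by
      by_contra hcon
      push Not at hcon
      apply h𝔔0
      rw [eq_bot_iff]
      intro y hy
      rw [Ideal.mem_bot]
      exact hcon y hy
    have hcne : Ideal.comap (algebraMap ↥(Algebra.adjoin A₀ {u})
        ↥(integralClosure ↥(Algebra.adjoin A₀ {u}) F)) 𝔔 ≠ ⊥ :=
      Ideal.comap_ne_bot_of_integral_mem hy0 hy𝔔 (integralClosure.isIntegral y)
    obtain ⟨f, hf𝔔, hf0⟩ : ∃ f, f ∈ Ideal.comap (algebraMap ↥(Algebra.adjoin A₀ {u})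
        ↥(integralClosure ↥(Algebra.adjoin A₀ {u}) F)) 𝔔 ∧ f ≠ 0 := by
      by_contra hcon
      push Not at hcon
      apply hcne
      rw [eq_bot_iff]
      intro y hy
      rw [Ideal.mem_bot]
      exact hcon y hy
    obtain ⟨k, g, hg, hfg⟩ := WfDvdMonoid.max_power_factor hf0 hprime.irreducible
    haveI := h𝔔p
    have hcp : (Ideal.comap (algebraMap ↥(Algebra.adjoin A₀ {u})
        ↥(integralClosure ↥(Algebra.adjoin A₀ {u}) F)) 𝔔).IsPrime := Ideal.comap_isPrime _ _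
    have hg𝔓 : (g : F) ∉ V.nonunits := hprim (g : F) ((eiPrimeTo_iff g.2).mpr hg)
    have hg𝔔 : g ∉ Ideal.comap (algebraMap ↥(Algebra.adjoin A₀ {u})
        ↥(integralClosure ↥(Algebra.adjoin A₀ {u}) F)) 𝔔 := by
      intro hmem
      have h1 : algebraMap ↥(Algebra.adjoin A₀ {u})
        ↥(integralClosure ↥(Algebra.adjoin A₀ {u}) F) g ∈ 𝔓 := hle hmem
      exact hg𝔓 ((h𝔓 _).mp h1)
    have hπ𝔔 : algebraMap A₀ ↥(Algebra.adjoin A₀ {u}) π ∈
        Ideal.comap (algebraMap ↥(Algebra.adjoin A₀ {u})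
          ↥(integralClosure ↥(Algebra.adjoin A₀ {u}) F)) 𝔔 := by
      rw [hfg] at hf𝔔
      rcases hcp.mem_or_mem hf𝔔 with h | h
      · exact hcp.mem_of_pow_mem k h
      · exact absurd h hg𝔔
    have hge : Ideal.comap (algebraMap ↥(Algebra.adjoin A₀ {u})
        ↥(integralClosure ↥(Algebra.adjoin A₀ {u}) F)) 𝔓 ≤
        Ideal.comap (algebraMap ↥(Algebra.adjoin A₀ {u})
          ↥(integralClosure ↥(Algebra.adjoin A₀ {u}) F)) 𝔔 := by
      intro s hs
      have hs' : (s : F) ∈ V.nonunits := (h𝔓 _).mp hs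
      obtain ⟨s', rfl⟩ := hdvd s hs'
      exact Ideal.mul_mem_right _ _ hπ𝔔
    exact not_lt_of_ge hge hlt
  intro x hx
  obtain ⟨b, s, hs, hsx⟩ := rtk6dl_loc_of_height_one V (fun b => hBV _ b.2) 𝔓 h𝔓 hne hht x hx
  exact ⟨(b : F), (s : F), b.2, s.2, hs, hsx⟩

end Chart

end Fermat.Agent.RT.K6
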