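/-
K-machine, piece K6 / D-I (helper82), part 2: THE TWO BASIC VERTICAL VALUATION RINGS of
`F′ = fieldC E L M H` — generic base.

`(A, ι, r, π)` a base (`UNIP.VtBase ι r π`), `F = fieldC E L M H ⊆ E((q))`,
`w : F ≃ₐ[E] F` an ABSTRACT Atkin–Lehner automorphism (piece B / DIW supplies it).

* `rtk6dvEmb`, `rtk6dv_frac` : every element of `F` is a quotient of two series over `A`;
* `rtk6dvFam hB L M H w : Bool → ValuationSubring F` : `true ↦ V_∞` (Gauss valuation of the
  `q`-expansion), `false ↦ V_0 = V_∞.comap w`;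
* (V-max) `rtk6dvFam_mem_nonunits_iff`, `rtk6dvFam_const_mem_nonunits_iff`,
  `rtk6dvFam_unif_mem_nonunits`; `rtk6dvFam_arch`; `rtk6dvFam_exists_pow_mul`
  (every `f ≠ 0` is `π ^ n · unit`: `π` is a uniformizer of `V c`);
* `Rtk6dvMapJ` : "`w` maps `j(q^d)` to `j(q^{d'})`" (the field `map_j` of `IsWAt`, over `E`);
  `rtk6dv_w_incl` : then `w ∘ incl = incl ∘ atkinLehner` on the `Γ₀(M₁ q)`-field;
* `rtk6dvFam_comap_incl` : `(V c).comap incl = UNIP.vtFam c` — the restrictions to the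
  `Γ₀`-field are UNIP's two valuations;
* coefficientwise maps: `rtk6dvFam_hτV`, `rtk6dvFam_hσV`, `rtk6dvFam_map_mem` for a ring
  endomorphism `Ψ` of `F` acting on the `c`-expansion through `s : E →+* E` (`VtCompat`):
  at `c = true` for `Ψ = rtk6diCoeffHom s`, at `c = false` for every `Ψ` with
  `w (Ψ x) = rtk6diCoeffHom s (w x)` (e.g. `Ψ = δ_c ∘ σ̂`, by `IsWAt.galois`);
* linear automorphisms: `rtk6dv_val_of_map_mem` (`γ V ⊆ V`, `γ` fixes `π` ⇒ `v (γ f / f) = 1`).
-/
import Fermat.Agent.RT.K6.DISetup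
import Fermat.Agent.UNIP.MGVertLocMain
import Fermat.Agent.UNIP.MGVloc
import Fermat.Agent.UNIP.MGVertFrob

set_option autoImplicit false
set_option linter.style.haveILetI false
set_option linter.unusedSectionVars false
set_option linter.unusedVariables false

noncomputable section

namespace Fermat.Agent.RT.K6

open ModularCurve AlgebraicCurve Fermat.Agent.ES Fermat.Agent.ES.G2 Fermat.Agent.INJ
open Fermat.Agent.UNIP Fermat.Agent.ES1 Fermat.Agent.ES1.G2 Fermat.Agent.AL IntermediateField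

/-! ### The embedding and the fractions -/

section Frac

variable {A E k : Type*} [CommRing A] [Field E] [Field k]
  {ι : A →+* E} {r : A →+* k} {π : A}

/-- The embedding `fieldC E L M H ⊆ E((q))` as a ring homomorphism. -/
def rtk6dvEmb (E : Type*) [Field E] (L M : ℕ) (H : Subgroup (ZMod M)ˣ) :
    ↥(fieldC E L M H) →+* LaurentSeries E :=
  ((fieldC E L M H).val : _ →+* LaurentSeries E)

@[simp]
theorem rtk6dvEmb_apply (L M : ℕ) (H : Subgroup (ZMod M)ˣ) (x : ↥(fieldC E L M H)) :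
    rtk6dvEmb E L M H x = (x : LaurentSeries E) := rfl

/-- **Every element of `fieldC E L M H` is a quotient of two series over `A`.** -/
theorem rtk6dv_frac (hB : VtBase ι r π) (L M : ℕ) (H : Subgroup (ZMod M)ˣ)
    {x : LaurentSeries E} (hx : x ∈ fieldC E L M H) : VtFrac ι x := by
  have hx' : x ∈ Subfield.closure
      (Set.range (algebraMap E (LaurentSeries E)) ∪
        (divisorExpansionsC E L ∪ diamondExpansionsC E L M H)) := hx
  clear hx
  induction hx' using Subfield.closure_induction with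
  | mem y hy =>
      rcases hy with ⟨a, rfl⟩ | ⟨d, hd, hdN, rfl⟩ | ⟨e, he, a, heL, rfl⟩
      · rw [algebraMap_laurentSeries_eq_single]
        exact vtFrac_C hB.frac a
      · have : coeffMap ι (qExpand A d (jqModC A)) = qExpand E d (jqModC E) :=
          coeffMap_jqNModC ι d
        rw [← this]
        exact vtFrac_coeffMap _
      · have : coeffMap ι (qExpand A e (sS A M H a)) = qExpand E e (sS E M H a) :=
          es1f_coeffMap_qExpand_sS ι M H a e
        rw [← this]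
        exact vtFrac_coeffMap _
  | one => exact VtFrac.one
  | add x y _ _ hx hy => exact hx.add hB.inj hy
  | neg x _ hx => exact hx.neg
  | inv x _ hx => exact hx.inv hB.inj
  | mul x y _ _ hx hy => exact hx.mul hB.inj hy

end Frac

/-! ### The two valuation rings -/

section Fam

variable {A E k : Type*} [CommRing A] [Field E] [Field k]
  {ι : A →+* E} {r : A →+* k} {π : A} (hB : VtBase ι r π)
  (L M : ℕ) (H : Subgroup (ZMod M)ˣ)
  (w : ↥(fieldC E L M H) ≃ₐ[E] ↥(fieldC E L M H))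

/-- The two `q`-expansions: `true ↦` at `∞`, `false ↦` at `0` (twisted by `w`). -/
def rtk6dvEmbFam : Bool → (↥(fieldC E L M H) →+* LaurentSeries E)
  | true => rtk6dvEmb E L M H
  | false => (rtk6dvEmb E L M H).comp w.toRingEquiv.toRingHom

theorem rtk6dvEmbFam_true (x : ↥(fieldC E L M H)) :
    rtk6dvEmbFam L M H w true x = (x : LaurentSeries E) := rfl

theorem rtk6dvEmbFam_false (x : ↥(fieldC E L M H)) :
    rtk6dvEmbFam L M H w false x = ((w x : ↥(fieldC E L M H)) : LaurentSeries E) := rfl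

include hB in
theorem rtk6dv_frac_fam (c : Bool) (x : ↥(fieldC E L M H)) :
    VtFrac ι (rtk6dvEmbFam L M H w c x) := by
  cases c
  · exact rtk6dv_frac hB L M H (w x).2
  · exact rtk6dv_frac hB L M H x.2

/-- **The two basic vertical valuation subrings** of `fieldC E L M H`:
`rtk6dvFam … true = V_∞` (Gauss valuation of the `q`-expansion), `rtk6dvFam … false = V_0 =
V_∞.comap w`. -/
def rtk6dvFam (c : Bool) : ValuationSubring ↥(fieldC E L M H) :=
  vtSub hB (rtk6dvEmbFam L M H w c) (rtk6dv_frac_fam hB L M H w c)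

theorem mem_rtk6dvFam {c : Bool} {x : ↥(fieldC E L M H)} :
    x ∈ rtk6dvFam hB L M H w c ↔ rtk6dvEmbFam L M H w c x ∈ gaussRing ι r := Iff.rfl

theorem mem_rtk6dvFam_true {x : ↥(fieldC E L M H)} :
    x ∈ rtk6dvFam hB L M H w true ↔ (x : LaurentSeries E) ∈ gaussRing ι r := Iff.rfl

theorem mem_rtk6dvFam_false {x : ↥(fieldC E L M H)} :
    x ∈ rtk6dvFam hB L M H w false ↔ w x ∈ rtk6dvFam hB L M H w true := Iff.rfl

/-- **`V_0 = V_∞.comap w`** -/
theorem rtk6dvFam_false_eq_comap :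
    rtk6dvFam hB L M H w false =
      (rtk6dvFam hB L M H w true).comap w.toRingEquiv.toRingHom := rfl

/-- `V_∞` does not depend on `w` -/
theorem rtk6dvFam_true_congr (w' : ↥(fieldC E L M H) ≃ₐ[E] ↥(fieldC E L M H)) :
    rtk6dvFam hB L M H w true = rtk6dvFam hB L M H w' true := rfl

/-- constants -/
theorem rtk6dvEmbFam_const (c : Bool) (a : E) :
    rtk6dvEmbFam L M H w c (algebraMap E ↥(fieldC E L M H) a) = HahnSeries.C a := by
  cases c
  · rw [rtk6dvEmbFam_false, AlgEquiv.commutes]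
    exact algebraMap_laurentSeries_eq_single E a
  · exact algebraMap_laurentSeries_eq_single E a

/-! ### (V-max), (V-int) -/

/-- **(V-max)** the maximal ideal of `V c` is the kernel of the reduction of the `c`-expansion -/
theorem rtk6dvFam_mem_nonunits_iff (c : Bool) {x : ↥(fieldC E L M H)} :
    x ∈ (rtk6dvFam hB L M H w c).nonunits ↔
      ∃ h : rtk6dvEmbFam L M H w c x ∈ gaussRing ι r,
        gaussRed r hB.inj ⟨rtk6dvEmbFam L M H w c x, h⟩ = 0 :=
  vtSub_mem_nonunits_iff hB _ _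

theorem rtk6dvFam_valuation_eq_one_iff (c : Bool) {x : ↥(fieldC E L M H)} :
    (rtk6dvFam hB L M H w c).valuation x = 1 ↔ VtUnit ι r (rtk6dvEmbFam L M H w c x) :=
  vtSub_valuation_eq_one_iff hB _ _

/-- the constants of `A` lie in `V c` -/
theorem rtk6dvFam_const_mem (c : Bool) (a : A) :
    algebraMap E ↥(fieldC E L M H) (ι a) ∈ rtk6dvFam hB L M H w c :=
  vtSub_const_mem hB _ _ (rtk6dvEmbFam_const L M H w c (ι a))

/-- a constant of `A` lies in the maximal ideal of `V c` iff it reduces to `0` -/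
theorem rtk6dvFam_const_mem_nonunits_iff (c : Bool) (a : A) :
    algebraMap E ↥(fieldC E L M H) (ι a) ∈ (rtk6dvFam hB L M H w c).nonunits ↔ r a = 0 :=
  vtSub_const_mem_nonunits_iff hB _ _ (rtk6dvEmbFam_const L M H w c (ι a))

/-- `π ∈ 𝔪(V c)` -/
theorem rtk6dvFam_unif_mem_nonunits (c : Bool) :
    algebraMap E ↥(fieldC E L M H) (ι π) ∈ (rtk6dvFam hB L M H w c).nonunits :=
  vtSub_unif_mem_nonunits hB _ _ (rtk6dvEmbFam_const L M H w c (ι π))

/-- `V c ≠ ⊤` -/
theorem rtk6dvFam_ne_top (c : Bool) : rtk6dvFam hB L M H w c ≠ ⊤ :=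
  vtSub_ne_top hB _ _ (rtk6dvEmbFam_const L M H w c (ι π))

/-- **harch**: `V c` is archimedean -/
theorem rtk6dvFam_arch (c : Bool) {a : ↥(fieldC E L M H)}
    (ha : a ∈ (rtk6dvFam hB L M H w c).nonunits) (x : ↥(fieldC E L M H)) :
    ∃ n : ℕ, a ^ n * x ∈ (rtk6dvFam hB L M H w c).nonunits :=
  vtSub_arch hB _ _ ha x

/-- **`π` is a uniformizer of `V c`**: every `f ≠ 0` is `π ^ n · unit` or `π ^ (-n) · unit`. -/
theorem rtk6dvFam_exists_pow_mul (c : Bool) {f : ↥(fieldC E L M H)} (hf : f ≠ 0) :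
    ∃ n : ℤ, (rtk6dvFam hB L M H w c).valuation
      (f * algebraMap E ↥(fieldC E L M H) (ι π) ^ n) = 1 := by
  have hef : rtk6dvEmbFam L M H w c f ≠ 0 := (map_ne_zero _).mpr hf
  have hCπ := hB.Cιπ_ne
  obtain ⟨d, u, hu, h | h⟩ := vt_exists_pow_mul hB hef (rtk6dv_frac_fam hB L M H w c f)
  · refine ⟨-(d : ℤ), ?_⟩
    rw [rtk6dvFam_valuation_eq_one_iff, map_mul, map_zpow₀, rtk6dvEmbFam_const, h]
    have e : HahnSeries.C (ι π) ^ d * u * (HahnSeries.C (ι π) : LaurentSeries E) ^ (-(d : ℤ))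
        = u := by
      rw [zpow_neg, zpow_natCast]
      field_simp
    rw [e]
    exact hu
  · refine ⟨(d : ℤ), ?_⟩
    rw [rtk6dvFam_valuation_eq_one_iff, map_mul, map_zpow₀, rtk6dvEmbFam_const]
    have hu0 := hu.ne_zero hB.inj
    have e : rtk6dvEmbFam L M H w c f * (HahnSeries.C (ι π) : LaurentSeries E) ^ (d : ℤ)
        = u⁻¹ := by
      have h1 : rtk6dvEmbFam L M H w c f = (HahnSeries.C (ι π) ^ d * u)⁻¹ := by
        rw [← h, inv_inv]
      rw [h1, zpow_natCast]
      field_simp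
    rw [e]
    exact hu.inv hB.inj

/-- the charts lie in `V c`: an element of `F` integral over `R[S]`, where the image of `R`
consists of constants of `A` and `S ⊆ V c`, lies in `V c`. -/
theorem rtk6dvFam_mem_of_isIntegral (c : Bool) {R : Type*} [CommRing R]
    [Algebra R ↥(fieldC E L M H)]
    (hR : ∀ a : R, ∃ a' : A,
      algebraMap R ↥(fieldC E L M H) a = algebraMap E ↥(fieldC E L M H) (ι a'))
    (S : Set ↥(fieldC E L M H)) (hS : ∀ s ∈ S, s ∈ rtk6dvFam hB L M H w c)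
    {x : ↥(fieldC E L M H)} (hx : IsIntegral (Algebra.adjoin R S) x) :
    x ∈ rtk6dvFam hB L M H w c := by
  refine vt_mem_of_isIntegral _ (fun y => ?_) hx
  show ((y : Algebra.adjoin R S) : ↥(fieldC E L M H)) ∈ rtk6dvFam hB L M H w c
  obtain ⟨y, hy⟩ := y
  show y ∈ rtk6dvFam hB L M H w c
  induction hy using Algebra.adjoin_induction with
  | mem s hs => exact hS s hs
  | algebraMap a =>
    obtain ⟨a', ha'⟩ := hR a
    rw [ha']
    exact rtk6dvFam_const_mem hB L M H w c a'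
  | add s t _ _ hs ht => exact (rtk6dvFam hB L M H w c).add_mem _ _ hs ht
  | mul s t _ _ hs ht => exact (rtk6dvFam hB L M H w c).mul_mem _ _ hs ht

/-! ### Coefficientwise maps -/

/-- **(V-τ)**: `Ψ x − x ∈ 𝔪(V c)` for `x ∈ V c`, if `Ψ` acts on the `c`-expansion through an
endomorphism `s` of `E` preserving `A` and trivial on the residue field. -/
theorem rtk6dvFam_hτV {s : E →+* E} (hc : VtCompat ι r ι r s (RingHom.id k)) (c : Bool)
    (Ψ : ↥(fieldC E L M H) →+* ↥(fieldC E L M H))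
    (hΨ : ∀ y, rtk6dvEmbFam L M H w c (Ψ y) = coeffMap s (rtk6dvEmbFam L M H w c y))
    {x : ↥(fieldC E L M H)} (hx : x ∈ rtk6dvFam hB L M H w c) :
    Ψ x - x ∈ (rtk6dvFam hB L M H w c).nonunits :=
  vtSub_sub_mem_nonunits hB _ _ hc Ψ hΨ hx

/-- **(V-σ)**: `v_c (Ψ f / f) = 1` for `f ≠ 0`, if `Ψ` acts on the `c`-expansion through an
endomorphism `s` of `E` preserving `A`, moving the uniformizer by a unit (any map on the
residue field). -/
theorem rtk6dvFam_hσV {s : E →+* E} {κ : k →+* k} (hc : VtCompat ι r ι r s κ)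
    (hsπ : ∃ c : A, s (ι π) = ι π * ι c ∧ r c ≠ 0) (c : Bool)
    (Ψ : ↥(fieldC E L M H) →+* ↥(fieldC E L M H))
    (hΨ : ∀ y, rtk6dvEmbFam L M H w c (Ψ y) = coeffMap s (rtk6dvEmbFam L M H w c y))
    {f : ↥(fieldC E L M H)} (hf : f ≠ 0) :
    (rtk6dvFam hB L M H w c).valuation (Ψ f / f) = 1 :=
  mgvf_valuation_div_eq_one hB _ _ hc hsπ Ψ hΨ hf

theorem rtk6dvFam_map_mem {s : E →+* E} (hc : VtCompat ι r ι r s (RingHom.id k)) (c : Bool)
    (Ψ : ↥(fieldC E L M H) →+* ↥(fieldC E L M H))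
    (hΨ : ∀ y, rtk6dvEmbFam L M H w c (Ψ y) = coeffMap s (rtk6dvEmbFam L M H w c y))
    {x : ↥(fieldC E L M H)} (hx : x ∈ rtk6dvFam hB L M H w c) :
    Ψ x ∈ rtk6dvFam hB L M H w c :=
  vtSub_map_mem hB _ _ hc Ψ hΨ hx

/-- at `∞` the coefficientwise map acts on the expansion -/
theorem rtk6dvEmbFam_true_coeffHom (s : E →+* E) (y : ↥(fieldC E L M H)) :
    rtk6dvEmbFam L M H w true (rtk6diCoeffHom L M H s y) =
      coeffMap s (rtk6dvEmbFam L M H w true y) := rfl

/-- at `0` every `Ψ` with `w ∘ Ψ = ŝ ∘ w` acts on the expansion -/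
theorem rtk6dvEmbFam_false_of_comm (s : E →+* E)
    (Ψ : ↥(fieldC E L M H) →+* ↥(fieldC E L M H))
    (hΨ : ∀ x, w (Ψ x) = rtk6diCoeffHom L M H s (w x)) (y : ↥(fieldC E L M H)) :
    rtk6dvEmbFam L M H w false (Ψ y) = coeffMap s (rtk6dvEmbFam L M H w false y) := by
  rw [rtk6dvEmbFam_false, hΨ, rtk6dvEmbFam_false]
  rfl

end Fam

/-! ### Linear automorphisms preserving a valuation ring -/

section Lin

variable {E F : Type*} [Field E] [Field F] [Algebra E F]

/-- a ring endomorphism `γ` of `F` with `γ V ⊆ V` fixing a uniformizer `ϖ` of `V` preserves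
the valuation: `v (γ f / f) = 1`. -/
theorem rtk6dv_val_of_map_mem (V : ValuationSubring F) (γ : F →+* F)
    (hγ : ∀ x ∈ V, γ x ∈ V) (ϖ : F) (hϖ0 : ϖ ≠ 0) (hγϖ : γ ϖ = ϖ)
    (hunif : ∀ f : F, f ≠ 0 → ∃ n : ℤ, V.valuation (f * ϖ ^ n) = 1)
    {f : F} (hf : f ≠ 0) : V.valuation (γ f / f) = 1 := by
  obtain ⟨n, hn⟩ := hunif f hf
  set x := f * ϖ ^ n with hxdef
  have hx0 : x ≠ 0 := mul_ne_zero hf (zpow_ne_zero _ hϖ0)
  have hxV : x ∈ V := (V.valuation_le_one_iff x).mp hn.le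
  have hxV' : x⁻¹ ∈ V := by
    rw [← V.valuation_le_one_iff, map_inv₀, hn, inv_one]
  have h1 : V.valuation (γ x) ≤ 1 := (V.valuation_le_one_iff _).mpr (hγ x hxV)
  have h2 : V.valuation (γ x)⁻¹ ≤ 1 := by
    have := (V.valuation_le_one_iff _).mpr (hγ _ hxV')
    rwa [map_inv₀] at this
  have hγx0 : γ x ≠ 0 := (map_ne_zero γ).mpr hx0
  have h3 : V.valuation (γ x) = 1 := by
    refine le_antisymm h1 ?_
    rw [map_inv₀] at h2
    have h4 : V.valuation (γ x) ≠ 0 := (Valuation.ne_zero_iff _).mpr hγx0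
    by_contra hlt
    push Not at hlt
    have h5 : 1 < (V.valuation (γ x))⁻¹ := (one_lt_inv₀ (zero_lt_iff.mpr h4)).mpr hlt
    exact absurd h2 (not_le.mpr h5)
  have e : γ f / f = γ x / x := by
    rw [hxdef, map_mul, map_zpow₀, hγϖ]
    have hz : ϖ ^ n ≠ 0 := zpow_ne_zero _ hϖ0
    field_simp
  rw [e, map_div₀, h3, hn, div_one]

end Lin

end Fermat.Agent.RT.K6
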