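/-
K-machine, piece K6 / D-I (helper82), part 2c: the inclusion of the `Γ₀(L)`-field into
`fieldC K L M H` and the two basic vertical valuations.

* transfer along `rtk6diIncl` (generic field `K`, `A′` a valuation subring of `K`):
  `rtk6dvInclA` (the inclusion as an `A′`-algebra homomorphism), `rtk6dv_incl_mem_adjoin`,
  `rtk6dv_exists_of_mem_adjoin`, `rtk6dv_isIntegral_incl`, `rtk6dv_primeTo_of_incl`;
* `Rtk6dvMapJ E L M H q w` : `w` maps `j(q^d)` to `j(q^{d'})` (`d' = d / q` or `d q`);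
  `Rtk6dvWIncl ιC hq hqM M H w` : `w ∘ incl = incl ∘ atkinLehner`;
  `rtk6dv_wIncl_of_mapJ`;
* `rtk6dvEmbFam_incl`, `rtk6dvFam_comap_incl` : `(V c).comap incl = UNIP.vtFam c`;
  `rtk6dvFam_incl_mem_iff`, `rtk6dvFam_incl_mem_nonunits_iff`;
* `rtk6dvFam_ne` : `V_∞ ≠ V_0` (residue characteristic `q`).
-/
import Fermat.Agent.RT.K6.DIVert

set_option autoImplicit false
set_option linter.style.haveILetI false
set_option linter.unusedSectionVars false
set_option linter.unusedVariables false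

noncomputable section

namespace Fermat.Agent.RT.K6

open ModularCurve AlgebraicCurve Fermat.Agent.ES Fermat.Agent.ES.G2 Fermat.Agent.INJ
open Fermat.Agent.UNIP Fermat.Agent.ES1 Fermat.Agent.ES1.G2 Fermat.Agent.AL IntermediateField

/-! ### Transfer along the inclusion -/

section Transfer

variable {K : Type*} [Field K] (A' : ValuationSubring K) (L M : ℕ) (H : Subgroup (ZMod M)ˣ)

theorem rtk6dv_incl_algebraMapA (a : ↥A') :
    rtk6diIncl L M H (algebraMap ↥A' ↥(modularFunctionFieldFullC K L) a) =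
      algebraMap ↥A' ↥(fieldC K L M H) a :=
  rtk6diIncl_algebraMap L M H (a : K)

/-- the inclusion of the `Γ₀(L)`-field as an `A′`-algebra homomorphism -/
def rtk6dvInclA : ↥(modularFunctionFieldFullC K L) →ₐ[↥A'] ↥(fieldC K L M H) :=
  { rtk6diIncl L M H with
    commutes' := fun a => rtk6dv_incl_algebraMapA A' L M H a }

@[simp]
theorem rtk6dvInclA_apply (x : ↥(modularFunctionFieldFullC K L)) :
    rtk6dvInclA A' L M H x = rtk6diIncl L M H x := rfl

variable {A' L M H}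

theorem rtk6dv_incl_mem_adjoin {u₀ s₀ : ↥(modularFunctionFieldFullC K L)}
    (hs : s₀ ∈ Algebra.adjoin ↥A' ({u₀} : Set ↥(modularFunctionFieldFullC K L))) :
    rtk6diIncl L M H s₀ ∈
      Algebra.adjoin ↥A' ({rtk6diIncl L M H u₀} : Set ↥(fieldC K L M H)) := by
  induction hs using Algebra.adjoin_induction with
  | mem x hx =>
      rw [Set.mem_singleton_iff] at hx
      rw [hx]
      exact Algebra.subset_adjoin (Set.mem_singleton _)
  | algebraMap a =>
      rw [rtk6dv_incl_algebraMapA]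
      exact Subalgebra.algebraMap_mem _ a
  | add x y _ _ hx hy => rw [map_add]; exact Subalgebra.add_mem _ hx hy
  | mul x y _ _ hx hy => rw [map_mul]; exact Subalgebra.mul_mem _ hx hy

theorem rtk6dv_exists_of_mem_adjoin {u₀ : ↥(modularFunctionFieldFullC K L)}
    {s : ↥(fieldC K L M H)}
    (hs : s ∈ Algebra.adjoin ↥A' ({rtk6diIncl L M H u₀} : Set ↥(fieldC K L M H))) :
    ∃ s₀ ∈ Algebra.adjoin ↥A' ({u₀} : Set ↥(modularFunctionFieldFullC K L)),
      rtk6diIncl L M H s₀ = s := by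
  induction hs using Algebra.adjoin_induction with
  | mem x hx =>
      rw [Set.mem_singleton_iff] at hx
      exact ⟨u₀, Algebra.subset_adjoin (Set.mem_singleton _), hx.symm⟩
  | algebraMap a =>
      exact ⟨algebraMap ↥A' _ a, Subalgebra.algebraMap_mem _ a, rtk6dv_incl_algebraMapA A' L M H a⟩
  | add x y _ _ hx hy =>
      obtain ⟨x₀, hx₀, rfl⟩ := hx
      obtain ⟨y₀, hy₀, rfl⟩ := hy
      exact ⟨x₀ + y₀, Subalgebra.add_mem _ hx₀ hy₀, map_add _ _ _⟩
  | mul x y _ _ hx hy =>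
      obtain ⟨x₀, hx₀, rfl⟩ := hx
      obtain ⟨y₀, hy₀, rfl⟩ := hy
      exact ⟨x₀ * y₀, Subalgebra.mul_mem _ hx₀ hy₀, map_mul _ _ _⟩

variable (A' L M H)

/-- the inclusion on the chart rings -/
def rtk6dvInclAdj (u₀ : ↥(modularFunctionFieldFullC K L)) :
    ↥(Algebra.adjoin ↥A' ({u₀} : Set ↥(modularFunctionFieldFullC K L))) →+*
      ↥(Algebra.adjoin ↥A' ({rtk6diIncl L M H u₀} : Set ↥(fieldC K L M H))) :=
  RingHom.codRestrict ((rtk6diIncl L M H).comp
      (Algebra.adjoin ↥A' ({u₀} : Set ↥(modularFunctionFieldFullC K L))).val.toRingHom)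
    (Algebra.adjoin ↥A' ({rtk6diIncl L M H u₀} : Set ↥(fieldC K L M H)))
    (fun x => rtk6dv_incl_mem_adjoin (A' := A') (L := L) (M := M) (H := H) x.2)

variable {A' L M H}

/-- integrality over the chart ring is preserved by the inclusion -/
theorem rtk6dv_isIntegral_incl {u₀ b₀ : ↥(modularFunctionFieldFullC K L)}
    (hb : IsIntegral ↥(Algebra.adjoin ↥A' ({u₀} : Set ↥(modularFunctionFieldFullC K L))) b₀) :
    IsIntegral ↥(Algebra.adjoin ↥A' ({rtk6diIncl L M H u₀} : Set ↥(fieldC K L M H)))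
      (rtk6diIncl L M H b₀) :=
  IsIntegral.map_of_comp_eq (rtk6dvInclAdj A' L M H u₀) (rtk6diIncl L M H)
    (RingHom.ext fun _ => rfl) hb

/-- an element of the chart ring of `fieldC` prime to `π` comes from an element of the chart
ring of the `Γ₀(L)`-field prime to `π` -/
theorem rtk6dv_primeTo_of_incl {π : ↥A'} {u₀ : ↥(modularFunctionFieldFullC K L)}
    {s : ↥(fieldC K L M H)} (hs : EIPrimeTo π (rtk6diIncl L M H u₀) s) :
    ∃ s₀ : ↥(modularFunctionFieldFullC K L), EIPrimeTo π u₀ s₀ ∧ rtk6diIncl L M H s₀ = s := by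
  obtain ⟨s₀, hs₀, rfl⟩ := rtk6dv_exists_of_mem_adjoin hs.1
  refine ⟨s₀, ⟨hs₀, fun r hr he => ?_⟩, rfl⟩
  refine hs.2 (rtk6diIncl L M H r) (rtk6dv_incl_mem_adjoin hr) ?_
  rw [he, map_mul, rtk6dv_incl_algebraMapA]

end Transfer

/-! ### The Atkin–Lehner automorphism on the `Γ₀`-field -/

section MapJ

variable {E : Type*} [Field E]

/-- `w` maps `j(q^d)` to `j(q^{d'})`, `d' = d / q` for `q ∣ d` and `d' = d q` otherwise
(the field `map_j` of `IsWAt`, over any field of coefficients). -/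
def Rtk6dvMapJ (E : Type*) [Field E] (L M : ℕ) (H : Subgroup (ZMod M)ˣ) (q : ℕ)
    (w : ↥(fieldC E L M H) ≃ₐ[E] ↥(fieldC E L M H)) : Prop :=
  ∀ (d d' : ℕ) [NeZero d] [NeZero d'], d ∣ L → d' = (if q ∣ d then d / q else d * q) →
    ∀ x : ↥(fieldC E L M H), (x : LaurentSeries E) = qExpand E d (jqModC E) →
      ((w x : ↥(fieldC E L M H)) : LaurentSeries E) = qExpand E d' (jqModC E)

variable (ιC : E →+* ℂ) {q M₁ : ℕ} [NeZero q] [NeZero M₁] [NeZero (M₁ * q)]
  (hq : q.Prime) (hqM : ¬ q ∣ M₁) (M : ℕ) (H : Subgroup (ZMod M)ˣ)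
  (w : ↥(fieldC E (M₁ * q) M H) ≃ₐ[E] ↥(fieldC E (M₁ * q) M H))

/-- `w` restricts to the Atkin–Lehner involution of the `Γ₀(M₁ q)`-field. -/
def Rtk6dvWIncl : Prop :=
  ∀ x : ↥(modularFunctionFieldFullC E (M₁ * q)),
    w (rtk6diIncl (M₁ * q) M H x) = rtk6diIncl (M₁ * q) M H (atkinLehner E ιC hq hqM x)

theorem rtk6dv_wIncl_of_mapJ (hw : Rtk6dvMapJ E (M₁ * q) M H q w) :
    Rtk6dvWIncl ιC hq hqM M H w := by
  intro x
  have key : (w.toRingEquiv.toRingHom.comp (rtk6diIncl (M₁ * q) M H)) =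
      (rtk6diIncl (M₁ * q) M H).comp (atkinLehner E ιC hq hqM).toRingEquiv.toRingHom := by
    apply al_ringHom_ext E (M₁ * q)
    · intro c
      show w (rtk6diIncl (M₁ * q) M H (algebraMap E _ c)) =
        rtk6diIncl (M₁ * q) M H (atkinLehner E ιC hq hqM (algebraMap E _ c))
      rw [AlgEquiv.commutes, rtk6diIncl_algebraMap, AlgEquiv.commutes]
    · intro d _ hd
      show w (rtk6diIncl (M₁ * q) M H ⟨qExpand E d (jqModC E), _⟩) =
        rtk6diIncl (M₁ * q) M H (atkinLehner E ιC hq hqM ⟨qExpand E d (jqModC E), _⟩)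
      have hd' : alSwap q (M₁ * q) d ∣ M₁ * q := alSwap_dvd hq hqM hd
      haveI hne : NeZero (alSwap q (M₁ * q) d) :=
        ⟨fun h0 => NeZero.ne (M₁ * q) (Nat.eq_zero_of_zero_dvd (h0 ▸ hd'))⟩
      have e0 : (⟨qExpand E d (jqModC E), jqModCd_mem_full E (M₁ * q) hd⟩ :
          modularFunctionFieldFullC E (M₁ * q)) = ⟨alGen E (M₁ * q) d, alGen_mem E d⟩ :=
        Subtype.ext (alGen_of_dvd E hd).symm
      rw [e0]
      apply Subtype.ext
      rw [rtk6diIncl_coe, atkinLehner_gen, alGen_of_dvd E hd']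
      refine hw d (alSwap q (M₁ * q) d) hd ?_ _ ?_
      · rw [alSwap, if_pos hd]
      · rw [rtk6diIncl_coe]
        exact alGen_of_dvd E hd
  exact congrArg (fun φ : modularFunctionFieldFullC E (M₁ * q) →+*
    ↥(fieldC E (M₁ * q) M H) => φ x) key

end MapJ

/-! ### The restrictions to the `Γ₀`-field are UNIP's two valuations -/

section Comap

variable {A E k : Type*} [CommRing A] [Field E] [Field k]
  {ι : A →+* E} {r : A →+* k} {π : A} (hB : VtBase ι r π)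
  (ιC : E →+* ℂ) {q M₁ : ℕ} [NeZero q] [NeZero M₁] [NeZero (M₁ * q)]
  (hq : q.Prime) (hqM : ¬ q ∣ M₁) (M : ℕ) (H : Subgroup (ZMod M)ˣ)
  (w : ↥(fieldC E (M₁ * q) M H) ≃ₐ[E] ↥(fieldC E (M₁ * q) M H))

theorem rtk6dvEmbFam_incl (hw : Rtk6dvWIncl ιC hq hqM M H w) (c : Bool)
    (x : ↥(modularFunctionFieldFullC E (M₁ * q))) :
    rtk6dvEmbFam (M₁ * q) M H w c (rtk6diIncl (M₁ * q) M H x) = vtEmbFam ιC hq hqM c x := by
  cases c
  · rw [rtk6dvEmbFam_false, hw x, rtk6diIncl_coe]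
    rfl
  · rw [rtk6dvEmbFam_true, rtk6diIncl_coe]
    rfl

/-- **`(V c).comap incl = UNIP.vtFam c`** -/
theorem rtk6dvFam_comap_incl (hw : Rtk6dvWIncl ιC hq hqM M H w) (c : Bool) :
    (rtk6dvFam hB (M₁ * q) M H w c).comap (rtk6diIncl (M₁ * q) M H) =
      vtFam hB ιC hq hqM c := by
  ext x
  rw [ValuationSubring.mem_comap, mem_rtk6dvFam, rtk6dvEmbFam_incl ιC hq hqM M H w hw]
  rfl

theorem rtk6dvFam_incl_mem_iff (hw : Rtk6dvWIncl ιC hq hqM M H w) (c : Bool)
    (x : ↥(modularFunctionFieldFullC E (M₁ * q))) :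
    rtk6diIncl (M₁ * q) M H x ∈ rtk6dvFam hB (M₁ * q) M H w c ↔ x ∈ vtFam hB ιC hq hqM c := by
  rw [← ValuationSubring.mem_comap, rtk6dvFam_comap_incl hB ιC hq hqM M H w hw]

theorem rtk6dvFam_incl_mem_nonunits_iff (hw : Rtk6dvWIncl ιC hq hqM M H w) (c : Bool)
    (x : ↥(modularFunctionFieldFullC E (M₁ * q))) :
    rtk6diIncl (M₁ * q) M H x ∈ (rtk6dvFam hB (M₁ * q) M H w c).nonunits ↔
      x ∈ (vtFam hB ιC hq hqM c).nonunits := by
  rw [← vt_mem_nonunits_comap, rtk6dvFam_comap_incl hB ιC hq hqM M H w hw]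

end Comap

section Ne

variable {A E k : Type*} [CommRing A] [IsDomain A] [Field E] [Algebra A E] [IsFractionRing A E]
  [Field k] {r : A →+* k} {π : A} (hB : VtBase (algebraMap A E) r π) (ιC : E →+* ℂ)
  {q M₁ : ℕ} [NeZero q] [NeZero M₁] [NeZero (M₁ * q)] (hq : q.Prime) (hqM : ¬ q ∣ M₁)
  (M : ℕ) (H : Subgroup (ZMod M)ˣ)
  (w : ↥(fieldC E (M₁ * q) M H) ≃ₐ[E] ↥(fieldC E (M₁ * q) M H))
  [Fact q.Prime] [CharP k q]

/-- **hne** (generic base): `V_∞ ≠ V_0`. -/
theorem rtk6dvFam_ne (hw : Rtk6dvWIncl ιC hq hqM M H w) :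
    rtk6dvFam hB (M₁ * q) M H w true ≠ rtk6dvFam hB (M₁ * q) M H w false := by
  intro h
  have h1 := (rtk6dvFam_incl_mem_nonunits_iff hB ιC hq hqM M H w hw true _).mpr
    (mgvl_C_mem_true hB ιC hq hqM)
  rw [h] at h1
  exact mgvl_C_not_mem_false hB ιC hq hqM
    ((rtk6dvFam_incl_mem_nonunits_iff hB ιC hq hqM M H w hw false _).mp h1)

end Ne

end Fermat.Agent.RT.K6
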