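/-
K-machine, piece K6 / D-I (helper82), part 2d: the two basic vertical valuation rings of
`F′ = rtk6diF A K₁ (M₁ q) M H` in the CONCRETE setting of UNIP / STB.

`A` a valuation subring of `ℚ̄` over `q`, `A′ = mgcA A K₁` a DVR with uniformizer `π`,
`E′ = mgcE A K₁`, `F′ = fieldC E′ (M₁ q) M H`, `t = rtk6diT` (`= j`),
`w : F′ ≃ₐ[E′] F′` an abstract Atkin–Lehner automorphism with `Rtk6dvWIncl` (it restricts to
UNIP's `atkinLehner` on the `Γ₀(M₁ q)`-field; from `Rtk6dvMapJ` by `rtk6dv_wIncl_of_mapJ`).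

* `rtk6dvV hπ M H w : Bool → ValuationSubring F′` (`true ↦ V_∞`, `false ↦ V_0 = V_∞.comap w`);
* `rtk6dv_comap_incl : (V c).comap incl = UNIP.mgvV c`;
* `rtk6dv_hne`, `rtk6dv_T_mem`, `rtk6dv_T_inv_mem`, `rtk6dv_hBV₁`, `rtk6dv_hBV₂`, `rtk6dv_hπV`,
  `rtk6dv_harch`, `rtk6dv_hunif` (`π` is a uniformizer of `V c`);
* `rtk6dv_prim_J`, `rtk6dv_prim_Jinv` : polynomials in `j` (`1/j`) prime to `π` are units;
* **`rtk6dv_hVloc₁`, `rtk6dv_hVloc₂`** : `V c` is the localisation of the chart at its centre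
  (NO (SS1) needed: `rtk6dl_hVloc`);
* inertia: `rtk6dv_hgV_inf`, `rtk6dv_hτV_inf`, `rtk6dv_act_mem_inf` (`σ̂` at `V_∞`),
  `rtk6dv_hgV_zero`, `rtk6dv_hτV_zero`, `rtk6dv_map_mem_zero` (every `Ψ` with `w ∘ Ψ = σ̂ ∘ w`,
  e.g. `Ψ = δ_c ∘ σ̂`, at `V_0`); `rtk6dv_hgA`, `rtk6dv_hgA_inv`.
-/
import Fermat.Agent.RT.K6.DIVertInc
import Fermat.Agent.RT.K6.DILoc

set_option autoImplicit false
set_option linter.style.haveILetI false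
set_option linter.unusedSectionVars false
set_option linter.unusedVariables false

noncomputable section

namespace Fermat.Agent.RT.K6

open ModularCurve AlgebraicCurve Fermat.Agent.ES Fermat.Agent.ES.G2 Fermat.Agent.INJ
open Fermat.Agent.UNIP Fermat.Agent.ES1 Fermat.Agent.ES1.G2 Fermat.Agent.AL IntermediateField

section Concrete

variable {A : ValuationSubring Qb} {K₁ : IntermediateField ℚ Qb}
  [IsDiscreteValuationRing ↥(mgcA A K₁)] {π : ↥(mgcA A K₁)} (hπ : Irreducible π)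
  (ιC : ↥(mgcE A K₁) →+* ℂ) {q M₁ : ℕ} [NeZero q] [NeZero M₁] [NeZero (M₁ * q)]
  (hq : q.Prime) (hqM : ¬ q ∣ M₁) (M : ℕ) (H : Subgroup (ZMod M)ˣ)
  (w : ↥(rtk6diF A K₁ (M₁ * q) M H) ≃ₐ[↥(mgcE A K₁)] ↥(rtk6diF A K₁ (M₁ * q) M H))

/-- **The two basic vertical valuation subrings of `F′`**: `true ↦ V_∞` (Gauss valuation of the
`q`-expansion), `false ↦ V_0 = V_∞.comap w`. -/
def rtk6dvV : Bool → ValuationSubring ↥(rtk6diF A K₁ (M₁ * q) M H) :=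
  rtk6dvFam (vtBase_residue hπ) (M₁ * q) M H w

theorem mem_rtk6dvV_true {x : ↥(rtk6diF A K₁ (M₁ * q) M H)} :
    x ∈ rtk6dvV hπ M H w true ↔
      (x : LaurentSeries ↥(mgcE A K₁)) ∈
        gaussRing (algebraMap ↥(mgcA A K₁) ↥(mgcE A K₁))
          (IsLocalRing.residue ↥(mgcA A K₁)) := Iff.rfl

theorem mem_rtk6dvV_false {x : ↥(rtk6diF A K₁ (M₁ * q) M H)} :
    x ∈ rtk6dvV hπ M H w false ↔ w x ∈ rtk6dvV hπ M H w true := Iff.rfl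

theorem rtk6dvV_false_eq_comap :
    rtk6dvV hπ M H w false = (rtk6dvV hπ M H w true).comap w.toRingEquiv.toRingHom := rfl

/-- **`(V c).comap incl = UNIP.mgvV c`** -/
theorem rtk6dv_comap_incl (hw : Rtk6dvWIncl ιC hq hqM M H w) (c : Bool) :
    (rtk6dvV hπ M H w c).comap (rtk6diIncl (M₁ * q) M H) = mgvV hπ ιC hq hqM c :=
  rtk6dvFam_comap_incl (vtBase_residue hπ) ιC hq hqM M H w hw c

theorem rtk6dv_incl_mem_iff (hw : Rtk6dvWIncl ιC hq hqM M H w) (c : Bool)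
    (x : ↥(mgcF A K₁ (M₁ * q))) :
    rtk6diIncl (M₁ * q) M H x ∈ rtk6dvV hπ M H w c ↔ x ∈ mgvV hπ ιC hq hqM c :=
  rtk6dvFam_incl_mem_iff (vtBase_residue hπ) ιC hq hqM M H w hw c x

theorem rtk6dv_incl_mem_nonunits_iff (hw : Rtk6dvWIncl ιC hq hqM M H w) (c : Bool)
    (x : ↥(mgcF A K₁ (M₁ * q))) :
    rtk6diIncl (M₁ * q) M H x ∈ (rtk6dvV hπ M H w c).nonunits ↔
      x ∈ (mgvV hπ ιC hq hqM c).nonunits :=
  rtk6dvFam_incl_mem_nonunits_iff (vtBase_residue hπ) ιC hq hqM M H w hw c x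

/-- **hne**: `V_∞ ≠ V_0` -/
theorem rtk6dv_hne (hw : Rtk6dvWIncl ιC hq hqM M H w) (hA : A.LiesOverPrime q) :
    rtk6dvV hπ M H w true ≠ rtk6dvV hπ M H w false := by
  haveI : Fact q.Prime := ⟨hq⟩
  haveI : CharP (IsLocalRing.ResidueField ↥(mgcA A K₁)) q := mgvl_charP hq hA
  exact rtk6dvFam_ne (vtBase_residue hπ) ιC hq hqM M H w hw

/-- `j ∈ V c` -/
theorem rtk6dv_T_mem (hw : Rtk6dvWIncl ιC hq hqM M H w) (c : Bool) :
    rtk6diT A K₁ (M₁ * q) M H ∈ rtk6dvV hπ M H w c :=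
  (rtk6dv_incl_mem_iff hπ ιC hq hqM M H w hw c _).mpr (mgv_T_mem hπ ιC hq hqM c)

/-- `1 / j ∈ V c` -/
theorem rtk6dv_T_inv_mem (hw : Rtk6dvWIncl ιC hq hqM M H w) (c : Bool) :
    (rtk6diT A K₁ (M₁ * q) M H)⁻¹ ∈ rtk6dvV hπ M H w c := by
  have h := (rtk6dv_incl_mem_iff hπ ιC hq hqM M H w hw c _).mpr (mgv_T_inv_mem hπ ιC hq hqM c)
  rwa [map_inv₀] at h

/-- **hBV₁**: the chart `j` lies in `V c` -/
theorem rtk6dv_hBV₁ (hw : Rtk6dvWIncl ιC hq hqM M H w) (c : Bool)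
    (b : ↥(rtk6diF A K₁ (M₁ * q) M H))
    (hb : IsIntegral ↥(Algebra.adjoin ↥(mgcA A K₁)
      ({rtk6diT A K₁ (M₁ * q) M H} : Set ↥(rtk6diF A K₁ (M₁ * q) M H))) b) :
    b ∈ rtk6dvV hπ M H w c :=
  rtk6dvFam_mem_of_isIntegral (vtBase_residue hπ) (M₁ * q) M H w c (fun a => ⟨a, rfl⟩) _
    (by rintro s rfl; exact rtk6dv_T_mem hπ ιC hq hqM M H w hw c) hb

/-- **hBV₂**: the chart `1 / j` lies in `V c` -/
theorem rtk6dv_hBV₂ (hw : Rtk6dvWIncl ιC hq hqM M H w) (c : Bool)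
    (b : ↥(rtk6diF A K₁ (M₁ * q) M H))
    (hb : IsIntegral ↥(Algebra.adjoin ↥(mgcA A K₁)
      ({(rtk6diT A K₁ (M₁ * q) M H)⁻¹} : Set ↥(rtk6diF A K₁ (M₁ * q) M H))) b) :
    b ∈ rtk6dvV hπ M H w c :=
  rtk6dvFam_mem_of_isIntegral (vtBase_residue hπ) (M₁ * q) M H w c (fun a => ⟨a, rfl⟩) _
    (by rintro s rfl; exact rtk6dv_T_inv_mem hπ ιC hq hqM M H w hw c) hb

/-- **hπV** -/
theorem rtk6dv_hπV (c : Bool) :
    algebraMap ↥(mgcA A K₁) ↥(rtk6diF A K₁ (M₁ * q) M H) π ∈ (rtk6dvV hπ M H w c).nonunits :=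
  rtk6dvFam_unif_mem_nonunits (vtBase_residue hπ) (M₁ * q) M H w c

/-- constants: `a ∈ A′` is in `𝔪(V c)` iff it is in the maximal ideal of `A` -/
theorem rtk6dv_const_mem_nonunits_iff (c : Bool) (a : ↥(mgcA A K₁)) :
    algebraMap ↥(mgcA A K₁) ↥(rtk6diF A K₁ (M₁ * q) M H) a ∈ (rtk6dvV hπ M H w c).nonunits ↔
      (((a : ↥(mgcE A K₁)) : Qb)) ∈ A.nonunits := by
  rw [← beta0Ring_mem_maximalIdeal_iff, ← IsLocalRing.residue_eq_zero_iff]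
  exact rtk6dvFam_const_mem_nonunits_iff (vtBase_residue hπ) (M₁ * q) M H w c a

/-- **harch** -/
theorem rtk6dv_harch (c : Bool) (a x : ↥(rtk6diF A K₁ (M₁ * q) M H))
    (ha : a ∈ (rtk6dvV hπ M H w c).nonunits) :
    ∃ n : ℕ, a ^ n * x ∈ (rtk6dvV hπ M H w c).nonunits :=
  rtk6dvFam_arch (vtBase_residue hπ) (M₁ * q) M H w c ha x

/-- **`π` is a uniformizer of `V c`** -/
theorem rtk6dv_hunif (c : Bool) {f : ↥(rtk6diF A K₁ (M₁ * q) M H)} (hf : f ≠ 0) :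
    ∃ n : ℤ, (rtk6dvV hπ M H w c).valuation
      (f * algebraMap ↥(mgcA A K₁) ↥(rtk6diF A K₁ (M₁ * q) M H) π ^ n) = 1 :=
  rtk6dvFam_exists_pow_mul (vtBase_residue hπ) (M₁ * q) M H w c hf

/-! ### primitive polynomials -/

/-- **polynomials in `j` prime to `π` are units of `V c`** -/
theorem rtk6dv_prim_J (hw : Rtk6dvWIncl ιC hq hqM M H w) (hA : A.LiesOverPrime q) (c : Bool)
    (s : ↥(rtk6diF A K₁ (M₁ * q) M H)) (hs : EIPrimeTo π (rtk6diT A K₁ (M₁ * q) M H) s) :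
    s ∉ (rtk6dvV hπ M H w c).nonunits := by
  haveI : Fact q.Prime := ⟨hq⟩
  haveI : CharP (IsLocalRing.ResidueField ↥(mgcA A K₁)) q := mgvl_charP hq hA
  obtain ⟨s₀, hs₀, rfl⟩ := rtk6dv_primeTo_of_incl (A' := mgcA A K₁) (L := M₁ * q) (M := M)
    (H := H) (u₀ := mgcT A K₁ (M₁ * q)) hs
  rw [rtk6dv_incl_mem_nonunits_iff hπ ιC hq hqM M H w hw]
  exact mgv_prim_J hπ ιC hq hqM c s₀ hs₀

/-- **polynomials in `1 / j` prime to `π` are units of `V c`** -/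
theorem rtk6dv_prim_Jinv (hw : Rtk6dvWIncl ιC hq hqM M H w) (hA : A.LiesOverPrime q) (c : Bool)
    (s : ↥(rtk6diF A K₁ (M₁ * q) M H))
    (hs : EIPrimeTo π (rtk6diT A K₁ (M₁ * q) M H)⁻¹ s) :
    s ∉ (rtk6dvV hπ M H w c).nonunits := by
  haveI : Fact q.Prime := ⟨hq⟩
  haveI : CharP (IsLocalRing.ResidueField ↥(mgcA A K₁)) q := mgvl_charP hq hA
  have e : (rtk6diT A K₁ (M₁ * q) M H)⁻¹ = rtk6diIncl (M₁ * q) M H (mgcT A K₁ (M₁ * q))⁻¹ := by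
    rw [map_inv₀]; rfl
  rw [e] at hs
  obtain ⟨s₀, hs₀, rfl⟩ := rtk6dv_primeTo_of_incl (A' := mgcA A K₁) (L := M₁ * q) (M := M)
    (H := H) (u₀ := (mgcT A K₁ (M₁ * q))⁻¹) hs
  rw [rtk6dv_incl_mem_nonunits_iff hπ ιC hq hqM M H w hw]
  exact mgv_prim_Jinv hπ ιC hq hqM c s₀ hs₀

/-! ### hVloc -/

/-- **hVloc₁**: on the chart `j`, `V c` is the localisation of the chart at `𝔪(V c) ∩ B`. -/
theorem rtk6dv_hVloc₁ (hw : Rtk6dvWIncl ιC hq hqM M H w) (hA : A.LiesOverPrime q)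
    (hML : M ∣ M₁ * q) :
    ∀ c (x : ↥(rtk6diF A K₁ (M₁ * q) M H)), x ∈ rtk6dvV hπ M H w c →
      ∃ b s : ↥(rtk6diF A K₁ (M₁ * q) M H),
      IsIntegral ↥(Algebra.adjoin ↥(mgcA A K₁)
        ({rtk6diT A K₁ (M₁ * q) M H} : Set ↥(rtk6diF A K₁ (M₁ * q) M H))) b ∧
      IsIntegral ↥(Algebra.adjoin ↥(mgcA A K₁)
        ({rtk6diT A K₁ (M₁ * q) M H} : Set ↥(rtk6diF A K₁ (M₁ * q) M H))) s ∧
      s ∉ (rtk6dvV hπ M H w c).nonunits ∧ s * x = b := by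
  haveI := rtk6di_finiteDimensional A K₁ (M₁ * q) M H (NeZero.ne (M₁ * q)) hML
  intro c
  exact rtk6dl_hVloc (rtk6di_transcendental A K₁ (M₁ * q) M H) hπ (rtk6dvV hπ M H w c)
    (rtk6dv_hBV₁ hπ ιC hq hqM M H w hw c) (rtk6dv_hπV hπ M H w c)
    (rtk6dv_prim_J hπ ιC hq hqM M H w hw hA c)

/-- **hVloc₂**: the same on the chart `1 / j`. -/
theorem rtk6dv_hVloc₂ (hw : Rtk6dvWIncl ιC hq hqM M H w) (hA : A.LiesOverPrime q)
    (hML : M ∣ M₁ * q) :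
    ∀ c (x : ↥(rtk6diF A K₁ (M₁ * q) M H)), x ∈ rtk6dvV hπ M H w c →
      ∃ b s : ↥(rtk6diF A K₁ (M₁ * q) M H),
      IsIntegral ↥(Algebra.adjoin ↥(mgcA A K₁)
        ({(rtk6diT A K₁ (M₁ * q) M H)⁻¹} : Set ↥(rtk6diF A K₁ (M₁ * q) M H))) b ∧
      IsIntegral ↥(Algebra.adjoin ↥(mgcA A K₁)
        ({(rtk6diT A K₁ (M₁ * q) M H)⁻¹} : Set ↥(rtk6diF A K₁ (M₁ * q) M H))) s ∧
      s ∉ (rtk6dvV hπ M H w c).nonunits ∧ s * x = b := by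
  haveI := rtk6di_finiteDimensional A K₁ (M₁ * q) M H (NeZero.ne (M₁ * q)) hML
  haveI : FiniteDimensional (↥(mgcE A K₁))⟮(rtk6diT A K₁ (M₁ * q) M H)⁻¹⟯
      ↥(rtk6diF A K₁ (M₁ * q) M H) :=
    at_finiteDimensional_inv (rtk6diT A K₁ (M₁ * q) M H)
  intro c
  exact rtk6dl_hVloc (zch_transcendental_inv (rtk6di_transcendental A K₁ (M₁ * q) M H)) hπ
    (rtk6dvV hπ M H w c)
    (rtk6dv_hBV₂ hπ ιC hq hqM M H w hw c) (rtk6dv_hπV hπ M H w c)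
    (rtk6dv_prim_Jinv hπ ιC hq hqM M H w hw hA c)

end Concrete

end Fermat.Agent.RT.K6
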