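/-
K-machine, piece K6 / D-I (helper82), part 2e: inertia and the two basic vertical valuations
of `F′ = rtk6diF A K₁ (M₁ q) M H`.

`σ` in the inertia group of `A`, `σ E′ ⊆ E′`, `g = rtk6diGal σ` (coefficientwise).
* at `V_∞`: `rtk6dv_hgV_inf` (`v_∞ (g f / f) = 1`), `rtk6dv_hτV_inf` (`g x − x ∈ 𝔪(V_∞)`),
  `rtk6dv_act_mem_inf`;
* at `V_0 = V_∞.comap w`: for EVERY ring endomorphism `Ψ` of `F′` with `w ∘ Ψ = σ̂ ∘ w`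
  (by `IsWAt.galois`: `Ψ = δ_c ∘ σ̂`): `rtk6dv_hgV_zero`, `rtk6dv_hτV_zero`,
  `rtk6dv_map_mem_zero`;
* constants: `rtk6dv_hgA`, `rtk6dv_hgA_inv` (`g`, `g⁻¹` preserve `A′`; decomposition group);
* linear automorphisms `γ` (over `E′`): `rtk6dv_val_of_stable` (`γ (V c) ⊆ V c ⇒
  v_c (γ f / f) = 1`), and the transport of the valuation rings: `rtk6dv_comap_val`.
-/
import Fermat.Agent.RT.K6.DIVertMg

set_option autoImplicit false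
set_option linter.style.haveILetI false
set_option linter.unusedSectionVars false
set_option linter.unusedVariables false

noncomputable section

namespace Fermat.Agent.RT.K6

open ModularCurve AlgebraicCurve Fermat.Agent.ES Fermat.Agent.ES.G2 Fermat.Agent.INJ
open Fermat.Agent.UNIP Fermat.Agent.ES1 Fermat.Agent.ES1.G2 Fermat.Agent.AL IntermediateField

section Inertia

variable {A : ValuationSubring Qb} {K₁ : IntermediateField ℚ Qb}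
  [IsDiscreteValuationRing ↥(mgcA A K₁)] {π : ↥(mgcA A K₁)} (hπ : Irreducible π)
  {q M₁ : ℕ} [NeZero q] [NeZero M₁] [NeZero (M₁ * q)]
  (M : ℕ) (H : Subgroup (ZMod M)ˣ)
  (w : ↥(rtk6diF A K₁ (M₁ * q) M H) ≃ₐ[↥(mgcE A K₁)] ↥(rtk6diF A K₁ (M₁ * q) M H))

/-- **`hgV` at `V_∞`** for `g = rtk6diGal σ`, `σ` in the inertia group -/
theorem rtk6dv_hgV_inf {σ : Qb ≃ₐ[ℚ] Qb} (hσ : σ ∈ A.inertiaSubgroupIn ℚ)
    (hσE : ∀ x ∈ mgcE A K₁, σ x ∈ mgcE A K₁)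
    (f : ↥(rtk6diF A K₁ (M₁ * q) M H)) (hf : f ≠ 0) :
    (rtk6dvV hπ M H w true).valuation (rtk6diGal (M₁ * q) M H σ hσE • f / f) = 1 :=
  rtk6dvFam_hσV (vtBase_residue hπ) (M₁ * q) M H w
    (vt_compat_of_inertia (mgcE A K₁) hσ hσE) (vt_unif_of_inertia (mgcE A K₁) hπ hσ hσE) true
    (rtk6diAct (M₁ * q) M H σ hσE) (fun _ => rfl) hf

/-- **`hτV` at `V_∞`**: inertia acts trivially on the residue field of `V_∞` -/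
theorem rtk6dv_hτV_inf {σ : Qb ≃ₐ[ℚ] Qb} (hσ : σ ∈ A.inertiaSubgroupIn ℚ)
    (hσE : ∀ x ∈ mgcE A K₁, σ x ∈ mgcE A K₁)
    (x : ↥(rtk6diF A K₁ (M₁ * q) M H)) (hx : x ∈ rtk6dvV hπ M H w true) :
    rtk6diGal (M₁ * q) M H σ hσE • x - x ∈ (rtk6dvV hπ M H w true).nonunits :=
  rtk6dvFam_hτV (vtBase_residue hπ) (M₁ * q) M H w
    (vt_compat_of_inertia (mgcE A K₁) hσ hσE) true
    (rtk6diAct (M₁ * q) M H σ hσE) (fun _ => rfl) hx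

/-- `V_∞` is stable under inertia -/
theorem rtk6dv_act_mem_inf {σ : Qb ≃ₐ[ℚ] Qb} (hσ : σ ∈ A.inertiaSubgroupIn ℚ)
    (hσE : ∀ x ∈ mgcE A K₁, σ x ∈ mgcE A K₁)
    (x : ↥(rtk6diF A K₁ (M₁ * q) M H)) (hx : x ∈ rtk6dvV hπ M H w true) :
    rtk6diGal (M₁ * q) M H σ hσE • x ∈ rtk6dvV hπ M H w true :=
  rtk6dvFam_map_mem (vtBase_residue hπ) (M₁ * q) M H w
    (vt_compat_of_inertia (mgcE A K₁) hσ hσE) true
    (rtk6diAct (M₁ * q) M H σ hσE) (fun _ => rfl) hx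

/-- **`hgV` at `V_0`** for every `Ψ` with `w ∘ Ψ = σ̂ ∘ w` (e.g. `Ψ = δ_c ∘ σ̂`) -/
theorem rtk6dv_hgV_zero {σ : Qb ≃ₐ[ℚ] Qb} (hσ : σ ∈ A.inertiaSubgroupIn ℚ)
    (hσE : ∀ x ∈ mgcE A K₁, σ x ∈ mgcE A K₁)
    (Ψ : ↥(rtk6diF A K₁ (M₁ * q) M H) →+* ↥(rtk6diF A K₁ (M₁ * q) M H))
    (hΨ : ∀ x, w (Ψ x) = rtk6diGal (M₁ * q) M H σ hσE • w x)
    (f : ↥(rtk6diF A K₁ (M₁ * q) M H)) (hf : f ≠ 0) :
    (rtk6dvV hπ M H w false).valuation (Ψ f / f) = 1 :=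
  rtk6dvFam_hσV (vtBase_residue hπ) (M₁ * q) M H w
    (vt_compat_of_inertia (mgcE A K₁) hσ hσE) (vt_unif_of_inertia (mgcE A K₁) hπ hσ hσE) false
    Ψ (rtk6dvEmbFam_false_of_comm (M₁ * q) M H w _ Ψ hΨ) hf

/-- **`hτV` at `V_0`** for every `Ψ` with `w ∘ Ψ = σ̂ ∘ w` -/
theorem rtk6dv_hτV_zero {σ : Qb ≃ₐ[ℚ] Qb} (hσ : σ ∈ A.inertiaSubgroupIn ℚ)
    (hσE : ∀ x ∈ mgcE A K₁, σ x ∈ mgcE A K₁)
    (Ψ : ↥(rtk6diF A K₁ (M₁ * q) M H) →+* ↥(rtk6diF A K₁ (M₁ * q) M H))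
    (hΨ : ∀ x, w (Ψ x) = rtk6diGal (M₁ * q) M H σ hσE • w x)
    (x : ↥(rtk6diF A K₁ (M₁ * q) M H)) (hx : x ∈ rtk6dvV hπ M H w false) :
    Ψ x - x ∈ (rtk6dvV hπ M H w false).nonunits :=
  rtk6dvFam_hτV (vtBase_residue hπ) (M₁ * q) M H w
    (vt_compat_of_inertia (mgcE A K₁) hσ hσE) false
    Ψ (rtk6dvEmbFam_false_of_comm (M₁ * q) M H w _ Ψ hΨ) hx

theorem rtk6dv_map_mem_zero {σ : Qb ≃ₐ[ℚ] Qb} (hσ : σ ∈ A.inertiaSubgroupIn ℚ)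
    (hσE : ∀ x ∈ mgcE A K₁, σ x ∈ mgcE A K₁)
    (Ψ : ↥(rtk6diF A K₁ (M₁ * q) M H) →+* ↥(rtk6diF A K₁ (M₁ * q) M H))
    (hΨ : ∀ x, w (Ψ x) = rtk6diGal (M₁ * q) M H σ hσE • w x)
    (x : ↥(rtk6diF A K₁ (M₁ * q) M H)) (hx : x ∈ rtk6dvV hπ M H w false) :
    Ψ x ∈ rtk6dvV hπ M H w false :=
  rtk6dvFam_map_mem (vtBase_residue hπ) (M₁ * q) M H w
    (vt_compat_of_inertia (mgcE A K₁) hσ hσE) false
    Ψ (rtk6dvEmbFam_false_of_comm (M₁ * q) M H w _ Ψ hΨ) hx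

end Inertia

section Const

variable {A : ValuationSubring Qb} {K₁ : IntermediateField ℚ Qb}
  (L M : ℕ) (H : Subgroup (ZMod M)ˣ)

/-- **`hgA`** for `g = rtk6diGal σ`: the decomposition group preserves the constants `A′` -/
theorem rtk6dv_hgA {σ : Qb ≃ₐ[ℚ] Qb} (hσ : σ ∈ A.decompositionSubgroup ℚ)
    (hσE : ∀ x ∈ mgcE A K₁, σ x ∈ mgcE A K₁) :
    ∀ α : ↥(mgcA A K₁), ∃ α' : ↥(mgcA A K₁),
      rtk6diGal L M H σ hσE • algebraMap ↥(mgcA A K₁) ↥(rtk6diF A K₁ L M H) α =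
        algebraMap ↥(mgcA A K₁) ↥(rtk6diF A K₁ L M H) α' := by
  intro α
  refine ⟨mgvfHom (mgcE A K₁) hσ hσE α, ?_⟩
  exact rtk6diAct_algebraMap L M H σ hσE (α : ↥(mgcE A K₁))

/-- **`hgA'`** for `g = rtk6diGal σ` -/
theorem rtk6dv_hgA_inv {σ : Qb ≃ₐ[ℚ] Qb} (hσ : σ ∈ A.decompositionSubgroup ℚ)
    (hσE : ∀ x ∈ mgcE A K₁, σ x ∈ mgcE A K₁) :
    ∀ α : ↥(mgcA A K₁), ∃ α' : ↥(mgcA A K₁),
      (rtk6diGal L M H σ hσE)⁻¹ • algebraMap ↥(mgcA A K₁) ↥(rtk6diF A K₁ L M H) α =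
        algebraMap ↥(mgcA A K₁) ↥(rtk6diF A K₁ L M H) α' := by
  intro α
  have hσ' : σ.symm ∈ A.decompositionSubgroup ℚ := kron_symm_mem_decomposition hσ
  have hσE' : ∀ x ∈ mgcE A K₁, σ.symm x ∈ mgcE A K₁ := mga_stable_symm (mgcE A K₁) σ hσE
  refine ⟨mgvfHom (mgcE A K₁) hσ' hσE' α, ?_⟩
  rw [inv_smul_eq_iff]
  have h := rtk6diAct_algebraMap L M H σ hσE
    ((mgvfHom (mgcE A K₁) hσ' hσE' α : ↥(mgcA A K₁)) : ↥(mgcE A K₁))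
  have e : mgRestrict (mgcE A K₁) σ hσE
      ((mgvfHom (mgcE A K₁) hσ' hσE' α : ↥(mgcA A K₁)) : ↥(mgcE A K₁)) =
        (α : ↥(mgcE A K₁)) := Subtype.ext (σ.apply_symm_apply _)
  rw [e] at h
  exact h.symm

end Const

end Fermat.Agent.RT.K6
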