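/-
K-machine, piece K6 / D-I (helper82), part 3 = (M1) of `NOTES/RT-K6-D.md` v5:
THE FAMILY `κ` OF ALL CONJUGATES of the two basic vertical valuation rings — generic part.

`F = fieldC K L M H`, `F₀ = modularFunctionFieldFullC K L` (`rtk6diIncl : F₀ → F`).
* `rtk6dfGam K L M H : Subgroup (F ≃ₐ[K] F)` : `Γ` = the automorphisms of `F` over `K` which fix
  the `Γ₀(L)`-field; `IsDiamondC.mem_gam` (the diamonds lie in `Γ`), `rtk6df_isDiamond` (every
  element of `Γ` is a diamond: `rtk6d0_galois`), `rtk6df_finite` (`Γ` is finite);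
  `rtk6df_gam_adjoin` (`Γ` fixes the chart rings `A′[incl u₀]`), `rtk6df_gam_const`;
* `Rtk6dfIdx V₂` : the index type `κ = {W // ∃ γ ∈ Γ, ∃ b, W = (V₂ b).comap γ}` of the conjugates
  of a pair `V₂ : Bool → ValuationSubring F`; `rtk6dfVal : κ → ValuationSubring F` (injective),
  `rtk6dfBase b : κ`, `rtk6dfComap γ c : κ` (`Γ` permutes `κ`), `rtk6df_finite_idx`,
  `rtk6df_forall` (induction principle);
* transport along `γ`: `rtk6df_val_comap_eq_one_iff`, `rtk6df_comap_comap`.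
-/
import Fermat.Agent.RT.K6.DIVertGal
import Fermat.Agent.RT.K6.D0Gal

set_option autoImplicit false
set_option linter.style.haveILetI false
set_option linter.unusedSectionVars false
set_option linter.unusedVariables false

noncomputable section

namespace Fermat.Agent.RT.K6

open ModularCurve AlgebraicCurve Fermat.Agent.ES Fermat.Agent.ES.G2 Fermat.Agent.INJ
open Fermat.Agent.UNIP Fermat.Agent.ES1 Fermat.Agent.ES1.G2 Fermat.Agent.AL IntermediateField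

/-! ### The group `Γ` -/

section Gam

variable (K : Type) [Field K] (L M : ℕ) (H : Subgroup (ZMod M)ˣ)

/-- `Γ`: the automorphisms of `fieldC K L M H` over `K` fixing the `Γ₀(L)`-field. -/
def rtk6dfGam : Subgroup (↥(fieldC K L M H) ≃ₐ[K] ↥(fieldC K L M H)) where
  carrier := {γ | ∀ x : ↥(modularFunctionFieldFullC K L),
    γ (rtk6diIncl L M H x) = rtk6diIncl L M H x}
  mul_mem' := by
    intro a b ha hb x
    rw [AlgEquiv.mul_apply, hb x, ha x]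
  one_mem' := fun _ => rfl
  inv_mem' := by
    intro a ha x
    have h := ha x
    calc a⁻¹ (rtk6diIncl L M H x) = a⁻¹ (a (rtk6diIncl L M H x)) := by rw [h]
      _ = rtk6diIncl L M H x := a.symm_apply_apply _

variable {K L M H}

theorem mem_rtk6dfGam {γ : ↥(fieldC K L M H) ≃ₐ[K] ↥(fieldC K L M H)} :
    γ ∈ rtk6dfGam K L M H ↔
      ∀ x : ↥(modularFunctionFieldFullC K L), γ (rtk6diIncl L M H x) = rtk6diIncl L M H x :=
  Iff.rfl

/-- the diamonds lie in `Γ` -/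
theorem IsDiamondC.mem_gam {c : (ZMod M)ˣ} {δ : ↥(fieldC K L M H) ≃ₐ[K] ↥(fieldC K L M H)}
    (h : IsDiamondC K L M H c δ) : δ ∈ rtk6dfGam K L M H := fun x =>
  h.fix _ (by rw [rtk6diIncl_coe]; exact x.2)

/-- elements of `Γ` fix every element whose expansion lies in the `Γ₀(L)`-field -/
theorem rtk6df_gam_fix {γ : ↥(fieldC K L M H) ≃ₐ[K] ↥(fieldC K L M H)}
    (hγ : γ ∈ rtk6dfGam K L M H) (f : ↥(fieldC K L M H))
    (hf : (f : LaurentSeries K) ∈ modularFunctionFieldFullC K L) : γ f = f := by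
  have e : f = rtk6diIncl L M H ⟨(f : LaurentSeries K), hf⟩ :=
    Subtype.ext (by rw [rtk6diIncl_coe])
  rw [e]
  exact hγ _

/-- `Γ` fixes `j` -/
theorem rtk6df_gam_J {γ : ↥(fieldC K L M H) ≃ₐ[K] ↥(fieldC K L M H)}
    (hγ : γ ∈ rtk6dfGam K L M H) : γ (rtk6diJ K L M H) = rtk6diJ K L M H :=
  hγ _

/-- `Γ` fixes the chart rings of the `Γ₀(L)`-field -/
theorem rtk6df_gam_adjoin (A' : ValuationSubring K)
    {γ : ↥(fieldC K L M H) ≃ₐ[K] ↥(fieldC K L M H)} (hγ : γ ∈ rtk6dfGam K L M H)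
    {u₀ : ↥(modularFunctionFieldFullC K L)} {s : ↥(fieldC K L M H)}
    (hs : s ∈ Algebra.adjoin ↥A' ({rtk6diIncl L M H u₀} : Set ↥(fieldC K L M H))) :
    γ s = s := by
  obtain ⟨s₀, -, rfl⟩ := rtk6dv_exists_of_mem_adjoin hs
  exact hγ s₀

variable [CharZero K] [Algebra.IsAlgebraic ℚ K] [NeZero M]

/-- an element of `Γ` as an automorphism over the `Γ₀(L)`-field -/
def rtk6dfToAlg (γ : ↥(fieldC K L M H) ≃ₐ[K] ↥(fieldC K L M H))
    (hγ : γ ∈ rtk6dfGam K L M H) :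
    letI := kdlAlg (full_le_fieldC K L M H)
    ↥(fieldC K L M H) ≃ₐ[↥(modularFunctionFieldFullC K L)] ↥(fieldC K L M H) :=
  letI := kdlAlg (full_le_fieldC K L M H)
  { γ.toRingEquiv with
    commutes' := fun x => by
      have e : algebraMap ↥(modularFunctionFieldFullC K L) ↥(fieldC K L M H) x =
          rtk6diIncl L M H x := Subtype.ext (by rw [kdlAlg_coe, rtk6diIncl_coe])
      show γ (algebraMap ↥(modularFunctionFieldFullC K L) ↥(fieldC K L M H) x) = _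
      rw [e]
      exact hγ x }

theorem rtk6dfToAlg_apply (γ : ↥(fieldC K L M H) ≃ₐ[K] ↥(fieldC K L M H))
    (hγ : γ ∈ rtk6dfGam K L M H) (x : ↥(fieldC K L M H)) :
    letI := kdlAlg (full_le_fieldC K L M H)
    rtk6dfToAlg γ hγ x = γ x := rfl

/-- **every element of `Γ` is a diamond** -/
theorem rtk6df_isDiamond (hL : L ≠ 0) (hML : M ∣ L)
    {γ : ↥(fieldC K L M H) ≃ₐ[K] ↥(fieldC K L M H)} (hγ : γ ∈ rtk6dfGam K L M H) :
    ∃ c : (ZMod M)ˣ, IsDiamondC K L M H c γ := by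
  letI := kdlAlg (full_le_fieldC K L M H)
  obtain ⟨-, -, -, hall⟩ := rtk6d0_galois K H hL hML
  obtain ⟨c, σ, hσ, hfσ⟩ := hall (rtk6dfToAlg γ hγ)
  have e : γ = σ := AlgEquiv.ext fun x => hfσ x
  exact ⟨c, e ▸ hσ⟩

/-- **`Γ` is finite** -/
theorem rtk6df_finite (hL : L ≠ 0) (hML : M ∣ L) : Finite ↥(rtk6dfGam K L M H) := by
  letI := kdlAlg (full_le_fieldC K L M H)
  obtain ⟨hfin, -, -, -⟩ := rtk6d0_galois K H hL hML
  haveI := hfin
  haveI : Finite (↥(fieldC K L M H) ≃ₐ[↥(modularFunctionFieldFullC K L)] ↥(fieldC K L M H)) :=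
    Finite.of_fintype _
  refine Finite.of_injective
    (fun γ : ↥(rtk6dfGam K L M H) => rtk6dfToAlg (γ : ↥(fieldC K L M H) ≃ₐ[K] _) γ.2) ?_
  intro a b hab
  apply Subtype.ext
  apply AlgEquiv.ext
  intro x
  have h := congrArg (fun f : ↥(fieldC K L M H) ≃ₐ[↥(modularFunctionFieldFullC K L)]
    ↥(fieldC K L M H) => f x) hab
  exact h

end Gam

/-! ### The family of conjugates -/

section Idx

variable {K : Type} [Field K] {L M : ℕ} {H : Subgroup (ZMod M)ˣ}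

/-- transport of a valuation subring: `W.comap γ = γ⁻¹ W` -/
def rtk6dfCo (W : ValuationSubring ↥(fieldC K L M H))
    (γ : ↥(fieldC K L M H) ≃ₐ[K] ↥(fieldC K L M H)) : ValuationSubring ↥(fieldC K L M H) :=
  W.comap γ.toRingEquiv.toRingHom

theorem mem_rtk6dfCo {W : ValuationSubring ↥(fieldC K L M H)}
    {γ : ↥(fieldC K L M H) ≃ₐ[K] ↥(fieldC K L M H)} {x : ↥(fieldC K L M H)} :
    x ∈ rtk6dfCo W γ ↔ γ x ∈ W := Iff.rfl

theorem mem_nonunits_rtk6dfCo {W : ValuationSubring ↥(fieldC K L M H)}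
    {γ : ↥(fieldC K L M H) ≃ₐ[K] ↥(fieldC K L M H)} {x : ↥(fieldC K L M H)} :
    x ∈ (rtk6dfCo W γ).nonunits ↔ γ x ∈ W.nonunits :=
  vt_mem_nonunits_comap W _ x

theorem rtk6dfCo_one (W : ValuationSubring ↥(fieldC K L M H)) : rtk6dfCo W 1 = W := by
  ext x
  rfl

theorem rtk6dfCo_mul (W : ValuationSubring ↥(fieldC K L M H))
    (γ γ' : ↥(fieldC K L M H) ≃ₐ[K] ↥(fieldC K L M H)) :
    rtk6dfCo (rtk6dfCo W γ) γ' = rtk6dfCo W (γ * γ') := by
  ext x
  rfl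

/-- `v (x) = 1` in `γ⁻¹ W` iff `v (γ x) = 1` in `W` -/
theorem rtk6df_val_comap_eq_one_iff (W : ValuationSubring ↥(fieldC K L M H))
    (γ : ↥(fieldC K L M H) ≃ₐ[K] ↥(fieldC K L M H)) (x : ↥(fieldC K L M H)) :
    (rtk6dfCo W γ).valuation x = 1 ↔ W.valuation (γ x) = 1 := by
  rw [vt_valuation_eq_one_iff, vt_valuation_eq_one_iff, mem_rtk6dfCo, mem_rtk6dfCo, map_inv₀]
  constructor
  · rintro ⟨h0, h1, h2⟩
    exact ⟨(map_ne_zero γ).mpr h0, h1, h2⟩
  · rintro ⟨h0, h1, h2⟩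
    exact ⟨(map_ne_zero γ).mp h0, h1, h2⟩

variable (V₂ : Bool → ValuationSubring ↥(fieldC K L M H))

/-- **The index type `κ`**: all conjugates of the pair `V₂` under `Γ`. -/
def Rtk6dfIdx : Type :=
  {W : ValuationSubring ↥(fieldC K L M H) //
    ∃ γ ∈ rtk6dfGam K L M H, ∃ b : Bool, W = rtk6dfCo (V₂ b) γ}

/-- **The family `V : κ → ValuationSubring F`** -/
def rtk6dfVal : Rtk6dfIdx V₂ → ValuationSubring ↥(fieldC K L M H) := Subtype.val

theorem rtk6dfVal_injective : Function.Injective (rtk6dfVal V₂) := Subtype.val_injective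

/-- the two basic components -/
def rtk6dfBase (b : Bool) : Rtk6dfIdx V₂ :=
  ⟨V₂ b, 1, (rtk6dfGam K L M H).one_mem, b, (rtk6dfCo_one _).symm⟩

@[simp]
theorem rtk6dfVal_base (b : Bool) : rtk6dfVal V₂ (rtk6dfBase V₂ b) = V₂ b := rfl

/-- `Γ` permutes the family -/
def rtk6dfComap (γ : ↥(fieldC K L M H) ≃ₐ[K] ↥(fieldC K L M H))
    (hγ : γ ∈ rtk6dfGam K L M H) (c : Rtk6dfIdx V₂) : Rtk6dfIdx V₂ :=
  ⟨rtk6dfCo c.1 γ, by
    obtain ⟨γ₀, hγ₀, b, hb⟩ := c.2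
    exact ⟨γ₀ * γ, (rtk6dfGam K L M H).mul_mem hγ₀ hγ, b, by rw [hb, rtk6dfCo_mul]⟩⟩

@[simp]
theorem rtk6dfVal_comap (γ : ↥(fieldC K L M H) ≃ₐ[K] ↥(fieldC K L M H))
    (hγ : γ ∈ rtk6dfGam K L M H) (c : Rtk6dfIdx V₂) :
    rtk6dfVal V₂ (rtk6dfComap V₂ γ hγ c) = rtk6dfCo (rtk6dfVal V₂ c) γ := rfl

/-- every component is a conjugate of a basic one -/
theorem rtk6df_exists (c : Rtk6dfIdx V₂) :
    ∃ γ ∈ rtk6dfGam K L M H, ∃ b : Bool, rtk6dfVal V₂ c = rtk6dfCo (V₂ b) γ := c.2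

/-- **induction principle**: a property of valuation rings which holds for all conjugates of the
basic components holds for the whole family -/
theorem rtk6df_forall {P : ValuationSubring ↥(fieldC K L M H) → Prop}
    (h : ∀ γ ∈ rtk6dfGam K L M H, ∀ b : Bool, P (rtk6dfCo (V₂ b) γ)) (c : Rtk6dfIdx V₂) :
    P (rtk6dfVal V₂ c) := by
  obtain ⟨γ, hγ, b, hb⟩ := c.2
  show P c.1
  rw [hb]
  exact h γ hγ b

/-- **`hlV′`** (the hypothesis of `rtk6gl_ss1_perm`): `Γ` permutes the family. -/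
theorem rtk6df_perm (γ : ↥(fieldC K L M H) ≃ₐ[K] ↥(fieldC K L M H))
    (hγ : γ ∈ rtk6dfGam K L M H) (c : Rtk6dfIdx V₂) :
    ∃ c' : Rtk6dfIdx V₂, ∀ x ∈ (rtk6dfVal V₂ c').nonunits, γ x ∈ (rtk6dfVal V₂ c).nonunits :=
  ⟨rtk6dfComap V₂ γ hγ c, fun x hx => mem_nonunits_rtk6dfCo.mp hx⟩

/-- **`Finite κ`** -/
theorem rtk6df_finite_idx [CharZero K] [Algebra.IsAlgebraic ℚ K] [NeZero M] (hL : L ≠ 0)
    (hML : M ∣ L) : Finite (Rtk6dfIdx V₂) := by
  haveI := rtk6df_finite (K := K) (H := H) hL hML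
  refine Finite.of_surjective
    (fun p : ↥(rtk6dfGam K L M H) × Bool =>
      (⟨rtk6dfCo (V₂ p.2) (p.1 : ↥(fieldC K L M H) ≃ₐ[K] _), p.1, p.1.2, p.2, rfl⟩ :
        Rtk6dfIdx V₂)) ?_
  rintro ⟨W, γ, hγ, b, hb⟩
  exact ⟨(⟨γ, hγ⟩, b), Subtype.ext hb.symm⟩

end Idx

end Fermat.Agent.RT.K6
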