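/-
K-machine, piece K6 / D-I (helper82), part 3b = (M1) of `NOTES/RT-K6-D.md` v5, CONCRETE:
the family `κ` of ALL conjugates of `V_∞`, `V_0` in `F′ = rtk6diF A K₁ (M₁ q) M H`, with the
hypotheses of `rtk6ew_main_two` / `rtk6ew_main_multi` which do not depend on the points.

Setting of `DIVertMg.lean` (`A′ = mgcA A K₁` a DVR, `π`, `w` with `Rtk6dvWIncl`).
* `rtk6dfK hπ M H w` (`= κ`), `rtk6dfV hπ M H w : κ → ValuationSubring F′` (injective: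
  `rtk6dfV_injective`), `rtk6dfInf`, `rtk6dfZero : κ` (`V = V_∞`, `V_0`), `rtk6df_finiteK`;
* for EVERY `c : κ`: `rtk6df_hBV₁`, `rtk6df_hBV₂`, `rtk6df_hπV`, `rtk6df_harch`, `rtk6df_hunif`
  (`π` is a uniformizer), `rtk6df_hU` (`x ∈ 𝔪(V c) → x / π ∈ V c`), `rtk6df_prim_J`,
  `rtk6df_prim_Jinv`, **`rtk6df_hVloc₁`**, **`rtk6df_hVloc₂`**, `rtk6df_const_mem_nonunits_iff`;
* `rtk6df_comap_incl` : the restriction of `V c` to the `Γ₀(M₁ q)`-field is `mgvV … b`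
  (`b = rtk6dfSide c`-free form: `∃ b`);
* `rtk6df_permK` : `Γ` permutes the family (`hlV′` of `rtk6gl_ss1_perm`);
* `rtk6df_val_of_gam` : `γ ∈ Γ` with `γ (V c) ⊆ V c` preserves the valuation of `V c`.
-/
import Fermat.Agent.RT.K6.DIFam

set_option autoImplicit false
set_option linter.style.haveILetI false
set_option linter.unusedSectionVars false
set_option linter.unusedVariables false

noncomputable section

namespace Fermat.Agent.RT.K6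

open ModularCurve AlgebraicCurve Fermat.Agent.ES Fermat.Agent.ES.G2 Fermat.Agent.INJ
open Fermat.Agent.UNIP Fermat.Agent.ES1 Fermat.Agent.ES1.G2 Fermat.Agent.AL IntermediateField

section Gen

/-- a valuation subring containing the image of `R` and the set `S` contains the elements
integral over `R[S]` -/
theorem rtk6df_mem_of_isIntegral {R F : Type*} [CommRing R] [Field F] [Algebra R F]
    (W : ValuationSubring F) (hR : ∀ a : R, algebraMap R F a ∈ W) (S : Set F)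
    (hS : ∀ s ∈ S, s ∈ W) {x : F} (hx : IsIntegral (Algebra.adjoin R S) x) : x ∈ W := by
  refine vt_mem_of_isIntegral _ (fun y => ?_) hx
  show ((y : Algebra.adjoin R S) : F) ∈ W
  obtain ⟨y, hy⟩ := y
  show y ∈ W
  induction hy using Algebra.adjoin_induction with
  | mem s hs => exact hS s hs
  | algebraMap a => exact hR a
  | add s t _ _ hs ht => exact W.add_mem _ _ hs ht
  | mul s t _ _ hs ht => exact W.mul_mem _ _ hs ht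

end Gen

section Concrete

variable {A : ValuationSubring Qb} {K₁ : IntermediateField ℚ Qb}
  [IsDiscreteValuationRing ↥(mgcA A K₁)] {π : ↥(mgcA A K₁)} (hπ : Irreducible π)
  (ιC : ↥(mgcE A K₁) →+* ℂ) {q M₁ : ℕ} [NeZero q] [NeZero M₁] [NeZero (M₁ * q)]
  (hq : q.Prime) (hqM : ¬ q ∣ M₁) (M : ℕ) (H : Subgroup (ZMod M)ˣ)
  (w : ↥(rtk6diF A K₁ (M₁ * q) M H) ≃ₐ[↥(mgcE A K₁)] ↥(rtk6diF A K₁ (M₁ * q) M H))

/-- **`κ`**: the index type of all conjugates of `V_∞`, `V_0` -/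
def rtk6dfK : Type := Rtk6dfIdx (rtk6dvV hπ M H w)

/-- **`V : κ → ValuationSubring F′`** -/
def rtk6dfV : rtk6dfK hπ M H w → ValuationSubring ↥(rtk6diF A K₁ (M₁ * q) M H) :=
  rtk6dfVal (rtk6dvV hπ M H w)

theorem rtk6dfV_injective : Function.Injective (rtk6dfV hπ M H w) :=
  rtk6dfVal_injective _

/-- the component `V_∞` -/
def rtk6dfInf : rtk6dfK hπ M H w := rtk6dfBase (rtk6dvV hπ M H w) true

/-- the component `V_0` -/
def rtk6dfZero : rtk6dfK hπ M H w := rtk6dfBase (rtk6dvV hπ M H w) false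

@[simp]
theorem rtk6dfV_inf : rtk6dfV hπ M H w (rtk6dfInf hπ M H w) = rtk6dvV hπ M H w true := rfl

@[simp]
theorem rtk6dfV_zero : rtk6dfV hπ M H w (rtk6dfZero hπ M H w) = rtk6dvV hπ M H w false := rfl

/-- every component is a conjugate of `V_∞` or `V_0` -/
theorem rtk6df_existsK (c : rtk6dfK hπ M H w) :
    ∃ γ ∈ rtk6dfGam ↥(mgcE A K₁) (M₁ * q) M H, ∃ b : Bool,
      rtk6dfV hπ M H w c = rtk6dfCo (rtk6dvV hπ M H w b) γ :=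
  rtk6df_exists _ c

/-- induction principle -/
theorem rtk6df_forallK {P : ValuationSubring ↥(rtk6diF A K₁ (M₁ * q) M H) → Prop}
    (h : ∀ γ ∈ rtk6dfGam ↥(mgcE A K₁) (M₁ * q) M H, ∀ b : Bool,
      P (rtk6dfCo (rtk6dvV hπ M H w b) γ)) (c : rtk6dfK hπ M H w) :
    P (rtk6dfV hπ M H w c) :=
  rtk6df_forall _ h c

/-- **`Finite κ`** -/
theorem rtk6df_finiteK (hML : M ∣ M₁ * q) : Finite (rtk6dfK hπ M H w) := by
  haveI : Algebra.IsAlgebraic ℚ Qb := AlgebraicClosure.isAlgebraic ℚ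
  haveI : Algebra.IsAlgebraic ℚ ↥(mgcE A K₁) :=
    Algebra.IsAlgebraic.of_injective (mgcE A K₁).val Subtype.val_injective
  haveI : NeZero M := ⟨fun h0 => NeZero.ne (M₁ * q) (Nat.eq_zero_of_zero_dvd (h0 ▸ hML))⟩
  exact rtk6df_finite_idx _ (NeZero.ne (M₁ * q)) hML

/-- **`Γ` permutes the family** (`hlV′` of `rtk6gl_ss1_perm`) -/
theorem rtk6df_permK (γ : ↥(rtk6diF A K₁ (M₁ * q) M H) ≃ₐ[↥(mgcE A K₁)] _)
    (hγ : γ ∈ rtk6dfGam ↥(mgcE A K₁) (M₁ * q) M H) (c : rtk6dfK hπ M H w) :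
    ∃ c' : rtk6dfK hπ M H w, ∀ x ∈ (rtk6dfV hπ M H w c').nonunits,
      γ x ∈ (rtk6dfV hπ M H w c).nonunits :=
  rtk6df_perm _ γ hγ c

/-! ### The hypotheses for the conjugates -/

section Conj

variable (γ : ↥(rtk6diF A K₁ (M₁ * q) M H) ≃ₐ[↥(mgcE A K₁)] ↥(rtk6diF A K₁ (M₁ * q) M H))
  (hγ : γ ∈ rtk6dfGam ↥(mgcE A K₁) (M₁ * q) M H) (b : Bool)

include hγ

theorem rtk6dfc_T : γ (rtk6diT A K₁ (M₁ * q) M H) = rtk6diT A K₁ (M₁ * q) M H := hγ _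

theorem rtk6dfc_Tinv : γ (rtk6diT A K₁ (M₁ * q) M H)⁻¹ = (rtk6diT A K₁ (M₁ * q) M H)⁻¹ := by
  rw [map_inv₀, rtk6dfc_T M H γ hγ]

omit hγ in
theorem rtk6dfc_const (a : ↥(mgcA A K₁)) :
    γ (algebraMap ↥(mgcA A K₁) ↥(rtk6diF A K₁ (M₁ * q) M H) a) =
      algebraMap ↥(mgcA A K₁) ↥(rtk6diF A K₁ (M₁ * q) M H) a :=
  γ.commutes (a : ↥(mgcE A K₁))

/-- a conjugate contains every valuation-ring-closed combination: `A′[u] ⊆ γ⁻¹ V` for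
`u ∈ V` fixed by `γ` -/
theorem rtk6dfc_mem_of_isIntegral {u : ↥(rtk6diF A K₁ (M₁ * q) M H)} (hu : γ u = u)
    (huV : u ∈ rtk6dvV hπ M H w b) (x : ↥(rtk6diF A K₁ (M₁ * q) M H))
    (hx : IsIntegral ↥(Algebra.adjoin ↥(mgcA A K₁)
      ({u} : Set ↥(rtk6diF A K₁ (M₁ * q) M H))) x) :
    x ∈ rtk6dfCo (rtk6dvV hπ M H w b) γ := by
  refine rtk6df_mem_of_isIntegral (rtk6dfCo (rtk6dvV hπ M H w b) γ) ?_ _ ?_ hx
  · intro a
    rw [mem_rtk6dfCo, rtk6dfc_const]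
    exact rtk6dvFam_const_mem (vtBase_residue hπ) (M₁ * q) M H w b a
  · rintro s rfl
    rw [mem_rtk6dfCo, hu]
    exact huV

/-- **hBV₁** for a conjugate -/
theorem rtk6dfc_hBV₁ (hw : Rtk6dvWIncl ιC hq hqM M H w) (x : ↥(rtk6diF A K₁ (M₁ * q) M H))
    (hx : IsIntegral ↥(Algebra.adjoin ↥(mgcA A K₁)
      ({rtk6diT A K₁ (M₁ * q) M H} : Set ↥(rtk6diF A K₁ (M₁ * q) M H))) x) :
    x ∈ rtk6dfCo (rtk6dvV hπ M H w b) γ :=
  rtk6dfc_mem_of_isIntegral hπ M H w γ hγ b (rtk6dfc_T M H γ hγ)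
    (rtk6dv_T_mem hπ ιC hq hqM M H w hw b) x hx

/-- **hBV₂** for a conjugate -/
theorem rtk6dfc_hBV₂ (hw : Rtk6dvWIncl ιC hq hqM M H w) (x : ↥(rtk6diF A K₁ (M₁ * q) M H))
    (hx : IsIntegral ↥(Algebra.adjoin ↥(mgcA A K₁)
      ({(rtk6diT A K₁ (M₁ * q) M H)⁻¹} : Set ↥(rtk6diF A K₁ (M₁ * q) M H))) x) :
    x ∈ rtk6dfCo (rtk6dvV hπ M H w b) γ :=
  rtk6dfc_mem_of_isIntegral hπ M H w γ hγ b (rtk6dfc_Tinv M H γ hγ)
    (rtk6dv_T_inv_mem hπ ιC hq hqM M H w hw b) x hx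

omit hγ in
/-- **hπV** for a conjugate -/
theorem rtk6dfc_hπV :
    algebraMap ↥(mgcA A K₁) ↥(rtk6diF A K₁ (M₁ * q) M H) π ∈
      (rtk6dfCo (rtk6dvV hπ M H w b) γ).nonunits := by
  rw [mem_nonunits_rtk6dfCo, rtk6dfc_const]
  exact rtk6dv_hπV hπ M H w b

omit hγ in
/-- constants in the maximal ideal of a conjugate -/
theorem rtk6dfc_const_mem_nonunits_iff (a : ↥(mgcA A K₁)) :
    algebraMap ↥(mgcA A K₁) ↥(rtk6diF A K₁ (M₁ * q) M H) a ∈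
      (rtk6dfCo (rtk6dvV hπ M H w b) γ).nonunits ↔ (((a : ↥(mgcE A K₁)) : Qb)) ∈ A.nonunits := by
  rw [mem_nonunits_rtk6dfCo, rtk6dfc_const]
  exact rtk6dv_const_mem_nonunits_iff hπ M H w b a

omit hγ in
/-- **harch** for a conjugate -/
theorem rtk6dfc_harch (a x : ↥(rtk6diF A K₁ (M₁ * q) M H))
    (ha : a ∈ (rtk6dfCo (rtk6dvV hπ M H w b) γ).nonunits) :
    ∃ n : ℕ, a ^ n * x ∈ (rtk6dfCo (rtk6dvV hπ M H w b) γ).nonunits := by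
  obtain ⟨n, hn⟩ := rtk6dv_harch hπ M H w b (γ a) (γ x) (mem_nonunits_rtk6dfCo.mp ha)
  refine ⟨n, mem_nonunits_rtk6dfCo.mpr ?_⟩
  rw [map_mul, map_pow]
  exact hn

omit hγ in
/-- **`π` is a uniformizer** of a conjugate -/
theorem rtk6dfc_hunif {f : ↥(rtk6diF A K₁ (M₁ * q) M H)} (hf : f ≠ 0) :
    ∃ n : ℤ, (rtk6dfCo (rtk6dvV hπ M H w b) γ).valuation
      (f * algebraMap ↥(mgcA A K₁) ↥(rtk6diF A K₁ (M₁ * q) M H) π ^ n) = 1 := by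
  obtain ⟨n, hn⟩ := rtk6dv_hunif hπ M H w b (f := γ f) ((map_ne_zero γ).mpr hf)
  refine ⟨n, (rtk6df_val_comap_eq_one_iff _ γ _).mpr ?_⟩
  rw [map_mul, map_zpow₀, rtk6dfc_const]
  exact hn

/-- polynomials in `j` prime to `π` are units of a conjugate -/
theorem rtk6dfc_prim_J (hw : Rtk6dvWIncl ιC hq hqM M H w) (hA : A.LiesOverPrime q)
    (s : ↥(rtk6diF A K₁ (M₁ * q) M H)) (hs : EIPrimeTo π (rtk6diT A K₁ (M₁ * q) M H) s) :
    s ∉ (rtk6dfCo (rtk6dvV hπ M H w b) γ).nonunits := by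
  rw [mem_nonunits_rtk6dfCo,
    rtk6df_gam_adjoin (mgcA A K₁) hγ (u₀ := mgcT A K₁ (M₁ * q)) hs.1]
  exact rtk6dv_prim_J hπ ιC hq hqM M H w hw hA b s hs

/-- polynomials in `1 / j` prime to `π` are units of a conjugate -/
theorem rtk6dfc_prim_Jinv (hw : Rtk6dvWIncl ιC hq hqM M H w) (hA : A.LiesOverPrime q)
    (s : ↥(rtk6diF A K₁ (M₁ * q) M H))
    (hs : EIPrimeTo π (rtk6diT A K₁ (M₁ * q) M H)⁻¹ s) :
    s ∉ (rtk6dfCo (rtk6dvV hπ M H w b) γ).nonunits := by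
  have e : (rtk6diT A K₁ (M₁ * q) M H)⁻¹ = rtk6diIncl (M₁ * q) M H (mgcT A K₁ (M₁ * q))⁻¹ := by
    rw [map_inv₀]; rfl
  have hs1 := hs.1
  rw [e] at hs1
  rw [mem_nonunits_rtk6dfCo,
    rtk6df_gam_adjoin (mgcA A K₁) hγ (u₀ := (mgcT A K₁ (M₁ * q))⁻¹) hs1]
  exact rtk6dv_prim_Jinv hπ ιC hq hqM M H w hw hA b s hs

/-- the restriction of a conjugate to the `Γ₀`-field -/
theorem rtk6dfc_comap_incl (hw : Rtk6dvWIncl ιC hq hqM M H w) :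
    (rtk6dfCo (rtk6dvV hπ M H w b) γ).comap (rtk6diIncl (M₁ * q) M H) =
      mgvV hπ ιC hq hqM b := by
  rw [← rtk6dv_comap_incl hπ ιC hq hqM M H w hw b]
  ext x
  rw [ValuationSubring.mem_comap, ValuationSubring.mem_comap, mem_rtk6dfCo, hγ x]

end Conj

/-! ### The hypotheses for the family -/

/-- **hBV₁** -/
theorem rtk6df_hBV₁ (hw : Rtk6dvWIncl ιC hq hqM M H w) (c : rtk6dfK hπ M H w)
    (x : ↥(rtk6diF A K₁ (M₁ * q) M H))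
    (hx : IsIntegral ↥(Algebra.adjoin ↥(mgcA A K₁)
      ({rtk6diT A K₁ (M₁ * q) M H} : Set ↥(rtk6diF A K₁ (M₁ * q) M H))) x) :
    x ∈ rtk6dfV hπ M H w c :=
  rtk6df_forallK hπ M H w (P := fun W => x ∈ W)
    (fun γ hγ b => rtk6dfc_hBV₁ hπ ιC hq hqM M H w γ hγ b hw x hx) c

/-- **hBV₂** -/
theorem rtk6df_hBV₂ (hw : Rtk6dvWIncl ιC hq hqM M H w) (c : rtk6dfK hπ M H w)
    (x : ↥(rtk6diF A K₁ (M₁ * q) M H))
    (hx : IsIntegral ↥(Algebra.adjoin ↥(mgcA A K₁)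
      ({(rtk6diT A K₁ (M₁ * q) M H)⁻¹} : Set ↥(rtk6diF A K₁ (M₁ * q) M H))) x) :
    x ∈ rtk6dfV hπ M H w c :=
  rtk6df_forallK hπ M H w (P := fun W => x ∈ W)
    (fun γ hγ b => rtk6dfc_hBV₂ hπ ιC hq hqM M H w γ hγ b hw x hx) c

/-- **hπV** -/
theorem rtk6df_hπV (c : rtk6dfK hπ M H w) :
    algebraMap ↥(mgcA A K₁) ↥(rtk6diF A K₁ (M₁ * q) M H) π ∈ (rtk6dfV hπ M H w c).nonunits :=
  rtk6df_forallK hπ M H w
    (P := fun W => algebraMap ↥(mgcA A K₁) ↥(rtk6diF A K₁ (M₁ * q) M H) π ∈ W.nonunits)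
    (fun γ _ b => rtk6dfc_hπV hπ M H w γ b) c

/-- constants -/
theorem rtk6df_const_mem_nonunits_iff (c : rtk6dfK hπ M H w) (a : ↥(mgcA A K₁)) :
    algebraMap ↥(mgcA A K₁) ↥(rtk6diF A K₁ (M₁ * q) M H) a ∈ (rtk6dfV hπ M H w c).nonunits ↔
      (((a : ↥(mgcE A K₁)) : Qb)) ∈ A.nonunits :=
  rtk6df_forallK hπ M H w
    (P := fun W => algebraMap ↥(mgcA A K₁) ↥(rtk6diF A K₁ (M₁ * q) M H) a ∈ W.nonunits ↔
      (((a : ↥(mgcE A K₁)) : Qb)) ∈ A.nonunits)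
    (fun γ _ b => rtk6dfc_const_mem_nonunits_iff hπ M H w γ b a) c

/-- **harch** -/
theorem rtk6df_harch (c : rtk6dfK hπ M H w) (a x : ↥(rtk6diF A K₁ (M₁ * q) M H))
    (ha : a ∈ (rtk6dfV hπ M H w c).nonunits) :
    ∃ n : ℕ, a ^ n * x ∈ (rtk6dfV hπ M H w c).nonunits :=
  rtk6df_forallK hπ M H w
    (P := fun W => ∀ a x : ↥(rtk6diF A K₁ (M₁ * q) M H), a ∈ W.nonunits →
      ∃ n : ℕ, a ^ n * x ∈ W.nonunits)
    (fun γ _ b => rtk6dfc_harch hπ M H w γ b) c a x ha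

/-- **`π` is a uniformizer of every `V c`** -/
theorem rtk6df_hunif (c : rtk6dfK hπ M H w) {f : ↥(rtk6diF A K₁ (M₁ * q) M H)} (hf : f ≠ 0) :
    ∃ n : ℤ, (rtk6dfV hπ M H w c).valuation
      (f * algebraMap ↥(mgcA A K₁) ↥(rtk6diF A K₁ (M₁ * q) M H) π ^ n) = 1 :=
  rtk6df_forallK hπ M H w
    (P := fun W => ∀ f : ↥(rtk6diF A K₁ (M₁ * q) M H), f ≠ 0 → ∃ n : ℤ, W.valuation
      (f * algebraMap ↥(mgcA A K₁) ↥(rtk6diF A K₁ (M₁ * q) M H) π ^ n) = 1)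
    (fun γ _ b f hf => rtk6dfc_hunif hπ M H w γ b hf) c f hf

/-- polynomials in `j` prime to `π` are units of every `V c` -/
theorem rtk6df_prim_J (hw : Rtk6dvWIncl ιC hq hqM M H w) (hA : A.LiesOverPrime q)
    (c : rtk6dfK hπ M H w) (s : ↥(rtk6diF A K₁ (M₁ * q) M H))
    (hs : EIPrimeTo π (rtk6diT A K₁ (M₁ * q) M H) s) :
    s ∉ (rtk6dfV hπ M H w c).nonunits :=
  rtk6df_forallK hπ M H w (P := fun W => s ∉ W.nonunits)
    (fun γ hγ b => rtk6dfc_prim_J hπ ιC hq hqM M H w γ hγ b hw hA s hs) c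

/-- polynomials in `1 / j` prime to `π` are units of every `V c` -/
theorem rtk6df_prim_Jinv (hw : Rtk6dvWIncl ιC hq hqM M H w) (hA : A.LiesOverPrime q)
    (c : rtk6dfK hπ M H w) (s : ↥(rtk6diF A K₁ (M₁ * q) M H))
    (hs : EIPrimeTo π (rtk6diT A K₁ (M₁ * q) M H)⁻¹ s) :
    s ∉ (rtk6dfV hπ M H w c).nonunits :=
  rtk6df_forallK hπ M H w (P := fun W => s ∉ W.nonunits)
    (fun γ hγ b => rtk6dfc_prim_Jinv hπ ιC hq hqM M H w γ hγ b hw hA s hs) c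

/-- the restriction of `V c` to the `Γ₀(M₁ q)`-field is one of UNIP's two valuations -/
theorem rtk6df_comap_incl (hw : Rtk6dvWIncl ιC hq hqM M H w) (c : rtk6dfK hπ M H w) :
    ∃ b : Bool, (rtk6dfV hπ M H w c).comap (rtk6diIncl (M₁ * q) M H) = mgvV hπ ιC hq hqM b := by
  obtain ⟨γ, hγ, b, hb⟩ := rtk6df_existsK hπ M H w c
  exact ⟨b, by rw [hb]; exact rtk6dfc_comap_incl hπ ιC hq hqM M H w γ hγ b hw⟩

/-- **hVloc₁**: on the chart `j`, every `V c` is the localisation of the chart at its centre -/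
theorem rtk6df_hVloc₁ (hw : Rtk6dvWIncl ιC hq hqM M H w) (hA : A.LiesOverPrime q)
    (hML : M ∣ M₁ * q) :
    ∀ (c : rtk6dfK hπ M H w) (x : ↥(rtk6diF A K₁ (M₁ * q) M H)), x ∈ rtk6dfV hπ M H w c →
      ∃ b s : ↥(rtk6diF A K₁ (M₁ * q) M H),
      IsIntegral ↥(Algebra.adjoin ↥(mgcA A K₁)
        ({rtk6diT A K₁ (M₁ * q) M H} : Set ↥(rtk6diF A K₁ (M₁ * q) M H))) b ∧
      IsIntegral ↥(Algebra.adjoin ↥(mgcA A K₁)
        ({rtk6diT A K₁ (M₁ * q) M H} : Set ↥(rtk6diF A K₁ (M₁ * q) M H))) s ∧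
      s ∉ (rtk6dfV hπ M H w c).nonunits ∧ s * x = b := by
  haveI := rtk6di_finiteDimensional A K₁ (M₁ * q) M H (NeZero.ne (M₁ * q)) hML
  intro c
  exact rtk6dl_hVloc (rtk6di_transcendental A K₁ (M₁ * q) M H) hπ (rtk6dfV hπ M H w c)
    (rtk6df_hBV₁ hπ ιC hq hqM M H w hw c) (rtk6df_hπV hπ M H w c)
    (rtk6df_prim_J hπ ιC hq hqM M H w hw hA c)

/-- **hVloc₂**: the same on the chart `1 / j` -/
theorem rtk6df_hVloc₂ (hw : Rtk6dvWIncl ιC hq hqM M H w) (hA : A.LiesOverPrime q)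
    (hML : M ∣ M₁ * q) :
    ∀ (c : rtk6dfK hπ M H w) (x : ↥(rtk6diF A K₁ (M₁ * q) M H)), x ∈ rtk6dfV hπ M H w c →
      ∃ b s : ↥(rtk6diF A K₁ (M₁ * q) M H),
      IsIntegral ↥(Algebra.adjoin ↥(mgcA A K₁)
        ({(rtk6diT A K₁ (M₁ * q) M H)⁻¹} : Set ↥(rtk6diF A K₁ (M₁ * q) M H))) b ∧
      IsIntegral ↥(Algebra.adjoin ↥(mgcA A K₁)
        ({(rtk6diT A K₁ (M₁ * q) M H)⁻¹} : Set ↥(rtk6diF A K₁ (M₁ * q) M H))) s ∧
      s ∉ (rtk6dfV hπ M H w c).nonunits ∧ s * x = b := by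
  haveI := rtk6di_finiteDimensional A K₁ (M₁ * q) M H (NeZero.ne (M₁ * q)) hML
  haveI : FiniteDimensional (↥(mgcE A K₁))⟮(rtk6diT A K₁ (M₁ * q) M H)⁻¹⟯
      ↥(rtk6diF A K₁ (M₁ * q) M H) :=
    at_finiteDimensional_inv (rtk6diT A K₁ (M₁ * q) M H)
  intro c
  exact rtk6dl_hVloc (zch_transcendental_inv (rtk6di_transcendental A K₁ (M₁ * q) M H)) hπ
    (rtk6dfV hπ M H w c)
    (rtk6df_hBV₂ hπ ιC hq hqM M H w hw c) (rtk6df_hπV hπ M H w c)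
    (rtk6df_prim_Jinv hπ ιC hq hqM M H w hw hA c)

/-- an `E′`-linear automorphism `γ` of `F′` with `γ (V c) ⊆ V c` preserves the valuation of
`V c` (the hypotheses `hgV`, `hΦV` for a linear `g`, `Φ`) -/
theorem rtk6df_val_of_stable (c : rtk6dfK hπ M H w)
    (γ : ↥(rtk6diF A K₁ (M₁ * q) M H) ≃ₐ[↥(mgcE A K₁)] ↥(rtk6diF A K₁ (M₁ * q) M H))
    (hγ : ∀ x ∈ rtk6dfV hπ M H w c, γ x ∈ rtk6dfV hπ M H w c)
    {f : ↥(rtk6diF A K₁ (M₁ * q) M H)} (hf : f ≠ 0) :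
    (rtk6dfV hπ M H w c).valuation (γ f / f) = 1 := by
  have hπ0 : algebraMap ↥(mgcA A K₁) ↥(rtk6diF A K₁ (M₁ * q) M H) π ≠ 0 :=
    ei_algebraMap_ne_zero (E := ↥(mgcE A K₁)) hπ
  exact rtk6dv_val_of_map_mem (rtk6dfV hπ M H w c) (γ : _ →+* _) hγ
    (algebraMap ↥(mgcA A K₁) ↥(rtk6diF A K₁ (M₁ * q) M H) π) hπ0
    (γ.commutes ((π : ↥(mgcA A K₁)) : ↥(mgcE A K₁)))
    (fun f hf => rtk6df_hunif hπ M H w c hf) hf

end Concrete

end Fermat.Agent.RT.K6
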