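/-
K-machine, piece K6, piece **D-I** (helper82), part 1: the SET-UP of the concrete setting for the
`Γ_H`-levels.  Fork of `UNIP/MGSetup.lean`, `UNIP/MGPlaces.lean` (MG-2), `UNIP/MGGalAct.lean`,
`UNIP/MGConcrete.lean` with `modularFunctionFieldFullC K N` replaced by `fieldC K L M H`.

GENERIC (any field `K`):
* `rtk6diCoeffHom f : fieldC K L M H →+* fieldC K' L M H`  (coefficientwise map of `f : K →+* K'`);
* `rtk6diRingAut s`, `rtk6diGalGen : (K ≃+* K) →* SemilinearAut K (fieldC K L M H)`;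
* `rtk6diIncl : modularFunctionFieldFullC K L →+* fieldC K L M H` (the `Γ₀(L)`-field);
* `rtk6diJ : fieldC K L M H` (the coordinate `j`), `rtk6di_transcendental_J`, `rtk6di_hcl`;
* `rtk6di_finiteDimensional` (`K` of characteristic `0`, algebraic over `ℚ`, `M ∣ L ≠ 0`);
* `rtk6di_exists_diamond` : the diamonds `δ_c` of `fieldC K L M H` (from `ES1.stmtDiamondH`).

CONCRETE (`A` a valuation subring of `ℚ̄`, `K₁ ⊆ ℚ̄`, `E′ = mgcE A K₁`, `A′ = mgcA A K₁`):
* `rtk6diF A K₁ L M H = fieldC ↥E′ L M H`, `rtk6diT` (`= j`), fast instances;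
* `rtk6diAct σ hσ`, `rtk6diGal σ hσ : SemilinearAut ↥E′ ↥F′`, `nfEmbH_rtk6diAct`;
* `rtk6di_exists_descent` : every element of `fieldBar L M H` is defined over `E′` for `K₁` large.
-/
import Fermat.Agent.UNIP.MGConcrete
import Fermat.Agent.ES1.Conj
import Fermat.Agent.ES1.ConjDeg
import Fermat.Agent.ES1.NFEmbH
import Fermat.Agent.ES1.InjInstFin
import Fermat.Agent.ES1.InjDescentH
import Fermat.Agent.ES1.RamLineH
import Fermat.Agent.RT.K6.Plan

set_option autoImplicit false
set_option linter.style.haveILetI false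
set_option linter.unusedSectionVars false
set_option linter.unusedVariables false

noncomputable section

namespace Fermat.Agent.RT.K6

open ModularCurve AlgebraicCurve Fermat.Agent.ES Fermat.Agent.ES.G2 Fermat.Agent.INJ
open Fermat.Agent.UNIP Fermat.Agent.ES1 Fermat.Agent.ES1.G2 IntermediateField

/-! ### Generic: coefficient maps -/

section Generic

variable {K K' K'' : Type*} [Field K] [Field K'] [Field K'']
  (L M : ℕ) (H : Subgroup (ZMod M)ˣ)

/-- The coefficientwise map `fieldC K L M H → fieldC K' L M H` of a ring homomorphism. -/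
def rtk6diCoeffHom (f : K →+* K') : fieldC K L M H →+* fieldC K' L M H where
  toFun x := ⟨coeffMap f x, es1f_coeffMap_mem_fieldC f L M H x.2⟩
  map_one' := by ext1; simp
  map_mul' x y := by ext1; simp
  map_zero' := by ext1; simp
  map_add' x y := by ext1; simp

@[simp]
theorem rtk6diCoeffHom_coe (f : K →+* K') (x : fieldC K L M H) :
    ((rtk6diCoeffHom L M H f x : fieldC K' L M H) : LaurentSeries K')
      = coeffMap f (x : LaurentSeries K) := rfl

theorem rtk6diCoeffHom_comp (g : K' →+* K'') (f : K →+* K') (x : fieldC K L M H) :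
    rtk6diCoeffHom L M H g (rtk6diCoeffHom L M H f x) = rtk6diCoeffHom L M H (g.comp f) x :=
  Subtype.ext (coeffMap_coeffMap g f _)

theorem rtk6diCoeffHom_congr {f g : K →+* K'} (h : ∀ a, f a = g a) (x : fieldC K L M H) :
    rtk6diCoeffHom L M H f x = rtk6diCoeffHom L M H g x :=
  Subtype.ext (coeffMap_congr (RingHom.ext h) _)

theorem rtk6diCoeffHom_id (x : fieldC K L M H) :
    rtk6diCoeffHom L M H (RingHom.id K) x = x :=
  Subtype.ext (coeffMap_id _)

theorem rtk6diCoeffHom_injective (f : K →+* K') :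
    Function.Injective (rtk6diCoeffHom L M H f) := (rtk6diCoeffHom L M H f).injective

theorem rtk6diCoeffHom_algebraMap (f : K →+* K') (c : K) :
    rtk6diCoeffHom L M H f (algebraMap K (fieldC K L M H) c)
      = algebraMap K' (fieldC K' L M H) (f c) :=
  Subtype.ext (nf_coeffMap_algebraMap f c)

/-- The coefficientwise action of a ring automorphism of `K` on `fieldC K L M H`. -/
def rtk6diRingAut (s : K ≃+* K) : fieldC K L M H ≃+* fieldC K L M H where
  toFun := rtk6diCoeffHom L M H (s : K →+* K)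
  invFun := rtk6diCoeffHom L M H (s.symm : K →+* K)
  left_inv x := by
    rw [rtk6diCoeffHom_comp,
      rtk6diCoeffHom_congr L M H (g := RingHom.id K) (fun a => s.symm_apply_apply a),
      rtk6diCoeffHom_id]
  right_inv x := by
    rw [rtk6diCoeffHom_comp,
      rtk6diCoeffHom_congr L M H (g := RingHom.id K) (fun a => s.apply_symm_apply a),
      rtk6diCoeffHom_id]
  map_mul' x y := map_mul _ x y
  map_add' x y := map_add _ x y

@[simp]
theorem coe_rtk6diRingAut_apply (s : K ≃+* K) (x : fieldC K L M H) :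
    ((rtk6diRingAut L M H s x : fieldC K L M H) : LaurentSeries K)
      = coeffMap (s : K →+* K) (x : LaurentSeries K) := rfl

theorem rtk6diRingAut_algebraMap (s : K ≃+* K) (a : K) :
    rtk6diRingAut L M H s (algebraMap K (fieldC K L M H) a)
      = algebraMap K (fieldC K L M H) (s a) :=
  rtk6diCoeffHom_algebraMap L M H (s : K →+* K) a

/-- The semilinear action of `Aut(K)` on `fieldC K L M H`. -/
def rtk6diGalGen : (K ≃+* K) →* SemilinearAut K (fieldC K L M H) where
  toFun s := ⟨(rtk6diRingAut L M H s, s), fun a => rtk6diRingAut_algebraMap L M H s a⟩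
  map_one' := by
    refine Subtype.ext (Prod.ext (RingEquiv.ext fun x => Subtype.ext ?_) rfl)
    show coeffMap ((1 : K ≃+* K) : K →+* K) (x : LaurentSeries K) = (x : LaurentSeries K)
    rw [show ((1 : K ≃+* K) : K →+* K) = RingHom.id K from RingHom.ext fun _ => rfl,
      coeffMap_id]
  map_mul' s t := by
    refine Subtype.ext (Prod.ext (RingEquiv.ext fun x => Subtype.ext ?_) rfl)
    show coeffMap ((s * t : K ≃+* K) : K →+* K) (x : LaurentSeries K)
      = coeffMap (s : K →+* K) (coeffMap (t : K →+* K) (x : LaurentSeries K))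
    rw [coeffMap_coeffMap]
    exact coeffMap_congr (RingHom.ext fun _ => rfl) _

@[simp]
theorem toRingAut_rtk6diGalGen (s : K ≃+* K) :
    SemilinearAut.toRingAut (rtk6diGalGen L M H s) = rtk6diRingAut L M H s := rfl

@[simp]
theorem baseAut_rtk6diGalGen (s : K ≃+* K) :
    SemilinearAut.baseAut (rtk6diGalGen L M H s) = s := rfl

theorem coe_rtk6diGalGen_smul (s : K ≃+* K) (x : fieldC K L M H) :
    ((rtk6diGalGen L M H s • x : fieldC K L M H) : LaurentSeries K)
      = coeffMap (s : K →+* K) (x : LaurentSeries K) := rfl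

/-- (kernel-friendly) the value of a re-packed element of a subtype -/
theorem rtk6di_val_mk {α : Type*} {P Q : α → Prop} (h : ∀ a, P a → Q a) (x : Subtype P) :
    ((⟨x.1, h x.1 x.2⟩ : Subtype Q) : α) = x.1 := rfl

/-- the inclusion of the `Γ₀(L)`-field -/
def rtk6diIncl : modularFunctionFieldFullC K L →+* fieldC K L M H where
  toFun x := ⟨(x : LaurentSeries K), full_le_fieldC K L M H x.2⟩
  map_one' := Subtype.ext rfl
  map_mul' _ _ := Subtype.ext rfl
  map_zero' := Subtype.ext rfl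
  map_add' _ _ := Subtype.ext rfl

@[simp]
theorem rtk6diIncl_coe (x : modularFunctionFieldFullC K L) :
    ((rtk6diIncl L M H x : fieldC K L M H) : LaurentSeries K) = (x : LaurentSeries K) :=
  rtk6di_val_mk (fun _ ha => full_le_fieldC K L M H ha) x

theorem rtk6diIncl_injective : Function.Injective (rtk6diIncl (K := K) L M H) :=
  (rtk6diIncl L M H).injective

theorem rtk6diIncl_algebraMap (c : K) :
    rtk6diIncl L M H (algebraMap K (modularFunctionFieldFullC K L) c)
      = algebraMap K (fieldC K L M H) c :=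
  Subtype.ext rfl

theorem rtk6diIncl_coeffHom (f : K →+* K') (x : modularFunctionFieldFullC K L) :
    rtk6diIncl L M H (mgaCoeffHom f L x) = rtk6diCoeffHom L M H f (rtk6diIncl L M H x) :=
  Subtype.ext (by rw [rtk6diIncl_coe, mgaCoeffHom_coe, rtk6diCoeffHom_coe, rtk6diIncl_coe])

variable (K)

/-- the coordinate `j` of `fieldC K L M H` -/
def rtk6diJ : fieldC K L M H := rtk6diIncl L M H (bgJ K L)

@[simp]
theorem rtk6diJ_coe : ((rtk6diJ K L M H : fieldC K L M H) : LaurentSeries K) = jqModC K := rfl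

theorem rtk6diCoeffHom_J (f : K →+* K') :
    rtk6diCoeffHom L M H f (rtk6diJ K L M H) = rtk6diJ K' L M H :=
  Subtype.ext (coeffMap_jqModC f)

theorem rtk6di_transcendental_J : Transcendental K (rtk6diJ K L M H) :=
  bgConst_transcendental _ (rtk6diJ K L M H) (by
    show (jqModC K).order ≠ 0
    rw [bgConst_order_jqModC]; norm_num)

theorem rtk6di_hcl_gen (x : fieldC K L M H) (hx : IsAlgebraic K x) :
    x ∈ (algebraMap K (fieldC K L M H)).range :=
  bgConst_mem_range_of_isAlgebraic (fieldC K L M H) x hx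

end Generic

/-! ### Generic, characteristic zero: finiteness over `K(j)` and the diamonds -/

section CharZero

variable (K : Type) [Field K] [CharZero K] [Algebra.IsAlgebraic ℚ K]
  {L M : ℕ} (H : Subgroup (ZMod M)ˣ)

/-- `fieldC K L M H` is finite over `K(j)`. -/
theorem rtk6di_finiteDimensional_gen (hL : L ≠ 0) (hML : M ∣ L) :
    FiniteDimensional K⟮rtk6diJ K L M H⟯ (fieldC K L M H) := by
  haveI : NeZero L := ⟨hL⟩
  have hM0 : M ≠ 0 := fun h => hL (by rw [h] at hML; exact Nat.eq_zero_of_zero_dvd hML)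
  obtain ⟨m, a, ha⟩ := exists_isRepFam hM0 H
  obtain ⟨hgen, ⟨P, hPm, -, hP0⟩, -⟩ := stmtDiamondH K L M H a hL hML ha
  exact injH1_fin_of_gen (modularFunctionFieldFullC K L) (fieldC K L M H)
    (full_le_fieldC K L M H) _ hgen (injH1_isIntegral_of_eval₂ _ _ ⟨P, hPm, hP0⟩) _
    (jqModC_mem_full K L) (bgFin_finiteDimensional_full (E := K) (N := L))

/-- the diamonds of `fieldC K L M H` -/
theorem rtk6di_exists_diamond (hL : L ≠ 0) (hML : M ∣ L) (c : (ZMod M)ˣ) :
    ∃ δ : fieldC K L M H ≃ₐ[K] fieldC K L M H,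
      (∀ x : modularFunctionFieldFullC K L, δ (rtk6diIncl L M H x) = rtk6diIncl L M H x) ∧
      ∀ (e : ℕ) [NeZero e] (he : e * M ∣ L) (b : (ZMod M)ˣ),
        ((δ ⟨qExpand K e (sS K M H b), qExpand_sS_mem K L M H he b⟩ : fieldC K L M H) :
          LaurentSeries K) = qExpand K e (sS K M H (b * c)) := by
  have hM0 : M ≠ 0 := fun h => hL (by rw [h] at hML; exact Nat.eq_zero_of_zero_dvd hML)
  obtain ⟨m, a, ha⟩ := exists_isRepFam hM0 H
  obtain ⟨-, -, haut⟩ := stmtDiamondH K L M H a hL hML ha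
  obtain ⟨δ, hδ, hδS⟩ := haut c
  exact ⟨δ, fun x => hδ _ x.2, fun e _ he b => hδS e he b⟩

end CharZero

/-! ### The fast instances for intermediate fields of `ℚ̄ / ℚ` (cf. `UNIP/MGConcrete.lean`) -/

section GenericInst

variable (K : Type*) [Field K] (L M : ℕ) (H : Subgroup (ZMod M)ˣ)

/-- the `K`-algebra structure of `fieldC K L M H` (the one Lean finds) -/
@[reducible] def rtk6diAlgGen : Algebra K ↥(fieldC K L M H) := inferInstance

/-- the `K`-module structure of `fieldC K L M H` (the one Lean finds) -/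
@[reducible] def rtk6diModGen : Module K ↥(fieldC K L M H) := inferInstance

/-- the scalar multiplication of `K` on `fieldC K L M H` (the one Lean finds) -/
@[reducible] def rtk6diSMulGen : SMul K ↥(fieldC K L M H) := inferInstance

variable {K}

/-- the `A′`-algebra structure of `fieldC K L M H`, `A′` a valuation subring of `K` -/
@[reducible] def rtk6diAlgAGen (A' : ValuationSubring K) :
    Algebra ↥A' ↥(fieldC K L M H) := inferInstance

set_option synthInstance.maxHeartbeats 400000 in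
/-- the `A′`-module structure of `fieldC K L M H` -/
@[reducible] def rtk6diModAGen (A' : ValuationSubring K) :
    Module ↥A' ↥(fieldC K L M H) := inferInstance

set_option synthInstance.maxHeartbeats 400000 in
/-- the scalar multiplication of `A′` on `fieldC K L M H` -/
@[reducible] def rtk6diSMulAGen (A' : ValuationSubring K) :
    SMul ↥A' ↥(fieldC K L M H) := inferInstance

set_option synthInstance.maxHeartbeats 400000 in
theorem rtk6diTowerGen (A' : ValuationSubring K) :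
    IsScalarTower ↥A' K ↥(fieldC K L M H) := inferInstance

theorem rtk6diAlgAGen_algebraMap (A' : ValuationSubring K) (a : ↥A') :
    algebraMap ↥A' ↥(fieldC K L M H) a = algebraMap K ↥(fieldC K L M H) (a : K) := rfl

end GenericInst

section Inst

variable (E : IntermediateField ℚ Qb) (L M : ℕ) (H : Subgroup (ZMod M)ˣ)

instance (priority := 100000) rtk6diInstAlgebra :
    Algebra ↥E ↥(fieldC ↥E L M H) := rtk6diAlgGen ↥E L M H

instance (priority := 100000) rtk6diInstModule :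
    Module ↥E ↥(fieldC ↥E L M H) := rtk6diModGen ↥E L M H

instance (priority := 100000) rtk6diInstSMul :
    SMul ↥E ↥(fieldC ↥E L M H) := rtk6diSMulGen ↥E L M H

variable {E}

instance (priority := 100000) rtk6diInstAlgebraA (A' : ValuationSubring ↥E) :
    Algebra ↥A' ↥(fieldC ↥E L M H) := rtk6diAlgAGen L M H A'

instance (priority := 100000) rtk6diInstModuleA (A' : ValuationSubring ↥E) :
    Module ↥A' ↥(fieldC ↥E L M H) := rtk6diModAGen L M H A'

instance (priority := 100000) rtk6diInstSMulA (A' : ValuationSubring ↥E) :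
    SMul ↥A' ↥(fieldC ↥E L M H) := rtk6diSMulAGen L M H A'

instance (priority := 100000) rtk6diInstTower (A' : ValuationSubring ↥E) :
    IsScalarTower ↥A' ↥E ↥(fieldC ↥E L M H) := rtk6diTowerGen L M H A'

end Inst

/-! ### The concrete setting -/

section Concrete

variable (A : ValuationSubring Qb) (K₁ : IntermediateField ℚ Qb)
  (L M : ℕ) (H : Subgroup (ZMod M)ˣ)

/-- `F′_H = fieldC ↥E′ L M H`, `E′ = mgcE A K₁` -/
abbrev rtk6diF : IntermediateField ↥(mgcE A K₁) (LaurentSeries ↥(mgcE A K₁)) :=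
  fieldC ↥(mgcE A K₁) L M H

/-- the coordinate `j` of `F′_H` -/
def rtk6diT : ↥(rtk6diF A K₁ L M H) := rtk6diJ ↥(mgcE A K₁) L M H

theorem rtk6diT_coe :
    ((rtk6diT A K₁ L M H : ↥(rtk6diF A K₁ L M H)) : LaurentSeries ↥(mgcE A K₁))
      = jqModC ↥(mgcE A K₁) := rfl

theorem rtk6diT_eq_incl : rtk6diT A K₁ L M H = rtk6diIncl L M H (mgcT A K₁ L) := rfl

theorem rtk6di_transcendental : Transcendental ↥(mgcE A K₁) (rtk6diT A K₁ L M H) :=
  rtk6di_transcendental_J ↥(mgcE A K₁) L M H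

theorem rtk6di_finiteDimensional (hL : L ≠ 0) (hML : M ∣ L) :
    FiniteDimensional (↥(mgcE A K₁))⟮rtk6diT A K₁ L M H⟯ ↥(rtk6diF A K₁ L M H) := by
  haveI : Algebra.IsAlgebraic ℚ Qb := AlgebraicClosure.isAlgebraic ℚ
  haveI : Algebra.IsAlgebraic ℚ ↥(mgcE A K₁) :=
    Algebra.IsAlgebraic.of_injective (mgcE A K₁).val Subtype.val_injective
  exact rtk6di_finiteDimensional_gen ↥(mgcE A K₁) H hL hML

theorem rtk6di_hcl (x : ↥(rtk6diF A K₁ L M H)) (hx : IsAlgebraic ↥(mgcE A K₁) x) :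
    x ∈ (algebraMap ↥(mgcE A K₁) ↥(rtk6diF A K₁ L M H)).range :=
  rtk6di_hcl_gen ↥(mgcE A K₁) L M H x hx

variable {A K₁}

/-- the coefficientwise action of `σ` on `F′_H` -/
def rtk6diAct (σ : Qb ≃ₐ[ℚ] Qb) (hσ : ∀ x ∈ mgcE A K₁, σ x ∈ mgcE A K₁) :
    ↥(rtk6diF A K₁ L M H) →+* ↥(rtk6diF A K₁ L M H) :=
  rtk6diCoeffHom L M H (mgRestrict (mgcE A K₁) σ hσ)

@[simp]
theorem rtk6diAct_coe (σ : Qb ≃ₐ[ℚ] Qb) (hσ : ∀ x ∈ mgcE A K₁, σ x ∈ mgcE A K₁)
    (x : ↥(rtk6diF A K₁ L M H)) :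
    ((rtk6diAct L M H σ hσ x : ↥(rtk6diF A K₁ L M H)) : LaurentSeries ↥(mgcE A K₁))
      = coeffMap (mgRestrict (mgcE A K₁) σ hσ) (x : LaurentSeries ↥(mgcE A K₁)) := rfl

/-- the semilinear automorphism of `F′_H` induced by `σ` -/
def rtk6diGal (σ : Qb ≃ₐ[ℚ] Qb) (hσ : ∀ x ∈ mgcE A K₁, σ x ∈ mgcE A K₁) :
    SemilinearAut ↥(mgcE A K₁) ↥(rtk6diF A K₁ L M H) :=
  rtk6diGalGen L M H (mgaRestrictEquiv (mgcE A K₁) σ hσ)

theorem rtk6diGal_smul (σ : Qb ≃ₐ[ℚ] Qb) (hσ : ∀ x ∈ mgcE A K₁, σ x ∈ mgcE A K₁)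
    (x : ↥(rtk6diF A K₁ L M H)) : rtk6diGal L M H σ hσ • x = rtk6diAct L M H σ hσ x := rfl

/-- `σ̂ j = j` -/
theorem rtk6di_smul_T (σ : Qb ≃ₐ[ℚ] Qb) (hσ : ∀ x ∈ mgcE A K₁, σ x ∈ mgcE A K₁) :
    rtk6diGal L M H σ hσ • rtk6diT A K₁ L M H = rtk6diT A K₁ L M H := by
  rw [rtk6diGal_smul]
  exact rtk6diCoeffHom_J ↥(mgcE A K₁) L M H _

/-- the action on `F′_H` extends the action on the `Γ₀(L)`-field -/
theorem rtk6diAct_incl (σ : Qb ≃ₐ[ℚ] Qb) (hσ : ∀ x ∈ mgcE A K₁, σ x ∈ mgcE A K₁)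
    (x : ↥(mgcF A K₁ L)) :
    rtk6diAct L M H σ hσ (rtk6diIncl L M H x) = rtk6diIncl L M H (mgAct (mgcE A K₁) L σ hσ x) :=
  Subtype.ext (by rw [rtk6diAct_coe, rtk6diIncl_coe, rtk6diIncl_coe, mgAct_coe])

theorem rtk6diAct_injective (σ : Qb ≃ₐ[ℚ] Qb) (hσ : ∀ x ∈ mgcE A K₁, σ x ∈ mgcE A K₁) :
    Function.Injective (rtk6diAct L M H σ hσ) := (rtk6diAct L M H σ hσ).injective

/-- constants: `σ̂ c = σ c` -/
theorem rtk6diAct_algebraMap (σ : Qb ≃ₐ[ℚ] Qb) (hσ : ∀ x ∈ mgcE A K₁, σ x ∈ mgcE A K₁)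
    (c : ↥(mgcE A K₁)) :
    rtk6diAct L M H σ hσ (algebraMap ↥(mgcE A K₁) ↥(rtk6diF A K₁ L M H) c)
      = algebraMap ↥(mgcE A K₁) ↥(rtk6diF A K₁ L M H) (mgRestrict (mgcE A K₁) σ hσ c) :=
  rtk6diCoeffHom_algebraMap L M H _ c

/-- `nfEmbH` intertwines the action on `F′_H` with the arithmetic Galois action on
`fieldBar L M H`. -/
theorem nfEmbH_rtk6diAct (σ : Qb ≃ₐ[ℚ] Qb) (hσ : ∀ x ∈ mgcE A K₁, σ x ∈ mgcE A K₁)
    (x : ↥(rtk6diF A K₁ L M H)) :
    nfEmbH (mgcE A K₁) L M H (rtk6diAct L M H σ hσ x)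
      = arithmeticGalois (fieldQ L M H) σ • nfEmbH (mgcE A K₁) L M H x := by
  apply Subtype.ext
  show coeffMap (algebraMap ↥(mgcE A K₁) Qb)
      (coeffMap (mgRestrict (mgcE A K₁) σ hσ) (x : LaurentSeries ↥(mgcE A K₁)))
    = coeffMap (σ : Qb →+* Qb) (coeffMap (algebraMap ↥(mgcE A K₁) Qb)
      (x : LaurentSeries ↥(mgcE A K₁)))
  rw [coeffMap_coeffMap, coeffMap_coeffMap, mgRestrict_comp]

/-- `nfEmbH j = j` -/
theorem nfEmbH_rtk6diT [NeZero L] :
    nfEmbH (mgcE A K₁) L M H (rtk6diT A K₁ L M H) = jFH L M H :=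
  nfEmbH_jCH (mgcE A K₁) L M H

end Concrete

/-! ### Descent to the fields `E′` -/

/-- finitely many elements of `fieldBar L M H` are defined over `fieldC K₂ L M H` for every
`K₂` containing a suitable number field -/
theorem rtk6di_exists_descent (L M : ℕ) (H : Subgroup (ZMod M)ˣ) (S : Finset Qb)
    (Y : Finset (fieldBar L M H)) :
    ∃ K₁ : IntermediateField ℚ Qb, FiniteDimensional ℚ K₁ ∧ (∀ s ∈ S, s ∈ K₁) ∧
      ∀ K₂ : IntermediateField ℚ Qb, K₁ ≤ K₂ → ∀ y ∈ Y,
        ∃ y₂ : fieldC K₂ L M H, nfEmbH K₂ L M H y₂ = y := by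
  classical
  obtain ⟨K₁, hfin, hS, hK⟩ := injdh_exists_descent_finset (L := L) (M := M) (H := H) S
    (Finset.image (fun y : ↥(fieldBar L M H) => (y : LaurentSeries Qb)) Y)
    (fun z hz => by
      obtain ⟨y, -, rfl⟩ := Finset.mem_image.mp hz
      exact y.2)
  refine ⟨K₁, hfin, hS, fun K₂ h12 y hy => ?_⟩
  obtain ⟨y₂, hy₂, he⟩ := hK K₂ h12 (y : LaurentSeries Qb)
    (Finset.mem_image.mpr ⟨y, hy, rfl⟩)
  exact ⟨⟨y₂, hy₂⟩, Subtype.ext he⟩

end Fermat.Agent.RT.K6
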