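/-
K-machine, piece K6, piece **DIW** (helper96): descent of automorphisms of `fieldBar L M H`
to the fields `fieldC K₀ L M H`, `K₀ ⊆ ℚ̄`.

* `rtk6diw_mem_fieldC_of_coeffMap` : a series over `K₀` whose image over `ℚ̄` lies in
  `fieldBar L M H` lies in `fieldC K₀ L M H`;
* `rtk6diw_exists_of_fixed` : an element of `fieldBar L M H` fixed by every `σ ∈ Gal(ℚ̄/K₀)`
  is in the image of `nfEmbH K₀`;
* `rtk6diw_descend` : a `ℚ̄`-automorphism `w` of `fieldBar L M H` commuting with `Gal(ℚ̄/K₀)`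
  descends to a `K₀`-automorphism `w'` of `fieldC K₀ L M H`, `nfEmbH (w' x) = w (nfEmbH x)`;
* `rtk6diw_exists_w` : for `w` with `IsWAt L M H r w` and `μ_r ⊆ K₀`;
* `rtk6diw_galois` : `σ̂ (w' x) = w' (δ' (σ̂ x))` on `fieldC K₀ L M H`.
-/
import Fermat.Agent.RT.K6.DISetup
import Fermat.Agent.RT.K6.D0Gal
import Fermat.Agent.ES1.G2.DiamBar
import Fermat.Agent.ES.DescentInj
import Fermat.Agent.INJ.InjDescent
import Fermat.Agent.S34.ALMain
import Mathlib.FieldTheory.Galois.Infinite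

set_option autoImplicit false
set_option linter.style.haveILetI false
set_option linter.unusedSectionVars false
set_option linter.unusedVariables false

noncomputable section

namespace Fermat.Agent.RT.K6

open ModularCurve AlgebraicCurve Fermat.Agent.ES Fermat.Agent.ES.G2 Fermat.Agent.INJ
open Fermat.Agent.UNIP Fermat.Agent.ES1 Fermat.Agent.ES1.G2 IntermediateField

section Descent

variable (K₀ : IntermediateField ℚ Qb) (L M : ℕ) (H : Subgroup (ZMod M)ˣ)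

theorem rtk6diw_baseChange_le (K : Type*) [Field K] [Algebra ℚ K] :
    laurentBaseChange K (fieldQ L M H) ≤ fieldC K L M H := by
  rw [laurentBaseChange, IntermediateField.adjoin_le_iff]
  rintro _ ⟨x, hx, rfl⟩
  exact es1f_coeffMap_mem_fieldC (algebraMap ℚ K) L M H hx

/-- descent of membership -/
theorem rtk6diw_mem_fieldC_of_coeffMap {x : LaurentSeries K₀}
    (h : coeffMap (algebraMap K₀ Qb) x ∈ fieldBar L M H) : x ∈ fieldC K₀ L M H :=
  rtk6diw_baseChange_le L M H K₀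
    (Fermat.Agent.ES.DescentInj.mem_laurentBaseChange_of_coeffMap_mem (K := K₀) (L := Qb) _ h)

theorem rtk6diw_isGalois : IsGalois K₀ Qb := by
  haveI : Algebra.IsAlgebraic ℚ Qb := AlgebraicClosure.isAlgebraic ℚ
  haveI : Algebra.IsAlgebraic K₀ Qb := Algebra.IsAlgebraic.tower_top (K := ℚ) K₀
  haveI : IsAlgClosure K₀ Qb := ⟨inferInstance, inferInstance⟩
  infer_instance

/-- functions defined over `K₀` are fixed by the automorphisms fixing `K₀` -/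
theorem rtk6diw_smul_nfEmbH (σ : Qb ≃ₐ[ℚ] Qb) (hσ : ∀ x ∈ K₀, σ x = x)
    (f : fieldC K₀ L M H) :
    arithmeticGalois (fieldQ L M H) σ • nfEmbH K₀ L M H f = nfEmbH K₀ L M H f := by
  apply Subtype.ext
  rw [coe_arithmeticGalois_smul, nfEmbH_coe, coeffMap_coeffMap]
  have h : ((σ : Qb →+* Qb).comp (algebraMap K₀ Qb)) = algebraMap K₀ Qb := by
    refine RingHom.ext fun c => ?_
    exact hσ (c : Qb) c.2
  exact coeffMap_congr h _

/-- **Galois descent**: an element of `fieldBar L M H` fixed by `Gal(ℚ̄/K₀)` is defined over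
`K₀`. -/
theorem rtk6diw_exists_of_fixed (y : fieldBar L M H)
    (hy : ∀ σ : Qb ≃ₐ[ℚ] Qb, (∀ a ∈ K₀, σ a = a) →
      arithmeticGalois (fieldQ L M H) σ • y = y) :
    ∃ x : fieldC K₀ L M H, nfEmbH K₀ L M H x = y := by
  haveI := rtk6diw_isGalois K₀
  have hcoeff : ∀ n, (y : LaurentSeries Qb).coeff n ∈ Set.range (algebraMap K₀ Qb) := by
    intro n
    have h1 := (InfiniteGalois.mem_range_algebraMap_iff_fixed (k := K₀) (K := Qb)
      ((y : LaurentSeries Qb).coeff n)).mpr ?_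
    · exact h1
    · intro f
      have hf : ∀ a ∈ K₀, (f.restrictScalars ℚ) a = a := fun a ha => f.commutes ⟨a, ha⟩
      have h2 := congrArg (fun z : fieldBar L M H => (z : LaurentSeries Qb).coeff n)
        (hy (f.restrictScalars ℚ) hf)
      simp only [coe_arithmeticGalois_smul, coeffMap_coeff] at h2
      exact h2
  obtain ⟨Y, hY⟩ := injDesc_exists_coeffMap (algebraMap K₀ Qb)
    (algebraMap K₀ Qb).injective (y : LaurentSeries Qb) hcoeff
  have hmem : Y ∈ fieldC K₀ L M H := by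
    apply rtk6diw_mem_fieldC_of_coeffMap
    rw [hY]
    exact y.2
  exact ⟨⟨Y, hmem⟩, Subtype.ext hY⟩

end Descent

/-! ### descent of automorphisms -/

section Descend

variable (K₀ : IntermediateField ℚ Qb) {L M : ℕ} {H : Subgroup (ZMod M)ˣ}

/-- `w` commutes with `Gal(ℚ̄/K₀)` -/
def RtkCommK (w : fieldBar L M H → fieldBar L M H) : Prop :=
  ∀ σ : Qb ≃ₐ[ℚ] Qb, (∀ a ∈ K₀, σ a = a) → ∀ y : fieldBar L M H,
    arithmeticGalois (fieldQ L M H) σ • w y = w (arithmeticGalois (fieldQ L M H) σ • y)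

variable {K₀}

theorem RtkCommK.exists_apply {w : fieldBar L M H → fieldBar L M H} (hw : RtkCommK K₀ w)
    (x : fieldC K₀ L M H) : ∃ x' : fieldC K₀ L M H, nfEmbH K₀ L M H x' = w (nfEmbH K₀ L M H x) := by
  apply rtk6diw_exists_of_fixed
  intro σ hσ
  rw [hw σ hσ, rtk6diw_smul_nfEmbH K₀ L M H σ hσ]

theorem RtkCommK.symm {w : fieldBar L M H ≃ₐ[Qb] fieldBar L M H} (hw : RtkCommK K₀ w) :
    RtkCommK K₀ w.symm := by
  intro σ hσ y
  apply w.injective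
  rw [← hw σ hσ, AlgEquiv.apply_symm_apply, AlgEquiv.apply_symm_apply]

/-- the descended algebra endomorphism -/
def rtk6diwHom (w : fieldBar L M H →ₐ[Qb] fieldBar L M H) (hw : RtkCommK K₀ w) :
    fieldC K₀ L M H →ₐ[K₀] fieldC K₀ L M H :=
  { toFun := fun x => (hw.exists_apply x).choose
    map_one' := by
      apply nfEmbH_injective K₀ L M H
      rw [(hw.exists_apply 1).choose_spec, map_one, map_one]
    map_mul' := fun x y => by
      apply nfEmbH_injective K₀ L M H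
      rw [(hw.exists_apply (x * y)).choose_spec, map_mul, map_mul, map_mul,
        (hw.exists_apply x).choose_spec, (hw.exists_apply y).choose_spec]
    map_zero' := by
      apply nfEmbH_injective K₀ L M H
      rw [(hw.exists_apply 0).choose_spec, map_zero, map_zero]
    map_add' := fun x y => by
      apply nfEmbH_injective K₀ L M H
      rw [(hw.exists_apply (x + y)).choose_spec, map_add, map_add, map_add,
        (hw.exists_apply x).choose_spec, (hw.exists_apply y).choose_spec]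
    commutes' := fun c => by
      apply nfEmbH_injective K₀ L M H
      show nfEmbH K₀ L M H (hw.exists_apply (algebraMap K₀ _ c)).choose = _
      rw [(hw.exists_apply (algebraMap K₀ _ c)).choose_spec, nfEmbH_algebraMap,
        AlgHom.commutes] }

theorem nfEmbH_rtk6diwHom (w : fieldBar L M H →ₐ[Qb] fieldBar L M H) (hw : RtkCommK K₀ w)
    (x : fieldC K₀ L M H) :
    nfEmbH K₀ L M H (rtk6diwHom w hw x) = w (nfEmbH K₀ L M H x) :=
  (hw.exists_apply x).choose_spec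

/-- **descent of an automorphism commuting with `Gal(ℚ̄/K₀)`** -/
def rtk6diwEquiv (w : fieldBar L M H ≃ₐ[Qb] fieldBar L M H) (hw : RtkCommK K₀ w) :
    fieldC K₀ L M H ≃ₐ[K₀] fieldC K₀ L M H :=
  AlgEquiv.ofAlgHom (rtk6diwHom (w : fieldBar L M H →ₐ[Qb] fieldBar L M H) hw)
    (rtk6diwHom (w.symm : fieldBar L M H →ₐ[Qb] fieldBar L M H) hw.symm)
    (by
      apply AlgHom.ext
      intro x
      apply nfEmbH_injective K₀ L M H
      rw [AlgHom.comp_apply, nfEmbH_rtk6diwHom, nfEmbH_rtk6diwHom]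
      exact w.apply_symm_apply _)
    (by
      apply AlgHom.ext
      intro x
      apply nfEmbH_injective K₀ L M H
      rw [AlgHom.comp_apply, nfEmbH_rtk6diwHom, nfEmbH_rtk6diwHom]
      exact w.symm_apply_apply _)

theorem nfEmbH_rtk6diwEquiv (w : fieldBar L M H ≃ₐ[Qb] fieldBar L M H) (hw : RtkCommK K₀ w)
    (x : fieldC K₀ L M H) :
    nfEmbH K₀ L M H (rtk6diwEquiv w hw x) = w (nfEmbH K₀ L M H x) :=
  nfEmbH_rtk6diwHom _ hw x

theorem nfEmbH_rtk6diwEquiv_symm (w : fieldBar L M H ≃ₐ[Qb] fieldBar L M H)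
    (hw : RtkCommK K₀ w) (x : fieldC K₀ L M H) :
    nfEmbH K₀ L M H ((rtk6diwEquiv w hw).symm x) = w.symm (nfEmbH K₀ L M H x) :=
  nfEmbH_rtk6diwHom _ hw.symm x

end Descend

/-! ### the Atkin–Lehner automorphism over `K₀ ⊇ ℚ(μ_r)` -/

section W

variable {K₀ : IntermediateField ℚ Qb} {L M : ℕ} {H : Subgroup (ZMod M)ˣ} {r : ℕ}

/-- an automorphism fixing `μ_r` has cyclotomic image `1` at `r` -/
theorem rtk6diw_isCycAt_one (hM0 : M ≠ 0) (hr : r.Prime) (hrM : r ∣ M)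
    (hζ : ∀ ζ : Qb, ζ ^ r = 1 → ζ ∈ K₀) (σ : Qb ≃ₐ[ℚ] Qb) (hσ : ∀ a ∈ K₀, σ a = a) :
    IsCycAt M r σ 1 := by
  have hM2 : 1 < M := by
    have h1 : r ≤ M := Nat.le_of_dvd (Nat.pos_of_ne_zero hM0) hrM
    exact lt_of_lt_of_le hr.one_lt h1
  haveI : Fact (1 < M) := ⟨hM2⟩
  have hval : ((1 : (ZMod M)ˣ) : ZMod M).val = 1 := by
    rw [Units.val_one, ZMod.val_one]
  refine ⟨fun ζ hζr => ?_, ?_⟩
  · rw [hval, pow_one]
    exact hσ ζ (hζ ζ hζr)
  · unfold IsAtR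
    rw [hval, Nat.cast_one]

/-- `w` with `IsWAt` commutes with `Gal(ℚ̄/K₀)` if `μ_r ⊆ K₀` -/
theorem IsWAt.commK {w : fieldBar L M H ≃ₐ[Qb] fieldBar L M H} (hw : IsWAt L M H r w)
    (hM0 : M ≠ 0) (hr : r.Prime) (hrM : r ∣ M) (hζ : ∀ ζ : Qb, ζ ^ r = 1 → ζ ∈ K₀) :
    RtkCommK K₀ w := by
  intro σ hσ y
  have h := hw.galois σ 1 (rtk6diw_isCycAt_one hM0 hr hrM hζ σ hσ) 1 isDiamondH_one y
  rw [h]
  rfl

/-- **the Atkin–Lehner automorphism `w'` of `fieldC K₀ L M H`** -/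
def rtk6diwW (w : fieldBar L M H ≃ₐ[Qb] fieldBar L M H) (hw : IsWAt L M H r w)
    (hM0 : M ≠ 0) (hr : r.Prime) (hrM : r ∣ M) (hζ : ∀ ζ : Qb, ζ ^ r = 1 → ζ ∈ K₀) :
    fieldC K₀ L M H ≃ₐ[K₀] fieldC K₀ L M H :=
  rtk6diwEquiv w (hw.commK hM0 hr hrM hζ)

theorem nfEmbH_rtk6diwW (w : fieldBar L M H ≃ₐ[Qb] fieldBar L M H) (hw : IsWAt L M H r w)
    (hM0 : M ≠ 0) (hr : r.Prime) (hrM : r ∣ M) (hζ : ∀ ζ : Qb, ζ ^ r = 1 → ζ ∈ K₀)
    (x : fieldC K₀ L M H) :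
    nfEmbH K₀ L M H (rtk6diwW w hw hM0 hr hrM hζ x) = w (nfEmbH K₀ L M H x) :=
  nfEmbH_rtk6diwEquiv w _ x

end W

/-! ### compatibility of the diamonds -/

section Diamond

variable (K₀ : IntermediateField ℚ Qb) {L M : ℕ} {H : Subgroup (ZMod M)ˣ}

variable {K₀}

/-- the diamonds over `K₀` and over `ℚ̄` are compatible -/
theorem rtk6diw_diamond_nfEmbH {c : (ZMod M)ˣ}
    {δ' : fieldC K₀ L M H ≃ₐ[K₀] fieldC K₀ L M H} (hδ' : IsDiamondC ↥K₀ L M H c δ')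
    {δ : fieldBar L M H ≃ₐ[Qb] fieldBar L M H} (hδ : IsDiamondH L M H c δ)
    (x : fieldC K₀ L M H) :
    nfEmbH K₀ L M H (δ' x) = δ (nfEmbH K₀ L M H x) := by
  have key : (nfEmbH K₀ L M H).comp (δ' : fieldC K₀ L M H →+* fieldC K₀ L M H) =
      (δ : fieldBar L M H →+* fieldBar L M H).comp (nfEmbH K₀ L M H) := by
    refine diamb_ringHom_ext_adjoin
      (divisorExpansionsC K₀ L ∪ diamondExpansionsC K₀ L M H) (fieldC K₀ L M H) rfl _ _
      (fun a => ?_) ?_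
    · show nfEmbH K₀ L M H (δ' (algebraMap K₀ _ a)) = δ (nfEmbH K₀ L M H (algebraMap K₀ _ a))
      rw [AlgEquiv.commutes, nfEmbH_algebraMap, AlgEquiv.commutes]
    · rintro x (⟨d, hd, hdL, hx⟩ | ⟨e, he, a, heL, hx⟩)
      · show nfEmbH K₀ L M H (δ' x) = δ (nfEmbH K₀ L M H x)
        have h1 : δ' x = x := hδ'.fix x (by rw [hx]; exact jqModCd_mem_full K₀ L hdL)
        rw [h1]
        refine (hδ.fix_j d hdL _ ?_).symm
        rw [nfEmbH_coe, hx]
        exact coeffMap_jqNModC (algebraMap K₀ Qb) d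
      · show nfEmbH K₀ L M H (δ' x) = δ (nfEmbH K₀ L M H x)
        have hx1 : x = ⟨qExpand K₀ e (sS K₀ M H a), qExpand_sS_mem K₀ L M H heL a⟩ :=
          Subtype.ext hx
        apply Subtype.ext
        rw [hδ.map_s e a heL (nfEmbH K₀ L M H x)
          (by rw [nfEmbH_coe, hx]; exact es1f_coeffMap_qExpand_sS (algebraMap K₀ Qb) M H a e),
          nfEmbH_coe, hx1, hδ'.map_s e heL a]
        exact es1f_coeffMap_qExpand_sS (algebraMap K₀ Qb) M H (a * c) e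
  exact congrArg (fun φ : fieldC K₀ L M H →+* fieldBar L M H => φ x) key

/-- diamonds over `ℚ̄` exist -/
theorem rtk6diw_exists_diamondH (hL : L ≠ 0) (hML : M ∣ L) (c : (ZMod M)ˣ) :
    ∃ δ : fieldBar L M H ≃ₐ[Qb] fieldBar L M H, IsDiamondH L M H c δ :=
  stmtDiamondBarH_of_diamond stmtDiamondH L M H hL hML c

end Diamond

/-! ### the relations of `w'` -/

section Relations

variable {K₀ : IntermediateField ℚ Qb} {L M : ℕ} {H : Subgroup (ZMod M)ˣ} {r : ℕ}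

/-- `nfEmbH` intertwines the coefficientwise action of `σ` (stabilising `K₀`) with the arithmetic
Galois action -/
theorem nfEmbH_rtk6diCoeffHom (σ : Qb ≃ₐ[ℚ] Qb) (hσ : ∀ x ∈ K₀, σ x ∈ K₀)
    (x : fieldC K₀ L M H) :
    nfEmbH K₀ L M H (rtk6diCoeffHom L M H (mgRestrict K₀ σ hσ) x)
      = arithmeticGalois (fieldQ L M H) σ • nfEmbH K₀ L M H x := by
  apply Subtype.ext
  show coeffMap (algebraMap ↥K₀ Qb)
      (coeffMap (mgRestrict K₀ σ hσ) (x : LaurentSeries ↥K₀))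
    = coeffMap (σ : Qb →+* Qb) (coeffMap (algebraMap ↥K₀ Qb) (x : LaurentSeries ↥K₀))
  rw [coeffMap_coeffMap, coeffMap_coeffMap, mgRestrict_comp]

variable (w : fieldBar L M H ≃ₐ[Qb] fieldBar L M H) (hw : IsWAt L M H r w)
  (hM0 : M ≠ 0) (hr : r.Prime) (hrM : r ∣ M) (hζ : ∀ ζ : Qb, ζ ^ r = 1 → ζ ∈ K₀)

/-- **`σ̂ w' = w' δ' σ̂`** on `fieldC K₀ L M H` -/
theorem rtk6diwW_galois (hL : L ≠ 0) (hML : M ∣ L) (σ : Qb ≃ₐ[ℚ] Qb)
    (hσ : ∀ x ∈ K₀, σ x ∈ K₀) (c : (ZMod M)ˣ) (hc : IsCycAt M r σ c)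
    (δ' : fieldC K₀ L M H ≃ₐ[K₀] fieldC K₀ L M H) (hδ' : IsDiamondC ↥K₀ L M H c δ')
    (x : fieldC K₀ L M H) :
    rtk6diCoeffHom L M H (mgRestrict K₀ σ hσ) (rtk6diwW w hw hM0 hr hrM hζ x) =
      rtk6diwW w hw hM0 hr hrM hζ (δ' (rtk6diCoeffHom L M H (mgRestrict K₀ σ hσ) x)) := by
  obtain ⟨δ, hδ⟩ := rtk6diw_exists_diamondH (H := H) hL hML c
  apply nfEmbH_injective K₀ L M H
  rw [nfEmbH_rtk6diCoeffHom, nfEmbH_rtk6diwW, nfEmbH_rtk6diwW, rtk6diw_diamond_nfEmbH hδ' hδ,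
    nfEmbH_rtk6diCoeffHom]
  exact hw.galois σ c hc δ hδ _

/-- **`w' δ'_c = δ'_{c⁻¹} w'`** for the diamonds at `r` -/
theorem rtk6diwW_diamond (hL : L ≠ 0) (hML : M ∣ L) (c : (ZMod M)ˣ) (hc : IsAtR M r c)
    (δ₁ δ₂ : fieldC K₀ L M H ≃ₐ[K₀] fieldC K₀ L M H) (hδ₁ : IsDiamondC ↥K₀ L M H c δ₁)
    (hδ₂ : IsDiamondC ↥K₀ L M H c⁻¹ δ₂) (x : fieldC K₀ L M H) :
    rtk6diwW w hw hM0 hr hrM hζ (δ₁ x) = δ₂ (rtk6diwW w hw hM0 hr hrM hζ x) := by
  obtain ⟨δ, hδ⟩ := rtk6diw_exists_diamondH (H := H) hL hML c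
  obtain ⟨δi, hδi⟩ := rtk6diw_exists_diamondH (H := H) hL hML c⁻¹
  apply nfEmbH_injective K₀ L M H
  rw [nfEmbH_rtk6diwW, rtk6diw_diamond_nfEmbH hδ₁ hδ, rtk6diw_diamond_nfEmbH hδ₂ hδi, nfEmbH_rtk6diwW]
  exact hw.diamond c hc δ δi hδ hδi _

/-- `w'` on the generators `j(q^d)` -/
theorem rtk6diwW_j (d d' : ℕ) [NeZero d] [NeZero d'] (hd : d ∣ L)
    (hd' : d' = (if r ∣ d then d / r else d * r)) (x : fieldC K₀ L M H)
    (hx : (x : LaurentSeries K₀) = qExpand K₀ d (jqModC K₀)) :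
    ((rtk6diwW w hw hM0 hr hrM hζ x : fieldC K₀ L M H) : LaurentSeries K₀) =
      qExpand K₀ d' (jqModC K₀) := by
  apply Fermat.Agent.ES.DescentInj.coeffMap_inj (algebraMap K₀ Qb)
  have h1 := nfEmbH_rtk6diwW w hw hM0 hr hrM hζ x
  have h2 := congrArg (fun z : fieldBar L M H => (z : LaurentSeries Qb)) h1
  simp only [nfEmbH_coe] at h2
  rw [h2]
  have h3 : ((nfEmbH K₀ L M H x : fieldBar L M H) : LaurentSeries Qb) =
      qExpand Qb d (jqModC Qb) := by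
    rw [nfEmbH_coe, hx]
    exact coeffMap_jqNModC (algebraMap K₀ Qb) d
  rw [hw.map_j d d' hd hd' _ h3]
  exact (coeffMap_jqNModC (algebraMap K₀ Qb) d').symm

end Relations

/-! ### `w'` on the `Γ₀(L)`-field is the Atkin–Lehner involution of S34/UNIP -/

section Incl

open Fermat.Agent.AL

variable {K₀ : IntermediateField ℚ Qb} {M₁ q : ℕ} [NeZero q] [NeZero M₁] [NeZero (M₁ * q)]
  {M : ℕ} {H : Subgroup (ZMod M)ˣ}
  (w : fieldBar (M₁ * q) M H ≃ₐ[Qb] fieldBar (M₁ * q) M H) (hw : IsWAt (M₁ * q) M H q w)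
  (hM0 : M ≠ 0) (hq : q.Prime) (hqM' : q ∣ M) (hζ : ∀ ζ : Qb, ζ ^ q = 1 → ζ ∈ K₀)
  (ιC : K₀ →+* ℂ) (hqM : ¬ q ∣ M₁)

theorem rtk6diwW_incl (x : modularFunctionFieldFullC K₀ (M₁ * q)) :
    rtk6diwW w hw hM0 hq hqM' hζ (rtk6diIncl (M₁ * q) M H x) =
      rtk6diIncl (M₁ * q) M H (atkinLehner K₀ ιC hq hqM x) := by
  have key : ((rtk6diwW w hw hM0 hq hqM' hζ : fieldC K₀ (M₁ * q) M H →+*
        fieldC K₀ (M₁ * q) M H).comp (rtk6diIncl (M₁ * q) M H)) =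
      (rtk6diIncl (M₁ * q) M H).comp
        ((atkinLehner K₀ ιC hq hqM).toRingEquiv.toRingHom) := by
    apply al_ringHom_ext K₀ (M₁ * q)
    · intro c
      show rtk6diwW w hw hM0 hq hqM' hζ (rtk6diIncl (M₁ * q) M H (algebraMap K₀ _ c)) =
        rtk6diIncl (M₁ * q) M H (atkinLehner K₀ ιC hq hqM (algebraMap K₀ _ c))
      rw [AlgEquiv.commutes, rtk6diIncl_algebraMap, AlgEquiv.commutes]
    · intro d _ hd
      show rtk6diwW w hw hM0 hq hqM' hζ (rtk6diIncl (M₁ * q) M H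
          ⟨qExpand K₀ d (jqModC K₀), jqModCd_mem_full K₀ (M₁ * q) hd⟩) =
        rtk6diIncl (M₁ * q) M H (atkinLehner K₀ ιC hq hqM
          ⟨qExpand K₀ d (jqModC K₀), jqModCd_mem_full K₀ (M₁ * q) hd⟩)
      have hsw : alSwap q (M₁ * q) d = (if q ∣ d then d / q else d * q) := by
        unfold alSwap
        rw [if_pos hd]
      have hsd : alSwap q (M₁ * q) d ∣ M₁ * q := alSwap_dvd hq hqM hd
      haveI : NeZero (alSwap q (M₁ * q) d) :=
        ⟨fun h0 => NeZero.ne (M₁ * q) (by rw [h0] at hsd; exact Nat.eq_zero_of_zero_dvd hsd)⟩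
      apply Subtype.ext
      rw [rtk6diwW_j w hw hM0 hq hqM' hζ d (alSwap q (M₁ * q) d) hd hsw _
        (rtk6diIncl_coe (M₁ * q) M H _), rtk6diIncl_coe]
      have e0 : (⟨qExpand K₀ d (jqModC K₀), jqModCd_mem_full K₀ (M₁ * q) hd⟩ :
          modularFunctionFieldFullC K₀ (M₁ * q)) = ⟨alGen K₀ (M₁ * q) d, alGen_mem K₀ d⟩ :=
        Subtype.ext (alGen_of_dvd K₀ hd).symm
      rw [e0, atkinLehner_gen, alGen_of_dvd K₀ hsd]
  exact congrArg (fun φ : modularFunctionFieldFullC K₀ (M₁ * q) →+*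
    fieldC K₀ (M₁ * q) M H => φ x) key

end Incl

end Fermat.Agent.RT.K6
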