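/-
K-machine, piece K6 (type `χ` at a prime `r` of the level `Γ_H`), piece C∞ (helper4):
the cheap half at the Gauss valuation `v_∞` of the `q`-expansion, GENERIC.

`F₀ ⊂ ℚ((q))` any intermediate field, `F = laurentBaseChange ℚ̄ F₀`, `A ⊂ ℚ̄` a valuation ring,
`σ` in the inertia group of `A`, (PRIM) for `F` at `A`.
* `rtk6c_smul_coe`     : `σ` acts on `F` through the coefficients.
* `rtk6c_cheap_infty`  : for `u ∈ F^×` there is a constant `c ≠ 0` with `c · σ(u)/u` reducing to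
                         one at `v_∞` (`ReducesToOneF`).
* `rtk6c_cheap_infty_H`: the same for `fieldBar L M H` (every level, every `A`).
Fork of `UNIP/Cheap.lean` (`cheap_infty`, helper20) and of `ES1/G2/UnramH.lean`.
-/
import Fermat.Agent.ES1.G2.Main

set_option autoImplicit false

noncomputable section

namespace Fermat.Agent.RT.K6

open ModularCurve AlgebraicCurve HahnSeries Fermat.Agent.ES Fermat.Agent.ES.G2
open Fermat.Agent.ES1 Fermat.Agent.ES1.G2

/-- the action of `σ ∈ G_ℚ` on `F = laurentBaseChange ℚ̄ F₀` is the action on the coefficients -/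
theorem rtk6c_smul_coe (F₀ : IntermediateField ℚ (LaurentSeries ℚ)) (σ : QbH ≃ₐ[ℚ] QbH)
    (Y : laurentBaseChange QbH F₀) :
    ((arithmeticGalois F₀ σ • Y : laurentBaseChange QbH F₀) : LaurentSeries QbH) =
      coeffMap (σ : QbH →+* QbH) (Y : LaurentSeries QbH) := rfl

/-- **Cheap half at `v_∞`, generic.**  For `σ` in the inertia group of `A` and `u ∈ F^×`,
`σ(u)/u` is a constant times an element which reduces to one. -/
theorem rtk6c_cheap_infty (F₀ : IntermediateField ℚ (LaurentSeries ℚ)) (A : ValuationSubring QbH)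
    (hPrim : PrimAt A (laurentBaseChange QbH F₀))
    (σ : QbH ≃ₐ[ℚ] QbH) (hσ : σ ∈ A.inertiaSubgroupIn ℚ)
    (u : laurentBaseChange QbH F₀) (hu : u ≠ 0) :
    ∃ c : QbH, c ≠ 0 ∧
      ReducesToOneF A (laurentBaseChange QbH F₀)
        (algebraMap QbH (laurentBaseChange QbH F₀) c * ((arithmeticGalois F₀ σ • u) / u)) := by
  obtain ⟨c, y₁, y₂, hc, hy₁, hy₂, hP₁, hP₂, he⟩ := hPrim u hu
  have hy₁0 : y₁ ≠ 0 := unram_ne_zero_of_kronPrim hP₁
  have hy₂0 : y₂ ≠ 0 := unram_ne_zero_of_kronPrim hP₂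
  have hσdec : σ ∈ A.decompositionSubgroup ℚ := kron_mem_decomposition_of_mem_inertia hσ
  have hσc : σ c ≠ 0 := (map_ne_zero_iff _ σ.injective).mpr hc
  have hσy₁0 : coeffMap (σ : QbH →+* QbH) y₁ ≠ 0 :=
    (map_ne_zero_iff _ (coeffMap (σ : QbH →+* QbH)).injective).mpr hy₁0
  have hσy₂0 : coeffMap (σ : QbH →+* QbH) y₂ ≠ 0 :=
    (map_ne_zero_iff _ (coeffMap (σ : QbH →+* QbH)).injective).mpr hy₂0
  have hu0 : (u : LaurentSeries QbH) ≠ 0 := fun h => hu (Subtype.ext h)
  -- the conjugate relation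
  have he' : coeffMap (σ : QbH →+* QbH) (u : LaurentSeries QbH) *
      coeffMap (σ : QbH →+* QbH) y₂ =
      HahnSeries.C (σ c) * coeffMap (σ : QbH →+* QbH) y₁ := by
    have := congrArg (coeffMap (σ : QbH →+* QbH)) he
    rw [map_mul, map_mul] at this
    rw [this]
    congr 1
    show coeffMap (σ : QbH →+* QbH) (HahnSeries.single 0 c) = HahnSeries.single 0 (σ c)
    rw [coeffMap_single]
    rfl
  refine ⟨c / σ c, div_ne_zero hc hσc, ?_⟩
  refine ⟨coeffMap (σ : QbH →+* QbH) y₁ * y₂, coeffMap (σ : QbH →+* QbH) y₂ * y₁,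
    mul_mem (coeffMap_mem_laurentBaseChange σ hy₁) hy₂,
    mul_mem (coeffMap_mem_laurentBaseChange σ hy₂) hy₁,
    (hP₁.coeffMap_of_mem_decomposition σ hσdec).mul hP₂,
    (hP₂.coeffMap_of_mem_decomposition σ hσdec).mul hP₁, ?_, ?_⟩
  · have c1 : KronCongr A (coeffMap (σ : QbH →+* QbH) y₁ * y₂) (y₁ * y₂) :=
      KronCongr.mul (hP₁.1.coeffMap_of_mem_decomposition σ hσdec) hP₁.1 hP₂.1 hP₂.1
        (kron_inertia_congr hσ hP₁.1) (KronCongr.refl (A := A) y₂)
    have c2 : KronCongr A (coeffMap (σ : QbH →+* QbH) y₂ * y₁) (y₂ * y₁) :=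
      KronCongr.mul (hP₂.1.coeffMap_of_mem_decomposition σ hσdec) hP₂.1 hP₁.1 hP₁.1
        (kron_inertia_congr hσ hP₂.1) (KronCongr.refl (A := A) y₁)
    rw [mul_comm y₂ y₁] at c2
    exact c1.trans c2.symm
  · -- the fraction
    show (algebraMap QbH (LaurentSeries QbH) (c / σ c) *
        (coeffMap (σ : QbH →+* QbH) (u : LaurentSeries QbH) / (u : LaurentSeries QbH))) *
          (coeffMap (σ : QbH →+* QbH) y₂ * y₁) = coeffMap (σ : QbH →+* QbH) y₁ * y₂
    have hCc : (HahnSeries.C c : LaurentSeries QbH) ≠ 0 :=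
      (map_ne_zero_iff _ HahnSeries.C_injective).mpr hc
    have hCσc : (HahnSeries.C (σ c) : LaurentSeries QbH) ≠ 0 :=
      (map_ne_zero_iff _ HahnSeries.C_injective).mpr hσc
    have hA1 : algebraMap QbH (LaurentSeries QbH) (c / σ c) =
        (HahnSeries.C c : LaurentSeries QbH) / HahnSeries.C (σ c) := by
      rw [LaurentSeries.algebraMap_apply, map_div₀]
    rw [hA1]
    field_simp
    have e1 : (HahnSeries.C c : LaurentSeries QbH) * y₁ = (u : LaurentSeries QbH) * y₂ := he.symm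
    linear_combination
      (y₁ * (HahnSeries.C c : LaurentSeries QbH)) * he' +
        (HahnSeries.C (σ c) * coeffMap (σ : QbH →+* QbH) y₁) * e1

/-- **Cheap half at `v_∞` for `fieldBar L M H`.** -/
theorem rtk6c_cheap_infty_H (L M : ℕ) (H : Subgroup (ZMod M)ˣ) (A : ValuationSubring QbH)
    (σ : QbH ≃ₐ[ℚ] QbH) (hσ : σ ∈ A.inertiaSubgroupIn ℚ)
    (u : fieldBar L M H) (hu : u ≠ 0) :
    ∃ c : QbH, c ≠ 0 ∧
      ReducesToOneF A (fieldBar L M H)
        (algebraMap QbH (fieldBar L M H) c * ((arithmeticGalois (fieldQ L M H) σ • u) / u)) :=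
  rtk6c_cheap_infty (fieldQ L M H) A (stmtPrimH L M H A) σ hσ u hu

end Fermat.Agent.RT.K6
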