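/-
K-machine, piece K6, piece C0 (helper96): the cheap half at the second Gauss valuation
`v_0 = v_∞ ∘ w`, `w = w_r` the Atkin–Lehner automorphism of piece B.

For `σ` in the inertia group of `A` with cyclotomic image `c` at `r`, `δ = δ_c`, `h := δ σ` and
`u ∈ F^×`: `w (c₀ · h(u) / u)` reduces to one at `v_∞` for a constant `c₀ ≠ 0`
(`σ w = w δ σ`, so `w (h u / u) = σ (w u) / (w u)`, and C∞ for `w u`).
* `rtk6c0_cheap_zero`      : for any `w` with `IsWAt L M H r w`;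
* `rtk6c0_w_chiExpr`       : `w (χ-expression of u) = σ(w x′) / w x′ · …` in the form used by E:
                             `w (chiExpr σ δ u) = (σ • w x′) / w x′`, `x′ := δ (σ u) / u`.
-/
import Fermat.Agent.RT.K6.Plan
import Fermat.Agent.RT.K6.CheapInf

set_option autoImplicit false

noncomputable section

namespace Fermat.Agent.RT.K6

open ModularCurve AlgebraicCurve HahnSeries Fermat.Agent.ES Fermat.Agent.ES.G2
open Fermat.Agent.ES1 Fermat.Agent.ES1.G2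

/-- `w (δ (σ u) / u) = σ (w u) / w u` -/
theorem rtk6c0_w_quot {L M : ℕ} {H : Subgroup (ZMod M)ˣ} {r : ℕ}
    {w : fieldBar L M H ≃ₐ[QbH] fieldBar L M H} (hw : IsWAt L M H r w)
    (σ : QbH ≃ₐ[ℚ] QbH) (c : (ZMod M)ˣ) (hc : IsCycAt M r σ c)
    (δ : fieldBar L M H ≃ₐ[QbH] fieldBar L M H) (hδ : IsDiamondH L M H c δ)
    (u : fieldBar L M H) :
    w (δ (arithmeticGalois (fieldQ L M H) σ • u) / u) =
      (arithmeticGalois (fieldQ L M H) σ • w u) / w u := by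
  rw [map_div₀, hw.galois σ c hc δ hδ u]

/-- **Cheap half at `v_0 = v_∞ ∘ w`.** -/
theorem rtk6c0_cheap_zero {L M : ℕ} {H : Subgroup (ZMod M)ˣ} {r : ℕ}
    {w : fieldBar L M H ≃ₐ[QbH] fieldBar L M H} (hw : IsWAt L M H r w)
    (A : ValuationSubring QbH) (σ : QbH ≃ₐ[ℚ] QbH) (hσ : σ ∈ A.inertiaSubgroupIn ℚ)
    (c : (ZMod M)ˣ) (hc : IsCycAt M r σ c)
    (δ : fieldBar L M H ≃ₐ[QbH] fieldBar L M H) (hδ : IsDiamondH L M H c δ)
    (u : fieldBar L M H) (hu : u ≠ 0) :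
    ∃ c₀ : QbH, c₀ ≠ 0 ∧
      ReducesToOneF A (fieldBar L M H)
        (w (algebraMap QbH (fieldBar L M H) c₀ *
          (δ (arithmeticGalois (fieldQ L M H) σ • u) / u))) := by
  have hwu : w u ≠ 0 := (map_ne_zero_iff _ w.injective).mpr hu
  obtain ⟨c₀, hc₀, hred⟩ := rtk6c_cheap_infty_H L M H A σ hσ (w u) hwu
  refine ⟨c₀, hc₀, ?_⟩
  rw [map_mul, AlgEquiv.commutes, rtk6c0_w_quot hw σ c hc δ hδ u]
  exact hred

/-- the semilinear automorphism `h = δ σ` commutes past `w`: `w (h x) = σ (w x)` -/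
theorem rtk6c0_w_h {L M : ℕ} {H : Subgroup (ZMod M)ˣ} {r : ℕ}
    {w : fieldBar L M H ≃ₐ[QbH] fieldBar L M H} (hw : IsWAt L M H r w)
    (σ : QbH ≃ₐ[ℚ] QbH) (c : (ZMod M)ˣ) (hc : IsCycAt M r σ c)
    (δ : fieldBar L M H ≃ₐ[QbH] fieldBar L M H) (hδ : IsDiamondH L M H c δ)
    (x : fieldBar L M H) :
    w (δ (arithmeticGalois (fieldQ L M H) σ • x)) = arithmeticGalois (fieldQ L M H) σ • w x :=
  (hw.galois σ c hc δ hδ x).symm

end Fermat.Agent.RT.K6
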