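/-
K-machine, piece K6, piece **E-asm** (helper18), part 1: prime powers and the toric element.

* `StmtChiKummerPP` : `StmtChiKummerP` for prime power exponents `m = p ^ k`, `p ≠ r`;
  `stmtChiKummerP_of_pp : StmtChiKummerPP → StmtChiKummerP` (Bézout, `UNIP.mg_pow_of_prime_powers`).
* `rtk6ea_chiExpr_eq` : `chiExpr σ δ u = σ • x / x`, `x := δ (σ • u) / u`;
  `rtk6ea_chiExpr_eq'` : `chiExpr σ δ u = δ (σ • x₁) / x₁`, `x₁ := σ • u / u` (`σ δ = δ σ`).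
* `rtk6ea_toric_infty` : `c · chiExpr σ δ u` reduces to one (at `v_∞`) for a constant `c ≠ 0`
  (C∞ for `x`);
  `rtk6ea_toric_zero` : `w (c₀ · chiExpr σ δ u)` reduces to one for a constant `c₀ ≠ 0` (C0 for `x₁`);
  `rtk6ea_toric_infty_root`, `rtk6ea_toric_zero_root` : the same with `c = b⁻¹ ^ n`.
* `rtk6ea_dvd_ord_x` : `m ∣ div u ⇒ m ∣ div x`.
-/
import Fermat.Agent.RT.K6.PlanP
import Fermat.Agent.RT.K6.CheapZero
import Fermat.Agent.UNIP.MGPrimePow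
import Fermat.Agent.ES1.G2.DiamBar

set_option autoImplicit false

noncomputable section

namespace Fermat.Agent.RT.K6

open ModularCurve AlgebraicCurve HahnSeries Fermat.Agent.ES Fermat.Agent.ES.G2
open Fermat.Agent.ES1 Fermat.Agent.ES1.G2

/-! ### Prime powers suffice -/

/-- **(χ-K), tame case, prime power exponents.** -/
def StmtChiKummerPP : Prop :=
  ∀ (L M : ℕ) (H : Subgroup (ZMod M)ˣ) (r : ℕ), L ≠ 0 → M ∣ L → r.Prime → r ∣ M → ¬ r ^ 2 ∣ L →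
    IsStarStable M r H → IsTameAt L M r H →
    ∀ A : ValuationSubring QbH, A.LiesOverPrime r →
      ∀ p : ℕ, p.Prime → p ≠ r → ∀ k : ℕ,
        ∀ σ ∈ A.inertiaSubgroupIn ℚ, ∀ c : (ZMod M)ˣ, IsCycAt M r σ c →
        ∀ δ : fieldBar L M H ≃ₐ[QbH] fieldBar L M H, IsDiamondH L M H c δ →
        ∀ (c' : (ZMod M)ˣ), IsAtR M r c' →
        ∀ δ' : fieldBar L M H ≃ₐ[QbH] fieldBar L M H, IsDiamondH L M H c' δ' →
          ∀ u : fieldBar L M H, u ≠ 0 →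
            (∀ P : Place QbH (fieldBar L M H), ((p ^ k : ℕ) : ℤ) ∣ P.ord u) →
              ∃ h : fieldBar L M H, h ^ (p ^ k) = δ' (chiExpr σ δ u) / chiExpr σ δ u

/-- prime power exponents suffice -/
theorem stmtChiKummerP_of_pp (h : StmtChiKummerPP) : StmtChiKummerP := by
  intro L M H r hL hML hr hrM hr2 hstar htame A hA m hm σ hσ c hc δ hδ c' hc' δ' hδ' u hu hdiv
  have hm0 : m ≠ 0 := by
    rintro rfl
    exact hm (dvd_zero r)
  refine Fermat.Agent.UNIP.mg_pow_of_prime_powers _ m (fun p k hp hd => ?_) hm0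
  by_cases hk : k = 0
  · subst hk
    exact ⟨_, pow_one _⟩
  have hpr : p ≠ r := by
    rintro rfl
    exact hm (dvd_trans (dvd_pow_self p hk) hd)
  refine h L M H r hL hML hr hrM hr2 hstar htame A hA p hp hpr k σ hσ c hc δ hδ c' hc' δ' hδ'
    u hu (fun P => ?_)
  have h1 : ((p ^ k : ℕ) : ℤ) ∣ (m : ℤ) := by exact_mod_cast hd
  exact dvd_trans h1 (hdiv P)

/-! ### The toric element -/

section Toric

variable {L M : ℕ} {H : Subgroup (ZMod M)ˣ}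

theorem rtk6ea_smul_div (σ : QbH ≃ₐ[ℚ] QbH) (a b : fieldBar L M H) :
    arithmeticGalois (fieldQ L M H) σ • (a / b) =
      (arithmeticGalois (fieldQ L M H) σ • a) / (arithmeticGalois (fieldQ L M H) σ • b) :=
  map_div₀ (SemilinearAut.toRingAut (arithmeticGalois (fieldQ L M H) σ)) a b

theorem rtk6ea_smul_ne_zero (σ : QbH ≃ₐ[ℚ] QbH) {a : fieldBar L M H} (ha : a ≠ 0) :
    arithmeticGalois (fieldQ L M H) σ • a ≠ 0 :=
  (map_ne_zero (SemilinearAut.toRingAut (arithmeticGalois (fieldQ L M H) σ))).mpr ha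

/-- `σ δ = δ σ` on elements -/
theorem rtk6ea_smul_diamond {c : (ZMod M)ˣ} {δ : fieldBar L M H ≃ₐ[QbH] fieldBar L M H}
    (hδ : IsDiamondH L M H c δ) (σ : QbH ≃ₐ[ℚ] QbH) (z : fieldBar L M H) :
    arithmeticGalois (fieldQ L M H) σ • δ z = δ (arithmeticGalois (fieldQ L M H) σ • z) := by
  have h := diamb_galois_field hδ σ
  have h1 := congrArg (fun g : SemilinearAut QbH (fieldBar L M H) => g • z) h
  simpa only [mul_smul, SemilinearAut.ofAlgAut_smul] using h1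

/-- `x = δ (σ u) / u` -/
def rtk6eaX (σ : QbH ≃ₐ[ℚ] QbH) (δ : fieldBar L M H ≃ₐ[QbH] fieldBar L M H)
    (u : fieldBar L M H) : fieldBar L M H :=
  δ (arithmeticGalois (fieldQ L M H) σ • u) / u

theorem rtk6eaX_ne_zero (σ : QbH ≃ₐ[ℚ] QbH) (δ : fieldBar L M H ≃ₐ[QbH] fieldBar L M H)
    {u : fieldBar L M H} (hu : u ≠ 0) : rtk6eaX σ δ u ≠ 0 :=
  div_ne_zero ((map_ne_zero δ).mpr (rtk6ea_smul_ne_zero σ hu)) hu

/-- `chiExpr σ δ u = σ x / x`, `x = δ (σ u) / u` -/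
theorem rtk6ea_chiExpr_eq (σ : QbH ≃ₐ[ℚ] QbH) (δ : fieldBar L M H ≃ₐ[QbH] fieldBar L M H)
    {u : fieldBar L M H} (hu : u ≠ 0) :
    chiExpr σ δ u = (arithmeticGalois (fieldQ L M H) σ • rtk6eaX σ δ u) / rtk6eaX σ δ u := by
  have h1 : arithmeticGalois (fieldQ L M H) σ • u ≠ 0 := rtk6ea_smul_ne_zero σ hu
  have h2 : δ (arithmeticGalois (fieldQ L M H) σ • u) ≠ 0 := (map_ne_zero δ).mpr h1
  unfold chiExpr rtk6eaX
  rw [rtk6ea_smul_div]
  field_simp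

theorem rtk6ea_field_aux {F : Type*} [Field F] (z b a u : F) (hb : b ≠ 0) (ha : a ≠ 0)
    (hu : u ≠ 0) : z * u / (a * b) = z / b / (a / u) := by
  field_simp

/-- `chiExpr σ δ u = δ (σ x₁) / x₁`, `x₁ = σ u / u` -/
theorem rtk6ea_chiExpr_eq' {c : (ZMod M)ˣ} {δ : fieldBar L M H ≃ₐ[QbH] fieldBar L M H}
    (hδ : IsDiamondH L M H c δ) (σ : QbH ≃ₐ[ℚ] QbH) {u : fieldBar L M H} (hu : u ≠ 0) :
    chiExpr σ δ u =
      δ (arithmeticGalois (fieldQ L M H) σ • ((arithmeticGalois (fieldQ L M H) σ • u) / u)) /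
        ((arithmeticGalois (fieldQ L M H) σ • u) / u) := by
  have hcomm := rtk6ea_smul_diamond hδ σ
  have hne := rtk6ea_smul_ne_zero (L := L) (M := M) (H := H) σ hu
  have hdiv := rtk6ea_smul_div (L := L) (M := M) (H := H) σ
  unfold chiExpr
  generalize arithmeticGalois (fieldQ L M H) σ = g at hcomm hne hdiv ⊢
  have h2 : δ (g • u) ≠ 0 := (map_ne_zero δ).mpr hne
  rw [hcomm, hdiv, map_div₀ δ]
  exact rtk6ea_field_aux _ _ _ _ h2 hne hu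

/-- **toric at `v_∞`**: `c · chiExpr σ δ u` reduces to one -/
theorem rtk6ea_toric_infty (A : ValuationSubring QbH) (σ : QbH ≃ₐ[ℚ] QbH)
    (hσ : σ ∈ A.inertiaSubgroupIn ℚ) (δ : fieldBar L M H ≃ₐ[QbH] fieldBar L M H)
    {u : fieldBar L M H} (hu : u ≠ 0) :
    ∃ c : QbH, c ≠ 0 ∧
      ReducesToOneF A (fieldBar L M H)
        (algebraMap QbH (fieldBar L M H) c * chiExpr σ δ u) := by
  obtain ⟨c, hc, h⟩ := rtk6c_cheap_infty_H L M H A σ hσ (rtk6eaX σ δ u) (rtk6eaX_ne_zero σ δ hu)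
  refine ⟨c, hc, ?_⟩
  rw [rtk6ea_chiExpr_eq σ δ hu]
  exact h

/-- **toric at `v_0 = v_∞ ∘ w`**: `w (c₀ · chiExpr σ δ u)` reduces to one -/
theorem rtk6ea_toric_zero {r : ℕ} {w : fieldBar L M H ≃ₐ[QbH] fieldBar L M H}
    (hw : IsWAt L M H r w) (A : ValuationSubring QbH) (σ : QbH ≃ₐ[ℚ] QbH)
    (hσ : σ ∈ A.inertiaSubgroupIn ℚ) {c : (ZMod M)ˣ} (hc : IsCycAt M r σ c)
    {δ : fieldBar L M H ≃ₐ[QbH] fieldBar L M H} (hδ : IsDiamondH L M H c δ)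
    {u : fieldBar L M H} (hu : u ≠ 0) :
    ∃ c₀ : QbH, c₀ ≠ 0 ∧
      ReducesToOneF A (fieldBar L M H)
        (w (algebraMap QbH (fieldBar L M H) c₀ * chiExpr σ δ u)) := by
  have hx₁ : (arithmeticGalois (fieldQ L M H) σ • u) / u ≠ 0 :=
    div_ne_zero (rtk6ea_smul_ne_zero σ hu) hu
  obtain ⟨c₀, hc₀, h⟩ := rtk6c0_cheap_zero hw A σ hσ c hc δ hδ _ hx₁
  refine ⟨c₀, hc₀, ?_⟩
  rw [rtk6ea_chiExpr_eq' hδ σ hu]
  exact h

/-- a constant is an `n`-th power of a constant (`n ≠ 0`) -/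
theorem rtk6ea_exists_root (c : QbH) (hc : c ≠ 0) {n : ℕ} (hn : n ≠ 0) :
    ∃ b : QbH, b ≠ 0 ∧ b ^ n = c⁻¹ := by
  obtain ⟨b, hb⟩ := IsAlgClosed.exists_pow_nat_eq c⁻¹ (Nat.pos_of_ne_zero hn)
  refine ⟨b, ?_, hb⟩
  rintro rfl
  rw [zero_pow hn] at hb
  exact inv_ne_zero hc hb.symm

/-- toric at `v_∞`, root form -/
theorem rtk6ea_toric_infty_root (A : ValuationSubring QbH) (σ : QbH ≃ₐ[ℚ] QbH)
    (hσ : σ ∈ A.inertiaSubgroupIn ℚ) (δ : fieldBar L M H ≃ₐ[QbH] fieldBar L M H)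
    {u : fieldBar L M H} (hu : u ≠ 0) {n : ℕ} (hn : n ≠ 0) :
    ∃ b : QbH, b ≠ 0 ∧
      ReducesToOneF A (fieldBar L M H)
        (chiExpr σ δ u / algebraMap QbH (fieldBar L M H) b ^ n) := by
  obtain ⟨c, hc, h⟩ := rtk6ea_toric_infty A σ hσ δ hu
  obtain ⟨b, hb, hbn⟩ := rtk6ea_exists_root c hc hn
  refine ⟨b, hb, ?_⟩
  have e : chiExpr σ δ u / algebraMap QbH (fieldBar L M H) b ^ n
      = algebraMap QbH (fieldBar L M H) c * chiExpr σ δ u := by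
    rw [← map_pow, hbn, map_inv₀, div_eq_mul_inv, inv_inv, mul_comm]
  rw [e]
  exact h

/-- toric at `v_0`, root form -/
theorem rtk6ea_toric_zero_root {r : ℕ} {w : fieldBar L M H ≃ₐ[QbH] fieldBar L M H}
    (hw : IsWAt L M H r w) (A : ValuationSubring QbH) (σ : QbH ≃ₐ[ℚ] QbH)
    (hσ : σ ∈ A.inertiaSubgroupIn ℚ) {c : (ZMod M)ˣ} (hc : IsCycAt M r σ c)
    {δ : fieldBar L M H ≃ₐ[QbH] fieldBar L M H} (hδ : IsDiamondH L M H c δ)
    {u : fieldBar L M H} (hu : u ≠ 0) {n : ℕ} (hn : n ≠ 0) :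
    ∃ b : QbH, b ≠ 0 ∧
      ReducesToOneF A (fieldBar L M H)
        (w (chiExpr σ δ u / algebraMap QbH (fieldBar L M H) b ^ n)) := by
  obtain ⟨c₀, hc₀, h⟩ := rtk6ea_toric_zero hw A σ hσ hc hδ hu
  obtain ⟨b, hb, hbn⟩ := rtk6ea_exists_root c₀ hc₀ hn
  refine ⟨b, hb, ?_⟩
  have e : chiExpr σ δ u / algebraMap QbH (fieldBar L M H) b ^ n
      = algebraMap QbH (fieldBar L M H) c₀ * chiExpr σ δ u := by
    rw [← map_pow, hbn, map_inv₀, div_eq_mul_inv, inv_inv, mul_comm]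
  rw [e]
  exact h

/-! ### Divisibility of the divisor of `x` -/

/-- `m ∣ div u ⇒ m ∣ div (g u)` for a semilinear automorphism -/
theorem rtk6ea_dvd_ord_smul {K F : Type*} [Field K] [Field F] [Algebra K F]
    (g : SemilinearAut K F) (m : ℤ) {u : F}
    (h : ∀ P : Place K F, m ∣ P.ord u) (P : Place K F) : m ∣ P.ord (g • u) := by
  have h1 := SemilinearAut.ord_smul g (g⁻¹ • P) u
  rw [smul_inv_smul] at h1
  rw [h1]
  exact h _

/-- `m ∣ div u ⇒ m ∣ div x`, `x = δ (σ u) / u` -/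
theorem rtk6ea_dvd_ord_x (σ : QbH ≃ₐ[ℚ] QbH) (δ : fieldBar L M H ≃ₐ[QbH] fieldBar L M H)
    (m : ℤ) {u : fieldBar L M H} (hu : u ≠ 0)
    (h : ∀ P : Place QbH (fieldBar L M H), m ∣ P.ord u) (P : Place QbH (fieldBar L M H)) :
    m ∣ P.ord (rtk6eaX σ δ u) := by
  have h1 : ∀ P : Place QbH (fieldBar L M H),
      m ∣ P.ord (arithmeticGalois (fieldQ L M H) σ • u) :=
    rtk6ea_dvd_ord_smul (arithmeticGalois (fieldQ L M H) σ) m h
  have h2 : ∀ P : Place QbH (fieldBar L M H),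
      m ∣ P.ord (δ (arithmeticGalois (fieldQ L M H) σ • u)) := fun P =>
    rtk6ea_dvd_ord_smul (SemilinearAut.ofAlgAut δ) m h1 P
  have hne : δ (arithmeticGalois (fieldQ L M H) σ • u) ≠ 0 :=
    (map_ne_zero δ).mpr (rtk6ea_smul_ne_zero σ hu)
  unfold rtk6eaX
  rw [div_eq_mul_inv, P.ord_mul hne (inv_ne_zero hu), P.ord_inv]
  exact dvd_add (h2 P) ((dvd_neg).mpr (h P))

end Toric

end Fermat.Agent.RT.K6
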