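/-
K-machine, piece K6, piece **E** (helper4), part FINAL: from the statements OVER A FIELD OF
DEFINITION, for PRIME POWER exponents, to the Kummer statements on `fieldBar L M H`.
Fork of `UNIP/MGPrimePow.lean` (MG-7) + the diamond compatibility `fieldC K₀ ↔ fieldBar`.

* `rtk6eAct K₀ L M H σ hσ` : the coefficientwise action of `σ` on `fieldC K₀ L M H`
  (`K₀ ⊆ ℚ̄` stable under `σ`); `nfEmbH_rtk6eAct`.
* `rtk6e_nfEmbH_diamond` : `nfEmbH (δ̂ x) = δ (nfEmbH x)` for `IsDiamondC K₀ L M H c δ̂`,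
  `IsDiamondH L M H c δ`.
* `rtk6eChi`, `nfEmbH_rtk6eChi` : `(σ − 1)(δσ − 1) u` on `fieldC K₀ L M H`.
* `ChiFieldPPAt L M H r` : **the target of E-MAIN** — (χ-K) over a field of definition chosen by
  the prover, exponents `p ^ k`, `p ≠ r`;  `chiKummerAt_of_fieldPP`.
* `UnipFieldPPAt L M H r` : the same for `(σ − 1)² u` (the case without diamonds at `r`);
  `unipHAt_of_fieldPP`.
* `StmtChiKummerRig`, `StmtUnipHRig` : (χ-K) and (UNIP_H) at the tame RIGID levels (`4 ∣ L`) —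
  what piece E delivers; `stmtChiKummerRig_of_fieldPP`, `stmtUnipHRig_of_fieldPP`.
-/
import Fermat.Agent.RT.K6.PlanP
import Fermat.Agent.RT.K6.FPlan
import Fermat.Agent.RT.K6.D0Gal
import Fermat.Agent.RT.K6.DISetup
import Fermat.Agent.UNIP.MGPrimePow
import Fermat.Agent.ES1.G2.DiamBar

set_option autoImplicit false
set_option linter.style.haveILetI false
set_option linter.unusedSectionVars false
set_option linter.unusedVariables false

noncomputable section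

namespace Fermat.Agent.RT.K6

open ModularCurve AlgebraicCurve HahnSeries Fermat.Agent.ES Fermat.Agent.ES.G2 Fermat.Agent.INJ
open Fermat.Agent.UNIP Fermat.Agent.ES1 Fermat.Agent.ES1.G2 IntermediateField

section Act

variable (K₀ : IntermediateField ℚ Qb) (L M : ℕ) (H : Subgroup (ZMod M)ˣ)

/-- the coefficientwise action of `σ` on `fieldC K₀ L M H` -/
def rtk6eAct (σ : Qb ≃ₐ[ℚ] Qb) (hσ : ∀ x ∈ K₀, σ x ∈ K₀) :
    fieldC K₀ L M H →+* fieldC K₀ L M H :=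
  rtk6diCoeffHom L M H (mgRestrict K₀ σ hσ)

theorem rtk6eAct_coe (σ : Qb ≃ₐ[ℚ] Qb) (hσ : ∀ x ∈ K₀, σ x ∈ K₀) (x : fieldC K₀ L M H) :
    ((rtk6eAct K₀ L M H σ hσ x : fieldC K₀ L M H) : LaurentSeries K₀)
      = coeffMap (mgRestrict K₀ σ hσ) (x : LaurentSeries K₀) := rfl

theorem rtk6eAct_injective (σ : Qb ≃ₐ[ℚ] Qb) (hσ : ∀ x ∈ K₀, σ x ∈ K₀) :
    Function.Injective (rtk6eAct K₀ L M H σ hσ) := (rtk6eAct K₀ L M H σ hσ).injective

/-- `nfEmbH` intertwines the action on `fieldC K₀ L M H` with the arithmetic Galois action -/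
theorem nfEmbH_rtk6eAct (σ : Qb ≃ₐ[ℚ] Qb) (hσ : ∀ x ∈ K₀, σ x ∈ K₀) (x : fieldC K₀ L M H) :
    nfEmbH K₀ L M H (rtk6eAct K₀ L M H σ hσ x)
      = arithmeticGalois (fieldQ L M H) σ • nfEmbH K₀ L M H x := by
  apply Subtype.ext
  show coeffMap (algebraMap ↥K₀ Qb)
      (coeffMap (mgRestrict K₀ σ hσ) (x : LaurentSeries ↥K₀))
    = coeffMap (σ : Qb →+* Qb) (coeffMap (algebraMap ↥K₀ Qb) (x : LaurentSeries ↥K₀))
  rw [coeffMap_coeffMap, coeffMap_coeffMap, mgRestrict_comp]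

variable {K₀ L M H}

/-- **The diamonds of `fieldC K₀ L M H` and of `fieldBar L M H` correspond under `nfEmbH`.** -/
theorem rtk6e_nfEmbH_diamond {c : (ZMod M)ˣ}
    {δ₀ : fieldC K₀ L M H ≃ₐ[K₀] fieldC K₀ L M H} (hδ₀ : IsDiamondC K₀ L M H c δ₀)
    {δ : fieldBar L M H ≃ₐ[QbH] fieldBar L M H} (hδ : IsDiamondH L M H c δ)
    (x : fieldC K₀ L M H) : nfEmbH K₀ L M H (δ₀ x) = δ (nfEmbH K₀ L M H x) := by
  have key : (nfEmbH K₀ L M H).comp (δ₀ : fieldC K₀ L M H →+* fieldC K₀ L M H)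
      = ((δ : fieldBar L M H →+* fieldBar L M H)).comp (nfEmbH K₀ L M H) := by
    refine diamb_ringHom_ext_adjoin
      (divisorExpansionsC ↥K₀ L ∪ diamondExpansionsC ↥K₀ L M H) (fieldC ↥K₀ L M H) rfl _ _
      (fun a => ?_) ?_
    · show nfEmbH K₀ L M H (δ₀ (algebraMap ↥K₀ (fieldC ↥K₀ L M H) a))
        = δ (nfEmbH K₀ L M H (algebraMap ↥K₀ (fieldC ↥K₀ L M H) a))
      rw [δ₀.commutes, nfEmbH_algebraMap]
      exact (δ.commutes _).symm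
    · rintro y (⟨d, hd, hdL, hy⟩ | ⟨e, he, a, heL, hy⟩)
      · show nfEmbH K₀ L M H (δ₀ y) = δ (nfEmbH K₀ L M H y)
        haveI := hd
        have h1 : δ₀ y = y := hδ₀.fix y (by
          rw [hy]; exact jqModCd_mem_full ↥K₀ L hdL)
        rw [h1]
        refine (hδ.fix_j d hdL _ ?_).symm
        rw [nfEmbH_coe, hy]
        exact coeffMap_jqNModC (algebraMap ↥K₀ Qb) d
      · show nfEmbH K₀ L M H (δ₀ y) = δ (nfEmbH K₀ L M H y)
        haveI := he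
        have hy' : y = ⟨qExpand ↥K₀ e (sS ↥K₀ M H a), qExpand_sS_mem ↥K₀ L M H heL a⟩ :=
          Subtype.ext hy
        apply Subtype.ext
        rw [hδ.map_s e a heL (nfEmbH K₀ L M H y) (by
          rw [nfEmbH_coe, hy]; exact es1f_coeffMap_qExpand_sS _ M H a e)]
        rw [nfEmbH_coe, hy', hδ₀.map_s e heL a]
        exact es1f_coeffMap_qExpand_sS _ M H (a * c) e
  exact congrArg (fun f : fieldC K₀ L M H →+* fieldBar L M H => f x) key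

variable (K₀ L M H)

/-- `(σ − 1)(δσ − 1) u` on `fieldC K₀ L M H` -/
def rtk6eChi (σ : Qb ≃ₐ[ℚ] Qb) (hσ : ∀ x ∈ K₀, σ x ∈ K₀)
    (δ₀ : fieldC K₀ L M H ≃ₐ[K₀] fieldC K₀ L M H) (u : fieldC K₀ L M H) : fieldC K₀ L M H :=
  (rtk6eAct K₀ L M H σ hσ (δ₀ (rtk6eAct K₀ L M H σ hσ u)) * u) /
    (rtk6eAct K₀ L M H σ hσ u * δ₀ (rtk6eAct K₀ L M H σ hσ u))

/-- `(σ − 1)² u` on `fieldC K₀ L M H` -/
def rtk6eUnip (σ : Qb ≃ₐ[ℚ] Qb) (hσ : ∀ x ∈ K₀, σ x ∈ K₀) (u : fieldC K₀ L M H) :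
    fieldC K₀ L M H :=
  (rtk6eAct K₀ L M H σ hσ ((rtk6eAct K₀ L M H σ hσ u) / u)) / ((rtk6eAct K₀ L M H σ hσ u) / u)

variable {K₀ L M H}

theorem nfEmbH_rtk6eChi (σ : Qb ≃ₐ[ℚ] Qb) (hσ : ∀ x ∈ K₀, σ x ∈ K₀) {c : (ZMod M)ˣ}
    {δ₀ : fieldC K₀ L M H ≃ₐ[K₀] fieldC K₀ L M H} (hδ₀ : IsDiamondC K₀ L M H c δ₀)
    {δ : fieldBar L M H ≃ₐ[QbH] fieldBar L M H} (hδ : IsDiamondH L M H c δ)
    (u : fieldC K₀ L M H) :
    nfEmbH K₀ L M H (rtk6eChi K₀ L M H σ hσ δ₀ u) = chiExpr σ δ (nfEmbH K₀ L M H u) := by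
  have h1 : nfEmbH K₀ L M H (rtk6eChi K₀ L M H σ hσ δ₀ u)
      = (nfEmbH K₀ L M H (rtk6eAct K₀ L M H σ hσ (δ₀ (rtk6eAct K₀ L M H σ hσ u)))
            * nfEmbH K₀ L M H u) /
          (nfEmbH K₀ L M H (rtk6eAct K₀ L M H σ hσ u)
            * nfEmbH K₀ L M H (δ₀ (rtk6eAct K₀ L M H σ hσ u))) := by
    unfold rtk6eChi
    rw [map_div₀ (nfEmbH K₀ L M H), RingHom.map_mul, RingHom.map_mul]
  rw [h1, nfEmbH_rtk6eAct, rtk6e_nfEmbH_diamond hδ₀ hδ, nfEmbH_rtk6eAct]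
  rfl

theorem nfEmbH_rtk6eUnip (σ : Qb ≃ₐ[ℚ] Qb) (hσ : ∀ x ∈ K₀, σ x ∈ K₀) (u : fieldC K₀ L M H) :
    nfEmbH K₀ L M H (rtk6eUnip K₀ L M H σ hσ u)
      = (arithmeticGalois (fieldQ L M H) σ •
            ((arithmeticGalois (fieldQ L M H) σ • nfEmbH K₀ L M H u) / nfEmbH K₀ L M H u)) /
          ((arithmeticGalois (fieldQ L M H) σ • nfEmbH K₀ L M H u) / nfEmbH K₀ L M H u) := by
  unfold rtk6eUnip
  rw [map_div₀ (nfEmbH K₀ L M H), nfEmbH_rtk6eAct, map_div₀ (nfEmbH K₀ L M H),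
    nfEmbH_rtk6eAct]

end Act

/-! ### The targets of E-MAIN and the reduction to them -/

section Target

variable (L M : ℕ) (H : Subgroup (ZMod M)ˣ) (r : ℕ)

/-- (χ-K) at one level, all exponents prime to `r` -/
def ChiKummerAtE : Prop :=
  ∀ A : ValuationSubring QbH, A.LiesOverPrime r →
    ∀ m : ℕ, ¬ r ∣ m →
      ∀ σ ∈ A.inertiaSubgroupIn ℚ, ∀ c : (ZMod M)ˣ, IsCycAt M r σ c →
      ∀ δ : fieldBar L M H ≃ₐ[QbH] fieldBar L M H, IsDiamondH L M H c δ →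
      ∀ (c' : (ZMod M)ˣ), IsAtR M r c' →
      ∀ δ' : fieldBar L M H ≃ₐ[QbH] fieldBar L M H, IsDiamondH L M H c' δ' →
        ∀ u : fieldBar L M H, u ≠ 0 →
          (∀ P : Place QbH (fieldBar L M H), (m : ℤ) ∣ P.ord u) →
            ∃ h : fieldBar L M H, h ^ m = δ' (chiExpr σ δ u) / chiExpr σ δ u

/-- **Target of E-MAIN.**  (χ-K) over a field of definition `K₀` of `u` (chosen by the prover;
in the application `E′ = ℚ̄^I · K₁`), for prime power exponents. -/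
def ChiFieldPPAt : Prop :=
  ∀ A : ValuationSubring QbH, A.LiesOverPrime r →
    ∀ p : ℕ, p.Prime → p ≠ r → ∀ k : ℕ,
      ∀ σ ∈ A.inertiaSubgroupIn ℚ, ∀ c : (ZMod M)ˣ, IsCycAt M r σ c →
      ∀ (c' : (ZMod M)ˣ), IsAtR M r c' →
        ∀ u : fieldBar L M H, u ≠ 0 →
          (∀ P : Place QbH (fieldBar L M H), ((p ^ k : ℕ) : ℤ) ∣ P.ord u) →
            ∃ (K₀ : IntermediateField ℚ Qb) (hσ : ∀ x ∈ K₀, σ x ∈ K₀)
              (δ₀ δ₀' : fieldC K₀ L M H ≃ₐ[K₀] fieldC K₀ L M H) (u₀ : fieldC K₀ L M H),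
              IsDiamondC K₀ L M H c δ₀ ∧ IsDiamondC K₀ L M H c' δ₀' ∧
              nfEmbH K₀ L M H u₀ = u ∧
                ∃ h : fieldC K₀ L M H,
                  h ^ (p ^ k) = δ₀' (rtk6eChi K₀ L M H σ hσ δ₀ u₀) / rtk6eChi K₀ L M H σ hσ δ₀ u₀

/-- (UNIP_H) at one level, all exponents prime to `r` -/
def UnipHAtE : Prop :=
  ∀ A : ValuationSubring QbH, A.LiesOverPrime r →
    ∀ m : ℕ, ¬ r ∣ m →
      ∀ σ ∈ A.inertiaSubgroupIn ℚ,
        ∀ u : fieldBar L M H, u ≠ 0 →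
          (∀ P : Place QbH (fieldBar L M H), (m : ℤ) ∣ P.ord u) →
            ∃ h : fieldBar L M H,
              h ^ m =
                (arithmeticGalois (fieldQ L M H) σ •
                    ((arithmeticGalois (fieldQ L M H) σ • u) / u)) /
                  ((arithmeticGalois (fieldQ L M H) σ • u) / u)

/-- **Target of E-MAIN, case without diamonds at `r`.** -/
def UnipFieldPPAt : Prop :=
  ∀ A : ValuationSubring QbH, A.LiesOverPrime r →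
    ∀ p : ℕ, p.Prime → p ≠ r → ∀ k : ℕ,
      ∀ σ ∈ A.inertiaSubgroupIn ℚ,
        ∀ u : fieldBar L M H, u ≠ 0 →
          (∀ P : Place QbH (fieldBar L M H), ((p ^ k : ℕ) : ℤ) ∣ P.ord u) →
            ∃ (K₀ : IntermediateField ℚ Qb) (hσ : ∀ x ∈ K₀, σ x ∈ K₀)
              (u₀ : fieldC K₀ L M H), nfEmbH K₀ L M H u₀ = u ∧
                ∃ h : fieldC K₀ L M H, h ^ (p ^ k) = rtk6eUnip K₀ L M H σ hσ u₀

variable {L M H r}

/-- prime powers over a field of definition suffice, (χ-K) -/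
theorem chiKummerAt_of_fieldPP (hr : r.Prime) (h : ChiFieldPPAt L M H r) :
    ChiKummerAtE L M H r := by
  intro A hA m hm σ hσ c hc δ hδ c' hc' δ' hδ' u hu hdiv
  have hm0 : m ≠ 0 := by
    rintro rfl
    exact hm (dvd_zero r)
  refine mg_pow_of_prime_powers _ m (fun p k hp hd => ?_) hm0
  by_cases hk : k = 0
  · subst hk
    exact ⟨_, pow_one _⟩
  have hpr : p ≠ r := by
    rintro rfl
    exact hm (dvd_trans (dvd_pow_self p hk) hd)
  have h1 : ((p ^ k : ℕ) : ℤ) ∣ (m : ℤ) := by exact_mod_cast hd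
  obtain ⟨K₀, hσK, δ₀, δ₀', u₀, hδ₀, hδ₀', hu₀, y, hy⟩ :=
    h A hA p hp hpr k σ hσ c hc c' hc' u hu (fun P => dvd_trans h1 (hdiv P))
  refine ⟨nfEmbH K₀ L M H y, ?_⟩
  rw [← map_pow, hy, map_div₀, rtk6e_nfEmbH_diamond hδ₀' hδ', nfEmbH_rtk6eChi σ hσK hδ₀ hδ, hu₀]

/-- prime powers over a field of definition suffice, (UNIP_H) -/
theorem unipHAt_of_fieldPP (hr : r.Prime) (h : UnipFieldPPAt L M H r) :
    UnipHAtE L M H r := by
  intro A hA m hm σ hσ u hu hdiv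
  have hm0 : m ≠ 0 := by
    rintro rfl
    exact hm (dvd_zero r)
  refine mg_pow_of_prime_powers _ m (fun p k hp hd => ?_) hm0
  by_cases hk : k = 0
  · subst hk
    exact ⟨_, pow_one _⟩
  have hpr : p ≠ r := by
    rintro rfl
    exact hm (dvd_trans (dvd_pow_self p hk) hd)
  have h1 : ((p ^ k : ℕ) : ℤ) ∣ (m : ℤ) := by exact_mod_cast hd
  obtain ⟨K₀, hσK, u₀, hu₀, y, hy⟩ :=
    h A hA p hp hpr k σ hσ u hu (fun P => dvd_trans h1 (hdiv P))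
  refine ⟨nfEmbH K₀ L M H y, ?_⟩
  rw [← map_pow, hy, nfEmbH_rtk6eUnip, hu₀]

end Target

/-! ### What piece E delivers: the tame rigid levels -/

/-- **(χ-K) at the tame RIGID levels** (`4 ∣ L`: no elliptic points, all nodes thin). -/
def StmtChiKummerRig : Prop :=
  ∀ (L M : ℕ) (H : Subgroup (ZMod M)ˣ) (r : ℕ), L ≠ 0 → M ∣ L → r.Prime → r ∣ M → ¬ r ^ 2 ∣ L →
    IsStarStable M r H → IsTameAt L M r H → 4 ∣ L → ChiKummerAtE L M H r

/-- **(UNIP_H) at the tame RIGID levels**, for the `H` which contain all diamonds at `r`. -/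
def StmtUnipHRig : Prop :=
  ∀ (L M : ℕ) (H : Subgroup (ZMod M)ˣ) (r : ℕ), L ≠ 0 → M ∣ L → r.Prime → r ∣ M → ¬ r ^ 2 ∣ L →
    (∀ c : (ZMod M)ˣ, IsAtR M r c → c ∈ pmH H) → IsTameAt L M r H → 4 ∣ L → UnipHAtE L M H r

theorem stmtChiKummerRig_of_fieldPP
    (h : ∀ (L M : ℕ) (H : Subgroup (ZMod M)ˣ) (r : ℕ), L ≠ 0 → M ∣ L → r.Prime → r ∣ M →
      ¬ r ^ 2 ∣ L → IsStarStable M r H → IsTameAt L M r H → 4 ∣ L → ChiFieldPPAt L M H r) :
    StmtChiKummerRig :=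
  fun L M H r hL hML hr hrM hr2 hstar htame h4 =>
    chiKummerAt_of_fieldPP hr (h L M H r hL hML hr hrM hr2 hstar htame h4)

theorem stmtUnipHRig_of_fieldPP
    (h : ∀ (L M : ℕ) (H : Subgroup (ZMod M)ˣ) (r : ℕ), L ≠ 0 → M ∣ L → r.Prime → r ∣ M →
      ¬ r ^ 2 ∣ L → (∀ c : (ZMod M)ˣ, IsAtR M r c → c ∈ pmH H) → IsTameAt L M r H → 4 ∣ L →
      UnipFieldPPAt L M H r) :
    StmtUnipHRig :=
  fun L M H r hL hML hr hrM hr2 hat htame h4 =>
    unipHAt_of_fieldPP hr (h L M H r hL hML hr hrM hr2 hat htame h4)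

end Fermat.Agent.RT.K6
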