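/-
K-machine, piece K6, piece **E-RAT** (helper12), part 1: places of `fieldC K₀ L M H` versus places
of `fieldBar L M H`.  Fork of `UNIP/MGPlaces.lean` (MG-2) and of `mg_hfin` (`UNIP/MGMain.lean`) with
`modularFunctionFieldFullC K N` replaced by `fieldC K L M H`, `modularFunctionFieldBar N` by
`fieldBar L M H`, `nfEmb` by `nfEmbH`, `mgGal` by `rtk6diGalGen`.

* `rtk6rat_ord_smul`, `rtk6rat_ord_smul'` : the action of `Aut(K)` on places preserves orders;
* `rtk6rat_nfEmbH_smul` : if `σ ∈ Gal(ℚ̄/ℚ)` restricts to `s` on `K₀` then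
  `nfEmbH (s • x) = arithmeticGalois σ • nfEmbH x`;
* `rtk6rat_place_extend`, `rtk6rat_place_restrict` : places of `fieldC K₀ L M H / K₀` extend to /
  are restrictions of places of `fieldBar L M H / ℚ̄`, with the same `ord`;
* `rtk6rat_dvd_ord`, `rtk6rat_dvd_ord_bar`;
* `rtk6rat_restrict_smul` : restriction of places is compatible with the two Galois actions;
* `rtk6rat_hfin` : the divisor of `u₀ ∈ fieldC K₀ L M H`, `u₀ ≠ 0`, has finite support.
-/
import Fermat.Agent.RT.K6.DISetup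
import Fermat.Agent.ES1.HFinal
import Fermat.Agent.UNIP.MGMain

set_option autoImplicit false
set_option linter.unusedSectionVars false
set_option linter.style.haveILetI false

noncomputable section

namespace Fermat.Agent.RT.K6

open ModularCurve AlgebraicCurve Fermat.Agent.INJ Fermat.Agent.UNIP Fermat.Agent.ES1
open Fermat.Agent.S24

section General

variable {K : Type*} [Field K] (L M : ℕ) (H : Subgroup (ZMod M)ˣ)

/-- The action of `Aut(K)` on places of `fieldC K L M H / K` preserves orders. -/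
theorem rtk6rat_ord_smul (s : K ≃+* K) (v : Place K (fieldC K L M H)) (x : fieldC K L M H) :
    (rtk6diGalGen L M H s • v).ord (rtk6diGalGen L M H s • x) = v.ord x :=
  SemilinearAut.ord_smul (rtk6diGalGen L M H s) v x

theorem rtk6rat_ord_smul' (s : K ≃+* K) (v : Place K (fieldC K L M H)) (x : fieldC K L M H) :
    (rtk6diGalGen L M H s • v).ord x = v.ord ((rtk6diGalGen L M H s)⁻¹ • x) := by
  have h := rtk6rat_ord_smul L M H s v ((rtk6diGalGen L M H s)⁻¹ • x)
  rwa [smul_inv_smul] at h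

end General

section NumberField

variable (K₀ : IntermediateField ℚ NfQb) (L M : ℕ) (H : Subgroup (ZMod M)ˣ)

set_option maxHeartbeats 1600000 in
set_option synthInstance.maxHeartbeats 400000 in
/-- If `σ ∈ Gal(ℚ̄/ℚ)` restricts to `s` on `K₀`, then `nfEmbH` intertwines the coefficient action
of `s` on `fieldC K₀ L M H` and the arithmetic Galois action of `σ` on `fieldBar L M H`. -/
theorem rtk6rat_nfEmbH_smul (σ : NfQb ≃ₐ[ℚ] NfQb) (s : K₀ ≃+* K₀)
    (h : ∀ a : K₀, σ (a : NfQb) = ((s a : K₀) : NfQb))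
    (x : fieldC K₀ L M H) :
    nfEmbH K₀ L M H (rtk6diGalGen L M H s • x)
      = arithmeticGalois (fieldQ L M H) σ • nfEmbH K₀ L M H x := by
  apply Subtype.ext
  rw [coe_arithmeticGalois_smul, nfEmbH_coe, nfEmbH_coe, coe_rtk6diGalGen_smul,
    coeffMap_coeffMap, coeffMap_coeffMap]
  refine coeffMap_congr (RingHom.ext fun a => ?_) _
  exact (h a).symm

/-- Every place of `fieldC K₀ L M H / K₀` extends to a place of `fieldBar L M H / ℚ̄` with the
same `ord`. -/
theorem rtk6rat_place_extend (Q : Place K₀ (fieldC K₀ L M H)) :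
    ∃ v : Place NfQb (fieldBar L M H), ∀ y : fieldC K₀ L M H,
      v.ord (nfEmbH K₀ L M H y) = Q.ord y :=
  nfH_hext K₀ L M H Q

/-- Every place of `fieldBar L M H / ℚ̄` restricts to a place of `fieldC K₀ L M H / K₀` with the
same `ord`. -/
theorem rtk6rat_place_restrict (v : Place NfQb (fieldBar L M H)) :
    ∃ Q : Place K₀ (fieldC K₀ L M H), ∀ y : fieldC K₀ L M H,
      v.ord (nfEmbH K₀ L M H y) = Q.ord y := by
  letI := nfH_algebra K₀ L M H
  haveI := nfH_tower K₀ L M H
  haveI := nfH_isAlgebraic K₀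
  exact PlaceExt.exists_place_restrict_const (E := K₀) (K := NfQb)
    (L' := fieldBar L M H) (PlaceExt.adjoin_range_swap (nfEmbH_adjoin_range K₀ L M H)) v

/-- Divisibility of the divisor descends from `fieldBar L M H` to `fieldC K₀ L M H`. -/
theorem rtk6rat_dvd_ord (m : ℤ) (u₀ : fieldC K₀ L M H)
    (h : ∀ P : Place NfQb (fieldBar L M H), m ∣ P.ord (nfEmbH K₀ L M H u₀))
    (Q : Place K₀ (fieldC K₀ L M H)) : m ∣ Q.ord u₀ := by
  obtain ⟨v, hv⟩ := rtk6rat_place_extend K₀ L M H Q
  rw [← hv u₀]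
  exact h v

/-- Divisibility of the divisor ascends from `fieldC K₀ L M H` to `fieldBar L M H`. -/
theorem rtk6rat_dvd_ord_bar (m : ℤ) (u₀ : fieldC K₀ L M H)
    (h : ∀ Q : Place K₀ (fieldC K₀ L M H), m ∣ Q.ord u₀)
    (P : Place NfQb (fieldBar L M H)) : m ∣ P.ord (nfEmbH K₀ L M H u₀) := by
  obtain ⟨Q, hQ⟩ := rtk6rat_place_restrict K₀ L M H P
  rw [hQ u₀]
  exact h Q

/-- Restriction of places is compatible with the Galois actions. -/
theorem rtk6rat_restrict_smul (σ : NfQb ≃ₐ[ℚ] NfQb) (s : K₀ ≃+* K₀)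
    (h : ∀ a : K₀, σ (a : NfQb) = ((s a : K₀) : NfQb))
    (v : Place NfQb (fieldBar L M H))
    (Q : Place K₀ (fieldC K₀ L M H))
    (hvQ : ∀ y : fieldC K₀ L M H, v.ord (nfEmbH K₀ L M H y) = Q.ord y)
    (y : fieldC K₀ L M H) :
    (arithmeticGalois (fieldQ L M H) σ • v).ord (nfEmbH K₀ L M H y)
      = (rtk6diGalGen L M H s • Q).ord y := by
  rw [rtk6rat_ord_smul', ← hvQ]
  have e : nfEmbH K₀ L M H y = arithmeticGalois (fieldQ L M H) σ •
      nfEmbH K₀ L M H ((rtk6diGalGen L M H s)⁻¹ • y) := by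
    rw [← rtk6rat_nfEmbH_smul K₀ L M H σ s h, smul_inv_smul]
  conv_lhs => rw [e]
  exact SemilinearAut.ord_smul _ v _

/-- **hfin**: the divisor of a non-zero element of `fieldC K₀ L M H` has finite support. -/
theorem rtk6rat_hfin (hL : L ≠ 0) (hML : M ∣ L) (u₀ : fieldC K₀ L M H) (hu : u₀ ≠ 0) :
    {P : Place K₀ (fieldC K₀ L M H) | P.ord u₀ ≠ 0}.Finite := by
  classical
  have hu' : nfEmbH K₀ L M H u₀ ≠ 0 := (map_ne_zero (nfEmbH K₀ L M H)).mpr hu
  haveI := es1h_hasPrincipalDivisors_all (H := H) hL hML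
  obtain ⟨D, hD, -⟩ := HasPrincipalDivisors.exists_divisor (K := NfQb)
    (F := fieldBar L M H) (nfEmbH K₀ L M H u₀) hu'
  choose e he using fun Q : Place K₀ (fieldC K₀ L M H) => rtk6rat_place_extend K₀ L M H Q
  have hinj : Function.Injective e := by
    intro P Q hPQ
    apply mg_place_eq_of_ord
    intro y
    rw [← he P y, ← he Q y, hPQ]
  refine Set.Finite.subset (Set.Finite.preimage (hinj.injOn) D.support.finite_toSet) ?_
  intro P hP
  simp only [Set.mem_preimage, Finset.mem_coe, Finsupp.mem_support_iff]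
  rw [hD (e P), he P u₀]
  exact hP

end NumberField

end Fermat.Agent.RT.K6
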