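/-
K-machine, piece K6, piece **E-RAT** (helper12), part 2: places of `fieldBar L M H` become rational
over a finite extension of the base field.  Fork of `UNIP/Rational.lean` (UNIP D8) with
`modularFunctionFieldBar N` replaced by `fieldBar L M H` and `nfEmb` by `nfEmbH`.

`F = fieldBar L M H` (`M ∣ L ≠ 0`), `P` a place of `F / ℚ̄`.

* `Rtk6RatStable L M H E P` : `P` is fixed by every `σ ∈ Gal(ℚ̄/ℚ)` fixing the subfield `E ⊆ ℚ̄`
  pointwise.
* `rtk6rat_exists_stable_finset` : finitely many places are stable over one number field `K₀`,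
  which can be taken Galois over `ℚ` and containing a given number field.
* `Rtk6RatStable.mono`, `Rtk6RatStable.smul` (stability of the Galois conjugates, `K₀ / ℚ`
  normal).
* `Rtk6RatStable.exists_const` : if `P` is stable over `E` (an arbitrary subfield of `ℚ̄`), then
  `P ∩ fieldC E L M H` is `E`-rational: every `f ∈ fieldC E L M H` which is regular at `P` is
  congruent modulo `𝔪_P` to a constant `c ∈ E`.
-/
import Fermat.Agent.RT.K6.ERatPlaces
import Fermat.Agent.UNIP.Rational
import Fermat.Agent.ES1.InjDescentH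

set_option autoImplicit false
set_option linter.unusedSectionVars false
set_option linter.style.haveILetI false

noncomputable section

namespace Fermat.Agent.RT.K6

open AlgebraicCurve ModularCurve Fermat.Agent.S24 Fermat.Agent.INJ Fermat.Agent.UNIP
open Fermat.Agent.ES1

section Galois

variable (L M : ℕ) (H : Subgroup (ZMod M)ˣ)

/-- the arithmetic Galois action on `fieldBar L M H` -/
abbrev rtk6ratGal (σ : Kb ≃ₐ[ℚ] Kb) : SemilinearAut Kb (fieldBar L M H) :=
  arithmeticGalois (fieldQ L M H) σ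

/-- Functions defined over `E` are fixed by the automorphisms fixing `E`. -/
theorem rtk6rat_smul_nfEmbH (E : IntermediateField ℚ Kb) (σ : Kb ≃ₐ[ℚ] Kb)
    (hσ : ∀ x ∈ E, σ x = x) (f : fieldC E L M H) :
    rtk6ratGal L M H σ • (nfEmbH E L M H f) = nfEmbH E L M H f := by
  apply Subtype.ext
  rw [coe_arithmeticGalois_smul, nfEmbH_coe, coeffMap_coeffMap]
  have h : ((σ : Kb →+* Kb).comp (algebraMap E Kb)) = algebraMap E Kb := by
    refine RingHom.ext fun c => ?_
    exact hσ (c : Kb) c.2
  exact coeffMap_congr h _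

theorem rtk6rat_smul_const (σ : Kb ≃ₐ[ℚ] Kb) (c : Kb) :
    rtk6ratGal L M H σ • algebraMap Kb (fieldBar L M H) c
      = algebraMap Kb (fieldBar L M H) (σ c) :=
  SemilinearAut.smul_algebraMap _ c

/-- `P` is fixed by every automorphism of `ℚ̄` fixing the subfield `E` pointwise. -/
def Rtk6RatStable (E : IntermediateField ℚ Kb) (P : Place Kb (fieldBar L M H)) : Prop :=
  ∀ σ : Kb ≃ₐ[ℚ] Kb, (∀ x ∈ E, σ x = x) → rtk6ratGal L M H σ • P = P

variable {L M H}

theorem Rtk6RatStable.mono {E E' : IntermediateField ℚ Kb} (h : E ≤ E')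
    {P : Place Kb (fieldBar L M H)} (hP : Rtk6RatStable L M H E P) :
    Rtk6RatStable L M H E' P :=
  fun σ hσ => hP σ fun x hx => hσ x (h hx)

variable (L M H) in
/-- **Stability.**  Every place of `fieldBar L M H` is fixed by `Gal(ℚ̄/K₀)` for some number
field `K₀`. -/
theorem rtk6rat_exists_stable (hL : L ≠ 0) (hML : M ∣ L) (P : Place Kb (fieldBar L M H)) :
    ∃ K₀ : IntermediateField ℚ Kb, FiniteDimensional ℚ K₀ ∧ Rtk6RatStable L M H K₀ P := by
  classical
  have := es1h_hasPrincipalDivisors_all (H := H) hL hML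
  obtain ⟨t, Y, ht, hY, hchar⟩ := rat_exists_finset_char P
  obtain ⟨K₀, hK₀, -, hdesc⟩ := injdh_exists_descent_finset (L := L) (M := M) (H := H) ∅
    ((insert t Y).image (fun y : fieldBar L M H => (y : LaurentSeries Kb)))
    (by
      intro y hy
      obtain ⟨z, -, rfl⟩ := Finset.mem_image.1 hy
      exact z.2)
  refine ⟨K₀, hK₀, fun σ hσ => ?_⟩
  have hfix : ∀ y ∈ insert t Y, rtk6ratGal L M H σ • y = y := by
    intro y hy
    obtain ⟨y₁, hy₁, hy₁'⟩ := hdesc K₀ le_rfl (y : LaurentSeries Kb)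
      (Finset.mem_image_of_mem _ hy)
    have : y = nfEmbH K₀ L M H ⟨y₁, hy₁⟩ := Subtype.ext hy₁'.symm
    rw [this]
    exact rtk6rat_smul_nfEmbH L M H K₀ σ hσ _
  apply hchar
  · have h1 := SemilinearAut.ord_smul (rtk6ratGal L M H σ) P t
    rw [hfix t (Finset.mem_insert_self t Y)] at h1
    rw [h1]
    exact ht
  · intro y hy
    have h1 := hfix y (Finset.mem_insert_of_mem hy)
    rw [SemilinearAut.smul_toValuationSubring,
      ValuationSubring.mem_pointwise_smul_iff_inv_smul_mem]
    have h2 : (rtk6ratGal L M H σ)⁻¹ • y = y := by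
      conv_lhs => rw [← h1]
      exact inv_smul_smul _ _
    rw [h2]
    exact hY y hy

/-- **Rationality.**  If `P` is stable over the subfield `E ⊆ ℚ̄`, then every function
`f ∈ fieldC E L M H` regular at `P` is congruent modulo `𝔪_P` to a constant `c ∈ E`. -/
theorem Rtk6RatStable.exists_const (hL : L ≠ 0) (hML : M ∣ L) {E : IntermediateField ℚ Kb}
    {P : Place Kb (fieldBar L M H)}
    (hP : Rtk6RatStable L M H E P) (f : fieldC E L M H)
    (hf : nfEmbH E L M H f ∈ P.toValuationSubring) :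
    ∃ c : E, nfEmbH E L M H f - algebraMap Kb (fieldBar L M H) (c : Kb) ∈
      P.toValuationSubring.nonunits := by
  have : IsAlgClosure ℚ Kb := ⟨inferInstance, AlgebraicClosure.isAlgebraic ℚ⟩
  have : IsGalois ℚ Kb := inferInstance
  have hfin : FiniteDimensional (IntermediateField.adjoin Kb {es1hJ L M H}) (fieldBar L M H) :=
    es1hFin_all (H := H) hL hML
  have halg : Algebra.IsAlgebraic (IntermediateField.adjoin Kb {es1hJ L M H}) (fieldBar L M H) :=
    Algebra.IsAlgebraic.of_finite _ _
  obtain ⟨c, hc⟩ := exists_sub_mem_nonunits (es1hJ L M H) (es1h_transcendental_J L M H) halg P _ hf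
  have hcE : c ∈ E := by
    rw [← InfiniteGalois.fixedField_fixingSubgroup E, IntermediateField.mem_fixedField_iff]
    intro σ hσ
    have hσ' : ∀ x ∈ E, σ x = x := fun x hx => hσ ⟨x, hx⟩
    have h1 := rat_smul_mem_nonunits (rtk6ratGal L M H σ) P hc
    rw [hP σ hσ', smul_sub, rtk6rat_smul_nfEmbH L M H E σ hσ', rtk6rat_smul_const] at h1
    have h2 : algebraMap Kb (fieldBar L M H) (σ c - c) ∈ P.toValuationSubring.nonunits := by
      have e : algebraMap Kb (fieldBar L M H) (σ c - c)
          = (nfEmbH E L M H f - algebraMap Kb (fieldBar L M H) c) -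
            (nfEmbH E L M H f - algebraMap Kb (fieldBar L M H) (σ c)) := by
        rw [map_sub]; ring
      rw [e]
      exact rat_sub_mem_nonunits _ hc h1
    exact sub_eq_zero.1 (rat_const_eq_zero_of_mem_nonunits P h2)
  exact ⟨⟨c, hcE⟩, hc⟩

set_option synthInstance.maxHeartbeats 400000 in
/-- the same, with the constant subtracted inside `fieldC E L M H` -/
theorem Rtk6RatStable.exists_const' (hL : L ≠ 0) (hML : M ∣ L) {E : IntermediateField ℚ Kb}
    {P : Place Kb (fieldBar L M H)}
    (hP : Rtk6RatStable L M H E P) (f : fieldC E L M H)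
    (hf : nfEmbH E L M H f ∈ P.toValuationSubring) :
    ∃ c : E, nfEmbH E L M H (f - algebraMap E (fieldC E L M H) c) ∈
      P.toValuationSubring.nonunits := by
  obtain ⟨c, hc⟩ := hP.exists_const hL hML f hf
  refine ⟨c, ?_⟩
  rw [map_sub, nfEmbH_algebraMap]
  exact hc

set_option synthInstance.maxHeartbeats 400000 in
/-- `ord` version (NB `ord 0 = 0` in the prelude, so the constant case is an alternative). -/
theorem Rtk6RatStable.exists_eq_or_ord_pos (hL : L ≠ 0) (hML : M ∣ L)
    {E : IntermediateField ℚ Kb} {P : Place Kb (fieldBar L M H)}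
    (hP : Rtk6RatStable L M H E P) (f : fieldC E L M H)
    (hf : 0 ≤ P.ord (nfEmbH E L M H f)) :
    ∃ c : E, f = algebraMap E (fieldC E L M H) c ∨
      0 < P.ord (nfEmbH E L M H (f - algebraMap E (fieldC E L M H) c)) := by
  obtain ⟨c, hc⟩ := hP.exists_const' hL hML f (PlaceAux.mem_of_ord_nonneg P hf)
  refine ⟨c, ?_⟩
  rcases eq_or_ne (f - algebraMap E (fieldC E L M H) c) 0 with h | h
  · exact Or.inl (sub_eq_zero.1 h)
  · right
    have hne : nfEmbH E L M H (f - algebraMap E (fieldC E L M H) c) ≠ 0 := by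
      rw [Ne, map_eq_zero_iff _ (nfEmbH_injective E L M H)]
      exact h
    exact (PlaceAux.ord_pos_iff_mem_nonunits P hne).2 hc

/-- The Galois conjugates of a place which is stable over a field `K₀` normal over `ℚ` are stable
over `K₀`. -/
theorem Rtk6RatStable.smul {K₀ : IntermediateField ℚ Kb} [Normal ℚ K₀]
    {P : Place Kb (fieldBar L M H)}
    (hP : Rtk6RatStable L M H K₀ P) (τ : Kb ≃ₐ[ℚ] Kb) :
    Rtk6RatStable L M H K₀ (rtk6ratGal L M H τ • P) := by
  intro σ hσ
  have : IsAlgClosure ℚ Kb := ⟨inferInstance, AlgebraicClosure.isAlgebraic ℚ⟩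
  have : Normal ℚ Kb := IsAlgClosure.normal ℚ Kb
  have hτ : ∀ x ∈ K₀, τ x ∈ K₀ := by
    intro x hx
    have h := IntermediateField.normal_iff_forall_map_le'.1 (inferInstance : Normal ℚ K₀) τ
    exact h ⟨x, hx, rfl⟩
  have hfix : ∀ x ∈ K₀, (τ⁻¹ * σ * τ) x = x := by
    intro x hx
    show τ⁻¹ (σ (τ x)) = x
    rw [hσ _ (hτ x hx)]
    exact τ.symm_apply_apply x
  have h1 := hP (τ⁻¹ * σ * τ) hfix
  have e : rtk6ratGal L M H σ * rtk6ratGal L M H τ
      = rtk6ratGal L M H τ * rtk6ratGal L M H (τ⁻¹ * σ * τ) := by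
    show arithmeticGalois _ σ * arithmeticGalois _ τ = arithmeticGalois _ τ *
      arithmeticGalois _ (τ⁻¹ * σ * τ)
    rw [← map_mul, ← map_mul]
    congr 1
    group
  rw [← mul_smul, e, mul_smul, h1]

variable (L M H) in
/-- **D8 for `Γ_H`.**  Finitely many places of `fieldBar L M H` are stable over one number field
`K₀`, which can be taken Galois over `ℚ` and containing a given number field `E₁`. -/
theorem rtk6rat_exists_stable_finset (hL : L ≠ 0) (hML : M ∣ L)
    (S : Finset (Place Kb (fieldBar L M H)))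
    (E₁ : IntermediateField ℚ Kb) (hE₁ : FiniteDimensional ℚ E₁) :
    ∃ K₀ : IntermediateField ℚ Kb, E₁ ≤ K₀ ∧ FiniteDimensional ℚ K₀ ∧ IsGalois ℚ K₀ ∧
      ∀ P ∈ S, Rtk6RatStable L M H K₀ P := by
  classical
  have : IsAlgClosure ℚ Kb := ⟨inferInstance, AlgebraicClosure.isAlgebraic ℚ⟩
  have : IsGalois ℚ Kb := inferInstance
  -- one number field for all places
  have key : ∃ K₁ : IntermediateField ℚ Kb, E₁ ≤ K₁ ∧ FiniteDimensional ℚ K₁ ∧
      ∀ P ∈ S, Rtk6RatStable L M H K₁ P := by
    induction S using Finset.induction_on with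
    | empty => exact ⟨E₁, le_rfl, hE₁, fun P hP => absurd hP (Finset.notMem_empty P)⟩
    | insert a S _ ih =>
        obtain ⟨K₁, h1, h2, h3⟩ := ih
        obtain ⟨Ka, ha1, ha2⟩ := rtk6rat_exists_stable L M H hL hML a
        refine ⟨K₁ ⊔ Ka, le_trans h1 le_sup_left, IntermediateField.finiteDimensional_sup K₁ Ka,
          fun P hP => ?_⟩
        rcases Finset.mem_insert.1 hP with rfl | hP
        · exact ha2.mono le_sup_right
        · exact (h3 P hP).mono le_sup_left
  obtain ⟨K₁, h1, h2, h3⟩ := key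
  refine ⟨IntermediateField.normalClosure ℚ K₁ Kb,
    le_trans h1 (IntermediateField.le_normalClosure K₁),
    normalClosure.is_finiteDimensional ℚ K₁ Kb, IsGalois.normalClosure ℚ K₁ Kb,
    fun P hP => (h3 P hP).mono (IntermediateField.le_normalClosure K₁)⟩

end Galois

end Fermat.Agent.RT.K6
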