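/-
K-machine, piece K6, piece **E-RAT** (helper12), part 3: the places in the support of `div u` are
rational.  Fork of `UNIP/RationalSupp.lean` with `modularFunctionFieldBar N` replaced by
`fieldBar L M H`, `nfEmb` by `nfEmbH`, `mgGal` by `rtk6diGalGen`.

`rtk6rat_exists_field_rational` : for `u ∈ (fieldBar L M H)^×` there is a number field `K₀` (Galois
over `ℚ`, containing a given number field) such that for every subfield `E ⊇ K₀` of `ℚ̄` and every
place `Q` of `fieldC E L M H / E` some Galois translate of which lies in the support of `div u₀`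
(`u₀ ∈ fieldC E L M H` a model of `u`), the residue field of `Q` is `E`.
-/
import Fermat.Agent.RT.K6.ERat

set_option autoImplicit false
set_option linter.unusedSectionVars false
set_option linter.style.haveILetI false

noncomputable section

namespace Fermat.Agent.RT.K6

open AlgebraicCurve ModularCurve Fermat.Agent.S24 Fermat.Agent.INJ Fermat.Agent.UNIP
open Fermat.Agent.ES1

variable {L M : ℕ} {H : Subgroup (ZMod M)ˣ}

set_option synthInstance.maxHeartbeats 400000 in
/-- If `P` is stable over `E`, its restriction `Q` to `fieldC E L M H` has residue field `E`. -/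
theorem Rtk6RatStable.rational_restrict (hL : L ≠ 0) (hML : M ∣ L)
    {E : IntermediateField ℚ Kb}
    {P : Place Kb (fieldBar L M H)} (hP : Rtk6RatStable L M H E P)
    (Q : Place E (fieldC E L M H))
    (hQ : ∀ y : fieldC E L M H, P.ord (nfEmbH E L M H y) = Q.ord y)
    (f : fieldC E L M H) (hf : f ∈ Q.toValuationSubring) :
    ∃ c : E, f - algebraMap E (fieldC E L M H) c ∈ Q.toValuationSubring.nonunits := by
  have hzero : (0 : fieldC E L M H) ∈ Q.toValuationSubring.nonunits :=
    (ValuationSubring.mem_nonunits_iff _).2 (by simp)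
  rcases eq_or_ne f 0 with rfl | hf0
  · exact ⟨0, by rw [map_zero, sub_zero]; exact hzero⟩
  have h1 : 0 ≤ P.ord (nfEmbH E L M H f) := by
    rw [hQ]
    exact (PlaceAux.ord_nonneg_iff Q hf0).2 hf
  obtain ⟨c, hc⟩ := hP.exists_const' hL hML f (PlaceAux.mem_of_ord_nonneg P h1)
  refine ⟨c, ?_⟩
  rcases eq_or_ne (f - algebraMap E (fieldC E L M H) c) 0 with h | h
  · rw [h]
    exact hzero
  · have hne : nfEmbH E L M H (f - algebraMap E (fieldC E L M H) c) ≠ 0 := by
      rw [Ne, map_eq_zero_iff _ (nfEmbH_injective E L M H)]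
      exact h
    have h2 := (PlaceAux.ord_pos_iff_mem_nonunits P hne).2 hc
    rw [hQ] at h2
    exact (PlaceAux.ord_pos_iff_mem_nonunits Q h).1 h2

variable (L M H) in
/-- All places in the Galois orbit of the support of `div u` are stable over one number field. -/
theorem rtk6rat_exists_stable_supp (hL : L ≠ 0) (hML : M ∣ L)
    (u : fieldBar L M H) (hu : u ≠ 0)
    (E₁ : IntermediateField ℚ Kb) (hE₁ : FiniteDimensional ℚ E₁) :
    ∃ K₀ : IntermediateField ℚ Kb, E₁ ≤ K₀ ∧ FiniteDimensional ℚ K₀ ∧ IsGalois ℚ K₀ ∧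
      ∀ (P : Place Kb (fieldBar L M H)) (τ : Kb ≃ₐ[ℚ] Kb),
        (rtk6ratGal L M H τ • P).ord u ≠ 0 → Rtk6RatStable L M H K₀ P := by
  have := es1h_hasPrincipalDivisors_all (H := H) hL hML
  obtain ⟨D, hD, -⟩ := HasPrincipalDivisors.exists_divisor (K := Kb) u hu
  obtain ⟨K₀, h1, h2, h3, h4⟩ := rtk6rat_exists_stable_finset L M H hL hML D.support E₁ hE₁
  refine ⟨K₀, h1, h2, h3, fun P τ hτ => ?_⟩
  have hmem : rtk6ratGal L M H τ • P ∈ D.support := by
    rw [Finsupp.mem_support_iff, hD]
    exact hτ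
  have h5 := (h4 _ hmem).smul τ⁻¹
  have e : rtk6ratGal L M H τ⁻¹ • rtk6ratGal L M H τ • P = P := by
    rw [← mul_smul]
    show (arithmeticGalois _ τ⁻¹ * arithmeticGalois _ τ) • P = P
    rw [← map_mul, inv_mul_cancel, map_one, one_smul]
  rwa [e] at h5

variable (L M H) in
/-- **D8 for `Γ_H`, form for MG.**  The places of `fieldC E L M H` in the Galois orbit of the
support of `div u₀` have residue field `E`, for every subfield `E ⊆ ℚ̄` containing a suitable
number field `K₀`. -/
theorem rtk6rat_exists_field_rational (hL : L ≠ 0) (hML : M ∣ L)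
    (u : fieldBar L M H) (hu : u ≠ 0)
    (E₁ : IntermediateField ℚ Kb) (hE₁ : FiniteDimensional ℚ E₁) :
    ∃ K₀ : IntermediateField ℚ Kb, E₁ ≤ K₀ ∧ FiniteDimensional ℚ K₀ ∧ IsGalois ℚ K₀ ∧
      ∀ E : IntermediateField ℚ Kb, K₀ ≤ E →
        ∀ u₀ : fieldC E L M H, nfEmbH E L M H u₀ = u →
          ∀ (Q : Place E (fieldC E L M H)) (s : E ≃+* E) (σ : Kb ≃ₐ[ℚ] Kb),
            (∀ a : E, σ (a : Kb) = ((s a : E) : Kb)) →
            (rtk6diGalGen L M H s • Q).ord u₀ ≠ 0 →
              ∀ f ∈ Q.toValuationSubring, ∃ c : E,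
                f - algebraMap E (fieldC E L M H) c ∈ Q.toValuationSubring.nonunits := by
  obtain ⟨K₀, h1, h2, h3, h4⟩ := rtk6rat_exists_stable_supp L M H hL hML u hu E₁ hE₁
  refine ⟨K₀, h1, h2, h3, fun E hE u₀ hu₀ Q s σ hσ hQ f hf => ?_⟩
  obtain ⟨P, hP⟩ := rtk6rat_place_extend E L M H Q
  have h5 : (rtk6ratGal L M H σ • P).ord u ≠ 0 := by
    rw [← hu₀]
    have := rtk6rat_restrict_smul E L M H σ s hσ P Q hP u₀
    rw [show rtk6ratGal L M H σ = arithmeticGalois (fieldQ L M H) σ from rfl, this]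
    exact hQ
  exact ((h4 P σ h5).mono hE).rational_restrict hL hML Q hP f hf

end Fermat.Agent.RT.K6
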