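/-
K-machine, piece K6, piece **E-MAIN** (helper18): the SKELETON of piece E.

Setting of `RT/K6/DISetup.lean` (helper82) and of the table v6 of `NOTES/RT-K6-D.md`:
`E′ = mgcE A K₁`, `A′ = mgcA A K₁` (a discrete valuation ring), `F′ = rtk6diF A K₁ L M H`
(`= fieldC ↥E′ L M H`), `t = rtk6diT A K₁ L M H` (`= j`), `g = rtk6diGal L M H σ hσ` (`σ` in the
inertia group of `A`), `Φ` = a diamond `δ′₀` at `r` (for (χ-K)) or `Φ = g` (for (UNIP_H)).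

**The non-formal inputs** (one Prop per row of the table v6; every Prop is LITERALLY the
corresponding hypothesis of `rtk6ew_main_multi` (M6, `RT/K6/EWMulti.lean`) at these objects):

* `Rtk6emFam π V`        (M1, helper82)   : `Finite κ`, `hinj`, `hBV₁`, `hBV₂`, `hπV`, `harch`,
                                            `hVloc₁`, `hVloc₂`;
* `Rtk6emSS1 π V`        (SS1-inst, helper79) : `hSS1`;
* `Rtk6emStab V g`       (M4-inst, helper79)  : `hgV` (and `hΦV` with `g := Φ`);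
* `Rtk6emChartAt π q V u` (C4 helper94 + D-BC helper56), `u = t` or `t⁻¹` : the unramified chart
                           `R`, `j`, `p` with `MgcRamified`, `hjp` and `hnode`;
* `Rtk6emNode π V`       : `∃ q ≠ 0, π ∣ q ∧` the two charts;
* `Rtk6emFixAt π V g u`, `Rtk6emCongAt π V Φ u` (FIX-inst, helper94 / helper36) : `hfix`, `hcong`
                           (with `Q = 1`) at the points where two components pass;
* `Rtk6emInputs π V g Φ` : the bundle; `Rtk6emData g Φ y n` : the bundle together with the toric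
                           constants (M5, helper96) for `y` and the exponent `n`.

**Discharged here** (E-BASE): Noetherian charts, `hgt`, `hΦt`, `hgA`, `hgA'`, `hΦA`, `hΦA'`,
`hcl`, `ht`, `hp`, `hpu`, `hζ`, `hunit`, finite dimensionality, `hfin`; (E-RAT, helper12) `hm`,
`hrat`.

**Results.**
* `rtk6em_core`  : `rtk6ew_main_multi` in the concrete setting, general `g`, `Φ`, `Q = 1`;
* `rtk6em_chi`   : `Φ = δ′₀`, `x = δ₀ (σ̂ u₀) / u₀` ⇒ `δ′₀ χ / χ` is a `p ^ k`-th power,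
                   `χ = rtk6eChi … u₀`;
* `rtk6em_unip`  : `Φ = g`, `x = u₀` ⇒ `rtk6eUnip … u₀` is a `p ^ k`-th power;
* `rtk6em_chiFieldPPAt`, `rtk6em_unipFieldPPAt` : **the targets `ChiFieldPPAt L M H r`,
  `UnipFieldPPAt L M H r` of `RT/K6/EFinal.lean` from the data at every `(A, K₁, σ, …)`**, `K₁` a
  Galois number field containing a finite set chosen by the provider of the data.
-/
import Fermat.Agent.RT.K6.EWMulti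
import Fermat.Agent.RT.K6.EFinal
import Fermat.Agent.RT.K6.ERatSupp
import Fermat.Agent.RT.K6.EAsmTor
import Fermat.Agent.RT.K6.DIVertGal
import Fermat.Agent.RT.K6.DIW
import Fermat.Agent.UNIP.MGVertFrob
import Fermat.Agent.UNIP.Beta0Frob
import Fermat.Agent.INJ.ChartFinite

set_option autoImplicit false
set_option linter.style.haveILetI false
set_option linter.unusedSectionVars false
set_option linter.unusedVariables false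

noncomputable section

namespace Fermat.Agent.RT.K6

open ModularCurve AlgebraicCurve Fermat.Agent.ES Fermat.Agent.ES.G2 Fermat.Agent.INJ
open Fermat.Agent.UNIP Fermat.Agent.STB Fermat.Agent.ES1 Fermat.Agent.ES1.G2 IntermediateField

/-! ### The inputs -/

section Inputs

variable (A : ValuationSubring Qb) (K₁ : IntermediateField ℚ Qb)
  (L M : ℕ) (H : Subgroup (ZMod M)ˣ) [IsDiscreteValuationRing ↥(mgcA A K₁)]

/-- **(M1)** the finite family `V` of vertical valuation rings of `F′` (all components of the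
special fibre of the model with charts `zchClosure {t}`, `zchClosure {t⁻¹}` over `A′`). -/
structure Rtk6emFam (π : ↥(mgcA A K₁)) {κ : Type}
    (V : κ → ValuationSubring ↥(rtk6diF A K₁ L M H)) : Prop where
  hfin : Finite κ
  hinj : Function.Injective V
  hBV₁ : ∀ c (b : ↥(rtk6diF A K₁ L M H)),
    IsIntegral ↥(Algebra.adjoin ↥(mgcA A K₁) {rtk6diT A K₁ L M H}) b → b ∈ V c
  hBV₂ : ∀ c (b : ↥(rtk6diF A K₁ L M H)),
    IsIntegral ↥(Algebra.adjoin ↥(mgcA A K₁) {(rtk6diT A K₁ L M H)⁻¹}) b → b ∈ V c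
  hπV : ∀ c, algebraMap ↥(mgcA A K₁) ↥(rtk6diF A K₁ L M H) π ∈ (V c).nonunits
  harch : ∀ c (a x : ↥(rtk6diF A K₁ L M H)), a ∈ (V c).nonunits →
    ∃ N : ℕ, a ^ N * x ∈ (V c).nonunits
  hVloc₁ : ∀ c (x : ↥(rtk6diF A K₁ L M H)), x ∈ V c → ∃ b s : ↥(rtk6diF A K₁ L M H),
    IsIntegral ↥(Algebra.adjoin ↥(mgcA A K₁) {rtk6diT A K₁ L M H}) b ∧
    IsIntegral ↥(Algebra.adjoin ↥(mgcA A K₁) {rtk6diT A K₁ L M H}) s ∧
    s ∉ (V c).nonunits ∧ s * x = b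
  hVloc₂ : ∀ c (x : ↥(rtk6diF A K₁ L M H)), x ∈ V c → ∃ b s : ↥(rtk6diF A K₁ L M H),
    IsIntegral ↥(Algebra.adjoin ↥(mgcA A K₁) {(rtk6diT A K₁ L M H)⁻¹}) b ∧
    IsIntegral ↥(Algebra.adjoin ↥(mgcA A K₁) {(rtk6diT A K₁ L M H)⁻¹}) s ∧
    s ∉ (V c).nonunits ∧ s * x = b

/-- **(SS1-inst)** the special fibre of the chart `zchClosure {t}` is reduced, with components
the `V c`. -/
def Rtk6emSS1 (π : ↥(mgcA A K₁)) {κ : Type}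
    (V : κ → ValuationSubring ↥(rtk6diF A K₁ L M H)) : Prop :=
  ∀ b : ↥(rtk6diF A K₁ L M H),
    IsIntegral ↥(Algebra.adjoin ↥(mgcA A K₁) {rtk6diT A K₁ L M H}) b →
    (∀ c, b ∈ (V c).nonunits) →
    ∃ b' : ↥(rtk6diF A K₁ L M H),
      IsIntegral ↥(Algebra.adjoin ↥(mgcA A K₁) {rtk6diT A K₁ L M H}) b' ∧
      b = algebraMap ↥(mgcA A K₁) ↥(rtk6diF A K₁ L M H) π * b'

/-- **(M4-inst)** `g` preserves every valuation of the family. -/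
def Rtk6emStab {κ : Type} (V : κ → ValuationSubring ↥(rtk6diF A K₁ L M H))
    (g : SemilinearAut ↥(mgcE A K₁) ↥(rtk6diF A K₁ L M H)) : Prop :=
  ∀ c (f : ↥(rtk6diF A K₁ L M H)), f ≠ 0 → (V c).valuation (g • f / f) = 1

/-- **(D-BC) + (C4)** on the chart `zchClosure {u}` (`u = t` or `u = t⁻¹`): an unramified chart
`R` (`j : R →+* B′_u`, `MgcRamified j π p`, `j p = q`) on which every closed point of the special
fibre is a smooth point or a thin crossing point of two components of the family. -/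
def Rtk6emChartAt (π q : ↥(mgcA A K₁)) {κ : Type}
    (V : κ → ValuationSubring ↥(rtk6diF A K₁ L M H)) (u : ↥(rtk6diF A K₁ L M H)) : Prop :=
  ∃ (R : Type) (_ : CommRing R)
    (j : R →+* ↥(zchClosure (A₀ := ↥(mgcA A K₁)) ({u} : Set ↥(rtk6diF A K₁ L M H)))) (p : R),
    MgcRamified j (algebraMap ↥(mgcA A K₁) ↥(zchClosure (A₀ := ↥(mgcA A K₁))
      ({u} : Set ↥(rtk6diF A K₁ L M H))) π) p ∧
    j p = algebraMap ↥(mgcA A K₁) ↥(zchClosure (A₀ := ↥(mgcA A K₁))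
      ({u} : Set ↥(rtk6diF A K₁ L M H))) q ∧
    ∀ 𝔫 : AtPt (F := ↥(rtk6diF A K₁ L M H)) π u, Rtk6ewmNodeAt V 𝔫 j p

/-- **(D-BC) + (C4)**: the dichotomy on the two charts. -/
def Rtk6emNode (π : ↥(mgcA A K₁)) {κ : Type}
    (V : κ → ValuationSubring ↥(rtk6diF A K₁ L M H)) : Prop :=
  ∃ q : ↥(mgcA A K₁), q ≠ 0 ∧ π ∣ q ∧
    Rtk6emChartAt A K₁ L M H π q V (rtk6diT A K₁ L M H) ∧
    Rtk6emChartAt A K₁ L M H π q V (rtk6diT A K₁ L M H)⁻¹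

/-- **(FIX-inst), `hfix`**: `g` fixes the closed points of the chart `zchClosure {u}` through
which two components pass. -/
def Rtk6emFixAt (π : ↥(mgcA A K₁)) {κ : Type}
    (V : κ → ValuationSubring ↥(rtk6diF A K₁ L M H))
    (g : SemilinearAut ↥(mgcE A K₁) ↥(rtk6diF A K₁ L M H)) (u : ↥(rtk6diF A K₁ L M H)) : Prop :=
  ∀ (𝔫 : AtPt (F := ↥(rtk6diF A K₁ L M H)) π u) (c₁ c₂ : κ), c₁ ≠ c₂ →
    atThrough 𝔫 (V c₁) → atThrough 𝔫 (V c₂) → Rtk6ewFix g 𝔫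

/-- **(FIX-inst), `hcong`**: `Φ b ≡ b` modulo the closed points of the chart `zchClosure {u}`
through which two components pass. -/
def Rtk6emCongAt (π : ↥(mgcA A K₁)) {κ : Type}
    (V : κ → ValuationSubring ↥(rtk6diF A K₁ L M H))
    (Φ : SemilinearAut ↥(mgcE A K₁) ↥(rtk6diF A K₁ L M H)) (u : ↥(rtk6diF A K₁ L M H)) : Prop :=
  ∀ (𝔫 : AtPt (F := ↥(rtk6diF A K₁ L M H)) π u) (c₁ c₂ : κ), c₁ ≠ c₂ →
    atThrough 𝔫 (V c₁) → atThrough 𝔫 (V c₂) →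
      Rtk6ewCong (SemilinearAut.toRingAut Φ :
        ↥(rtk6diF A K₁ L M H) ≃+* ↥(rtk6diF A K₁ L M H)).toRingHom 1 𝔫

/-- **The non-formal inputs of piece E** at `(A, K₁)`, for the uniformizer `π` of `A′`, the
family `V` and the automorphisms `g`, `Φ` of `F′`: the hypotheses of `rtk6ew_main_multi`. -/
structure Rtk6emInputs (π : ↥(mgcA A K₁)) {κ : Type}
    (V : κ → ValuationSubring ↥(rtk6diF A K₁ L M H))
    (g Φ : SemilinearAut ↥(mgcE A K₁) ↥(rtk6diF A K₁ L M H)) : Prop where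
  /-- `π` is a uniformizer of `A′` -/
  hπ : Irreducible π
  /-- (M1), helper82 -/
  fam : Rtk6emFam A K₁ L M H π V
  /-- (SS1-inst), helper79 -/
  ss1 : Rtk6emSS1 A K₁ L M H π V
  /-- (M4-inst) for `g`, helper79 -/
  stab_g : Rtk6emStab A K₁ L M H V g
  /-- (M4-inst) for `Φ`, helper79 -/
  stab_Φ : Rtk6emStab A K₁ L M H V Φ
  /-- (D-BC) + (C4), helper56 + helper94 -/
  node : Rtk6emNode A K₁ L M H π V
  /-- (FIX-inst), `hfix₁` -/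
  fix₁ : Rtk6emFixAt A K₁ L M H π V g (rtk6diT A K₁ L M H)
  /-- (FIX-inst), `hfix₂` -/
  fix₂ : Rtk6emFixAt A K₁ L M H π V g (rtk6diT A K₁ L M H)⁻¹
  /-- (FIX-inst), `hcong₁` -/
  cong₁ : Rtk6emCongAt A K₁ L M H π V Φ (rtk6diT A K₁ L M H)
  /-- (FIX-inst), `hcong₂` -/
  cong₂ : Rtk6emCongAt A K₁ L M H π V Φ (rtk6diT A K₁ L M H)⁻¹

/-- **(M5)** the toric constants for `y` and the exponent `n` on the family `V`. -/
def Rtk6emToric {κ : Type} (V : κ → ValuationSubring ↥(rtk6diF A K₁ L M H))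
    (y : ↥(rtk6diF A K₁ L M H)) (n : ℕ) : Prop :=
  ∃ tt : κ → ↥(rtk6diF A K₁ L M H), ∀ c, y / tt c ^ n - 1 ∈ (V c).nonunits

/-- **The data of piece E** at `(A, K₁, g, Φ)` for the function `y` (`= g x / x`) and the
exponent `n`: a uniformizer, a family and the inputs. -/
def Rtk6emData (g Φ : SemilinearAut ↥(mgcE A K₁) ↥(rtk6diF A K₁ L M H))
    (y : ↥(rtk6diF A K₁ L M H)) (n : ℕ) : Prop :=
  ∃ (π : ↥(mgcA A K₁)) (κ : Type) (V : κ → ValuationSubring ↥(rtk6diF A K₁ L M H)),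
    Rtk6emInputs A K₁ L M H π V g Φ ∧ Rtk6emToric A K₁ L M H V y n

end Inputs

/-! ### E-BASE: the formal hypotheses -/

section Base

variable {A : ValuationSubring Qb} {K₁ : IntermediateField ℚ Qb}
  (L M : ℕ) (H : Subgroup (ZMod M)ˣ)

/-- a diamond fixes the constants `A′` -/
theorem rtk6em_hΦA (δ₀ : ↥(rtk6diF A K₁ L M H) ≃ₐ[↥(mgcE A K₁)] ↥(rtk6diF A K₁ L M H)) :
    ∀ α : ↥(mgcA A K₁), ∃ α' : ↥(mgcA A K₁),
      SemilinearAut.ofAlgAut δ₀ • algebraMap ↥(mgcA A K₁) ↥(rtk6diF A K₁ L M H) α =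
        algebraMap ↥(mgcA A K₁) ↥(rtk6diF A K₁ L M H) α' :=
  fun α => ⟨α, δ₀.commutes (α : ↥(mgcE A K₁))⟩

theorem rtk6em_hΦA' (δ₀ : ↥(rtk6diF A K₁ L M H) ≃ₐ[↥(mgcE A K₁)] ↥(rtk6diF A K₁ L M H)) :
    ∀ α : ↥(mgcA A K₁), ∃ α' : ↥(mgcA A K₁),
      (SemilinearAut.ofAlgAut δ₀)⁻¹ • algebraMap ↥(mgcA A K₁) ↥(rtk6diF A K₁ L M H) α =
        algebraMap ↥(mgcA A K₁) ↥(rtk6diF A K₁ L M H) α' := by
  intro α
  refine ⟨α, ?_⟩
  rw [inv_smul_eq_iff]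
  exact (δ₀.commutes (α : ↥(mgcE A K₁))).symm

variable {L M H}

/-- a diamond fixes `t = j` -/
theorem rtk6em_hΦt {c : (ZMod M)ˣ}
    {δ₀ : ↥(rtk6diF A K₁ L M H) ≃ₐ[↥(mgcE A K₁)] ↥(rtk6diF A K₁ L M H)}
    (h : IsDiamondC ↥(mgcE A K₁) L M H c δ₀) :
    SemilinearAut.ofAlgAut δ₀ • rtk6diT A K₁ L M H = rtk6diT A K₁ L M H :=
  h.fix (rtk6diT A K₁ L M H) (jqModC_mem_full ↥(mgcE A K₁) L)

end Base

/-! ### `rtk6ew_main_multi` in the concrete setting -/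

section Main

variable {A : ValuationSubring Qb} {K₁ : IntermediateField ℚ Qb}
  {L M : ℕ} {H : Subgroup (ZMod M)ˣ} [IsDiscreteValuationRing ↥(mgcA A K₁)]

set_option maxHeartbeats 1600000 in
/-- **`rtk6ew_main_multi` in the concrete setting**, general `g`, `Φ`, `Q = 1`: for `x₀ ∈ F′^×`
with `p ^ k ∣ div x₀`, rational support and `y₀ = g x₀ / x₀` toric, `Φ y₀ / y₀` is a
`p ^ k`-th power. -/
theorem rtk6em_core (hL : L ≠ 0) (hML : M ∣ L) {r : ℕ} (hr : r.Prime) (hA : A.LiesOverPrime r)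
    {p : ℕ} (hp : p.Prime) (hpr : p ≠ r)
    {π : ↥(mgcA A K₁)} {κ : Type} {V : κ → ValuationSubring ↥(rtk6diF A K₁ L M H)}
    {g Φ : SemilinearAut ↥(mgcE A K₁) ↥(rtk6diF A K₁ L M H)}
    (hgt : g • rtk6diT A K₁ L M H = rtk6diT A K₁ L M H)
    (hgA : ∀ α : ↥(mgcA A K₁), ∃ α' : ↥(mgcA A K₁),
      g • algebraMap ↥(mgcA A K₁) ↥(rtk6diF A K₁ L M H) α =
        algebraMap ↥(mgcA A K₁) ↥(rtk6diF A K₁ L M H) α')
    (hgA' : ∀ α : ↥(mgcA A K₁), ∃ α' : ↥(mgcA A K₁),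
      g⁻¹ • algebraMap ↥(mgcA A K₁) ↥(rtk6diF A K₁ L M H) α =
        algebraMap ↥(mgcA A K₁) ↥(rtk6diF A K₁ L M H) α')
    (hΦt : Φ • rtk6diT A K₁ L M H = rtk6diT A K₁ L M H)
    (hΦA : ∀ α : ↥(mgcA A K₁), ∃ α' : ↥(mgcA A K₁),
      Φ • algebraMap ↥(mgcA A K₁) ↥(rtk6diF A K₁ L M H) α =
        algebraMap ↥(mgcA A K₁) ↥(rtk6diF A K₁ L M H) α')
    (hΦA' : ∀ α : ↥(mgcA A K₁), ∃ α' : ↥(mgcA A K₁),
      Φ⁻¹ • algebraMap ↥(mgcA A K₁) ↥(rtk6diF A K₁ L M H) α =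
        algebraMap ↥(mgcA A K₁) ↥(rtk6diF A K₁ L M H) α')
    (hI : Rtk6emInputs A K₁ L M H π V g Φ)
    {x₀ : ↥(rtk6diF A K₁ L M H)} (hx₀ : x₀ ≠ 0) (k : ℕ)
    (hm : ∀ P : Place ↥(mgcE A K₁) ↥(rtk6diF A K₁ L M H), ((p ^ k : ℕ) : ℤ) ∣ P.ord x₀)
    (hrat : ∀ P : Place ↥(mgcE A K₁) ↥(rtk6diF A K₁ L M H), P.ord x₀ ≠ 0 →
      ∀ f ∈ P.toValuationSubring, ∃ c : ↥(mgcE A K₁),
        f - algebraMap ↥(mgcE A K₁) ↥(rtk6diF A K₁ L M H) c ∈ P.toValuationSubring.nonunits)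
    (htoric : Rtk6emToric A K₁ L M H V (g • x₀ / x₀) (p ^ k)) :
    ∃ h : ↥(rtk6diF A K₁ L M H), h ^ (p ^ k) = Φ • (g • x₀ / x₀) / (g • x₀ / x₀) := by
  haveI := rtk6di_finiteDimensional A K₁ L M H hL hML
  haveI : Finite κ := hI.fam.hfin
  have ht := rtk6di_transcendental A K₁ L M H
  have ht' : Transcendental ↥(mgcE A K₁) (rtk6diT A K₁ L M H)⁻¹ := zch_transcendental_inv ht
  haveI : FiniteDimensional (↥(mgcE A K₁))⟮(rtk6diT A K₁ L M H)⁻¹⟯ ↥(rtk6diF A K₁ L M H) :=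
    at_finiteDimensional_inv (rtk6diT A K₁ L M H)
  haveI : IsNoetherianRing ↥(zchClosure (A₀ := ↥(mgcA A K₁))
      ({rtk6diT A K₁ L M H} : Set ↥(rtk6diF A K₁ L M H))) :=
    chart_closure_isNoetherianRing (A₀ := ↥(mgcA A K₁)) (E := ↥(mgcE A K₁)) ht
  haveI : IsNoetherianRing ↥(zchClosure (A₀ := ↥(mgcA A K₁))
      ({(rtk6diT A K₁ L M H)⁻¹} : Set ↥(rtk6diF A K₁ L M H))) :=
    chart_closure_isNoetherianRing (A₀ := ↥(mgcA A K₁)) (E := ↥(mgcE A K₁)) ht'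
  have hM : ((p : ℕ) : Qb) ∉ A.nonunits := by
    have := Fermat.Agent.S31.natCast_pow_not_mem_nonunits A hp hr (Ne.symm hpr) hA 1
    rwa [pow_one] at this
  have hE : beta0Field A ≤ mgcE A K₁ := le_sup_left
  obtain ⟨ζ, hζ⟩ := beta0Ring_exists_primitiveRoot (A := A) (K₀ := mgcE A K₁) hE hp.ne_zero hM
  have hpu : IsUnit ((p : ℕ) : ↥(mgcA A K₁)) := beta0Ring_hpu hM
  have hunit := beta0Ring_hunit (A := A) (K₀ := mgcE A K₁) hr hA hE hp.ne_zero hM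
  obtain ⟨q, hq0, hqπ, ⟨R₁, _, j₁, p₁, hram₁, hjp₁, hnode₁⟩,
    ⟨R₂, _, j₂, p₂, hram₂, hjp₂, hnode₂⟩⟩ := hI.node
  obtain ⟨tt, htt⟩ := htoric
  have key := rtk6ew_main_multi hI.hπ ht (rtk6di_hcl A K₁ L M H) hp hpu hζ hunit V
    hI.fam.hinj hI.fam.hBV₁ hI.fam.hBV₂ hI.fam.hπV hI.ss1 hI.fam.harch hI.fam.hVloc₁
    hI.fam.hVloc₂ g hgt hI.stab_g hgA hgA' Φ hΦt hI.stab_Φ hΦA hΦA'
    q hq0 hqπ j₁ p₁ hram₁ hjp₁ j₂ p₂ hram₂ hjp₂ hnode₁ hnode₂ 1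
    hI.fix₁ hI.fix₂
    (SemilinearAut.toRingAut Φ : ↥(rtk6diF A K₁ L M H) ≃+* ↥(rtk6diF A K₁ L M H)).toRingHom
    (fun x => rfl) hI.cong₁ hI.cong₂ hx₀ k
    (rtk6rat_hfin (mgcE A K₁) L M H hL hML x₀ hx₀) hm hrat tt htt
  obtain ⟨h, hh⟩ := key
  refine ⟨h, ?_⟩
  rw [hh, pow_one]
  rfl

end Main

/-! ### The two cases: `Φ` = a diamond at `r` (χ-K), `Φ = g` (UNIP_H) -/

section Cases

variable {A : ValuationSubring Qb} {K₁ : IntermediateField ℚ Qb}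
  {L M : ℕ} {H : Subgroup (ZMod M)ˣ}

theorem rtk6em_field_aux {F : Type*} [Field F] (z a b u : F) (ha : a ≠ 0) (hb : b ≠ 0)
    (hu : u ≠ 0) : z / a / (b / u) = z * u / (a * b) := by
  field_simp

/-- `g x / x = χ` for `x = δ₀ (g u₀) / u₀`, `g = σ̂` -/
theorem rtk6em_chi_eq (σ : Qb ≃ₐ[ℚ] Qb) (hσ : ∀ x ∈ mgcE A K₁, σ x ∈ mgcE A K₁)
    (δ₀ : ↥(rtk6diF A K₁ L M H) ≃ₐ[↥(mgcE A K₁)] ↥(rtk6diF A K₁ L M H))
    {u₀ : ↥(rtk6diF A K₁ L M H)} (hu₀ : u₀ ≠ 0) :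
    rtk6diGal L M H σ hσ • (δ₀ (rtk6diGal L M H σ hσ • u₀) / u₀) /
        (δ₀ (rtk6diGal L M H σ hσ • u₀) / u₀)
      = rtk6eChi (mgcE A K₁) L M H σ hσ δ₀ u₀ := by
  have hg : ∀ a b : ↥(rtk6diF A K₁ L M H), rtk6diGal L M H σ hσ • (a / b) =
      rtk6diGal L M H σ hσ • a / rtk6diGal L M H σ hσ • b := fun a b =>
    map_div₀ (SemilinearAut.toRingAut (rtk6diGal L M H σ hσ)) a b
  have h1 : rtk6diGal L M H σ hσ • u₀ ≠ 0 :=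
    (map_ne_zero (SemilinearAut.toRingAut (rtk6diGal L M H σ hσ))).mpr hu₀
  have h2 : δ₀ (rtk6diGal L M H σ hσ • u₀) ≠ 0 := (map_ne_zero δ₀).mpr h1
  rw [hg, rtk6em_field_aux _ _ _ _ h1 h2 hu₀]
  rfl

/-- `x = δ₀ (g u₀) / u₀ ≠ 0` -/
theorem rtk6em_x_ne_zero (σ : Qb ≃ₐ[ℚ] Qb) (hσ : ∀ x ∈ mgcE A K₁, σ x ∈ mgcE A K₁)
    (δ₀ : ↥(rtk6diF A K₁ L M H) ≃ₐ[↥(mgcE A K₁)] ↥(rtk6diF A K₁ L M H))
    {u₀ : ↥(rtk6diF A K₁ L M H)} (hu₀ : u₀ ≠ 0) :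
    δ₀ (rtk6diGal L M H σ hσ • u₀) / u₀ ≠ 0 :=
  div_ne_zero ((map_ne_zero δ₀).mpr
    ((map_ne_zero (SemilinearAut.toRingAut (rtk6diGal L M H σ hσ))).mpr hu₀)) hu₀

/-- `m ∣ div u₀ ⇒ m ∣ div x`, `x = δ₀ (g u₀) / u₀` -/
theorem rtk6em_dvd_ord_x (σ : Qb ≃ₐ[ℚ] Qb) (hσ : ∀ x ∈ mgcE A K₁, σ x ∈ mgcE A K₁)
    (δ₀ : ↥(rtk6diF A K₁ L M H) ≃ₐ[↥(mgcE A K₁)] ↥(rtk6diF A K₁ L M H))
    (m : ℤ) {u₀ : ↥(rtk6diF A K₁ L M H)} (hu₀ : u₀ ≠ 0)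
    (h : ∀ P : Place ↥(mgcE A K₁) ↥(rtk6diF A K₁ L M H), m ∣ P.ord u₀)
    (P : Place ↥(mgcE A K₁) ↥(rtk6diF A K₁ L M H)) :
    m ∣ P.ord (δ₀ (rtk6diGal L M H σ hσ • u₀) / u₀) := by
  have h1 : ∀ P : Place ↥(mgcE A K₁) ↥(rtk6diF A K₁ L M H),
      m ∣ P.ord (rtk6diGal L M H σ hσ • u₀) :=
    rtk6ea_dvd_ord_smul (rtk6diGal L M H σ hσ) m h
  have h2 : ∀ P : Place ↥(mgcE A K₁) ↥(rtk6diF A K₁ L M H),
      m ∣ P.ord (δ₀ (rtk6diGal L M H σ hσ • u₀)) := fun P =>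
    rtk6ea_dvd_ord_smul (SemilinearAut.ofAlgAut δ₀) m h1 P
  have hne : δ₀ (rtk6diGal L M H σ hσ • u₀) ≠ 0 :=
    (map_ne_zero δ₀).mpr
      ((map_ne_zero (SemilinearAut.toRingAut (rtk6diGal L M H σ hσ))).mpr hu₀)
  rw [div_eq_mul_inv, P.ord_mul hne (inv_ne_zero hu₀), P.ord_inv]
  exact dvd_add (h2 P) ((dvd_neg).mpr (h P))

variable [IsDiscreteValuationRing ↥(mgcA A K₁)]

set_option maxHeartbeats 1600000 in
/-- **(χ-K) over `E′`**: `Φ = δ′₀` (a diamond), `x = δ₀ (σ̂ u₀) / u₀`, `χ = σ̂ x / x`: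
`δ′₀ χ / χ` is a `p ^ k`-th power of `F′`. -/
theorem rtk6em_chi (hL : L ≠ 0) (hML : M ∣ L) {r : ℕ} (hr : r.Prime) (hA : A.LiesOverPrime r)
    {p : ℕ} (hp : p.Prime) (hpr : p ≠ r)
    {σ : Qb ≃ₐ[ℚ] Qb} (hσI : σ ∈ A.inertiaSubgroupIn ℚ)
    {hσ : ∀ x ∈ mgcE A K₁, σ x ∈ mgcE A K₁}
    (δ₀ : ↥(rtk6diF A K₁ L M H) ≃ₐ[↥(mgcE A K₁)] ↥(rtk6diF A K₁ L M H))
    {c' : (ZMod M)ˣ}
    {δ₀' : ↥(rtk6diF A K₁ L M H) ≃ₐ[↥(mgcE A K₁)] ↥(rtk6diF A K₁ L M H)}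
    (hδ₀' : IsDiamondC ↥(mgcE A K₁) L M H c' δ₀')
    {u₀ : ↥(rtk6diF A K₁ L M H)} (hu₀ : u₀ ≠ 0) (k : ℕ)
    (hm : ∀ P : Place ↥(mgcE A K₁) ↥(rtk6diF A K₁ L M H), ((p ^ k : ℕ) : ℤ) ∣ P.ord u₀)
    (hrat : ∀ P : Place ↥(mgcE A K₁) ↥(rtk6diF A K₁ L M H),
      P.ord (δ₀ (rtk6diGal L M H σ hσ • u₀) / u₀) ≠ 0 →
      ∀ f ∈ P.toValuationSubring, ∃ c : ↥(mgcE A K₁),
        f - algebraMap ↥(mgcE A K₁) ↥(rtk6diF A K₁ L M H) c ∈ P.toValuationSubring.nonunits)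
    (hD : Rtk6emData A K₁ L M H (rtk6diGal L M H σ hσ) (SemilinearAut.ofAlgAut δ₀')
      (rtk6eChi (mgcE A K₁) L M H σ hσ δ₀ u₀) (p ^ k)) :
    ∃ h : ↥(rtk6diF A K₁ L M H),
      h ^ (p ^ k) = δ₀' (rtk6eChi (mgcE A K₁) L M H σ hσ δ₀ u₀) /
        rtk6eChi (mgcE A K₁) L M H σ hσ δ₀ u₀ := by
  have hσD : σ ∈ A.decompositionSubgroup ℚ := kron_mem_decomposition_of_mem_inertia hσI
  obtain ⟨π, κ, V, hI, htor⟩ := hD
  have hχ := rtk6em_chi_eq σ hσ δ₀ hu₀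
  rw [← hχ] at htor ⊢
  exact rtk6em_core hL hML hr hA hp hpr (rtk6di_smul_T L M H σ hσ) (rtk6dv_hgA L M H hσD hσ)
    (rtk6dv_hgA_inv L M H hσD hσ) (rtk6em_hΦt hδ₀') (rtk6em_hΦA L M H δ₀')
    (rtk6em_hΦA' L M H δ₀') hI (rtk6em_x_ne_zero σ hσ δ₀ hu₀) k
    (rtk6em_dvd_ord_x σ hσ δ₀ _ hu₀ hm) hrat htor

set_option maxHeartbeats 1600000 in
/-- **(UNIP_H) over `E′`**: `Φ = g = σ̂`, `x = u₀`: `(σ̂ − 1)² u₀` is a `p ^ k`-th power of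
`F′`. -/
theorem rtk6em_unip (hL : L ≠ 0) (hML : M ∣ L) {r : ℕ} (hr : r.Prime) (hA : A.LiesOverPrime r)
    {p : ℕ} (hp : p.Prime) (hpr : p ≠ r)
    {σ : Qb ≃ₐ[ℚ] Qb} (hσI : σ ∈ A.inertiaSubgroupIn ℚ)
    {hσ : ∀ x ∈ mgcE A K₁, σ x ∈ mgcE A K₁}
    {u₀ : ↥(rtk6diF A K₁ L M H)} (hu₀ : u₀ ≠ 0) (k : ℕ)
    (hm : ∀ P : Place ↥(mgcE A K₁) ↥(rtk6diF A K₁ L M H), ((p ^ k : ℕ) : ℤ) ∣ P.ord u₀)
    (hrat : ∀ P : Place ↥(mgcE A K₁) ↥(rtk6diF A K₁ L M H), P.ord u₀ ≠ 0 →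
      ∀ f ∈ P.toValuationSubring, ∃ c : ↥(mgcE A K₁),
        f - algebraMap ↥(mgcE A K₁) ↥(rtk6diF A K₁ L M H) c ∈ P.toValuationSubring.nonunits)
    (hD : Rtk6emData A K₁ L M H (rtk6diGal L M H σ hσ) (rtk6diGal L M H σ hσ)
      (rtk6diGal L M H σ hσ • u₀ / u₀) (p ^ k)) :
    ∃ h : ↥(rtk6diF A K₁ L M H), h ^ (p ^ k) = rtk6eUnip (mgcE A K₁) L M H σ hσ u₀ := by
  have hσD : σ ∈ A.decompositionSubgroup ℚ := kron_mem_decomposition_of_mem_inertia hσI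
  obtain ⟨π, κ, V, hI, htor⟩ := hD
  exact rtk6em_core hL hML hr hA hp hpr (rtk6di_smul_T L M H σ hσ) (rtk6dv_hgA L M H hσD hσ)
    (rtk6dv_hgA_inv L M H hσD hσ) (rtk6di_smul_T L M H σ hσ) (rtk6dv_hgA L M H hσD hσ)
    (rtk6dv_hgA_inv L M H hσD hσ) hI hu₀ k hm hrat htor

end Cases

end Fermat.Agent.RT.K6
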