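/-
K-machine, piece K6, piece **C4-inst (B)** (helper81), concrete part: **`Rtk6emNode` at `K₁`**
(the field `node` of `Rtk6eiGeom`, `RT/K6/EInst.lean`) from the dichotomy at an intermediate
level `K₁′ ≤ K₁`, GENERIC in `K₁′`, in the family `w₁`, `w` and in the embedding `ι`
(case (U): `K₁′ = rtk6ebK q 1`; case (χ): `K₁′ = rtk6ebK r d`).

Inputs (all as hypotheses, in the shapes of their providers):
* (A)    `hA₁`, `hA₂` : `∀ 𝔫₁ : AtPt ϖ₁ u₁, Rtk6ewmNodeAt V₁ 𝔫₁ (RingHom.id _) ϖ₁` on the two charts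
         `u₁ = t₁`, `t₁⁻¹` of `F₁ = rtk6diF A K₁′ (M₁ q) M H` over `A₁ = mgcA A K₁′`
         (C4-U-inst (A), helper37; C4-χ-ASM, helper94);
* (D-BC) `hD₁`, `hD₂` : `∃ j, (j b : F′) = ι b ∧ MgcRamified j π ϖ₁ ∧ j ϖ₁ = q′` (helper56;
         `rtk6c4b_dbc_zch` converts the shape of `rtk6dbc_ramified_gen`);
* (R2)   `hR2` : every component of `V₁` is the restriction along `ι` of a component of `V`
         (FAM-res, helper82 / helper68);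
* (E-BASE) `q′ ≠ 0`, `π ∣ q′` (helper66: `rtk6ebQ_ne_zero`, `rtk6ebQ_dvd_of_irreducible`).

* `rtk6c4b_chartAt` : `Rtk6emChartAt A K₁ L M H π q′ V u`;
* `rtk6c4b_node`    : **`Rtk6emNode A K₁ (M₁ q) M H π (rtk6dfV hπ M H w)`**.
-/
import Fermat.Agent.RT.K6.C4InstB
import Fermat.Agent.RT.K6.EMain
import Fermat.Agent.RT.K6.DIFamMg

set_option autoImplicit false
set_option linter.style.haveILetI false
set_option linter.unusedSectionVars false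
set_option linter.unusedVariables false
set_option linter.style.longLine false

noncomputable section

namespace Fermat.Agent.RT.K6

open ModularCurve AlgebraicCurve Fermat.Agent.ES Fermat.Agent.ES.G2 Fermat.Agent.INJ
open Fermat.Agent.UNIP Fermat.Agent.STB Fermat.Agent.ES1 Fermat.Agent.ES1.G2 IntermediateField

section Chart

variable {A : ValuationSubring Qb} {K₁' K₁ : IntermediateField ℚ Qb}
  [IsDiscreteValuationRing ↥(mgcA A K₁')] [IsDiscreteValuationRing ↥(mgcA A K₁)]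
  {ϖ₁ : ↥(mgcA A K₁')} {π : ↥(mgcA A K₁)} {L M : ℕ} {H : Subgroup (ZMod M)ˣ}
  {κ₁ κ : Type} (V₁ : κ₁ → ValuationSubring ↥(rtk6diF A K₁' L M H))
  (V : κ → ValuationSubring ↥(rtk6diF A K₁ L M H))
  (ι : ↥(rtk6diF A K₁' L M H) →+* ↥(rtk6diF A K₁ L M H))

/-- **`Rtk6emChartAt` at `K₁`** from the dichotomy on the chart `u₁` at the level `K₁′`. -/
theorem rtk6c4b_chartAt {u₁ : ↥(rtk6diF A K₁' L M H)} {u : ↥(rtk6diF A K₁ L M H)}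
    {q' : ↥(mgcA A K₁)}
    (hR2 : ∀ c₁ : κ₁, ∃ c : κ, ∀ x : ↥(rtk6diF A K₁' L M H),
      ι x ∈ (V c).nonunits ↔ x ∈ (V₁ c₁).nonunits)
    (hD : ∃ j : ↥(zchClosure (A₀ := ↥(mgcA A K₁'))
          ({u₁} : Set ↥(rtk6diF A K₁' L M H))) →+*
        ↥(zchClosure (A₀ := ↥(mgcA A K₁)) ({u} : Set ↥(rtk6diF A K₁ L M H))),
      (∀ b, ((j b : ↥(zchClosure (A₀ := ↥(mgcA A K₁))
        ({u} : Set ↥(rtk6diF A K₁ L M H)))) : ↥(rtk6diF A K₁ L M H)) =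
          ι (b : ↥(rtk6diF A K₁' L M H))) ∧
      MgcRamified j
        (algebraMap ↥(mgcA A K₁) ↥(zchClosure (A₀ := ↥(mgcA A K₁))
          ({u} : Set ↥(rtk6diF A K₁ L M H))) π)
        (algebraMap ↥(mgcA A K₁') ↥(zchClosure (A₀ := ↥(mgcA A K₁'))
          ({u₁} : Set ↥(rtk6diF A K₁' L M H))) ϖ₁) ∧
      j (algebraMap ↥(mgcA A K₁') ↥(zchClosure (A₀ := ↥(mgcA A K₁'))
          ({u₁} : Set ↥(rtk6diF A K₁' L M H))) ϖ₁) =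
        algebraMap ↥(mgcA A K₁) ↥(zchClosure (A₀ := ↥(mgcA A K₁))
          ({u} : Set ↥(rtk6diF A K₁ L M H))) q')
    (hA : ∀ 𝔫₁ : AtPt (F := ↥(rtk6diF A K₁' L M H)) ϖ₁ u₁,
      Rtk6ewmNodeAt V₁ 𝔫₁ (RingHom.id _)
        (algebraMap ↥(mgcA A K₁') ↥(zchClosure (A₀ := ↥(mgcA A K₁'))
          ({u₁} : Set ↥(rtk6diF A K₁' L M H))) ϖ₁)) :
    Rtk6emChartAt A K₁ L M H π q' V u := by
  obtain ⟨j, hj, hram, hjp⟩ := hD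
  exact rtk6c4b_chartAt_abs (A₁ := ↥(mgcA A K₁'))
    (F₁ := ↥(rtk6diF A K₁' L M H)) (A' := ↥(mgcA A K₁))
    (F' := ↥(rtk6diF A K₁ L M H)) V₁ V ι j hj hram hjp hR2 hA

end Chart

section Node

variable {A : ValuationSubring Qb} {K₁' K₁ : IntermediateField ℚ Qb}
  [IsDiscreteValuationRing ↥(mgcA A K₁')] [IsDiscreteValuationRing ↥(mgcA A K₁)]
  {ϖ₁ : ↥(mgcA A K₁')} (hϖ₁ : Irreducible ϖ₁) {π : ↥(mgcA A K₁)} (hπ : Irreducible π)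
  {q M₁ : ℕ} [NeZero q] [NeZero M₁] [NeZero (M₁ * q)] (M : ℕ) (H : Subgroup (ZMod M)ˣ)
  (w₁ : ↥(rtk6diF A K₁' (M₁ * q) M H) ≃ₐ[↥(mgcE A K₁')] ↥(rtk6diF A K₁' (M₁ * q) M H))
  (w : ↥(rtk6diF A K₁ (M₁ * q) M H) ≃ₐ[↥(mgcE A K₁)] ↥(rtk6diF A K₁ (M₁ * q) M H))
  (ι : ↥(rtk6diF A K₁' (M₁ * q) M H) →+* ↥(rtk6diF A K₁ (M₁ * q) M H))

/-- **C4-inst (B): `Rtk6emNode` at `K₁`** from the dichotomy on the two charts at the level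
`K₁′ ≤ K₁` (A), the (D-BC) data of the two charts, the restriction of the family (R2) and
(E-BASE). -/
theorem rtk6c4b_node {q' : ↥(mgcA A K₁)} (hq0 : q' ≠ 0) (hqπ : π ∣ q')
    (hR2 : ∀ c₁ : rtk6dfK hϖ₁ M H w₁, ∃ c : rtk6dfK hπ M H w,
      ∀ x : ↥(rtk6diF A K₁' (M₁ * q) M H),
        ι x ∈ (rtk6dfV hπ M H w c).nonunits ↔ x ∈ (rtk6dfV hϖ₁ M H w₁ c₁).nonunits)
    (hD₁ : ∃ j : ↥(zchClosure (A₀ := ↥(mgcA A K₁'))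
          ({rtk6diT A K₁' (M₁ * q) M H} : Set ↥(rtk6diF A K₁' (M₁ * q) M H))) →+*
        ↥(zchClosure (A₀ := ↥(mgcA A K₁))
          ({rtk6diT A K₁ (M₁ * q) M H} : Set ↥(rtk6diF A K₁ (M₁ * q) M H))),
      (∀ b, ((j b : ↥(zchClosure (A₀ := ↥(mgcA A K₁))
        ({rtk6diT A K₁ (M₁ * q) M H} : Set ↥(rtk6diF A K₁ (M₁ * q) M H)))) :
          ↥(rtk6diF A K₁ (M₁ * q) M H)) = ι (b : ↥(rtk6diF A K₁' (M₁ * q) M H))) ∧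
      MgcRamified j
        (algebraMap ↥(mgcA A K₁) ↥(zchClosure (A₀ := ↥(mgcA A K₁))
          ({rtk6diT A K₁ (M₁ * q) M H} : Set ↥(rtk6diF A K₁ (M₁ * q) M H))) π)
        (algebraMap ↥(mgcA A K₁') ↥(zchClosure (A₀ := ↥(mgcA A K₁'))
          ({rtk6diT A K₁' (M₁ * q) M H} : Set ↥(rtk6diF A K₁' (M₁ * q) M H))) ϖ₁) ∧
      j (algebraMap ↥(mgcA A K₁') ↥(zchClosure (A₀ := ↥(mgcA A K₁'))
          ({rtk6diT A K₁' (M₁ * q) M H} : Set ↥(rtk6diF A K₁' (M₁ * q) M H))) ϖ₁) =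
        algebraMap ↥(mgcA A K₁) ↥(zchClosure (A₀ := ↥(mgcA A K₁))
          ({rtk6diT A K₁ (M₁ * q) M H} : Set ↥(rtk6diF A K₁ (M₁ * q) M H))) q')
    (hD₂ : ∃ j : ↥(zchClosure (A₀ := ↥(mgcA A K₁'))
          ({(rtk6diT A K₁' (M₁ * q) M H)⁻¹} : Set ↥(rtk6diF A K₁' (M₁ * q) M H))) →+*
        ↥(zchClosure (A₀ := ↥(mgcA A K₁))
          ({(rtk6diT A K₁ (M₁ * q) M H)⁻¹} : Set ↥(rtk6diF A K₁ (M₁ * q) M H))),
      (∀ b, ((j b : ↥(zchClosure (A₀ := ↥(mgcA A K₁))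
        ({(rtk6diT A K₁ (M₁ * q) M H)⁻¹} : Set ↥(rtk6diF A K₁ (M₁ * q) M H)))) :
          ↥(rtk6diF A K₁ (M₁ * q) M H)) = ι (b : ↥(rtk6diF A K₁' (M₁ * q) M H))) ∧
      MgcRamified j
        (algebraMap ↥(mgcA A K₁) ↥(zchClosure (A₀ := ↥(mgcA A K₁))
          ({(rtk6diT A K₁ (M₁ * q) M H)⁻¹} : Set ↥(rtk6diF A K₁ (M₁ * q) M H))) π)
        (algebraMap ↥(mgcA A K₁') ↥(zchClosure (A₀ := ↥(mgcA A K₁'))
          ({(rtk6diT A K₁' (M₁ * q) M H)⁻¹} : Set ↥(rtk6diF A K₁' (M₁ * q) M H))) ϖ₁) ∧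
      j (algebraMap ↥(mgcA A K₁') ↥(zchClosure (A₀ := ↥(mgcA A K₁'))
          ({(rtk6diT A K₁' (M₁ * q) M H)⁻¹} : Set ↥(rtk6diF A K₁' (M₁ * q) M H))) ϖ₁) =
        algebraMap ↥(mgcA A K₁) ↥(zchClosure (A₀ := ↥(mgcA A K₁))
          ({(rtk6diT A K₁ (M₁ * q) M H)⁻¹} : Set ↥(rtk6diF A K₁ (M₁ * q) M H))) q')
    (hA₁ : ∀ 𝔫₁ : AtPt (F := ↥(rtk6diF A K₁' (M₁ * q) M H)) ϖ₁ (rtk6diT A K₁' (M₁ * q) M H),
      Rtk6ewmNodeAt (rtk6dfV hϖ₁ M H w₁) 𝔫₁ (RingHom.id _)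
        (algebraMap ↥(mgcA A K₁') ↥(zchClosure (A₀ := ↥(mgcA A K₁'))
          ({rtk6diT A K₁' (M₁ * q) M H} : Set ↥(rtk6diF A K₁' (M₁ * q) M H))) ϖ₁))
    (hA₂ : ∀ 𝔫₁ : AtPt (F := ↥(rtk6diF A K₁' (M₁ * q) M H)) ϖ₁
        (rtk6diT A K₁' (M₁ * q) M H)⁻¹,
      Rtk6ewmNodeAt (rtk6dfV hϖ₁ M H w₁) 𝔫₁ (RingHom.id _)
        (algebraMap ↥(mgcA A K₁') ↥(zchClosure (A₀ := ↥(mgcA A K₁'))
          ({(rtk6diT A K₁' (M₁ * q) M H)⁻¹} : Set ↥(rtk6diF A K₁' (M₁ * q) M H))) ϖ₁)) :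
    Rtk6emNode A K₁ (M₁ * q) M H π (rtk6dfV hπ M H w) :=
  ⟨q', hq0, hqπ,
    rtk6c4b_chartAt (rtk6dfV hϖ₁ M H w₁) (rtk6dfV hπ M H w) ι hR2 hD₁ hA₁,
    rtk6c4b_chartAt (rtk6dfV hϖ₁ M H w₁) (rtk6dfV hπ M H w) ι hR2 hD₂ hA₂⟩

end Node

end Fermat.Agent.RT.K6
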