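/-
K-machine, piece K6, piece **D-BC** (helper56), arithmetic stage: the relative ramification data
of `A₁ = A ∩ (E₀ ⊔ K₁′) ⊆ A′ = A ∩ (E₀ ⊔ K₁)` for Galois number fields `K₁′ ≤ K₁`
(`E₀ = beta0Field A = ℚ̄ ^ I`).

* `rtk6dbc_finrank_le_of_adjoin` : `E = K[x]`, `g` monic with root `x` ⇒ `[E : K] ≤ deg g`;
* `rtk6dbc_finrank_eq`  : `[E₀ ⊔ F : E₀] = beta0Deg A F` (`F / ℚ` finite Galois);
* `rtk6dbc_arith` : `A′` is integral over `A₁`, and for every uniformizer `ϖ₁` of `A₁` there are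
  a uniformizer `π′` of `A′`, `e` with `π′ ^ e ∣ ϖ₁`, a monic `g₀ ∈ A₁[X]` of degree `≤ e` with
  root `π′`, and `E′ = E₁[π′]` — the arithmetic inputs of `rtk6dbc_ramified_gen`
  (`RT/K6/DBC.lean`) for the base change `A₁ → A′`.
-/
import Fermat.Agent.UNIP.Beta0Inst

set_option autoImplicit false
set_option linter.style.haveILetI false
set_option linter.unusedSectionVars false
set_option linter.unusedVariables false

open Polynomial IntermediateField Fermat.Agent.UNIP

namespace Fermat.Agent.RT.K6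

section Generic

/-- `E = K[x]`, `g` monic with root `x` ⇒ `E / K` is finite of degree `≤ deg g`. -/
theorem rtk6dbc_finrank_le_of_adjoin {K E : Type*} [Field K] [Field E] [Algebra K E] {x : E}
    (hadj : Algebra.adjoin K ({x} : Set E) = ⊤) {g : K[X]} (hg : g.Monic)
    (hroot : aeval x g = 0) :
    FiniteDimensional K E ∧ Module.finrank K E ≤ g.natDegree := by
  have hx : IsIntegral K x := ⟨g, hg, hroot⟩
  have htop : K⟮x⟯ = ⊤ := by
    apply IntermediateField.toSubalgebra_injective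
    rw [IntermediateField.adjoin_simple_toSubalgebra_of_isAlgebraic hx.isAlgebraic, hadj,
      IntermediateField.top_toSubalgebra]
  have hfin : FiniteDimensional K (⊤ : IntermediateField K E) := by
    rw [← htop]
    exact IntermediateField.adjoin.finiteDimensional hx
  haveI : FiniteDimensional K E :=
    (IntermediateField.topEquiv (F := K) (E := E)).toLinearEquiv.finiteDimensional
  refine ⟨inferInstance, ?_⟩
  rw [← IntermediateField.finrank_top', ← htop, IntermediateField.adjoin.finrank hx]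
  exact natDegree_le_natDegree (minpoly.min K x hg hroot)

/-- adjoining over a bigger base field -/
theorem rtk6dbc_adjoin_top_of_tower {K K' E : Type*} [Field K] [Field K'] [Field E]
    [Algebra K K'] [Algebra K E] [Algebra K' E] [IsScalarTower K K' E] {x : E}
    (hadj : Algebra.adjoin K ({x} : Set E) = ⊤) :
    Algebra.adjoin K' ({x} : Set E) = ⊤ := by
  have hle : Algebra.adjoin K ({x} : Set E) ≤
      (Algebra.adjoin K' ({x} : Set E)).restrictScalars K := by
    apply Algebra.adjoin_le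
    intro z hz
    exact (Subalgebra.mem_restrictScalars K).mpr (Algebra.subset_adjoin hz)
  apply top_le_iff.mp
  intro y _
  have hy : y ∈ Algebra.adjoin K ({x} : Set E) := by
    rw [hadj]
    exact Algebra.mem_top
  exact (Subalgebra.mem_restrictScalars K).mp (hle hy)

/-- the degree of the top step of a tower -/
theorem rtk6dbc_tower_finrank {K K' E : Type*} [Field K] [Field K'] [Field E]
    [Algebra K K'] [Algebra K E] [Algebra K' E] [IsScalarTower K K' E]
    [FiniteDimensional K E] {n₁ n e : ℕ} (h1 : Module.finrank K K' = n₁)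
    (hp : Module.finrank K E = n) (hen : e * n₁ = n) (hn₁ : 0 < n₁) :
    FiniteDimensional K' E ∧ Module.finrank K' E = e := by
  haveI : FiniteDimensional K' E := FiniteDimensional.right K K' E
  refine ⟨inferInstance, ?_⟩
  have htower := Module.finrank_mul_finrank K K' E
  rw [h1, hp, ← hen, mul_comm] at htower
  exact Nat.eq_of_mul_eq_mul_right hn₁ htower

/-- the degree of the minimal polynomial over an integrally closed domain is at most the degree
of the extension of the fraction fields -/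
theorem rtk6dbc_minpoly_natDegree_le {R S K E : Type*} [CommRing R] [IsDomain R]
    [IsIntegrallyClosed R] [CommRing S] [IsDomain S] [Algebra R S] [Field K] [Algebra R K]
    [IsFractionRing R K] [Field E] [Algebra R E] [Algebra S E] [Algebra K E]
    [IsScalarTower R K E] [IsScalarTower R S E] [FiniteDimensional K E] {s : S}
    (hs : IsIntegral R s) : (minpoly R s).natDegree ≤ Module.finrank K E := by
  have h1 := minpoly.isIntegrallyClosed_eq_field_fractions K E hs
  have h2 : (minpoly K (algebraMap S E s)).natDegree ≤ Module.finrank K E :=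
    minpoly.natDegree_le _
  rw [h1, (minpoly.monic hs).natDegree_map] at h2
  exact h2

end Generic

section Degree

variable {A : ValuationSubring (AlgebraicClosure ℚ)}
  (F : IntermediateField ℚ (AlgebraicClosure ℚ)) [NumberField F] [IsGalois ℚ F] {q : ℕ}

/-- `[E₀ ⊔ F : E₀] = beta0Deg A F`, and the extension is finite. -/
theorem rtk6dbc_finrank_eq (hq : q.Prime) (hA : A.LiesOverPrime q) :
    letI := beta0InstFieldAlgebra A F
    FiniteDimensional ↥(beta0Field A) ↥(beta0Field A ⊔ F) ∧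
      Module.finrank ↥(beta0Field A) ↥(beta0Field A ⊔ F) = beta0Deg A F := by
  letI := beta0InstAlgebra A F
  letI := beta0InstFieldAlgebra A F
  letI := beta0InstAlgebraTop A F
  haveI := beta0Inst_isScalarTower A F
  haveI := beta0Inst_isScalarTower' A F
  obtain ⟨π, -, hπ0, -, hπF, hπ1, hπn, -, ⟨g, hgm, hgroot, -, hgdeg⟩, hadj, halg⟩ :=
    beta0Inst_main (A := A) F hq hA
  have hroot' : aeval (π : ↥(beta0Field A ⊔ F))
      (g.map (algebraMap ↥(beta0Ring A (beta0Field A)) ↥(beta0Field A))) = 0 := by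
    rw [aeval_map_algebraMap]
    have h1 := aeval_algebraMap_apply (↥(beta0Field A ⊔ F)) π g
    rw [hgroot, map_zero] at h1
    exact h1
  obtain ⟨hfin, hle⟩ := rtk6dbc_finrank_le_of_adjoin hadj
    (hgm.map (algebraMap ↥(beta0Ring A (beta0Field A)) ↥(beta0Field A))) hroot'
  rw [hgm.natDegree_map, hgdeg] at hle
  refine ⟨hfin, le_antisymm hle ?_⟩
  have hπ0' : ((π : ↥(beta0Field A ⊔ F)) : AlgebraicClosure ℚ) ≠ 0 := by
    intro h0
    apply hπ0
    apply Subtype.ext
    apply Subtype.ext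
    exact h0
  have hli : LinearIndependent ↥(beta0Field A)
      (fun i : Fin (beta0Deg A F) => (π : ↥(beta0Field A ⊔ F)) ^ (i : ℕ)) := by
    rw [Fintype.linearIndependent_iff]
    intro c hc i
    have hsum : ∑ i, ((c i : ↥(beta0Field A)) : AlgebraicClosure ℚ) *
        ((π : ↥(beta0Field A ⊔ F)) : AlgebraicClosure ℚ) ^ (i : ℕ) = 0 := by
      have := congrArg (fun z : ↥(beta0Field A ⊔ F) => (z : AlgebraicClosure ℚ)) hc
      simp only [Algebra.smul_def, AddSubmonoidClass.coe_finsetSum, MulMemClass.coe_mul,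
        SubmonoidClass.coe_pow, ZeroMemClass.coe_zero] at this
      exact this
    have := beta0_sum_eq_zero hq hA hπ0' hπ1 hπn
      (fun i => ((c i : ↥(beta0Field A)) : AlgebraicClosure ℚ)) (fun i => (c i).2) hsum i
    exact Subtype.ext this
  have := hli.fintype_card_le_finrank
  rwa [Fintype.card_fin] at this

end Degree

section Arith

variable {A : ValuationSubring (AlgebraicClosure ℚ)} {q : ℕ}

/-- associated elements of `A ∩ K₀` have the same value -/
theorem rtk6dbc_val_eq_of_associated {K₀ : IntermediateField ℚ (AlgebraicClosure ℚ)}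
    {x y : ↥(beta0Ring A K₀)} (h : Associated x y) :
    A.valuation (((x : ↥K₀)) : AlgebraicClosure ℚ) =
      A.valuation (((y : ↥K₀)) : AlgebraicClosure ℚ) := by
  obtain ⟨u, hu⟩ := h
  have h1 := (beta0Ring_isUnit_iff (u : ↥(beta0Ring A K₀))).mp u.isUnit
  have h2 : (((y : ↥K₀)) : AlgebraicClosure ℚ) =
      (((x : ↥K₀)) : AlgebraicClosure ℚ) *
        ((((u : ↥(beta0Ring A K₀)) : ↥K₀)) : AlgebraicClosure ℚ) := by
    rw [← hu]
    rfl
  rw [h2, map_mul, h1, mul_one]

variable {K₁' K₁ : IntermediateField ℚ (AlgebraicClosure ℚ)}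
  [NumberField K₁'] [IsGalois ℚ K₁'] [NumberField K₁] [IsGalois ℚ K₁]

/-- **D-BC, arithmetic stage.**  `K₁′ ≤ K₁` Galois number fields, `A₁ = A ∩ (E₀ ⊔ K₁′)`,
`A′ = A ∩ (E₀ ⊔ K₁)`: `A′` is integral over `A₁`; for every uniformizer `ϖ₁` of `A₁` there are a
uniformizer `π′` of `A′`, `e` with `π′ ^ e ∣ ϖ₁`, a monic `g₀ ∈ A₁[X]` of degree `≤ e` with root
`π′`, and `E′ = E₁[π′]`. -/
theorem rtk6dbc_arith (hq : q.Prime) (hA : A.LiesOverPrime q) (h : K₁' ≤ K₁)
    {ϖ₁ : ↥(beta0Ring A (beta0Field A ⊔ K₁'))} (hϖ₁ : Irreducible ϖ₁) :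
    letI := beta0FieldAlgebra (sup_le_sup_left h (beta0Field A))
    letI : Algebra ↥(beta0Ring A (beta0Field A ⊔ K₁')) ↥(beta0Ring A (beta0Field A ⊔ K₁)) :=
      (beta0RingIncl (A := A) (sup_le_sup_left h (beta0Field A))).toAlgebra
    Algebra.IsIntegral ↥(beta0Ring A (beta0Field A ⊔ K₁'))
        ↥(beta0Ring A (beta0Field A ⊔ K₁)) ∧
    ∃ (π' : ↥(beta0Ring A (beta0Field A ⊔ K₁))) (e : ℕ)
      (g₀ : (↥(beta0Ring A (beta0Field A ⊔ K₁')))[X]),
      Irreducible π' ∧
      π' ^ e ∣ algebraMap ↥(beta0Ring A (beta0Field A ⊔ K₁'))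
        ↥(beta0Ring A (beta0Field A ⊔ K₁)) ϖ₁ ∧
      g₀.Monic ∧ aeval π' g₀ = 0 ∧ g₀.natDegree ≤ e ∧
      Algebra.adjoin ↥(beta0Field A ⊔ K₁')
        ({(π' : ↥(beta0Field A ⊔ K₁))} : Set ↥(beta0Field A ⊔ K₁)) = ⊤ ∧
      IsAlgebraic ↥(beta0Field A ⊔ K₁') (π' : ↥(beta0Field A ⊔ K₁)) := by
  have hle : beta0Field A ⊔ K₁' ≤ beta0Field A ⊔ K₁ := sup_le_sup_left h _
  letI algF01 := beta0InstFieldAlgebra A K₁'
  letI algF0p := beta0InstFieldAlgebra A K₁
  letI algF1p := beta0FieldAlgebra hle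
  letI alg01 := beta0InstAlgebra A K₁'
  letI alg0p := beta0InstAlgebra A K₁
  letI alg1p : Algebra ↥(beta0Ring A (beta0Field A ⊔ K₁'))
      ↥(beta0Ring A (beta0Field A ⊔ K₁)) := (beta0RingIncl (A := A) hle).toAlgebra
  letI alg1E : Algebra ↥(beta0Ring A (beta0Field A ⊔ K₁')) ↥(beta0Field A ⊔ K₁) :=
    ((algebraMap ↥(beta0Field A ⊔ K₁') ↥(beta0Field A ⊔ K₁)).comp
      (algebraMap ↥(beta0Ring A (beta0Field A ⊔ K₁')) ↥(beta0Field A ⊔ K₁'))).toAlgebra
  haveI towF : IsScalarTower ↥(beta0Field A) ↥(beta0Field A ⊔ K₁') ↥(beta0Field A ⊔ K₁) :=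
    IsScalarTower.of_algebraMap_eq (fun x => rfl)
  haveI tow : IsScalarTower ↥(beta0Ring A (beta0Field A)) ↥(beta0Ring A (beta0Field A ⊔ K₁'))
      ↥(beta0Ring A (beta0Field A ⊔ K₁)) := IsScalarTower.of_algebraMap_eq (fun x => rfl)
  haveI tow1 : IsScalarTower ↥(beta0Ring A (beta0Field A ⊔ K₁')) ↥(beta0Field A ⊔ K₁')
      ↥(beta0Field A ⊔ K₁) := IsScalarTower.of_algebraMap_eq (fun x => rfl)
  haveI tow2 : IsScalarTower ↥(beta0Ring A (beta0Field A ⊔ K₁'))
      ↥(beta0Ring A (beta0Field A ⊔ K₁)) ↥(beta0Field A ⊔ K₁) :=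
    IsScalarTower.of_algebraMap_eq (fun x => rfl)
  haveI dvr1 := beta0Ring_isDVR_sup (A := A) K₁' hq hA
  haveI dvrp := beta0Ring_isDVR_sup (A := A) K₁ hq hA
  haveI int0 := beta0Inst_isIntegral (A := A) K₁ hq hA
  have hint : Algebra.IsIntegral ↥(beta0Ring A (beta0Field A ⊔ K₁'))
      ↥(beta0Ring A (beta0Field A ⊔ K₁)) :=
    Algebra.IsIntegral.tower_top (R := ↥(beta0Ring A (beta0Field A)))
  refine ⟨hint, ?_⟩
  obtain ⟨π₁, hπ₁irr, -, -, -, hπ₁1, hπ₁n, -, -, -, -⟩ := beta0Inst_main (A := A) K₁' hq hA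
  obtain ⟨π', hπ'irr, hπ'0, -, -, hπ'1, hπ'n, -, -, hadj, halg⟩ :=
    beta0Inst_main (A := A) K₁ hq hA
  -- the values
  have hv1 : A.valuation (((ϖ₁ : ↥(beta0Field A ⊔ K₁'))) : AlgebraicClosure ℚ) =
      A.valuation (((π₁ : ↥(beta0Field A ⊔ K₁'))) : AlgebraicClosure ℚ) :=
    rtk6dbc_val_eq_of_associated
      (IsDiscreteValuationRing.associated_of_irreducible _ hϖ₁ hπ₁irr)
  have hqq0 : algebraMap ↥(beta0Ring A (beta0Field A ⊔ K₁'))
      ↥(beta0Ring A (beta0Field A ⊔ K₁)) ϖ₁ ≠ 0 := by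
    intro h0
    apply hϖ₁.ne_zero
    apply beta0RingIncl_injective (A := A) hle
    rw [map_zero]
    exact h0
  obtain ⟨e, he⟩ := IsDiscreteValuationRing.associated_pow_irreducible hqq0 hπ'irr
  have hve : A.valuation (((ϖ₁ : ↥(beta0Field A ⊔ K₁'))) : AlgebraicClosure ℚ) =
      A.valuation (((π' : ↥(beta0Field A ⊔ K₁))) : AlgebraicClosure ℚ) ^ e := by
    have h1 := rtk6dbc_val_eq_of_associated he
    rw [← map_pow]
    exact h1
  have hγ0 : 0 < A.valuation (((π' : ↥(beta0Field A ⊔ K₁))) : AlgebraicClosure ℚ) := by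
    rw [zero_lt_iff, Valuation.ne_zero_iff]
    intro h0
    apply hπ'0
    apply Subtype.ext
    apply Subtype.ext
    exact h0
  have hen : e * beta0Deg A K₁' = beta0Deg A K₁ := by
    have h1 : A.valuation (((π' : ↥(beta0Field A ⊔ K₁))) : AlgebraicClosure ℚ) ^
        (e * beta0Deg A K₁') =
        A.valuation (((π' : ↥(beta0Field A ⊔ K₁))) : AlgebraicClosure ℚ) ^ (beta0Deg A K₁) := by
      rw [pow_mul, ← hve, hv1, hπ₁n, hπ'n]
    exact pow_right_injective₀ hγ0 hπ'1.ne h1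
  -- the degrees
  obtain ⟨fin1, rank1⟩ := rtk6dbc_finrank_eq (A := A) K₁' hq hA
  obtain ⟨finp, rankp⟩ := rtk6dbc_finrank_eq (A := A) K₁ hq hA
  obtain ⟨fin1p, hrank⟩ := rtk6dbc_tower_finrank (K := ↥(beta0Field A))
    (K' := ↥(beta0Field A ⊔ K₁')) (E := ↥(beta0Field A ⊔ K₁)) rank1 rankp hen
    (beta0Deg_pos (A := A) (F := K₁'))
  -- the polynomial
  have hπ'int : IsIntegral ↥(beta0Ring A (beta0Field A ⊔ K₁')) π' := hint.isIntegral π'
  have hdeg : (minpoly ↥(beta0Ring A (beta0Field A ⊔ K₁')) π').natDegree ≤ e := by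
    have h2 := rtk6dbc_minpoly_natDegree_le (K := ↥(beta0Field A ⊔ K₁'))
      (E := ↥(beta0Field A ⊔ K₁)) hπ'int
    rw [hrank] at h2
    exact h2
  exact ⟨π', e, minpoly ↥(beta0Ring A (beta0Field A ⊔ K₁')) π', hπ'irr, he.symm.dvd,
    minpoly.monic hπ'int, minpoly.aeval _ _, hdeg,
    rtk6dbc_adjoin_top_of_tower (K := ↥(beta0Field A)) (K' := ↥(beta0Field A ⊔ K₁')) hadj,
    beta0FieldAlgebra_isAlgebraic hle _⟩

end Arith

end Fermat.Agent.RT.K6
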