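/-
K-machine, piece K6, piece **D-BC** (helper56), field part: `fieldC E' L M H = fieldC E₀ L M H (α)`
if `E' = E₀(α)`.  Fork of `UNIP/MGChartsField.lean` with `modularFunctionFieldFullC K N` replaced by
`fieldC K L M H` and `mgcEmb` by `rtk6diCoeffHom L M H (algebraMap E₀ E')` (`RT/K6/DISetup.lean`).

* `rtk6dbcAlgebra E₀ E' L M H : Algebra (fieldC E₀ L M H) (fieldC E' L M H)`;
* `rtk6dbc_subfield_eq_top`, `rtk6dbc_adjoin_eq_top` : a subfield of `fieldC E' L M H` containing
  the image of `fieldC E₀ L M H` and a generator `α` of `E' / E₀` is everything;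
* `rtk6dbc_algebra_adjoin_eq_top` : `Algebra.adjoin (fieldC E₀ L M H) {α} = ⊤` for `α` algebraic
  over `E₀` (the hypothesis `htop` of `UNIP.mgc_ramified`).
-/
import Fermat.Agent.RT.K6.DISetup

set_option autoImplicit false
set_option linter.style.haveILetI false
set_option linter.unusedSectionVars false

open ModularCurve Fermat.Agent.INJ Fermat.Agent.ES1

namespace Fermat.Agent.RT.K6

section Field

variable (E₀ E' : Type*) [Field E₀] [Field E'] [Algebra E₀ E']
  (L M : ℕ) (H : Subgroup (ZMod M)ˣ)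

/-- The algebra structure of `fieldC E' L M H` over `fieldC E₀ L M H`. -/
@[reducible]
noncomputable def rtk6dbcAlgebra : Algebra (fieldC E₀ L M H) (fieldC E' L M H) :=
  (rtk6diCoeffHom L M H (algebraMap E₀ E')).toAlgebra

/-- the generators `j(Q^d)` -/
theorem rtk6dbc_coeffHom_jqd {d : ℕ} [NeZero d] (hd : d ∣ L) :
    rtk6diCoeffHom L M H (algebraMap E₀ E')
        ⟨qExpand E₀ d (jqModC E₀), jd_mem_fieldC E₀ L M H hd⟩
      = ⟨qExpand E' d (jqModC E'), jd_mem_fieldC E' L M H hd⟩ := by
  apply Subtype.ext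
  exact coeffMap_jqNModC (algebraMap E₀ E') d

/-- the generators `S_{M,H,a}(Q^e)` -/
theorem rtk6dbc_coeffHom_sS {e : ℕ} [NeZero e] (he : e * M ∣ L) (a : (ZMod M)ˣ) :
    rtk6diCoeffHom L M H (algebraMap E₀ E')
        ⟨qExpand E₀ e (sS E₀ M H a), qExpand_sS_mem E₀ L M H he a⟩
      = ⟨qExpand E' e (sS E' M H a), qExpand_sS_mem E' L M H he a⟩ := by
  apply Subtype.ext
  exact es1f_coeffMap_qExpand_sS (algebraMap E₀ E') M H a e

/-- A subfield of `fieldC E' L M H` containing the image of `fieldC E₀ L M H` and the constants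
`E'` is everything. -/
theorem rtk6dbc_subfield_eq_top (S : Subfield (fieldC E' L M H))
    (hK : ∀ x : fieldC E₀ L M H, rtk6diCoeffHom L M H (algebraMap E₀ E') x ∈ S)
    (hE : ∀ c : E', algebraMap E' (fieldC E' L M H) c ∈ S) : S = ⊤ := by
  rw [eq_top_iff]
  rintro ⟨y, hy⟩ -
  have key : ∀ (z : LaurentSeries E') (hz : z ∈ fieldC E' L M H),
      (⟨z, hz⟩ : fieldC E' L M H) ∈ S := by
    intro z hz
    unfold fieldC at hz
    induction hz using IntermediateField.adjoin_induction with
    | mem x hx =>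
      rcases hx with ⟨d, hd, hdN, rfl⟩ | ⟨e, he, a, heL, rfl⟩
      · have := hK ⟨qExpand E₀ d (jqModC E₀), jd_mem_fieldC E₀ L M H hdN⟩
        rw [rtk6dbc_coeffHom_jqd E₀ E' L M H hdN] at this
        exact this
      · have := hK ⟨qExpand E₀ e (sS E₀ M H a), qExpand_sS_mem E₀ L M H heL a⟩
        rw [rtk6dbc_coeffHom_sS E₀ E' L M H heL a] at this
        exact this
    | algebraMap c =>
      have h1 := hE c
      have h2 : algebraMap E' (fieldC E' L M H) c
          = ⟨algebraMap E' (LaurentSeries E') c,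
              (fieldC E' L M H).algebraMap_mem c⟩ :=
        Subtype.ext (IntermediateField.coe_algebraMap_apply _ c)
      rw [h2] at h1
      exact h1
    | add x y hx hy ihx ihy =>
      have := S.add_mem ihx ihy
      exact this
    | inv x hx ihx =>
      have := S.inv_mem ihx
      exact this
    | mul x y hx hy ihx ihy =>
      have := S.mul_mem ihx ihy
      exact this
  exact key y hy

/-- A subfield of `fieldC E' L M H` containing the image of `fieldC E₀ L M H` and a generator `α`
of `E'` over `E₀` is everything. -/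
theorem rtk6dbc_adjoin_eq_top {α : E'} (hα : Algebra.adjoin E₀ ({α} : Set E') = ⊤)
    (S : Subfield (fieldC E' L M H))
    (hK : ∀ x : fieldC E₀ L M H, rtk6diCoeffHom L M H (algebraMap E₀ E') x ∈ S)
    (hαS : algebraMap E' (fieldC E' L M H) α ∈ S) : S = ⊤ := by
  refine rtk6dbc_subfield_eq_top E₀ E' L M H S hK fun c => ?_
  have hc : c ∈ Algebra.adjoin E₀ ({α} : Set E') := by rw [hα]; exact Algebra.mem_top
  induction hc using Algebra.adjoin_induction with
  | mem x hx =>
    rw [Set.mem_singleton_iff] at hx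
    rw [hx]
    exact hαS
  | algebraMap r =>
    rw [← rtk6diCoeffHom_algebraMap]
    exact hK _
  | add x y _ _ ihx ihy =>
    rw [map_add]
    exact S.add_mem ihx ihy
  | mul x y _ _ ihx ihy =>
    rw [map_mul]
    exact S.mul_mem ihx ihy

/-- `fieldC E' L M H = fieldC E₀ L M H [α]` if `E' = E₀[α]`, `α` algebraic over `E₀`. -/
theorem rtk6dbc_algebra_adjoin_eq_top {α : E'} (hα : Algebra.adjoin E₀ ({α} : Set E') = ⊤)
    (halg : IsAlgebraic E₀ α) :
    letI := rtk6dbcAlgebra E₀ E' L M H
    Algebra.adjoin (fieldC E₀ L M H)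
      ({algebraMap E' (fieldC E' L M H) α} : Set (fieldC E' L M H)) = ⊤ := by
  letI := rtk6dbcAlgebra E₀ E' L M H
  -- `α` is algebraic over `fieldC E₀ L M H`
  have halg' : IsAlgebraic (fieldC E₀ L M H)
      (algebraMap E' (fieldC E' L M H) α) := by
    obtain ⟨P, hP0, hP⟩ := halg
    refine ⟨P.map (algebraMap E₀ (fieldC E₀ L M H)),
      (Polynomial.map_ne_zero_iff (algebraMap E₀ _).injective).2 hP0, ?_⟩
    have h1 : (algebraMap (fieldC E₀ L M H) (fieldC E' L M H)).comp
        (algebraMap E₀ (fieldC E₀ L M H))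
        = (algebraMap E' (fieldC E' L M H)).comp (algebraMap E₀ E') :=
      RingHom.ext fun c => rtk6diCoeffHom_algebraMap L M H (algebraMap E₀ E') c
    rw [Polynomial.aeval_def, Polynomial.eval₂_map, h1, ← Polynomial.eval₂_map,
      Polynomial.eval₂_hom, Polynomial.eval_map, ← Polynomial.aeval_def, hP, map_zero]
  rw [← IntermediateField.adjoin_simple_toSubalgebra_of_isAlgebraic halg']
  have htop : (IntermediateField.adjoin (fieldC E₀ L M H)
      ({algebraMap E' (fieldC E' L M H) α} : Set (fieldC E' L M H))).toSubfield = ⊤ :=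
    rtk6dbc_adjoin_eq_top E₀ E' L M H hα _
      (fun x => IntermediateField.algebraMap_mem _ x)
      (IntermediateField.subset_adjoin _ _ (Set.mem_singleton _))
  rw [eq_top_iff]
  intro y _
  have : y ∈ (IntermediateField.adjoin (fieldC E₀ L M H)
      ({algebraMap E' (fieldC E' L M H) α} : Set (fieldC E' L M H))).toSubfield := by
    rw [htop]; exact Subfield.mem_top y
  exact this

end Field

end Fermat.Agent.RT.K6
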