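/-
K-machine, piece K6, piece **D-BC** (helper56), abstract stage: base change of the charts of
`fieldC · L M H` along an extension of discrete valuation rings.

`A₀ ⊆ A'` discrete valuation rings with fraction fields `E₀ → E'` (characteristic `0`),
`K = fieldC E₀ L M H`, `F = fieldC E' L M H`, `K → F` the coefficientwise embedding
`rtk6diCoeffHom L M H (algebraMap E₀ E')`; `τ : K` a coordinate with image `t : F`;
`R₁ = integralClosure A₀[τ] K` (the chart over `A₀`), `B' = zchClosure {t}` (the chart over `A'`).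

`rtk6dbc_ramified_gen` : instance of `UNIP.mgc_ramified` (MG-4): there is `j : R₁ →+* B'`, the
coefficientwise inclusion, with `MgcRamified j π' π` and `j π = (image of π in A')`
— the hypotheses `hram₁`, `hjp₁` (`hram₂`, `hjp₂`) of `rtk6ew_main_multi` (`RT/K6/EWMulti.lean`)
with `p₁ := π`, `q := algebraMap A₀ A' π`.
-/
import Fermat.Agent.RT.K6.DBCField
import Fermat.Agent.UNIP.MGChartsMain
import Fermat.Agent.INJ.ZariskiCharts

set_option autoImplicit false
set_option linter.style.haveILetI false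
set_option linter.unusedSectionVars false
set_option linter.unusedVariables false

open Polynomial IntermediateField Fermat.Agent.INJ Fermat.Agent.UNIP Fermat.Agent.ES1
  AlgebraicCurve ModularCurve

namespace Fermat.Agent.RT.K6

section Modular

universe u v

variable {A₀ E₀ : Type u} [CommRing A₀] [IsDomain A₀] [IsDiscreteValuationRing A₀]
  [Field E₀] [CharZero E₀] [Algebra A₀ E₀] [IsFractionRing A₀ E₀]
  {A' E' : Type v} [CommRing A'] [IsDomain A'] [IsDiscreteValuationRing A']
  [Field E'] [CharZero E'] [Algebra A' E'] [IsFractionRing A' E']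
  [Algebra E₀ E'] [Algebra A₀ A'] (L M : ℕ) (H : Subgroup (ZMod M)ˣ)
  [Algebra A₀ (fieldC E₀ L M H)]
  [IsScalarTower A₀ E₀ (fieldC E₀ L M H)]
  [Algebra A' (fieldC E' L M H)]
  [IsScalarTower A' E' (fieldC E' L M H)]

/-- The `A₀`-algebra structure of `fieldC E' L M H` through `fieldC E₀ L M H`. -/
@[reducible]
noncomputable def rtk6dbcAlgebraA : Algebra A₀ (fieldC E' L M H) :=
  ((rtk6diCoeffHom L M H (algebraMap E₀ E')).comp
    (algebraMap A₀ (fieldC E₀ L M H))).toAlgebra

theorem rtk6dbc_isScalarTower :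
    letI := rtk6dbcAlgebra E₀ E' L M H
    letI := rtk6dbcAlgebraA (A₀ := A₀) (E₀ := E₀) (E' := E') L M H
    IsScalarTower A₀ (fieldC E₀ L M H) (fieldC E' L M H) := by
  letI := rtk6dbcAlgebra E₀ E' L M H
  letI := rtk6dbcAlgebraA (A₀ := A₀) (E₀ := E₀) (E' := E') L M H
  apply IsScalarTower.of_algebraMap_eq
  intro a
  rfl

theorem rtk6dbc_isScalarTower'
    (hcomp : ∀ a : A₀, algebraMap A' E' (algebraMap A₀ A' a) =
      algebraMap E₀ E' (algebraMap A₀ E₀ a)) :
    letI := rtk6dbcAlgebraA (A₀ := A₀) (E₀ := E₀) (E' := E') L M H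
    IsScalarTower A₀ A' (fieldC E' L M H) := by
  letI := rtk6dbcAlgebraA (A₀ := A₀) (E₀ := E₀) (E' := E') L M H
  apply IsScalarTower.of_algebraMap_eq
  intro a
  show rtk6diCoeffHom L M H (algebraMap E₀ E') (algebraMap A₀ (fieldC E₀ L M H) a) = _
  rw [IsScalarTower.algebraMap_apply A₀ E₀ (fieldC E₀ L M H), rtk6diCoeffHom_algebraMap,
    IsScalarTower.algebraMap_apply A' E' (fieldC E' L M H), hcomp]

/-- `fieldC E' L M H = fieldC E₀ L M H [π']`. -/
theorem rtk6dbc_htop {π' : A'}
    (hadj : Algebra.adjoin E₀ ({algebraMap A' E' π'} : Set E') = ⊤)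
    (halg : IsAlgebraic E₀ (algebraMap A' E' π')) :
    letI := rtk6dbcAlgebra E₀ E' L M H
    Algebra.adjoin (fieldC E₀ L M H)
      ({algebraMap A' (fieldC E' L M H) π'} : Set (fieldC E' L M H)) = ⊤ := by
  letI := rtk6dbcAlgebra E₀ E' L M H
  rw [IsScalarTower.algebraMap_apply A' E' (fieldC E' L M H)]
  exact rtk6dbc_algebra_adjoin_eq_top E₀ E' L M H hadj halg

/-- **D-BC, abstract stage.**  The chart `B' = zchClosure {t}` of `fieldC E' L M H` over the
ramified base `A'` has the same special fibre as the chart `R₁ = integralClosure A₀[τ]` of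
`fieldC E₀ L M H` over `A₀`: the coefficientwise inclusion `j : R₁ →+* B'` satisfies
`MgcRamified j π' π`, and `j π` is the image of `π` in `A'`. -/
theorem rtk6dbc_ramified_gen
    (hcomp : ∀ a : A₀, algebraMap A' E' (algebraMap A₀ A' a) =
      algebraMap E₀ E' (algebraMap A₀ E₀ a))
    [Algebra.IsIntegral A₀ A']
    {π : A₀} (hπ : Irreducible π) (τ : fieldC E₀ L M H)
    [FiniteDimensional E₀⟮τ⟯ (fieldC E₀ L M H)]
    (hπu : ¬ IsUnit (algebraMap A₀
      (integralClosure (Algebra.adjoin A₀ {τ}) (fieldC E₀ L M H)) π))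
    (hred : ∀ c : integralClosure (Algebra.adjoin A₀ {τ}) (fieldC E₀ L M H),
      algebraMap A₀ (integralClosure (Algebra.adjoin A₀ {τ}) (fieldC E₀ L M H)) π ∣ c ^ 2 →
      algebraMap A₀ (integralClosure (Algebra.adjoin A₀ {τ}) (fieldC E₀ L M H)) π ∣ c)
    {π' : A'} (hπ'0 : π' ≠ 0) (hπ'u : ¬ IsUnit π') {e : ℕ}
    (hram : π' ^ e ∣ algebraMap A₀ A' π)
    (g₀ : A₀[X]) (hgm : g₀.Monic) (hroot : aeval π' g₀ = 0) (hdeg : g₀.natDegree ≤ e)
    (hadj : Algebra.adjoin E₀ ({algebraMap A' E' π'} : Set E') = ⊤)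
    (halg : IsAlgebraic E₀ (algebraMap A' E' π'))
    {t : fieldC E' L M H} (ht : rtk6diCoeffHom L M H (algebraMap E₀ E') τ = t) :
    ∃ j : ↥(integralClosure (Algebra.adjoin A₀ {τ}) (fieldC E₀ L M H)) →+*
        ↥(zchClosure (A₀ := A') ({t} : Set (fieldC E' L M H))),
      (∀ b, ((j b : ↥(zchClosure (A₀ := A') ({t} : Set (fieldC E' L M H)))) :
          fieldC E' L M H) = rtk6diCoeffHom L M H (algebraMap E₀ E') (b : fieldC E₀ L M H)) ∧
      MgcRamified j
        (algebraMap A' ↥(zchClosure (A₀ := A') ({t} : Set (fieldC E' L M H))) π')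
        (algebraMap A₀ (integralClosure (Algebra.adjoin A₀ {τ}) (fieldC E₀ L M H)) π) ∧
      j (algebraMap A₀ (integralClosure (Algebra.adjoin A₀ {τ}) (fieldC E₀ L M H)) π) =
        algebraMap A' ↥(zchClosure (A₀ := A') ({t} : Set (fieldC E' L M H)))
          (algebraMap A₀ A' π) := by
  letI := rtk6dbcAlgebra E₀ E' L M H
  letI := rtk6dbcAlgebraA (A₀ := A₀) (E₀ := E₀) (E' := E') L M H
  haveI := rtk6dbc_isScalarTower (A₀ := A₀) (E₀ := E₀) (E' := E') L M H
  haveI := rtk6dbc_isScalarTower' (A₀ := A₀) (E₀ := E₀) (A' := A') (E' := E') L M H hcomp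
  subst ht
  have hinj : Function.Injective
      (algebraMap ↥(zchClosure (A₀ := A')
        ({algebraMap (fieldC E₀ L M H) (fieldC E' L M H) τ} : Set (fieldC E' L M H)))
        (fieldC E' L M H)) :=
    Subtype.val_injective
  have hB : ∀ y : fieldC E' L M H,
      y ∈ (algebraMap ↥(zchClosure (A₀ := A')
        ({algebraMap (fieldC E₀ L M H) (fieldC E' L M H) τ} : Set (fieldC E' L M H)))
        (fieldC E' L M H)).range ↔
        IsIntegral (Algebra.adjoin A'
          ({algebraMap (fieldC E₀ L M H) (fieldC E' L M H) τ} : Set (fieldC E' L M H))) y := by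
    intro y
    constructor
    · rintro ⟨b, rfl⟩
      exact mem_zchClosure.mp b.2
    · intro hy
      exact ⟨⟨y, mem_zchClosure.mpr hy⟩, rfl⟩
  obtain ⟨j, hj, hR⟩ := mgc_ramified (E₀ := E₀)
    (B' := ↥(zchClosure (A₀ := A')
      ({algebraMap (fieldC E₀ L M H) (fieldC E' L M H) τ} : Set (fieldC E' L M H))))
    hπ τ hπu hred hπ'0 hπ'u hram g₀ hgm hroot hdeg
    (rtk6dbc_htop (E₀ := E₀) L M H hadj halg) hinj hB
  refine ⟨j, fun b => hj b, hR, ?_⟩
  apply hinj
  rw [hj]
  show algebraMap A₀ (fieldC E' L M H) π =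
    algebraMap A' (fieldC E' L M H) (algebraMap A₀ A' π)
  exact IsScalarTower.algebraMap_apply A₀ A' (fieldC E' L M H) π

end Modular

end Fermat.Agent.RT.K6
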