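/-
K-machine, piece K6, piece **D-BC** (helper56), abstract stage, `zchClosure` form.

Same as `rtk6dbc_ramified_gen` (`RT/K6/DBC.lean`) with the SOURCE chart written as
`↥(zchClosure (A₀ := A₀) {τ})` (the form used by C4 and by `Rtk6emChartAt`), `hπu` discharged
(`INJ.tsg_not_isUnit`), and for ANY uniformizer of `A'` (`MgcRamified` only depends on `π'` up to
a unit).
-/
import Fermat.Agent.RT.K6.DBC
import Fermat.Agent.INJ.TSGlue

set_option autoImplicit false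
set_option linter.style.haveILetI false
set_option linter.unusedSectionVars false
set_option linter.unusedVariables false

open Polynomial IntermediateField Fermat.Agent.INJ Fermat.Agent.UNIP Fermat.Agent.ES1
  AlgebraicCurve ModularCurve

namespace Fermat.Agent.RT.K6

section Assoc

/-- `MgcRamified j ϖ p` only depends on `ϖ` up to a unit. -/
theorem rtk6dbc_ramified_of_associated {R R' : Type*} [CommRing R] [CommRing R']
    {j : R →+* R'} {ϖ ϖ' : R'} {p : R} (h : Associated ϖ ϖ') (hR : MgcRamified j ϖ p) :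
    MgcRamified j ϖ' p := by
  refine ⟨h.symm.dvd.trans hR.dvd, ?_, fun c hc => hR.cancel c (h.dvd.trans hc)⟩
  obtain ⟨u, hu⟩ := h
  intro x
  obtain ⟨c, z, hz⟩ := hR.decomp x
  refine ⟨c, ((u⁻¹ : R'ˣ) : R') * z, ?_⟩
  rw [hz, ← hu, mul_assoc, ← mul_assoc (u : R'), Units.mul_inv, one_mul]

end Assoc

section Modular

universe u v

variable {A₀ E₀ : Type u} [CommRing A₀] [IsDomain A₀] [IsDiscreteValuationRing A₀]
  [Field E₀] [CharZero E₀] [Algebra A₀ E₀] [IsFractionRing A₀ E₀]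
  {A' E' : Type v} [CommRing A'] [IsDomain A'] [IsDiscreteValuationRing A']
  [Field E'] [CharZero E'] [Algebra A' E'] [IsFractionRing A' E']
  [Algebra E₀ E'] [Algebra A₀ A'] (L M : ℕ) (H : Subgroup (ZMod M)ˣ)
  [Algebra A₀ (fieldC E₀ L M H)]
  [IsScalarTower A₀ E₀ (fieldC E₀ L M H)]
  [Algebra A' (fieldC E' L M H)]
  [IsScalarTower A' E' (fieldC E' L M H)]

/-- `zchClosure {τ} → integralClosure A₀[τ]`, the identity on elements -/
def rtk6dbcZchTo (τ : fieldC E₀ L M H)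
    (x : ↥(zchClosure (A₀ := A₀) ({τ} : Set (fieldC E₀ L M H)))) :
    ↥(integralClosure (Algebra.adjoin A₀ {τ}) (fieldC E₀ L M H)) :=
  ⟨x.1, mem_zchClosure.mp x.2⟩

/-- `integralClosure A₀[τ] → zchClosure {τ}`, the identity on elements -/
def rtk6dbcZchOf (τ : fieldC E₀ L M H)
    (x : ↥(integralClosure (Algebra.adjoin A₀ {τ}) (fieldC E₀ L M H))) :
    ↥(zchClosure (A₀ := A₀) ({τ} : Set (fieldC E₀ L M H))) :=
  ⟨x.1, mem_zchClosure.mpr x.2⟩

theorem rtk6dbcZchTo_of (τ : fieldC E₀ L M H)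
    (x : ↥(integralClosure (Algebra.adjoin A₀ {τ}) (fieldC E₀ L M H))) :
    rtk6dbcZchTo (A₀ := A₀) L M H τ (rtk6dbcZchOf (A₀ := A₀) L M H τ x) = x := rfl

theorem rtk6dbcZchOf_to (τ : fieldC E₀ L M H)
    (x : ↥(zchClosure (A₀ := A₀) ({τ} : Set (fieldC E₀ L M H)))) :
    rtk6dbcZchOf (A₀ := A₀) L M H τ (rtk6dbcZchTo (A₀ := A₀) L M H τ x) = x := rfl

theorem rtk6dbcZchTo_one (τ : fieldC E₀ L M H) :
    rtk6dbcZchTo (A₀ := A₀) L M H τ 1 = 1 := Subtype.ext rfl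

theorem rtk6dbcZchTo_zero (τ : fieldC E₀ L M H) :
    rtk6dbcZchTo (A₀ := A₀) L M H τ 0 = 0 := Subtype.ext rfl

theorem rtk6dbcZchTo_mul (τ : fieldC E₀ L M H)
    (x y : ↥(zchClosure (A₀ := A₀) ({τ} : Set (fieldC E₀ L M H)))) :
    rtk6dbcZchTo (A₀ := A₀) L M H τ (x * y) =
      rtk6dbcZchTo (A₀ := A₀) L M H τ x * rtk6dbcZchTo (A₀ := A₀) L M H τ y := Subtype.ext rfl

theorem rtk6dbcZchTo_add (τ : fieldC E₀ L M H)
    (x y : ↥(zchClosure (A₀ := A₀) ({τ} : Set (fieldC E₀ L M H)))) :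
    rtk6dbcZchTo (A₀ := A₀) L M H τ (x + y) =
      rtk6dbcZchTo (A₀ := A₀) L M H τ x + rtk6dbcZchTo (A₀ := A₀) L M H τ y := Subtype.ext rfl

theorem rtk6dbcZchOf_mul (τ : fieldC E₀ L M H)
    (x y : ↥(integralClosure (Algebra.adjoin A₀ {τ}) (fieldC E₀ L M H))) :
    rtk6dbcZchOf (A₀ := A₀) L M H τ (x * y) =
      rtk6dbcZchOf (A₀ := A₀) L M H τ x * rtk6dbcZchOf (A₀ := A₀) L M H τ y := Subtype.ext rfl

theorem rtk6dbcZchTo_algebraMap (τ : fieldC E₀ L M H) (a : A₀) :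
    rtk6dbcZchTo (A₀ := A₀) L M H τ
      (algebraMap A₀ ↥(zchClosure (A₀ := A₀) ({τ} : Set (fieldC E₀ L M H))) a) =
      algebraMap A₀ (integralClosure (Algebra.adjoin A₀ {τ}) (fieldC E₀ L M H)) a :=
  Subtype.ext rfl

theorem rtk6dbcZchOf_algebraMap (τ : fieldC E₀ L M H) (a : A₀) :
    rtk6dbcZchOf (A₀ := A₀) L M H τ
      (algebraMap A₀ (integralClosure (Algebra.adjoin A₀ {τ}) (fieldC E₀ L M H)) a) =
      algebraMap A₀ ↥(zchClosure (A₀ := A₀) ({τ} : Set (fieldC E₀ L M H))) a :=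
  Subtype.ext rfl

/-- divisibility is the same in `zchClosure {τ}` and in `integralClosure A₀[τ]` -/
theorem rtk6dbcZch_dvd_to (τ : fieldC E₀ L M H)
    {x y : ↥(zchClosure (A₀ := A₀) ({τ} : Set (fieldC E₀ L M H)))} (h : x ∣ y) :
    rtk6dbcZchTo (A₀ := A₀) L M H τ x ∣ rtk6dbcZchTo (A₀ := A₀) L M H τ y := by
  obtain ⟨d, hd⟩ := h
  exact ⟨rtk6dbcZchTo (A₀ := A₀) L M H τ d, by rw [hd, rtk6dbcZchTo_mul]⟩

theorem rtk6dbcZch_dvd_of (τ : fieldC E₀ L M H)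
    {x y : ↥(integralClosure (Algebra.adjoin A₀ {τ}) (fieldC E₀ L M H))} (h : x ∣ y) :
    rtk6dbcZchOf (A₀ := A₀) L M H τ x ∣ rtk6dbcZchOf (A₀ := A₀) L M H τ y := by
  obtain ⟨d, hd⟩ := h
  exact ⟨rtk6dbcZchOf (A₀ := A₀) L M H τ d, by rw [hd, rtk6dbcZchOf_mul]⟩

/-- a ring homomorphism out of `integralClosure A₀[τ]` as a ring homomorphism out of
`zchClosure {τ}` -/
noncomputable def rtk6dbcZchHom {S : Type*} [CommRing S] (τ : fieldC E₀ L M H)
    (j : ↥(integralClosure (Algebra.adjoin A₀ {τ}) (fieldC E₀ L M H)) →+* S) :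
    ↥(zchClosure (A₀ := A₀) ({τ} : Set (fieldC E₀ L M H))) →+* S where
  toFun x := j (rtk6dbcZchTo (A₀ := A₀) L M H τ x)
  map_one' := by rw [rtk6dbcZchTo_one]; exact j.map_one
  map_mul' x y := by rw [rtk6dbcZchTo_mul]; exact j.map_mul _ _
  map_zero' := by rw [rtk6dbcZchTo_zero]; exact j.map_zero
  map_add' x y := by rw [rtk6dbcZchTo_add]; exact j.map_add _ _

theorem rtk6dbcZchHom_apply {S : Type*} [CommRing S] (τ : fieldC E₀ L M H)
    (j : ↥(integralClosure (Algebra.adjoin A₀ {τ}) (fieldC E₀ L M H)) →+* S)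
    (x : ↥(zchClosure (A₀ := A₀) ({τ} : Set (fieldC E₀ L M H)))) :
    rtk6dbcZchHom (A₀ := A₀) L M H τ j x = j (rtk6dbcZchTo (A₀ := A₀) L M H τ x) := rfl

/-- transport of `MgcRamified` to the source `zchClosure {τ}` -/
theorem rtk6dbc_ramified_zchHom {S : Type*} [CommRing S] (τ : fieldC E₀ L M H)
    {j : ↥(integralClosure (Algebra.adjoin A₀ {τ}) (fieldC E₀ L M H)) →+* S} {ϖ : S} {a : A₀}
    (hR : MgcRamified j ϖ
      (algebraMap A₀ (integralClosure (Algebra.adjoin A₀ {τ}) (fieldC E₀ L M H)) a)) :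
    MgcRamified (rtk6dbcZchHom (A₀ := A₀) L M H τ j) ϖ
      (algebraMap A₀ ↥(zchClosure (A₀ := A₀) ({τ} : Set (fieldC E₀ L M H))) a) := by
  refine ⟨?_, ?_, ?_⟩
  · rw [rtk6dbcZchHom_apply, rtk6dbcZchTo_algebraMap]
    exact hR.dvd
  · intro x
    obtain ⟨c, z, hz⟩ := hR.decomp x
    refine ⟨rtk6dbcZchOf (A₀ := A₀) L M H τ c, z, ?_⟩
    rw [rtk6dbcZchHom_apply, rtk6dbcZchTo_of]
    exact hz
  · intro c hc
    rw [rtk6dbcZchHom_apply] at hc
    have h1 := rtk6dbcZch_dvd_of (A₀ := A₀) L M H τ (hR.cancel _ hc)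
    rw [rtk6dbcZchOf_algebraMap, rtk6dbcZchOf_to] at h1
    exact h1

/-- **D-BC, abstract stage, `zchClosure` form.**  `π` a uniformizer of `A₀`, `π'` ANY uniformizer
of `A'`, `π₀` a uniformizer of `A'` with the ramification data `e`, `g₀`, `hadj`; the special
fibre of the chart `zchClosure {τ}` over `A₀` reduced.  Then the coefficientwise inclusion
`j : zchClosure {τ} →+* zchClosure {t}` satisfies `MgcRamified j π' π` and
`j π = algebraMap A₀ A' π`. -/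
theorem rtk6dbc_ramified_zch
    (hcomp : ∀ a : A₀, algebraMap A' E' (algebraMap A₀ A' a) =
      algebraMap E₀ E' (algebraMap A₀ E₀ a))
    [Algebra.IsIntegral A₀ A']
    {π : A₀} (hπ : Irreducible π) (τ : fieldC E₀ L M H) (hτ : Transcendental E₀ τ)
    [FiniteDimensional E₀⟮τ⟯ (fieldC E₀ L M H)]
    (hred : ∀ c : ↥(zchClosure (A₀ := A₀) ({τ} : Set (fieldC E₀ L M H))),
      algebraMap A₀ ↥(zchClosure (A₀ := A₀) ({τ} : Set (fieldC E₀ L M H))) π ∣ c ^ 2 →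
      algebraMap A₀ ↥(zchClosure (A₀ := A₀) ({τ} : Set (fieldC E₀ L M H))) π ∣ c)
    {π' : A'} (hπ' : Irreducible π')
    {π₀ : A'} (hπ₀ : Irreducible π₀) {e : ℕ}
    (hram : π₀ ^ e ∣ algebraMap A₀ A' π)
    (g₀ : A₀[X]) (hgm : g₀.Monic) (hroot : aeval π₀ g₀ = 0) (hdeg : g₀.natDegree ≤ e)
    (hadj : Algebra.adjoin E₀ ({algebraMap A' E' π₀} : Set E') = ⊤)
    (halg : IsAlgebraic E₀ (algebraMap A' E' π₀))
    {t : fieldC E' L M H} (ht : rtk6diCoeffHom L M H (algebraMap E₀ E') τ = t) :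
    ∃ j : ↥(zchClosure (A₀ := A₀) ({τ} : Set (fieldC E₀ L M H))) →+*
        ↥(zchClosure (A₀ := A') ({t} : Set (fieldC E' L M H))),
      (∀ b, ((j b : ↥(zchClosure (A₀ := A') ({t} : Set (fieldC E' L M H)))) :
          fieldC E' L M H) = rtk6diCoeffHom L M H (algebraMap E₀ E') (b : fieldC E₀ L M H)) ∧
      MgcRamified j
        (algebraMap A' ↥(zchClosure (A₀ := A') ({t} : Set (fieldC E' L M H))) π')
        (algebraMap A₀ ↥(zchClosure (A₀ := A₀) ({τ} : Set (fieldC E₀ L M H))) π) ∧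
      j (algebraMap A₀ ↥(zchClosure (A₀ := A₀) ({τ} : Set (fieldC E₀ L M H))) π) =
        algebraMap A' ↥(zchClosure (A₀ := A') ({t} : Set (fieldC E' L M H)))
          (algebraMap A₀ A' π) := by
  have hred' : ∀ c : integralClosure (Algebra.adjoin A₀ {τ}) (fieldC E₀ L M H),
      algebraMap A₀ (integralClosure (Algebra.adjoin A₀ {τ}) (fieldC E₀ L M H)) π ∣ c ^ 2 →
      algebraMap A₀ (integralClosure (Algebra.adjoin A₀ {τ}) (fieldC E₀ L M H)) π ∣ c := by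
    intro c hc
    have h1 := rtk6dbcZch_dvd_of (A₀ := A₀) L M H τ hc
    rw [rtk6dbcZchOf_algebraMap, pow_two, rtk6dbcZchOf_mul, ← pow_two] at h1
    have h2 := rtk6dbcZch_dvd_to (A₀ := A₀) L M H τ (hred _ h1)
    rw [rtk6dbcZchTo_algebraMap, rtk6dbcZchTo_of] at h2
    exact h2
  have hπu := tsg_not_isUnit (A₀ := A₀) (E := E₀) (Lf := fieldC E₀ L M H) hτ hπ
  obtain ⟨j, hj, hR, hjp⟩ := rtk6dbc_ramified_gen (A₀ := A₀) (E₀ := E₀) (A' := A') (E' := E')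
    L M H hcomp hπ τ hπu hred' hπ₀.ne_zero hπ₀.not_isUnit hram g₀ hgm hroot
    hdeg hadj halg ht
  refine ⟨rtk6dbcZchHom (A₀ := A₀) L M H τ j, fun b => hj _, ?_, ?_⟩
  · exact rtk6dbc_ramified_of_associated
      ((IsDiscreteValuationRing.associated_of_irreducible _ hπ₀ hπ').map
        (algebraMap A' ↥(zchClosure (A₀ := A') ({t} : Set (fieldC E' L M H)))))
      (rtk6dbc_ramified_zchHom (A₀ := A₀) L M H τ hR)
  · rw [rtk6dbcZchHom_apply, rtk6dbcZchTo_algebraMap]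
    exact hjp

end Modular

end Fermat.Agent.RT.K6
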