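/-
K-machine, piece K6 / D-E (helper74): the valuation of the Kummer generator at `v_0` is prime
to `p` — ABSTRACT CORE (Mathlib + ES/Kronecker + S15 tame symbols).

`L ⊇ ℚ` algebraic, `A` a valuation subring of `L` over the prime `r`, `σ` in the inertia group.
A Laurent series `z ≠ 0` over `L` has CONTENT `c` if `z · y₂ = c · y₁` with `y₁`, `y₂` primitive
(`KronPrim`); the content is unique up to a unit of `A` (`rtk6de_content_unique`).

* `rtk6de_symbol` : if `σ z = ζ z` (on coefficients) then `σ c / c ≡ ζ` modulo `𝔪_A`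
  (the tame symbol of the content is the eigenvalue).
* `rtk6de_core`   : if `v(c)^d = v(r)^n₀`, `p ∣ d` and `θ_c(σ)^(d/p) ≠ 1`, then `p ∤ n₀`.
* `rtk6de_main`   : `σ z = ζ z`, `ζ^d = 1`, `ζ^(d/p) ≠ 1`, `p ≠ r`, `v(c)^d = v(r)^n₀` ⇒ `p ∤ n₀`.
* `rtk6de_main'`  : the same with `z^d = r^n₀ · ε`, `ε` of unit content.
In the application `z = w y` (`y` the Kummer generator, `w = w_r`), `ζ = ψ(c(σ))`,
`u₀ = y^d`, `n₀ = v_0(u₀)`.
-/
import Fermat.Agent.ES.Kronecker
import Fermat.Agent.S15.ToricTame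

set_option autoImplicit false
set_option linter.unusedSectionVars false
set_option linter.unusedVariables false

noncomputable section

namespace Fermat.Agent.RT.K6

open ModularCurve HahnSeries Fermat.Agent.ES Fermat.Agent.S05 Fermat.Agent.S15

section Content

variable {L : Type*} [Field L] (A : ValuationSubring L)

lemma rtk6de_C_mul_coeff (a : L) (f : LaurentSeries L) (n : ℤ) :
    (HahnSeries.C a * f).coeff n = a * f.coeff n := by
  rw [HahnSeries.C_mul_eq_smul, HahnSeries.coeff_smul, smul_eq_mul]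

/-- a scalar multiple of a primitive series which is integral has an integral scalar -/
lemma rtk6de_scalar_mem {P P' : LaurentSeries L} (hP : KronPrim A P) (hP' : KronInt A P')
    (a : L) (h : HahnSeries.C a * P = P') : a ∈ A := by
  obtain ⟨n, hn⟩ := hP.2
  have h1 : a * P.coeff n ∈ A := by
    rw [← rtk6de_C_mul_coeff, h]
    exact hP' n
  have h2 : A.valuation (P.coeff n) = 1 := by
    have h3 : A.valuation (P.coeff n) ≤ 1 := (A.valuation_le_one_iff _).2 (hP.1 n)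
    rcases lt_or_eq_of_le h3 with h4 | h4
    · exact absurd ((ValuationSubring.mem_nonunits_iff A).2 h4) hn
    · exact h4
  rw [← A.valuation_le_one_iff] at h1 ⊢
  rwa [map_mul, h2, mul_one] at h1

/-- two primitive series which are proportional: the ratio is a unit -/
lemma rtk6de_scalar_of_prim {P P' : LaurentSeries L} (hP : KronPrim A P) (hP' : KronPrim A P')
    {a b : L} (ha : a ≠ 0) (hb : b ≠ 0) (h : HahnSeries.C a * P = HahnSeries.C b * P') :
    A.valuation a = A.valuation b := by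
  have hCa : (HahnSeries.C a : LaurentSeries L) ≠ 0 :=
    (map_ne_zero_iff _ HahnSeries.C_injective).mpr ha
  have hCb : (HahnSeries.C b : LaurentSeries L) ≠ 0 :=
    (map_ne_zero_iff _ HahnSeries.C_injective).mpr hb
  have h1 : HahnSeries.C (a / b) * P = P' := by
    rw [map_div₀, div_mul_eq_mul_div, h, mul_div_assoc, mul_comm, div_mul_cancel₀ _ hCb]
  have h2 : HahnSeries.C (b / a) * P' = P := by
    rw [map_div₀, div_mul_eq_mul_div, ← h, mul_div_assoc, mul_comm, div_mul_cancel₀ _ hCa]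
  have h3 := (A.valuation_le_one_iff _).2 (rtk6de_scalar_mem A hP hP'.1 _ h1)
  have h4 := (A.valuation_le_one_iff _).2 (rtk6de_scalar_mem A hP' hP.1 _ h2)
  rw [map_div₀] at h3 h4
  have hva : 0 < A.valuation a := zero_lt_iff.2 ((Valuation.ne_zero_iff _).2 ha)
  have hvb : 0 < A.valuation b := zero_lt_iff.2 ((Valuation.ne_zero_iff _).2 hb)
  rw [div_le_one₀ hvb] at h3
  rw [div_le_one₀ hva] at h4
  exact le_antisymm h3 h4

/-- **uniqueness of the content** -/
theorem rtk6de_content_unique {z y₁ y₂ y₁' y₂' : LaurentSeries L} {c c' : L} (hz : z ≠ 0)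
    (hc : c ≠ 0) (hc' : c' ≠ 0) (h1 : KronPrim A y₁) (h2 : KronPrim A y₂)
    (h1' : KronPrim A y₁') (h2' : KronPrim A y₂')
    (h : z * y₂ = HahnSeries.C c * y₁) (h' : z * y₂' = HahnSeries.C c' * y₁') :
    A.valuation c = A.valuation c' := by
  refine rtk6de_scalar_of_prim A (h1.mul h2') (h1'.mul h2) hc hc' ?_
  calc HahnSeries.C c * (y₁ * y₂') = (HahnSeries.C c * y₁) * y₂' := by ring
    _ = (z * y₂) * y₂' := by rw [h]
    _ = (z * y₂') * y₂ := by ring
    _ = (HahnSeries.C c' * y₁') * y₂ := by rw [h']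
    _ = HahnSeries.C c' * (y₁' * y₂) := by ring

end Content

section Symbol

variable {L : Type*} [Field L] [Algebra ℚ L] [Algebra.IsAlgebraic ℚ L] (A : ValuationSubring L)

/-- **The tame symbol of the content is the eigenvalue.** -/
theorem rtk6de_symbol {σ : L ≃ₐ[ℚ] L} (hσ : σ ∈ A.inertiaSubgroupIn ℚ)
    {z y₁ y₂ : LaurentSeries L} {c ζ : L} (hc : c ≠ 0) (hζ : ζ ∈ A)
    (h1 : KronPrim A y₁) (h2 : KronPrim A y₂) (h : z * y₂ = HahnSeries.C c * y₁)
    (hσz : coeffMap (σ : L →+* L) z = HahnSeries.C ζ * z) :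
    σ c / c - ζ ∈ A.nonunits := by
  have hσdec : σ ∈ A.decompositionSubgroup ℚ := mem_decomposition_of_mem_inertiaIn hσ
  have hCc : (HahnSeries.C c : LaurentSeries L) ≠ 0 :=
    (map_ne_zero_iff _ HahnSeries.C_injective).mpr hc
  set s1 : LaurentSeries L := coeffMap (σ : L →+* L) y₁ with hs1
  set s2 : LaurentSeries L := coeffMap (σ : L →+* L) y₂ with hs2
  have hs1P : KronPrim A s1 := h1.coeffMap_of_mem_decomposition σ hσdec
  have hs2P : KronPrim A s2 := h2.coeffMap_of_mem_decomposition σ hσdec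
  -- the conjugate relation
  have he' : HahnSeries.C ζ * z * s2 = HahnSeries.C (σ c) * s1 := by
    have := congrArg (coeffMap (σ : L →+* L)) h
    rw [map_mul, map_mul, hσz] at this
    rw [this]
    congr 1
    show coeffMap (σ : L →+* L) (HahnSeries.single 0 c) = HahnSeries.single 0 (σ c)
    rw [coeffMap_single]
    rfl
  -- `ζ · y₁ · σ y₂ = (σ c / c) · σ y₁ · y₂`
  have hkey : HahnSeries.C ζ * (y₁ * s2) = HahnSeries.C (σ c / c) * (s1 * y₂) := by
    have e1 : HahnSeries.C c * (HahnSeries.C ζ * (y₁ * s2)) =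
        HahnSeries.C c * (HahnSeries.C (σ c / c) * (s1 * y₂)) := by
      calc HahnSeries.C c * (HahnSeries.C ζ * (y₁ * s2))
          = HahnSeries.C ζ * (HahnSeries.C c * y₁) * s2 := by ring
        _ = HahnSeries.C ζ * (z * y₂) * s2 := by rw [h]
        _ = (HahnSeries.C ζ * z * s2) * y₂ := by ring
        _ = (HahnSeries.C (σ c) * s1) * y₂ := by rw [he']
        _ = HahnSeries.C c * (HahnSeries.C (σ c / c) * (s1 * y₂)) := by
            rw [map_div₀]
            field_simp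
    exact mul_left_cancel₀ hCc e1
  -- congruences
  have c1 : KronCongr A (y₁ * s2) (y₁ * y₂) :=
    KronCongr.mul h1.1 h1.1 hs2P.1 h2.1 (KronCongr.refl (A := A) y₁) (kron_inertia_congr hσ h2.1)
  have c2 : KronCongr A (s1 * y₂) (y₁ * y₂) :=
    KronCongr.mul hs1P.1 h1.1 h2.1 h2.1 (kron_inertia_congr hσ h1.1) (KronCongr.refl (A := A) y₂)
  obtain ⟨n, hn⟩ := (h1.mul h2).2
  have hPn : (y₁ * y₂).coeff n ∈ A := (h1.mul h2).1 n
  have hq : σ c / c ∈ A := tame_div_mem A hσ (Units.mk0 c hc)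
  have hco := congrArg (fun f : LaurentSeries L => f.coeff n) hkey
  simp only [rtk6de_C_mul_coeff] at hco
  -- `(σ c / c - ζ) P_n ∈ 𝔪`
  have hmem : (σ c / c - ζ) * (y₁ * y₂).coeff n ∈ A.nonunits := by
    have e : (σ c / c - ζ) * (y₁ * y₂).coeff n =
        ζ * ((y₁ * s2).coeff n - (y₁ * y₂).coeff n) -
          (σ c / c) * ((s1 * y₂).coeff n - (y₁ * y₂).coeff n) := by
      linear_combination (-1 : L) * hco
    rw [e, ValuationSubring.mem_nonunits_iff]
    refine Valuation.map_sub_lt _ ?_ ?_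
    · rw [map_mul]
      exact mul_lt_one_of_nonneg_of_lt_one_right ((A.valuation_le_one_iff _).2 hζ) zero_le
        ((ValuationSubring.mem_nonunits_iff A).1 (c1 n))
    · rw [map_mul]
      exact mul_lt_one_of_nonneg_of_lt_one_right ((A.valuation_le_one_iff _).2 hq) zero_le
        ((ValuationSubring.mem_nonunits_iff A).1 (c2 n))
  have hPv : A.valuation ((y₁ * y₂).coeff n) = 1 := by
    have h3 : A.valuation ((y₁ * y₂).coeff n) ≤ 1 := (A.valuation_le_one_iff _).2 hPn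
    rcases lt_or_eq_of_le h3 with h4 | h4
    · exact absurd ((ValuationSubring.mem_nonunits_iff A).2 h4) hn
    · exact h4
  rw [ValuationSubring.mem_nonunits_iff, map_mul, hPv, mul_one] at hmem
  exact (ValuationSubring.mem_nonunits_iff A).2 hmem

end Symbol

section Core

variable {L : Type*} [Field L] [Algebra ℚ L] [Algebra.IsAlgebraic ℚ L] (A : ValuationSubring L)

/-- a root of unity has valuation one -/
lemma rtk6de_val_root {η : L} {m : ℕ} (hm : m ≠ 0) (h : η ^ m = 1) : A.valuation η = 1 := by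
  have h1 : A.valuation η ^ m = 1 := by rw [← map_pow, h, map_one]
  rcases (pow_eq_one_iff (M := A.ValueGroup)).1 h1 with h2 | h2
  · exact h2
  · exact absurd h2 hm

/-- a nontrivial `p`-th root of unity is not congruent to `1` modulo a place over `r ≠ p` -/
theorem rtk6de_root_unit {r p : ℕ} (hr : r.Prime) (hA : A.LiesOverPrime r) (hp : p.Prime)
    (hrp : r ≠ p) {η : L} (hη : η ^ p = 1) (hη1 : η ≠ 1) : η - 1 ∉ A.nonunits := by
  intro hmem
  have hlt : A.valuation (η - 1) < 1 := (ValuationSubring.mem_nonunits_iff A).1 hmem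
  have hvη : A.valuation η = 1 := rtk6de_val_root A hp.ne_zero hη
  -- the geometric sum vanishes
  have hgeom : ∑ i ∈ Finset.range p, η ^ i = 0 := by
    have h1 : (η - 1) * ∑ i ∈ Finset.range p, η ^ i = 0 := by
      rw [mul_geom_sum, hη, sub_self]
    rcases mul_eq_zero.1 h1 with h2 | h2
    · exact absurd (sub_eq_zero.1 h2) hη1
    · exact h2
  -- each `η ^ i - 1` is small
  have hsmall : ∀ i : ℕ, A.valuation (η ^ i - 1) < 1 := by
    intro i
    have h1 : η ^ i - 1 = (η - 1) * ∑ j ∈ Finset.range i, η ^ j := (mul_geom_sum η i).symm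
    rw [h1, map_mul]
    have h2 : A.valuation (∑ j ∈ Finset.range i, η ^ j) ≤ 1 := by
      refine Valuation.map_sum_le _ fun j _ => ?_
      rw [map_pow, hvη, one_pow]
    calc A.valuation (η - 1) * A.valuation (∑ j ∈ Finset.range i, η ^ j)
        ≤ A.valuation (η - 1) * 1 := mul_le_mul_of_nonneg_left h2 zero_le
      _ < 1 := by rw [mul_one]; exact hlt
  have hsum : ∑ i ∈ Finset.range p, (η ^ i - 1) = -((p : ℕ) : L) := by
    rw [Finset.sum_sub_distrib, hgeom, Finset.sum_const, Finset.card_range, nsmul_eq_mul, mul_one,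
      zero_sub]
  have hlt2 : A.valuation (∑ i ∈ Finset.range p, (η ^ i - 1)) < 1 :=
    Valuation.map_sum_lt _ one_ne_zero fun i _ => hsmall i
  rw [hsum, Valuation.map_neg] at hlt2
  have hvp : A.valuation ((p : ℕ) : L) = 1 := by
    have hnd : ¬ (r : ℤ) ∣ (p : ℤ) := by
      intro h
      have h1 : r ∣ p := by exact_mod_cast h
      rcases (Nat.dvd_prime hp).1 h1 with h2 | h2
      · exact hr.one_lt.ne' h2
      · exact hrp h2
    have := tame_val_int A hr hA (p : ℤ) hnd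
    simpa using this
  rw [hvp] at hlt2
  exact lt_irrefl _ hlt2

/-- **Core**: `v(c)^d = v(r)^n₀`, `p ∣ d`, `θ_c(σ)^(d/p) ≠ 1` ⇒ `p ∤ n₀`. -/
theorem rtk6de_core {r p : ℕ} (hr : r.Prime) {σ : L ≃ₐ[ℚ] L} (hσ : σ ∈ A.inertiaSubgroupIn ℚ)
    {c : L} (hc : c ≠ 0) {d : ℕ} (hpd : p ∣ d) (hp0 : p ≠ 0) {n₀ : ℤ}
    (hval : A.valuation c ^ d = A.valuation ((r : ℕ) : L) ^ n₀)
    (hθ : ¬ tameTr A σ (c ^ (d / p))) : ¬ (p : ℤ) ∣ n₀ := by
  rintro ⟨n₁, rfl⟩
  apply hθ
  have hr0 : ((r : ℕ) : L) ≠ 0 := by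
    have : CharZero L := algebraRat.charZero L
    exact Nat.cast_ne_zero.2 hr.ne_zero
  have hce : c ^ (d / p) ≠ 0 := pow_ne_zero _ hc
  have hd : d = p * (d / p) := (Nat.mul_div_cancel' hpd).symm
  -- `v(c^e) = v(r)^n₁`
  have h1 : tameW A (Units.mk0 (c ^ (d / p)) hce) = tameW A (Units.mk0 ((r : ℕ) : L) hr0) ^ n₁ := by
    have h2 : (tameW A (Units.mk0 (c ^ (d / p)) hce) *
        (tameW A (Units.mk0 ((r : ℕ) : L) hr0) ^ n₁)⁻¹) ^ p = 1 := by
      rw [mul_pow, inv_pow, mul_inv_eq_one]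
      apply Units.ext
      rw [Units.val_pow_eq_pow_val, tameW_val, Units.val_mk0, Units.val_pow_eq_pow_val,
        Units.val_zpow_eq_zpow_val, tameW_val, Units.val_mk0, map_pow, ← pow_mul,
        mul_comm (d / p) p, ← hd, hval, ← zpow_natCast (_ ^ n₁), ← zpow_mul, mul_comm n₁]
    have h3 := tameW_torsionFree A _ p (Nat.pos_of_ne_zero hp0) h2
    exact mul_inv_eq_one.1 h3
  have hy : tameTr A σ ((Units.mk0 ((r : ℕ) : L) hr0 : Lˣ) : L) := by
    rw [Units.val_mk0, tameTr, map_natCast, div_self hr0, sub_self]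
    exact A.nonunits.zero_mem
  have := tameTr_of_val_zpow A hσ (Units.mk0 (c ^ (d / p)) hce) (Units.mk0 ((r : ℕ) : L) hr0)
    n₁ h1 hy
  rwa [Units.val_mk0] at this

/-- **D-E, abstract form.**  `z` a Laurent series with content `c`, `σ z = ζ z` for some `σ` in
the inertia group at `r`, `ζ ^ d = 1`, `ζ ^ (d / p) ≠ 1` (`p ∣ d`, `p ≠ r`), and
`v(c)^d = v(r)^n₀`.  Then `p ∤ n₀`. -/
theorem rtk6de_main {r p : ℕ} (hr : r.Prime) (hA : A.LiesOverPrime r) (hp : p.Prime)
    (hrp : r ≠ p) {σ : L ≃ₐ[ℚ] L} (hσ : σ ∈ A.inertiaSubgroupIn ℚ)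
    {z y₁ y₂ : LaurentSeries L} {c ζ : L} (hc : c ≠ 0)
    (h1 : KronPrim A y₁) (h2 : KronPrim A y₂) (h : z * y₂ = HahnSeries.C c * y₁)
    (hσz : coeffMap (σ : L →+* L) z = HahnSeries.C ζ * z)
    {d : ℕ} (hpd : p ∣ d) (hζd : ζ ^ d = 1) (hζ : ζ ^ (d / p) ≠ 1) {n₀ : ℤ}
    (hval : A.valuation c ^ d = A.valuation ((r : ℕ) : L) ^ n₀) : ¬ (p : ℤ) ∣ n₀ := by
  have hd0 : d ≠ 0 := by
    rintro rfl
    rw [Nat.zero_div, pow_zero] at hζ
    exact hζ rfl
  have hvζ : A.valuation ζ = 1 := rtk6de_val_root A hd0 hζd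
  have hζA : ζ ∈ A := (A.valuation_le_one_iff _).1 hvζ.le
  have hsym := rtk6de_symbol A hσ hc hζA h1 h2 h hσz
  have hq : σ c / c ∈ A := tame_div_mem A hσ (Units.mk0 c hc)
  refine rtk6de_core A hr hσ hc hpd hp.ne_zero hval ?_
  intro hT
  -- `(σ c / c)^e ≡ ζ^e`
  have hres : IsLocalRing.residue A ⟨σ c / c, hq⟩ = IsLocalRing.residue A ⟨ζ, hζA⟩ :=
    (tame_residue_eq_iff A hq hζA).2 hsym
  have hqe : (σ c / c) ^ (d / p) ∈ A := A.pow_mem hq _
  have hζe : ζ ^ (d / p) ∈ A := A.pow_mem hζA _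
  have hres' : IsLocalRing.residue A ⟨(σ c / c) ^ (d / p), hqe⟩ =
      IsLocalRing.residue A ⟨ζ ^ (d / p), hζe⟩ := by
    have e1 : (⟨(σ c / c) ^ (d / p), hqe⟩ : A) = ⟨σ c / c, hq⟩ ^ (d / p) := Subtype.ext rfl
    have e2 : (⟨ζ ^ (d / p), hζe⟩ : A) = ⟨ζ, hζA⟩ ^ (d / p) := Subtype.ext rfl
    rw [e1, e2, map_pow, map_pow, hres]
  have hcong : (σ c / c) ^ (d / p) - ζ ^ (d / p) ∈ A.nonunits :=
    (tame_residue_eq_iff A hqe hζe).1 hres'
  -- `θ_{c^e}(σ) = 1`
  have hT' : (σ c / c) ^ (d / p) - 1 ∈ A.nonunits := by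
    have e : σ (c ^ (d / p)) / c ^ (d / p) - 1 = (σ c / c) ^ (d / p) - 1 := by
      rw [map_pow, div_pow]
    rw [← e]
    exact hT
  have hη : (ζ ^ (d / p)) ^ p = 1 := by
    rw [← pow_mul, mul_comm, Nat.mul_div_cancel' hpd, hζd]
  refine rtk6de_root_unit A hr hA hp hrp hη hζ ?_
  have e : ζ ^ (d / p) - 1 = ((σ c / c) ^ (d / p) - 1) - ((σ c / c) ^ (d / p) - ζ ^ (d / p)) := by
    ring
  rw [e, ValuationSubring.mem_nonunits_iff]
  exact Valuation.map_sub_lt _ ((ValuationSubring.mem_nonunits_iff A).1 hT')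
    ((ValuationSubring.mem_nonunits_iff A).1 hcong)

/-- **D-E, abstract form with a unit.**  As `rtk6de_main`, with the hypothesis on the valuation
in the form `z ^ d = r ^ n₀ · ε`, `ε` of unit content. -/
theorem rtk6de_main' {r p : ℕ} (hr : r.Prime) (hA : A.LiesOverPrime r) (hp : p.Prime)
    (hrp : r ≠ p) {σ : L ≃ₐ[ℚ] L} (hσ : σ ∈ A.inertiaSubgroupIn ℚ)
    {z y₁ y₂ : LaurentSeries L} {c ζ : L} (hz : z ≠ 0) (hc : c ≠ 0)
    (h1 : KronPrim A y₁) (h2 : KronPrim A y₂) (h : z * y₂ = HahnSeries.C c * y₁)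
    (hσz : coeffMap (σ : L →+* L) z = HahnSeries.C ζ * z)
    {d : ℕ} (hpd : p ∣ d) (hζd : ζ ^ d = 1) (hζ : ζ ^ (d / p) ≠ 1) {n₀ : ℤ}
    {ε e₁ e₂ : LaurentSeries L} {c' : L} (hc' : A.valuation c' = 1)
    (he1 : KronPrim A e₁) (he2 : KronPrim A e₂) (he : ε * e₂ = HahnSeries.C c' * e₁)
    (hzd : z ^ d = HahnSeries.C (((r : ℕ) : L) ^ n₀) * ε) : ¬ (p : ℤ) ∣ n₀ := by
  have hr0 : ((r : ℕ) : L) ≠ 0 := by
    have : CharZero L := algebraRat.charZero L
    exact Nat.cast_ne_zero.2 hr.ne_zero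
  have hc'0 : c' ≠ 0 := by
    intro h0
    rw [h0, map_zero] at hc'
    exact zero_ne_one hc'
  refine rtk6de_main A hr hA hp hrp hσ hc h1 h2 h hσz hpd hζd hζ ?_
  have hA1 : z ^ d * y₂ ^ d = HahnSeries.C (c ^ d) * y₁ ^ d := by
    rw [← mul_pow, h, mul_pow, map_pow]
  have hA2 : z ^ d * e₂ = HahnSeries.C (((r : ℕ) : L) ^ n₀ * c') * e₁ := by
    rw [hzd, map_mul, mul_assoc, he]
    ring
  have := rtk6de_content_unique A (pow_ne_zero d hz) (pow_ne_zero d hc)
    (mul_ne_zero (zpow_ne_zero _ hr0) hc'0) (h1.pow d) (h2.pow d) he1 he2 hA1 hA2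
  rw [map_pow, map_mul, hc', mul_one, map_zpow₀] at this
  exact this

end Core

end Fermat.Agent.RT.K6

end
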