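/-
K-machine, piece K6 / D-E (helper74): the valuation of the Kummer generator at `v_0` is prime
to `p` — INSTANCE LEVEL (`F = fieldBar L M H`, `y` = the Lagrange resolvent of `RT/K6/D0.lean`,
`w = w_r` any automorphism with `IsWAt L M H r w`).

`r` prime, `r ∣ M ∣ L`, `A ⊂ ℚ̄` a valuation ring over `r`, `D = rtk6deD M r` the diamonds at `r`
(`c ≡ 1` mod `M / r`), `ψ` a character of `(ℤ/M)ˣ`, trivial on `±H`, with `ψ ^ d = 1` on `D`,
`r ∤ d`.

* `rtk6de_root_unit_gen`    : a root of unity `η ≠ 1` of order prime to `r` is `≢ 1` mod `𝔪_A`.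
* `rtk6de_inertia_fix_root` : inertia at `r` fixes the roots of unity of order prime to `r`.
* `rtk6de_exists_inertia_pow`, `rtk6de_exists_cyc` : every diamond `c` at `r` is the cyclotomic
  image of some `σ` in the inertia group of `A` (`IsCycAt M r σ c`).
* `rtk6deY` : the resolvent `y`, as an element of `fieldBar L M H`.
* `rtk6de_galois_y`  : `σ y = y` for `σ` in the inertia group (coefficientwise action).
* `rtk6de_diamond_y` : `δ_c y = ψ(c) y` for `c ∈ D`.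
* `rtk6de_eigen`     : `σ (w y) = ψ(c(σ)) · w y`.
* `rtk6de_inst_val`, `rtk6de_inst` : **D-E** — if `(w y)^d = r^n₀ · ε`, `ε` of unit content
  (i.e. `v_0(u₀) = n₀ · v(r)`, `u₀ = y^d`), `p ∣ d`, `p ≠ r`, and `ψ(c₀)^(d/p) ≠ 1` for some
  diamond `c₀` at `r`, then `p ∤ n₀`.
* `rtk6de_inf`       : `v_∞(u₀) = 0`: `y ^ d` is primitive at `A`.
-/
import Fermat.Agent.RT.K6.DEAbs
import Fermat.Agent.RT.K6.D0
import Fermat.Agent.ES1.G2.Main
import Fermat.Agent.ES1.G2.DiamBar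
import Fermat.Agent.ES1.Conj
import Fermat.Agent.TW.S.CycloRam
import Fermat.Agent.Common.InertiaLift

set_option autoImplicit false
set_option linter.unusedSectionVars false
set_option linter.unusedVariables false
set_option linter.style.haveILetI false

noncomputable section

namespace Fermat.Agent.RT.K6

open ModularCurve AlgebraicCurve HahnSeries Fermat.Agent.ES Fermat.Agent.ES1
  Fermat.Agent.ES1.G2 Fermat.Agent.S05 Fermat.Agent.S15

section Roots

variable {L : Type*} [Field L] [Algebra ℚ L] [Algebra.IsAlgebraic ℚ L] (A : ValuationSubring L)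

/-- a nontrivial root of unity of order prime to `r` is not congruent to `1` modulo a place
over `r` -/
theorem rtk6de_root_unit_gen {r n : ℕ} (hr : r.Prime) (hA : A.LiesOverPrime r)
    (hn : ¬ r ∣ n) {η : L} (hη : η ^ n = 1) (hη1 : η ≠ 1) : η - 1 ∉ A.nonunits := by
  intro hmem
  have hn0 : n ≠ 0 := by
    rintro rfl
    exact hn (dvd_zero r)
  have hlt : A.valuation (η - 1) < 1 := (ValuationSubring.mem_nonunits_iff A).1 hmem
  have hvη : A.valuation η = 1 := rtk6de_val_root A hn0 hη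
  have hgeom : ∑ i ∈ Finset.range n, η ^ i = 0 := by
    have h1 : (η - 1) * ∑ i ∈ Finset.range n, η ^ i = 0 := by
      rw [mul_geom_sum, hη, sub_self]
    rcases mul_eq_zero.1 h1 with h2 | h2
    · exact absurd (sub_eq_zero.1 h2) hη1
    · exact h2
  have hsmall : ∀ i : ℕ, A.valuation (η ^ i - 1) < 1 := by
    intro i
    have h1 : η ^ i - 1 = (η - 1) * ∑ j ∈ Finset.range i, η ^ j := (mul_geom_sum η i).symm
    rw [h1, map_mul]
    have h2 : A.valuation (∑ j ∈ Finset.range i, η ^ j) ≤ 1 := by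
      refine Valuation.map_sum_le _ fun j _ => ?_
      rw [map_pow, hvη, one_pow]
    calc A.valuation (η - 1) * A.valuation (∑ j ∈ Finset.range i, η ^ j)
        ≤ A.valuation (η - 1) * 1 := mul_le_mul_of_nonneg_left h2 zero_le
      _ < 1 := by rw [mul_one]; exact hlt
  have hsum : ∑ i ∈ Finset.range n, (η ^ i - 1) = -((n : ℕ) : L) := by
    rw [Finset.sum_sub_distrib, hgeom, Finset.sum_const, Finset.card_range, nsmul_eq_mul, mul_one,
      zero_sub]
  have hlt2 : A.valuation (∑ i ∈ Finset.range n, (η ^ i - 1)) < 1 :=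
    Valuation.map_sum_lt _ one_ne_zero fun i _ => hsmall i
  rw [hsum, Valuation.map_neg] at hlt2
  have hvp : A.valuation ((n : ℕ) : L) = 1 := by
    have hnd : ¬ (r : ℤ) ∣ (n : ℤ) := by
      intro h
      exact hn (by exact_mod_cast h)
    have := tame_val_int A hr hA (n : ℤ) hnd
    simpa using this
  rw [hvp] at hlt2
  exact lt_irrefl _ hlt2

/-- **inertia at `r` fixes the roots of unity of order prime to `r`** -/
theorem rtk6de_inertia_fix_root {r n : ℕ} (hr : r.Prime) (hA : A.LiesOverPrime r)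
    (hn : ¬ r ∣ n) {σ : L ≃ₐ[ℚ] L} (hσ : σ ∈ A.inertiaSubgroupIn ℚ) {η : L} (hη : η ^ n = 1) :
    σ η = η := by
  have hn0 : n ≠ 0 := by
    rintro rfl
    exact hn (dvd_zero r)
  have hη0 : η ≠ 0 := by
    rintro rfl
    rw [zero_pow hn0] at hη
    exact zero_ne_one hη
  have hvη : A.valuation η = 1 := rtk6de_val_root A hn0 hη
  have h1 : σ η / η - 1 ∈ A.nonunits := inertia_apply_div_sub_one_mem_nonunits hσ hvη
  have h2 : (σ η / η) ^ n = 1 := by
    rw [div_pow, ← map_pow, hη, map_one, div_one]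
  by_contra hne
  have h3 : σ η / η ≠ 1 := by
    intro h
    rw [div_eq_one_iff_eq hη0] at h
    exact hne h
  exact rtk6de_root_unit_gen A hr hA hn h2 h3 h1

end Roots

section Cyc

/-- every `a` prime to `r` is the cyclotomic image of an element of the inertia group of any
place `A` of `ℚ̄` over `r` (`ℚ(ζ_r) / ℚ` is totally ramified at `r`) -/
theorem rtk6de_exists_inertia_pow {r : ℕ} (hr : r.Prime) (A : ValuationSubring QbH)
    (hA : A.LiesOverPrime r) (a : ℕ) (ha : Nat.Coprime a r) :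
    ∃ σ ∈ A.inertiaSubgroupIn ℚ, ∀ ζ : QbH, ζ ^ r = 1 → σ ζ = ζ ^ a := by
  haveI : Fact r.Prime := ⟨hr⟩
  haveI : NeZero r := ⟨hr.ne_zero⟩
  haveI : NeZero (r : AlgebraicClosure ℚ) := ⟨Nat.cast_ne_zero.mpr hr.ne_zero⟩
  obtain ⟨ζ, hζ⟩ := HasEnoughRootsOfUnity.exists_primitiveRoot (AlgebraicClosure ℚ) r
  have hζa : IsPrimitiveRoot (ζ ^ a) r := hζ.pow_of_coprime _ ha
  have hmin : minpoly ℚ ζ = Polynomial.cyclotomic r ℚ :=
    (Polynomial.cyclotomic_eq_minpoly_rat hζ hr.pos).symm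
  have hroot : Polynomial.aeval (ζ ^ a) (minpoly ℚ ζ) = 0 := by
    rw [hmin]
    have := hζa.isRoot_cyclotomic hr.pos
    rw [← Polynomial.map_cyclotomic r (algebraMap ℚ (AlgebraicClosure ℚ))] at this
    simpa [Polynomial.aeval_def, Polynomial.eval₂_eq_eval_map, Polynomial.IsRoot.def] using this
  haveI hnorm : Normal ℚ (AlgebraicClosure ℚ) := Fermat.Agent.TW.L.lglob1_qbar_normal
  have halg : IsAlgebraic ℚ ζ := (hnorm.isAlgebraic ζ)
  obtain ⟨σ, hσζ⟩ := minpoly.exists_algEquiv_of_root' halg hroot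
  -- `ζ` lies in the subring where `σ` is congruent to the identity
  have h1 := Fermat.Agent.TW.S.scyc_sub_one_mem_nonunits r A hA hζ.pow_eq_one
  have h1m : ζ ^ a - 1 ∈ A.nonunits := by
    refine Fermat.Agent.TW.S.scyc_sub_one_mem_nonunits r A hA ?_
    rw [← pow_mul, mul_comm, pow_mul, hζ.pow_eq_one, one_pow]
  have hζA : ζ ∈ A := by
    have : ζ = 1 + (ζ - 1) := by ring
    rw [this]
    exact add_mem (one_mem _) (A.nonunits_le h1)
  have hζB : ζ ∈ Fermat.Agent.TW.S.scycRing A σ := by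
    refine ⟨hζA, ?_⟩
    rw [hσζ]
    have e : ζ ^ a - ζ = (ζ ^ a - 1) - (ζ - 1) := by ring
    rw [e, ValuationSubring.mem_nonunits_iff]
    refine lt_of_le_of_lt (Valuation.map_sub _ _ _) (max_lt ?_ ?_)
    · exact (A.mem_nonunits_iff).mp h1m
    · exact (A.mem_nonunits_iff).mp h1
  haveI : Algebra.IsIntegral ℚ (AlgebraicClosure ℚ) := ⟨fun x => (hnorm.isAlgebraic x).isIntegral⟩
  haveI hcyc : IsCyclotomicExtension {r} ℚ (IntermediateField.adjoin ℚ {ζ}) :=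
    hζ.intermediateField_adjoin_isCyclotomicExtension ℚ
  haveI : IsGalois ℚ (IntermediateField.adjoin ℚ {ζ}) :=
    IsCyclotomicExtension.isGalois {r} ℚ (IntermediateField.adjoin ℚ {ζ})
  have hcong : ∀ x ∈ IntermediateField.adjoin ℚ {ζ}, IsIntegral ℤ x →
      σ x - x ∈ A.nonunits := by
    intro x hx hint
    let ζF : IntermediateField.adjoin ℚ {ζ} := ⟨ζ, IntermediateField.mem_adjoin_simple_self ℚ ζ⟩
    have hζF : IsPrimitiveRoot ζF r :=
      IsPrimitiveRoot.of_map_of_injective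
        (f := algebraMap (IntermediateField.adjoin ℚ {ζ}) (AlgebraicClosure ℚ))
        (show IsPrimitiveRoot
          (algebraMap (IntermediateField.adjoin ℚ {ζ}) (AlgebraicClosure ℚ) ζF) r from hζ)
        (algebraMap (IntermediateField.adjoin ℚ {ζ}) (AlgebraicClosure ℚ)).injective
    have hic := IsCyclotomicExtension.Rat.isIntegralClosure_adjoin_singleton_of_prime hζF
    have hintF : IsIntegral ℤ (⟨x, hx⟩ : IntermediateField.adjoin ℚ {ζ}) :=
      (isIntegral_algebraMap_iff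
        (algebraMap (IntermediateField.adjoin ℚ {ζ}) (AlgebraicClosure ℚ)).injective).mp hint
    obtain ⟨y, hy⟩ := hic.isIntegral_iff.mp hintF
    have key : ∀ z ∈ Algebra.adjoin ℤ ({ζF} : Set (IntermediateField.adjoin ℚ {ζ})),
        ((z : IntermediateField.adjoin ℚ {ζ}) : AlgebraicClosure ℚ) ∈
          Fermat.Agent.TW.S.scycRing A σ := by
      intro z hz
      induction hz using Algebra.adjoin_induction with
      | mem z hz =>
        rw [Set.mem_singleton_iff] at hz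
        subst hz
        exact hζB
      | algebraMap t =>
        have : ((algebraMap ℤ (IntermediateField.adjoin ℚ {ζ}) t :
            IntermediateField.adjoin ℚ {ζ}) : AlgebraicClosure ℚ) = (t : AlgebraicClosure ℚ) := by
          simp
        rw [this]
        exact Fermat.Agent.TW.S.scyc_intCast_mem _ _ t
      | add a b _ _ ha hb =>
        have : ((a + b : IntermediateField.adjoin ℚ {ζ}) : AlgebraicClosure ℚ)
            = (a : AlgebraicClosure ℚ) + b := rfl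
        rw [this]
        exact add_mem ha hb
      | mul a b _ _ ha hb =>
        have : ((a * b : IntermediateField.adjoin ℚ {ζ}) : AlgebraicClosure ℚ)
            = (a : AlgebraicClosure ℚ) * b := rfl
        rw [this]
        exact mul_mem ha hb
    have hxy : x = ((y : IntermediateField.adjoin ℚ {ζ}) : AlgebraicClosure ℚ) := by
      have := congrArg (fun t : IntermediateField.adjoin ℚ {ζ} => (t : AlgebraicClosure ℚ)) hy
      exact this.symm
    rw [hxy]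
    exact (key y y.2).2
  obtain ⟨σ', hσ'I, hσ'F⟩ := Fermat.Agent.Common.exists_mem_inertiaSubgroupIn_of_congr
    (IntermediateField.adjoin ℚ {ζ}) r hr A hA σ hcong
  refine ⟨σ', hσ'I, fun ξ hξ => ?_⟩
  obtain ⟨k, -, rfl⟩ := hζ.eq_pow_of_pow_eq_one hξ
  rw [map_pow, hσ'F ζ (IntermediateField.mem_adjoin_simple_self ℚ ζ), hσζ, ← pow_mul, ← pow_mul,
    mul_comm]

variable {M : ℕ} [NeZero M]

/-- **every diamond `c` at `r` is the cyclotomic image of some `σ` in the inertia group** -/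
theorem rtk6de_exists_cyc {r : ℕ} (hr : r.Prime) (hrM : r ∣ M) (A : ValuationSubring QbH)
    (hA : A.LiesOverPrime r) (c : (ZMod M)ˣ) (hc : IsAtR M r c) :
    ∃ σ ∈ A.inertiaSubgroupIn ℚ, IsCycAt M r σ c := by
  have hcop : Nat.Coprime ((c : ZMod M).val) r :=
    Nat.Coprime.coprime_dvd_right hrM (ZMod.val_coe_unit_coprime c)
  obtain ⟨σ, hσ, h⟩ := rtk6de_exists_inertia_pow hr A hA _ hcop
  exact ⟨σ, hσ, h, hc⟩

end Cyc

section Diamonds

variable (M : ℕ) [NeZero M] (r : ℕ)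

/-- **the diamonds at `r`**: the classes `c ≡ 1` mod `M / r`, as a subgroup of `(ℤ/M)ˣ` -/
def rtk6deD (hrM : r ∣ M) : Subgroup (ZMod M)ˣ :=
  (Units.map ((ZMod.castHom (Nat.div_dvd_of_dvd hrM) (ZMod (M / r))) :
    ZMod M →* ZMod (M / r))).ker

variable {M r}

theorem rtk6de_mem_D (hrM : r ∣ M) (c : (ZMod M)ˣ) : c ∈ rtk6deD M r hrM ↔ IsAtR M r c := by
  unfold rtk6deD IsAtR
  rw [MonoidHom.mem_ker, Units.ext_iff, Units.coe_map, Units.val_one, ZMod.natCast_val]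
  rfl

/-- `r ∥ M`: `r` is prime to `M / r` -/
theorem rtk6de_coprime_div (hr : r.Prime) (hrM : r ∣ M) (hr2 : ¬ r ^ 2 ∣ M) :
    Nat.Coprime r (M / r) := by
  rw [Nat.Prime.coprime_iff_not_dvd hr]
  intro h
  apply hr2
  have h1 : r * r ∣ r * (M / r) := Nat.mul_dvd_mul_left r h
  rwa [Nat.mul_div_cancel' hrM, ← pow_two] at h1

/-- reduction mod `r` is injective on the diamonds at `r` (`r ∥ M`) -/
theorem rtk6de_D_injOn (hr : r.Prime) (hrM : r ∣ M) (hr2 : ¬ r ^ 2 ∣ M)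
    {c c' : (ZMod M)ˣ} (hc : IsAtR M r c) (hc' : IsAtR M r c')
    (h : (((c : ZMod M).val : ℕ) : ZMod r) = (((c' : ZMod M).val : ℕ) : ZMod r)) : c = c' := by
  have h1 : (c : ZMod M).val ≡ (c' : ZMod M).val [MOD r] := (ZMod.natCast_eq_natCast_iff _ _ _).1 h
  have h2 : (c : ZMod M).val ≡ (c' : ZMod M).val [MOD M / r] := by
    apply (ZMod.natCast_eq_natCast_iff _ _ _).1
    unfold IsAtR at hc hc'
    rw [hc, hc']
  have h3 : (c : ZMod M).val ≡ (c' : ZMod M).val [MOD r * (M / r)] :=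
    (Nat.modEq_and_modEq_iff_modEq_mul (rtk6de_coprime_div hr hrM hr2)).1 ⟨h1, h2⟩
  rw [Nat.mul_div_cancel' hrM] at h3
  have h4 : (c : ZMod M).val = (c' : ZMod M).val := by
    have := h3
    unfold Nat.ModEq at this
    rwa [Nat.mod_eq_of_lt (ZMod.val_lt _), Nat.mod_eq_of_lt (ZMod.val_lt _)] at this
  exact Units.ext (ZMod.val_injective M h4)

/-- the number of diamonds at `r` is less than `r` -/
theorem rtk6de_card_D_lt (hr : r.Prime) (hrM : r ∣ M) (hr2 : ¬ r ^ 2 ∣ M) :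
    (rtk6d0Set M (rtk6deD M r hrM)).card < r := by
  classical
  haveI : NeZero r := ⟨hr.ne_zero⟩
  haveI : Fact r.Prime := ⟨hr⟩
  have h1 : (rtk6d0Set M (rtk6deD M r hrM)).card ≤
      ((Finset.univ : Finset (ZMod r)).erase 0).card := by
    refine Finset.card_le_card_of_injOn
      (fun c : (ZMod M)ˣ => (((c : ZMod M).val : ℕ) : ZMod r)) ?_ ?_
    · intro c _
      rw [Finset.mem_coe, Finset.mem_erase]
      refine ⟨?_, Finset.mem_univ _⟩
      intro h0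
      rw [ZMod.natCast_eq_zero_iff] at h0
      have hcop : Nat.Coprime ((c : ZMod M).val) r :=
        Nat.Coprime.coprime_dvd_right hrM (ZMod.val_coe_unit_coprime c)
      have := Nat.eq_one_of_dvd_coprimes hcop h0 dvd_rfl
      exact hr.one_lt.ne' this
    · intro c hc c' hc' h
      rw [Finset.mem_coe, rtk6d0_mem_set, rtk6de_mem_D] at hc hc'
      exact rtk6de_D_injOn hr hrM hr2 hc hc' h
  have h2 : ((Finset.univ : Finset (ZMod r)).erase 0).card = r - 1 := by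
    rw [Finset.card_erase_of_mem (Finset.mem_univ _), Finset.card_univ, ZMod.card]
  have h3 : 0 < r := hr.pos
  omega

end Diamonds

section Inst

variable {L M : ℕ} [NeZero M] {H : Subgroup (ZMod M)ˣ} (D : Subgroup (ZMod M)ˣ)
  (ψ : (ZMod M)ˣ →* QbHˣ)

/-- `S_{M,H,b}` as an element of `fieldBar L M H` -/
def rtk6deS (H : Subgroup (ZMod M)ˣ) (hML : M ∣ L) (b : (ZMod M)ˣ) : fieldBar L M H :=
  ⟨sS QbH M H b, (es1f_fieldBar_eq L M H).ge (rtk6d0_sS_mem QbH M H hML b)⟩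

/-- **the Kummer generator** (Lagrange resolvent) `y = Σ_{c ∈ D} ψ(c)⁻¹ S_c`, as an element of
`fieldBar L M H` -/
def rtk6deY (H : Subgroup (ZMod M)ˣ) (hML : M ∣ L) : fieldBar L M H :=
  ⟨rtk6d0Y QbH M H D ψ, (es1f_fieldBar_eq L M H).ge (rtk6d0Y_mem QbH M H D ψ hML)⟩

theorem rtk6deY_coe (hML : M ∣ L) :
    ((rtk6deY D ψ H hML : fieldBar L M H) : LaurentSeries QbH) = rtk6d0Y QbH M H D ψ := rfl

theorem rtk6deY_ne_zero (hM : 3 ≤ M) (hψH : ∀ h ∈ H, ψ h = 1) (hψ1 : ψ (-1) = 1)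
    (hML : M ∣ L) : rtk6deY D ψ H hML ≠ 0 := by
  intro h
  have := congrArg (fun x : fieldBar L M H => (x : LaurentSeries QbH)) h
  exact rtk6d0Y_ne_zero QbH D ψ hM hψH hψ1 this

/-- `ℚ̄`-linearity of a `ℚ̄`-automorphism of `fieldBar` (instance search does not find
`map_smul`) -/
theorem rtk6de_map_smul (δ : fieldBar L M H ≃ₐ[QbH] fieldBar L M H) (a : QbH)
    (x : fieldBar L M H) : δ (a • x) = a • δ x :=
  δ.toLinearMap.map_smul a x

/-- **inertia at `r` fixes the resolvent** (coefficientwise): its coefficients are integers times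
roots of unity of order prime to `r` -/
theorem rtk6de_coeffMap_y {r d : ℕ} (hr : r.Prime) (A : ValuationSubring QbH)
    (hA : A.LiesOverPrime r) (hd : ¬ r ∣ d) (hψd : ∀ c ∈ D, ψ c ^ d = 1)
    {σ : QbH ≃ₐ[ℚ] QbH} (hσ : σ ∈ A.inertiaSubgroupIn ℚ) :
    coeffMap (σ : QbH →+* QbH) (rtk6d0Y QbH M H D ψ) = rtk6d0Y QbH M H D ψ := by
  unfold rtk6d0Y
  rw [map_sum]
  refine Finset.sum_congr rfl fun c hc => ?_
  rw [map_mul, es1f_coeffMap_sS]
  congr 1
  show coeffMap (σ : QbH →+* QbH) (HahnSeries.single 0 _) = HahnSeries.single 0 _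
  rw [coeffMap_single]
  congr 1
  have hc' : c ∈ D := rtk6d0_mem_set.1 hc
  haveI : Algebra.IsAlgebraic ℚ QbH := isAlgebraic_rat_qbar
  have h1 : (((ψ c)⁻¹ : QbHˣ) : QbH) ^ d = 1 := by
    rw [← Units.val_pow_eq_pow_val, inv_pow, hψd c hc', inv_one, Units.val_one]
  exact rtk6de_inertia_fix_root A hr hA hd hσ h1

theorem rtk6de_galois_y {r d : ℕ} (hr : r.Prime) (A : ValuationSubring QbH)
    (hA : A.LiesOverPrime r) (hd : ¬ r ∣ d) (hψd : ∀ c ∈ D, ψ c ^ d = 1)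
    {σ : QbH ≃ₐ[ℚ] QbH} (hσ : σ ∈ A.inertiaSubgroupIn ℚ) (hML : M ∣ L) :
    arithmeticGalois (fieldQ L M H) σ • rtk6deY D ψ H hML = rtk6deY D ψ H hML := by
  apply Subtype.ext
  rw [coe_arithmeticGalois_smul]
  exact rtk6de_coeffMap_y D ψ hr A hA hd hψd hσ

/-- `δ_c S_b = S_{bc}` -/
theorem rtk6de_diamond_S (hML : M ∣ L) {c : (ZMod M)ˣ}
    {δ : fieldBar L M H ≃ₐ[QbH] fieldBar L M H} (hδ : IsDiamondH L M H c δ) (b : (ZMod M)ˣ) :
    ((δ (rtk6deS H hML b) : fieldBar L M H) : LaurentSeries QbH) = sS QbH M H (b * c) := by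
  have h1 : (1 : ℕ) * M ∣ L := by rwa [one_mul]
  have h2 := hδ.map_s 1 b h1 (rtk6deS H hML b) (qExpand_one_apply _).symm
  rwa [qExpand_one_apply] at h2

/-- the resolvent as a sum in `fieldBar L M H` -/
theorem rtk6deY_eq_sum (hML : M ∣ L) : rtk6deY D ψ H hML
      = ∑ b ∈ rtk6d0Set M D, (((ψ b)⁻¹ : QbHˣ) : QbH) • rtk6deS H hML b := by
  apply Subtype.ext
  rw [AddSubmonoidClass.coe_finsetSum]
  show rtk6d0Y QbH M H D ψ = _
  unfold rtk6d0Y
  refine Finset.sum_congr rfl fun b _ => ?_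
  rw [IntermediateField.coe_smul, Algebra.smul_def, LaurentSeries.algebraMap_apply]
  rfl

theorem rtk6de_diamond_term (hML : M ∣ L) {c : (ZMod M)ˣ}
    {δ : fieldBar L M H ≃ₐ[QbH] fieldBar L M H} (hδ : IsDiamondH L M H c δ) (b : (ZMod M)ˣ) :
    ((δ ((((ψ b)⁻¹ : QbHˣ) : QbH) • rtk6deS H hML b) : fieldBar L M H) : LaurentSeries QbH)
      = HahnSeries.C ((ψ c : QbHˣ) : QbH) *
          (HahnSeries.C (((ψ (b * c))⁻¹ : QbHˣ) : QbH) * sS QbH M H (b * c)) := by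
  have hu : ((ψ b)⁻¹ : QbHˣ) = ψ c * (ψ (b * c))⁻¹ := by
    rw [map_mul, mul_inv_rev, mul_inv_cancel_left]
  rw [rtk6de_map_smul, IntermediateField.coe_smul, Algebra.smul_def,
    LaurentSeries.algebraMap_apply, rtk6de_diamond_S hML hδ b, ← mul_assoc, ← map_mul, hu,
    Units.val_mul]

theorem rtk6de_diamond_sum (hML : M ∣ L)
    (δ : fieldBar L M H ≃ₐ[QbH] fieldBar L M H) :
    ((δ (rtk6deY D ψ H hML) : fieldBar L M H) : LaurentSeries QbH)
      = ∑ b ∈ rtk6d0Set M D,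
          ((δ ((((ψ b)⁻¹ : QbHˣ) : QbH) • rtk6deS H hML b) : fieldBar L M H) :
            LaurentSeries QbH) := by
  rw [rtk6deY_eq_sum D ψ hML, map_sum, AddSubmonoidClass.coe_finsetSum]

/-- **the eigen-property** of the resolvent under the diamonds of `D` (Laurent series form) -/
theorem rtk6de_diamond_y_coe (hML : M ∣ L) {c : (ZMod M)ˣ} (hc : c ∈ D)
    {δ : fieldBar L M H ≃ₐ[QbH] fieldBar L M H} (hδ : IsDiamondH L M H c δ) :
    ((δ (rtk6deY D ψ H hML) : fieldBar L M H) : LaurentSeries QbH)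
      = HahnSeries.C ((ψ c : QbHˣ) : QbH) * rtk6d0Y QbH M H D ψ := by
  classical
  have e1 := rtk6de_diamond_sum D ψ hML δ
  have e2 : ∑ b ∈ rtk6d0Set M D,
      ((δ ((((ψ b)⁻¹ : QbHˣ) : QbH) • rtk6deS H hML b) : fieldBar L M H) : LaurentSeries QbH)
      = ∑ b ∈ rtk6d0Set M D, HahnSeries.C ((ψ c : QbHˣ) : QbH) *
          (HahnSeries.C (((ψ (b * c))⁻¹ : QbHˣ) : QbH) * sS QbH M H (b * c)) :=
    Finset.sum_congr rfl (fun b _ => rtk6de_diamond_term ψ hML hδ b)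
  have e3 : ∑ b ∈ rtk6d0Set M D,
      (HahnSeries.C (((ψ (b * c))⁻¹ : QbHˣ) : QbH) * sS QbH M H (b * c))
      = rtk6d0Y QbH M H D ψ := by
    unfold rtk6d0Y
    exact Finset.sum_equiv (Equiv.mulRight c)
      (fun b => by
        rw [rtk6d0_mem_set, rtk6d0_mem_set, Equiv.coe_mulRight]
        exact (D.mul_mem_cancel_right hc).symm)
      (fun b _ => rfl)
  rw [e1, e2, ← Finset.mul_sum, e3]

/-- **the eigen-property** of the resolvent: `δ_c y = ψ(c) · y` for `c ∈ D` -/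
theorem rtk6de_diamond_y (hML : M ∣ L) {c : (ZMod M)ˣ} (hc : c ∈ D)
    {δ : fieldBar L M H ≃ₐ[QbH] fieldBar L M H} (hδ : IsDiamondH L M H c δ) :
    δ (rtk6deY D ψ H hML) = ((ψ c : QbHˣ) : QbH) • rtk6deY D ψ H hML := by
  apply Subtype.ext
  rw [rtk6de_diamond_y_coe D ψ hML hc hδ, IntermediateField.coe_smul, Algebra.smul_def,
    LaurentSeries.algebraMap_apply]
  rfl

/-- **`σ (w y) = ψ(c(σ)) · w y`** for `σ` in the inertia group at `r` with cyclotomic image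
`c ∈ D`. -/
theorem rtk6de_eigen (hL : L ≠ 0) (hML : M ∣ L) {r d : ℕ} (hr : r.Prime)
    (A : ValuationSubring QbH) (hA : A.LiesOverPrime r) (hd : ¬ r ∣ d)
    (hψd : ∀ c ∈ D, ψ c ^ d = 1)
    {w : fieldBar L M H ≃ₐ[QbH] fieldBar L M H} (hw : IsWAt L M H r w)
    {σ : QbH ≃ₐ[ℚ] QbH} (hσ : σ ∈ A.inertiaSubgroupIn ℚ) {c : (ZMod M)ˣ} (hc : c ∈ D)
    (hcyc : IsCycAt M r σ c) :
    coeffMap (σ : QbH →+* QbH) ((w (rtk6deY D ψ H hML) : fieldBar L M H) : LaurentSeries QbH)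
      = HahnSeries.C ((ψ c : QbHˣ) : QbH) *
          ((w (rtk6deY D ψ H hML) : fieldBar L M H) : LaurentSeries QbH) := by
  obtain ⟨δ, hδ⟩ := stmtDiamondBarH_of_diamond stmtDiamondH L M H hL hML c
  have h1 := hw.galois σ c hcyc δ hδ (rtk6deY D ψ H hML)
  rw [rtk6de_galois_y D ψ hr A hA hd hψd hσ hML, rtk6de_diamond_y D ψ hML hc hδ,
    rtk6de_map_smul] at h1
  have h3 : ((arithmeticGalois (fieldQ L M H) σ • w (rtk6deY D ψ H hML) : fieldBar L M H) :
      LaurentSeries QbH) = (((ψ c : QbHˣ) : QbH) • w (rtk6deY D ψ H hML) : fieldBar L M H) :=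
    congrArg (fun x : fieldBar L M H => (x : LaurentSeries QbH)) h1
  rw [coe_arithmeticGalois_smul, IntermediateField.coe_smul, Algebra.smul_def,
    LaurentSeries.algebraMap_apply] at h3
  exact h3

/-- **D-E, instance level, valuation form.**  If the content `c` of `w y` satisfies
`v(c)^d = v(r)^n₀`, then `p ∤ n₀`. -/
theorem rtk6de_inst_val (hL : L ≠ 0) (hML : M ∣ L) {r d p : ℕ} (hr : r.Prime) (hrM : r ∣ M)
    (A : ValuationSubring QbH) (hA : A.LiesOverPrime r) (hd : ¬ r ∣ d)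
    (hψd : ∀ c ∈ D, ψ c ^ d = 1)
    {w : fieldBar L M H ≃ₐ[QbH] fieldBar L M H} (hw : IsWAt L M H r w)
    (hp : p.Prime) (hrp : r ≠ p) (hpd : p ∣ d)
    {c₀ : (ZMod M)ˣ} (hc₀ : c₀ ∈ D) (hc₀r : IsAtR M r c₀) (hψ₀ : ψ c₀ ^ (d / p) ≠ 1)
    {c : QbH} {y₁ y₂ : LaurentSeries QbH} (hc : c ≠ 0) (h1 : KronPrim A y₁)
    (h2 : KronPrim A y₂)
    (h : ((w (rtk6deY D ψ H hML) : fieldBar L M H) : LaurentSeries QbH) * y₂
      = HahnSeries.C c * y₁)
    {n₀ : ℤ} (hval : A.valuation c ^ d = A.valuation ((r : ℕ) : QbH) ^ n₀) :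
    ¬ (p : ℤ) ∣ n₀ := by
  haveI : Algebra.IsAlgebraic ℚ QbH := isAlgebraic_rat_qbar
  obtain ⟨σ, hσ, hcyc⟩ := rtk6de_exists_cyc hr hrM A hA c₀ hc₀r
  have heig := rtk6de_eigen D ψ hL hML hr A hA hd hψd hw hσ hc₀ hcyc
  have hζd : ((ψ c₀ : QbHˣ) : QbH) ^ d = 1 := by
    rw [← Units.val_pow_eq_pow_val, hψd c₀ hc₀, Units.val_one]
  have hζ : ((ψ c₀ : QbHˣ) : QbH) ^ (d / p) ≠ 1 := by
    intro h0
    apply hψ₀
    apply Units.ext
    rw [Units.val_pow_eq_pow_val, h0, Units.val_one]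
  exact rtk6de_main A hr hA hp hrp hσ hc h1 h2 h heig hpd hζd hζ hval

/-- `3 ≤ M` if some character of `(ℤ/M)ˣ` is nontrivial -/
theorem rtk6de_three_le (hM0 : M ≠ 0) {c₀ : (ZMod M)ˣ} (h : ψ c₀ ≠ 1) : 3 ≤ M := by
  by_contra hM
  haveI := es1cu_units_subsingleton hM0 hM
  apply h
  rw [Subsingleton.elim c₀ 1, map_one]

/-- **D-E, instance level.**  `y` the Kummer generator, `w = w_r`.  If
`(w y)^d = r^n₀ · ε` with `ε` of unit content at `A` (i.e. `v_0(y^d) = n₀ · v(r)`), `p ∣ d`,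
`p ≠ r`, `r ∤ d`, `ψ^d = 1` on `D`, and `ψ(c₀)^(d/p) ≠ 1` for some diamond `c₀ ∈ D` at `r`,
then `p ∤ n₀`. -/
theorem rtk6de_inst (hL : L ≠ 0) (hML : M ∣ L) {r d p : ℕ} (hr : r.Prime) (hrM : r ∣ M)
    (A : ValuationSubring QbH) (hA : A.LiesOverPrime r) (hd : ¬ r ∣ d)
    (hψH : ∀ h ∈ H, ψ h = 1) (hψ1 : ψ (-1) = 1) (hψd : ∀ c ∈ D, ψ c ^ d = 1)
    {w : fieldBar L M H ≃ₐ[QbH] fieldBar L M H} (hw : IsWAt L M H r w)
    (hp : p.Prime) (hrp : r ≠ p) (hpd : p ∣ d)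
    {c₀ : (ZMod M)ˣ} (hc₀ : c₀ ∈ D) (hc₀r : IsAtR M r c₀) (hψ₀ : ψ c₀ ^ (d / p) ≠ 1)
    {n₀ : ℤ} {ε e₁ e₂ : LaurentSeries QbH} {c' : QbH} (hc' : A.valuation c' = 1)
    (he1 : KronPrim A e₁) (he2 : KronPrim A e₂) (he : ε * e₂ = HahnSeries.C c' * e₁)
    (hzd : ((w (rtk6deY D ψ H hML) : fieldBar L M H) : LaurentSeries QbH) ^ d
      = HahnSeries.C (((r : ℕ) : QbH) ^ n₀) * ε) :
    ¬ (p : ℤ) ∣ n₀ := by
  have hM0 : M ≠ 0 := NeZero.ne M
  have hψc₀ : ψ c₀ ≠ 1 := by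
    intro h0
    apply hψ₀
    rw [h0, one_pow]
  have hM : 3 ≤ M := rtk6de_three_le ψ hM0 hψc₀
  have hy : rtk6deY D ψ H hML ≠ 0 := rtk6deY_ne_zero D ψ hM hψH hψ1 hML
  have hwy : w (rtk6deY D ψ H hML) ≠ 0 := fun h0 => hy ((map_eq_zero_iff w w.injective).1 h0)
  have hz : ((w (rtk6deY D ψ H hML) : fieldBar L M H) : LaurentSeries QbH) ≠ 0 := by
    intro h0
    exact hwy (Subtype.ext h0)
  haveI : Algebra.IsAlgebraic ℚ QbH := isAlgebraic_rat_qbar
  obtain ⟨c, y₁, y₂, hc, -, -, h1, h2, h⟩ := stmtPrimH L M H A (w (rtk6deY D ψ H hML)) hwy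
  obtain ⟨σ, hσ, hcyc⟩ := rtk6de_exists_cyc hr hrM A hA c₀ hc₀r
  have heig := rtk6de_eigen D ψ hL hML hr A hA hd hψd hw hσ hc₀ hcyc
  have hζd : ((ψ c₀ : QbHˣ) : QbH) ^ d = 1 := by
    rw [← Units.val_pow_eq_pow_val, hψd c₀ hc₀, Units.val_one]
  have hζ : ((ψ c₀ : QbHˣ) : QbH) ^ (d / p) ≠ 1 := by
    intro h0
    apply hψ₀
    apply Units.ext
    rw [Units.val_pow_eq_pow_val, h0, Units.val_one]
  exact rtk6de_main' A hr hA hp hrp hσ hz hc h1 h2 h heig hpd hζd hζ hc' he1 he2 he hzd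

/-- **D-E, instance level, coprime form.**  If `ψ(c₀)` has order exactly `d` for some diamond
`c₀ ∈ D` at `r` (`r ∤ d`) and `(w y)^d = r^n₀ · ε`, `ε` of unit content, then `gcd(n₀, d) = 1`. -/
theorem rtk6de_inst_coprime (hL : L ≠ 0) (hML : M ∣ L) {r d : ℕ} (hr : r.Prime) (hrM : r ∣ M)
    (A : ValuationSubring QbH) (hA : A.LiesOverPrime r) (hd : ¬ r ∣ d)
    (hψH : ∀ h ∈ H, ψ h = 1) (hψ1 : ψ (-1) = 1) (hψd : ∀ c ∈ D, ψ c ^ d = 1)
    {w : fieldBar L M H ≃ₐ[QbH] fieldBar L M H} (hw : IsWAt L M H r w)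
    {c₀ : (ZMod M)ˣ} (hc₀ : c₀ ∈ D) (hc₀r : IsAtR M r c₀) (hord : orderOf (ψ c₀) = d)
    {n₀ : ℤ} {ε e₁ e₂ : LaurentSeries QbH} {c' : QbH} (hc' : A.valuation c' = 1)
    (he1 : KronPrim A e₁) (he2 : KronPrim A e₂) (he : ε * e₂ = HahnSeries.C c' * e₁)
    (hzd : ((w (rtk6deY D ψ H hML) : fieldBar L M H) : LaurentSeries QbH) ^ d
      = HahnSeries.C (((r : ℕ) : QbH) ^ n₀) * ε) :
    Nat.Coprime n₀.natAbs d := by
  have hd0 : d ≠ 0 := by
    rintro rfl
    exact hd (dvd_zero r)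
  apply Nat.Coprime.symm
  refine Nat.coprime_of_dvd fun p hp hpd hpn => ?_
  have hrp : r ≠ p := by
    rintro rfl
    exact hd hpd
  have hψ₀ : ψ c₀ ^ (d / p) ≠ 1 := by
    intro h0
    have h1 : orderOf (ψ c₀) ∣ d / p := orderOf_dvd_of_pow_eq_one h0
    rw [hord] at h1
    have h2 : 0 < d / p := Nat.div_pos (Nat.le_of_dvd (Nat.pos_of_ne_zero hd0) hpd) hp.pos
    have h3 : d ≤ d / p := Nat.le_of_dvd h2 h1
    have h4 : d / p < d := Nat.div_lt_self (Nat.pos_of_ne_zero hd0) hp.one_lt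
    omega
  refine rtk6de_inst D ψ hL hML hr hrM A hA hd hψH hψ1 hψd hw hp hrp hpd hc₀ hc₀r hψ₀ hc' he1 he2
    he hzd ?_
  exact Int.natCast_dvd.2 hpn

/-- **`v_∞(u₀) = 0`**: the Kummer generator (hence `u₀ = y ^ d`) is primitive at `A`, for
`D` = the diamonds at `r`, `r ∥ M`. -/
theorem rtk6de_inf {r : ℕ} (hr : r.Prime) (hrM : r ∣ M) (hr2 : ¬ r ^ 2 ∣ M)
    (A : ValuationSubring QbH) (hA : A.LiesOverPrime r) (hM : 3 ≤ M)
    (hψH : ∀ h ∈ H, ψ h = 1) (hψ1 : ψ (-1) = 1) (d : ℕ) :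
    KronPrim A (rtk6d0Y QbH M H (rtk6deD M r hrM) ψ) ∧
      KronPrim A (rtk6d0Y QbH M H (rtk6deD M r hrM) ψ ^ d) := by
  classical
  haveI : Algebra.IsAlgebraic ℚ QbH := isAlgebraic_rat_qbar
  have hN : (rtk6d0N M H (rtk6deD M r hrM) : QbH) ∉ A.nonunits := by
    have h1 : rtk6d0N M H (rtk6deD M r hrM) < r :=
      lt_of_le_of_lt (Finset.card_filter_le _ _) (rtk6de_card_D_lt hr hrM hr2)
    have h2 := rtk6d0N_pos M H (rtk6deD M r hrM)
    have hnd : ¬ (r : ℤ) ∣ ((rtk6d0N M H (rtk6deD M r hrM) : ℕ) : ℤ) := by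
      intro h
      have h3 : r ∣ rtk6d0N M H (rtk6deD M r hrM) := by exact_mod_cast h
      exact Nat.not_dvd_of_pos_of_lt h2 h1 h3
    have h4 := tame_val_int A hr hA _ hnd
    rw [ValuationSubring.mem_nonunits_iff]
    have h5 : A.valuation ((rtk6d0N M H (rtk6deD M r hrM) : ℕ) : QbH) = 1 := by
      simpa using h4
    rw [h5]
    exact lt_irrefl _
  have hP := rtk6d0_kronPrim QbH (rtk6deD M r hrM) ψ A hM hψH hψ1 hN
  exact ⟨hP, hP.pow d⟩

end Inst

end Fermat.Agent.RT.K6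

end
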