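/-
K-machine, piece K6, piece **E-BASE** (helper66): the BASE hypotheses of `rtk6ew_main_multi`
(`RT/K6/EWMulti.lean`) at the concrete objects of the instance phase (v6 of `NOTES/RT-K6-D.md`):

  `A₀ := A′ = mgcA A K₁`,  `E := E′ = mgcE A K₁`,  `F := F′ = rtk6diF A K₁ L M H`,
  `t := rtk6diT A K₁ L M H`,  `g := rtk6diGal L M H σ hσE`,  `Φ := SemilinearAut.ofAlgAut δ₀`.

* `rtk6eb_noeth₁`, `rtk6eb_noeth₂` : the two charts `B′₁ = zchClosure {t}`, `B′₂ = zchClosure {t⁻¹}`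
  are noetherian;
* `rtk6eb_finiteDimensional_inv`, `rtk6eb_transcendental_inv` : the chart `t⁻¹`;
* `rtk6eb_hpu`, `rtk6eb_hζ`, `rtk6eb_hunit` : `p ≠ r` is a unit of `A′`, `μ_p ⊆ A′`, the units of
  `A′` are `p`-th powers;
* `rtk6eb_exists_irreducible` : **hπ** — a uniformizer `π′` of `A′`;
* `rtk6eb_hgA`, `rtk6eb_hgA'` : **hgA**, **hgA′** for `σ` in the INERTIA group;
  `rtk6eb_hgt` : **hgt**;
* `rtk6eb_hΦt`, `rtk6eb_hΦA`, `rtk6eb_hΦA'`, `rtk6eb_hΦ'` : **hΦt**, **hΦA**, **hΦA′**, **hΦ′**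
  for `Φ = SemilinearAut.ofAlgAut δ₀`, `δ₀` a diamond (`IsDiamondC`) of `F′`;
* `rtk6eb_hq0`, `rtk6eb_hqπ` : **hq0**, **hqπ** for any `q : A′` of valuation `< 1`, `≠ 0`.
The element `ϖ₁` (`ϖ₁ ^ d = r`, uniformizer of `A₁ = mgcA A K₁′`) is in `RT/K6/EBaseVarpi.lean`.
-/
import Fermat.Agent.RT.K6.DIVertGal
import Fermat.Agent.RT.K6.D0Gal
import Fermat.Agent.INJ.ChartFinite
import Fermat.Agent.UNIP.MGMain

set_option autoImplicit false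
set_option linter.style.haveILetI false
set_option linter.unusedSectionVars false
set_option linter.unusedVariables false

noncomputable section

namespace Fermat.Agent.RT.K6

open ModularCurve AlgebraicCurve Fermat.Agent.ES Fermat.Agent.ES.G2 Fermat.Agent.INJ
open Fermat.Agent.UNIP Fermat.Agent.ES1 Fermat.Agent.ES1.G2 IntermediateField

section Charts

variable (A : ValuationSubring Qb) (K₁ : IntermediateField ℚ Qb)
  (L M : ℕ) (H : Subgroup (ZMod M)ˣ) [IsDiscreteValuationRing ↥(mgcA A K₁)]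

/-- the chart `t⁻¹`: `1 / j` is transcendental -/
theorem rtk6eb_transcendental_inv :
    Transcendental ↥(mgcE A K₁) (rtk6diT A K₁ L M H)⁻¹ :=
  zch_transcendental_inv (rtk6di_transcendental A K₁ L M H)

/-- the chart `t⁻¹`: `F′` is finite over `E′(1 / j)` -/
theorem rtk6eb_finiteDimensional_inv (hL : L ≠ 0) (hML : M ∣ L) :
    FiniteDimensional (↥(mgcE A K₁))⟮(rtk6diT A K₁ L M H)⁻¹⟯ ↥(rtk6diF A K₁ L M H) := by
  haveI := rtk6di_finiteDimensional A K₁ L M H hL hML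
  exact at_finiteDimensional_inv (rtk6diT A K₁ L M H)

/-- **The chart `B′₁ = zchClosure {t}` of `F′` is noetherian.** -/
theorem rtk6eb_noeth₁ (hL : L ≠ 0) (hML : M ∣ L) :
    IsNoetherianRing ↥(zchClosure (A₀ := ↥(mgcA A K₁))
      ({rtk6diT A K₁ L M H} : Set ↥(rtk6diF A K₁ L M H))) := by
  haveI := rtk6di_finiteDimensional A K₁ L M H hL hML
  exact chart_closure_isNoetherianRing (A₀ := ↥(mgcA A K₁)) (E := ↥(mgcE A K₁))
    (rtk6di_transcendental A K₁ L M H)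

/-- **The chart `B′₂ = zchClosure {t⁻¹}` of `F′` is noetherian.** -/
theorem rtk6eb_noeth₂ (hL : L ≠ 0) (hML : M ∣ L) :
    IsNoetherianRing ↥(zchClosure (A₀ := ↥(mgcA A K₁))
      ({(rtk6diT A K₁ L M H)⁻¹} : Set ↥(rtk6diF A K₁ L M H))) := by
  haveI := rtk6eb_finiteDimensional_inv A K₁ L M H hL hML
  exact chart_closure_isNoetherianRing (A₀ := ↥(mgcA A K₁)) (E := ↥(mgcE A K₁))
    (rtk6eb_transcendental_inv A K₁ L M H)

end Charts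

section Base

variable {A : ValuationSubring Qb} (K₁ : IntermediateField ℚ Qb) {r : ℕ}

/-- a prime `p ≠ r` is not in the maximal ideal of `A` -/
theorem rtk6eb_not_mem_nonunits (hr : r.Prime) (hA : A.LiesOverPrime r) {p : ℕ} (hp : p.Prime)
    (hpr : p ≠ r) : ((p : ℕ) : Qb) ∉ A.nonunits := by
  have := Fermat.Agent.S31.natCast_pow_not_mem_nonunits A hp hr (Ne.symm hpr) hA 1
  rwa [pow_one] at this

/-- **hpu**: a prime `p ≠ r` is a unit of `A′`. -/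
theorem rtk6eb_hpu (hr : r.Prime) (hA : A.LiesOverPrime r) {p : ℕ} (hp : p.Prime)
    (hpr : p ≠ r) : IsUnit ((p : ℕ) : ↥(mgcA A K₁)) :=
  beta0Ring_hpu (rtk6eb_not_mem_nonunits hr hA hp hpr)

/-- **hζ**: `A′` contains a primitive `p`-th root of unity, `p ≠ r`. -/
theorem rtk6eb_hζ (hr : r.Prime) (hA : A.LiesOverPrime r) {p : ℕ} (hp : p.Prime)
    (hpr : p ≠ r) : ∃ ζ : ↥(mgcA A K₁), IsPrimitiveRoot ζ p :=
  beta0Ring_exists_primitiveRoot (A := A) (K₀ := mgcE A K₁) le_sup_left hp.ne_zero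
    (rtk6eb_not_mem_nonunits hr hA hp hpr)

/-- **hunit**: the units of `A′` are `p`-th powers, `p ≠ r`. -/
theorem rtk6eb_hunit (hr : r.Prime) (hA : A.LiesOverPrime r) {p : ℕ} (hp : p.Prime)
    (hpr : p ≠ r) : ∀ a : ↥(mgcA A K₁), IsUnit a → ∃ d : ↥(mgcA A K₁), d ^ p = a :=
  beta0Ring_hunit (A := A) (K₀ := mgcE A K₁) hr hA le_sup_left hp.ne_zero
    (rtk6eb_not_mem_nonunits hr hA hp hpr)

/-- roots of unity of any order `n` prime to `r` in `A′` -/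
theorem rtk6eb_exists_primitiveRoot (hr : r.Prime) (hA : A.LiesOverPrime r) {n : ℕ}
    (hn0 : n ≠ 0) (hn : ((n : ℕ) : Qb) ∉ A.nonunits) :
    ∃ ζ : ↥(mgcA A K₁), IsPrimitiveRoot ζ n :=
  beta0Ring_exists_primitiveRoot (A := A) (K₀ := mgcE A K₁) le_sup_left hn0 hn

/-- **hπ**: `A′` has a uniformizer. -/
theorem rtk6eb_exists_irreducible [IsDiscreteValuationRing ↥(mgcA A K₁)] :
    ∃ π : ↥(mgcA A K₁), Irreducible π :=
  IsDiscreteValuationRing.exists_irreducible ↥(mgcA A K₁)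

/-- **hqπ**: a uniformizer of `A′` divides every element of `A′` of valuation `< 1`. -/
theorem rtk6eb_hqπ [IsDiscreteValuationRing ↥(mgcA A K₁)] {π : ↥(mgcA A K₁)}
    (hπ : Irreducible π) (q : ↥(mgcA A K₁))
    (hq : (((q : ↥(mgcA A K₁)) : ↥(mgcE A K₁)) : Qb) ∈ A.nonunits) : π ∣ q := by
  have hqn : ¬ IsUnit q := by
    intro hu
    rw [beta0Ring_isUnit_iff, beta0_valuation_eq_one_iff] at hu
    exact hu.2 hq
  have hmem : q ∈ IsLocalRing.maximalIdeal ↥(mgcA A K₁) :=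
    (IsLocalRing.mem_maximalIdeal q).mpr hqn
  rw [(IsDiscreteValuationRing.irreducible_iff_uniformizer π).mp hπ] at hmem
  exact Ideal.mem_span_singleton.mp hmem

end Base

section Gal

variable {A : ValuationSubring Qb} {K₁ : IntermediateField ℚ Qb}
  (L M : ℕ) (H : Subgroup (ZMod M)ˣ)

/-- **hgt** for `g = rtk6diGal σ` -/
theorem rtk6eb_hgt (σ : Qb ≃ₐ[ℚ] Qb) (hσE : ∀ x ∈ mgcE A K₁, σ x ∈ mgcE A K₁) :
    rtk6diGal L M H σ hσE • rtk6diT A K₁ L M H = rtk6diT A K₁ L M H :=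
  rtk6di_smul_T L M H σ hσE

/-- **hgA** for `g = rtk6diGal σ`, `σ` in the inertia group -/
theorem rtk6eb_hgA {σ : Qb ≃ₐ[ℚ] Qb} (hσ : σ ∈ A.inertiaSubgroupIn ℚ)
    (hσE : ∀ x ∈ mgcE A K₁, σ x ∈ mgcE A K₁) :
    ∀ α : ↥(mgcA A K₁), ∃ α' : ↥(mgcA A K₁),
      rtk6diGal L M H σ hσE • algebraMap ↥(mgcA A K₁) ↥(rtk6diF A K₁ L M H) α =
        algebraMap ↥(mgcA A K₁) ↥(rtk6diF A K₁ L M H) α' :=
  rtk6dv_hgA L M H (kron_mem_decomposition_of_mem_inertia hσ) hσE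

/-- **hgA′** for `g = rtk6diGal σ`, `σ` in the inertia group -/
theorem rtk6eb_hgA' {σ : Qb ≃ₐ[ℚ] Qb} (hσ : σ ∈ A.inertiaSubgroupIn ℚ)
    (hσE : ∀ x ∈ mgcE A K₁, σ x ∈ mgcE A K₁) :
    ∀ α : ↥(mgcA A K₁), ∃ α' : ↥(mgcA A K₁),
      (rtk6diGal L M H σ hσE)⁻¹ • algebraMap ↥(mgcA A K₁) ↥(rtk6diF A K₁ L M H) α =
        algebraMap ↥(mgcA A K₁) ↥(rtk6diF A K₁ L M H) α' :=
  rtk6dv_hgA_inv L M H (kron_mem_decomposition_of_mem_inertia hσ) hσE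

/-- `σ E′ ⊆ E′` for `σ` in the inertia group -/
theorem rtk6eb_stable {σ : Qb ≃ₐ[ℚ] Qb} (hσ : σ ∈ A.inertiaSubgroupIn ℚ)
    (K₁ : IntermediateField ℚ Qb) [Normal ℚ K₁] : ∀ x ∈ mgcE A K₁, σ x ∈ mgcE A K₁ :=
  mga_stable_beta0_sup hσ K₁

end Gal

section Diamond

variable {A : ValuationSubring Qb} {K₁ : IntermediateField ℚ Qb}
  {L M : ℕ} {H : Subgroup (ZMod M)ˣ}

/-- **hΦ′**: the ring homomorphism underlying `Φ = SemilinearAut.ofAlgAut δ₀` -/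
theorem rtk6eb_hΦ' (δ₀ : ↥(rtk6diF A K₁ L M H) ≃ₐ[↥(mgcE A K₁)] ↥(rtk6diF A K₁ L M H))
    (x : ↥(rtk6diF A K₁ L M H)) :
    (δ₀ : ↥(rtk6diF A K₁ L M H) →+* ↥(rtk6diF A K₁ L M H)) x =
      SemilinearAut.ofAlgAut δ₀ • x := rfl

/-- **hΦt**: a diamond fixes `j` -/
theorem rtk6eb_hΦt {c : (ZMod M)ˣ}
    {δ₀ : ↥(rtk6diF A K₁ L M H) ≃ₐ[↥(mgcE A K₁)] ↥(rtk6diF A K₁ L M H)}
    (hδ₀ : IsDiamondC ↥(mgcE A K₁) L M H c δ₀) :
    SemilinearAut.ofAlgAut δ₀ • rtk6diT A K₁ L M H = rtk6diT A K₁ L M H := by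
  rw [SemilinearAut.ofAlgAut_smul]
  exact hδ₀.fix _ (bgJ ↥(mgcE A K₁) L).2

/-- **hΦA**: a diamond is `E′`-linear -/
theorem rtk6eb_hΦA (δ₀ : ↥(rtk6diF A K₁ L M H) ≃ₐ[↥(mgcE A K₁)] ↥(rtk6diF A K₁ L M H)) :
    ∀ α : ↥(mgcA A K₁), ∃ α' : ↥(mgcA A K₁),
      SemilinearAut.ofAlgAut δ₀ • algebraMap ↥(mgcA A K₁) ↥(rtk6diF A K₁ L M H) α =
        algebraMap ↥(mgcA A K₁) ↥(rtk6diF A K₁ L M H) α' := by
  intro α
  refine ⟨α, ?_⟩
  rw [SemilinearAut.ofAlgAut_smul,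
    IsScalarTower.algebraMap_apply ↥(mgcA A K₁) ↥(mgcE A K₁) ↥(rtk6diF A K₁ L M H)]
  exact δ₀.commutes _

/-- **hΦA′** -/
theorem rtk6eb_hΦA' (δ₀ : ↥(rtk6diF A K₁ L M H) ≃ₐ[↥(mgcE A K₁)] ↥(rtk6diF A K₁ L M H)) :
    ∀ α : ↥(mgcA A K₁), ∃ α' : ↥(mgcA A K₁),
      (SemilinearAut.ofAlgAut δ₀)⁻¹ • algebraMap ↥(mgcA A K₁) ↥(rtk6diF A K₁ L M H) α =
        algebraMap ↥(mgcA A K₁) ↥(rtk6diF A K₁ L M H) α' := by
  intro α
  refine ⟨α, ?_⟩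
  rw [inv_smul_eq_iff]
  obtain ⟨α', hα'⟩ := rtk6eb_hΦA δ₀ α
  rw [SemilinearAut.ofAlgAut_smul,
    IsScalarTower.algebraMap_apply ↥(mgcA A K₁) ↥(mgcE A K₁) ↥(rtk6diF A K₁ L M H)]
  exact (δ₀.commutes _).symm

end Diamond

end Fermat.Agent.RT.K6
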