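/-
K-machine, piece K6, piece **E-BASE** (helper66), part 2: **the element `ϖ₁`**.

`r` prime, `A ⊂ ℚ̄` a valuation ring over `r`, `d ≠ 0` prime to `r`.
`K₁′ = rtk6ebK r d` := the splitting field of `X ^ d − r` (a Galois number field),
`E₁ = mgcE A K₁′ = ℚ̄^I · K₁′ = ℚ̄^I(ϖ)`, `A₁ = mgcA A K₁′`, `ϖ ^ d = r`.

* `rtk6eb_val_zpow`  : the value group of `E₁` is generated by `v(ϖ)`  (dominant term);
* `rtk6eb_isDVR`     : `A₁` is a discrete valuation ring;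
* `rtk6ebVarpi`      : `ϖ₁ : A₁`;  `rtk6ebVarpi_pow : ϖ₁ ^ d = r`,
  `rtk6ebVarpi_irreducible : Irreducible ϖ₁`  (**`ϖ₁` is a uniformizer of `A₁`**);
* `rtk6eb_exists_varpi` : existence form;
* `rtk6ebQ h ϖ₁` : the image `q` of `ϖ₁` in `A′ = mgcA A K₁`, `K₁′ ≤ K₁`;
  `rtk6ebQ_ne_zero` (**hq0**), `rtk6ebQ_dvd` (**hqπ** : `π′ ∣ q`), `rtk6ebQ_pow : q ^ d = r`.
-/
import Fermat.Agent.RT.K6.EBase
import Fermat.Agent.RT.K6.DE

set_option autoImplicit false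
set_option linter.style.haveILetI false
set_option linter.unusedSectionVars false
set_option linter.unusedVariables false

noncomputable section

namespace Fermat.Agent.RT.K6

open ModularCurve AlgebraicCurve Fermat.Agent.ES Fermat.Agent.ES.G2 Fermat.Agent.INJ
open Fermat.Agent.UNIP Fermat.Agent.ES1 Fermat.Agent.ES1.G2 IntermediateField Polynomial

section Field

variable (r d : ℕ)

/-- the polynomial `X ^ d − r` over `ℚ` -/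
def rtk6ebPoly : ℚ[X] := X ^ d - C (r : ℚ)

theorem rtk6ebPoly_ne_zero (hd0 : d ≠ 0) : rtk6ebPoly r d ≠ 0 :=
  (monic_X_pow_sub_C (r : ℚ) hd0).ne_zero

theorem rtk6eb_mem_rootSet (hd0 : d ≠ 0) {x : Qb} :
    x ∈ (rtk6ebPoly r d).rootSet Qb ↔ x ^ d = (r : Qb) := by
  rw [mem_rootSet]
  constructor
  · rintro ⟨-, h⟩
    have h' : x ^ d - (r : Qb) = 0 := by
      simpa [rtk6ebPoly] using h
    exact sub_eq_zero.mp h'
  · intro h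
    refine ⟨rtk6ebPoly_ne_zero r d hd0, ?_⟩
    simp [rtk6ebPoly, h]

/-- `K₁′` := the splitting field of `X ^ d − r` in `ℚ̄` -/
def rtk6ebK : IntermediateField ℚ Qb :=
  IntermediateField.adjoin ℚ ((rtk6ebPoly r d).rootSet Qb)

theorem rtk6eb_mem_K (hd0 : d ≠ 0) {x : Qb} (hx : x ^ d = (r : Qb)) : x ∈ rtk6ebK r d :=
  IntermediateField.subset_adjoin ℚ _ ((rtk6eb_mem_rootSet r d hd0).mpr hx)

instance rtk6ebK_isSplittingField :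
    IsSplittingField ℚ ↥(rtk6ebK r d) (rtk6ebPoly r d) :=
  IntermediateField.adjoin_rootSet_isSplittingField (IsAlgClosed.splits _)

instance rtk6ebK_finiteDimensional : FiniteDimensional ℚ ↥(rtk6ebK r d) :=
  IsSplittingField.finiteDimensional ↥(rtk6ebK r d) (rtk6ebPoly r d)

instance rtk6ebK_numberField : NumberField ↥(rtk6ebK r d) :=
  { to_charZero := inferInstance, to_finiteDimensional := inferInstance }

instance rtk6ebK_normal : Normal ℚ ↥(rtk6ebK r d) :=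
  Normal.of_isSplittingField (rtk6ebPoly r d)

instance rtk6ebK_isGalois : IsGalois ℚ ↥(rtk6ebK r d) := IsGalois.mk

end Field

section Val

variable {A : ValuationSubring Qb} {r d : ℕ}

/-- `v(r) < 1` -/
theorem rtk6eb_val_r_lt (hA : A.LiesOverPrime r) : A.valuation ((r : ℕ) : Qb) < 1 :=
  (ValuationSubring.mem_nonunits_iff A).mp hA

/-- `v(ϖ) < 1` -/
theorem rtk6eb_val_varpi_lt (hA : A.LiesOverPrime r) (hd0 : d ≠ 0) {ϖ : Qb}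
    (hϖ : ϖ ^ d = (r : Qb)) : A.valuation ϖ < 1 := by
  by_contra hcon
  rw [not_lt] at hcon
  have h1 : (1 : _) ≤ A.valuation ϖ ^ d := one_le_pow₀ hcon
  rw [← map_pow, hϖ] at h1
  exact absurd (rtk6eb_val_r_lt hA) (not_lt.mpr h1)

theorem rtk6eb_varpi_ne_zero (hr : r.Prime) (hd0 : d ≠ 0) {ϖ : Qb} (hϖ : ϖ ^ d = (r : Qb)) :
    ϖ ≠ 0 := by
  rintro rfl
  rw [zero_pow hd0] at hϖ
  exact (Nat.cast_ne_zero.mpr hr.ne_zero) hϖ.symm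

/-- the `d`-th roots of unity lie in `ℚ̄^I` -/
theorem rtk6eb_root_mem_beta0 (hr : r.Prime) (hA : A.LiesOverPrime r) (hdr : ¬ r ∣ d)
    {ζ : Qb} (hζ : ζ ^ d = 1) : ζ ∈ beta0Field A := by
  haveI : Algebra.IsAlgebraic ℚ Qb := AlgebraicClosure.isAlgebraic ℚ
  exact mem_beta0Field.mpr fun σ hσ => rtk6de_inertia_fix_root A hr hA hdr hσ hζ

/-- every element of `E₁ = ℚ̄^I · K₁′` is a polynomial of degree `< d` in `ϖ` over `ℚ̄^I` -/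
theorem rtk6eb_exists_coeff (hr : r.Prime) (hA : A.LiesOverPrime r) (hd0 : d ≠ 0)
    (hdr : ¬ r ∣ d) {ϖ : Qb} (hϖ : ϖ ^ d = (r : Qb)) {x : Qb}
    (hx : x ∈ mgcE A (rtk6ebK r d)) :
    ∃ c : Fin d → Qb, (∀ i, c i ∈ beta0Field A) ∧ x = ∑ i, c i * ϖ ^ (i : ℕ) := by
  have hϖ0 := rtk6eb_varpi_ne_zero hr hd0 hϖ
  have hr0 : ((r : ℕ) : Qb) ≠ 0 := Nat.cast_ne_zero.mpr hr.ne_zero
  have hle : mgcE A (rtk6ebK r d) ≤
      (IntermediateField.adjoin (↥(beta0Field A)) ({ϖ} : Set Qb)).restrictScalars ℚ := by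
    refine sup_le ?_ ?_
    · intro a ha
      exact IntermediateField.algebraMap_mem
        (IntermediateField.adjoin (↥(beta0Field A)) ({ϖ} : Set Qb)) (⟨a, ha⟩ : ↥(beta0Field A))
    · refine IntermediateField.adjoin_le_iff.mpr ?_
      intro y hy
      have hy' := (rtk6eb_mem_rootSet r d hd0).mp hy
      have hζ : (y / ϖ) ^ d = 1 := by
        rw [div_pow, hy', hϖ, div_self hr0]
      have hζE := rtk6eb_root_mem_beta0 hr hA hdr hζ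
      have e : y = (y / ϖ) * ϖ := by field_simp
      have h1 : (y / ϖ) * ϖ ∈ IntermediateField.adjoin (↥(beta0Field A)) ({ϖ} : Set Qb) :=
        mul_mem (IntermediateField.algebraMap_mem _ (⟨y / ϖ, hζE⟩ : ↥(beta0Field A)))
          (IntermediateField.mem_adjoin_simple_self _ ϖ)
      rw [← e] at h1
      exact h1
  have hxT : x ∈ IntermediateField.adjoin (↥(beta0Field A)) ({ϖ} : Set Qb) := hle hx
  have hqm : (X ^ d - C ((r : ℕ) : ↥(beta0Field A)) : (↥(beta0Field A))[X]).Monic :=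
    monic_X_pow_sub_C _ hd0
  have hqϖ : aeval ϖ (X ^ d - C ((r : ℕ) : ↥(beta0Field A)) : (↥(beta0Field A))[X]) = 0 := by
    rw [map_sub, map_pow, aeval_X, aeval_C, hϖ, map_natCast, sub_self]
  have halg : IsAlgebraic (↥(beta0Field A)) ϖ := ⟨_, hqm.ne_zero, hqϖ⟩
  have hxA : x ∈ (IntermediateField.adjoin (↥(beta0Field A)) ({ϖ} : Set Qb)).toSubalgebra := hxT
  rw [IntermediateField.adjoin_simple_toSubalgebra_of_isAlgebraic halg,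
    Algebra.adjoin_singleton_eq_range_aeval] at hxA
  obtain ⟨P, rfl⟩ := hxA
  have hq1 : (X ^ d - C ((r : ℕ) : ↥(beta0Field A)) : (↥(beta0Field A))[X]) ≠ 1 := by
    intro h
    have := congrArg Polynomial.natDegree h
    rw [natDegree_X_pow_sub_C, natDegree_one] at this
    exact hd0 this
  have hdeg : (P %ₘ (X ^ d - C ((r : ℕ) : ↥(beta0Field A)))).natDegree < d := by
    have := natDegree_modByMonic_lt P hqm hq1
    rwa [natDegree_X_pow_sub_C] at this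
  have hPR : aeval ϖ P = aeval ϖ (P %ₘ (X ^ d - C ((r : ℕ) : ↥(beta0Field A)))) := by
    conv_lhs => rw [← modByMonic_add_div P (X ^ d - C ((r : ℕ) : ↥(beta0Field A)))]
    rw [map_add, map_mul, hqϖ, zero_mul, add_zero]
  refine ⟨fun i => algebraMap (↥(beta0Field A)) Qb
    ((P %ₘ (X ^ d - C ((r : ℕ) : ↥(beta0Field A)))).coeff i),
    fun i => ((P %ₘ (X ^ d - C ((r : ℕ) : ↥(beta0Field A)))).coeff i).2, ?_⟩
  show aeval ϖ P = _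
  rw [hPR, aeval_eq_sum_range' hdeg,
    ← Fin.sum_univ_eq_sum_range
      (fun i => (P %ₘ (X ^ d - C ((r : ℕ) : ↥(beta0Field A)))).coeff i • ϖ ^ i) d]
  refine Finset.sum_congr rfl fun i _ => ?_
  rw [Algebra.smul_def]

/-- **The value group of `E₁ = ℚ̄^I · K₁′` is generated by `v(ϖ)`.** -/
theorem rtk6eb_val_zpow (hr : r.Prime) (hA : A.LiesOverPrime r) (hd0 : d ≠ 0)
    (hdr : ¬ r ∣ d) {ϖ : Qb} (hϖ : ϖ ^ d = (r : Qb)) {x : Qb}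
    (hx : x ∈ mgcE A (rtk6ebK r d)) (hx0 : x ≠ 0) :
    ∃ k : ℤ, A.valuation x = A.valuation ϖ ^ k := by
  obtain ⟨c, hc, rfl⟩ := rtk6eb_exists_coeff hr hA hd0 hdr hϖ hx
  have hγ1 := rtk6eb_val_varpi_lt hA hd0 hϖ
  have hϖ0 := rtk6eb_varpi_ne_zero hr hd0 hϖ
  have hγ0 : 0 < A.valuation ϖ := zero_lt_iff.mpr ((Valuation.ne_zero_iff _).mpr hϖ0)
  have hcv : ∀ i, c i ≠ 0 → ∃ k : ℤ, A.valuation (c i) = A.valuation ϖ ^ ((d : ℤ) * k) := by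
    intro i hi
    obtain ⟨k, hk⟩ := beta0_valuation_eq_zpow hr hA (hc i) hi
    refine ⟨k, ?_⟩
    rw [hk, ← hϖ, map_pow, zpow_mul, zpow_natCast]
  rcases beta0_sum_dominant A.valuation hγ0 hγ1 rfl c hcv with hall | ⟨j, hj, hval, -⟩
  · exfalso
    apply hx0
    exact Finset.sum_eq_zero (fun i _ => by rw [hall i, zero_mul])
  · obtain ⟨k, hk⟩ := hcv j hj
    refine ⟨(d : ℤ) * k + (j : ℕ), ?_⟩
    rw [hval, map_mul, map_pow, hk, zpow_add₀ hγ0.ne', zpow_natCast]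

/-- **`A₁ = mgcA A K₁′` is a discrete valuation ring.** -/
theorem rtk6eb_isDVR (hr : r.Prime) (hA : A.LiesOverPrime r) :
    IsDiscreteValuationRing ↥(mgcA A (rtk6ebK r d)) :=
  beta0Ring_isDVR_sup (rtk6ebK r d) hr hA

theorem rtk6eb_varpi_mem_E (hd0 : d ≠ 0) {ϖ : Qb} (hϖ : ϖ ^ d = (r : Qb)) :
    ϖ ∈ mgcE A (rtk6ebK r d) :=
  (le_sup_right : rtk6ebK r d ≤ mgcE A (rtk6ebK r d)) (rtk6eb_mem_K r d hd0 hϖ)

theorem rtk6eb_varpi_mem_A (hA : A.LiesOverPrime r) (hd0 : d ≠ 0) {ϖ : Qb}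
    (hϖ : ϖ ^ d = (r : Qb)) : ϖ ∈ A :=
  (A.valuation_le_one_iff _).mp (rtk6eb_val_varpi_lt hA hd0 hϖ).le

/-- **`ϖ₁ : A₁`**, the element `ϖ` (`ϖ ^ d = r`) viewed in `A₁ = mgcA A K₁′` -/
def rtk6ebVarpi (hA : A.LiesOverPrime r) (hd0 : d ≠ 0) {ϖ : Qb} (hϖ : ϖ ^ d = (r : Qb)) :
    ↥(mgcA A (rtk6ebK r d)) :=
  ⟨⟨ϖ, rtk6eb_varpi_mem_E hd0 hϖ⟩, rtk6eb_varpi_mem_A hA hd0 hϖ⟩

@[simp] theorem rtk6ebVarpi_coe (hA : A.LiesOverPrime r) (hd0 : d ≠ 0) {ϖ : Qb}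
    (hϖ : ϖ ^ d = (r : Qb)) :
    (((rtk6ebVarpi hA hd0 hϖ : ↥(mgcA A (rtk6ebK r d))) : ↥(mgcE A (rtk6ebK r d))) : Qb) = ϖ :=
  rfl

/-- **`ϖ₁ ^ d = r`** in `A₁` -/
theorem rtk6ebVarpi_pow (hA : A.LiesOverPrime r) (hd0 : d ≠ 0) {ϖ : Qb}
    (hϖ : ϖ ^ d = (r : Qb)) :
    rtk6ebVarpi hA hd0 hϖ ^ d = ((r : ℕ) : ↥(mgcA A (rtk6ebK r d))) := by
  apply Subtype.ext
  apply Subtype.ext
  simp only [SubmonoidClass.coe_pow, SubringClass.coe_natCast, rtk6ebVarpi_coe]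
  exact hϖ

theorem rtk6ebVarpi_ne_zero (hr : r.Prime) (hA : A.LiesOverPrime r) (hd0 : d ≠ 0) {ϖ : Qb}
    (hϖ : ϖ ^ d = (r : Qb)) : rtk6ebVarpi hA hd0 hϖ ≠ 0 := by
  intro h
  have h' := congrArg
    (fun z : ↥(mgcA A (rtk6ebK r d)) => ((z : ↥(mgcE A (rtk6ebK r d))) : Qb)) h
  exact rtk6eb_varpi_ne_zero hr hd0 hϖ h'

/-- **`ϖ₁` is a uniformizer of `A₁`.** -/
theorem rtk6ebVarpi_irreducible (hr : r.Prime) (hA : A.LiesOverPrime r) (hd0 : d ≠ 0)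
    (hdr : ¬ r ∣ d) {ϖ : Qb} (hϖ : ϖ ^ d = (r : Qb)) :
    Irreducible (rtk6ebVarpi hA hd0 hϖ) := by
  have hγ1 := rtk6eb_val_varpi_lt hA hd0 hϖ
  have hϖ0 := rtk6eb_varpi_ne_zero hr hd0 hϖ
  have hγ0 : 0 < A.valuation ϖ := zero_lt_iff.mpr ((Valuation.ne_zero_iff _).mpr hϖ0)
  refine beta0_comap_irreducible A (algebraMap ↥(mgcE A (rtk6ebK r d)) Qb)
    (rtk6ebVarpi hA hd0 hϖ) ?_ hγ1 ?_
  · intro h
    exact hϖ0 (congrArg (fun z : ↥(mgcE A (rtk6ebK r d)) => (z : Qb)) h)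
  · intro x hx
    show (x : Qb) / ϖ ∈ A
    by_cases hx0 : (x : Qb) = 0
    · rw [hx0, zero_div]
      exact A.zero_mem
    obtain ⟨k, hk⟩ := rtk6eb_val_zpow hr hA hd0 hdr hϖ x.2 hx0
    have hxlt : A.valuation (x : Qb) < 1 := (ValuationSubring.mem_nonunits_iff A).mp hx
    rw [hk] at hxlt
    have hk1 : 1 ≤ k := by
      by_contra hcon
      rw [not_le] at hcon
      have hk0 : k ≤ 0 := by omega
      have : (1 : _) ≤ A.valuation ϖ ^ k :=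
        (one_le_zpow_iff_right_of_lt_one₀ hγ0 hγ1).mpr hk0
      exact absurd hxlt (not_lt.mpr this)
    rw [← A.valuation_le_one_iff, map_div₀, hk]
    have e : A.valuation ϖ ^ k / A.valuation ϖ = A.valuation ϖ ^ (k - 1) := by
      rw [zpow_sub₀ hγ0.ne', zpow_one]
    rw [e]
    exact (zpow_le_one_iff_right_of_lt_one₀ hγ0 hγ1).mpr (by omega)

/-- **E-BASE, existence form**: a Galois number field `K₁′` such that `A₁ = mgcA A K₁′` is a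
discrete valuation ring with a uniformizer `ϖ₁`, `ϖ₁ ^ d = r`. -/
theorem rtk6eb_exists_varpi (hr : r.Prime) (hA : A.LiesOverPrime r) (hd0 : d ≠ 0)
    (hdr : ¬ r ∣ d) :
    ∃ (K₁' : IntermediateField ℚ Qb) (_ : NumberField ↥K₁') (_ : IsGalois ℚ ↥K₁')
      (_ : IsDiscreteValuationRing ↥(mgcA A K₁')) (ϖ₁ : ↥(mgcA A K₁')),
      Irreducible ϖ₁ ∧ ϖ₁ ^ d = ((r : ℕ) : ↥(mgcA A K₁')) := by
  obtain ⟨ϖ, hϖ⟩ := IsAlgClosed.exists_pow_nat_eq ((r : ℕ) : Qb) (Nat.pos_of_ne_zero hd0)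
  exact ⟨rtk6ebK r d, inferInstance, inferInstance, rtk6eb_isDVR hr hA,
    rtk6ebVarpi hA hd0 hϖ, rtk6ebVarpi_irreducible hr hA hd0 hdr hϖ,
    rtk6ebVarpi_pow hA hd0 hϖ⟩

end Val

section Q

variable {A : ValuationSubring Qb} {r d : ℕ} {K₁' K₁ : IntermediateField ℚ Qb}

/-- `mgcE A K₁′ ≤ mgcE A K₁` for `K₁′ ≤ K₁` -/
theorem rtk6eb_mgcE_mono (h : K₁' ≤ K₁) : mgcE A K₁' ≤ mgcE A K₁ :=
  sup_le_sup_left h _

/-- **`q`** := the image of `ϖ₁ : A₁ = mgcA A K₁′` in `A′ = mgcA A K₁` (`K₁′ ≤ K₁`) -/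
def rtk6ebQ (h : K₁' ≤ K₁) : ↥(mgcA A K₁') →+* ↥(mgcA A K₁) :=
  beta0RingIncl (A := A) (rtk6eb_mgcE_mono h)

@[simp] theorem rtk6ebQ_coe (h : K₁' ≤ K₁) (x : ↥(mgcA A K₁')) :
    (((rtk6ebQ h x : ↥(mgcA A K₁)) : ↥(mgcE A K₁)) : Qb) =
      ((x : ↥(mgcE A K₁')) : Qb) :=
  beta0RingIncl_coe (A := A) (rtk6eb_mgcE_mono h) x

theorem rtk6ebQ_injective (h : K₁' ≤ K₁) :
    Function.Injective (rtk6ebQ (A := A) h) :=
  beta0RingIncl_injective (A := A) (rtk6eb_mgcE_mono h)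

/-- **hq0**: `q ≠ 0` -/
theorem rtk6ebQ_ne_zero (h : K₁' ≤ K₁) {ϖ₁ : ↥(mgcA A K₁')} (hϖ₁ : ϖ₁ ≠ 0) :
    rtk6ebQ h ϖ₁ ≠ 0 :=
  fun h0 => hϖ₁ (rtk6ebQ_injective h (by rw [h0, map_zero]))

/-- `q ^ d = r` -/
theorem rtk6ebQ_pow (h : K₁' ≤ K₁) {ϖ₁ : ↥(mgcA A K₁')}
    (hpow : ϖ₁ ^ d = ((r : ℕ) : ↥(mgcA A K₁'))) :
    rtk6ebQ h ϖ₁ ^ d = ((r : ℕ) : ↥(mgcA A K₁)) := by
  rw [← map_pow, hpow, map_natCast]

/-- a non-unit of `A₁` has value `< 1` -/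
theorem rtk6eb_val_lt_of_not_isUnit {x : ↥(mgcA A K₁')} (hx : ¬ IsUnit x) :
    ((x : ↥(mgcE A K₁')) : Qb) ∈ A.nonunits := by
  have hmem : x ∈ IsLocalRing.maximalIdeal ↥(mgcA A K₁') :=
    (IsLocalRing.mem_maximalIdeal x).mpr hx
  exact (beta0Ring_mem_maximalIdeal_iff x).mp hmem

/-- **hqπ**: `π′ ∣ q` for every uniformizer `π′` of `A′` -/
theorem rtk6ebQ_dvd [IsDiscreteValuationRing ↥(mgcA A K₁)] (h : K₁' ≤ K₁)
    {π : ↥(mgcA A K₁)} (hπ : Irreducible π) {ϖ₁ : ↥(mgcA A K₁')} (hϖ₁ : ¬ IsUnit ϖ₁) :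
    π ∣ rtk6ebQ h ϖ₁ := by
  have h1 : ((ϖ₁ : ↥(mgcE A K₁')) : Qb) ∈ A.nonunits := rtk6eb_val_lt_of_not_isUnit hϖ₁
  refine rtk6eb_hqπ K₁ hπ (rtk6ebQ h ϖ₁) ?_
  rw [rtk6ebQ_coe]
  exact h1

/-- **hqπ**, irreducible form -/
theorem rtk6ebQ_dvd_of_irreducible [IsDiscreteValuationRing ↥(mgcA A K₁)] (h : K₁' ≤ K₁)
    {π : ↥(mgcA A K₁)} (hπ : Irreducible π) {ϖ₁ : ↥(mgcA A K₁')} (hϖ₁ : Irreducible ϖ₁) :
    π ∣ rtk6ebQ h ϖ₁ :=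
  rtk6ebQ_dvd h hπ hϖ₁.not_isUnit

/-- **E-BASE, packaged**: for every `K₁ ⊇ K₁′ = rtk6ebK r d` (Galois number field) the ring
`A′ = mgcA A K₁` is a DVR, and there are a uniformizer `ϖ₁` of `A₁ = mgcA A K₁′` with
`ϖ₁ ^ d = r` whose image `q ∈ A′` is `≠ 0`, satisfies `q ^ d = r`, and is divisible by every
uniformizer `π′` of `A′`. -/
theorem rtk6eb_base (hr : r.Prime) (hA : A.LiesOverPrime r) (hd0 : d ≠ 0) (hdr : ¬ r ∣ d)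
    (K₁ : IntermediateField ℚ Qb) [NumberField ↥K₁] [IsGalois ℚ ↥K₁]
    (h : rtk6ebK r d ≤ K₁) :
    IsDiscreteValuationRing ↥(mgcA A (rtk6ebK r d)) ∧
    IsDiscreteValuationRing ↥(mgcA A K₁) ∧
    ∃ ϖ₁ : ↥(mgcA A (rtk6ebK r d)), Irreducible ϖ₁ ∧
      ϖ₁ ^ d = ((r : ℕ) : ↥(mgcA A (rtk6ebK r d))) ∧
      rtk6ebQ h ϖ₁ ≠ 0 ∧ rtk6ebQ h ϖ₁ ^ d = ((r : ℕ) : ↥(mgcA A K₁)) ∧
      ∀ π : ↥(mgcA A K₁), Irreducible π → π ∣ rtk6ebQ h ϖ₁ := by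
  obtain ⟨ϖ, hϖ⟩ := IsAlgClosed.exists_pow_nat_eq ((r : ℕ) : Qb) (Nat.pos_of_ne_zero hd0)
  have hirr := rtk6ebVarpi_irreducible hr hA hd0 hdr hϖ
  haveI hD : IsDiscreteValuationRing ↥(mgcA A K₁) := beta0Ring_isDVR_sup K₁ hr hA
  refine ⟨rtk6eb_isDVR hr hA, hD, rtk6ebVarpi hA hd0 hϖ, hirr, rtk6ebVarpi_pow hA hd0 hϖ,
    rtk6ebQ_ne_zero h hirr.ne_zero, rtk6ebQ_pow h (rtk6ebVarpi_pow hA hd0 hϖ),
    fun π hπ => rtk6ebQ_dvd_of_irreducible h hπ hirr⟩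

end Q

end Fermat.Agent.RT.K6
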