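/-
K-machine, piece K6, piece **D-BC** (helper56), concrete stage.

`K₁′ ≤ K₁` Galois number fields, `A` over `r`; `A₁ = mgcA A K₁′`, `E₁ = mgcE A K₁′`,
`F₁ = rtk6diF A K₁′ L M H`, `A′ = mgcA A K₁`, `E′ = mgcE A K₁`, `F′ = rtk6diF A K₁ L M H`;
`ϖ₁` ANY uniformizer of `A₁`, `π′` ANY uniformizer of `A′`, `q = rtk6ebQ h ϖ₁` the image of `ϖ₁`
in `A′`; `rtk6dbcIncl L M H h : F₁ →+* F′` the coefficientwise inclusion.

* `rtk6dbc_chart_gen` : for `u₁ : F₁` transcendental with `F₁ / E₁(u₁)` finite: there is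
  `j : zchClosure {u₁} →+* zchClosure {incl u₁}` (the coefficientwise inclusion) with
  `MgcRamified j π′ ϖ₁` and `j ϖ₁ = q`;
* `rtk6dbc_chart_t`, `rtk6dbc_chart_tinv` : the two charts `u₁ = t₁`, `u₁ = t₁⁻¹`
  (`t₁ = rtk6diT A K₁′ L M H`, with image `t = rtk6diT A K₁ L M H`) — LITERALLY `hram₁`, `hjp₁`,
  `hram₂`, `hjp₂` of `rtk6ew_main_multi` (`RT/K6/EWMulti.lean`) with
  `R := zchClosure {t₁^{±1}}` over `A₁`, `p := ϖ₁`, `q := rtk6ebQ h ϖ₁`.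

The only hypothesis left is `hred` (the special fibre of the chart over `A₁` is reduced:
SS1-inst / HRED at `K₁′`).
-/
import Fermat.Agent.RT.K6.DBCZch
import Fermat.Agent.RT.K6.DBCArith
import Fermat.Agent.RT.K6.EBaseVarpi

set_option autoImplicit false
set_option linter.style.haveILetI false
set_option linter.unusedSectionVars false
set_option linter.unusedVariables false

noncomputable section

namespace Fermat.Agent.RT.K6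

open ModularCurve AlgebraicCurve Fermat.Agent.ES Fermat.Agent.ES.G2 Fermat.Agent.INJ
open Fermat.Agent.UNIP Fermat.Agent.ES1 Fermat.Agent.ES1.G2 IntermediateField Polynomial

section Concrete

variable {A : ValuationSubring Qb} {K₁' K₁ : IntermediateField ℚ Qb}
  (L M : ℕ) (H : Subgroup (ZMod M)ˣ) {r : ℕ}

/-- the coefficientwise inclusion `F₁ = fieldC E₁ L M H → F′ = fieldC E′ L M H` -/
def rtk6dbcIncl (h : K₁' ≤ K₁) : ↥(rtk6diF A K₁' L M H) →+* ↥(rtk6diF A K₁ L M H) :=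
  rtk6diCoeffHom L M H (IntermediateField.inclusion (rtk6eb_mgcE_mono (A := A) h)).toRingHom

theorem rtk6dbcIncl_T (h : K₁' ≤ K₁) :
    rtk6dbcIncl (A := A) L M H h (rtk6diT A K₁' L M H) = rtk6diT A K₁ L M H :=
  rtk6diCoeffHom_J _ L M H _

theorem rtk6dbcIncl_T_inv (h : K₁' ≤ K₁) :
    rtk6dbcIncl (A := A) L M H h (rtk6diT A K₁' L M H)⁻¹ = (rtk6diT A K₁ L M H)⁻¹ := by
  rw [map_inv₀, rtk6dbcIncl_T]

variable [NumberField ↥K₁'] [IsGalois ℚ ↥K₁'] [NumberField ↥K₁] [IsGalois ℚ ↥K₁]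

/-- **D-BC, concrete stage, general coordinate.** -/
theorem rtk6dbc_chart_gen (hr : r.Prime) (hA : A.LiesOverPrime r) (h : K₁' ≤ K₁)
    [IsDiscreteValuationRing ↥(mgcA A K₁')] [IsDiscreteValuationRing ↥(mgcA A K₁)]
    {ϖ₁ : ↥(mgcA A K₁')} (hϖ₁ : Irreducible ϖ₁) {π' : ↥(mgcA A K₁)} (hπ' : Irreducible π')
    (u₁ : ↥(rtk6diF A K₁' L M H)) (hu₁ : Transcendental ↥(mgcE A K₁') u₁)
    [FiniteDimensional (↥(mgcE A K₁'))⟮u₁⟯ ↥(rtk6diF A K₁' L M H)]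
    (hred : ∀ c : ↥(zchClosure (A₀ := ↥(mgcA A K₁')) ({u₁} : Set ↥(rtk6diF A K₁' L M H))),
      algebraMap ↥(mgcA A K₁') ↥(zchClosure (A₀ := ↥(mgcA A K₁'))
        ({u₁} : Set ↥(rtk6diF A K₁' L M H))) ϖ₁ ∣ c ^ 2 →
      algebraMap ↥(mgcA A K₁') ↥(zchClosure (A₀ := ↥(mgcA A K₁'))
        ({u₁} : Set ↥(rtk6diF A K₁' L M H))) ϖ₁ ∣ c)
    {u : ↥(rtk6diF A K₁ L M H)} (hu : rtk6dbcIncl (A := A) L M H h u₁ = u) :
    ∃ j : ↥(zchClosure (A₀ := ↥(mgcA A K₁')) ({u₁} : Set ↥(rtk6diF A K₁' L M H))) →+*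
        ↥(zchClosure (A₀ := ↥(mgcA A K₁)) ({u} : Set ↥(rtk6diF A K₁ L M H))),
      (∀ b, ((j b : ↥(zchClosure (A₀ := ↥(mgcA A K₁)) ({u} : Set ↥(rtk6diF A K₁ L M H)))) :
          ↥(rtk6diF A K₁ L M H)) = rtk6dbcIncl (A := A) L M H h (b : ↥(rtk6diF A K₁' L M H))) ∧
      MgcRamified j
        (algebraMap ↥(mgcA A K₁) ↥(zchClosure (A₀ := ↥(mgcA A K₁))
          ({u} : Set ↥(rtk6diF A K₁ L M H))) π')
        (algebraMap ↥(mgcA A K₁') ↥(zchClosure (A₀ := ↥(mgcA A K₁'))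
          ({u₁} : Set ↥(rtk6diF A K₁' L M H))) ϖ₁) ∧
      j (algebraMap ↥(mgcA A K₁') ↥(zchClosure (A₀ := ↥(mgcA A K₁'))
          ({u₁} : Set ↥(rtk6diF A K₁' L M H))) ϖ₁) =
        algebraMap ↥(mgcA A K₁) ↥(zchClosure (A₀ := ↥(mgcA A K₁))
          ({u} : Set ↥(rtk6diF A K₁ L M H))) (rtk6ebQ (A := A) h ϖ₁) := by
  letI algF := beta0FieldAlgebra (rtk6eb_mgcE_mono (A := A) h)
  letI algA : Algebra ↥(mgcA A K₁') ↥(mgcA A K₁) :=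
    (beta0RingIncl (A := A) (rtk6eb_mgcE_mono (A := A) h)).toAlgebra
  obtain ⟨hint, π₀, e, g₀, hπ₀, hram, hgm, hroot, hdeg, hadj, halg⟩ :=
    rtk6dbc_arith (A := A) hr hA h hϖ₁
  haveI := hint
  exact rtk6dbc_ramified_zch (A₀ := ↥(mgcA A K₁'))
    (E₀ := ↥(mgcE A K₁')) (A' := ↥(mgcA A K₁)) (E' := ↥(mgcE A K₁)) L M H (fun a => rfl)
    hϖ₁ u₁ hu₁ hred hπ' hπ₀ hram g₀ hgm hroot hdeg hadj halg hu

/-- **D-BC, chart `t`** : `hram₁`, `hjp₁` of `rtk6ew_main_multi`. -/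
theorem rtk6dbc_chart_t (hr : r.Prime) (hA : A.LiesOverPrime r) (h : K₁' ≤ K₁)
    (hL : L ≠ 0) (hML : M ∣ L)
    [IsDiscreteValuationRing ↥(mgcA A K₁')] [IsDiscreteValuationRing ↥(mgcA A K₁)]
    {ϖ₁ : ↥(mgcA A K₁')} (hϖ₁ : Irreducible ϖ₁) {π' : ↥(mgcA A K₁)} (hπ' : Irreducible π')
    (hred : ∀ c : ↥(zchClosure (A₀ := ↥(mgcA A K₁'))
        ({rtk6diT A K₁' L M H} : Set ↥(rtk6diF A K₁' L M H))),
      algebraMap ↥(mgcA A K₁') ↥(zchClosure (A₀ := ↥(mgcA A K₁'))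
        ({rtk6diT A K₁' L M H} : Set ↥(rtk6diF A K₁' L M H))) ϖ₁ ∣ c ^ 2 →
      algebraMap ↥(mgcA A K₁') ↥(zchClosure (A₀ := ↥(mgcA A K₁'))
        ({rtk6diT A K₁' L M H} : Set ↥(rtk6diF A K₁' L M H))) ϖ₁ ∣ c) :
    ∃ j : ↥(zchClosure (A₀ := ↥(mgcA A K₁'))
          ({rtk6diT A K₁' L M H} : Set ↥(rtk6diF A K₁' L M H))) →+*
        ↥(zchClosure (A₀ := ↥(mgcA A K₁))
          ({rtk6diT A K₁ L M H} : Set ↥(rtk6diF A K₁ L M H))),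
      (∀ b, ((j b : ↥(zchClosure (A₀ := ↥(mgcA A K₁))
          ({rtk6diT A K₁ L M H} : Set ↥(rtk6diF A K₁ L M H)))) :
          ↥(rtk6diF A K₁ L M H)) = rtk6dbcIncl (A := A) L M H h (b : ↥(rtk6diF A K₁' L M H))) ∧
      MgcRamified j
        (algebraMap ↥(mgcA A K₁) ↥(zchClosure (A₀ := ↥(mgcA A K₁))
          ({rtk6diT A K₁ L M H} : Set ↥(rtk6diF A K₁ L M H))) π')
        (algebraMap ↥(mgcA A K₁') ↥(zchClosure (A₀ := ↥(mgcA A K₁'))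
          ({rtk6diT A K₁' L M H} : Set ↥(rtk6diF A K₁' L M H))) ϖ₁) ∧
      j (algebraMap ↥(mgcA A K₁') ↥(zchClosure (A₀ := ↥(mgcA A K₁'))
          ({rtk6diT A K₁' L M H} : Set ↥(rtk6diF A K₁' L M H))) ϖ₁) =
        algebraMap ↥(mgcA A K₁) ↥(zchClosure (A₀ := ↥(mgcA A K₁))
          ({rtk6diT A K₁ L M H} : Set ↥(rtk6diF A K₁ L M H))) (rtk6ebQ (A := A) h ϖ₁) := by
  haveI := rtk6di_finiteDimensional A K₁' L M H hL hML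
  exact rtk6dbc_chart_gen L M H hr hA h hϖ₁ hπ' (rtk6diT A K₁' L M H)
    (rtk6di_transcendental A K₁' L M H) hred (rtk6dbcIncl_T L M H h)

/-- **D-BC, chart `t⁻¹`** : `hram₂`, `hjp₂` of `rtk6ew_main_multi`. -/
theorem rtk6dbc_chart_tinv (hr : r.Prime) (hA : A.LiesOverPrime r) (h : K₁' ≤ K₁)
    (hL : L ≠ 0) (hML : M ∣ L)
    [IsDiscreteValuationRing ↥(mgcA A K₁')] [IsDiscreteValuationRing ↥(mgcA A K₁)]
    {ϖ₁ : ↥(mgcA A K₁')} (hϖ₁ : Irreducible ϖ₁) {π' : ↥(mgcA A K₁)} (hπ' : Irreducible π')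
    (hred : ∀ c : ↥(zchClosure (A₀ := ↥(mgcA A K₁'))
        ({(rtk6diT A K₁' L M H)⁻¹} : Set ↥(rtk6diF A K₁' L M H))),
      algebraMap ↥(mgcA A K₁') ↥(zchClosure (A₀ := ↥(mgcA A K₁'))
        ({(rtk6diT A K₁' L M H)⁻¹} : Set ↥(rtk6diF A K₁' L M H))) ϖ₁ ∣ c ^ 2 →
      algebraMap ↥(mgcA A K₁') ↥(zchClosure (A₀ := ↥(mgcA A K₁'))
        ({(rtk6diT A K₁' L M H)⁻¹} : Set ↥(rtk6diF A K₁' L M H))) ϖ₁ ∣ c) :
    ∃ j : ↥(zchClosure (A₀ := ↥(mgcA A K₁'))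
          ({(rtk6diT A K₁' L M H)⁻¹} : Set ↥(rtk6diF A K₁' L M H))) →+*
        ↥(zchClosure (A₀ := ↥(mgcA A K₁))
          ({(rtk6diT A K₁ L M H)⁻¹} : Set ↥(rtk6diF A K₁ L M H))),
      (∀ b, ((j b : ↥(zchClosure (A₀ := ↥(mgcA A K₁))
          ({(rtk6diT A K₁ L M H)⁻¹} : Set ↥(rtk6diF A K₁ L M H)))) :
          ↥(rtk6diF A K₁ L M H)) = rtk6dbcIncl (A := A) L M H h (b : ↥(rtk6diF A K₁' L M H))) ∧
      MgcRamified j
        (algebraMap ↥(mgcA A K₁) ↥(zchClosure (A₀ := ↥(mgcA A K₁))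
          ({(rtk6diT A K₁ L M H)⁻¹} : Set ↥(rtk6diF A K₁ L M H))) π')
        (algebraMap ↥(mgcA A K₁') ↥(zchClosure (A₀ := ↥(mgcA A K₁'))
          ({(rtk6diT A K₁' L M H)⁻¹} : Set ↥(rtk6diF A K₁' L M H))) ϖ₁) ∧
      j (algebraMap ↥(mgcA A K₁') ↥(zchClosure (A₀ := ↥(mgcA A K₁'))
          ({(rtk6diT A K₁' L M H)⁻¹} : Set ↥(rtk6diF A K₁' L M H))) ϖ₁) =
        algebraMap ↥(mgcA A K₁) ↥(zchClosure (A₀ := ↥(mgcA A K₁))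
          ({(rtk6diT A K₁ L M H)⁻¹} : Set ↥(rtk6diF A K₁ L M H))) (rtk6ebQ (A := A) h ϖ₁) := by
  haveI := rtk6eb_finiteDimensional_inv A K₁' L M H hL hML
  exact rtk6dbc_chart_gen L M H hr hA h hϖ₁ hπ' (rtk6diT A K₁' L M H)⁻¹
    (rtk6eb_transcendental_inv A K₁' L M H) hred (rtk6dbcIncl_T_inv L M H h)

end Concrete

end Fermat.Agent.RT.K6
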