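/-
K-machine, piece K6, piece **E-INST** (helper18), part 3: the GLUE of the open geometric
statements `StmtRtk6GeomUnip`, `StmtRtk6GeomChi` (`RT/K6/EInstRig.lean`) from SEPARATE providers
(each with its own number field `K₀`).

At a level `(q, M₁, M, H)`, for `w₀`, `A`:

* `Rtk6eiEv hq hqM' hM0 w₀ hw₀ A P` : the property `P K₁ hζ hπ` of `(K₁, hζ, π)` holds for all
  Galois number fields `K₁` containing a suitable number field `K₀` (with `A ∩ E′` a DVR), all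
  `hζ : μ_q ⊆ E′` and all uniformizers `π`;
* `Rtk6eiEv.and`, `Rtk6eiEv.mono` : conjunction (compositum of the `K₀`), monotonicity;
* `rtk6ei_geomUnip_of_pieces` : `StmtRtk6GeomUnip` from the three providers (SS1-inst), (C4-U),
  (FIX-U);
* `rtk6ei_geomChi_of_pieces`  : `StmtRtk6GeomChi` from the four providers (HSTAB), (SS1-inst),
  (C4), (FIX-X).
-/
import Fermat.Agent.RT.K6.EInstRig

set_option autoImplicit false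
set_option linter.style.haveILetI false
set_option linter.unusedSectionVars false
set_option linter.unusedVariables false

noncomputable section

namespace Fermat.Agent.RT.K6

open ModularCurve AlgebraicCurve Fermat.Agent.ES Fermat.Agent.ES.G2 Fermat.Agent.INJ
open Fermat.Agent.UNIP Fermat.Agent.STB Fermat.Agent.ES1 Fermat.Agent.ES1.G2 IntermediateField

section Ev

variable (q : ℕ) (A : ValuationSubring Qb)

/-- **"for all sufficiently large `K₁`"**: the property `P` of `(K₁, hζ, π)` holds for all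
Galois number fields `K₁ ⊇ K₀` with `A ∩ E′` a discrete valuation ring, `μ_q ⊆ E′`, and all
uniformizers `π` of `A ∩ E′`. -/
def Rtk6eiEv
    (P : ∀ (K₁ : IntermediateField ℚ Qb) [IsDiscreteValuationRing ↥(mgcA A K₁)],
      (∀ ζ : Qb, ζ ^ q = 1 → ζ ∈ mgcE A K₁) → ∀ {π : ↥(mgcA A K₁)}, Irreducible π → Prop) :
    Prop :=
  ∃ K₀ : IntermediateField ℚ Qb, FiniteDimensional ℚ K₀ ∧
    ∀ (K₁ : IntermediateField ℚ Qb) [NumberField K₁] [IsGalois ℚ K₁]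
      [IsDiscreteValuationRing ↥(mgcA A K₁)], K₀ ≤ K₁ →
      ∀ (hζ : ∀ ζ : Qb, ζ ^ q = 1 → ζ ∈ mgcE A K₁) {π : ↥(mgcA A K₁)} (hπ : Irreducible π),
        P K₁ hζ hπ

variable {q A}

theorem Rtk6eiEv.mono
    {P Q : ∀ (K₁ : IntermediateField ℚ Qb) [IsDiscreteValuationRing ↥(mgcA A K₁)],
      (∀ ζ : Qb, ζ ^ q = 1 → ζ ∈ mgcE A K₁) → ∀ {π : ↥(mgcA A K₁)}, Irreducible π → Prop}
    (h : Rtk6eiEv q A P)
    (hPQ : ∀ (K₁ : IntermediateField ℚ Qb) [IsDiscreteValuationRing ↥(mgcA A K₁)]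
      (hζ : ∀ ζ : Qb, ζ ^ q = 1 → ζ ∈ mgcE A K₁) {π : ↥(mgcA A K₁)} (hπ : Irreducible π),
      P K₁ hζ hπ → Q K₁ hζ hπ) : Rtk6eiEv q A Q := by
  obtain ⟨K₀, hfin, hK₀⟩ := h
  exact ⟨K₀, hfin, fun K₁ _ _ _ hK hζ π hπ => hPQ K₁ hζ hπ (hK₀ K₁ hK hζ hπ)⟩

theorem Rtk6eiEv.and
    {P Q : ∀ (K₁ : IntermediateField ℚ Qb) [IsDiscreteValuationRing ↥(mgcA A K₁)],
      (∀ ζ : Qb, ζ ^ q = 1 → ζ ∈ mgcE A K₁) → ∀ {π : ↥(mgcA A K₁)}, Irreducible π → Prop}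
    (hP : Rtk6eiEv q A P) (hQ : Rtk6eiEv q A Q) :
    Rtk6eiEv q A (fun K₁ _ hζ _ hπ => P K₁ hζ hπ ∧ Q K₁ hζ hπ) := by
  obtain ⟨K₀, hfin, hK₀⟩ := hP
  obtain ⟨K₀', hfin', hK₀'⟩ := hQ
  haveI := hfin
  haveI := hfin'
  refine ⟨K₀ ⊔ K₀', IntermediateField.finiteDimensional_sup K₀ K₀', ?_⟩
  intro K₁ _ _ _ hK hζ π hπ
  exact ⟨hK₀ K₁ (le_sup_left.trans hK) hζ hπ, hK₀' K₁ (le_sup_right.trans hK) hζ hπ⟩

end Ev

/-! ### The glue -/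

/-- **`StmtRtk6GeomUnip` from separate providers**: (SS1-inst), (C4-U), (FIX-U). -/
theorem rtk6ei_geomUnip_of_pieces
    (hSS1 : ∀ (q M₁ : ℕ) [NeZero q] [NeZero M₁] [NeZero (M₁ * q)] (M : ℕ)
      (H : Subgroup (ZMod M)ˣ) (hq : q.Prime) (hqM' : q ∣ M) (hM0 : M ≠ 0), ¬ q ∣ M₁ →
      M ∣ M₁ * q → (∀ c : (ZMod M)ˣ, IsAtR M q c → c ∈ pmH H) → IsTameAt (M₁ * q) M q H →
      4 ∣ M₁ * q →
      ∀ (w₀ : fieldBar (M₁ * q) M H ≃ₐ[Qb] fieldBar (M₁ * q) M H)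
        (hw₀ : IsWAt (M₁ * q) M H q w₀) (A : ValuationSubring Qb), A.LiesOverPrime q →
        Rtk6eiEv q A (fun K₁ _ hζ π hπ => Rtk6emSS1 A K₁ (M₁ * q) M H π
          (rtk6dfV hπ M H (rtk6diwW (K₀ := mgcE A K₁) w₀ hw₀ hM0 hq hqM' hζ))))
    (hNode : ∀ (q M₁ : ℕ) [NeZero q] [NeZero M₁] [NeZero (M₁ * q)] (M : ℕ)
      (H : Subgroup (ZMod M)ˣ) (hq : q.Prime) (hqM' : q ∣ M) (hM0 : M ≠ 0), ¬ q ∣ M₁ →
      M ∣ M₁ * q → (∀ c : (ZMod M)ˣ, IsAtR M q c → c ∈ pmH H) → IsTameAt (M₁ * q) M q H →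
      4 ∣ M₁ * q →
      ∀ (w₀ : fieldBar (M₁ * q) M H ≃ₐ[Qb] fieldBar (M₁ * q) M H)
        (hw₀ : IsWAt (M₁ * q) M H q w₀) (A : ValuationSubring Qb), A.LiesOverPrime q →
        Rtk6eiEv q A (fun K₁ _ hζ π hπ => Rtk6emNode A K₁ (M₁ * q) M H π
          (rtk6dfV hπ M H (rtk6diwW (K₀ := mgcE A K₁) w₀ hw₀ hM0 hq hqM' hζ))))
    (hFix : ∀ (q M₁ : ℕ) [NeZero q] [NeZero M₁] [NeZero (M₁ * q)] (M : ℕ)
      (H : Subgroup (ZMod M)ˣ) (hq : q.Prime) (hqM' : q ∣ M) (hM0 : M ≠ 0), ¬ q ∣ M₁ →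
      M ∣ M₁ * q → (∀ c : (ZMod M)ˣ, IsAtR M q c → c ∈ pmH H) → IsTameAt (M₁ * q) M q H →
      4 ∣ M₁ * q →
      ∀ (w₀ : fieldBar (M₁ * q) M H ≃ₐ[Qb] fieldBar (M₁ * q) M H)
        (hw₀ : IsWAt (M₁ * q) M H q w₀) (A : ValuationSubring Qb), A.LiesOverPrime q →
        Rtk6eiEv q A (fun K₁ _ hζ π hπ =>
          ∀ σ ∈ A.inertiaSubgroupIn ℚ, ∀ (hσE : ∀ x ∈ mgcE A K₁, σ x ∈ mgcE A K₁)
            (u : ↥(rtk6diF A K₁ (M₁ * q) M H)),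
            (u = rtk6diT A K₁ (M₁ * q) M H ∨ u = (rtk6diT A K₁ (M₁ * q) M H)⁻¹) →
            Rtk6emFixAt A K₁ (M₁ * q) M H π
              (rtk6dfV hπ M H (rtk6diwW (K₀ := mgcE A K₁) w₀ hw₀ hM0 hq hqM' hζ))
              (rtk6diGal (M₁ * q) M H σ hσE) u ∧
            Rtk6emCongAt A K₁ (M₁ * q) M H π
              (rtk6dfV hπ M H (rtk6diwW (K₀ := mgcE A K₁) w₀ hw₀ hM0 hq hqM' hζ))
              (rtk6diGal (M₁ * q) M H σ hσE) u)) :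
    StmtRtk6GeomUnip := by
  intro q M₁ _ _ _ M H hq hqM' hM0 hqM hML hat htame h4 w₀ hw₀ A hA
  have h1 := hSS1 q M₁ M H hq hqM' hM0 hqM hML hat htame h4 w₀ hw₀ A hA
  have h2 := hNode q M₁ M H hq hqM' hM0 hqM hML hat htame h4 w₀ hw₀ A hA
  have h3 := hFix q M₁ M H hq hqM' hM0 hqM hML hat htame h4 w₀ hw₀ A hA
  obtain ⟨K₀, hfin, hK₀⟩ := (h1.and h2).and h3
  refine ⟨K₀, hfin, fun K₁ _ _ _ hK hζ π hπ σ hσ hσE => ?_⟩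
  obtain ⟨⟨hss1, hnode⟩, hfix⟩ := hK₀ K₁ hK hζ hπ
  exact
    { ss1 := hss1
      node := hnode
      fix₁ := (hfix σ hσ hσE _ (Or.inl rfl)).1
      fix₂ := (hfix σ hσ hσE _ (Or.inr rfl)).1
      cong₁ := (hfix σ hσ hσE _ (Or.inl rfl)).2
      cong₂ := (hfix σ hσ hσE _ (Or.inr rfl)).2 }

/-- **`StmtRtk6GeomChi` from separate providers**: (HSTAB), (SS1-inst), (C4), (FIX-X). -/
theorem rtk6ei_geomChi_of_pieces
    (hStab : ∀ (q M₁ : ℕ) [NeZero q] [NeZero M₁] [NeZero (M₁ * q)] (M : ℕ)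
      (H : Subgroup (ZMod M)ˣ) (hq : q.Prime) (hqM' : q ∣ M) (hM0 : M ≠ 0), ¬ q ∣ M₁ →
      M ∣ M₁ * q → IsStarStable M q H → IsTameAt (M₁ * q) M q H → 4 ∣ M₁ * q →
      ∀ (w₀ : fieldBar (M₁ * q) M H ≃ₐ[Qb] fieldBar (M₁ * q) M H)
        (hw₀ : IsWAt (M₁ * q) M H q w₀) (A : ValuationSubring Qb), A.LiesOverPrime q →
        Rtk6eiEv q A (fun K₁ _ hζ π hπ =>
          Rtk6m4Stab hπ M H (rtk6diwW (K₀ := mgcE A K₁) w₀ hw₀ hM0 hq hqM' hζ)))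
    (hSS1 : ∀ (q M₁ : ℕ) [NeZero q] [NeZero M₁] [NeZero (M₁ * q)] (M : ℕ)
      (H : Subgroup (ZMod M)ˣ) (hq : q.Prime) (hqM' : q ∣ M) (hM0 : M ≠ 0), ¬ q ∣ M₁ →
      M ∣ M₁ * q → IsStarStable M q H → IsTameAt (M₁ * q) M q H → 4 ∣ M₁ * q →
      ∀ (w₀ : fieldBar (M₁ * q) M H ≃ₐ[Qb] fieldBar (M₁ * q) M H)
        (hw₀ : IsWAt (M₁ * q) M H q w₀) (A : ValuationSubring Qb), A.LiesOverPrime q →
        Rtk6eiEv q A (fun K₁ _ hζ π hπ => Rtk6emSS1 A K₁ (M₁ * q) M H π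
          (rtk6dfV hπ M H (rtk6diwW (K₀ := mgcE A K₁) w₀ hw₀ hM0 hq hqM' hζ))))
    (hNode : ∀ (q M₁ : ℕ) [NeZero q] [NeZero M₁] [NeZero (M₁ * q)] (M : ℕ)
      (H : Subgroup (ZMod M)ˣ) (hq : q.Prime) (hqM' : q ∣ M) (hM0 : M ≠ 0), ¬ q ∣ M₁ →
      M ∣ M₁ * q → IsStarStable M q H → IsTameAt (M₁ * q) M q H → 4 ∣ M₁ * q →
      ∀ (w₀ : fieldBar (M₁ * q) M H ≃ₐ[Qb] fieldBar (M₁ * q) M H)
        (hw₀ : IsWAt (M₁ * q) M H q w₀) (A : ValuationSubring Qb), A.LiesOverPrime q →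
        Rtk6eiEv q A (fun K₁ _ hζ π hπ => Rtk6emNode A K₁ (M₁ * q) M H π
          (rtk6dfV hπ M H (rtk6diwW (K₀ := mgcE A K₁) w₀ hw₀ hM0 hq hqM' hζ))))
    (hFix : ∀ (q M₁ : ℕ) [NeZero q] [NeZero M₁] [NeZero (M₁ * q)] (M : ℕ)
      (H : Subgroup (ZMod M)ˣ) (hq : q.Prime) (hqM' : q ∣ M) (hM0 : M ≠ 0), ¬ q ∣ M₁ →
      M ∣ M₁ * q → IsStarStable M q H → IsTameAt (M₁ * q) M q H → 4 ∣ M₁ * q →
      ∀ (w₀ : fieldBar (M₁ * q) M H ≃ₐ[Qb] fieldBar (M₁ * q) M H)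
        (hw₀ : IsWAt (M₁ * q) M H q w₀) (A : ValuationSubring Qb), A.LiesOverPrime q →
        Rtk6eiEv q A (fun K₁ _ hζ π hπ =>
          ∀ σ ∈ A.inertiaSubgroupIn ℚ, ∀ (hσE : ∀ x ∈ mgcE A K₁, σ x ∈ mgcE A K₁)
            (c' : (ZMod M)ˣ), IsAtR M q c' →
            ∀ δ₀' : ↥(rtk6diF A K₁ (M₁ * q) M H) ≃ₐ[↥(mgcE A K₁)]
                ↥(rtk6diF A K₁ (M₁ * q) M H),
              IsDiamondC ↥(mgcE A K₁) (M₁ * q) M H c' δ₀' →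
              ∀ u : ↥(rtk6diF A K₁ (M₁ * q) M H),
                (u = rtk6diT A K₁ (M₁ * q) M H ∨ u = (rtk6diT A K₁ (M₁ * q) M H)⁻¹) →
                Rtk6emFixAt A K₁ (M₁ * q) M H π
                  (rtk6dfV hπ M H (rtk6diwW (K₀ := mgcE A K₁) w₀ hw₀ hM0 hq hqM' hζ))
                  (rtk6diGal (M₁ * q) M H σ hσE) u ∧
                Rtk6emCongAt A K₁ (M₁ * q) M H π
                  (rtk6dfV hπ M H (rtk6diwW (K₀ := mgcE A K₁) w₀ hw₀ hM0 hq hqM' hζ))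
                  (SemilinearAut.ofAlgAut δ₀') u)) :
    StmtRtk6GeomChi := by
  intro q M₁ _ _ _ M H hq hqM' hM0 hqM hML hstar htame h4 w₀ hw₀ A hA
  have h0 := hStab q M₁ M H hq hqM' hM0 hqM hML hstar htame h4 w₀ hw₀ A hA
  have h1 := hSS1 q M₁ M H hq hqM' hM0 hqM hML hstar htame h4 w₀ hw₀ A hA
  have h2 := hNode q M₁ M H hq hqM' hM0 hqM hML hstar htame h4 w₀ hw₀ A hA
  have h3 := hFix q M₁ M H hq hqM' hM0 hqM hML hstar htame h4 w₀ hw₀ A hA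
  obtain ⟨K₀, hfin, hK₀⟩ := ((h0.and h1).and h2).and h3
  refine ⟨K₀, hfin, fun K₁ _ _ _ hK hζ π hπ => ?_⟩
  obtain ⟨⟨⟨hstab, hss1⟩, hnode⟩, hfix⟩ := hK₀ K₁ hK hζ hπ
  refine ⟨hstab, fun σ hσ hσE c' hc' δ₀' hδ₀' => ?_⟩
  exact
    { ss1 := hss1
      node := hnode
      fix₁ := (hfix σ hσ hσE c' hc' δ₀' hδ₀' _ (Or.inl rfl)).1
      fix₂ := (hfix σ hσ hσE c' hc' δ₀' hδ₀' _ (Or.inr rfl)).1
      cong₁ := (hfix σ hσ hσE c' hc' δ₀' hδ₀' _ (Or.inl rfl)).2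
      cong₂ := (hfix σ hσ hσE c' hc' δ₀' hδ₀' _ (Or.inr rfl)).2 }

end Fermat.Agent.RT.K6
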