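/-
K-machine, piece K6, piece **C4-inst (B)** (helper81), provider form: the hypothesis `hNode` of
`rtk6ei_geomUnip_of_pieces` / `rtk6ei_geomChi_of_pieces` (`RT/K6/EInstGlue.lean`) —
`Rtk6emNode` at ALL Galois number fields `K₁ ⊇ K₁′` — from the data at ONE intermediate level
`K₁′` (a Galois number field with `A ∩ E₁` a discrete valuation ring, uniformizer `ϖ₁`):

* (A)    the dichotomy `Rtk6ewmNodeAt V₁ 𝔫₁ id ϖ₁` on the two charts of `F₁` over `A₁`;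
* (HRED) the special fibres of the two charts over `A₁` are reduced;
* (R2)   every component of the family at `K₁′` is the restriction of a component of the family
         at `K₁` (for every `K₁ ⊇ K₁′`).

(D-BC) is helper56's `rtk6dbc_chart_t`, `rtk6dbc_chart_tinv`; (E-BASE) helper66's `rtk6ebQ_*`;
the transfer is `rtk6c4b_node` (`RT/K6/C4InstBNode.lean`).

* `rtk6c4b_node_of_level` : `Rtk6emNode` at one `K₁ ⊇ K₁′`, any family `w`;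
* `rtk6c4b_ev` : the provider, `Rtk6eiEv q A (fun K₁ _ hζ π hπ => Rtk6emNode … (rtk6diwW …))`.
-/
import Fermat.Agent.RT.K6.C4InstBNode
import Fermat.Agent.RT.K6.DBCConc
import Fermat.Agent.RT.K6.EInstGlue

set_option autoImplicit false
set_option linter.style.haveILetI false
set_option linter.unusedSectionVars false
set_option linter.unusedVariables false
set_option linter.style.longLine false

noncomputable section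

namespace Fermat.Agent.RT.K6

open ModularCurve AlgebraicCurve Fermat.Agent.ES Fermat.Agent.ES.G2 Fermat.Agent.INJ
open Fermat.Agent.UNIP Fermat.Agent.STB Fermat.Agent.ES1 Fermat.Agent.ES1.G2 IntermediateField

section Level

variable {A : ValuationSubring Qb} {K₁' K₁ : IntermediateField ℚ Qb}
  [NumberField ↥K₁'] [IsGalois ℚ ↥K₁'] [NumberField ↥K₁] [IsGalois ℚ ↥K₁]
  [IsDiscreteValuationRing ↥(mgcA A K₁')] [IsDiscreteValuationRing ↥(mgcA A K₁)]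
  {ϖ₁ : ↥(mgcA A K₁')} (hϖ₁ : Irreducible ϖ₁) {π : ↥(mgcA A K₁)} (hπ : Irreducible π)
  {q M₁ : ℕ} [NeZero q] [NeZero M₁] [NeZero (M₁ * q)] (M : ℕ) (H : Subgroup (ZMod M)ˣ)
  (w₁ : ↥(rtk6diF A K₁' (M₁ * q) M H) ≃ₐ[↥(mgcE A K₁')] ↥(rtk6diF A K₁' (M₁ * q) M H))
  (w : ↥(rtk6diF A K₁ (M₁ * q) M H) ≃ₐ[↥(mgcE A K₁)] ↥(rtk6diF A K₁ (M₁ * q) M H))

/-- **`Rtk6emNode` at `K₁ ⊇ K₁′`** from (A), (HRED) at the level `K₁′` and (R2). -/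
theorem rtk6c4b_node_of_level (hq : q.Prime) (hA : A.LiesOverPrime q) (hML : M ∣ M₁ * q)
    (h : K₁' ≤ K₁)
    (hred₁ : ∀ c : ↥(zchClosure (A₀ := ↥(mgcA A K₁'))
        ({rtk6diT A K₁' (M₁ * q) M H} : Set ↥(rtk6diF A K₁' (M₁ * q) M H))),
      algebraMap ↥(mgcA A K₁') ↥(zchClosure (A₀ := ↥(mgcA A K₁'))
        ({rtk6diT A K₁' (M₁ * q) M H} : Set ↥(rtk6diF A K₁' (M₁ * q) M H))) ϖ₁ ∣ c ^ 2 →
      algebraMap ↥(mgcA A K₁') ↥(zchClosure (A₀ := ↥(mgcA A K₁'))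
        ({rtk6diT A K₁' (M₁ * q) M H} : Set ↥(rtk6diF A K₁' (M₁ * q) M H))) ϖ₁ ∣ c)
    (hred₂ : ∀ c : ↥(zchClosure (A₀ := ↥(mgcA A K₁'))
        ({(rtk6diT A K₁' (M₁ * q) M H)⁻¹} : Set ↥(rtk6diF A K₁' (M₁ * q) M H))),
      algebraMap ↥(mgcA A K₁') ↥(zchClosure (A₀ := ↥(mgcA A K₁'))
        ({(rtk6diT A K₁' (M₁ * q) M H)⁻¹} : Set ↥(rtk6diF A K₁' (M₁ * q) M H))) ϖ₁ ∣ c ^ 2 →
      algebraMap ↥(mgcA A K₁') ↥(zchClosure (A₀ := ↥(mgcA A K₁'))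
        ({(rtk6diT A K₁' (M₁ * q) M H)⁻¹} : Set ↥(rtk6diF A K₁' (M₁ * q) M H))) ϖ₁ ∣ c)
    (hR2 : ∀ c₁ : rtk6dfK hϖ₁ M H w₁, ∃ c : rtk6dfK hπ M H w,
      ∀ x : ↥(rtk6diF A K₁' (M₁ * q) M H),
        rtk6dbcIncl (A := A) (M₁ * q) M H h x ∈ (rtk6dfV hπ M H w c).nonunits ↔
          x ∈ (rtk6dfV hϖ₁ M H w₁ c₁).nonunits)
    (hA₁ : ∀ 𝔫₁ : AtPt (F := ↥(rtk6diF A K₁' (M₁ * q) M H)) ϖ₁ (rtk6diT A K₁' (M₁ * q) M H),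
      Rtk6ewmNodeAt (rtk6dfV hϖ₁ M H w₁) 𝔫₁ (RingHom.id _)
        (algebraMap ↥(mgcA A K₁') ↥(zchClosure (A₀ := ↥(mgcA A K₁'))
          ({rtk6diT A K₁' (M₁ * q) M H} : Set ↥(rtk6diF A K₁' (M₁ * q) M H))) ϖ₁))
    (hA₂ : ∀ 𝔫₁ : AtPt (F := ↥(rtk6diF A K₁' (M₁ * q) M H)) ϖ₁
        (rtk6diT A K₁' (M₁ * q) M H)⁻¹,
      Rtk6ewmNodeAt (rtk6dfV hϖ₁ M H w₁) 𝔫₁ (RingHom.id _)
        (algebraMap ↥(mgcA A K₁') ↥(zchClosure (A₀ := ↥(mgcA A K₁'))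
          ({(rtk6diT A K₁' (M₁ * q) M H)⁻¹} : Set ↥(rtk6diF A K₁' (M₁ * q) M H))) ϖ₁)) :
    Rtk6emNode A K₁ (M₁ * q) M H π (rtk6dfV hπ M H w) :=
  rtk6c4b_node hϖ₁ hπ M H w₁ w (rtk6dbcIncl (A := A) (M₁ * q) M H h)
    (rtk6ebQ_ne_zero h hϖ₁.ne_zero) (rtk6ebQ_dvd_of_irreducible h hπ hϖ₁) hR2
    (rtk6dbc_chart_t (M₁ * q) M H hq hA h (NeZero.ne _) hML hϖ₁ hπ hred₁)
    (rtk6dbc_chart_tinv (M₁ * q) M H hq hA h (NeZero.ne _) hML hϖ₁ hπ hred₂) hA₁ hA₂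

end Level

section Ev

variable {A : ValuationSubring Qb} (K₁' : IntermediateField ℚ Qb)
  [NumberField ↥K₁'] [IsGalois ℚ ↥K₁'] [IsDiscreteValuationRing ↥(mgcA A K₁')]
  {ϖ₁ : ↥(mgcA A K₁')} (hϖ₁ : Irreducible ϖ₁)
  {q M₁ : ℕ} [NeZero q] [NeZero M₁] [NeZero (M₁ * q)] {M : ℕ} {H : Subgroup (ZMod M)ˣ}
  (w₁ : ↥(rtk6diF A K₁' (M₁ * q) M H) ≃ₐ[↥(mgcE A K₁')] ↥(rtk6diF A K₁' (M₁ * q) M H))

/-- **The provider `hNode`** of `rtk6ei_geomUnip_of_pieces` / `rtk6ei_geomChi_of_pieces` at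
`(q, M₁, M, H, w₀, A)`, from the data at one level `K₁′`. -/
theorem rtk6c4b_ev (hq : q.Prime) (hqM' : q ∣ M) (hM0 : M ≠ 0) (hML : M ∣ M₁ * q)
    (w₀ : fieldBar (M₁ * q) M H ≃ₐ[Qb] fieldBar (M₁ * q) M H) (hw₀ : IsWAt (M₁ * q) M H q w₀)
    (hA : A.LiesOverPrime q)
    (hred₁ : ∀ c : ↥(zchClosure (A₀ := ↥(mgcA A K₁'))
        ({rtk6diT A K₁' (M₁ * q) M H} : Set ↥(rtk6diF A K₁' (M₁ * q) M H))),
      algebraMap ↥(mgcA A K₁') ↥(zchClosure (A₀ := ↥(mgcA A K₁'))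
        ({rtk6diT A K₁' (M₁ * q) M H} : Set ↥(rtk6diF A K₁' (M₁ * q) M H))) ϖ₁ ∣ c ^ 2 →
      algebraMap ↥(mgcA A K₁') ↥(zchClosure (A₀ := ↥(mgcA A K₁'))
        ({rtk6diT A K₁' (M₁ * q) M H} : Set ↥(rtk6diF A K₁' (M₁ * q) M H))) ϖ₁ ∣ c)
    (hred₂ : ∀ c : ↥(zchClosure (A₀ := ↥(mgcA A K₁'))
        ({(rtk6diT A K₁' (M₁ * q) M H)⁻¹} : Set ↥(rtk6diF A K₁' (M₁ * q) M H))),
      algebraMap ↥(mgcA A K₁') ↥(zchClosure (A₀ := ↥(mgcA A K₁'))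
        ({(rtk6diT A K₁' (M₁ * q) M H)⁻¹} : Set ↥(rtk6diF A K₁' (M₁ * q) M H))) ϖ₁ ∣ c ^ 2 →
      algebraMap ↥(mgcA A K₁') ↥(zchClosure (A₀ := ↥(mgcA A K₁'))
        ({(rtk6diT A K₁' (M₁ * q) M H)⁻¹} : Set ↥(rtk6diF A K₁' (M₁ * q) M H))) ϖ₁ ∣ c)
    (hR2 : ∀ (K₁ : IntermediateField ℚ Qb) [NumberField ↥K₁] [IsGalois ℚ ↥K₁]
      [IsDiscreteValuationRing ↥(mgcA A K₁)] (h : K₁' ≤ K₁)
      (hζ : ∀ ζ : Qb, ζ ^ q = 1 → ζ ∈ mgcE A K₁) {π : ↥(mgcA A K₁)} (hπ : Irreducible π),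
      ∀ c₁ : rtk6dfK hϖ₁ M H w₁,
        ∃ c : rtk6dfK hπ M H (rtk6diwW (K₀ := mgcE A K₁) w₀ hw₀ hM0 hq hqM' hζ),
          ∀ x : ↥(rtk6diF A K₁' (M₁ * q) M H),
            rtk6dbcIncl (A := A) (M₁ * q) M H h x ∈
                (rtk6dfV hπ M H (rtk6diwW (K₀ := mgcE A K₁) w₀ hw₀ hM0 hq hqM' hζ) c).nonunits ↔
              x ∈ (rtk6dfV hϖ₁ M H w₁ c₁).nonunits)
    (hA₁ : ∀ 𝔫₁ : AtPt (F := ↥(rtk6diF A K₁' (M₁ * q) M H)) ϖ₁ (rtk6diT A K₁' (M₁ * q) M H),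
      Rtk6ewmNodeAt (rtk6dfV hϖ₁ M H w₁) 𝔫₁ (RingHom.id _)
        (algebraMap ↥(mgcA A K₁') ↥(zchClosure (A₀ := ↥(mgcA A K₁'))
          ({rtk6diT A K₁' (M₁ * q) M H} : Set ↥(rtk6diF A K₁' (M₁ * q) M H))) ϖ₁))
    (hA₂ : ∀ 𝔫₁ : AtPt (F := ↥(rtk6diF A K₁' (M₁ * q) M H)) ϖ₁
        (rtk6diT A K₁' (M₁ * q) M H)⁻¹,
      Rtk6ewmNodeAt (rtk6dfV hϖ₁ M H w₁) 𝔫₁ (RingHom.id _)
        (algebraMap ↥(mgcA A K₁') ↥(zchClosure (A₀ := ↥(mgcA A K₁'))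
          ({(rtk6diT A K₁' (M₁ * q) M H)⁻¹} : Set ↥(rtk6diF A K₁' (M₁ * q) M H))) ϖ₁)) :
    Rtk6eiEv q A (fun K₁ _ hζ π hπ => Rtk6emNode A K₁ (M₁ * q) M H π
      (rtk6dfV hπ M H (rtk6diwW (K₀ := mgcE A K₁) w₀ hw₀ hM0 hq hqM' hζ))) :=
  ⟨K₁', inferInstance, fun K₁ _ _ _ hK hζ π hπ =>
    rtk6c4b_node_of_level hϖ₁ hπ M H w₁ _ hq hA hML hK hred₁ hred₂ (hR2 K₁ hK hζ hπ) hA₁ hA₂⟩

end Ev

end Fermat.Agent.RT.K6
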