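/-
K-machine, piece K6, piece **HRED** (helper45): the hypotheses `hπu`, `hred` of D-BC
(`rtk6dbc_ramified_gen`, `RT/K6/DBC.lean`) from (SS1) and the family of vertical valuations.

* abstract chart setting (`A₀` a discrete valuation ring, `π` a uniformizer, `F / E(u)`):
  `rtk6hr_not_isUnit` (`π` is not a unit of the chart `C_u = integralClosure A₀[u] F`),
  `rtk6hr_hred_of_ss1` (`π ∣ c ^ 2 → π ∣ c` on `C_u`: the special fibre is reduced);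
* concrete setting of `RT/K6/EMain.lean` at ANY `(A, K₁)` (in the application
  `K₁ := K₁′ = rtk6ebK r d`, `A₁ = mgcA A K₁′`, `π = ϖ₁`): from `Rtk6emFam` and `Rtk6emSS1`
  `rtk6hr_hπu`, `rtk6hr_hred` (chart `t = j`) and `rtk6hr_hπu_inv`, `rtk6hr_hred_inv`
  (chart `t⁻¹`; (SS1) on the chart `t⁻¹` by `UNIP.ats_SS1_inv`), in EXACTLY the shape of the
  hypotheses `hπu`, `hred` of `rtk6dbc_ramified_gen` with `A₀ := mgcA A K₁`, `E₀ := mgcE A K₁`,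
  `τ := rtk6diT A K₁ L M H` resp. `τ := (rtk6diT A K₁ L M H)⁻¹`.
-/
import Fermat.Agent.RT.K6.EMain
import Fermat.Agent.RT.K6.DBC
import Fermat.Agent.UNIP.ATSmall

set_option autoImplicit false
set_option linter.style.haveILetI false
set_option linter.unusedSectionVars false
set_option linter.unusedVariables false
set_option synthInstance.maxHeartbeats 400000
set_option maxHeartbeats 1000000

noncomputable section

namespace Fermat.Agent.RT.K6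

open ModularCurve AlgebraicCurve Fermat.Agent.ES Fermat.Agent.ES.G2 Fermat.Agent.INJ
open Fermat.Agent.UNIP Fermat.Agent.STB Fermat.Agent.ES1 Fermat.Agent.ES1.G2 IntermediateField

section Abs

variable {A₀ F : Type*} [CommRing A₀] [Field F] [Algebra A₀ F] {π : A₀} {κ : Type*}

/-- `π` is not a unit of the chart `C_u`, if some valuation ring `W ⊇ C_u` has `π ∈ 𝔪_W`. -/
theorem rtk6hr_not_isUnit (u : F) (W : ValuationSubring F)
    (hBW : ∀ b : F, IsIntegral ↥(Algebra.adjoin A₀ ({u} : Set F)) b → b ∈ W)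
    (hπW : algebraMap A₀ F π ∈ W.nonunits) :
    ¬ IsUnit (algebraMap A₀ ↥(integralClosure ↥(Algebra.adjoin A₀ ({u} : Set F)) F) π) := by
  intro hu
  obtain ⟨v, hv⟩ := hu.exists_right_inv
  have h1 : algebraMap A₀ F π * (v : F) = 1 := congrArg Subtype.val hv
  have h2 : (v : F) * algebraMap A₀ F π ∈ W.nonunits :=
    pwi_mul_mem_nonunits W (hBW _ v.2) hπW
  rw [mul_comm, h1, ValuationSubring.mem_nonunits_iff, map_one] at h2
  exact lt_irrefl _ h2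

/-- **`hred`**: the special fibre of the chart `C_u` is reduced, from (SS1). -/
theorem rtk6hr_hred_of_ss1 (u : F) (V : κ → ValuationSubring F)
    (hBV : ∀ c (b : F), IsIntegral ↥(Algebra.adjoin A₀ ({u} : Set F)) b → b ∈ V c)
    (hπV : ∀ c, algebraMap A₀ F π ∈ (V c).nonunits)
    (hSS1 : ∀ b : F, IsIntegral ↥(Algebra.adjoin A₀ ({u} : Set F)) b →
      (∀ c, b ∈ (V c).nonunits) →
      ∃ b' : F, IsIntegral ↥(Algebra.adjoin A₀ ({u} : Set F)) b' ∧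
        b = algebraMap A₀ F π * b')
    (c : ↥(integralClosure ↥(Algebra.adjoin A₀ ({u} : Set F)) F))
    (hc : algebraMap A₀ ↥(integralClosure ↥(Algebra.adjoin A₀ ({u} : Set F)) F) π ∣ c ^ 2) :
    algebraMap A₀ ↥(integralClosure ↥(Algebra.adjoin A₀ ({u} : Set F)) F) π ∣ c := by
  obtain ⟨b, hb⟩ := hc
  have hbF : (c : F) ^ 2 = algebraMap A₀ F π * (b : F) := congrArg Subtype.val hb
  have hcV : ∀ i, (c : F) ∈ (V i).nonunits := by
    intro i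
    apply ats_mem_nonunits_of_pow (V i) (n := 2)
    rw [hbF, mul_comm]
    exact pwi_mul_mem_nonunits (V i) (hBV i _ b.2) (hπV i)
  obtain ⟨b', hb', hcb'⟩ := hSS1 (c : F) c.2 hcV
  exact ⟨⟨b', hb'⟩, Subtype.ext hcb'⟩

end Abs

section Concrete

variable {A : ValuationSubring Qb} {K₁ : IntermediateField ℚ Qb}
  {L M : ℕ} {H : Subgroup (ZMod M)ˣ} [IsDiscreteValuationRing ↥(mgcA A K₁)]
  {π : ↥(mgcA A K₁)} {κ : Type} {V : κ → ValuationSubring ↥(rtk6diF A K₁ L M H)}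

/-- **`hπu` of D-BC**, chart `t`. -/
theorem rtk6hr_hπu (fam : Rtk6emFam A K₁ L M H π V) (c₀ : κ) :
    ¬ IsUnit (algebraMap ↥(mgcA A K₁)
      ↥(integralClosure ↥(Algebra.adjoin ↥(mgcA A K₁)
        ({rtk6diT A K₁ L M H} : Set ↥(rtk6diF A K₁ L M H))) ↥(rtk6diF A K₁ L M H)) π) :=
  rtk6hr_not_isUnit (rtk6diT A K₁ L M H) (V c₀) (fam.hBV₁ c₀) (fam.hπV c₀)

/-- **`hπu` of D-BC**, chart `t⁻¹`. -/
theorem rtk6hr_hπu_inv (fam : Rtk6emFam A K₁ L M H π V) (c₀ : κ) :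
    ¬ IsUnit (algebraMap ↥(mgcA A K₁)
      ↥(integralClosure ↥(Algebra.adjoin ↥(mgcA A K₁)
        ({(rtk6diT A K₁ L M H)⁻¹} : Set ↥(rtk6diF A K₁ L M H))) ↥(rtk6diF A K₁ L M H)) π) :=
  rtk6hr_not_isUnit (rtk6diT A K₁ L M H)⁻¹ (V c₀) (fam.hBV₂ c₀) (fam.hπV c₀)

/-- **`hred` of D-BC**, chart `t`. -/
theorem rtk6hr_hred (fam : Rtk6emFam A K₁ L M H π V) (ss1 : Rtk6emSS1 A K₁ L M H π V)
    (c : ↥(integralClosure ↥(Algebra.adjoin ↥(mgcA A K₁)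
      ({rtk6diT A K₁ L M H} : Set ↥(rtk6diF A K₁ L M H))) ↥(rtk6diF A K₁ L M H)))
    (hc : algebraMap ↥(mgcA A K₁)
      ↥(integralClosure ↥(Algebra.adjoin ↥(mgcA A K₁)
        ({rtk6diT A K₁ L M H} : Set ↥(rtk6diF A K₁ L M H))) ↥(rtk6diF A K₁ L M H)) π ∣ c ^ 2) :
    algebraMap ↥(mgcA A K₁)
      ↥(integralClosure ↥(Algebra.adjoin ↥(mgcA A K₁)
        ({rtk6diT A K₁ L M H} : Set ↥(rtk6diF A K₁ L M H))) ↥(rtk6diF A K₁ L M H)) π ∣ c :=
  rtk6hr_hred_of_ss1 (rtk6diT A K₁ L M H) V fam.hBV₁ fam.hπV ss1 c hc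

/-- **(SS1) on the chart `t⁻¹`** from (SS1) on the chart `t`. -/
theorem rtk6hr_ss1_inv (hπ : Irreducible π) (hL : L ≠ 0) (hML : M ∣ L)
    (fam : Rtk6emFam A K₁ L M H π V) (ss1 : Rtk6emSS1 A K₁ L M H π V) :
    ∀ b : ↥(rtk6diF A K₁ L M H),
      IsIntegral ↥(Algebra.adjoin ↥(mgcA A K₁) {(rtk6diT A K₁ L M H)⁻¹}) b →
      (∀ c, b ∈ (V c).nonunits) →
      ∃ b' : ↥(rtk6diF A K₁ L M H),
        IsIntegral ↥(Algebra.adjoin ↥(mgcA A K₁) {(rtk6diT A K₁ L M H)⁻¹}) b' ∧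
        b = algebraMap ↥(mgcA A K₁) ↥(rtk6diF A K₁ L M H) π * b' := by
  haveI := rtk6di_finiteDimensional A K₁ L M H hL hML
  exact ats_SS1_inv (rtk6di_transcendental A K₁ L M H) hπ V fam.hBV₁ ss1

/-- **`hred` of D-BC**, chart `t⁻¹`. -/
theorem rtk6hr_hred_inv (hπ : Irreducible π) (hL : L ≠ 0) (hML : M ∣ L)
    (fam : Rtk6emFam A K₁ L M H π V) (ss1 : Rtk6emSS1 A K₁ L M H π V)
    (c : ↥(integralClosure ↥(Algebra.adjoin ↥(mgcA A K₁)
      ({(rtk6diT A K₁ L M H)⁻¹} : Set ↥(rtk6diF A K₁ L M H))) ↥(rtk6diF A K₁ L M H)))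
    (hc : algebraMap ↥(mgcA A K₁)
      ↥(integralClosure ↥(Algebra.adjoin ↥(mgcA A K₁)
        ({(rtk6diT A K₁ L M H)⁻¹} : Set ↥(rtk6diF A K₁ L M H))) ↥(rtk6diF A K₁ L M H)) π ∣
        c ^ 2) :
    algebraMap ↥(mgcA A K₁)
      ↥(integralClosure ↥(Algebra.adjoin ↥(mgcA A K₁)
        ({(rtk6diT A K₁ L M H)⁻¹} : Set ↥(rtk6diF A K₁ L M H))) ↥(rtk6diF A K₁ L M H)) π ∣ c :=
  rtk6hr_hred_of_ss1 (rtk6diT A K₁ L M H)⁻¹ V fam.hBV₂ fam.hπV
    (rtk6hr_ss1_inv hπ hL hML fam ss1) c hc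

end Concrete

end Fermat.Agent.RT.K6
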