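/-
K-machine, piece K6, piece **D-BC** (helper56), final form: the D-BC datum of the two charts from
the family and (SS1) at the INTERMEDIATE level `K₁′`.

* `rtk6dbc_hred_zch` : (abstract) `π ∣ c ^ 2 → π ∣ c` on the chart `zchClosure {u}`, from (SS1)
  (the `zchClosure` form of helper45's `rtk6hr_hred_of_ss1`, `RT/K6/HRed.lean`);
* `rtk6dbc_chart_t_of_ss1`, `rtk6dbc_chart_tinv_of_ss1` : `rtk6dbc_chart_t`, `rtk6dbc_chart_tinv`
  (`RT/K6/DBCConc.lean`) with `hred` discharged from `Rtk6emFam A K₁′ L M H ϖ₁ V₁` and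
  `Rtk6emSS1 A K₁′ L M H ϖ₁ V₁` — the hypotheses `hD₁`, `hD₂` of helper81's `rtk6c4b_node`.
-/
import Fermat.Agent.RT.K6.DBCConc
import Fermat.Agent.RT.K6.HRed

set_option autoImplicit false
set_option linter.style.haveILetI false
set_option linter.unusedSectionVars false
set_option linter.unusedVariables false

noncomputable section

namespace Fermat.Agent.RT.K6

open ModularCurve AlgebraicCurve Fermat.Agent.ES Fermat.Agent.ES.G2 Fermat.Agent.INJ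
open Fermat.Agent.UNIP Fermat.Agent.STB Fermat.Agent.ES1 Fermat.Agent.ES1.G2 IntermediateField

section Abs

variable {A₀ E F : Type*} [CommRing A₀] [IsDomain A₀] [IsDiscreteValuationRing A₀]
  [Field E] [Algebra A₀ E] [IsFractionRing A₀ E] [CharZero E]
  [Field F] [Algebra E F] [Algebra A₀ F] [IsScalarTower A₀ E F] {π : A₀} {κ : Type*}

/-- **`hred`** on the chart `zchClosure {u}`: the special fibre is reduced, from (SS1). -/
theorem rtk6dbc_hred_zch (u : F) (V : κ → ValuationSubring F)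
    (hBV : ∀ c (b : F), IsIntegral ↥(Algebra.adjoin A₀ ({u} : Set F)) b → b ∈ V c)
    (hπV : ∀ c, algebraMap A₀ F π ∈ (V c).nonunits)
    (hSS1 : ∀ b : F, IsIntegral ↥(Algebra.adjoin A₀ ({u} : Set F)) b →
      (∀ c, b ∈ (V c).nonunits) →
      ∃ b' : F, IsIntegral ↥(Algebra.adjoin A₀ ({u} : Set F)) b' ∧
        b = algebraMap A₀ F π * b')
    (c : ↥(zchClosure (A₀ := A₀) ({u} : Set F)))
    (hc : algebraMap A₀ ↥(zchClosure (A₀ := A₀) ({u} : Set F)) π ∣ c ^ 2) :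
    algebraMap A₀ ↥(zchClosure (A₀ := A₀) ({u} : Set F)) π ∣ c := by
  obtain ⟨b, hb⟩ := hc
  have hbF : (c : F) ^ 2 = algebraMap A₀ F π * (b : F) := congrArg Subtype.val hb
  have hcV : ∀ i, (c : F) ∈ (V i).nonunits := by
    intro i
    apply ats_mem_nonunits_of_pow (V i) (n := 2)
    rw [hbF, mul_comm]
    exact pwi_mul_mem_nonunits (V i) (hBV i _ (mem_zchClosure.mp b.2)) (hπV i)
  obtain ⟨b', hb', hcb'⟩ := hSS1 (c : F) (mem_zchClosure.mp c.2) hcV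
  exact ⟨⟨b', mem_zchClosure.mpr hb'⟩, Subtype.ext hcb'⟩

end Abs

section Concrete

variable {A : ValuationSubring Qb} {K₁' K₁ : IntermediateField ℚ Qb}
  (L M : ℕ) (H : Subgroup (ZMod M)ˣ) {r : ℕ}
  [NumberField ↥K₁'] [IsGalois ℚ ↥K₁'] [NumberField ↥K₁] [IsGalois ℚ ↥K₁]

/-- **D-BC, chart `t`, from the family and (SS1) at `K₁′`.** -/
theorem rtk6dbc_chart_t_of_ss1 (hr : r.Prime) (hA : A.LiesOverPrime r) (h : K₁' ≤ K₁)
    (hL : L ≠ 0) (hML : M ∣ L)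
    [IsDiscreteValuationRing ↥(mgcA A K₁')] [IsDiscreteValuationRing ↥(mgcA A K₁)]
    {ϖ₁ : ↥(mgcA A K₁')} (hϖ₁ : Irreducible ϖ₁) {π' : ↥(mgcA A K₁)} (hπ' : Irreducible π')
    {κ₁ : Type} {V₁ : κ₁ → ValuationSubring ↥(rtk6diF A K₁' L M H)}
    (fam : Rtk6emFam A K₁' L M H ϖ₁ V₁) (ss1 : Rtk6emSS1 A K₁' L M H ϖ₁ V₁) :
    ∃ j : ↥(zchClosure (A₀ := ↥(mgcA A K₁'))
          ({rtk6diT A K₁' L M H} : Set ↥(rtk6diF A K₁' L M H))) →+*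
        ↥(zchClosure (A₀ := ↥(mgcA A K₁))
          ({rtk6diT A K₁ L M H} : Set ↥(rtk6diF A K₁ L M H))),
      (∀ b, ((j b : ↥(zchClosure (A₀ := ↥(mgcA A K₁))
          ({rtk6diT A K₁ L M H} : Set ↥(rtk6diF A K₁ L M H)))) :
          ↥(rtk6diF A K₁ L M H)) = rtk6dbcIncl (A := A) L M H h (b : ↥(rtk6diF A K₁' L M H))) ∧
      MgcRamified j
        (algebraMap ↥(mgcA A K₁) ↥(zchClosure (A₀ := ↥(mgcA A K₁))
          ({rtk6diT A K₁ L M H} : Set ↥(rtk6diF A K₁ L M H))) π')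
        (algebraMap ↥(mgcA A K₁') ↥(zchClosure (A₀ := ↥(mgcA A K₁'))
          ({rtk6diT A K₁' L M H} : Set ↥(rtk6diF A K₁' L M H))) ϖ₁) ∧
      j (algebraMap ↥(mgcA A K₁') ↥(zchClosure (A₀ := ↥(mgcA A K₁'))
          ({rtk6diT A K₁' L M H} : Set ↥(rtk6diF A K₁' L M H))) ϖ₁) =
        algebraMap ↥(mgcA A K₁) ↥(zchClosure (A₀ := ↥(mgcA A K₁))
          ({rtk6diT A K₁ L M H} : Set ↥(rtk6diF A K₁ L M H))) (rtk6ebQ (A := A) h ϖ₁) :=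
  rtk6dbc_chart_t L M H hr hA h hL hML hϖ₁ hπ'
    (rtk6dbc_hred_zch (A₀ := ↥(mgcA A K₁')) (rtk6diT A K₁' L M H) V₁
      fam.hBV₁ fam.hπV ss1)

/-- **D-BC, chart `t⁻¹`, from the family and (SS1) at `K₁′`.** -/
theorem rtk6dbc_chart_tinv_of_ss1 (hr : r.Prime) (hA : A.LiesOverPrime r) (h : K₁' ≤ K₁)
    (hL : L ≠ 0) (hML : M ∣ L)
    [IsDiscreteValuationRing ↥(mgcA A K₁')] [IsDiscreteValuationRing ↥(mgcA A K₁)]
    {ϖ₁ : ↥(mgcA A K₁')} (hϖ₁ : Irreducible ϖ₁) {π' : ↥(mgcA A K₁)} (hπ' : Irreducible π')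
    {κ₁ : Type} {V₁ : κ₁ → ValuationSubring ↥(rtk6diF A K₁' L M H)}
    (fam : Rtk6emFam A K₁' L M H ϖ₁ V₁) (ss1 : Rtk6emSS1 A K₁' L M H ϖ₁ V₁) :
    ∃ j : ↥(zchClosure (A₀ := ↥(mgcA A K₁'))
          ({(rtk6diT A K₁' L M H)⁻¹} : Set ↥(rtk6diF A K₁' L M H))) →+*
        ↥(zchClosure (A₀ := ↥(mgcA A K₁))
          ({(rtk6diT A K₁ L M H)⁻¹} : Set ↥(rtk6diF A K₁ L M H))),
      (∀ b, ((j b : ↥(zchClosure (A₀ := ↥(mgcA A K₁))
          ({(rtk6diT A K₁ L M H)⁻¹} : Set ↥(rtk6diF A K₁ L M H)))) :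
          ↥(rtk6diF A K₁ L M H)) = rtk6dbcIncl (A := A) L M H h (b : ↥(rtk6diF A K₁' L M H))) ∧
      MgcRamified j
        (algebraMap ↥(mgcA A K₁) ↥(zchClosure (A₀ := ↥(mgcA A K₁))
          ({(rtk6diT A K₁ L M H)⁻¹} : Set ↥(rtk6diF A K₁ L M H))) π')
        (algebraMap ↥(mgcA A K₁') ↥(zchClosure (A₀ := ↥(mgcA A K₁'))
          ({(rtk6diT A K₁' L M H)⁻¹} : Set ↥(rtk6diF A K₁' L M H))) ϖ₁) ∧
      j (algebraMap ↥(mgcA A K₁') ↥(zchClosure (A₀ := ↥(mgcA A K₁'))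
          ({(rtk6diT A K₁' L M H)⁻¹} : Set ↥(rtk6diF A K₁' L M H))) ϖ₁) =
        algebraMap ↥(mgcA A K₁) ↥(zchClosure (A₀ := ↥(mgcA A K₁))
          ({(rtk6diT A K₁ L M H)⁻¹} : Set ↥(rtk6diF A K₁ L M H))) (rtk6ebQ (A := A) h ϖ₁) :=
  rtk6dbc_chart_tinv L M H hr hA h hL hML hϖ₁ hπ'
    (rtk6dbc_hred_zch (A₀ := ↥(mgcA A K₁')) (rtk6diT A K₁' L M H)⁻¹ V₁
      fam.hBV₂ fam.hπV (rtk6hr_ss1_inv hϖ₁ hL hML fam ss1))

end Concrete

end Fermat.Agent.RT.K6
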