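/-
K-machine, piece K6, piece **FIX-U** (helper49): the hypotheses `Rtk6emFixAt`, `Rtk6emCongAt` of
E-MAIN (`RT/K6/EMain.lean`) for `g = Φ = σ̂ = rtk6diGal σ`, `σ` in the inertia group of `A`, at
EVERY closed point of the special fibre of the two charts of `F′ = rtk6diF A K₁ L M H` over
`A′ = mgcA A K₁`.

Input: the (D-BC) datum of the chart `B′_u = zchClosure {u}` (`u = t` or `t⁻¹`): a ring `R` (the
chart over the unramified base), `j : R →+* B′_u` with `B′_u = j R + π′ B′_u`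
(`MgcRamified.decomp`), such that `j` is coefficientwise, `(j b : F′) = rtk6diCoeffHom f (ι b)`,
for a ring homomorphism `f : E₀ →+* E′` whose image is fixed by `σ` (`E₀ = ℚ̄^I`).

Then `σ̂` fixes `j R` pointwise and `σ̂ π′ = π′ (1 + c)`, so `σ̂ b − b ∈ π′ B′_u ⊆ 𝔫` for every
`b ∈ B′_u` and every closed point `𝔫 ∋ π′`.

* `rtk6fxu_trivMod_abs`   : abstract, `AtTrivMod π u s` from the decomposition;
* `rtk6fxu_cong_of_trivMod`, `rtk6fxu_fix_of_trivMod` : `AtTrivMod` ⇒ `Rtk6ewCong … 1 𝔫`,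
  `Rtk6ewFix g 𝔫` at every closed point `𝔫`;
* `rtk6fxu_gal_inv`       : `(rtk6diGal σ)⁻¹ = rtk6diGal σ⁻¹`;
* `rtk6fxu_trivMod_gal`   : `AtTrivMod π′ u (rtk6diGal σ)` from the (D-BC) datum;
* `rtk6fxu_fixAt`, `rtk6fxu_congAt` : **`Rtk6emFixAt`, `Rtk6emCongAt`** for `g = rtk6diGal σ`;
* `rtk6fxu_fixAt_ramified`, `rtk6fxu_congAt_ramified` : the same from `MgcRamified j π′ p`.
-/
import Fermat.Agent.RT.K6.EMain
import Fermat.Agent.UNIP.MGTriv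
import Fermat.Agent.STB.MainTwo

set_option autoImplicit false
set_option linter.style.haveILetI false
set_option linter.unusedSectionVars false
set_option linter.unusedVariables false
set_option linter.style.longLine false

noncomputable section

namespace Fermat.Agent.RT.K6

open ModularCurve AlgebraicCurve Fermat.Agent.ES Fermat.Agent.ES.G2 Fermat.Agent.INJ
open Fermat.Agent.UNIP Fermat.Agent.STB Fermat.Agent.ES1 Fermat.Agent.ES1.G2 IntermediateField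

/-! ### Abstract -/

section Abs

variable {A₀ E F : Type*} [CommRing A₀] [IsDomain A₀] [IsDiscreteValuationRing A₀]
  [Field E] [Algebra A₀ E] [IsFractionRing A₀ E] [CharZero E]
  [Field F] [Algebra E F] [Algebra A₀ F] [IsScalarTower A₀ E F]
  {π : A₀}

/-- **FIX-U, abstract.**  If `B_u = j R + π B_u`, `s` fixes `j R` pointwise, preserves `B_u` and
`s π = π ε` with `ε ∈ B_u`, then `s` is trivial modulo `π` on the chart `u`. -/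
theorem rtk6fxu_trivMod_abs (s : SemilinearAut E F) {u : F}
    (hsB : ∀ b : F, IsIntegral ↥(Algebra.adjoin A₀ ({u} : Set F)) b →
      IsIntegral ↥(Algebra.adjoin A₀ ({u} : Set F)) (s • b))
    (hsπ : ∃ ε : F, IsIntegral ↥(Algebra.adjoin A₀ ({u} : Set F)) ε ∧
      s • algebraMap A₀ F π = algebraMap A₀ F π * ε)
    {R : Type*} [CommRing R] (j : R →+* ↥(zchClosure (A₀ := A₀) ({u} : Set F)))
    (hdec : ∀ x : ↥(zchClosure (A₀ := A₀) ({u} : Set F)),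
      ∃ (c : R) (z : ↥(zchClosure (A₀ := A₀) ({u} : Set F))),
        x = j c + algebraMap A₀ ↥(zchClosure (A₀ := A₀) ({u} : Set F)) π * z)
    (hfix : ∀ c : R, s • ((j c : ↥(zchClosure (A₀ := A₀) ({u} : Set F))) : F) =
      ((j c : ↥(zchClosure (A₀ := A₀) ({u} : Set F))) : F)) :
    AtTrivMod π u s := by
  intro b hb
  obtain ⟨c, z, hx⟩ := hdec ⟨b, mem_zchClosure.mpr hb⟩
  obtain ⟨ε, hε, hsε⟩ := hsπ
  have hb' : b = ((j c : ↥(zchClosure (A₀ := A₀) ({u} : Set F))) : F) +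
      algebraMap A₀ F π * (z : F) := by
    have h := congrArg (fun y : ↥(zchClosure (A₀ := A₀) ({u} : Set F)) => (y : F)) hx
    exact h
  have hz : IsIntegral ↥(Algebra.adjoin A₀ ({u} : Set F)) (z : F) := mem_zchClosure.mp z.2
  refine ⟨ε * s • (z : F) - (z : F), ?_, ?_⟩
  · exact mem_zchClosure.mp ((zchClosure (A₀ := A₀) ({u} : Set F)).sub_mem
      ((zchClosure (A₀ := A₀) ({u} : Set F)).mul_mem (mem_zchClosure.mpr hε)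
        (mem_zchClosure.mpr (hsB _ hz))) z.2)
  · rw [hb', smul_add, smul_mul', hfix, hsε]
    ring

/-- `AtTrivMod` gives the congruence `Φ b ≡ b` at every closed point of the special fibre. -/
theorem rtk6fxu_cong_of_trivMod {s : SemilinearAut E F} {u : F} (h : AtTrivMod π u s)
    (𝔫 : AtPt (F := F) π u) :
    Rtk6ewCong (SemilinearAut.toRingAut s : F ≃+* F).toRingHom 1 𝔫 := by
  intro b
  obtain ⟨c, hc, hbc⟩ := h (b : F) (mem_zchClosure.mp b.2)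
  refine ⟨algebraMap A₀ ↥(zchClosure (A₀ := A₀) ({u} : Set F)) π * ⟨c, mem_zchClosure.mpr hc⟩,
    Ideal.mul_mem_right _ _ 𝔫.2.2, ?_⟩
  rw [pow_one]
  exact hbc

/-- `AtTrivMod` for `g` and `g⁻¹` gives `g 𝔫 = 𝔫` at every closed point of the special fibre. -/
theorem rtk6fxu_fix_of_trivMod {g : SemilinearAut E F} {u : F} (h : AtTrivMod π u g)
    (h' : AtTrivMod π u g⁻¹) (𝔫 : AtPt (F := F) π u) : Rtk6ewFix g 𝔫 := by
  have key : ∀ s : SemilinearAut E F, AtTrivMod π u s →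
      ∀ b : ↥(zchClosure (A₀ := A₀) ({u} : Set F)), b ∈ 𝔫.1 →
        ∃ b' : ↥(zchClosure (A₀ := A₀) ({u} : Set F)), b' ∈ 𝔫.1 ∧ s • (b : F) = b' := by
    intro s hs b hb
    obtain ⟨c, hc, hbc⟩ := hs (b : F) (mem_zchClosure.mp b.2)
    refine ⟨b + algebraMap A₀ ↥(zchClosure (A₀ := A₀) ({u} : Set F)) π *
      ⟨c, mem_zchClosure.mpr hc⟩, 𝔫.1.add_mem hb (Ideal.mul_mem_right _ _ 𝔫.2.2), ?_⟩
    exact hbc
  exact ⟨key g h, key g⁻¹ h'⟩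

end Abs

/-! ### Concrete: `g = rtk6diGal σ`, `σ` in the inertia group -/

section Conc

variable {A : ValuationSubring Qb} {K₁ : IntermediateField ℚ Qb}
  (L M : ℕ) (H : Subgroup (ZMod M)ˣ)

/-- `(σ̂)⁻¹ = (σ⁻¹)^` -/
theorem rtk6fxu_gal_inv (σ : Qb ≃ₐ[ℚ] Qb) (hσ : ∀ x ∈ mgcE A K₁, σ x ∈ mgcE A K₁)
    (hσ' : ∀ x ∈ mgcE A K₁, σ⁻¹ x ∈ mgcE A K₁) :
    (rtk6diGal L M H σ hσ)⁻¹ = rtk6diGal L M H σ⁻¹ hσ' := by
  have h1 : (rtk6diGalGen (K := ↥(mgcE A K₁)) L M H (mgaRestrictEquiv (mgcE A K₁) σ hσ))⁻¹ =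
      rtk6diGalGen (K := ↥(mgcE A K₁)) L M H (mgaRestrictEquiv (mgcE A K₁) σ hσ)⁻¹ :=
    (map_inv (rtk6diGalGen (K := ↥(mgcE A K₁)) L M H) _).symm
  have h2 : (mgaRestrictEquiv (mgcE A K₁) σ hσ)⁻¹ = mgaRestrictEquiv (mgcE A K₁) σ⁻¹ hσ' :=
    mgt_restrict_inv (mgcE A K₁) hσ hσ'
  exact h1.trans (congrArg (rtk6diGalGen (K := ↥(mgcE A K₁)) L M H) h2)

/-- `σ̂` fixes `t⁻¹` -/
theorem rtk6fxu_smul_T_inv (σ : Qb ≃ₐ[ℚ] Qb) (hσ : ∀ x ∈ mgcE A K₁, σ x ∈ mgcE A K₁) :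
    rtk6diGal L M H σ hσ • (rtk6diT A K₁ L M H)⁻¹ = (rtk6diT A K₁ L M H)⁻¹ := by
  have h : rtk6diGal L M H σ hσ • (rtk6diT A K₁ L M H)⁻¹ =
      (rtk6diGal L M H σ hσ • rtk6diT A K₁ L M H)⁻¹ :=
    map_inv₀ (SemilinearAut.toRingAut (rtk6diGal L M H σ hσ)) (rtk6diT A K₁ L M H)
  rw [h, rtk6di_smul_T]

variable {L M H}

/-- `σ̂` fixes the coefficientwise image of a field fixed by `σ` -/
theorem rtk6fxu_smul_coeffHom (σ : Qb ≃ₐ[ℚ] Qb) (hσ : ∀ x ∈ mgcE A K₁, σ x ∈ mgcE A K₁)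
    {E₀ : Type*} [Field E₀] (f : E₀ →+* ↥(mgcE A K₁))
    (hf : ∀ a : E₀, σ ((f a : ↥(mgcE A K₁)) : Qb) = ((f a : ↥(mgcE A K₁)) : Qb))
    (x : fieldC E₀ L M H) :
    rtk6diGal L M H σ hσ • rtk6diCoeffHom L M H f x = rtk6diCoeffHom L M H f x := by
  rw [rtk6diGal_smul]
  show rtk6diCoeffHom L M H (mgRestrict (mgcE A K₁) σ hσ) (rtk6diCoeffHom L M H f x) = _
  rw [rtk6diCoeffHom_comp]
  exact rtk6diCoeffHom_congr L M H (fun a => Subtype.ext (hf a)) x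

variable [IsDiscreteValuationRing ↥(mgcA A K₁)]

/-- `σ̂ π′ = π′ ε`, `ε ∈ A′`, for `σ` in the inertia group -/
theorem rtk6fxu_smul_unif {σ : Qb ≃ₐ[ℚ] Qb} (hσI : σ ∈ A.inertiaSubgroupIn ℚ)
    (hσ : ∀ x ∈ mgcE A K₁, σ x ∈ mgcE A K₁) {π : ↥(mgcA A K₁)} (hπ : Irreducible π) :
    ∃ ε : ↥(mgcA A K₁), rtk6diGal L M H σ hσ •
        algebraMap ↥(mgcA A K₁) ↥(rtk6diF A K₁ L M H) π =
      algebraMap ↥(mgcA A K₁) ↥(rtk6diF A K₁ L M H) π *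
        algebraMap ↥(mgcA A K₁) ↥(rtk6diF A K₁ L M H) ε := by
  obtain ⟨c, hc⟩ := mgt_inertia_unif hσI (mgcE A K₁) hσ hπ
  refine ⟨1 + c, ?_⟩
  rw [rtk6diGal_smul]
  have h1 := rtk6diAct_algebraMap L M H σ hσ (π : ↥(mgcE A K₁))
  have e : mgRestrict (mgcE A K₁) σ hσ (π : ↥(mgcE A K₁)) =
      (π : ↥(mgcE A K₁)) * ((1 + c : ↥(mgcA A K₁)) : ↥(mgcE A K₁)) := by
    have h2 : mgRestrict (mgcE A K₁) σ hσ (π : ↥(mgcE A K₁)) =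
        (π : ↥(mgcE A K₁)) + (π : ↥(mgcE A K₁)) * (c : ↥(mgcE A K₁)) := hc
    rw [h2]
    push_cast
    ring
  rw [e, map_mul] at h1
  exact h1

/-- **FIX-U**: `σ̂` is trivial modulo `π′` on the chart `u` (`u = t` or `u = t⁻¹`), from the
(D-BC) datum `B′_u = j R + π′ B′_u`, `j` coefficientwise over a field fixed by `σ`. -/
theorem rtk6fxu_trivMod_gal {σ : Qb ≃ₐ[ℚ] Qb} (hσI : σ ∈ A.inertiaSubgroupIn ℚ)
    (hσ : ∀ x ∈ mgcE A K₁, σ x ∈ mgcE A K₁) {π : ↥(mgcA A K₁)} (hπ : Irreducible π)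
    {u : ↥(rtk6diF A K₁ L M H)}
    (hu : u = rtk6diT A K₁ L M H ∨ u = (rtk6diT A K₁ L M H)⁻¹)
    {E₀ : Type*} [Field E₀] (f : E₀ →+* ↥(mgcE A K₁))
    (hf : ∀ a : E₀, σ ((f a : ↥(mgcE A K₁)) : Qb) = ((f a : ↥(mgcE A K₁)) : Qb))
    {R : Type*} [CommRing R] (ι : R → fieldC E₀ L M H)
    (j : R →+* ↥(zchClosure (A₀ := ↥(mgcA A K₁)) ({u} : Set ↥(rtk6diF A K₁ L M H))))
    (hj : ∀ b : R, ((j b : ↥(zchClosure (A₀ := ↥(mgcA A K₁))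
        ({u} : Set ↥(rtk6diF A K₁ L M H)))) : ↥(rtk6diF A K₁ L M H)) =
      rtk6diCoeffHom L M H f (ι b))
    (hdec : ∀ x : ↥(zchClosure (A₀ := ↥(mgcA A K₁)) ({u} : Set ↥(rtk6diF A K₁ L M H))),
      ∃ (c : R) (z : ↥(zchClosure (A₀ := ↥(mgcA A K₁)) ({u} : Set ↥(rtk6diF A K₁ L M H)))),
        x = j c + algebraMap ↥(mgcA A K₁) ↥(zchClosure (A₀ := ↥(mgcA A K₁))
          ({u} : Set ↥(rtk6diF A K₁ L M H))) π * z) :
    AtTrivMod π u (rtk6diGal L M H σ hσ) := by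
  have hσD : σ ∈ A.decompositionSubgroup ℚ := kron_mem_decomposition_of_mem_inertia hσI
  have hgu : rtk6diGal L M H σ hσ • u = u := by
    rcases hu with rfl | rfl
    · exact rtk6di_smul_T L M H σ hσ
    · exact rtk6fxu_smul_T_inv L M H σ hσ
  obtain ⟨ε, hε⟩ := rtk6fxu_smul_unif (L := L) (M := M) (H := H) hσI hσ hπ
  refine rtk6fxu_trivMod_abs (rtk6diGal L M H σ hσ)
    (fun b hb => stb_mt_isIntegral_smul (rtk6diGal L M H σ hσ) hgu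
      (rtk6dv_hgA L M H hσD hσ) hb)
    ⟨algebraMap ↥(mgcA A K₁) ↥(rtk6diF A K₁ L M H) ε,
      mem_zchClosure.mp ((zchClosure (A₀ := ↥(mgcA A K₁))
        ({u} : Set ↥(rtk6diF A K₁ L M H))).algebraMap_mem ε), hε⟩
    j hdec (fun c => ?_)
  rw [hj]
  exact rtk6fxu_smul_coeffHom σ hσ f hf (ι c)

/-- the inverse of an element of the inertia group -/
theorem rtk6fxu_inv_mem {σ : Qb ≃ₐ[ℚ] Qb} (hσI : σ ∈ A.inertiaSubgroupIn ℚ) :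
    σ⁻¹ ∈ A.inertiaSubgroupIn ℚ := inv_mem hσI

/-- **FIX-U, `hcong`**: `Rtk6emCongAt` for `Φ = σ̂` (at EVERY closed point). -/
theorem rtk6fxu_congAt {σ : Qb ≃ₐ[ℚ] Qb} (hσI : σ ∈ A.inertiaSubgroupIn ℚ)
    (hσ : ∀ x ∈ mgcE A K₁, σ x ∈ mgcE A K₁) {π : ↥(mgcA A K₁)} (hπ : Irreducible π)
    {κ : Type} (V : κ → ValuationSubring ↥(rtk6diF A K₁ L M H))
    {u : ↥(rtk6diF A K₁ L M H)}
    (hu : u = rtk6diT A K₁ L M H ∨ u = (rtk6diT A K₁ L M H)⁻¹)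
    {E₀ : Type*} [Field E₀] (f : E₀ →+* ↥(mgcE A K₁))
    (hf : ∀ a : E₀, σ ((f a : ↥(mgcE A K₁)) : Qb) = ((f a : ↥(mgcE A K₁)) : Qb))
    {R : Type*} [CommRing R] (ι : R → fieldC E₀ L M H)
    (j : R →+* ↥(zchClosure (A₀ := ↥(mgcA A K₁)) ({u} : Set ↥(rtk6diF A K₁ L M H))))
    (hj : ∀ b : R, ((j b : ↥(zchClosure (A₀ := ↥(mgcA A K₁))
        ({u} : Set ↥(rtk6diF A K₁ L M H)))) : ↥(rtk6diF A K₁ L M H)) =
      rtk6diCoeffHom L M H f (ι b))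
    (hdec : ∀ x : ↥(zchClosure (A₀ := ↥(mgcA A K₁)) ({u} : Set ↥(rtk6diF A K₁ L M H))),
      ∃ (c : R) (z : ↥(zchClosure (A₀ := ↥(mgcA A K₁)) ({u} : Set ↥(rtk6diF A K₁ L M H)))),
        x = j c + algebraMap ↥(mgcA A K₁) ↥(zchClosure (A₀ := ↥(mgcA A K₁))
          ({u} : Set ↥(rtk6diF A K₁ L M H))) π * z) :
    Rtk6emCongAt A K₁ L M H π V (rtk6diGal L M H σ hσ) u :=
  fun 𝔫 _ _ _ _ _ =>
    rtk6fxu_cong_of_trivMod (rtk6fxu_trivMod_gal hσI hσ hπ hu f hf ι j hj hdec) 𝔫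

/-- **FIX-U, `hfix`**: `Rtk6emFixAt` for `g = σ̂` (at EVERY closed point). -/
theorem rtk6fxu_fixAt {σ : Qb ≃ₐ[ℚ] Qb} (hσI : σ ∈ A.inertiaSubgroupIn ℚ)
    (hσ : ∀ x ∈ mgcE A K₁, σ x ∈ mgcE A K₁) {π : ↥(mgcA A K₁)} (hπ : Irreducible π)
    {κ : Type} (V : κ → ValuationSubring ↥(rtk6diF A K₁ L M H))
    {u : ↥(rtk6diF A K₁ L M H)}
    (hu : u = rtk6diT A K₁ L M H ∨ u = (rtk6diT A K₁ L M H)⁻¹)
    {E₀ : Type*} [Field E₀] (f : E₀ →+* ↥(mgcE A K₁))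
    (hf : ∀ a : E₀, σ ((f a : ↥(mgcE A K₁)) : Qb) = ((f a : ↥(mgcE A K₁)) : Qb))
    {R : Type*} [CommRing R] (ι : R → fieldC E₀ L M H)
    (j : R →+* ↥(zchClosure (A₀ := ↥(mgcA A K₁)) ({u} : Set ↥(rtk6diF A K₁ L M H))))
    (hj : ∀ b : R, ((j b : ↥(zchClosure (A₀ := ↥(mgcA A K₁))
        ({u} : Set ↥(rtk6diF A K₁ L M H)))) : ↥(rtk6diF A K₁ L M H)) =
      rtk6diCoeffHom L M H f (ι b))
    (hdec : ∀ x : ↥(zchClosure (A₀ := ↥(mgcA A K₁)) ({u} : Set ↥(rtk6diF A K₁ L M H))),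
      ∃ (c : R) (z : ↥(zchClosure (A₀ := ↥(mgcA A K₁)) ({u} : Set ↥(rtk6diF A K₁ L M H)))),
        x = j c + algebraMap ↥(mgcA A K₁) ↥(zchClosure (A₀ := ↥(mgcA A K₁))
          ({u} : Set ↥(rtk6diF A K₁ L M H))) π * z) :
    Rtk6emFixAt A K₁ L M H π V (rtk6diGal L M H σ hσ) u := by
  intro 𝔫 _ _ _ _ _
  have hσ' : ∀ x ∈ mgcE A K₁, σ⁻¹ x ∈ mgcE A K₁ := mgt_stable_inv (mgcE A K₁) hσ
  have hf' : ∀ a : E₀, σ⁻¹ ((f a : ↥(mgcE A K₁)) : Qb) = ((f a : ↥(mgcE A K₁)) : Qb) := by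
    intro a
    have h : σ.symm (σ ((f a : ↥(mgcE A K₁)) : Qb)) = σ.symm ((f a : ↥(mgcE A K₁)) : Qb) :=
      congrArg σ.symm (hf a)
    rw [AlgEquiv.symm_apply_apply] at h
    exact h.symm
  refine rtk6fxu_fix_of_trivMod (rtk6fxu_trivMod_gal hσI hσ hπ hu f hf ι j hj hdec) ?_ 𝔫
  rw [rtk6fxu_gal_inv L M H σ hσ hσ']
  exact rtk6fxu_trivMod_gal (rtk6fxu_inv_mem hσI) hσ' hπ hu f hf' ι j hj hdec

/-- **FIX-U, `hcong`**, from `MgcRamified j π′ p` (the output of (D-BC)). -/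
theorem rtk6fxu_congAt_ramified {σ : Qb ≃ₐ[ℚ] Qb} (hσI : σ ∈ A.inertiaSubgroupIn ℚ)
    (hσ : ∀ x ∈ mgcE A K₁, σ x ∈ mgcE A K₁) {π : ↥(mgcA A K₁)} (hπ : Irreducible π)
    {κ : Type} (V : κ → ValuationSubring ↥(rtk6diF A K₁ L M H))
    {u : ↥(rtk6diF A K₁ L M H)}
    (hu : u = rtk6diT A K₁ L M H ∨ u = (rtk6diT A K₁ L M H)⁻¹)
    {E₀ : Type*} [Field E₀] (f : E₀ →+* ↥(mgcE A K₁))
    (hf : ∀ a : E₀, σ ((f a : ↥(mgcE A K₁)) : Qb) = ((f a : ↥(mgcE A K₁)) : Qb))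
    {R : Type*} [CommRing R] (ι : R → fieldC E₀ L M H)
    (j : R →+* ↥(zchClosure (A₀ := ↥(mgcA A K₁)) ({u} : Set ↥(rtk6diF A K₁ L M H))))
    (hj : ∀ b : R, ((j b : ↥(zchClosure (A₀ := ↥(mgcA A K₁))
        ({u} : Set ↥(rtk6diF A K₁ L M H)))) : ↥(rtk6diF A K₁ L M H)) =
      rtk6diCoeffHom L M H f (ι b))
    (p : R)
    (hram : MgcRamified j (algebraMap ↥(mgcA A K₁) ↥(zchClosure (A₀ := ↥(mgcA A K₁))
      ({u} : Set ↥(rtk6diF A K₁ L M H))) π) p) :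
    Rtk6emCongAt A K₁ L M H π V (rtk6diGal L M H σ hσ) u :=
  rtk6fxu_congAt hσI hσ hπ V hu f hf ι j hj hram.decomp

/-- **FIX-U, `hfix`**, from `MgcRamified j π′ p` (the output of (D-BC)). -/
theorem rtk6fxu_fixAt_ramified {σ : Qb ≃ₐ[ℚ] Qb} (hσI : σ ∈ A.inertiaSubgroupIn ℚ)
    (hσ : ∀ x ∈ mgcE A K₁, σ x ∈ mgcE A K₁) {π : ↥(mgcA A K₁)} (hπ : Irreducible π)
    {κ : Type} (V : κ → ValuationSubring ↥(rtk6diF A K₁ L M H))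
    {u : ↥(rtk6diF A K₁ L M H)}
    (hu : u = rtk6diT A K₁ L M H ∨ u = (rtk6diT A K₁ L M H)⁻¹)
    {E₀ : Type*} [Field E₀] (f : E₀ →+* ↥(mgcE A K₁))
    (hf : ∀ a : E₀, σ ((f a : ↥(mgcE A K₁)) : Qb) = ((f a : ↥(mgcE A K₁)) : Qb))
    {R : Type*} [CommRing R] (ι : R → fieldC E₀ L M H)
    (j : R →+* ↥(zchClosure (A₀ := ↥(mgcA A K₁)) ({u} : Set ↥(rtk6diF A K₁ L M H))))
    (hj : ∀ b : R, ((j b : ↥(zchClosure (A₀ := ↥(mgcA A K₁))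
        ({u} : Set ↥(rtk6diF A K₁ L M H)))) : ↥(rtk6diF A K₁ L M H)) =
      rtk6diCoeffHom L M H f (ι b))
    (p : R)
    (hram : MgcRamified j (algebraMap ↥(mgcA A K₁) ↥(zchClosure (A₀ := ↥(mgcA A K₁))
      ({u} : Set ↥(rtk6diF A K₁ L M H))) π) p) :
    Rtk6emFixAt A K₁ L M H π V (rtk6diGal L M H σ hσ) u :=
  rtk6fxu_fixAt hσI hσ hπ V hu f hf ι j hj hram.decomp

end Conc

/-! ### The field fixed by inertia -/

section Fixed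

variable {A : ValuationSubring Qb}

/-- the inertia group fixes `ℚ̄^I` pointwise -/
theorem rtk6fxu_fix_beta0 {σ : Qb ≃ₐ[ℚ] Qb} (hσI : σ ∈ A.inertiaSubgroupIn ℚ)
    {x : Qb} (hx : x ∈ beta0Field A) : σ x = x :=
  mem_beta0Field.mp hx σ hσI

/-- `mgcE A ⊥ = ℚ̄^I` -/
theorem rtk6fxu_mgcE_bot : mgcE A ⊥ = beta0Field A := sup_bot_eq _

/-- the inertia group fixes `mgcE A K₁′` pointwise if `K₁′ ≤ ℚ̄^I` -/
theorem rtk6fxu_fix_mgcE {σ : Qb ≃ₐ[ℚ] Qb} (hσI : σ ∈ A.inertiaSubgroupIn ℚ)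
    {K₁' : IntermediateField ℚ Qb} (hK : K₁' ≤ beta0Field A) (a : ↥(mgcE A K₁')) :
    σ (a : Qb) = (a : Qb) := by
  have hle : beta0Field A ⊔ K₁' ≤ beta0Field A := sup_le (le_refl (beta0Field A)) hK
  have ha : (a : Qb) ∈ beta0Field A ⊔ K₁' := a.2
  exact rtk6fxu_fix_beta0 hσI (hle ha)

/-- the inertia group fixes `mgcE A ⊥` pointwise -/
theorem rtk6fxu_fix_mgcE_bot {σ : Qb ≃ₐ[ℚ] Qb} (hσI : σ ∈ A.inertiaSubgroupIn ℚ)
    (a : ↥(mgcE A ⊥)) : σ (a : Qb) = (a : Qb) :=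
  rtk6fxu_fix_mgcE hσI bot_le a

/-- the hypothesis `hf` of `rtk6fxu_fixAt` for the inclusion `mgcE A K₁′ → mgcE A K₁`,
`K₁′ ≤ ℚ̄^I` -/
theorem rtk6fxu_hf_inclusion {σ : Qb ≃ₐ[ℚ] Qb} (hσI : σ ∈ A.inertiaSubgroupIn ℚ)
    {K₁' K₁ : IntermediateField ℚ Qb} (hK : K₁' ≤ beta0Field A)
    (h : mgcE A K₁' ≤ mgcE A K₁) (a : ↥(mgcE A K₁')) :
    σ (((IntermediateField.inclusion h).toRingHom a : ↥(mgcE A K₁)) : Qb) =
      (((IntermediateField.inclusion h).toRingHom a : ↥(mgcE A K₁)) : Qb) := by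
  have e : (((IntermediateField.inclusion h).toRingHom a : ↥(mgcE A K₁)) : Qb) = (a : Qb) := by
    rw [AlgHom.toRingHom_eq_coe, RingHom.coe_coe, IntermediateField.coe_inclusion]
  rw [e]
  exact rtk6fxu_fix_mgcE hσI hK a

end Fixed

end Fermat.Agent.RT.K6
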