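/-
K-machine, piece K6, piece **E-INST** (helper18), part 4: the provider **`hFix`** of
`rtk6ei_geomUnip_of_pieces` (`RT/K6/EInstGlue.lean`) in the case (U), and the FINAL wiring of the
case (U).

Lower level `K₁′ := rtk6ebK q 1` (`= ℚ`, so `E₁ = mgcE A K₁′ = ℚ̄^I` is fixed by the inertia
group), `w₁ := rtk6diwEquiv w₀ hcomm` (`hcomm` from W1, `rtk6w1_commK_of_hat`), the family
`V₁ = rtk6dfV hϖ₁ M H w₁` over `F₁ = rtk6diF A K₁′ L M H`: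
`Rtk6emFam` by `rtk6m1_emFam` (helper82), `Rtk6emSS1` by (SS1-inst) GENERIC in `(K₁, w)`
(`StmtRtk6SS1Gen`, helper79's `rtk6ss_hSS1₁`), hence `hred` (HRED, helper45), hence the (D-BC)
datum `j : zchClosure {t₁^{±1}} →+* zchClosure {t^{±1}}` with `MgcRamified` (helper56), hence
(FIX-U) (helper49).

* `rtk6eiu_hred`, `rtk6eiu_hred_inv` : `hred` in `zchClosure` form from `Rtk6emFam` + `Rtk6emSS1`;
* `rtk6eiu_fix_cong` : `Rtk6emFixAt ∧ Rtk6emCongAt` for `g = Φ = σ̂` at `K₁`, both charts, from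
  `Rtk6emFam` + `Rtk6emSS1` at any lower level `K₁′ ≤ K₁`, `K₁′ ≤ ℚ̄^I`;
* `StmtRtk6SS1Gen` : (SS1-inst) generic in `(K₁, w)`;
* `rtk6eiu_hFix` : `StmtRtk6SS1Gen →` the provider `hFix` of `rtk6ei_geomUnip_of_pieces`;
* `rtk6eiu_hSS1` : `StmtRtk6SS1Gen →` the provider `hSS1` of `rtk6ei_geomUnip_of_pieces`;
* `rtk6eiu_geomUnip` : `StmtRtk6SS1Gen → (hNode) → StmtRtk6GeomUnip`.
-/
import Fermat.Agent.RT.K6.EInstGlue
import Fermat.Agent.RT.K6.W1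
import Fermat.Agent.RT.K6.HRed
import Fermat.Agent.RT.K6.DBCConc
import Fermat.Agent.RT.K6.FixU

set_option autoImplicit false
set_option linter.style.haveILetI false
set_option linter.unusedSectionVars false
set_option linter.unusedVariables false
set_option linter.style.longLine false

noncomputable section

namespace Fermat.Agent.RT.K6

open ModularCurve AlgebraicCurve Fermat.Agent.ES Fermat.Agent.ES.G2 Fermat.Agent.INJ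
open Fermat.Agent.UNIP Fermat.Agent.STB Fermat.Agent.ES1 Fermat.Agent.ES1.G2 IntermediateField

/-! ### `hred` in `zchClosure` form -/

section HRed

variable {A : ValuationSubring Qb} {K₁ : IntermediateField ℚ Qb}
  [IsDiscreteValuationRing ↥(mgcA A K₁)] {L M : ℕ} {H : Subgroup (ZMod M)ˣ}
  {π : ↥(mgcA A K₁)} {κ : Type} {V : κ → ValuationSubring ↥(rtk6diF A K₁ L M H)}

set_option synthInstance.maxHeartbeats 400000 in
set_option maxHeartbeats 1000000 in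
/-- `hred` of (D-BC) in `zchClosure` form, any chart `u`, from the `integralClosure` form -/
theorem rtk6eiu_hred_of (u : ↥(rtk6diF A K₁ L M H))
    (h : ∀ c : ↥(integralClosure ↥(Algebra.adjoin ↥(mgcA A K₁)
        ({u} : Set ↥(rtk6diF A K₁ L M H))) ↥(rtk6diF A K₁ L M H)),
      algebraMap ↥(mgcA A K₁) ↥(integralClosure ↥(Algebra.adjoin ↥(mgcA A K₁)
        ({u} : Set ↥(rtk6diF A K₁ L M H))) ↥(rtk6diF A K₁ L M H)) π ∣ c ^ 2 →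
      algebraMap ↥(mgcA A K₁) ↥(integralClosure ↥(Algebra.adjoin ↥(mgcA A K₁)
        ({u} : Set ↥(rtk6diF A K₁ L M H))) ↥(rtk6diF A K₁ L M H)) π ∣ c)
    (c : ↥(zchClosure (A₀ := ↥(mgcA A K₁)) ({u} : Set ↥(rtk6diF A K₁ L M H))))
    (hc : algebraMap ↥(mgcA A K₁) ↥(zchClosure (A₀ := ↥(mgcA A K₁))
      ({u} : Set ↥(rtk6diF A K₁ L M H))) π ∣ c ^ 2) :
    algebraMap ↥(mgcA A K₁) ↥(zchClosure (A₀ := ↥(mgcA A K₁))
      ({u} : Set ↥(rtk6diF A K₁ L M H))) π ∣ c := by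
  have h1 := rtk6dbcZch_dvd_to (A₀ := ↥(mgcA A K₁)) (E₀ := ↥(mgcE A K₁)) L M H u hc
  rw [rtk6dbcZchTo_algebraMap] at h1
  have h2 : rtk6dbcZchTo (A₀ := ↥(mgcA A K₁)) (E₀ := ↥(mgcE A K₁)) L M H u (c ^ 2) =
      rtk6dbcZchTo (A₀ := ↥(mgcA A K₁)) (E₀ := ↥(mgcE A K₁)) L M H u c ^ 2 := by
    rw [pow_two, pow_two, rtk6dbcZchTo_mul]
  rw [h2] at h1
  have h3 := rtk6dbcZch_dvd_of (A₀ := ↥(mgcA A K₁)) (E₀ := ↥(mgcE A K₁)) L M H u (h _ h1)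
  rw [rtk6dbcZchOf_algebraMap, rtk6dbcZchOf_to] at h3
  exact h3

set_option synthInstance.maxHeartbeats 400000 in
set_option maxHeartbeats 1000000 in
/-- `hred` of (D-BC), chart `t`, `zchClosure` form -/
theorem rtk6eiu_hred (fam : Rtk6emFam A K₁ L M H π V) (ss1 : Rtk6emSS1 A K₁ L M H π V)
    (c : ↥(zchClosure (A₀ := ↥(mgcA A K₁))
      ({rtk6diT A K₁ L M H} : Set ↥(rtk6diF A K₁ L M H))))
    (hc : algebraMap ↥(mgcA A K₁) ↥(zchClosure (A₀ := ↥(mgcA A K₁))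
      ({rtk6diT A K₁ L M H} : Set ↥(rtk6diF A K₁ L M H))) π ∣ c ^ 2) :
    algebraMap ↥(mgcA A K₁) ↥(zchClosure (A₀ := ↥(mgcA A K₁))
      ({rtk6diT A K₁ L M H} : Set ↥(rtk6diF A K₁ L M H))) π ∣ c :=
  rtk6eiu_hred_of (rtk6diT A K₁ L M H) (rtk6hr_hred fam ss1) c hc

set_option synthInstance.maxHeartbeats 400000 in
set_option maxHeartbeats 1000000 in
/-- `hred` of (D-BC), chart `t⁻¹`, `zchClosure` form -/
theorem rtk6eiu_hred_inv (hπ : Irreducible π) (hL : L ≠ 0) (hML : M ∣ L)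
    (fam : Rtk6emFam A K₁ L M H π V) (ss1 : Rtk6emSS1 A K₁ L M H π V)
    (c : ↥(zchClosure (A₀ := ↥(mgcA A K₁))
      ({(rtk6diT A K₁ L M H)⁻¹} : Set ↥(rtk6diF A K₁ L M H))))
    (hc : algebraMap ↥(mgcA A K₁) ↥(zchClosure (A₀ := ↥(mgcA A K₁))
      ({(rtk6diT A K₁ L M H)⁻¹} : Set ↥(rtk6diF A K₁ L M H))) π ∣ c ^ 2) :
    algebraMap ↥(mgcA A K₁) ↥(zchClosure (A₀ := ↥(mgcA A K₁))
      ({(rtk6diT A K₁ L M H)⁻¹} : Set ↥(rtk6diF A K₁ L M H))) π ∣ c :=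
  rtk6eiu_hred_of (rtk6diT A K₁ L M H)⁻¹ (rtk6hr_hred_inv hπ hL hML fam ss1) c hc

end HRed

/-! ### (FIX-U) at `K₁` from the lower level -/

section Fix

variable {A : ValuationSubring Qb} {K₁' K₁ : IntermediateField ℚ Qb}
  [NumberField ↥K₁'] [IsGalois ℚ ↥K₁'] [NumberField ↥K₁] [IsGalois ℚ ↥K₁]
  [IsDiscreteValuationRing ↥(mgcA A K₁')] [IsDiscreteValuationRing ↥(mgcA A K₁)]
  {L M : ℕ} {H : Subgroup (ZMod M)ˣ} {r : ℕ}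

/-- **(FIX-U) at `K₁`**, both charts, from `Rtk6emFam` + `Rtk6emSS1` at a lower level
`K₁′ ≤ K₁` contained in `ℚ̄^I`. -/
theorem rtk6eiu_fix_cong (hr : r.Prime) (hA : A.LiesOverPrime r) (h : K₁' ≤ K₁)
    (hK : K₁' ≤ beta0Field A) (hL : L ≠ 0) (hML : M ∣ L)
    {ϖ₁ : ↥(mgcA A K₁')} (hϖ₁ : Irreducible ϖ₁) {κ₁ : Type}
    {V₁ : κ₁ → ValuationSubring ↥(rtk6diF A K₁' L M H)}
    (fam : Rtk6emFam A K₁' L M H ϖ₁ V₁) (ss1 : Rtk6emSS1 A K₁' L M H ϖ₁ V₁)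
    {π : ↥(mgcA A K₁)} (hπ : Irreducible π) {κ : Type}
    (V : κ → ValuationSubring ↥(rtk6diF A K₁ L M H))
    {σ : Qb ≃ₐ[ℚ] Qb} (hσI : σ ∈ A.inertiaSubgroupIn ℚ)
    (hσE : ∀ x ∈ mgcE A K₁, σ x ∈ mgcE A K₁) {u : ↥(rtk6diF A K₁ L M H)}
    (hu : u = rtk6diT A K₁ L M H ∨ u = (rtk6diT A K₁ L M H)⁻¹) :
    Rtk6emFixAt A K₁ L M H π V (rtk6diGal L M H σ hσE) u ∧
      Rtk6emCongAt A K₁ L M H π V (rtk6diGal L M H σ hσE) u := by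
  have hf := rtk6fxu_hf_inclusion hσI hK (rtk6eb_mgcE_mono (A := A) h)
  rcases hu with rfl | rfl
  · obtain ⟨j, hj, hram, -⟩ := rtk6dbc_chart_t L M H hr hA h hL hML hϖ₁ hπ
      (rtk6eiu_hred fam ss1)
    exact ⟨rtk6fxu_fixAt_ramified hσI hσE hπ V (Or.inl rfl) (E₀ := ↥(mgcE A K₁'))
        (IntermediateField.inclusion (rtk6eb_mgcE_mono (A := A) h)).toRingHom hf
        (R := ↥(zchClosure (A₀ := ↥(mgcA A K₁'))
          ({rtk6diT A K₁' L M H} : Set ↥(rtk6diF A K₁' L M H))))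
        (fun b => b.1) j hj _ hram,
      rtk6fxu_congAt_ramified hσI hσE hπ V (Or.inl rfl) (E₀ := ↥(mgcE A K₁'))
        (IntermediateField.inclusion (rtk6eb_mgcE_mono (A := A) h)).toRingHom hf
        (R := ↥(zchClosure (A₀ := ↥(mgcA A K₁'))
          ({rtk6diT A K₁' L M H} : Set ↥(rtk6diF A K₁' L M H))))
        (fun b => b.1) j hj _ hram⟩
  · obtain ⟨j, hj, hram, -⟩ := rtk6dbc_chart_tinv L M H hr hA h hL hML hϖ₁ hπ
      (rtk6eiu_hred_inv hϖ₁ hL hML fam ss1)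
    exact ⟨rtk6fxu_fixAt_ramified hσI hσE hπ V (Or.inr rfl) (E₀ := ↥(mgcE A K₁'))
        (IntermediateField.inclusion (rtk6eb_mgcE_mono (A := A) h)).toRingHom hf
        (R := ↥(zchClosure (A₀ := ↥(mgcA A K₁'))
          ({(rtk6diT A K₁' L M H)⁻¹} : Set ↥(rtk6diF A K₁' L M H))))
        (fun b => b.1) j hj _ hram,
      rtk6fxu_congAt_ramified hσI hσE hπ V (Or.inr rfl) (E₀ := ↥(mgcE A K₁'))
        (IntermediateField.inclusion (rtk6eb_mgcE_mono (A := A) h)).toRingHom hf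
        (R := ↥(zchClosure (A₀ := ↥(mgcA A K₁'))
          ({(rtk6diT A K₁' L M H)⁻¹} : Set ↥(rtk6diF A K₁' L M H))))
        (fun b => b.1) j hj _ hram⟩

end Fix

/-! ### The lower level `rtk6ebK q 1` -/

/-- `rtk6ebK q 1 = ℚ ≤ ℚ̄^I` -/
theorem rtk6eiu_K_le (A : ValuationSubring Qb) (q : ℕ) : rtk6ebK q 1 ≤ beta0Field A := by
  unfold rtk6ebK
  rw [IntermediateField.adjoin_le_iff]
  intro x hx
  have h1 : x ^ 1 = (q : Qb) := (rtk6eb_mem_rootSet q 1 one_ne_zero).mp hx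
  rw [pow_one] at h1
  rw [h1]
  exact _root_.natCast_mem (beta0Field A) q

/-- `q² ∤ M` at the levels `M ∣ M₁ q`, `q ∤ M₁` -/
theorem rtk6eiu_not_sq_dvd {q M₁ M : ℕ} (hq : q.Prime) (hqM : ¬ q ∣ M₁) (hML : M ∣ M₁ * q) :
    ¬ q ^ 2 ∣ M := by
  intro h
  have h1 : q ^ 2 ∣ M₁ * q := h.trans hML
  rw [pow_two] at h1
  exact hqM (Nat.dvd_of_mul_dvd_mul_right hq.pos h1)

/-! ### The open input (SS1-inst), generic in `(K₁, w)` -/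

/-- **(SS1-inst), generic in `K₁` and in `w`** (helper79: `rtk6ss_hSS1₁` + tameness). -/
def StmtRtk6SS1Gen : Prop :=
  ∀ (q M₁ : ℕ) [NeZero q] [NeZero M₁] [NeZero (M₁ * q)] (M : ℕ) (H : Subgroup (ZMod M)ˣ)
    (hq : q.Prime) (hqM : ¬ q ∣ M₁), M ∣ M₁ * q → IsTameAt (M₁ * q) M q H → 4 ∣ M₁ * q →
    ∀ (A : ValuationSubring Qb), A.LiesOverPrime q →
    ∀ (K₁ : IntermediateField ℚ Qb) [IsDiscreteValuationRing ↥(mgcA A K₁)]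
      {π : ↥(mgcA A K₁)} (hπ : Irreducible π) (ιC : ↥(mgcE A K₁) →+* ℂ)
      (w : ↥(rtk6diF A K₁ (M₁ * q) M H) ≃ₐ[↥(mgcE A K₁)] ↥(rtk6diF A K₁ (M₁ * q) M H)),
      Rtk6dvWIncl ιC hq hqM M H w →
      Rtk6emSS1 A K₁ (M₁ * q) M H π (rtk6dfV hπ M H w)

/-- the provider `hSS1` of `rtk6ei_geomUnip_of_pieces` from the generic (SS1-inst) -/
theorem rtk6eiu_hSS1 (hS : StmtRtk6SS1Gen) :
    ∀ (q M₁ : ℕ) [NeZero q] [NeZero M₁] [NeZero (M₁ * q)] (M : ℕ)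
      (H : Subgroup (ZMod M)ˣ) (hq : q.Prime) (hqM' : q ∣ M) (hM0 : M ≠ 0), ¬ q ∣ M₁ →
      M ∣ M₁ * q → (∀ c : (ZMod M)ˣ, IsAtR M q c → c ∈ pmH H) → IsTameAt (M₁ * q) M q H →
      4 ∣ M₁ * q →
      ∀ (w₀ : fieldBar (M₁ * q) M H ≃ₐ[Qb] fieldBar (M₁ * q) M H)
        (hw₀ : IsWAt (M₁ * q) M H q w₀) (A : ValuationSubring Qb), A.LiesOverPrime q →
        Rtk6eiEv q A (fun K₁ _ hζ π hπ => Rtk6emSS1 A K₁ (M₁ * q) M H π
          (rtk6dfV hπ M H (rtk6diwW (K₀ := mgcE A K₁) w₀ hw₀ hM0 hq hqM' hζ))) := by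
  intro q M₁ _ _ _ M H hq hqM' hM0 hqM hML _ htame h4 w₀ hw₀ A hA
  refine ⟨⊥, inferInstance, fun K₁ _ _ _ _ hζ π hπ => ?_⟩
  exact hS q M₁ M H hq hqM hML htame h4 A hA K₁ hπ (mgdIota (mgcE A K₁)) _
    (rtk6m1_wIncl (mgdIota (mgcE A K₁)) w₀ hw₀ hM0 hq hqM' hqM hζ)

/-- **the provider `hFix` of `rtk6ei_geomUnip_of_pieces`** from the generic (SS1-inst). -/
theorem rtk6eiu_hFix (hS : StmtRtk6SS1Gen) :
    ∀ (q M₁ : ℕ) [NeZero q] [NeZero M₁] [NeZero (M₁ * q)] (M : ℕ)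
      (H : Subgroup (ZMod M)ˣ) (hq : q.Prime) (hqM' : q ∣ M) (hM0 : M ≠ 0), ¬ q ∣ M₁ →
      M ∣ M₁ * q → (∀ c : (ZMod M)ˣ, IsAtR M q c → c ∈ pmH H) → IsTameAt (M₁ * q) M q H →
      4 ∣ M₁ * q →
      ∀ (w₀ : fieldBar (M₁ * q) M H ≃ₐ[Qb] fieldBar (M₁ * q) M H)
        (hw₀ : IsWAt (M₁ * q) M H q w₀) (A : ValuationSubring Qb), A.LiesOverPrime q →
        Rtk6eiEv q A (fun K₁ _ hζ π hπ =>
          ∀ σ ∈ A.inertiaSubgroupIn ℚ, ∀ (hσE : ∀ x ∈ mgcE A K₁, σ x ∈ mgcE A K₁)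
            (u : ↥(rtk6diF A K₁ (M₁ * q) M H)),
            (u = rtk6diT A K₁ (M₁ * q) M H ∨ u = (rtk6diT A K₁ (M₁ * q) M H)⁻¹) →
            Rtk6emFixAt A K₁ (M₁ * q) M H π
              (rtk6dfV hπ M H (rtk6diwW (K₀ := mgcE A K₁) w₀ hw₀ hM0 hq hqM' hζ))
              (rtk6diGal (M₁ * q) M H σ hσE) u ∧
            Rtk6emCongAt A K₁ (M₁ * q) M H π
              (rtk6dfV hπ M H (rtk6diwW (K₀ := mgcE A K₁) w₀ hw₀ hM0 hq hqM' hζ))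
              (rtk6diGal (M₁ * q) M H σ hσE) u) := by
  intro q M₁ _ _ _ M H hq hqM' hM0 hqM hML hat htame h4 w₀ hw₀ A hA
  refine ⟨rtk6ebK q 1, inferInstance, fun K₁ _ _ _ hK hζ π hπ σ hσ hσE u hu => ?_⟩
  haveI : IsDiscreteValuationRing ↥(mgcA A (rtk6ebK q 1)) := rtk6eb_isDVR hq hA
  obtain ⟨ϖ₁, hϖ₁⟩ := IsDiscreteValuationRing.exists_irreducible ↥(mgcA A (rtk6ebK q 1))
  have hcomm : RtkCommK (mgcE A (rtk6ebK q 1)) w₀ :=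
    rtk6w1_commK_of_hat hw₀ hM0 hq hqM' (rtk6eiu_not_sq_dvd hq hqM hML) A hA hat le_sup_left
  have hwI := rtk6w1_wIncl w₀ hw₀ hcomm hq (mgdIota (mgcE A (rtk6ebK q 1))) hqM
  have fam := rtk6m1_emFam hϖ₁ (mgdIota (mgcE A (rtk6ebK q 1))) hq hqM hwI hA hML
  have ss1 := hS q M₁ M H hq hqM hML htame h4 A hA (rtk6ebK q 1) hϖ₁
    (mgdIota (mgcE A (rtk6ebK q 1))) _ hwI
  exact rtk6eiu_fix_cong hq hA hK (rtk6eiu_K_le A q) (NeZero.ne (M₁ * q)) hML hϖ₁ fam ss1 hπ _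
    hσ hσE hu

/-- **FINAL wiring, case (U)**: `StmtRtk6GeomUnip` from the generic (SS1-inst) and the provider
`hNode` ((C4-U-inst), helper37 + helper81). -/
theorem rtk6eiu_geomUnip (hS : StmtRtk6SS1Gen)
    (hNode : ∀ (q M₁ : ℕ) [NeZero q] [NeZero M₁] [NeZero (M₁ * q)] (M : ℕ)
      (H : Subgroup (ZMod M)ˣ) (hq : q.Prime) (hqM' : q ∣ M) (hM0 : M ≠ 0), ¬ q ∣ M₁ →
      M ∣ M₁ * q → (∀ c : (ZMod M)ˣ, IsAtR M q c → c ∈ pmH H) → IsTameAt (M₁ * q) M q H →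
      4 ∣ M₁ * q →
      ∀ (w₀ : fieldBar (M₁ * q) M H ≃ₐ[Qb] fieldBar (M₁ * q) M H)
        (hw₀ : IsWAt (M₁ * q) M H q w₀) (A : ValuationSubring Qb), A.LiesOverPrime q →
        Rtk6eiEv q A (fun K₁ _ hζ π hπ => Rtk6emNode A K₁ (M₁ * q) M H π
          (rtk6dfV hπ M H (rtk6diwW (K₀ := mgcE A K₁) w₀ hw₀ hM0 hq hqM' hζ)))) :
    StmtRtk6GeomUnip :=
  rtk6ei_geomUnip_of_pieces (rtk6eiu_hSS1 hS) hNode (rtk6eiu_hFix hS)

end Fermat.Agent.RT.K6
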