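/-
K-machine, piece K6, piece D-GL part 1 (helper79): the eigen lemma.

Pure algebra (Mathlib only).  `F` a field, `ζ` a primitive `d`-th root of unity, `d ≠ 0` in `F`,
`l` a list of pairwise commuting ring endomorphisms of `F` with `σ ^ d = 1`, `σ ζ = ζ`
(generators of the Galois group of the Kummer tower `F′ / F₀E₀`).  If `T`, `Q` are additive
subgroups of `F`, `T` stable under `l`, `ζ`, `d⁻¹`, and every JOINT EIGENVECTOR of `l` in `T`
lies in `Q`, then `T ≤ Q`.

* `rtk6glEigen ζ l x`   : `∀ σ ∈ l, ∃ k, σ x = ζ ^ k * x`;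
* `rtk6gl_eigen_step`   : one endomorphism;
* `rtk6gl_eigen`        : the list.
-/
import Mathlib

set_option autoImplicit false

namespace Fermat.Agent.RT.K6

section Eigen

variable {F : Type*} [Field F]

/-- `x` is a joint eigenvector of the endomorphisms of the list `l`, with eigenvalues powers
of `ζ`. -/
def rtk6glEigen (ζ : F) (l : List (F →+* F)) (x : F) : Prop :=
  ∀ σ ∈ l, ∃ k : ℕ, σ x = ζ ^ k * x

theorem rtk6gl_pow_mul_mem (T : AddSubgroup F) {a : F} (ha : ∀ x ∈ T, a * x ∈ T) (n : ℕ)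
    {x : F} (hx : x ∈ T) : a ^ n * x ∈ T := by
  induction n with
  | zero => simpa using hx
  | succ n ih =>
    have := ha _ ih
    rwa [← mul_assoc, ← pow_succ'] at this

theorem rtk6gl_iterate_mem (T : AddSubgroup F) (σ : F →+* F) (hσ : ∀ x ∈ T, σ x ∈ T) (n : ℕ)
    {x : F} (hx : x ∈ T) : (⇑σ)^[n] x ∈ T := by
  induction n with
  | zero => simpa using hx
  | succ n ih =>
    rw [Function.iterate_succ_apply']
    exact hσ _ ih

/-- the sum of the `i`-th powers of a nontrivial `d`-th root of unity vanishes -/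
theorem rtk6gl_geom_sum {d : ℕ} {η : F} (hη : η ^ d = 1) (hη1 : η ≠ 1) :
    ∑ i ∈ Finset.range d, η ^ i = 0 := by
  have h := geom_sum_mul η d
  rw [hη, sub_self] at h
  rcases mul_eq_zero.mp h with h0 | h0
  · exact h0
  · exact absurd (sub_eq_zero.mp h0) hη1

/-- **The eigen lemma, one endomorphism.** -/
theorem rtk6gl_eigen_step {d : ℕ} (hd : (d : F) ≠ 0) {ζ : F} (hζ : IsPrimitiveRoot ζ d)
    (σ : F →+* F) (hord : ∀ x, (⇑σ)^[d] x = x) (hζσ : σ ζ = ζ)
    (T Q : AddSubgroup F) (hTζ : ∀ x ∈ T, ζ * x ∈ T) (hTd : ∀ x ∈ T, (d : F)⁻¹ * x ∈ T)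
    (hTσ : ∀ x ∈ T, σ x ∈ T)
    (h : ∀ x ∈ T, ∀ i : ℕ, σ x = ζ ^ i * x → x ∈ Q) : T ≤ Q := by
  intro x hx
  have hd0 : d ≠ 0 := by
    rintro rfl
    exact hd (by simp)
  have hζ0 : ζ ≠ 0 := hζ.ne_zero hd0
  have hζd : ζ ^ d = 1 := hζ.pow_eq_one
  -- `η = ζ⁻¹`
  set η : F := ζ⁻¹ with hη
  have hηζ : η * ζ = 1 := inv_mul_cancel₀ hζ0
  have hηd : η ^ d = 1 := by rw [hη, inv_pow, hζd, inv_one]
  have hησ : σ η = η := by rw [hη, map_inv₀, hζσ]
  have hηpow : η = ζ ^ (d - 1) := by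
    have : ζ ^ (d - 1) * ζ = 1 := by
      rw [← pow_succ, Nat.sub_add_cancel (Nat.pos_of_ne_zero hd0), hζd]
    rw [hη]
    exact inv_eq_of_mul_eq_one_left this
  have hTη : ∀ y ∈ T, η * y ∈ T := fun y hy => by
    rw [hηpow]
    exact rtk6gl_pow_mul_mem T hTζ _ hy
  -- the eigen components
  set e : ℕ → F := fun i => (d : F)⁻¹ * ∑ k ∈ Finset.range d, η ^ (i * k) * (⇑σ)^[k] x with he
  have heT : ∀ i, e i ∈ T := fun i => by
    refine hTd _ (AddSubgroup.sum_mem T fun k _ => ?_)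
    exact rtk6gl_pow_mul_mem T hTη _ (rtk6gl_iterate_mem T σ hTσ k hx)
  have heσ : ∀ i, σ (e i) = ζ ^ i * e i := fun i => by
    have hσd : σ ((d : F)⁻¹) = (d : F)⁻¹ := by rw [map_inv₀, map_natCast]
    simp only [he, map_mul, hσd, map_sum, map_pow, hησ]
    rw [mul_left_comm]
    congr 1
    rw [Finset.mul_sum]
    -- `g k = ζ ^ i * η ^ (i * k) * σ^k x`
    set g : ℕ → F := fun k => ζ ^ i * (η ^ (i * k) * (⇑σ)^[k] x) with hg
    have hfg : ∀ k, η ^ (i * k) * σ ((⇑σ)^[k] x) = g (k + 1) := fun k => by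
      simp only [hg]
      rw [Function.iterate_succ_apply', ← mul_assoc]
      congr 1
      have : ζ ^ i * η ^ (i * (k + 1)) = (ζ * η) ^ i * η ^ (i * k) := by
        rw [mul_pow, mul_add, mul_one, pow_add]
        ring
      rw [this, mul_comm ζ η, hηζ, one_pow, one_mul]
    have h0d : g d = g 0 := by
      simp only [hg]
      rw [hord, mul_zero, pow_zero, pow_mul', hηd, one_pow, Function.iterate_zero, id]
    have hsum : ∑ k ∈ Finset.range d, g (k + 1) = ∑ k ∈ Finset.range d, g k := by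
      have h1 := Finset.sum_range_succ g d
      have h2 := Finset.sum_range_succ' g d
      rw [h1, h0d] at h2
      exact (add_right_cancel h2).symm
    calc ∑ k ∈ Finset.range d, η ^ (i * k) * σ ((⇑σ)^[k] x)
        = ∑ k ∈ Finset.range d, g (k + 1) := Finset.sum_congr rfl fun k _ => hfg k
      _ = ∑ k ∈ Finset.range d, g k := hsum
  have hsum : ∑ i ∈ Finset.range d, e i = x := by
    simp only [he]
    rw [← Finset.mul_sum, Finset.sum_comm]
    have hk : ∀ k ∈ Finset.range d,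
        ∑ i ∈ Finset.range d, η ^ (i * k) * (⇑σ)^[k] x =
          if k = 0 then (d : F) * x else 0 := by
      intro k hk
      rw [← Finset.sum_mul]
      split_ifs with h0
      · subst h0
        simp
      · have hkd : k < d := Finset.mem_range.mp hk
        have hne : η ^ k ≠ 1 := by
          have hηprim : IsPrimitiveRoot η d := by
            rw [hη]
            exact hζ.inv
          exact hηprim.pow_ne_one_of_pos_of_lt h0 hkd
        have hpow : (η ^ k) ^ d = 1 := by rw [← pow_mul, mul_comm, pow_mul, hηd, one_pow]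
        have := rtk6gl_geom_sum hpow hne
        have e2 : ∑ i ∈ Finset.range d, η ^ (i * k) = ∑ i ∈ Finset.range d, (η ^ k) ^ i :=
          Finset.sum_congr rfl fun i _ => by rw [← pow_mul, mul_comm]
        rw [e2, this, zero_mul]
    rw [Finset.sum_congr rfl hk, Finset.sum_ite_eq' (Finset.range d) 0]
    rw [if_pos (Finset.mem_range.mpr (Nat.pos_of_ne_zero hd0)), ← mul_assoc,
      inv_mul_cancel₀ hd, one_mul]
  rw [← hsum]
  exact AddSubgroup.sum_mem Q fun i _ => h (e i) (heT i) i (heσ i)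

/-- **The eigen lemma.**  If every joint eigenvector of `l` in `T` lies in `Q`, then `T ≤ Q`. -/
theorem rtk6gl_eigen {d : ℕ} (hd : (d : F) ≠ 0) {ζ : F} (hζ : IsPrimitiveRoot ζ d)
    (l : List (F →+* F)) (hord : ∀ σ ∈ l, ∀ x, (⇑σ)^[d] x = x) (hζσ : ∀ σ ∈ l, σ ζ = ζ)
    (hcomm : ∀ σ ∈ l, ∀ τ ∈ l, ∀ x, σ (τ x) = τ (σ x))
    (T Q : AddSubgroup F) (hTζ : ∀ x ∈ T, ζ * x ∈ T) (hTd : ∀ x ∈ T, (d : F)⁻¹ * x ∈ T)
    (hTσ : ∀ σ ∈ l, ∀ x ∈ T, σ x ∈ T)
    (h : ∀ x ∈ T, rtk6glEigen ζ l x → x ∈ Q) : T ≤ Q := by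
  induction l generalizing T with
  | nil =>
    intro x hx
    exact h x hx (fun σ hσ => absurd hσ List.not_mem_nil)
  | cons σ l ih =>
    have hσl : σ ∈ σ :: l := List.mem_cons_self
    refine rtk6gl_eigen_step hd hζ σ (hord σ hσl) (hζσ σ hσl) T Q hTζ hTd (hTσ σ hσl) ?_
    intro x hx i hxi
    -- the `ζ ^ i`-eigenspace of `σ` in `T`
    let Ti : AddSubgroup F :=
      { carrier := {y | y ∈ T ∧ σ y = ζ ^ i * y}
        zero_mem' := ⟨T.zero_mem, by simp⟩
        add_mem' := fun {a b} ha hb => ⟨T.add_mem ha.1 hb.1, by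
          rw [map_add, ha.2, hb.2, mul_add]⟩
        neg_mem' := fun {a} ha => ⟨T.neg_mem ha.1, by
          rw [map_neg, ha.2, mul_neg]⟩ }
    have hTi : ∀ y, y ∈ Ti ↔ y ∈ T ∧ σ y = ζ ^ i * y := fun y => Iff.rfl
    have key : Ti ≤ Q := by
      refine ih (fun τ hτ => hord τ (List.mem_cons_of_mem _ hτ))
        (fun τ hτ => hζσ τ (List.mem_cons_of_mem _ hτ))
        (fun τ hτ ρ hρ => hcomm τ (List.mem_cons_of_mem _ hτ) ρ (List.mem_cons_of_mem _ hρ))
        Ti ?_ ?_ ?_ ?_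
      · intro y hy
        rw [hTi] at hy ⊢
        refine ⟨hTζ y hy.1, ?_⟩
        rw [map_mul, hζσ σ hσl, hy.2]
        ring
      · intro y hy
        rw [hTi] at hy ⊢
        refine ⟨hTd y hy.1, ?_⟩
        rw [map_mul, map_inv₀, map_natCast, hy.2]
        ring
      · intro τ hτ y hy
        rw [hTi] at hy ⊢
        refine ⟨hTσ τ (List.mem_cons_of_mem _ hτ) y hy.1, ?_⟩
        rw [hcomm σ hσl τ (List.mem_cons_of_mem _ hτ) y, hy.2, map_mul, map_pow,
          hζσ τ (List.mem_cons_of_mem _ hτ)]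
      · intro y hy hyl
        rw [hTi] at hy
        refine h y hy.1 ?_
        intro τ hτ
        rcases List.mem_cons.mp hτ with rfl | hτ'
        · exact ⟨i, hy.2⟩
        · exact hyl τ hτ'
    exact key ((hTi x).mpr ⟨hx, hxi⟩)

end Eigen

end Fermat.Agent.RT.K6
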