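/-
K-machine, piece K6, piece D-GL part 2 (helper79): (SS1) and "the components pass through the
closed points" for a Kummer tower, from the same statements at the base.

Abstract (Mathlib only).  `F` a field (`= F′`), `R` the chart of the base (`R₀`, normal,
unramified), `B` the chart of `F′` (`B′`), `j : R →+* B`, `ι : B →+* F`.
`l` = a list of pairwise commuting ring endomorphisms of `F` with `σ ^ d = 1` (generators of
the Galois group of `F′ / Frac R₀`), `ζ ∈ B` a primitive `d`-th root of unity, `d⁻¹ ∈ B`,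
`σ B ⊆ B`, and `hfix`: the elements of `B` fixed by `l` come from `R` (Galois descent + `R₀`
normal).  `V c` valuation subrings of `F` containing `B`, stable under `l`.

* `rtk6gl_core`    : `T = {b ∈ B : ∀ c, b ∈ 𝔪(V c)}` lies in an additive subgroup `Q` as soon as
  the `b ∈ T` with `b ^ d ∈ R` do;
* `rtk6gl_through` : `𝔪(W) ∩ R ⊆ 𝔫 ∩ R ⇒ 𝔪(W) ∩ B ⊆ 𝔫` for a prime `𝔫` of `B`;
* `rtk6gl_ss1`     : (SS1) for `B`, `π` (`π ^ d ∣ p ∣ π ^ d · B`) from (SS1) for `R`, `p`.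
-/
import Fermat.Agent.RT.K6.DGLEigen

set_option autoImplicit false

namespace Fermat.Agent.RT.K6

section SS1

variable {F : Type*} [Field F] {R B : Type*} [CommRing R] [CommRing B]

theorem rtk6gl_nonunits_add (W : ValuationSubring F) {x y : F} (hx : x ∈ W.nonunits)
    (hy : y ∈ W.nonunits) : x + y ∈ W.nonunits := by
  rw [ValuationSubring.mem_nonunits_iff] at hx hy ⊢
  exact Valuation.map_add_lt _ hx hy

theorem rtk6gl_nonunits_neg (W : ValuationSubring F) {x : F} (hx : x ∈ W.nonunits) :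
    -x ∈ W.nonunits := by
  rw [ValuationSubring.mem_nonunits_iff] at hx ⊢
  rwa [Valuation.map_neg]

theorem rtk6gl_nonunits_mul (W : ValuationSubring F) {a x : F} (ha : a ∈ W)
    (hx : x ∈ W.nonunits) : a * x ∈ W.nonunits := by
  rw [ValuationSubring.mem_nonunits_iff] at hx ⊢
  rw [map_mul]
  have h1 : W.valuation a ≤ 1 := (ValuationSubring.valuation_le_one_iff W a).mpr ha
  calc W.valuation a * W.valuation x ≤ 1 * W.valuation x := by gcongr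
    _ = W.valuation x := one_mul _
    _ < 1 := hx

theorem rtk6gl_nonunits_pow (W : ValuationSubring F) {x : F} (hx : x ∈ W.nonunits) {n : ℕ}
    (hn : n ≠ 0) : x ^ n ∈ W.nonunits := by
  obtain ⟨m, rfl⟩ := Nat.exists_eq_succ_of_ne_zero hn
  have hxW : x ∈ W := ValuationSubring.nonunits_le hx
  rw [pow_succ']
  have : x * x ^ m = x ^ m * x := mul_comm _ _
  rw [this]
  exact rtk6gl_nonunits_mul W (W.pow_mem hxW m) hx

/-- `{b ∈ B : ∀ c, b ∈ 𝔪(V c)}` as an additive subgroup of `F` -/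
def rtk6glT (ι : B →+* F) {κ : Type*} (V : κ → ValuationSubring F) : AddSubgroup F where
  carrier := {x | (∀ c, x ∈ (V c).nonunits) ∧ ∃ b : B, ι b = x}
  zero_mem' := ⟨fun c => (V c).nonunits.zero_mem, 0, map_zero ι⟩
  add_mem' := by
    rintro x y ⟨hx, a, rfl⟩ ⟨hy, b, rfl⟩
    exact ⟨fun c => rtk6gl_nonunits_add _ (hx c) (hy c), a + b, map_add ι a b⟩
  neg_mem' := by
    rintro x ⟨hx, a, rfl⟩
    exact ⟨fun c => rtk6gl_nonunits_neg _ (hx c), -a, map_neg ι a⟩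

theorem mem_rtk6glT (ι : B →+* F) {κ : Type*} (V : κ → ValuationSubring F) (x : F) :
    x ∈ rtk6glT ι V ↔ (∀ c, x ∈ (V c).nonunits) ∧ ∃ b : B, ι b = x := Iff.rfl

/-- **The core.**  `T = {b ∈ B : ∀ c, b ∈ 𝔪(V c)}` lies in `Q` as soon as the elements `b` of
`T` with `b ^ d ∈ R` do. -/
theorem rtk6gl_core (j : R →+* B) (ι : B →+* F)
    {d : ℕ} (hd : (d : F) ≠ 0) {ζ : F} (hζ : IsPrimitiveRoot ζ d)
    (l : List (F →+* F)) (hord : ∀ σ ∈ l, ∀ x, (⇑σ)^[d] x = x) (hζσ : ∀ σ ∈ l, σ ζ = ζ)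
    (hcomm : ∀ σ ∈ l, ∀ τ ∈ l, ∀ x, σ (τ x) = τ (σ x))
    (hζB : ∃ b, ι b = ζ) (hdB : ∃ b, ι b = (d : F)⁻¹)
    (hlB : ∀ σ ∈ l, ∀ b : B, ∃ b', ι b' = σ (ι b))
    (hfix : ∀ b : B, (∀ σ ∈ l, σ (ι b) = ι b) → ∃ u : R, j u = b)
    {κ : Type*} (V : κ → ValuationSubring F) (hBV : ∀ c b, ι b ∈ V c)
    (hlV : ∀ σ ∈ l, ∀ c, ∀ x ∈ (V c).nonunits, σ x ∈ (V c).nonunits)
    (Q : AddSubgroup F)
    (h : ∀ b : B, (∀ c, ι b ∈ (V c).nonunits) → (∃ u : R, j u = b ^ d) → ι b ∈ Q) :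
    rtk6glT ι V ≤ Q := by
  obtain ⟨bζ, hbζ⟩ := hζB
  obtain ⟨bd, hbd⟩ := hdB
  refine rtk6gl_eigen hd hζ l hord hζσ hcomm (rtk6glT ι V) Q ?_ ?_ ?_ ?_
  · rintro x ⟨hx, b, rfl⟩
    refine ⟨fun c => rtk6gl_nonunits_mul _ ?_ (hx c), bζ * b, by rw [map_mul, hbζ]⟩
    rw [← hbζ]
    exact hBV c bζ
  · rintro x ⟨hx, b, rfl⟩
    refine ⟨fun c => rtk6gl_nonunits_mul _ ?_ (hx c), bd * b, by rw [map_mul, hbd]⟩
    rw [← hbd]
    exact hBV c bd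
  · rintro σ hσ x ⟨hx, b, rfl⟩
    obtain ⟨b', hb'⟩ := hlB σ hσ b
    exact ⟨fun c => hlV σ hσ c _ (hx c), b', hb'⟩
  · rintro x ⟨hx, b, rfl⟩ heig
    refine h b hx (hfix (b ^ d) fun σ hσ => ?_)
    obtain ⟨k, hk⟩ := heig σ hσ
    rw [map_pow, map_pow, hk, mul_pow, ← pow_mul, mul_comm k d, pow_mul, hζ.pow_eq_one, one_pow,
      one_mul]

/-- **The components pass through the closed points.**  If `𝔪(W) ∩ R ⊆ 𝔫 ∩ R` then
`𝔪(W) ∩ B ⊆ 𝔫`. -/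
theorem rtk6gl_through (j : R →+* B) (ι : B →+* F)
    {d : ℕ} (hd : (d : F) ≠ 0) {ζ : F} (hζ : IsPrimitiveRoot ζ d)
    (l : List (F →+* F)) (hord : ∀ σ ∈ l, ∀ x, (⇑σ)^[d] x = x) (hζσ : ∀ σ ∈ l, σ ζ = ζ)
    (hcomm : ∀ σ ∈ l, ∀ τ ∈ l, ∀ x, σ (τ x) = τ (σ x))
    (hζB : ∃ b, ι b = ζ) (hdB : ∃ b, ι b = (d : F)⁻¹)
    (hlB : ∀ σ ∈ l, ∀ b : B, ∃ b', ι b' = σ (ι b))
    (hfix : ∀ b : B, (∀ σ ∈ l, σ (ι b) = ι b) → ∃ u : R, j u = b)
    (W : ValuationSubring F) (hBW : ∀ b, ι b ∈ W)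
    (hlW : ∀ σ ∈ l, ∀ x ∈ W.nonunits, σ x ∈ W.nonunits)
    (𝔫 : Ideal B) [h𝔫 : 𝔫.IsPrime]
    (h₀ : ∀ u : R, ι (j u) ∈ W.nonunits → j u ∈ 𝔫) :
    ∀ b : B, ι b ∈ W.nonunits → b ∈ 𝔫 := by
  have hd0 : d ≠ 0 := by
    rintro rfl
    exact hd (by simp)
  -- `Q = ι 𝔫 + ker`-free form: `{x | ∀ b, ι b = x → b ∈ 𝔫}` is not a subgroup; use the image
  let Q : AddSubgroup F :=
    { carrier := {x | ∃ b ∈ 𝔫, ι b = x}
      zero_mem' := ⟨0, 𝔫.zero_mem, map_zero ι⟩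
      add_mem' := by
        rintro x y ⟨a, ha, rfl⟩ ⟨b, hb, rfl⟩
        exact ⟨a + b, 𝔫.add_mem ha hb, map_add ι a b⟩
      neg_mem' := by
        rintro x ⟨a, ha, rfl⟩
        exact ⟨-a, 𝔫.neg_mem ha, map_neg ι a⟩ }
  have key : rtk6glT ι (fun _ : Unit => W) ≤ Q := by
    refine rtk6gl_core j ι hd hζ l hord hζσ hcomm hζB hdB hlB hfix (fun _ : Unit => W)
      (fun _ b => hBW b) (fun σ hσ _ x hx => hlW σ hσ x hx) Q ?_
    rintro b hb ⟨u, hu⟩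
    have h1 : ι (j u) ∈ W.nonunits := by
      rw [hu, map_pow]
      exact rtk6gl_nonunits_pow W (hb ()) hd0
    have h2 : b ^ d ∈ 𝔫 := hu ▸ h₀ u h1
    exact ⟨b, h𝔫.mem_of_pow_mem d h2, rfl⟩
  intro b hb
  obtain ⟨b', hb', hbb'⟩ := key ⟨fun _ => hb, b, rfl⟩
  -- `ι b' = ι b` with `b' ∈ 𝔫`; conclude via `b - b' ∈ ker ι` … we need injectivity-free:
  -- `b - b'` has `ι (b - b') = 0 ∈ 𝔪(W)`, and `(b - b') ^ d` is fixed, so it is in `𝔫` as well.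
  have h0 : ι (b - b') = 0 := by rw [map_sub, hbb', sub_self]
  have hfix0 : ∃ u : R, j u = (b - b') ^ d := by
    refine hfix _ fun σ hσ => ?_
    rw [map_pow, h0, zero_pow hd0, map_zero]
  obtain ⟨u, hu⟩ := hfix0
  have h1 : ι (j u) ∈ W.nonunits := by
    rw [hu, map_pow, h0, zero_pow hd0]
    exact W.nonunits.zero_mem
  have h2 : (b - b') ^ d ∈ 𝔫 := hu ▸ h₀ u h1
  have h3 : b - b' ∈ 𝔫 := h𝔫.mem_of_pow_mem d h2
  have : b = (b - b') + b' := by ring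
  rw [this]
  exact 𝔫.add_mem h3 hb'

/-- **(SS1) for `B`** from (SS1) for `R`: `b ∈ B` in all the `𝔪(V c)` is divisible by `π`. -/
theorem rtk6gl_ss1 (j : R →+* B) (ι : B →+* F) (hι : Function.Injective ι)
    {d : ℕ} (hd : (d : F) ≠ 0) {ζ : F} (hζ : IsPrimitiveRoot ζ d)
    (l : List (F →+* F)) (hord : ∀ σ ∈ l, ∀ x, (⇑σ)^[d] x = x) (hζσ : ∀ σ ∈ l, σ ζ = ζ)
    (hcomm : ∀ σ ∈ l, ∀ τ ∈ l, ∀ x, σ (τ x) = τ (σ x))
    (hζB : ∃ b, ι b = ζ) (hdB : ∃ b, ι b = (d : F)⁻¹)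
    (hlB : ∀ σ ∈ l, ∀ b : B, ∃ b', ι b' = σ (ι b))
    (hfix : ∀ b : B, (∀ σ ∈ l, σ (ι b) = ι b) → ∃ u : R, j u = b)
    (hroot : ∀ x : F, (∃ b, ι b = x ^ d) → ∃ b, ι b = x)
    {κ : Type*} (V : κ → ValuationSubring F) (hBV : ∀ c b, ι b ∈ V c)
    (hlV : ∀ σ ∈ l, ∀ c, ∀ x ∈ (V c).nonunits, σ x ∈ (V c).nonunits)
    (p : R) (π : B) (hπ0 : π ≠ 0) (hπp : ∃ ε : B, j p = π ^ d * ε)
    (hSS1₀ : ∀ u : R, (∀ c, ι (j u) ∈ (V c).nonunits) → p ∣ u) :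
    ∀ b : B, (∀ c, ι b ∈ (V c).nonunits) → π ∣ b := by
  have hιπ : ι π ≠ 0 := fun h => hπ0 (hι (by rw [h, map_zero]))
  obtain ⟨ε, hε⟩ := hπp
  let Q : AddSubgroup F :=
    { carrier := {x | ∃ b : B, ι (π * b) = x}
      zero_mem' := ⟨0, by simp⟩
      add_mem' := by
        rintro x y ⟨a, rfl⟩ ⟨b, rfl⟩
        exact ⟨a + b, by rw [mul_add, map_add]⟩
      neg_mem' := by
        rintro x ⟨a, rfl⟩
        exact ⟨-a, by rw [mul_neg, map_neg]⟩ }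
  have key : rtk6glT ι V ≤ Q := by
    refine rtk6gl_core j ι hd hζ l hord hζσ hcomm hζB hdB hlB hfix V hBV hlV Q ?_
    rintro b hb ⟨u, hu⟩
    have h1 : ∀ c, ι (j u) ∈ (V c).nonunits := fun c => by
      rw [hu, map_pow]
      have hd0 : d ≠ 0 := by
        rintro rfl
        exact hd (by simp)
      exact rtk6gl_nonunits_pow _ (hb c) hd0
    obtain ⟨u', rfl⟩ := hSS1₀ u h1
    -- `(ι b / ι π) ^ d = ι (ε * j u')`
    have h2 : ι (ε * j u') = (ι b / ι π) ^ d := by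
      rw [div_pow, ← map_pow, ← hu, map_mul j, hε, ← map_pow ι π d, eq_div_iff (by
        rw [map_pow]; exact pow_ne_zero _ hιπ), ← map_mul]
      congr 1
      ring
    obtain ⟨b', hb'⟩ := hroot (ι b / ι π) ⟨_, h2⟩
    refine ⟨b', ?_⟩
    rw [map_mul, hb', mul_div_cancel₀ _ hιπ]
  intro b hb
  obtain ⟨b', hb'⟩ := key ⟨hb, b, rfl⟩
  exact ⟨b', (hι hb').symm⟩

end SS1

end Fermat.Agent.RT.K6
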