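/-
K-machine, piece K6, piece D-GL part 5 (helper79): (SS1) for a Kummer tower whose exponent `D`
is a MULTIPLE of the ramification index (étale generators of larger order, MULTI).

Setting of `DGLSS1.lean`, but `l` has exponent `D`, and `(j p) ^ k = π ^ D · unit` (for
`π ^ d = p`: `k = D / d`).  The extra hypothesis is `hunif`: `π` is a uniformizer of every `V c`
(`x ∈ 𝔪(V c) → x / π ∈ V c`; the `V c` are Gauss valuations over the base `A₁ ∋ π`).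

* `rtk6gl_ss1_iter` : (SS1) for `R` iterated: `u / p ^ k ∈ V c` for all `c` ⇒ `p ^ k ∣ u`;
* `rtk6gl_ss1_unif` : (SS1) for `B`.
-/
import Fermat.Agent.RT.K6.DGLSS1

set_option autoImplicit false

namespace Fermat.Agent.RT.K6

section SS1U

variable {F : Type*} [Field F] {R B : Type*} [CommRing R] [CommRing B]

/-- (SS1) for `R`, iterated. -/
theorem rtk6gl_ss1_iter (ψ : R →+* F) {κ : Type*} (V : κ → ValuationSubring F)
    (hRV : ∀ c u, ψ u ∈ V c) (p : R) (hp0 : ψ p ≠ 0) (hpV : ∀ c, ψ p ∈ (V c).nonunits)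
    (hSS1₀ : ∀ u : R, (∀ c, ψ u ∈ (V c).nonunits) → p ∣ u) (k : ℕ) :
    ∀ u : R, (∀ c, ψ u / ψ p ^ k ∈ V c) → p ^ k ∣ u := by
  induction k with
  | zero => intro u _; simp
  | succ k ih =>
    intro u hu
    have h1 : ∀ c, ψ u ∈ (V c).nonunits := fun c => by
      have e : ψ u = (ψ p ^ k * (ψ u / ψ p ^ (k + 1))) * ψ p := by
        field_simp
        rw [pow_succ, mul_assoc]
      rw [e]
      have h2 : ψ p ^ k * (ψ u / ψ p ^ (k + 1)) ∈ V c :=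
        (V c).mul_mem _ _ (pow_mem (hRV c p) k) (hu c)
      exact rtk6gl_nonunits_mul (V c) h2 (hpV c)
    obtain ⟨u₁, rfl⟩ := hSS1₀ u h1
    have h3 : p ^ k ∣ u₁ := by
      refine ih u₁ fun c => ?_
      have e : ψ u₁ / ψ p ^ k = ψ (p * u₁) / ψ p ^ (k + 1) := by
        rw [map_mul, pow_succ]
        field_simp
      rw [e]
      exact hu c
    rw [pow_succ']
    exact mul_dvd_mul_left p h3

/-- **(SS1) for `B`**, exponent `D`, `(j p) ^ k = π ^ D · unit`, `π` a uniformizer of the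
`V c`. -/
theorem rtk6gl_ss1_unif (j : R →+* B) (ι : B →+* F) (hι : Function.Injective ι)
    {D : ℕ} (hD : (D : F) ≠ 0) {ζ : F} (hζ : IsPrimitiveRoot ζ D)
    (l : List (F →+* F)) (hord : ∀ σ ∈ l, ∀ x, (⇑σ)^[D] x = x) (hζσ : ∀ σ ∈ l, σ ζ = ζ)
    (hcomm : ∀ σ ∈ l, ∀ τ ∈ l, ∀ x, σ (τ x) = τ (σ x))
    (hζB : ∃ b, ι b = ζ) (hdB : ∃ b, ι b = (D : F)⁻¹)
    (hlB : ∀ σ ∈ l, ∀ b : B, ∃ b', ι b' = σ (ι b))
    (hfix : ∀ b : B, (∀ σ ∈ l, σ (ι b) = ι b) → ∃ u : R, j u = b)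
    (hroot : ∀ x : F, (∃ b, ι b = x ^ D) → ∃ b, ι b = x)
    {κ : Type*} (V : κ → ValuationSubring F) (hBV : ∀ c b, ι b ∈ V c)
    (hlV : ∀ σ ∈ l, ∀ c, ∀ x ∈ (V c).nonunits, σ x ∈ (V c).nonunits)
    (p : R) (π : B) (hπ0 : π ≠ 0) (k : ℕ)
    (hπp : ∃ ε ε' : B, j p ^ k = π ^ D * ε ∧ ε * ε' = 1)
    (hp0 : j p ≠ 0) (hpV : ∀ c, ι (j p) ∈ (V c).nonunits)
    (hunif : ∀ c, ∀ x ∈ (V c).nonunits, x / ι π ∈ V c)
    (hSS1₀ : ∀ u : R, (∀ c, ι (j u) ∈ (V c).nonunits) → p ∣ u) :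
    ∀ b : B, (∀ c, ι b ∈ (V c).nonunits) → π ∣ b := by
  have hιπ : ι π ≠ 0 := fun h => hπ0 (hι (by rw [h, map_zero]))
  have hιp : ι (j p) ≠ 0 := fun h => hp0 (hι (by rw [h, map_zero]))
  obtain ⟨ε, ε', hε, hεε'⟩ := hπp
  have hιε : ι ε * ι ε' = 1 := by rw [← map_mul, hεε', map_one]
  have hιε0 : ι ε ≠ 0 := left_ne_zero_of_mul_eq_one hιε
  have hpk : ι (j p) ^ k = ι π ^ D * ι ε := by
    rw [← map_pow ι (j p) k, hε, map_mul, map_pow]
  let Q : AddSubgroup F :=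
    { carrier := {x | ∃ b : B, ι (π * b) = x}
      zero_mem' := ⟨0, by simp⟩
      add_mem' := by
        rintro x y ⟨a, rfl⟩ ⟨b, rfl⟩
        exact ⟨a + b, by rw [mul_add, map_add]⟩
      neg_mem' := by
        rintro x ⟨a, rfl⟩
        exact ⟨-a, by rw [mul_neg, map_neg]⟩ }
  have key : rtk6glT ι V ≤ Q := by
    refine rtk6gl_core j ι hD hζ l hord hζσ hcomm hζB hdB hlB hfix V hBV hlV Q ?_
    rintro b hb ⟨u, hu⟩
    have h1 : ∀ c, (ι.comp j) u / (ι.comp j) p ^ k ∈ V c := fun c => by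
      have e : (ι.comp j) u / (ι.comp j) p ^ k = (ι b / ι π) ^ D * ι ε' := by
        rw [RingHom.comp_apply, RingHom.comp_apply, hu, hpk, map_pow, div_pow]
        have : ι ε' = (ι ε)⁻¹ := (inv_eq_of_mul_eq_one_right hιε).symm
        rw [this]
        field_simp
      rw [e]
      exact (V c).mul_mem _ _ (pow_mem (hunif c _ (hb c)) D) (hBV c ε')
    obtain ⟨u', rfl⟩ := rtk6gl_ss1_iter (ι.comp j) V (fun c u => hBV c (j u)) p hιp hpV hSS1₀ k u h1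
    -- `(ι b / ι π) ^ D = ι (ε * j u')`
    have h2 : ι (ε * j u') = (ι b / ι π) ^ D := by
      rw [div_pow, ← map_pow ι b, ← hu, map_mul j, map_pow j, hε, ← map_pow ι π D,
        eq_div_iff (by rw [map_pow]; exact pow_ne_zero _ hιπ), ← map_mul]
      congr 1
      ring
    obtain ⟨b', hb'⟩ := hroot (ι b / ι π) ⟨_, h2⟩
    refine ⟨b', ?_⟩
    rw [map_mul, hb', mul_div_cancel₀ _ hιπ]
  intro b hb
  obtain ⟨b', hb'⟩ := key ⟨hb, b, rfl⟩
  exact ⟨b', (hι hb').symm⟩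

end SS1U

end Fermat.Agent.RT.K6
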