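/-
K-machine, piece K6, v5 (M2) (helper79): (SS1) for a FAMILY of vertical valuations which is
PERMUTED by the Galois group of the Kummer tower (`κ` = all the conjugates of `V_∞`, `V_0`).

Setting of `DGLSS1.lean`, with `hlV` weakened to
  `hlV' : ∀ σ ∈ l, ∀ c, ∃ c', ∀ x ∈ (V c').nonunits, σ x ∈ (V c).nonunits`.

* `rtk6gl_core_perm`     : the core;
* `rtk6gl_ss1_perm`      : (SS1) for `B`, exponent `d` = ramification index;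
* `rtk6gl_ss1_unif_perm` : (SS1) for `B`, exponent `D`, `(j p) ^ k = π ^ D · unit`, `π` a
  uniformizer of the `V c`;
* `rtk6gl_through_perm`  : if the `V c` are permuted by `l` and `⋂_c 𝔪(V c) ∩ R ⊆ 𝔫 ∩ R` (`𝔫` a
  prime of `B`, `κ` finite), then SOME `V c` passes through `𝔫`: `𝔪(V c) ∩ B ⊆ 𝔫`.
-/
import Fermat.Agent.RT.K6.DGLSS1U

set_option autoImplicit false
set_option linter.style.haveILetI false

namespace Fermat.Agent.RT.K6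

section Perm

variable {F : Type*} [Field F] {R B : Type*} [CommRing R] [CommRing B]

/-- **The core, permuted family.** -/
theorem rtk6gl_core_perm (j : R →+* B) (ι : B →+* F)
    {d : ℕ} (hd : (d : F) ≠ 0) {ζ : F} (hζ : IsPrimitiveRoot ζ d)
    (l : List (F →+* F)) (hord : ∀ σ ∈ l, ∀ x, (⇑σ)^[d] x = x) (hζσ : ∀ σ ∈ l, σ ζ = ζ)
    (hcomm : ∀ σ ∈ l, ∀ τ ∈ l, ∀ x, σ (τ x) = τ (σ x))
    (hζB : ∃ b, ι b = ζ) (hdB : ∃ b, ι b = (d : F)⁻¹)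
    (hlB : ∀ σ ∈ l, ∀ b : B, ∃ b', ι b' = σ (ι b))
    (hfix : ∀ b : B, (∀ σ ∈ l, σ (ι b) = ι b) → ∃ u : R, j u = b)
    {κ : Type*} (V : κ → ValuationSubring F) (hBV : ∀ c b, ι b ∈ V c)
    (hlV' : ∀ σ ∈ l, ∀ c, ∃ c', ∀ x ∈ (V c').nonunits, σ x ∈ (V c).nonunits)
    (Q : AddSubgroup F)
    (h : ∀ b : B, (∀ c, ι b ∈ (V c).nonunits) → (∃ u : R, j u = b ^ d) → ι b ∈ Q) :
    rtk6glT ι V ≤ Q := by
  obtain ⟨bζ, hbζ⟩ := hζB
  obtain ⟨bd, hbd⟩ := hdB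
  refine rtk6gl_eigen hd hζ l hord hζσ hcomm (rtk6glT ι V) Q ?_ ?_ ?_ ?_
  · rintro x ⟨hx, b, rfl⟩
    refine ⟨fun c => rtk6gl_nonunits_mul _ ?_ (hx c), bζ * b, by rw [map_mul, hbζ]⟩
    rw [← hbζ]
    exact hBV c bζ
  · rintro x ⟨hx, b, rfl⟩
    refine ⟨fun c => rtk6gl_nonunits_mul _ ?_ (hx c), bd * b, by rw [map_mul, hbd]⟩
    rw [← hbd]
    exact hBV c bd
  · rintro σ hσ x ⟨hx, b, rfl⟩
    obtain ⟨b', hb'⟩ := hlB σ hσ b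
    refine ⟨fun c => ?_, b', hb'⟩
    obtain ⟨c', hc'⟩ := hlV' σ hσ c
    exact hc' _ (hx c')
  · rintro x ⟨hx, b, rfl⟩ heig
    refine h b hx (hfix (b ^ d) fun σ hσ => ?_)
    obtain ⟨k, hk⟩ := heig σ hσ
    rw [map_pow, map_pow, hk, mul_pow, ← pow_mul, mul_comm k d, pow_mul, hζ.pow_eq_one, one_pow,
      one_mul]

/-- **(SS1) for `B`, permuted family**, exponent `d` = ramification index. -/
theorem rtk6gl_ss1_perm (j : R →+* B) (ι : B →+* F) (hι : Function.Injective ι)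
    {d : ℕ} (hd : (d : F) ≠ 0) {ζ : F} (hζ : IsPrimitiveRoot ζ d)
    (l : List (F →+* F)) (hord : ∀ σ ∈ l, ∀ x, (⇑σ)^[d] x = x) (hζσ : ∀ σ ∈ l, σ ζ = ζ)
    (hcomm : ∀ σ ∈ l, ∀ τ ∈ l, ∀ x, σ (τ x) = τ (σ x))
    (hζB : ∃ b, ι b = ζ) (hdB : ∃ b, ι b = (d : F)⁻¹)
    (hlB : ∀ σ ∈ l, ∀ b : B, ∃ b', ι b' = σ (ι b))
    (hfix : ∀ b : B, (∀ σ ∈ l, σ (ι b) = ι b) → ∃ u : R, j u = b)
    (hroot : ∀ x : F, (∃ b, ι b = x ^ d) → ∃ b, ι b = x)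
    {κ : Type*} (V : κ → ValuationSubring F) (hBV : ∀ c b, ι b ∈ V c)
    (hlV' : ∀ σ ∈ l, ∀ c, ∃ c', ∀ x ∈ (V c').nonunits, σ x ∈ (V c).nonunits)
    (p : R) (π : B) (hπ0 : π ≠ 0) (hπp : ∃ ε : B, j p = π ^ d * ε)
    (hSS1₀ : ∀ u : R, (∀ c, ι (j u) ∈ (V c).nonunits) → p ∣ u) :
    ∀ b : B, (∀ c, ι b ∈ (V c).nonunits) → π ∣ b := by
  have hιπ : ι π ≠ 0 := fun h => hπ0 (hι (by rw [h, map_zero]))
  have hd0 : d ≠ 0 := by
    rintro rfl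
    exact hd (by simp)
  obtain ⟨ε, hε⟩ := hπp
  let Q : AddSubgroup F :=
    { carrier := {x | ∃ b : B, ι (π * b) = x}
      zero_mem' := ⟨0, by simp⟩
      add_mem' := by
        rintro x y ⟨a, rfl⟩ ⟨b, rfl⟩
        exact ⟨a + b, by rw [mul_add, map_add]⟩
      neg_mem' := by
        rintro x ⟨a, rfl⟩
        exact ⟨-a, by rw [mul_neg, map_neg]⟩ }
  have key : rtk6glT ι V ≤ Q := by
    refine rtk6gl_core_perm j ι hd hζ l hord hζσ hcomm hζB hdB hlB hfix V hBV hlV' Q ?_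
    rintro b hb ⟨u, hu⟩
    have h1 : ∀ c, ι (j u) ∈ (V c).nonunits := fun c => by
      rw [hu, map_pow]
      exact rtk6gl_nonunits_pow _ (hb c) hd0
    obtain ⟨u', rfl⟩ := hSS1₀ u h1
    have h2 : ι (ε * j u') = (ι b / ι π) ^ d := by
      rw [div_pow, ← map_pow, ← hu, map_mul j, hε, ← map_pow ι π d, eq_div_iff (by
        rw [map_pow]; exact pow_ne_zero _ hιπ), ← map_mul]
      congr 1
      ring
    obtain ⟨b', hb'⟩ := hroot (ι b / ι π) ⟨_, h2⟩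
    refine ⟨b', ?_⟩
    rw [map_mul, hb', mul_div_cancel₀ _ hιπ]
  intro b hb
  obtain ⟨b', hb'⟩ := key ⟨hb, b, rfl⟩
  exact ⟨b', (hι hb').symm⟩

/-- **(SS1) for `B`, permuted family**, exponent `D`, `(j p) ^ k = π ^ D · unit`, `π` a
uniformizer of the `V c`. -/
theorem rtk6gl_ss1_unif_perm (j : R →+* B) (ι : B →+* F) (hι : Function.Injective ι)
    {D : ℕ} (hD : (D : F) ≠ 0) {ζ : F} (hζ : IsPrimitiveRoot ζ D)
    (l : List (F →+* F)) (hord : ∀ σ ∈ l, ∀ x, (⇑σ)^[D] x = x) (hζσ : ∀ σ ∈ l, σ ζ = ζ)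
    (hcomm : ∀ σ ∈ l, ∀ τ ∈ l, ∀ x, σ (τ x) = τ (σ x))
    (hζB : ∃ b, ι b = ζ) (hdB : ∃ b, ι b = (D : F)⁻¹)
    (hlB : ∀ σ ∈ l, ∀ b : B, ∃ b', ι b' = σ (ι b))
    (hfix : ∀ b : B, (∀ σ ∈ l, σ (ι b) = ι b) → ∃ u : R, j u = b)
    (hroot : ∀ x : F, (∃ b, ι b = x ^ D) → ∃ b, ι b = x)
    {κ : Type*} (V : κ → ValuationSubring F) (hBV : ∀ c b, ι b ∈ V c)
    (hlV' : ∀ σ ∈ l, ∀ c, ∃ c', ∀ x ∈ (V c').nonunits, σ x ∈ (V c).nonunits)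
    (p : R) (π : B) (hπ0 : π ≠ 0) (k : ℕ)
    (hπp : ∃ ε ε' : B, j p ^ k = π ^ D * ε ∧ ε * ε' = 1)
    (hp0 : j p ≠ 0) (hpV : ∀ c, ι (j p) ∈ (V c).nonunits)
    (hunif : ∀ c, ∀ x ∈ (V c).nonunits, x / ι π ∈ V c)
    (hSS1₀ : ∀ u : R, (∀ c, ι (j u) ∈ (V c).nonunits) → p ∣ u) :
    ∀ b : B, (∀ c, ι b ∈ (V c).nonunits) → π ∣ b := by
  have hιπ : ι π ≠ 0 := fun h => hπ0 (hι (by rw [h, map_zero]))
  have hιp : ι (j p) ≠ 0 := fun h => hp0 (hι (by rw [h, map_zero]))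
  obtain ⟨ε, ε', hε, hεε'⟩ := hπp
  have hιε : ι ε * ι ε' = 1 := by rw [← map_mul, hεε', map_one]
  have hιε0 : ι ε ≠ 0 := left_ne_zero_of_mul_eq_one hιε
  have hpk : ι (j p) ^ k = ι π ^ D * ι ε := by
    rw [← map_pow ι (j p) k, hε, map_mul, map_pow]
  let Q : AddSubgroup F :=
    { carrier := {x | ∃ b : B, ι (π * b) = x}
      zero_mem' := ⟨0, by simp⟩
      add_mem' := by
        rintro x y ⟨a, rfl⟩ ⟨b, rfl⟩
        exact ⟨a + b, by rw [mul_add, map_add]⟩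
      neg_mem' := by
        rintro x ⟨a, rfl⟩
        exact ⟨-a, by rw [mul_neg, map_neg]⟩ }
  have key : rtk6glT ι V ≤ Q := by
    refine rtk6gl_core_perm j ι hD hζ l hord hζσ hcomm hζB hdB hlB hfix V hBV hlV' Q ?_
    rintro b hb ⟨u, hu⟩
    have h1 : ∀ c, (ι.comp j) u / (ι.comp j) p ^ k ∈ V c := fun c => by
      have e : (ι.comp j) u / (ι.comp j) p ^ k = (ι b / ι π) ^ D * ι ε' := by
        rw [RingHom.comp_apply, RingHom.comp_apply, hu, hpk, map_pow, div_pow]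
        have : ι ε' = (ι ε)⁻¹ := (inv_eq_of_mul_eq_one_right hιε).symm
        rw [this]
        field_simp
      rw [e]
      exact (V c).mul_mem _ _ (pow_mem (hunif c _ (hb c)) D) (hBV c ε')
    obtain ⟨u', rfl⟩ := rtk6gl_ss1_iter (ι.comp j) V (fun c u => hBV c (j u)) p hιp hpV hSS1₀ k u h1
    have h2 : ι (ε * j u') = (ι b / ι π) ^ D := by
      rw [div_pow, ← map_pow ι b, ← hu, map_mul j, map_pow j, hε, ← map_pow ι π D,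
        eq_div_iff (by rw [map_pow]; exact pow_ne_zero _ hιπ), ← map_mul]
      congr 1
      ring
    obtain ⟨b', hb'⟩ := hroot (ι b / ι π) ⟨_, h2⟩
    refine ⟨b', ?_⟩
    rw [map_mul, hb', mul_div_cancel₀ _ hιπ]
  intro b hb
  obtain ⟨b', hb'⟩ := key ⟨hb, b, rfl⟩
  exact ⟨b', (hι hb').symm⟩

/-- **Some member of a permuted family passes through `𝔫`.** -/
theorem rtk6gl_through_perm (j : R →+* B) (ι : B →+* F)
    {d : ℕ} (hd : (d : F) ≠ 0) {ζ : F} (hζ : IsPrimitiveRoot ζ d)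
    (l : List (F →+* F)) (hord : ∀ σ ∈ l, ∀ x, (⇑σ)^[d] x = x) (hζσ : ∀ σ ∈ l, σ ζ = ζ)
    (hcomm : ∀ σ ∈ l, ∀ τ ∈ l, ∀ x, σ (τ x) = τ (σ x))
    (hζB : ∃ b, ι b = ζ) (hdB : ∃ b, ι b = (d : F)⁻¹)
    (hlB : ∀ σ ∈ l, ∀ b : B, ∃ b', ι b' = σ (ι b))
    (hfix : ∀ b : B, (∀ σ ∈ l, σ (ι b) = ι b) → ∃ u : R, j u = b)
    {κ : Type*} [Finite κ] (V : κ → ValuationSubring F) (hBV : ∀ c b, ι b ∈ V c)
    (hlV' : ∀ σ ∈ l, ∀ c, ∃ c', ∀ x ∈ (V c').nonunits, σ x ∈ (V c).nonunits)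
    (𝔫 : Ideal B) [h𝔫 : 𝔫.IsPrime]
    (h₀ : ∀ u : R, (∀ c, ι (j u) ∈ (V c).nonunits) → j u ∈ 𝔫) :
    ∃ c, ∀ b : B, ι b ∈ (V c).nonunits → b ∈ 𝔫 := by
  classical
  have hd0 : d ≠ 0 := by
    rintro rfl
    exact hd (by simp)
  let Q : AddSubgroup F :=
    { carrier := {x | ∃ b ∈ 𝔫, ι b = x}
      zero_mem' := ⟨0, 𝔫.zero_mem, map_zero ι⟩
      add_mem' := by
        rintro x y ⟨a, ha, rfl⟩ ⟨b, hb, rfl⟩
        exact ⟨a + b, 𝔫.add_mem ha hb, map_add ι a b⟩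
      neg_mem' := by
        rintro x ⟨a, ha, rfl⟩
        exact ⟨-a, 𝔫.neg_mem ha, map_neg ι a⟩ }
  have key : rtk6glT ι V ≤ Q := by
    refine rtk6gl_core_perm j ι hd hζ l hord hζσ hcomm hζB hdB hlB hfix V hBV hlV' Q ?_
    rintro b hb ⟨u, hu⟩
    have h1 : ∀ c, ι (j u) ∈ (V c).nonunits := fun c => by
      rw [hu, map_pow]
      exact rtk6gl_nonunits_pow _ (hb c) hd0
    have h2 : b ^ d ∈ 𝔫 := hu ▸ h₀ u h1
    exact ⟨b, h𝔫.mem_of_pow_mem d h2, rfl⟩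
  -- the intersection of the `𝔪(V c) ∩ B` lies in `𝔫`
  have hT : ∀ b : B, (∀ c, ι b ∈ (V c).nonunits) → b ∈ 𝔫 := by
    intro b hb
    obtain ⟨b', hb', hbb'⟩ := key ⟨hb, b, rfl⟩
    have h0 : ι (b - b') = 0 := by rw [map_sub, hbb', sub_self]
    have hfix0 : ∃ u : R, j u = (b - b') ^ d := by
      refine hfix _ fun σ hσ => ?_
      rw [map_pow, h0, zero_pow hd0, map_zero]
    obtain ⟨u, hu⟩ := hfix0
    have h1 : ∀ c, ι (j u) ∈ (V c).nonunits := fun c => by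
      rw [hu, map_pow, h0, zero_pow hd0]
      exact (V c).nonunits.zero_mem
    have h2 : (b - b') ^ d ∈ 𝔫 := hu ▸ h₀ u h1
    have h3 : b - b' ∈ 𝔫 := h𝔫.mem_of_pow_mem d h2
    have : b = (b - b') + b' := by ring
    rw [this]
    exact 𝔫.add_mem h3 hb'
  -- one of them lies in `𝔫`
  by_contra hcon
  push Not at hcon
  choose f hf hf' using hcon
  letI := Fintype.ofFinite κ
  have hprod : ∏ c, f c ∈ 𝔫 := by
    refine hT _ fun c => ?_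
    have e : ∏ c', f c' = (∏ c' ∈ Finset.univ.erase c, f c') * f c :=
      (Finset.prod_erase_mul _ _ (Finset.mem_univ c)).symm
    rw [e, map_mul]
    exact rtk6gl_nonunits_mul _ (hBV c _) (hf c)
  obtain ⟨c, -, hc⟩ := (h𝔫.prod_mem_iff).mp hprod
  exact hf' c hc

end Perm

end Fermat.Agent.RT.K6
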