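/-
K-machine, piece K6, piece **M4-inst** (helper82): the hypotheses `hgV`, `hΦV` of
`rtk6ew_main_multi` (`RT/K6/EWMulti.lean`) for EVERY component `c : κ` of the family of
`RT/K6/DIFamMg.lean`, from ONE hypothesis

  `Rtk6m4Stab` : every diamond AT `q` maps `V_∞` into `V_∞`.

Setting of `DIFamMg.lean`: `A′ = mgcA A K₁` a DVR, `F′ = rtk6diF A K₁ (M₁ q) M H`,
`V_∞ = rtk6dvV … true` (Gauss), `V_0 = rtk6dvV … false = V_∞.comap w`, `κ = rtk6dfK`,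
`V = rtk6dfV`; `g = rtk6diGal σ` (`σ` in the inertia group of `A`), `Φ = ofAlgAut δ`,
`δ` a diamond at `q`.

The automorphism `w` enters through the two relations
  `Rtk6m4WDiamond` : `w δ_c = δ_{c⁻¹} w` for the diamonds at `q`      (`rtk6diwW_diamond`),
  `Rtk6m4WGalois`  : `σ̂ w = w δ_c σ̂`, `c` the cyclotomic image of `σ`  (`rtk6diwW_galois`).

* `rtk6m4_isAtR_inv` : `IsAtR M q c → IsAtR M q c⁻¹`;
* `rtk6m4_diamond_mem_zero`, `rtk6m4_diamond_val_inf`, `rtk6m4_diamond_val_zero` : the diamonds at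
  `q` preserve `V_0`, and the valuations of `V_∞`, `V_0`;
* `rtk6m4_gal_val_zero` : `σ̂` preserves the valuation of `V_0`;
* **`rtk6m4_hΦV`**, **`rtk6m4_hgV`** : the two hypotheses of `rtk6ew_main_multi`, for all `c : κ`;
* `rtk6m4_hΦV_mem`, `rtk6m4_hgV_mem` : the stability of every `V c`;
* `rtk6m4_hΦV_W`, `rtk6m4_hgV_W` : the instance `w = rtk6diwW` (helper96's `DIW.lean`).
-/
import Fermat.Agent.RT.K6.DIFamComm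

set_option autoImplicit false
set_option linter.style.haveILetI false
set_option linter.unusedSectionVars false
set_option linter.unusedVariables false

noncomputable section

namespace Fermat.Agent.RT.K6

open ModularCurve AlgebraicCurve Fermat.Agent.ES Fermat.Agent.ES.G2 Fermat.Agent.INJ
open Fermat.Agent.UNIP Fermat.Agent.ES1 Fermat.Agent.ES1.G2 Fermat.Agent.AL IntermediateField

section AtR

variable {M r : ℕ}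

/-- the diamonds at `r` form a group: inverses -/
theorem rtk6m4_isAtR_inv (hM0 : M ≠ 0) (hrM : r ∣ M) {c : (ZMod M)ˣ} (hc : IsAtR M r c) :
    IsAtR M r c⁻¹ := by
  have h3 := hc
  unfold IsAtR at h3 ⊢
  have hM1 : M / r ∣ M := Nat.div_dvd_of_dvd hrM
  haveI : NeZero M := ⟨hM0⟩
  have hcast : ∀ x : ZMod M, ((x.val : ℕ) : ZMod (M / r)) =
      ZMod.castHom hM1 (ZMod (M / r)) x := fun x => by
    rw [ZMod.natCast_val, ZMod.castHom_apply]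
  rw [hcast] at h3 ⊢
  have h4 : ZMod.castHom hM1 (ZMod (M / r)) (c : ZMod M) *
      ZMod.castHom hM1 (ZMod (M / r)) ((c⁻¹ : (ZMod M)ˣ) : ZMod M) = 1 := by
    rw [← map_mul, ← Units.val_mul, mul_inv_cancel, Units.val_one, map_one]
  rw [h3, one_mul] at h4
  exact h4

end AtR

section Val

variable {F : Type*} [Field F]

/-- `v(b / a) = 1` and `v(b / c) = 1` give `v(c / a) = 1` -/
theorem rtk6m4_val_div (V : ValuationSubring F) {a b c : F} (hb : b ≠ 0) (hc : c ≠ 0)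
    (h1 : V.valuation (b / a) = 1) (h2 : V.valuation (b / c) = 1) :
    V.valuation (c / a) = 1 := by
  have h : c / a = (b / a) / (b / c) := by
    field_simp
  rw [h, map_div₀, h1, h2, div_one]

end Val

section Concrete

variable {A : ValuationSubring Qb} {K₁ : IntermediateField ℚ Qb}
  [IsDiscreteValuationRing ↥(mgcA A K₁)] {π : ↥(mgcA A K₁)} (hπ : Irreducible π)
  {q M₁ : ℕ} [NeZero q] [NeZero M₁] [NeZero (M₁ * q)]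
  (M : ℕ) (H : Subgroup (ZMod M)ˣ)
  (w : ↥(rtk6diF A K₁ (M₁ * q) M H) ≃ₐ[↥(mgcE A K₁)] ↥(rtk6diF A K₁ (M₁ * q) M H))

/-- **hstab**: every diamond at `q` maps `V_∞` into `V_∞`. -/
def Rtk6m4Stab : Prop :=
  ∀ c : (ZMod M)ˣ, IsAtR M q c →
    ∀ δ : ↥(rtk6diF A K₁ (M₁ * q) M H) ≃ₐ[↥(mgcE A K₁)] ↥(rtk6diF A K₁ (M₁ * q) M H),
      IsDiamondC ↥(mgcE A K₁) (M₁ * q) M H c δ →
      ∀ x ∈ rtk6dvV hπ M H w true, δ x ∈ rtk6dvV hπ M H w true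

/-- `w δ_c = δ_{c⁻¹} w` for the diamonds at `q` -/
def Rtk6m4WDiamond : Prop :=
  ∀ c : (ZMod M)ˣ, IsAtR M q c →
    ∀ δ₁ δ₂ : ↥(rtk6diF A K₁ (M₁ * q) M H) ≃ₐ[↥(mgcE A K₁)] ↥(rtk6diF A K₁ (M₁ * q) M H),
      IsDiamondC ↥(mgcE A K₁) (M₁ * q) M H c δ₁ →
      IsDiamondC ↥(mgcE A K₁) (M₁ * q) M H c⁻¹ δ₂ →
      ∀ x, w (δ₁ x) = δ₂ (w x)

/-- `σ̂ w = w δ_c σ̂` -/
def Rtk6m4WGalois (σ : Qb ≃ₐ[ℚ] Qb) (hσE : ∀ x ∈ mgcE A K₁, σ x ∈ mgcE A K₁)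
    (c : (ZMod M)ˣ) : Prop :=
  ∀ δ : ↥(rtk6diF A K₁ (M₁ * q) M H) ≃ₐ[↥(mgcE A K₁)] ↥(rtk6diF A K₁ (M₁ * q) M H),
    IsDiamondC ↥(mgcE A K₁) (M₁ * q) M H c δ →
    ∀ x, rtk6diAct (M₁ * q) M H σ hσE (w x) = w (δ (rtk6diAct (M₁ * q) M H σ hσE x))

variable {M H w}

include hπ in
/-- the uniformizer is not zero in `F′` -/
theorem rtk6m4_pi_ne_zero :
    algebraMap ↥(mgcA A K₁) ↥(rtk6diF A K₁ (M₁ * q) M H) π ≠ 0 :=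
  ei_algebraMap_ne_zero (E := ↥(mgcE A K₁)) hπ

/-- an `E′`-automorphism fixes the uniformizer -/
theorem rtk6m4_fix_pi
    (δ : ↥(rtk6diF A K₁ (M₁ * q) M H) ≃ₐ[↥(mgcE A K₁)] ↥(rtk6diF A K₁ (M₁ * q) M H)) :
    δ (algebraMap ↥(mgcA A K₁) ↥(rtk6diF A K₁ (M₁ * q) M H) π) =
      algebraMap ↥(mgcA A K₁) ↥(rtk6diF A K₁ (M₁ * q) M H) π := by
  rw [IsScalarTower.algebraMap_apply ↥(mgcA A K₁) ↥(mgcE A K₁) ↥(rtk6diF A K₁ (M₁ * q) M H)]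
  exact δ.commutes _

/-- an `E′`-automorphism which maps `V_b` into itself preserves its valuation -/
theorem rtk6m4_val_of_mem (b : Bool)
    (δ : ↥(rtk6diF A K₁ (M₁ * q) M H) ≃ₐ[↥(mgcE A K₁)] ↥(rtk6diF A K₁ (M₁ * q) M H))
    (h : ∀ x ∈ rtk6dvV hπ M H w b, δ x ∈ rtk6dvV hπ M H w b)
    {f : ↥(rtk6diF A K₁ (M₁ * q) M H)} (hf : f ≠ 0) :
    (rtk6dvV hπ M H w b).valuation (δ f / f) = 1 :=
  rtk6dv_val_of_map_mem (rtk6dvV hπ M H w b)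
    (δ : ↥(rtk6diF A K₁ (M₁ * q) M H) →+* ↥(rtk6diF A K₁ (M₁ * q) M H)) h _
    (rtk6m4_pi_ne_zero hπ) (rtk6m4_fix_pi δ) (fun f hf => rtk6dv_hunif hπ M H w b hf) hf

/-- **the diamonds at `q` preserve the valuation of `V_∞`** -/
theorem rtk6m4_diamond_val_inf (hstab : Rtk6m4Stab hπ M H w) {c : (ZMod M)ˣ}
    (hc : IsAtR M q c)
    {δ : ↥(rtk6diF A K₁ (M₁ * q) M H) ≃ₐ[↥(mgcE A K₁)] ↥(rtk6diF A K₁ (M₁ * q) M H)}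
    (hδ : IsDiamondC ↥(mgcE A K₁) (M₁ * q) M H c δ)
    {f : ↥(rtk6diF A K₁ (M₁ * q) M H)} (hf : f ≠ 0) :
    (rtk6dvV hπ M H w true).valuation (δ f / f) = 1 :=
  rtk6m4_val_of_mem hπ true δ (hstab c hc δ hδ) hf

/-- **the diamonds at `q` map `V_0` into `V_0`** -/
theorem rtk6m4_diamond_mem_zero (hML : M ∣ M₁ * q) (hqM' : q ∣ M)
    (hstab : Rtk6m4Stab hπ M H w) (hwδ : Rtk6m4WDiamond M H w) {c : (ZMod M)ˣ}
    (hc : IsAtR M q c)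
    {δ : ↥(rtk6diF A K₁ (M₁ * q) M H) ≃ₐ[↥(mgcE A K₁)] ↥(rtk6diF A K₁ (M₁ * q) M H)}
    (hδ : IsDiamondC ↥(mgcE A K₁) (M₁ * q) M H c δ)
    (x : ↥(rtk6diF A K₁ (M₁ * q) M H)) (hx : x ∈ rtk6dvV hπ M H w false) :
    δ x ∈ rtk6dvV hπ M H w false := by
  haveI : Algebra.IsAlgebraic ℚ Qb := AlgebraicClosure.isAlgebraic ℚ
  haveI : Algebra.IsAlgebraic ℚ ↥(mgcE A K₁) :=
    Algebra.IsAlgebraic.of_injective (mgcE A K₁).val Subtype.val_injective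
  have hM0 : M ≠ 0 := fun h0 => NeZero.ne (M₁ * q) (Nat.eq_zero_of_zero_dvd (h0 ▸ hML))
  haveI : NeZero M := ⟨hM0⟩
  obtain ⟨δ₂, hδ₂⟩ := rtk6d0_exists_diamond ↥(mgcE A K₁) H (NeZero.ne (M₁ * q)) hML c⁻¹
  have hc2 := rtk6m4_isAtR_inv hM0 hqM' hc
  show w (δ x) ∈ rtk6dvV hπ M H w true
  rw [hwδ c hc δ δ₂ hδ hδ₂ x]
  exact hstab c⁻¹ hc2 δ₂ hδ₂ _ hx

/-- **the diamonds at `q` preserve the valuation of `V_0`** -/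
theorem rtk6m4_diamond_val_zero (hML : M ∣ M₁ * q) (hqM' : q ∣ M)
    (hstab : Rtk6m4Stab hπ M H w) (hwδ : Rtk6m4WDiamond M H w) {c : (ZMod M)ˣ}
    (hc : IsAtR M q c)
    {δ : ↥(rtk6diF A K₁ (M₁ * q) M H) ≃ₐ[↥(mgcE A K₁)] ↥(rtk6diF A K₁ (M₁ * q) M H)}
    (hδ : IsDiamondC ↥(mgcE A K₁) (M₁ * q) M H c δ)
    {f : ↥(rtk6diF A K₁ (M₁ * q) M H)} (hf : f ≠ 0) :
    (rtk6dvV hπ M H w false).valuation (δ f / f) = 1 :=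
  rtk6m4_val_of_mem hπ false δ (rtk6m4_diamond_mem_zero hπ hML hqM' hstab hwδ hc hδ) hf

/-- the diamonds at `q` preserve the valuations of `V_∞` and `V_0` -/
theorem rtk6m4_diamond_val (hML : M ∣ M₁ * q) (hqM' : q ∣ M)
    (hstab : Rtk6m4Stab hπ M H w) (hwδ : Rtk6m4WDiamond M H w) {c : (ZMod M)ˣ}
    (hc : IsAtR M q c)
    {δ : ↥(rtk6diF A K₁ (M₁ * q) M H) ≃ₐ[↥(mgcE A K₁)] ↥(rtk6diF A K₁ (M₁ * q) M H)}
    (hδ : IsDiamondC ↥(mgcE A K₁) (M₁ * q) M H c δ) (b : Bool)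
    {f : ↥(rtk6diF A K₁ (M₁ * q) M H)} (hf : f ≠ 0) :
    (rtk6dvV hπ M H w b).valuation (δ f / f) = 1 := by
  cases b
  · exact rtk6m4_diamond_val_zero hπ hML hqM' hstab hwδ hc hδ hf
  · exact rtk6m4_diamond_val_inf hπ hstab hc hδ hf

/-- **`σ̂` preserves the valuation of `V_0`** (`σ` in the inertia group, `c` its cyclotomic
image at `q`): `σ̂ = δ_c⁻¹ (δ_c σ̂)` and `w (δ_c σ̂) = σ̂ w`. -/
theorem rtk6m4_gal_val_zero (hML : M ∣ M₁ * q) (hqM' : q ∣ M)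
    (hstab : Rtk6m4Stab hπ M H w) (hwδ : Rtk6m4WDiamond M H w)
    {σ : Qb ≃ₐ[ℚ] Qb} (hσ : σ ∈ A.inertiaSubgroupIn ℚ)
    (hσE : ∀ x ∈ mgcE A K₁, σ x ∈ mgcE A K₁) {c : (ZMod M)ˣ} (hc : IsAtR M q c)
    (hwσ : Rtk6m4WGalois M H w σ hσE c)
    {f : ↥(rtk6diF A K₁ (M₁ * q) M H)} (hf : f ≠ 0) :
    (rtk6dvV hπ M H w false).valuation (rtk6diGal (M₁ * q) M H σ hσE • f / f) = 1 := by
  haveI : Algebra.IsAlgebraic ℚ Qb := AlgebraicClosure.isAlgebraic ℚ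
  haveI : Algebra.IsAlgebraic ℚ ↥(mgcE A K₁) :=
    Algebra.IsAlgebraic.of_injective (mgcE A K₁).val Subtype.val_injective
  have hM0 : M ≠ 0 := fun h0 => NeZero.ne (M₁ * q) (Nat.eq_zero_of_zero_dvd (h0 ▸ hML))
  haveI : NeZero M := ⟨hM0⟩
  obtain ⟨δ, hδ⟩ := rtk6d0_exists_diamond ↥(mgcE A K₁) H (NeZero.ne (M₁ * q)) hML c
  -- `Ψ = δ σ̂`
  set Ψ : ↥(rtk6diF A K₁ (M₁ * q) M H) →+* ↥(rtk6diF A K₁ (M₁ * q) M H) :=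
    (δ : ↥(rtk6diF A K₁ (M₁ * q) M H) →+* ↥(rtk6diF A K₁ (M₁ * q) M H)).comp
      (rtk6diAct (M₁ * q) M H σ hσE) with hΨ
  have hΨw : ∀ x, w (Ψ x) = rtk6diGal (M₁ * q) M H σ hσE • w x := fun x => by
    rw [rtk6diGal_smul]
    exact (hwσ δ hδ x).symm
  have h1 := rtk6dv_hgV_zero hπ M H w hσ hσE Ψ hΨw f hf
  have hg0 : rtk6diAct (M₁ * q) M H σ hσE f ≠ 0 :=
    (map_ne_zero (rtk6diAct (M₁ * q) M H σ hσE)).mpr hf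
  have h2 := rtk6m4_diamond_val_zero hπ hML hqM' hstab hwδ hc hδ hg0
  have hΨ0 : Ψ f ≠ 0 := (map_ne_zero Ψ).mpr hf
  rw [rtk6diGal_smul]
  exact rtk6m4_val_div _ hΨ0 hg0 h1 h2

/-- `σ̂` preserves the valuations of `V_∞` and `V_0` -/
theorem rtk6m4_gal_val (hML : M ∣ M₁ * q) (hqM' : q ∣ M)
    (hstab : Rtk6m4Stab hπ M H w) (hwδ : Rtk6m4WDiamond M H w)
    {σ : Qb ≃ₐ[ℚ] Qb} (hσ : σ ∈ A.inertiaSubgroupIn ℚ)
    (hσE : ∀ x ∈ mgcE A K₁, σ x ∈ mgcE A K₁) {c : (ZMod M)ˣ} (hc : IsAtR M q c)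
    (hwσ : Rtk6m4WGalois M H w σ hσE c) (b : Bool)
    {f : ↥(rtk6diF A K₁ (M₁ * q) M H)} (hf : f ≠ 0) :
    (rtk6dvV hπ M H w b).valuation (rtk6diGal (M₁ * q) M H σ hσE • f / f) = 1 := by
  cases b
  · exact rtk6m4_gal_val_zero hπ hML hqM' hstab hwδ hσ hσE hc hwσ hf
  · exact rtk6dv_hgV_inf hπ M H w hσ hσE f hf

/-! ### All components -/

/-- **hΦV** of `rtk6ew_main_multi`: a diamond at `q` preserves the valuation of every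
component `V c`, `c : κ`. -/
theorem rtk6m4_hΦV (hML : M ∣ M₁ * q) (hqM' : q ∣ M)
    (hstab : Rtk6m4Stab hπ M H w) (hwδ : Rtk6m4WDiamond M H w) {c₀ : (ZMod M)ˣ}
    (hc₀ : IsAtR M q c₀)
    {δ₀ : ↥(rtk6diF A K₁ (M₁ * q) M H) ≃ₐ[↥(mgcE A K₁)] ↥(rtk6diF A K₁ (M₁ * q) M H)}
    (hδ₀ : IsDiamondC ↥(mgcE A K₁) (M₁ * q) M H c₀ δ₀) :
    ∀ (c : rtk6dfK hπ M H w) (f : ↥(rtk6diF A K₁ (M₁ * q) M H)), f ≠ 0 →
      (rtk6dfV hπ M H w c).valuation (SemilinearAut.ofAlgAut δ₀ • f / f) = 1 := by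
  haveI : Algebra.IsAlgebraic ℚ Qb := AlgebraicClosure.isAlgebraic ℚ
  haveI : Algebra.IsAlgebraic ℚ ↥(mgcE A K₁) :=
    Algebra.IsAlgebraic.of_injective (mgcE A K₁).val Subtype.val_injective
  have hM0 : M ≠ 0 := fun h0 => NeZero.ne (M₁ * q) (Nat.eq_zero_of_zero_dvd (h0 ▸ hML))
  haveI : NeZero M := ⟨hM0⟩
  intro c
  refine rtk6df_forallK hπ M H w
    (P := fun W => ∀ f : ↥(rtk6diF A K₁ (M₁ * q) M H), f ≠ 0 →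
      W.valuation (SemilinearAut.ofAlgAut δ₀ • f / f) = 1) (fun γ hγ b => ?_) c
  intro f hf
  simp only [SemilinearAut.ofAlgAut_smul]
  exact rtk6df_val_transport (rtk6dvV hπ M H w b) γ (fun x => δ₀ x)
    (fun x => rtk6df_gam_comm_diamond (NeZero.ne (M₁ * q)) hML hγ hδ₀ x)
    (fun f hf => rtk6m4_diamond_val hπ hML hqM' hstab hwδ hc₀ hδ₀ b hf) f hf

/-- **hgV** of `rtk6ew_main_multi`: `g = rtk6diGal σ` (`σ` in the inertia group of `A`, with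
cyclotomic image `c₀` at `q`) preserves the valuation of every component `V c`, `c : κ`. -/
theorem rtk6m4_hgV (hML : M ∣ M₁ * q) (hqM' : q ∣ M)
    (hstab : Rtk6m4Stab hπ M H w) (hwδ : Rtk6m4WDiamond M H w)
    {σ : Qb ≃ₐ[ℚ] Qb} (hσ : σ ∈ A.inertiaSubgroupIn ℚ)
    (hσE : ∀ x ∈ mgcE A K₁, σ x ∈ mgcE A K₁) {c₀ : (ZMod M)ˣ} (hc₀ : IsAtR M q c₀)
    (hwσ : Rtk6m4WGalois M H w σ hσE c₀) :
    ∀ (c : rtk6dfK hπ M H w) (f : ↥(rtk6diF A K₁ (M₁ * q) M H)), f ≠ 0 →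
      (rtk6dfV hπ M H w c).valuation (rtk6diGal (M₁ * q) M H σ hσE • f / f) = 1 := by
  intro c
  refine rtk6df_forallK hπ M H w
    (P := fun W => ∀ f : ↥(rtk6diF A K₁ (M₁ * q) M H), f ≠ 0 →
      W.valuation (rtk6diGal (M₁ * q) M H σ hσE • f / f) = 1) (fun γ hγ b => ?_) c
  intro f hf
  exact rtk6df_val_transport (rtk6dvV hπ M H w b) γ
    (fun x => rtk6diGal (M₁ * q) M H σ hσE • x)
    (fun x => rtk6df_gam_comm_gal (NeZero.ne (M₁ * q)) hML hγ σ hσE x)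
    (fun f hf => rtk6m4_gal_val hπ hML hqM' hstab hwδ hσ hσE hc₀ hwσ b hf) f hf

/-- every component `V c` is stable under the diamonds at `q` -/
theorem rtk6m4_hΦV_mem (hML : M ∣ M₁ * q) (hqM' : q ∣ M)
    (hstab : Rtk6m4Stab hπ M H w) (hwδ : Rtk6m4WDiamond M H w) {c₀ : (ZMod M)ˣ}
    (hc₀ : IsAtR M q c₀)
    {δ₀ : ↥(rtk6diF A K₁ (M₁ * q) M H) ≃ₐ[↥(mgcE A K₁)] ↥(rtk6diF A K₁ (M₁ * q) M H)}
    (hδ₀ : IsDiamondC ↥(mgcE A K₁) (M₁ * q) M H c₀ δ₀) (c : rtk6dfK hπ M H w)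
    (x : ↥(rtk6diF A K₁ (M₁ * q) M H)) (hx : x ∈ rtk6dfV hπ M H w c) :
    δ₀ x ∈ rtk6dfV hπ M H w c := by
  rcases eq_or_ne x 0 with rfl | hx0
  · rw [map_zero]
    exact (rtk6dfV hπ M H w c).zero_mem
  have h := rtk6m4_hΦV hπ hML hqM' hstab hwδ hc₀ hδ₀ c x hx0
  rw [SemilinearAut.ofAlgAut_smul] at h
  have h2 : δ₀ x = (δ₀ x / x) * x := by field_simp
  rw [h2]
  exact (rtk6dfV hπ M H w c).mul_mem _ _
    (((rtk6dfV hπ M H w c).valuation_le_one_iff _).1 h.le) hx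

/-- every component `V c` is stable under `σ̂` -/
theorem rtk6m4_hgV_mem (hML : M ∣ M₁ * q) (hqM' : q ∣ M)
    (hstab : Rtk6m4Stab hπ M H w) (hwδ : Rtk6m4WDiamond M H w)
    {σ : Qb ≃ₐ[ℚ] Qb} (hσ : σ ∈ A.inertiaSubgroupIn ℚ)
    (hσE : ∀ x ∈ mgcE A K₁, σ x ∈ mgcE A K₁) {c₀ : (ZMod M)ˣ} (hc₀ : IsAtR M q c₀)
    (hwσ : Rtk6m4WGalois M H w σ hσE c₀) (c : rtk6dfK hπ M H w)
    (x : ↥(rtk6diF A K₁ (M₁ * q) M H)) (hx : x ∈ rtk6dfV hπ M H w c) :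
    rtk6diGal (M₁ * q) M H σ hσE • x ∈ rtk6dfV hπ M H w c := by
  rcases eq_or_ne x 0 with rfl | hx0
  · rw [smul_zero]
    exact (rtk6dfV hπ M H w c).zero_mem
  have h := rtk6m4_hgV hπ hML hqM' hstab hwδ hσ hσE hc₀ hwσ c x hx0
  have h2 : rtk6diGal (M₁ * q) M H σ hσE • x = (rtk6diGal (M₁ * q) M H σ hσE • x / x) * x := by
    field_simp
  rw [h2]
  exact (rtk6dfV hπ M H w c).mul_mem _ _
    (((rtk6dfV hπ M H w c).valuation_le_one_iff _).1 h.le) hx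

end Concrete

/-! ### The instance `w = rtk6diwW` -/

section Inst

variable {A : ValuationSubring Qb} {K₁ : IntermediateField ℚ Qb}
  [IsDiscreteValuationRing ↥(mgcA A K₁)] {π : ↥(mgcA A K₁)} (hπ : Irreducible π)
  {q M₁ : ℕ} [NeZero q] [NeZero M₁] [NeZero (M₁ * q)]
  {M : ℕ} {H : Subgroup (ZMod M)ˣ}
  (w₀ : fieldBar (M₁ * q) M H ≃ₐ[Qb] fieldBar (M₁ * q) M H) (hw₀ : IsWAt (M₁ * q) M H q w₀)
  (hM0 : M ≠ 0) (hq : q.Prime) (hqM' : q ∣ M)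
  (hζ : ∀ ζ : Qb, ζ ^ q = 1 → ζ ∈ mgcE A K₁)

/-- `Rtk6m4WDiamond` for `w = rtk6diwW` -/
theorem rtk6m4_wDiamond (hML : M ∣ M₁ * q) :
    Rtk6m4WDiamond (A := A) (K₁ := K₁) (q := q) (M₁ := M₁) M H
      (rtk6diwW (K₀ := mgcE A K₁) w₀ hw₀ hM0 hq hqM' hζ) :=
  fun c hc δ₁ δ₂ hδ₁ hδ₂ x =>
    rtk6diwW_diamond w₀ hw₀ hM0 hq hqM' hζ (NeZero.ne (M₁ * q)) hML c hc δ₁ δ₂ hδ₁ hδ₂ x

/-- `Rtk6m4WGalois` for `w = rtk6diwW` -/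
theorem rtk6m4_wGalois (hML : M ∣ M₁ * q) (σ : Qb ≃ₐ[ℚ] Qb)
    (hσE : ∀ x ∈ mgcE A K₁, σ x ∈ mgcE A K₁) {c : (ZMod M)ˣ} (hc : IsCycAt M q σ c) :
    Rtk6m4WGalois (A := A) (K₁ := K₁) (q := q) (M₁ := M₁) M H
      (rtk6diwW (K₀ := mgcE A K₁) w₀ hw₀ hM0 hq hqM' hζ) σ hσE c :=
  fun δ hδ x =>
    rtk6diwW_galois w₀ hw₀ hM0 hq hqM' hζ (NeZero.ne (M₁ * q)) hML σ hσE c hc δ hδ x

/-- **hΦV** of `rtk6ew_main_multi` at `w = rtk6diwW`, `Φ = ofAlgAut δ₀`, `δ₀` a diamond at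
`q`, from `hstab`. -/
theorem rtk6m4_hΦV_W (hML : M ∣ M₁ * q)
    (hstab : Rtk6m4Stab hπ M H (rtk6diwW (K₀ := mgcE A K₁) w₀ hw₀ hM0 hq hqM' hζ))
    {c₀ : (ZMod M)ˣ} (hc₀ : IsAtR M q c₀)
    {δ₀ : ↥(rtk6diF A K₁ (M₁ * q) M H) ≃ₐ[↥(mgcE A K₁)] ↥(rtk6diF A K₁ (M₁ * q) M H)}
    (hδ₀ : IsDiamondC ↥(mgcE A K₁) (M₁ * q) M H c₀ δ₀) :
    ∀ (c : rtk6dfK hπ M H (rtk6diwW (K₀ := mgcE A K₁) w₀ hw₀ hM0 hq hqM' hζ))
      (f : ↥(rtk6diF A K₁ (M₁ * q) M H)), f ≠ 0 →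
      (rtk6dfV hπ M H (rtk6diwW (K₀ := mgcE A K₁) w₀ hw₀ hM0 hq hqM' hζ) c).valuation
        (SemilinearAut.ofAlgAut δ₀ • f / f) = 1 :=
  rtk6m4_hΦV hπ hML hqM' hstab (rtk6m4_wDiamond w₀ hw₀ hM0 hq hqM' hζ hML) hc₀ hδ₀

/-- **hgV** of `rtk6ew_main_multi` at `w = rtk6diwW`, `g = rtk6diGal σ`, `σ` in the inertia
group of `A` with cyclotomic image `c₀` at `q`, from `hstab`. -/
theorem rtk6m4_hgV_W (hML : M ∣ M₁ * q)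
    (hstab : Rtk6m4Stab hπ M H (rtk6diwW (K₀ := mgcE A K₁) w₀ hw₀ hM0 hq hqM' hζ))
    {σ : Qb ≃ₐ[ℚ] Qb} (hσ : σ ∈ A.inertiaSubgroupIn ℚ)
    (hσE : ∀ x ∈ mgcE A K₁, σ x ∈ mgcE A K₁) {c₀ : (ZMod M)ˣ} (hc₀ : IsCycAt M q σ c₀) :
    ∀ (c : rtk6dfK hπ M H (rtk6diwW (K₀ := mgcE A K₁) w₀ hw₀ hM0 hq hqM' hζ))
      (f : ↥(rtk6diF A K₁ (M₁ * q) M H)), f ≠ 0 →
      (rtk6dfV hπ M H (rtk6diwW (K₀ := mgcE A K₁) w₀ hw₀ hM0 hq hqM' hζ) c).valuation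
        (rtk6diGal (M₁ * q) M H σ hσE • f / f) = 1 :=
  rtk6m4_hgV hπ hML hqM' hstab (rtk6m4_wDiamond w₀ hw₀ hM0 hq hqM' hζ hML) hσ hσE hc₀.2
    (rtk6m4_wGalois w₀ hw₀ hM0 hq hqM' hζ hML σ hσE hc₀)

end Inst

end Fermat.Agent.RT.K6
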