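/-
K-machine, piece K6 (helper82): the inputs **(M1)** `Rtk6emFam` and **(M4-inst)** `Rtk6emStab`
of `RT/K6/EMain.lean` (helper18) at the family `κ = rtk6dfK`, `V = rtk6dfV` of ALL conjugates
of the two vertical valuations `V_∞`, `V_0 = V_∞.comap w` (`RT/K6/DIFamMg.lean`).

* `rtk6m1_emFam` : **`Rtk6emFam A K₁ (M₁ q) M H π (rtk6dfV hπ M H w)`** from
  `hw : Rtk6dvWIncl ιC hq hqM M H w` (`w` extends the Atkin–Lehner involution of the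
  `Γ₀(M₁ q)`-field), `hA : A.LiesOverPrime q`, `hML : M ∣ M₁ q`;
* `rtk6m4_emStab_g` : **`Rtk6emStab … (rtk6dfV hπ M H w) (rtk6diGal (M₁ q) M H σ hσE)`**,
  `σ` in the inertia group of `A`, from `hstab : Rtk6m4Stab hπ M H w`;
* `rtk6m4_emStab_Φ` : **`Rtk6emStab … (rtk6dfV hπ M H w) (SemilinearAut.ofAlgAut δ₀)`**, `δ₀` a
  diamond at `q`, from `hstab`;
* `rtk6m1_emFam_W`, `rtk6m4_emStab_g_W`, `rtk6m4_emStab_Φ_W` : the instance `w = rtk6diwW`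
  (helper96's `DIW.lean`), where the relations of `w` with the diamonds and with the Galois
  action are discharged.
-/
import Fermat.Agent.RT.K6.EMain
import Fermat.Agent.RT.K6.M4Inst

set_option autoImplicit false
set_option linter.style.haveILetI false
set_option linter.unusedSectionVars false
set_option linter.unusedVariables false

noncomputable section

namespace Fermat.Agent.RT.K6

open ModularCurve AlgebraicCurve Fermat.Agent.ES Fermat.Agent.ES.G2 Fermat.Agent.INJ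
open Fermat.Agent.UNIP Fermat.Agent.ES1 Fermat.Agent.ES1.G2 Fermat.Agent.AL IntermediateField

section Concrete

variable {A : ValuationSubring Qb} {K₁ : IntermediateField ℚ Qb}
  [IsDiscreteValuationRing ↥(mgcA A K₁)] {π : ↥(mgcA A K₁)} (hπ : Irreducible π)
  (ιC : ↥(mgcE A K₁) →+* ℂ) {q M₁ : ℕ} [NeZero q] [NeZero M₁] [NeZero (M₁ * q)]
  (hq : q.Prime) (hqM : ¬ q ∣ M₁) {M : ℕ} {H : Subgroup (ZMod M)ˣ}
  {w : ↥(rtk6diF A K₁ (M₁ * q) M H) ≃ₐ[↥(mgcE A K₁)] ↥(rtk6diF A K₁ (M₁ * q) M H)}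

/-- **(M1)**: the family of all conjugates of `V_∞`, `V_0` satisfies `Rtk6emFam`. -/
theorem rtk6m1_emFam (hw : Rtk6dvWIncl ιC hq hqM M H w) (hA : A.LiesOverPrime q)
    (hML : M ∣ M₁ * q) :
    Rtk6emFam A K₁ (M₁ * q) M H π (rtk6dfV hπ M H w) where
  hfin := rtk6df_finiteK hπ M H w hML
  hinj := rtk6dfV_injective hπ M H w
  hBV₁ := fun c b hb => rtk6df_hBV₁ hπ ιC hq hqM M H w hw c b hb
  hBV₂ := fun c b hb => rtk6df_hBV₂ hπ ιC hq hqM M H w hw c b hb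
  hπV := fun c => rtk6df_hπV hπ M H w c
  harch := fun c a x ha => rtk6df_harch hπ M H w c a x ha
  hVloc₁ := fun c x hx => rtk6df_hVloc₁ hπ ιC hq hqM M H w hw hA hML c x hx
  hVloc₂ := fun c x hx => rtk6df_hVloc₂ hπ ιC hq hqM M H w hw hA hML c x hx

/-- **(M4-inst) for `g = rtk6diGal σ`**, `σ` in the inertia group of `A`, `c₀` its cyclotomic
image at `q`. -/
theorem rtk6m4_emStab_g (hML : M ∣ M₁ * q) (hqM' : q ∣ M)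
    (hstab : Rtk6m4Stab hπ M H w) (hwδ : Rtk6m4WDiamond M H w)
    {σ : Qb ≃ₐ[ℚ] Qb} (hσ : σ ∈ A.inertiaSubgroupIn ℚ)
    (hσE : ∀ x ∈ mgcE A K₁, σ x ∈ mgcE A K₁) {c₀ : (ZMod M)ˣ} (hc₀ : IsAtR M q c₀)
    (hwσ : Rtk6m4WGalois M H w σ hσE c₀) :
    Rtk6emStab A K₁ (M₁ * q) M H (rtk6dfV hπ M H w) (rtk6diGal (M₁ * q) M H σ hσE) :=
  rtk6m4_hgV hπ hML hqM' hstab hwδ hσ hσE hc₀ hwσ

/-- **(M4-inst) for `Φ = ofAlgAut δ₀`**, `δ₀` a diamond at `q`. -/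
theorem rtk6m4_emStab_Φ (hML : M ∣ M₁ * q) (hqM' : q ∣ M)
    (hstab : Rtk6m4Stab hπ M H w) (hwδ : Rtk6m4WDiamond M H w) {c₀ : (ZMod M)ˣ}
    (hc₀ : IsAtR M q c₀)
    {δ₀ : ↥(rtk6diF A K₁ (M₁ * q) M H) ≃ₐ[↥(mgcE A K₁)] ↥(rtk6diF A K₁ (M₁ * q) M H)}
    (hδ₀ : IsDiamondC ↥(mgcE A K₁) (M₁ * q) M H c₀ δ₀) :
    Rtk6emStab A K₁ (M₁ * q) M H (rtk6dfV hπ M H w) (SemilinearAut.ofAlgAut δ₀) :=
  rtk6m4_hΦV hπ hML hqM' hstab hwδ hc₀ hδ₀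

end Concrete

/-! ### The instance `w = rtk6diwW` -/

section Inst

variable {A : ValuationSubring Qb} {K₁ : IntermediateField ℚ Qb}
  [IsDiscreteValuationRing ↥(mgcA A K₁)] {π : ↥(mgcA A K₁)} (hπ : Irreducible π)
  (ιC : ↥(mgcE A K₁) →+* ℂ) {q M₁ : ℕ} [NeZero q] [NeZero M₁] [NeZero (M₁ * q)]
  {M : ℕ} {H : Subgroup (ZMod M)ˣ}
  (w₀ : fieldBar (M₁ * q) M H ≃ₐ[Qb] fieldBar (M₁ * q) M H) (hw₀ : IsWAt (M₁ * q) M H q w₀)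
  (hM0 : M ≠ 0) (hq : q.Prime) (hqM' : q ∣ M) (hqM : ¬ q ∣ M₁)
  (hζ : ∀ ζ : Qb, ζ ^ q = 1 → ζ ∈ mgcE A K₁)

/-- `rtk6diwW` extends the Atkin–Lehner involution -/
theorem rtk6m1_wIncl :
    Rtk6dvWIncl ιC hq hqM M H (rtk6diwW (K₀ := mgcE A K₁) w₀ hw₀ hM0 hq hqM' hζ) :=
  fun x => rtk6diwW_incl w₀ hw₀ hM0 hq hqM' hζ ιC hqM x

include ιC hqM in
/-- **(M1) at `w = rtk6diwW`** -/
theorem rtk6m1_emFam_W (hA : A.LiesOverPrime q) (hML : M ∣ M₁ * q) :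
    Rtk6emFam A K₁ (M₁ * q) M H π
      (rtk6dfV hπ M H (rtk6diwW (K₀ := mgcE A K₁) w₀ hw₀ hM0 hq hqM' hζ)) :=
  rtk6m1_emFam hπ ιC hq hqM (rtk6m1_wIncl ιC w₀ hw₀ hM0 hq hqM' hqM hζ) hA hML

/-- **(M4-inst) for `g` at `w = rtk6diwW`** -/
theorem rtk6m4_emStab_g_W (hML : M ∣ M₁ * q)
    (hstab : Rtk6m4Stab hπ M H (rtk6diwW (K₀ := mgcE A K₁) w₀ hw₀ hM0 hq hqM' hζ))
    {σ : Qb ≃ₐ[ℚ] Qb} (hσ : σ ∈ A.inertiaSubgroupIn ℚ)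
    (hσE : ∀ x ∈ mgcE A K₁, σ x ∈ mgcE A K₁) {c₀ : (ZMod M)ˣ} (hc₀ : IsCycAt M q σ c₀) :
    Rtk6emStab A K₁ (M₁ * q) M H
      (rtk6dfV hπ M H (rtk6diwW (K₀ := mgcE A K₁) w₀ hw₀ hM0 hq hqM' hζ))
      (rtk6diGal (M₁ * q) M H σ hσE) :=
  rtk6m4_hgV_W hπ w₀ hw₀ hM0 hq hqM' hζ hML hstab hσ hσE hc₀

/-- **(M4-inst) for `Φ` at `w = rtk6diwW`** -/
theorem rtk6m4_emStab_Φ_W (hML : M ∣ M₁ * q)
    (hstab : Rtk6m4Stab hπ M H (rtk6diwW (K₀ := mgcE A K₁) w₀ hw₀ hM0 hq hqM' hζ))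
    {c₀ : (ZMod M)ˣ} (hc₀ : IsAtR M q c₀)
    {δ₀ : ↥(rtk6diF A K₁ (M₁ * q) M H) ≃ₐ[↥(mgcE A K₁)] ↥(rtk6diF A K₁ (M₁ * q) M H)}
    (hδ₀ : IsDiamondC ↥(mgcE A K₁) (M₁ * q) M H c₀ δ₀) :
    Rtk6emStab A K₁ (M₁ * q) M H
      (rtk6dfV hπ M H (rtk6diwW (K₀ := mgcE A K₁) w₀ hw₀ hM0 hq hqM' hζ))
      (SemilinearAut.ofAlgAut δ₀) :=
  rtk6m4_hΦV_W hπ w₀ hw₀ hM0 hq hqM' hζ hML hstab hc₀ hδ₀

end Inst

end Fermat.Agent.RT.K6
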