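import Fermat.Agent.RT.K6.SS1Fix
import Fermat.Agent.RT.K6.M4EMain
import Fermat.Agent.RT.K6.DGLSS1P
import Fermat.Agent.STB.FrobReg
import Fermat.Agent.UNIP.MGChartsBeta0Reg

/-!
# RT-K6 / SS1-inst (helper50): `Rtk6emSS1` for the family of all conjugates of `V_∞`, `V_0`

Setting of `RT/K6/DIFamMg.lean` / `RT/K6/M4EMain.lean` (helper82): `A′ = mgcA A K₁` a DVR with
uniformizer `π`, `F′ = rtk6diF A K₁ (M₁ q) M H`, `w` with `Rtk6dvWIncl`, `V = rtk6dfV hπ M H w`.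

**`rtk6sj_emSS1`** : `Rtk6emSS1 A K₁ (M₁ q) M H π (rtk6dfV hπ M H w)` (the special fibre of the
chart `j` of `F′` over `A′` is reduced, with components the `V c`) from

* `h2 : q = 2 → 3 ∣ M₁`, `h3 : q = 3 → 2 ∣ M₁` (`RegChart`, (SS1) of the `Γ₀(M₁ q)`-chart over
  `A′` : `mgcb_reg_SS1_J`, `stb_regChart_conc_J`);
* a tame exponent `d` : `d ≠ 0`, `¬ q ∣ d`, `∀ c : (ZMod M)ˣ, c ^ d ∈ pmH H` (e.g. the `d` of
  `IsTameAt (M₁ q) M q H`).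

Proof: helper79's `rtk6gl_ss1_unif_perm` (`RT/K6/DGLSS1P.lean`) with `R` = the `Γ₀`-chart over
`A′`, `j = rtk6sfJ`, `l` = the list of all elements of `Γ = rtk6dfGam`, `D = k = d`, `p = π`;
`hfix` = Galois descent (`RT/K6/SS1Fix.lean`).

* `rtk6sj_diamond_pow`, `rtk6sj_gam_pow` : `γ ^ d = 1` on `F′` for `γ ∈ Γ`;
* `rtk6sj_emSS1_W` : the instance `w = rtk6diwW`;
* `rtk6sj_emSS1_tame` : from `IsTameAt (M₁ q) M q H`.
-/

set_option autoImplicit false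
set_option linter.style.haveILetI false
set_option linter.unusedSectionVars false
set_option linter.unusedVariables false
set_option maxHeartbeats 1000000

noncomputable section

namespace Fermat.Agent.RT.K6

open ModularCurve AlgebraicCurve Fermat.Agent.ES Fermat.Agent.ES.G2 Fermat.Agent.INJ
open Fermat.Agent.UNIP Fermat.Agent.STB Fermat.Agent.ES1 Fermat.Agent.ES1.G2 Fermat.Agent.AL
open IntermediateField

/-! ### `γ ^ d = 1` for `γ ∈ Γ` -/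

section Pow

variable {K : Type} [Field K] [CharZero K] [Algebra.IsAlgebraic ℚ K]
  {L M : ℕ} [NeZero M] {H : Subgroup (ZMod M)ˣ}

/-- the powers of a diamond on the `S_b` -/
theorem rtk6sj_diamond_pow (hML : M ∣ L) {c : (ZMod M)ˣ}
    {δ : ↥(fieldC K L M H) ≃ₐ[K] ↥(fieldC K L M H)} (hδ : IsDiamondC K L M H c δ) (n : ℕ)
    (b : (ZMod M)ˣ) :
    (δ ^ n) ⟨sS K M H b, rtk6d0_sS_mem K M H hML b⟩ =
      ⟨sS K M H (b * c ^ n), rtk6d0_sS_mem K M H hML (b * c ^ n)⟩ := by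
  induction n generalizing b with
  | zero =>
      apply Subtype.ext
      show sS K M H b = sS K M H (b * c ^ 0)
      rw [pow_zero, mul_one]
  | succ n ih =>
      rw [pow_succ, AlgEquiv.mul_apply]
      have e1 : δ ⟨sS K M H b, rtk6d0_sS_mem K M H hML b⟩ =
          ⟨sS K M H (b * c), rtk6d0_sS_mem K M H hML (b * c)⟩ :=
        Subtype.ext (hδ.map_sS hML b)
      rw [e1, ih (b * c)]
      apply Subtype.ext
      show sS K M H (b * c * c ^ n) = sS K M H (b * c ^ (n + 1))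
      rw [pow_succ', mul_assoc]

/-- **`γ ^ d = 1`** for `γ ∈ Γ`, `d` an exponent of `(ℤ/M)ˣ / ±H` -/
theorem rtk6sj_gam_pow (hL : L ≠ 0) (hML : M ∣ L) {d : ℕ} (hd : ∀ c : (ZMod M)ˣ, c ^ d ∈ pmH H)
    {γ : ↥(fieldC K L M H) ≃ₐ[K] ↥(fieldC K L M H)} (hγ : γ ∈ rtk6dfGam K L M H)
    (x : ↥(fieldC K L M H)) : (γ ^ d) x = x := by
  obtain ⟨c, hc⟩ := rtk6df_isDiamond hL hML hγ
  refine rtk6df_eq_one_of_fix hL hML ((rtk6dfGam K L M H).pow_mem hγ d) ?_ x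
  rw [rtk6sj_diamond_pow hML hc d 1]
  show sS K M H (1 * c ^ d) = sS K M H 1
  exact es1f_sS_eq_of_inPM K (es1rc_inPM_mul_of_mem 1 (hd c))

/-- the iterate form -/
theorem rtk6sj_gam_iterate (hL : L ≠ 0) (hML : M ∣ L) {d : ℕ}
    (hd : ∀ c : (ZMod M)ˣ, c ^ d ∈ pmH H)
    {γ : ↥(fieldC K L M H) ≃ₐ[K] ↥(fieldC K L M H)} (hγ : γ ∈ rtk6dfGam K L M H)
    (x : ↥(fieldC K L M H)) : (⇑γ)^[d] x = x := by
  rw [← AlgEquiv.coe_pow]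
  exact rtk6sj_gam_pow hL hML hd hγ x

end Pow

/-! ### The list of the elements of `Γ` -/

section List

variable (K : Type) [Field K] (L M : ℕ) (H : Subgroup (ZMod M)ˣ)

/-- an automorphism as a ring endomorphism -/
def rtk6sjHom (γ : ↥(fieldC K L M H) ≃ₐ[K] ↥(fieldC K L M H)) :
    ↥(fieldC K L M H) →+* ↥(fieldC K L M H) :=
  (γ : ↥(fieldC K L M H) →ₐ[K] ↥(fieldC K L M H)).toRingHom

variable {K L M H}

@[simp]
theorem rtk6sjHom_apply (γ : ↥(fieldC K L M H) ≃ₐ[K] ↥(fieldC K L M H))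
    (x : ↥(fieldC K L M H)) : rtk6sjHom K L M H γ x = γ x := rfl

theorem rtk6sjHom_coe (γ : ↥(fieldC K L M H) ≃ₐ[K] ↥(fieldC K L M H)) :
    ⇑(rtk6sjHom K L M H γ) = ⇑γ := rfl

variable (K L M H)

/-- the list of all elements of `Γ` (as ring endomorphisms of `F`) -/
def rtk6sjList [Finite ↥(rtk6dfGam K L M H)] :
    List (↥(fieldC K L M H) →+* ↥(fieldC K L M H)) :=
  letI := Fintype.ofFinite ↥(rtk6dfGam K L M H)
  (Finset.univ : Finset ↥(rtk6dfGam K L M H)).toList.map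
    (fun γ : ↥(rtk6dfGam K L M H) => rtk6sjHom K L M H γ.1)

variable {K L M H}

theorem mem_rtk6sjList [Finite ↥(rtk6dfGam K L M H)]
    {σ : ↥(fieldC K L M H) →+* ↥(fieldC K L M H)} :
    σ ∈ rtk6sjList K L M H ↔ ∃ γ ∈ rtk6dfGam K L M H, σ = rtk6sjHom K L M H γ := by
  letI := Fintype.ofFinite ↥(rtk6dfGam K L M H)
  unfold rtk6sjList
  rw [List.mem_map]
  constructor
  · rintro ⟨γ, -, rfl⟩
    exact ⟨γ.1, γ.2, rfl⟩
  · rintro ⟨γ, hγ, rfl⟩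
    exact ⟨(⟨γ, hγ⟩ : ↥(rtk6dfGam K L M H)), Finset.mem_toList.mpr (Finset.mem_univ _), rfl⟩

end List

/-! ### The instance -/

section Concrete

variable {A : ValuationSubring Qb} {K₁ : IntermediateField ℚ Qb}
  [IsDiscreteValuationRing ↥(mgcA A K₁)] {π : ↥(mgcA A K₁)} (hπ : Irreducible π)
  (ιC : ↥(mgcE A K₁) →+* ℂ) {q M₁ : ℕ} [NeZero q] [NeZero M₁] [NeZero (M₁ * q)]
  (hq : q.Prime) (hqM : ¬ q ∣ M₁) {M : ℕ} {H : Subgroup (ZMod M)ˣ}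
  {w : ↥(rtk6diF A K₁ (M₁ * q) M H) ≃ₐ[↥(mgcE A K₁)] ↥(rtk6diF A K₁ (M₁ * q) M H)}

/-- **(SS1) of the `Γ₀(M₁ q)`-chart over `A′`**, in the form `hSS1₀` of
`rtk6gl_ss1_unif_perm`. -/
theorem rtk6sj_hSS1₀ (hw : Rtk6dvWIncl ιC hq hqM M H w) (hA : A.LiesOverPrime q)
    (h2 : q = 2 → 3 ∣ M₁) (h3 : q = 3 → 2 ∣ M₁)
    (u : ↥(zchClosure (A₀ := ↥(mgcA A K₁))
      ({mgcT A K₁ (M₁ * q)} : Set ↥(mgcF A K₁ (M₁ * q)))))
    (hu : ∀ c : rtk6dfK hπ M H w,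
      ((rtk6sfJ A K₁ (M₁ * q) M H u : ↥(zchClosure (A₀ := ↥(mgcA A K₁))
        ({rtk6diT A K₁ (M₁ * q) M H} : Set ↥(rtk6diF A K₁ (M₁ * q) M H)))) :
          ↥(rtk6diF A K₁ (M₁ * q) M H)) ∈ (rtk6dfV hπ M H w c).nonunits) :
    algebraMap ↥(mgcA A K₁) ↥(zchClosure (A₀ := ↥(mgcA A K₁))
      ({mgcT A K₁ (M₁ * q)} : Set ↥(mgcF A K₁ (M₁ * q)))) π ∣ u := by
  have hE : beta0Field A ≤ mgcE A K₁ := le_sup_left
  have hreg := stb_regChart_conc_J (K₀ := mgcE A K₁) M₁ hq hA hE hπ hqM h2 h3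
  have hV : ∀ b : Bool, (u : ↥(mgcF A K₁ (M₁ * q))) ∈ (mgvV hπ ιC hq hqM b).nonunits := by
    intro b
    have h1 := hu (rtk6dfBase (rtk6dvV hπ M H w) b)
    have h2 := (vt_mem_nonunits_comap (rtk6dvV hπ M H w b) (rtk6diIncl (M₁ * q) M H)
      (u : ↥(mgcF A K₁ (M₁ * q)))).mpr h1
    rwa [rtk6dv_comap_incl hπ ιC hq hqM M H w hw b] at h2
  obtain ⟨b', hb', e⟩ := mgcb_reg_SS1_J (K₀ := mgcE A K₁) hπ ιC hq hqM hA hreg
    (u : ↥(mgcF A K₁ (M₁ * q))) u.2 hV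
  exact Dvd.intro ⟨b', hb'⟩ (Subtype.ext e.symm)

/-- **(SS1-inst)**: `Rtk6emSS1` for the family of all conjugates of `V_∞`, `V_0`. -/
theorem rtk6sj_emSS1 (hw : Rtk6dvWIncl ιC hq hqM M H w) (hA : A.LiesOverPrime q)
    (hML : M ∣ M₁ * q) (h2 : q = 2 → 3 ∣ M₁) (h3 : q = 3 → 2 ∣ M₁)
    {d : ℕ} (hd0 : d ≠ 0) (hqd : ¬ q ∣ d) (hd : ∀ c : (ZMod M)ˣ, c ^ d ∈ pmH H) :
    Rtk6emSS1 A K₁ (M₁ * q) M H π (rtk6dfV hπ M H w) := by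
  haveI : Algebra.IsAlgebraic ℚ Qb := AlgebraicClosure.isAlgebraic ℚ
  haveI : Algebra.IsAlgebraic ℚ ↥(mgcE A K₁) :=
    Algebra.IsAlgebraic.of_injective (mgcE A K₁).val Subtype.val_injective
  have hL : M₁ * q ≠ 0 := NeZero.ne (M₁ * q)
  haveI : NeZero M := ⟨fun h0 => hL (Nat.eq_zero_of_zero_dvd (h0 ▸ hML))⟩
  haveI : Finite ↥(rtk6dfGam ↥(mgcE A K₁) (M₁ * q) M H) := rtk6df_finite hL hML
  have hE : beta0Field A ≤ mgcE A K₁ := le_sup_left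
  obtain ⟨hdu, ζ₀, hζ₀⟩ := stb_unit_data (K₀ := mgcE A K₁) hq hA hE hd0 hqd
  -- the objects
  set B := zchClosure (A₀ := ↥(mgcA A K₁))
    ({rtk6diT A K₁ (M₁ * q) M H} : Set ↥(rtk6diF A K₁ (M₁ * q) M H)) with hB
  set ι : ↥B →+* ↥(rtk6diF A K₁ (M₁ * q) M H) := B.val.toRingHom with hι
  have hιinj : Function.Injective ι := Subtype.val_injective
  have hπF : algebraMap ↥(mgcA A K₁) ↥(rtk6diF A K₁ (M₁ * q) M H) π ≠ 0 :=
    ei_algebraMap_ne_zero (E := ↥(mgcE A K₁)) hπ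
  have hdF : ((d : ℕ) : ↥(rtk6diF A K₁ (M₁ * q) M H)) ≠ 0 := Nat.cast_ne_zero.mpr hd0
  -- the root of unity
  have hζF : IsPrimitiveRoot
      (algebraMap ↥(mgcA A K₁) ↥(rtk6diF A K₁ (M₁ * q) M H) ζ₀) d :=
    hζ₀.map_of_injective
      (zch_algebraMap_injective (A₀ := ↥(mgcA A K₁)) (E := ↥(mgcE A K₁))
        (L := ↥(rtk6diF A K₁ (M₁ * q) M H)))
  -- the main call
  have key := rtk6gl_ss1_unif_perm (rtk6sfJ A K₁ (M₁ * q) M H) ι hιinj hdF hζF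
    (rtk6sjList ↥(mgcE A K₁) (M₁ * q) M H)
    (fun σ hσ x => by
      obtain ⟨γ, hγ, rfl⟩ := mem_rtk6sjList.mp hσ
      rw [rtk6sjHom_coe]
      exact rtk6sj_gam_iterate hL hML hd hγ x)
    (fun σ hσ => by
      obtain ⟨γ, hγ, rfl⟩ := mem_rtk6sjList.mp hσ
      rw [rtk6sjHom_apply, IsScalarTower.algebraMap_apply ↥(mgcA A K₁) ↥(mgcE A K₁)
        ↥(rtk6diF A K₁ (M₁ * q) M H)]
      exact γ.commutes _)
    (fun σ hσ τ hτ x => by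
      obtain ⟨γ, hγ, rfl⟩ := mem_rtk6sjList.mp hσ
      obtain ⟨γ', hγ', rfl⟩ := mem_rtk6sjList.mp hτ
      exact rtk6df_gam_comm hL hML hγ hγ' x)
    ⟨algebraMap ↥(mgcA A K₁) ↥B ζ₀, rfl⟩
    (by
      obtain ⟨v, hv⟩ := hdu
      refine ⟨algebraMap ↥(mgcA A K₁) ↥B ((v⁻¹ : (↥(mgcA A K₁))ˣ) : ↥(mgcA A K₁)), ?_⟩
      show algebraMap ↥(mgcA A K₁) ↥(rtk6diF A K₁ (M₁ * q) M H)
        ((v⁻¹ : (↥(mgcA A K₁))ˣ) : ↥(mgcA A K₁)) = _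
      apply eq_inv_of_mul_eq_one_left
      have h1 : ((d : ℕ) : ↥(rtk6diF A K₁ (M₁ * q) M H)) =
          algebraMap ↥(mgcA A K₁) ↥(rtk6diF A K₁ (M₁ * q) M H) (v : ↥(mgcA A K₁)) := by
        rw [hv, map_natCast]
      rw [h1, ← map_mul, Units.inv_mul, map_one])
    (fun σ hσ b => by
      obtain ⟨γ, hγ, rfl⟩ := mem_rtk6sjList.mp hσ
      have h1 := cusp_isIntegral_adjoin_map (A := ↥(mgcA A K₁))
        (rtk6sjHom ↥(mgcE A K₁) (M₁ * q) M H γ)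
        (fun a => by
          rw [rtk6sjHom_apply, IsScalarTower.algebraMap_apply ↥(mgcA A K₁) ↥(mgcE A K₁)
            ↥(rtk6diF A K₁ (M₁ * q) M H)]
          exact γ.commutes _) b.2
      rw [rtk6sjHom_apply, rtk6sjHom_apply,
        show γ (rtk6diT A K₁ (M₁ * q) M H) = rtk6diT A K₁ (M₁ * q) M H from
          rtk6df_gam_J hγ] at h1
      exact ⟨⟨γ (b : ↥(rtk6diF A K₁ (M₁ * q) M H)), h1⟩, rfl⟩)
    (fun b hb => rtk6sf_hfix_list (A' := mgcA A K₁) hL hML (mgcT A K₁ (M₁ * q))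
      (rtk6sjList ↥(mgcE A K₁) (M₁ * q) M H)
      (fun x hx c σ hσ => hx (rtk6sjHom _ _ _ _ σ) (mem_rtk6sjList.mpr ⟨σ, hσ.mem_gam, rfl⟩))
      b hb)
    (fun x hx => by
      obtain ⟨b, hb⟩ := hx
      have h1 : IsIntegral ↥(Algebra.adjoin ↥(mgcA A K₁)
          ({rtk6diT A K₁ (M₁ * q) M H} : Set ↥(rtk6diF A K₁ (M₁ * q) M H))) (x ^ d) := by
        have := b.2
        rw [hι] at hb
        have e : (b : ↥(rtk6diF A K₁ (M₁ * q) M H)) = x ^ d := hb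
        rw [← e]
        exact b.2
      exact ⟨⟨x, IsIntegral.of_pow (Nat.pos_of_ne_zero hd0) h1⟩, rfl⟩)
    (rtk6dfV hπ M H w)
    (fun c b => rtk6df_hBV₁ hπ ιC hq hqM M H w hw c _ b.2)
    (fun σ hσ c => by
      obtain ⟨γ, hγ, rfl⟩ := mem_rtk6sjList.mp hσ
      exact rtk6df_permK hπ M H w γ hγ c)
    (algebraMap ↥(mgcA A K₁) _ π) (algebraMap ↥(mgcA A K₁) ↥B π)
    (fun h0 => hπF (congrArg Subtype.val h0))
    d ⟨1, 1, by rw [mul_one]; rfl, mul_one 1⟩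
    (fun h0 => hπF (congrArg Subtype.val h0))
    (fun c => rtk6df_hπV hπ M H w c)
    (fun c x hx => rtk6df_hunif_div hπ M H w c x hx)
    (fun u hu => rtk6sj_hSS1₀ hπ ιC hq hqM hw hA h2 h3 u hu)
  -- the conclusion
  intro b hb hbV
  obtain ⟨b', hb'⟩ := key ⟨b, hb⟩ hbV
  exact ⟨(b' : ↥(rtk6diF A K₁ (M₁ * q) M H)), b'.2, congrArg Subtype.val hb'⟩

end Concrete

/-! ### The instance `w = rtk6diwW` -/

section Inst

variable {A : ValuationSubring Qb} {K₁ : IntermediateField ℚ Qb}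
  [IsDiscreteValuationRing ↥(mgcA A K₁)] {π : ↥(mgcA A K₁)} (hπ : Irreducible π)
  (ιC : ↥(mgcE A K₁) →+* ℂ) {q M₁ : ℕ} [NeZero q] [NeZero M₁] [NeZero (M₁ * q)]
  {M : ℕ} {H : Subgroup (ZMod M)ˣ}
  (w₀ : fieldBar (M₁ * q) M H ≃ₐ[Qb] fieldBar (M₁ * q) M H) (hw₀ : IsWAt (M₁ * q) M H q w₀)
  (hM0 : M ≠ 0) (hq : q.Prime) (hqM' : q ∣ M) (hqM : ¬ q ∣ M₁)
  (hζ : ∀ ζ : Qb, ζ ^ q = 1 → ζ ∈ mgcE A K₁)

include ιC hqM in
/-- **(SS1-inst) at `w = rtk6diwW`** -/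
theorem rtk6sj_emSS1_W (hA : A.LiesOverPrime q) (hML : M ∣ M₁ * q)
    (h2 : q = 2 → 3 ∣ M₁) (h3 : q = 3 → 2 ∣ M₁)
    {d : ℕ} (hd0 : d ≠ 0) (hqd : ¬ q ∣ d) (hd : ∀ c : (ZMod M)ˣ, c ^ d ∈ pmH H) :
    Rtk6emSS1 A K₁ (M₁ * q) M H π
      (rtk6dfV hπ M H (rtk6diwW (K₀ := mgcE A K₁) w₀ hw₀ hM0 hq hqM' hζ)) :=
  rtk6sj_emSS1 hπ ιC hq hqM (rtk6m1_wIncl ιC w₀ hw₀ hM0 hq hqM' hqM hζ) hA hML h2 h3 hd0 hqd hd

include ιC hqM in
/-- **(SS1-inst) at `w = rtk6diwW`, tame rigid level** (`IsTameAt (M₁ q) M q H`,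
`4 ∣ M₁ q`). -/
theorem rtk6sj_emSS1_tame (hA : A.LiesOverPrime q) (hML : M ∣ M₁ * q)
    (htame : IsTameAt (M₁ * q) M q H) (h4 : 4 ∣ M₁ * q) :
    Rtk6emSS1 A K₁ (M₁ * q) M H π
      (rtk6dfV hπ M H (rtk6diwW (K₀ := mgcE A K₁) w₀ hw₀ hM0 hq hqM' hζ)) := by
  obtain ⟨d, hdc, hd⟩ := htame
  have hL : M₁ * q ≠ 0 := NeZero.ne (M₁ * q)
  have hq2 : q ≠ 2 := by
    rintro rfl
    apply hqM
    have h5 : 2 ∣ M₁ := by omega
    exact h5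
  have hd0 : d ≠ 0 := by
    rintro rfl
    rw [Nat.coprime_zero_left] at hdc
    have : 6 ≤ 6 * (M₁ * q) := Nat.le_mul_of_pos_right 6 (Nat.pos_of_ne_zero hL)
    omega
  have hqd : ¬ q ∣ d := by
    intro hqd
    have h6 : q ∣ 6 * (M₁ * q) := Dvd.dvd.mul_left (Dvd.intro_left M₁ rfl) 6
    have h7 : q ∣ Nat.gcd d (6 * (M₁ * q)) := Nat.dvd_gcd hqd h6
    rw [hdc.gcd_eq_one] at h7
    exact hq.one_lt.ne' (Nat.dvd_one.mp h7)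
  have h3 : q = 3 → 2 ∣ M₁ := by
    rintro rfl
    have h5 : 4 ∣ M₁ :=
      (Nat.Coprime.dvd_mul_right (by norm_num : Nat.Coprime 4 3)).mp h4
    exact dvd_trans (by norm_num : 2 ∣ 4) h5
  exact rtk6sj_emSS1_W hπ ιC w₀ hw₀ hM0 hq hqM' hqM hζ hA hML (fun h => absurd h hq2) h3
    hd0 hqd hd

end Inst

end Fermat.Agent.RT.K6

end
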