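/-
K-machine, piece K6, piece **E-INST** (helper18), part 5: case (U) with (SS1-inst) discharged.

* `rtk6eiu_stmtSS1Gen : StmtRtk6SS1Gen` — (SS1-inst) generic in `(K₁, w)`, from helper50's
  `rtk6sj_emSS1` (`RT/K6/SS1InstB.lean`) and the tameness of the level;
* the providers `hSS1`, `hFix` of `rtk6ei_geomUnip_of_pieces` are
  `rtk6eiu_hSS1 rtk6eiu_stmtSS1Gen`, `rtk6eiu_hFix rtk6eiu_stmtSS1Gen`;
* **`rtk6eiu_geomUnip_of_node`** : `(hNode) → StmtRtk6GeomUnip`;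
* **`rtk6eiu_stmtUnipHRig_of_node`** : `(hNode) → StmtUnipHRig`.
-/
import Fermat.Agent.RT.K6.EInstU
import Fermat.Agent.RT.K6.SS1InstB

set_option autoImplicit false
set_option linter.style.haveILetI false
set_option linter.unusedSectionVars false
set_option linter.unusedVariables false
set_option linter.style.longLine false

noncomputable section

namespace Fermat.Agent.RT.K6

open ModularCurve AlgebraicCurve Fermat.Agent.ES Fermat.Agent.ES.G2 Fermat.Agent.INJ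
open Fermat.Agent.UNIP Fermat.Agent.STB Fermat.Agent.ES1 Fermat.Agent.ES1.G2 IntermediateField

/-- **(SS1-inst), generic in `(K₁, w)`**, at the tame rigid levels. -/
theorem rtk6eiu_stmtSS1Gen : StmtRtk6SS1Gen := by
  intro q M₁ _ _ _ M H hq hqM hML htame h4 A hA K₁ _ π hπ ιC w hw
  obtain ⟨d, hdc, hd⟩ := htame
  have hL : M₁ * q ≠ 0 := NeZero.ne (M₁ * q)
  have hq2 : q ≠ 2 := by
    rintro rfl
    apply hqM
    have h5 : 2 ∣ M₁ := by omega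
    exact h5
  have hd0 : d ≠ 0 := by
    rintro rfl
    rw [Nat.coprime_zero_left] at hdc
    have : 6 ≤ 6 * (M₁ * q) := Nat.le_mul_of_pos_right 6 (Nat.pos_of_ne_zero hL)
    omega
  have hqd : ¬ q ∣ d := by
    intro hqd
    have h6 : q ∣ 6 * (M₁ * q) := Dvd.dvd.mul_left (Dvd.intro_left M₁ rfl) 6
    have h7 : q ∣ Nat.gcd d (6 * (M₁ * q)) := Nat.dvd_gcd hqd h6
    rw [hdc.gcd_eq_one] at h7
    exact hq.one_lt.ne' (Nat.dvd_one.mp h7)
  have h3 : q = 3 → 2 ∣ M₁ := by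
    rintro rfl
    have h5 : 4 ∣ M₁ :=
      (Nat.Coprime.dvd_mul_right (by norm_num : Nat.Coprime 4 3)).mp h4
    exact dvd_trans (by norm_num : 2 ∣ 4) h5
  exact rtk6sj_emSS1 hπ ιC hq hqM hw hA hML (fun h => absurd h hq2) h3 hd0 hqd hd

/-- **Case (U): `StmtRtk6GeomUnip` from the provider `hNode` ALONE.** -/
theorem rtk6eiu_geomUnip_of_node
    (hNode : ∀ (q M₁ : ℕ) [NeZero q] [NeZero M₁] [NeZero (M₁ * q)] (M : ℕ)
      (H : Subgroup (ZMod M)ˣ) (hq : q.Prime) (hqM' : q ∣ M) (hM0 : M ≠ 0), ¬ q ∣ M₁ →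
      M ∣ M₁ * q → (∀ c : (ZMod M)ˣ, IsAtR M q c → c ∈ pmH H) → IsTameAt (M₁ * q) M q H →
      4 ∣ M₁ * q →
      ∀ (w₀ : fieldBar (M₁ * q) M H ≃ₐ[Qb] fieldBar (M₁ * q) M H)
        (hw₀ : IsWAt (M₁ * q) M H q w₀) (A : ValuationSubring Qb), A.LiesOverPrime q →
        Rtk6eiEv q A (fun K₁ _ hζ π hπ => Rtk6emNode A K₁ (M₁ * q) M H π
          (rtk6dfV hπ M H (rtk6diwW (K₀ := mgcE A K₁) w₀ hw₀ hM0 hq hqM' hζ)))) :
    StmtRtk6GeomUnip :=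
  rtk6eiu_geomUnip rtk6eiu_stmtSS1Gen hNode

/-- **Case (U): `StmtUnipHRig` from the provider `hNode` ALONE.** -/
theorem rtk6eiu_stmtUnipHRig_of_node
    (hNode : ∀ (q M₁ : ℕ) [NeZero q] [NeZero M₁] [NeZero (M₁ * q)] (M : ℕ)
      (H : Subgroup (ZMod M)ˣ) (hq : q.Prime) (hqM' : q ∣ M) (hM0 : M ≠ 0), ¬ q ∣ M₁ →
      M ∣ M₁ * q → (∀ c : (ZMod M)ˣ, IsAtR M q c → c ∈ pmH H) → IsTameAt (M₁ * q) M q H →
      4 ∣ M₁ * q →
      ∀ (w₀ : fieldBar (M₁ * q) M H ≃ₐ[Qb] fieldBar (M₁ * q) M H)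
        (hw₀ : IsWAt (M₁ * q) M H q w₀) (A : ValuationSubring Qb), A.LiesOverPrime q →
        Rtk6eiEv q A (fun K₁ _ hζ π hπ => Rtk6emNode A K₁ (M₁ * q) M H π
          (rtk6dfV hπ M H (rtk6diwW (K₀ := mgcE A K₁) w₀ hw₀ hM0 hq hqM' hζ)))) :
    StmtUnipHRig :=
  rtk6ei_stmtUnipHRig (rtk6eiu_geomUnip_of_node hNode)

end Fermat.Agent.RT.K6
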