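/-
K-machine, piece K6, piece **DIW**, part 2 (helper96): the relations between `w'`, the diamonds
and the coefficientwise Galois action on `fieldC K₀ L M H`, in the forms used for the
stability of `V_0 = V_∞.comap w'` (D-STAB, (M4) of NOTES/RT-K6-D.md).

* `rtk6diw_diamond_coeffHom` : `δ' σ̂ = σ̂ δ'` (the diamonds are defined over `ℚ`);
* `rtk6diwW_coeffHom`   : `w' (σ̂ x) = δ'_c (σ̂ (w' x))` for `IsCycAt M r σ c`;
* `rtk6diwW_diamond'`   : `w' (δ'_c x) = δ'_{c⁻¹} (w' x)` (restated), and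
  `rtk6diwW_symm_diamond` : `w'⁻¹ (δ'_c x) = δ'_{c⁻¹} (w'⁻¹ x)`;
* `rtk6diwW_symm_coeffHom` : `w'⁻¹ (σ̂ x) = δ'_{c⁻¹} … `, i.e. `σ̂ (w'⁻¹ x) = w'⁻¹ (δ'_c (σ̂ x))`.
-/
import Fermat.Agent.RT.K6.DIW

set_option autoImplicit false
set_option linter.style.haveILetI false
set_option linter.unusedSectionVars false
set_option linter.unusedVariables false

noncomputable section

namespace Fermat.Agent.RT.K6

open ModularCurve AlgebraicCurve Fermat.Agent.ES Fermat.Agent.ES.G2 Fermat.Agent.INJ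
open Fermat.Agent.UNIP Fermat.Agent.ES1 Fermat.Agent.ES1.G2 IntermediateField

section Rel

variable {K₀ : IntermediateField ℚ Qb} {L M : ℕ} {H : Subgroup (ZMod M)ˣ} {r : ℕ}

/-- the diamonds of `fieldBar L M H` commute with the arithmetic Galois action -/
theorem rtk6diw_diamondH_galois {c : (ZMod M)ˣ} {δ : fieldBar L M H ≃ₐ[Qb] fieldBar L M H}
    (hδ : IsDiamondH L M H c δ) (σ : Qb ≃ₐ[ℚ] Qb) (x : fieldBar L M H) :
    δ (arithmeticGalois (fieldQ L M H) σ • x) = arithmeticGalois (fieldQ L M H) σ • δ x := by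
  have key : (δ : fieldBar L M H →+* fieldBar L M H).comp
        ((arithmeticRingAut (fieldQ L M H) σ : fieldBar L M H ≃+* fieldBar L M H) :
          fieldBar L M H →+* fieldBar L M H) =
      ((arithmeticRingAut (fieldQ L M H) σ : fieldBar L M H ≃+* fieldBar L M H) :
          fieldBar L M H →+* fieldBar L M H).comp
        (δ : fieldBar L M H →+* fieldBar L M H) := by
    refine diamb_ringHom_ext L M H _ _ (fun a => ?_) (fun d _ hd x hx => ?_)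
      (fun e _ a he x hx => ?_)
    · show δ (arithmeticRingAut (fieldQ L M H) σ (algebraMap Qb _ a)) =
        arithmeticRingAut (fieldQ L M H) σ (δ (algebraMap Qb _ a))
      rw [arithmeticRingAut_algebraMap, AlgEquiv.commutes, AlgEquiv.commutes,
        arithmeticRingAut_algebraMap]
    · show δ (arithmeticRingAut (fieldQ L M H) σ x) =
        arithmeticRingAut (fieldQ L M H) σ (δ x)
      have h1 : arithmeticRingAut (fieldQ L M H) σ x = x := by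
        apply Subtype.ext
        rw [coe_arithmeticRingAut_apply, hx]
        exact coeffMap_jqNModC (σ : Qb →+* Qb) d
      rw [h1, hδ.fix_j d hd x hx, h1]
    · show δ (arithmeticRingAut (fieldQ L M H) σ x) =
        arithmeticRingAut (fieldQ L M H) σ (δ x)
      have h1 : arithmeticRingAut (fieldQ L M H) σ x = x := by
        apply Subtype.ext
        rw [coe_arithmeticRingAut_apply, hx]
        exact es1f_coeffMap_qExpand_sS (σ : Qb →+* Qb) M H a e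
      rw [h1]
      apply Subtype.ext
      rw [coe_arithmeticRingAut_apply, hδ.map_s e a he x hx]
      exact (es1f_coeffMap_qExpand_sS (σ : Qb →+* Qb) M H (a * c) e).symm
  exact congrArg (fun φ : fieldBar L M H →+* fieldBar L M H => φ x) key

/-- the diamonds of `fieldC K₀ L M H` commute with the coefficientwise action -/
theorem rtk6diw_diamond_coeffHom (hL : L ≠ 0) (hML : M ∣ L) {c : (ZMod M)ˣ}
    {δ' : fieldC K₀ L M H ≃ₐ[K₀] fieldC K₀ L M H} (hδ' : IsDiamondC ↥K₀ L M H c δ')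
    (σ : Qb ≃ₐ[ℚ] Qb) (hσ : ∀ x ∈ K₀, σ x ∈ K₀) (x : fieldC K₀ L M H) :
    δ' (rtk6diCoeffHom L M H (mgRestrict K₀ σ hσ) x) =
      rtk6diCoeffHom L M H (mgRestrict K₀ σ hσ) (δ' x) := by
  obtain ⟨δ, hδ⟩ := rtk6diw_exists_diamondH (H := H) hL hML c
  apply nfEmbH_injective K₀ L M H
  rw [rtk6diw_diamond_nfEmbH hδ' hδ, nfEmbH_rtk6diCoeffHom, nfEmbH_rtk6diCoeffHom,
    rtk6diw_diamond_nfEmbH hδ' hδ]
  exact rtk6diw_diamondH_galois hδ σ _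

variable (w : fieldBar L M H ≃ₐ[Qb] fieldBar L M H) (hw : IsWAt L M H r w)
  (hM0 : M ≠ 0) (hr : r.Prime) (hrM : r ∣ M) (hζ : ∀ ζ : Qb, ζ ^ r = 1 → ζ ∈ K₀)

/-- **`w' σ̂ = δ'_c σ̂ w'`** -/
theorem rtk6diwW_coeffHom (hL : L ≠ 0) (hML : M ∣ L) (σ : Qb ≃ₐ[ℚ] Qb)
    (hσ : ∀ x ∈ K₀, σ x ∈ K₀) (c : (ZMod M)ˣ) (hc : IsCycAt M r σ c)
    (δ₁ δ₂ : fieldC K₀ L M H ≃ₐ[K₀] fieldC K₀ L M H) (hδ₁ : IsDiamondC ↥K₀ L M H c δ₁)
    (hδ₂ : IsDiamondC ↥K₀ L M H c⁻¹ δ₂) (x : fieldC K₀ L M H) :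
    rtk6diwW w hw hM0 hr hrM hζ (rtk6diCoeffHom L M H (mgRestrict K₀ σ hσ) x) =
      δ₁ (rtk6diCoeffHom L M H (mgRestrict K₀ σ hσ) (rtk6diwW w hw hM0 hr hrM hζ x)) := by
  -- `σ̂ w' x = w' δ₁ σ̂ x`, hence `δ₁ σ̂ w' x = δ₁ w' δ₁ σ̂ x = w' δ₂ δ₁ σ̂ x = w' σ̂ x`
  have h1 := rtk6diwW_galois w hw hM0 hr hrM hζ hL hML σ hσ c hc δ₁ hδ₁ x
  have hc2 : IsAtR M r c⁻¹ := by
    have h3 := hc.2
    unfold IsAtR at h3 ⊢
    have hM1 : M / r ∣ M := Nat.div_dvd_of_dvd hrM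
    haveI : NeZero M := ⟨hM0⟩
    have hcast : ∀ x : ZMod M, ((x.val : ℕ) : ZMod (M / r)) =
        ZMod.castHom hM1 (ZMod (M / r)) x := fun x => by
      rw [ZMod.natCast_val, ZMod.castHom_apply]
    rw [hcast] at h3 ⊢
    have h4 : ZMod.castHom hM1 (ZMod (M / r)) (c : ZMod M) *
        ZMod.castHom hM1 (ZMod (M / r)) ((c⁻¹ : (ZMod M)ˣ) : ZMod M) = 1 := by
      rw [← map_mul, ← Units.val_mul, mul_inv_cancel, Units.val_one, map_one]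
    rw [h3, one_mul] at h4
    exact h4
  have h2 := rtk6diwW_diamond w hw hM0 hr hrM hζ hL hML c⁻¹ hc2 δ₂ δ₁ hδ₂
    (by rw [inv_inv]; exact hδ₁)
  rw [h1, ← h2]
  congr 1
  -- `δ₂ δ₁ = id`
  obtain ⟨δ, hδ⟩ := rtk6diw_exists_diamondH (H := H) hL hML c
  obtain ⟨δi, hδi⟩ := rtk6diw_exists_diamondH (H := H) hL hML c⁻¹
  apply nfEmbH_injective K₀ L M H
  rw [rtk6diw_diamond_nfEmbH hδ₂ hδi, rtk6diw_diamond_nfEmbH hδ₁ hδ]
  have h5 : IsDiamondH L M H (c⁻¹ * c) (δi * δ) := hδi.mul hδ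
  rw [inv_mul_cancel] at h5
  have h6 : δi * δ = 1 := h5.unique isDiamondH_one
  exact (congrArg (fun f : fieldBar L M H ≃ₐ[Qb] fieldBar L M H => f _) h6).symm

/-- **`σ̂ w'⁻¹ = w'⁻¹ δ'_c σ̂`** -/
theorem rtk6diwW_symm_galois (hL : L ≠ 0) (hML : M ∣ L) (σ : Qb ≃ₐ[ℚ] Qb)
    (hσ : ∀ x ∈ K₀, σ x ∈ K₀) (c : (ZMod M)ˣ) (hc : IsCycAt M r σ c)
    (δ₁ δ₂ : fieldC K₀ L M H ≃ₐ[K₀] fieldC K₀ L M H) (hδ₁ : IsDiamondC ↥K₀ L M H c δ₁)
    (hδ₂ : IsDiamondC ↥K₀ L M H c⁻¹ δ₂) (x : fieldC K₀ L M H) :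
    rtk6diCoeffHom L M H (mgRestrict K₀ σ hσ) ((rtk6diwW w hw hM0 hr hrM hζ).symm x) =
      (rtk6diwW w hw hM0 hr hrM hζ).symm
        (δ₁ (rtk6diCoeffHom L M H (mgRestrict K₀ σ hσ) x)) := by
  have h := rtk6diwW_coeffHom w hw hM0 hr hrM hζ hL hML σ hσ c hc δ₁ δ₂ hδ₁ hδ₂
    ((rtk6diwW w hw hM0 hr hrM hζ).symm x)
  rw [AlgEquiv.apply_symm_apply] at h
  rw [← h, AlgEquiv.symm_apply_apply]

/-- **`w'⁻¹ σ̂ = δ'_c σ̂ w'⁻¹`** -/
theorem rtk6diwW_symm_coeffHom (hL : L ≠ 0) (hML : M ∣ L) (σ : Qb ≃ₐ[ℚ] Qb)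
    (hσ : ∀ x ∈ K₀, σ x ∈ K₀) (c : (ZMod M)ˣ) (hc : IsCycAt M r σ c)
    (δ₁ : fieldC K₀ L M H ≃ₐ[K₀] fieldC K₀ L M H) (hδ₁ : IsDiamondC ↥K₀ L M H c δ₁)
    (x : fieldC K₀ L M H) :
    (rtk6diwW w hw hM0 hr hrM hζ).symm (rtk6diCoeffHom L M H (mgRestrict K₀ σ hσ) x) =
      δ₁ (rtk6diCoeffHom L M H (mgRestrict K₀ σ hσ)
        ((rtk6diwW w hw hM0 hr hrM hζ).symm x)) := by
  have h := rtk6diwW_galois w hw hM0 hr hrM hζ hL hML σ hσ c hc δ₁ hδ₁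
    ((rtk6diwW w hw hM0 hr hrM hζ).symm x)
  rw [AlgEquiv.apply_symm_apply] at h
  rw [h, AlgEquiv.symm_apply_apply]

/-- **`w'⁻¹ δ'_c = δ'_{c⁻¹} w'⁻¹`** for the diamonds at `r` -/
theorem rtk6diwW_symm_diamond (hL : L ≠ 0) (hML : M ∣ L) (c : (ZMod M)ˣ) (hc : IsAtR M r c)
    (δ₁ δ₂ : fieldC K₀ L M H ≃ₐ[K₀] fieldC K₀ L M H) (hδ₁ : IsDiamondC ↥K₀ L M H c δ₁)
    (hδ₂ : IsDiamondC ↥K₀ L M H c⁻¹ δ₂) (x : fieldC K₀ L M H) :
    (rtk6diwW w hw hM0 hr hrM hζ).symm (δ₁ x) =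
      δ₂ ((rtk6diwW w hw hM0 hr hrM hζ).symm x) := by
  have hc2 : IsAtR M r c⁻¹ := by
    have h3 := hc
    unfold IsAtR at h3 ⊢
    have hM1 : M / r ∣ M := Nat.div_dvd_of_dvd hrM
    haveI : NeZero M := ⟨hM0⟩
    have hcast : ∀ x : ZMod M, ((x.val : ℕ) : ZMod (M / r)) =
        ZMod.castHom hM1 (ZMod (M / r)) x := fun x => by
      rw [ZMod.natCast_val, ZMod.castHom_apply]
    rw [hcast] at h3 ⊢
    have h4 : ZMod.castHom hM1 (ZMod (M / r)) (c : ZMod M) *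
        ZMod.castHom hM1 (ZMod (M / r)) ((c⁻¹ : (ZMod M)ˣ) : ZMod M) = 1 := by
      rw [← map_mul, ← Units.val_mul, mul_inv_cancel, Units.val_one, map_one]
    rw [h3, one_mul] at h4
    exact h4
  have h := rtk6diwW_diamond w hw hM0 hr hrM hζ hL hML c⁻¹ hc2 δ₂ δ₁ hδ₂
    (by rw [inv_inv]; exact hδ₁) ((rtk6diwW w hw hM0 hr hrM hζ).symm x)
  rw [AlgEquiv.apply_symm_apply] at h
  rw [← h, AlgEquiv.symm_apply_apply]

end Rel

end Fermat.Agent.RT.K6
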