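/-
K-machine, piece K6 / D-I (helper82), part 3c = (M1) of `NOTES/RT-K6-D.md` v5/v6, the
commutation relations used for the transport along `γ ∈ Γ` ((M4), (M5)).

* `rtk6df_gam_comm` : `Γ` is commutative (`γ (γ' x) = γ' (γ x)`);
* `rtk6df_gam_comm_diamond` : `γ ∈ Γ` commutes with every diamond;
* `rtk6df_gam_comm_act`, `rtk6df_gam_comm_gal` : `γ ∈ Γ` commutes with the coefficientwise
  action `rtk6diAct σ` / `rtk6diGal σ •` (the diamonds are defined over `ℚ`);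
* `rtk6df_hU` : `x ∈ 𝔪(V c) → ∃ z ∈ V c, x = π * z` for every `c : κ` (the hypothesis `hU` of
  `rtk6glu_dich`, `rtk6glu_cross`, `hunif` of `rtk6gl_ss1_unif_perm`);
* transport of `hgV`-type statements: `rtk6df_val_transport` (if `g` commutes with `γ` and
  preserves the valuation of `W`, it preserves the valuation of `γ⁻¹ W`);
  `rtk6df_sub_transport` (the same for `g x − x ∈ 𝔪`), `rtk6df_stable_transport`.
-/
import Fermat.Agent.RT.K6.DIFamMg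
import Fermat.Agent.RT.K6.DIWRel

set_option autoImplicit false
set_option linter.style.haveILetI false
set_option linter.unusedSectionVars false
set_option linter.unusedVariables false

noncomputable section

namespace Fermat.Agent.RT.K6

open ModularCurve AlgebraicCurve Fermat.Agent.ES Fermat.Agent.ES.G2 Fermat.Agent.INJ
open Fermat.Agent.UNIP Fermat.Agent.ES1 Fermat.Agent.ES1.G2 Fermat.Agent.AL IntermediateField

/-! ### `Γ` is commutative -/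

section Comm

variable {K : Type} [Field K] [CharZero K] [Algebra.IsAlgebraic ℚ K]
  {L M : ℕ} [NeZero M] {H : Subgroup (ZMod M)ˣ}

/-- an element of `Γ` fixing `S_1` is the identity -/
theorem rtk6df_eq_one_of_fix (hL : L ≠ 0) (hML : M ∣ L)
    {γ : ↥(fieldC K L M H) ≃ₐ[K] ↥(fieldC K L M H)} (hγ : γ ∈ rtk6dfGam K L M H)
    (h1 : ((γ ⟨sS K M H 1, rtk6d0_sS_mem K M H hML 1⟩ : ↥(fieldC K L M H)) : LaurentSeries K)
      = sS K M H 1) (x : ↥(fieldC K L M H)) : γ x = x := by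
  letI := kdlAlg (full_le_fieldC K L M H)
  obtain ⟨-, -, hone, -⟩ := rtk6d0_galois K H hL hML
  have h := hone (rtk6dfToAlg γ hγ) h1
  have h2 := congrArg (fun f : ↥(fieldC K L M H) ≃ₐ[↥(modularFunctionFieldFullC K L)]
    ↥(fieldC K L M H) => f x) h
  exact h2

/-- two elements of `Γ` with the same value on `S_1` are equal -/
theorem rtk6df_eq_of_S1 (hL : L ≠ 0) (hML : M ∣ L)
    {γ γ' : ↥(fieldC K L M H) ≃ₐ[K] ↥(fieldC K L M H)} (hγ : γ ∈ rtk6dfGam K L M H)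
    (hγ' : γ' ∈ rtk6dfGam K L M H)
    (h1 : γ ⟨sS K M H 1, rtk6d0_sS_mem K M H hML 1⟩ =
      γ' ⟨sS K M H 1, rtk6d0_sS_mem K M H hML 1⟩) (x : ↥(fieldC K L M H)) : γ x = γ' x := by
  have hτ : γ'⁻¹ * γ ∈ rtk6dfGam K L M H :=
    (rtk6dfGam K L M H).mul_mem ((rtk6dfGam K L M H).inv_mem hγ') hγ
  have h2 := rtk6df_eq_one_of_fix hL hML hτ (by
    rw [AlgEquiv.mul_apply, h1]
    show ((γ'.symm (γ' _) : ↥(fieldC K L M H)) : LaurentSeries K) = _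
    rw [AlgEquiv.symm_apply_apply]) x
  rw [AlgEquiv.mul_apply] at h2
  have h3 := congrArg γ' h2
  rw [show γ' (γ'⁻¹ (γ x)) = γ x from γ'.apply_symm_apply _] at h3
  exact h3

/-- the composite of two diamonds on `S_1` -/
theorem rtk6df_diamond_comp_S1 (hML : M ∣ L) {c c' : (ZMod M)ˣ}
    {δ δ' : ↥(fieldC K L M H) ≃ₐ[K] ↥(fieldC K L M H)}
    (hδ : IsDiamondC K L M H c δ) (hδ' : IsDiamondC K L M H c' δ') :
    δ (δ' ⟨sS K M H 1, rtk6d0_sS_mem K M H hML 1⟩) =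
      ⟨sS K M H (c' * c), rtk6d0_sS_mem K M H hML (c' * c)⟩ := by
  have e1 : δ' ⟨sS K M H 1, rtk6d0_sS_mem K M H hML 1⟩ =
      ⟨sS K M H c', rtk6d0_sS_mem K M H hML c'⟩ :=
    Subtype.ext (by rw [hδ'.map_sS hML 1, one_mul])
  rw [e1]
  exact Subtype.ext (hδ.map_sS hML c')

/-- **diamonds commute** -/
theorem rtk6df_diamond_comm (hL : L ≠ 0) (hML : M ∣ L) {c c' : (ZMod M)ˣ}
    {δ δ' : ↥(fieldC K L M H) ≃ₐ[K] ↥(fieldC K L M H)}
    (hδ : IsDiamondC K L M H c δ) (hδ' : IsDiamondC K L M H c' δ') (x : ↥(fieldC K L M H)) :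
    δ (δ' x) = δ' (δ x) := by
  have h := rtk6df_eq_of_S1 hL hML
    ((rtk6dfGam K L M H).mul_mem hδ.mem_gam hδ'.mem_gam)
    ((rtk6dfGam K L M H).mul_mem hδ'.mem_gam hδ.mem_gam) (by
      rw [AlgEquiv.mul_apply, AlgEquiv.mul_apply, rtk6df_diamond_comp_S1 hML hδ hδ',
        rtk6df_diamond_comp_S1 hML hδ' hδ, mul_comm c' c]) x
  rwa [AlgEquiv.mul_apply, AlgEquiv.mul_apply] at h

/-- **`Γ` is commutative** -/
theorem rtk6df_gam_comm (hL : L ≠ 0) (hML : M ∣ L)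
    {γ γ' : ↥(fieldC K L M H) ≃ₐ[K] ↥(fieldC K L M H)} (hγ : γ ∈ rtk6dfGam K L M H)
    (hγ' : γ' ∈ rtk6dfGam K L M H) (x : ↥(fieldC K L M H)) : γ (γ' x) = γ' (γ x) := by
  obtain ⟨c, hc⟩ := rtk6df_isDiamond hL hML hγ
  obtain ⟨c', hc'⟩ := rtk6df_isDiamond hL hML hγ'
  exact rtk6df_diamond_comm hL hML hc hc' x

/-- `γ ∈ Γ` commutes with every diamond -/
theorem rtk6df_gam_comm_diamond (hL : L ≠ 0) (hML : M ∣ L)
    {γ : ↥(fieldC K L M H) ≃ₐ[K] ↥(fieldC K L M H)} (hγ : γ ∈ rtk6dfGam K L M H)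
    {c : (ZMod M)ˣ} {δ : ↥(fieldC K L M H) ≃ₐ[K] ↥(fieldC K L M H)}
    (hδ : IsDiamondC K L M H c δ) (x : ↥(fieldC K L M H)) : γ (δ x) = δ (γ x) :=
  rtk6df_gam_comm hL hML hγ hδ.mem_gam x

end Comm

/-! ### `Γ` commutes with the coefficientwise Galois action -/

section Act

variable {K₀ : IntermediateField ℚ Qb} {L M : ℕ} {H : Subgroup (ZMod M)ˣ}

/-- `γ ∈ Γ` commutes with the coefficientwise action of `σ` -/
theorem rtk6df_gam_comm_coeffHom (hL : L ≠ 0) (hML : M ∣ L)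
    {γ : ↥(fieldC ↥K₀ L M H) ≃ₐ[↥K₀] ↥(fieldC ↥K₀ L M H)}
    (hγ : γ ∈ rtk6dfGam ↥K₀ L M H) (σ : Qb ≃ₐ[ℚ] Qb) (hσ : ∀ x ∈ K₀, σ x ∈ K₀)
    (x : ↥(fieldC ↥K₀ L M H)) :
    γ (rtk6diCoeffHom L M H (mgRestrict K₀ σ hσ) x) =
      rtk6diCoeffHom L M H (mgRestrict K₀ σ hσ) (γ x) := by
  haveI : Algebra.IsAlgebraic ℚ Qb := AlgebraicClosure.isAlgebraic ℚ
  haveI : Algebra.IsAlgebraic ℚ ↥K₀ :=
    Algebra.IsAlgebraic.of_injective K₀.val Subtype.val_injective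
  haveI : NeZero M := ⟨fun h0 => hL (Nat.eq_zero_of_zero_dvd (h0 ▸ hML))⟩
  obtain ⟨c, hc⟩ := rtk6df_isDiamond hL hML hγ
  exact rtk6diw_diamond_coeffHom hL hML hc σ hσ x

end Act

section ActConcrete

variable {A : ValuationSubring Qb} {K₁ : IntermediateField ℚ Qb}
  {L M : ℕ} {H : Subgroup (ZMod M)ˣ}

/-- `γ ∈ Γ` commutes with `rtk6diAct σ` -/
theorem rtk6df_gam_comm_act (hL : L ≠ 0) (hML : M ∣ L)
    {γ : ↥(rtk6diF A K₁ L M H) ≃ₐ[↥(mgcE A K₁)] ↥(rtk6diF A K₁ L M H)}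
    (hγ : γ ∈ rtk6dfGam ↥(mgcE A K₁) L M H) (σ : Qb ≃ₐ[ℚ] Qb)
    (hσ : ∀ x ∈ mgcE A K₁, σ x ∈ mgcE A K₁) (x : ↥(rtk6diF A K₁ L M H)) :
    γ (rtk6diAct L M H σ hσ x) = rtk6diAct L M H σ hσ (γ x) :=
  rtk6df_gam_comm_coeffHom hL hML hγ σ hσ x

/-- `γ ∈ Γ` commutes with `rtk6diGal σ •` -/
theorem rtk6df_gam_comm_gal (hL : L ≠ 0) (hML : M ∣ L)
    {γ : ↥(rtk6diF A K₁ L M H) ≃ₐ[↥(mgcE A K₁)] ↥(rtk6diF A K₁ L M H)}
    (hγ : γ ∈ rtk6dfGam ↥(mgcE A K₁) L M H) (σ : Qb ≃ₐ[ℚ] Qb)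
    (hσ : ∀ x ∈ mgcE A K₁, σ x ∈ mgcE A K₁) (x : ↥(rtk6diF A K₁ L M H)) :
    γ (rtk6diGal L M H σ hσ • x) = rtk6diGal L M H σ hσ • γ x :=
  rtk6df_gam_comm_coeffHom hL hML hγ σ hσ x

end ActConcrete

/-! ### Transport of the stability statements along `γ` -/

section Transport

variable {K : Type} [Field K] {L M : ℕ} {H : Subgroup (ZMod M)ˣ}

/-- if `g` commutes with `γ` and `v_W (g f / f) = 1` for all `f ≠ 0`, the same holds for
`γ⁻¹ W` -/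
theorem rtk6df_val_transport (W : ValuationSubring ↥(fieldC K L M H))
    (γ : ↥(fieldC K L M H) ≃ₐ[K] ↥(fieldC K L M H))
    (g : ↥(fieldC K L M H) → ↥(fieldC K L M H)) (hcomm : ∀ x, γ (g x) = g (γ x))
    (hg : ∀ f : ↥(fieldC K L M H), f ≠ 0 → W.valuation (g f / f) = 1)
    (f : ↥(fieldC K L M H)) (hf : f ≠ 0) : (rtk6dfCo W γ).valuation (g f / f) = 1 := by
  rw [rtk6df_val_comap_eq_one_iff, map_div₀, hcomm]
  exact hg (γ f) ((map_ne_zero γ).mpr hf)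

/-- if `g` commutes with `γ` and `g x − x ∈ 𝔪(W)` for `x ∈ W`, the same holds for `γ⁻¹ W` -/
theorem rtk6df_sub_transport (W : ValuationSubring ↥(fieldC K L M H))
    (γ : ↥(fieldC K L M H) ≃ₐ[K] ↥(fieldC K L M H))
    (g : ↥(fieldC K L M H) → ↥(fieldC K L M H)) (hcomm : ∀ x, γ (g x) = g (γ x))
    (hg : ∀ x ∈ W, g x - x ∈ W.nonunits)
    (x : ↥(fieldC K L M H)) (hx : x ∈ rtk6dfCo W γ) : g x - x ∈ (rtk6dfCo W γ).nonunits := by
  rw [mem_nonunits_rtk6dfCo, map_sub, hcomm]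
  exact hg (γ x) hx

/-- if `g` commutes with `γ` and `g W ⊆ W`, then `g (γ⁻¹ W) ⊆ γ⁻¹ W` -/
theorem rtk6df_stable_transport (W : ValuationSubring ↥(fieldC K L M H))
    (γ : ↥(fieldC K L M H) ≃ₐ[K] ↥(fieldC K L M H))
    (g : ↥(fieldC K L M H) → ↥(fieldC K L M H)) (hcomm : ∀ x, γ (g x) = g (γ x))
    (hg : ∀ x ∈ W, g x ∈ W)
    (x : ↥(fieldC K L M H)) (hx : x ∈ rtk6dfCo W γ) : g x ∈ rtk6dfCo W γ := by
  rw [mem_rtk6dfCo, hcomm]
  exact hg (γ x) hx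

/-- the same for the maximal ideals -/
theorem rtk6df_nonunits_transport (W : ValuationSubring ↥(fieldC K L M H))
    (γ : ↥(fieldC K L M H) ≃ₐ[K] ↥(fieldC K L M H))
    (g : ↥(fieldC K L M H) → ↥(fieldC K L M H)) (hcomm : ∀ x, γ (g x) = g (γ x))
    (hg : ∀ x ∈ W.nonunits, g x ∈ W.nonunits)
    (x : ↥(fieldC K L M H)) (hx : x ∈ (rtk6dfCo W γ).nonunits) :
    g x ∈ (rtk6dfCo W γ).nonunits := by
  rw [mem_nonunits_rtk6dfCo, hcomm]
  exact hg (γ x) (mem_nonunits_rtk6dfCo.mp hx)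

end Transport

/-! ### `hU` -/

section HU

variable {F : Type*} [Field F]

/-- a uniformizer divides the maximal ideal -/
theorem rtk6df_hU_abs (W : ValuationSubring F) {ϖ : F} (hϖ0 : ϖ ≠ 0) (hϖ : ϖ ∈ W.nonunits)
    (hunif : ∀ f : F, f ≠ 0 → ∃ n : ℤ, W.valuation (f * ϖ ^ n) = 1)
    (x : F) (hx : x ∈ W.nonunits) : ∃ z ∈ W, x = ϖ * z := by
  by_cases hx0 : x = 0
  · exact ⟨0, W.zero_mem, by rw [hx0, mul_zero]⟩
  obtain ⟨n, hn⟩ := hunif x hx0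
  have hvx : W.valuation x < 1 := (ValuationSubring.mem_nonunits_iff (A := W)).mp hx
  have hvϖ : W.valuation ϖ < 1 := (ValuationSubring.mem_nonunits_iff (A := W)).mp hϖ
  have hvϖ0 : W.valuation ϖ ≠ 0 := (Valuation.ne_zero_iff _).mpr hϖ0
  refine ⟨x / ϖ, ?_, by field_simp⟩
  rw [← W.valuation_le_one_iff]
  cases n with
  | ofNat k =>
    exfalso
    rw [Int.ofNat_eq_natCast, zpow_natCast, map_mul, map_pow] at hn
    have h1 : W.valuation ϖ ^ k ≤ 1 := pow_le_one₀ zero_le hvϖ.le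
    have h2 : W.valuation x * W.valuation ϖ ^ k < 1 :=
      calc W.valuation x * W.valuation ϖ ^ k ≤ W.valuation x * 1 := by gcongr
        _ = W.valuation x := mul_one _
        _ < 1 := hvx
    rw [hn] at h2
    exact lt_irrefl _ h2
  | negSucc k =>
    have e : x / ϖ = (x * ϖ ^ (Int.negSucc k)) * ϖ ^ k := by
      rw [zpow_negSucc, pow_succ]
      field_simp
    rw [e, map_mul, hn, one_mul, map_pow]
    exact pow_le_one₀ zero_le hvϖ.le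

end HU

section HUConcrete

variable {A : ValuationSubring Qb} {K₁ : IntermediateField ℚ Qb}
  [IsDiscreteValuationRing ↥(mgcA A K₁)] {π : ↥(mgcA A K₁)} (hπ : Irreducible π)
  {q M₁ : ℕ} [NeZero q] [NeZero M₁] [NeZero (M₁ * q)]
  (M : ℕ) (H : Subgroup (ZMod M)ˣ)
  (w : ↥(rtk6diF A K₁ (M₁ * q) M H) ≃ₐ[↥(mgcE A K₁)] ↥(rtk6diF A K₁ (M₁ * q) M H))

/-- **`hU`**: `π` generates the maximal ideal of every `V c` -/
theorem rtk6df_hU (c : rtk6dfK hπ M H w) (x : ↥(rtk6diF A K₁ (M₁ * q) M H))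
    (hx : x ∈ (rtk6dfV hπ M H w c).nonunits) :
    ∃ z ∈ rtk6dfV hπ M H w c,
      x = algebraMap ↥(mgcA A K₁) ↥(rtk6diF A K₁ (M₁ * q) M H) π * z :=
  rtk6df_hU_abs (rtk6dfV hπ M H w c) (ei_algebraMap_ne_zero (E := ↥(mgcE A K₁)) hπ)
    (rtk6df_hπV hπ M H w c) (fun f hf => rtk6df_hunif hπ M H w c hf) x hx

/-- the form `x / π ∈ V c` -/
theorem rtk6df_hunif_div (c : rtk6dfK hπ M H w) (x : ↥(rtk6diF A K₁ (M₁ * q) M H))
    (hx : x ∈ (rtk6dfV hπ M H w c).nonunits) :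
    x / algebraMap ↥(mgcA A K₁) ↥(rtk6diF A K₁ (M₁ * q) M H) π ∈ rtk6dfV hπ M H w c := by
  obtain ⟨z, hz, rfl⟩ := rtk6df_hU hπ M H w c x hx
  rw [mul_div_cancel_left₀ _ (ei_algebraMap_ne_zero (E := ↥(mgcE A K₁)) hπ)]
  exact hz

end HUConcrete

end Fermat.Agent.RT.K6
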