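/-
K-machine, piece K6, piece **C4-U-inst (B)** (helper81), FINAL form of the case (U): the
provider `hNode` of `rtk6ei_geomUnip_of_pieces` (`RT/K6/EInstGlue.lean`), hence
`StmtRtk6GeomUnip` and `StmtUnipHRig`, from (C4-U-inst) (A) ALONE — the dichotomy
`Rtk6ewmNodeAt V₁ 𝔫₁ id ϖ₁` on the two charts of `F₁ = rtk6diF A K₁′ (M₁ q) M H` over
`A₁ = mgcA A K₁′` at the unramified level `K₁′ = rtk6ebK q 1`.

Inside: (W1) `rtk6w1_commK_of_hat`, (M1) `rtk6m1_emFam`, (SS1-inst) `rtk6eiu_stmtSS1Gen`,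
(HRED)+(D-BC) `rtk6dbc_hred_zch`, `rtk6dbc_chart_t/_tinv`, (E-BASE) `rtk6ebQ_*`, `rtk6eb_isDVR`,
(FAM-res) (R2) `rtk6frf_hR2_E`, (R3) `rtk6c4b_node`, (FIX-U) `rtk6eiu_hFix`.

* `Rtk6c4bAsm` : the statement (A) at `(q, M₁, M, H, w₀, A)`, for ONE uniformizer `ϖ₁` of
  `A₁` and `w₁ = rtk6diwEquiv w₀ hcomm`;
* `rtk6c4b_hNode_unip` : (A) → the provider `hNode`, literal shape;
* `rtk6c4b_geomUnip` : (A) → `StmtRtk6GeomUnip`;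
* `rtk6c4b_stmtUnipHRig` : (A) → `StmtUnipHRig`;
* `rtk6c4b_asm_of_charts` : (A) from its two charts, each for all uniformizers `ϖ₁`
  associated to `q` (the uniformizer is `q` itself).
-/
import Fermat.Agent.RT.K6.C4InstBEv
import Fermat.Agent.RT.K6.FamResFam
import Fermat.Agent.RT.K6.DBCSS1
import Fermat.Agent.RT.K6.EInstUS

set_option autoImplicit false
set_option linter.style.haveILetI false
set_option linter.unusedSectionVars false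
set_option linter.unusedVariables false
set_option linter.style.longLine false

noncomputable section

namespace Fermat.Agent.RT.K6

open ModularCurve AlgebraicCurve Fermat.Agent.ES Fermat.Agent.ES.G2 Fermat.Agent.INJ
open Fermat.Agent.UNIP Fermat.Agent.STB Fermat.Agent.ES1 Fermat.Agent.ES1.G2 IntermediateField

/-- **(C4-U-inst) (A)** at `(q, M₁, M, H, w₀, A)`: for SOME uniformizer `ϖ₁` of
`A₁ = mgcA A (rtk6ebK q 1)`, every point of the special fibre of the two charts `t₁`, `t₁⁻¹`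
of `F₁` over `A₁` is a smooth point or a thin node of the family
`V₁ = rtk6dfV hϖ₁ M H (rtk6diwEquiv w₀ hcomm)`. -/
def Rtk6c4bAsm (q M₁ : ℕ) [NeZero q] [NeZero M₁] [NeZero (M₁ * q)] (M : ℕ)
    (H : Subgroup (ZMod M)ˣ) (w₀ : fieldBar (M₁ * q) M H ≃ₐ[Qb] fieldBar (M₁ * q) M H)
    (A : ValuationSubring Qb) [IsDiscreteValuationRing ↥(mgcA A (rtk6ebK q 1))]
    (hcomm : RtkCommK (mgcE A (rtk6ebK q 1)) w₀) : Prop :=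
  ∃ (ϖ₁ : ↥(mgcA A (rtk6ebK q 1))) (hϖ₁ : Irreducible ϖ₁),
    (∀ 𝔫₁ : AtPt (F := ↥(rtk6diF A (rtk6ebK q 1) (M₁ * q) M H)) ϖ₁
        (rtk6diT A (rtk6ebK q 1) (M₁ * q) M H),
      Rtk6ewmNodeAt (rtk6dfV hϖ₁ M H (rtk6diwEquiv (K₀ := mgcE A (rtk6ebK q 1)) w₀ hcomm)) 𝔫₁
        (RingHom.id _)
        (algebraMap ↥(mgcA A (rtk6ebK q 1)) ↥(zchClosure (A₀ := ↥(mgcA A (rtk6ebK q 1)))
          ({rtk6diT A (rtk6ebK q 1) (M₁ * q) M H} :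
            Set ↥(rtk6diF A (rtk6ebK q 1) (M₁ * q) M H))) ϖ₁)) ∧
    (∀ 𝔫₁ : AtPt (F := ↥(rtk6diF A (rtk6ebK q 1) (M₁ * q) M H)) ϖ₁
        (rtk6diT A (rtk6ebK q 1) (M₁ * q) M H)⁻¹,
      Rtk6ewmNodeAt (rtk6dfV hϖ₁ M H (rtk6diwEquiv (K₀ := mgcE A (rtk6ebK q 1)) w₀ hcomm)) 𝔫₁
        (RingHom.id _)
        (algebraMap ↥(mgcA A (rtk6ebK q 1)) ↥(zchClosure (A₀ := ↥(mgcA A (rtk6ebK q 1)))
          ({(rtk6diT A (rtk6ebK q 1) (M₁ * q) M H)⁻¹} :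
            Set ↥(rtk6diF A (rtk6ebK q 1) (M₁ * q) M H))) ϖ₁))

/-- **(A) from its two charts**, each given for ALL uniformizers `ϖ₁` of `A₁` associated to
`q` (the level `rtk6ebK q 1` is unramified): the uniformizer is `q` itself. -/
theorem rtk6c4b_asm_of_charts {q M₁ : ℕ} [NeZero q] [NeZero M₁] [NeZero (M₁ * q)] {M : ℕ}
    {H : Subgroup (ZMod M)ˣ} (hq : q.Prime)
    (w₀ : fieldBar (M₁ * q) M H ≃ₐ[Qb] fieldBar (M₁ * q) M H)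
    {A : ValuationSubring Qb} (hA : A.LiesOverPrime q)
    [IsDiscreteValuationRing ↥(mgcA A (rtk6ebK q 1))]
    (hcomm : RtkCommK (mgcE A (rtk6ebK q 1)) w₀)
    (h₁ : ∀ {ϖ₁ : ↥(mgcA A (rtk6ebK q 1))} (hϖ₁ : Irreducible ϖ₁),
      Associated ((q : ℕ) : ↥(mgcA A (rtk6ebK q 1))) ϖ₁ →
      ∀ 𝔫₁ : AtPt (F := ↥(rtk6diF A (rtk6ebK q 1) (M₁ * q) M H)) ϖ₁
        (rtk6diT A (rtk6ebK q 1) (M₁ * q) M H),
      Rtk6ewmNodeAt (rtk6dfV hϖ₁ M H (rtk6diwEquiv (K₀ := mgcE A (rtk6ebK q 1)) w₀ hcomm)) 𝔫₁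
        (RingHom.id _)
        (algebraMap ↥(mgcA A (rtk6ebK q 1)) ↥(zchClosure (A₀ := ↥(mgcA A (rtk6ebK q 1)))
          ({rtk6diT A (rtk6ebK q 1) (M₁ * q) M H} :
            Set ↥(rtk6diF A (rtk6ebK q 1) (M₁ * q) M H))) ϖ₁))
    (h₂ : ∀ {ϖ₁ : ↥(mgcA A (rtk6ebK q 1))} (hϖ₁ : Irreducible ϖ₁),
      Associated ((q : ℕ) : ↥(mgcA A (rtk6ebK q 1))) ϖ₁ →
      ∀ 𝔫₁ : AtPt (F := ↥(rtk6diF A (rtk6ebK q 1) (M₁ * q) M H)) ϖ₁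
        (rtk6diT A (rtk6ebK q 1) (M₁ * q) M H)⁻¹,
      Rtk6ewmNodeAt (rtk6dfV hϖ₁ M H (rtk6diwEquiv (K₀ := mgcE A (rtk6ebK q 1)) w₀ hcomm)) 𝔫₁
        (RingHom.id _)
        (algebraMap ↥(mgcA A (rtk6ebK q 1)) ↥(zchClosure (A₀ := ↥(mgcA A (rtk6ebK q 1)))
          ({(rtk6diT A (rtk6ebK q 1) (M₁ * q) M H)⁻¹} :
            Set ↥(rtk6diF A (rtk6ebK q 1) (M₁ * q) M H))) ϖ₁)) :
    Rtk6c4bAsm q M₁ M H w₀ A hcomm := by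
  have hϖ : ((q : ℕ) : Qb) ^ 1 = ((q : ℕ) : Qb) := pow_one _
  have hdr : ¬ q ∣ 1 := fun h => hq.one_lt.ne' (Nat.dvd_one.mp h)
  have hirr := rtk6ebVarpi_irreducible hq hA one_ne_zero hdr hϖ
  have hass : Associated ((q : ℕ) : ↥(mgcA A (rtk6ebK q 1)))
      (rtk6ebVarpi hA one_ne_zero hϖ) := by
    have e := rtk6ebVarpi_pow hA one_ne_zero hϖ
    rw [pow_one] at e
    rw [e]
  exact ⟨rtk6ebVarpi hA one_ne_zero hϖ, hirr, h₁ hirr hass, h₂ hirr hass⟩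

/-- **The provider `hNode` of `rtk6ei_geomUnip_of_pieces`** (literal shape) from (A). -/
theorem rtk6c4b_hNode_unip
    (hAsm : ∀ (q M₁ : ℕ) [NeZero q] [NeZero M₁] [NeZero (M₁ * q)] (M : ℕ)
      (H : Subgroup (ZMod M)ˣ) (hq : q.Prime) (hqM' : q ∣ M) (hM0 : M ≠ 0), ¬ q ∣ M₁ →
      M ∣ M₁ * q → (∀ c : (ZMod M)ˣ, IsAtR M q c → c ∈ pmH H) → IsTameAt (M₁ * q) M q H →
      4 ∣ M₁ * q →
      ∀ (w₀ : fieldBar (M₁ * q) M H ≃ₐ[Qb] fieldBar (M₁ * q) M H)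
        (hw₀ : IsWAt (M₁ * q) M H q w₀) (A : ValuationSubring Qb), A.LiesOverPrime q →
      ∀ [IsDiscreteValuationRing ↥(mgcA A (rtk6ebK q 1))]
        (hcomm : RtkCommK (mgcE A (rtk6ebK q 1)) w₀), Rtk6c4bAsm q M₁ M H w₀ A hcomm) :
    ∀ (q M₁ : ℕ) [NeZero q] [NeZero M₁] [NeZero (M₁ * q)] (M : ℕ)
      (H : Subgroup (ZMod M)ˣ) (hq : q.Prime) (hqM' : q ∣ M) (hM0 : M ≠ 0), ¬ q ∣ M₁ →
      M ∣ M₁ * q → (∀ c : (ZMod M)ˣ, IsAtR M q c → c ∈ pmH H) → IsTameAt (M₁ * q) M q H →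
      4 ∣ M₁ * q →
      ∀ (w₀ : fieldBar (M₁ * q) M H ≃ₐ[Qb] fieldBar (M₁ * q) M H)
        (hw₀ : IsWAt (M₁ * q) M H q w₀) (A : ValuationSubring Qb), A.LiesOverPrime q →
        Rtk6eiEv q A (fun K₁ _ hζ π hπ => Rtk6emNode A K₁ (M₁ * q) M H π
          (rtk6dfV hπ M H (rtk6diwW (K₀ := mgcE A K₁) w₀ hw₀ hM0 hq hqM' hζ))) := by
  intro q M₁ _ _ _ M H hq hqM' hM0 hqM hML hat htame h4 w₀ hw₀ A hA
  haveI : IsDiscreteValuationRing ↥(mgcA A (rtk6ebK q 1)) := rtk6eb_isDVR hq hA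
  have hcomm : RtkCommK (mgcE A (rtk6ebK q 1)) w₀ :=
    rtk6w1_commK_of_hat hw₀ hM0 hq hqM' (rtk6eiu_not_sq_dvd hq hqM hML) A hA hat le_sup_left
  obtain ⟨ϖ₁, hϖ₁, hA₁, hA₂⟩ :=
    hAsm q M₁ M H hq hqM' hM0 hqM hML hat htame h4 w₀ hw₀ A hA hcomm
  have hwI := rtk6w1_wIncl w₀ hw₀ hcomm hq (mgdIota (mgcE A (rtk6ebK q 1))) hqM
  have fam := rtk6m1_emFam hϖ₁ (mgdIota (mgcE A (rtk6ebK q 1))) hq hqM hwI hA hML
  have ss1 := rtk6eiu_stmtSS1Gen q M₁ M H hq hqM hML htame h4 A hA (rtk6ebK q 1) hϖ₁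
    (mgdIota (mgcE A (rtk6ebK q 1))) _ hwI
  exact rtk6c4b_ev (rtk6ebK q 1) hϖ₁ (rtk6diwEquiv (K₀ := mgcE A (rtk6ebK q 1)) w₀ hcomm)
    hq hqM' hM0 hML w₀ hw₀ hA
    (rtk6dbc_hred_zch (A₀ := ↥(mgcA A (rtk6ebK q 1)))
      (rtk6diT A (rtk6ebK q 1) (M₁ * q) M H) _ fam.hBV₁ fam.hπV ss1)
    (rtk6dbc_hred_zch (A₀ := ↥(mgcA A (rtk6ebK q 1)))
      (rtk6diT A (rtk6ebK q 1) (M₁ * q) M H)⁻¹ _ fam.hBV₂ fam.hπV
      (rtk6hr_ss1_inv hϖ₁ (NeZero.ne (M₁ * q)) hML fam ss1))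
    (fun K₁ _ _ _ h hζ π hπ =>
      rtk6frf_hR2_E hϖ₁ hπ w₀
        (IntermediateField.inclusion (rtk6eb_mgcE_mono (A := A) h)).toRingHom
        (fun _ => rfl) hcomm (hw₀.commK hM0 hq hqM' hζ) hML)
    hA₁ hA₂

/-- **Case (U): `StmtRtk6GeomUnip` from (A) alone.** -/
theorem rtk6c4b_geomUnip
    (hAsm : ∀ (q M₁ : ℕ) [NeZero q] [NeZero M₁] [NeZero (M₁ * q)] (M : ℕ)
      (H : Subgroup (ZMod M)ˣ) (hq : q.Prime) (hqM' : q ∣ M) (hM0 : M ≠ 0), ¬ q ∣ M₁ →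
      M ∣ M₁ * q → (∀ c : (ZMod M)ˣ, IsAtR M q c → c ∈ pmH H) → IsTameAt (M₁ * q) M q H →
      4 ∣ M₁ * q →
      ∀ (w₀ : fieldBar (M₁ * q) M H ≃ₐ[Qb] fieldBar (M₁ * q) M H)
        (hw₀ : IsWAt (M₁ * q) M H q w₀) (A : ValuationSubring Qb), A.LiesOverPrime q →
      ∀ [IsDiscreteValuationRing ↥(mgcA A (rtk6ebK q 1))]
        (hcomm : RtkCommK (mgcE A (rtk6ebK q 1)) w₀), Rtk6c4bAsm q M₁ M H w₀ A hcomm) :
    StmtRtk6GeomUnip :=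
  rtk6eiu_geomUnip_of_node (rtk6c4b_hNode_unip hAsm)

/-- **Case (U): `StmtUnipHRig` from (A) alone.** -/
theorem rtk6c4b_stmtUnipHRig
    (hAsm : ∀ (q M₁ : ℕ) [NeZero q] [NeZero M₁] [NeZero (M₁ * q)] (M : ℕ)
      (H : Subgroup (ZMod M)ˣ) (hq : q.Prime) (hqM' : q ∣ M) (hM0 : M ≠ 0), ¬ q ∣ M₁ →
      M ∣ M₁ * q → (∀ c : (ZMod M)ˣ, IsAtR M q c → c ∈ pmH H) → IsTameAt (M₁ * q) M q H →
      4 ∣ M₁ * q →
      ∀ (w₀ : fieldBar (M₁ * q) M H ≃ₐ[Qb] fieldBar (M₁ * q) M H)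
        (hw₀ : IsWAt (M₁ * q) M H q w₀) (A : ValuationSubring Qb), A.LiesOverPrime q →
      ∀ [IsDiscreteValuationRing ↥(mgcA A (rtk6ebK q 1))]
        (hcomm : RtkCommK (mgcE A (rtk6ebK q 1)) w₀), Rtk6c4bAsm q M₁ M H w₀ A hcomm) :
    StmtUnipHRig :=
  rtk6eiu_stmtUnipHRig_of_node (rtk6c4b_hNode_unip hAsm)

end Fermat.Agent.RT.K6
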