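/-
K-machine, piece K6, piece **D-ET** (helper60): étale Kummer covers of a normal chart.

Pure algebra (Mathlib only).  `R` an integrally closed domain, `K = Frac R`, `L = K(t)` with
`t ^ d = ε ∈ R`, `𝔫` a maximal ideal of `R` with `d, ε ∉ 𝔫` (a closed point at which the Kummer
generator is a `d`-th root of a unit, `d` prime to the residue characteristic), `B` the integral
closure of `R` in `L`.  Then `B` is étale over `R` at `𝔫`, in element form:

* `rtk6et_poly_sep`  : (polynomials) a prime `P ⊇ 𝔫[X]` of `R[X]` containing `F = X ^ d - ε`: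
  every `q ∈ P` has `h q ∈ 𝔫[X] + (F)` for some `h ∉ P`   (`F mod 𝔫` is separable).
* `rtk6et_discr`     : there is `D ∈ R`, `D ∉ 𝔫`, with `D • z ∈ R[t]` for all `z ∈ L` integral over
  `R` (the discriminant of `1, t, …`: its `d`-th power divides a power of `d ε`).
* `rtk6et_locGen`    : for a prime `𝔫'` of `B` above `𝔫`: `∀ b ∈ 𝔫', ∃ u ∉ 𝔫', u * b ∈ 𝔫 B`
  (`𝔫'` is generated by `𝔫` locally at `𝔫'`).
* `rtk6et_locGen_of_span` : hence local generators `T` of `𝔫` are local generators of `𝔫'`.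
* `rtk6et_integral_mem_adjoin` : the local case (`d`, `ε` units): the integral closure is `R[t]`.
-/
import Mathlib

set_option autoImplicit false
set_option linter.style.haveILetI false

namespace Fermat.Agent.RT.K6

open Polynomial

/-! ### Polynomials: separation modulo a maximal ideal -/

section Poly

variable {R : Type*} [CommRing R]

/-- `𝔫` maximal, `d, ε ∉ 𝔫`, `P` a prime of `R[X]` containing `𝔫[X]` and `F = X ^ d - ε`.  Then
`P` is generated by `𝔫[X]` and `F` locally at `P`. -/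
theorem rtk6et_poly_sep (𝔫 : Ideal R) [h𝔫 : 𝔫.IsMaximal] (d : ℕ) (hd : (d : R) ∉ 𝔫)
    (ε : R) (hε : ε ∉ 𝔫) (P : Ideal R[X]) [hP : P.IsPrime] (hnP : Ideal.map C 𝔫 ≤ P)
    (hF : X ^ d - C ε ∈ P) :
    ∀ q ∈ P, ∃ h : R[X], h ∉ P ∧
      h * q ∈ Ideal.map (C : R →+* R[X]) 𝔫 ⊔ Ideal.span {X ^ d - C ε} := by
  letI : Field (R ⧸ 𝔫) := Ideal.Quotient.field 𝔫
  set π : R[X] →+* (R ⧸ 𝔫)[X] := mapRingHom (Ideal.Quotient.mk 𝔫) with hπ
  have hπs : Function.Surjective π := map_surjective _ Ideal.Quotient.mk_surjective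
  have hker : RingHom.ker π = Ideal.map (C : R →+* R[X]) 𝔫 := by
    rw [hπ, ker_mapRingHom, Ideal.mk_ker]
  have hkerP : RingHom.ker π ≤ P := hker ▸ hnP
  haveI hPbar : (P.map π).IsPrime := Ideal.map_isPrime_of_surjective hπs hkerP
  have hmem : ∀ q : R[X], π q ∈ P.map π ↔ q ∈ P := by
    intro q
    constructor
    · intro hq
      have : q ∈ (P.map π).comap π := hq
      rw [Ideal.comap_map_of_surjective π hπs] at this
      have hle : P ⊔ Ideal.comap π ⊥ ≤ P := sup_le le_rfl hkerP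
      exact hle this
    · exact fun hq => Ideal.mem_map_of_mem π hq
  -- the reduction of `F`
  have hdk : ((d : ℕ) : R ⧸ 𝔫) ≠ 0 := by
    intro h
    apply hd
    rw [← Ideal.Quotient.eq_zero_iff_mem, map_natCast]
    exact h
  have hεk : Ideal.Quotient.mk 𝔫 ε ≠ 0 := by
    intro h
    exact hε (Ideal.Quotient.eq_zero_iff_mem.1 h)
  have hFbar : π (X ^ d - C ε) = X ^ d - C (Ideal.Quotient.mk 𝔫 ε) := by
    simp [hπ]
  have hsep : (X ^ d - C (Ideal.Quotient.mk 𝔫 ε) : (R ⧸ 𝔫)[X]).Separable :=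
    separable_X_pow_sub_C _ hdk hεk
  have hFne : (X ^ d - C (Ideal.Quotient.mk 𝔫 ε) : (R ⧸ 𝔫)[X]) ≠ 0 := hsep.ne_zero
  have hFmem : (X ^ d - C (Ideal.Quotient.mk 𝔫 ε) : (R ⧸ 𝔫)[X]) ∈ P.map π := by
    rw [← hFbar]
    exact Ideal.mem_map_of_mem π hF
  -- the generator of the reduction of `P`
  obtain ⟨g, hg⟩ := (IsPrincipalIdealRing.principal (P.map π)).principal
  have hg' : P.map π = Ideal.span {g} := by
    rw [hg]
  have hgne : g ≠ 0 := by
    rintro rfl
    rw [hg', Ideal.mem_span_singleton, zero_dvd_iff] at hFmem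
    exact hFne hFmem
  have hgprime : Prime g := by
    rw [← Ideal.span_singleton_prime hgne, ← hg']
    exact hPbar
  obtain ⟨hbar, hgh⟩ : g ∣ X ^ d - C (Ideal.Quotient.mk 𝔫 ε) := by
    rw [← Ideal.mem_span_singleton, ← hg']
    exact hFmem
  have hndvd : ¬ g ∣ hbar := by
    rintro ⟨c, rfl⟩
    have h1 : g * g ∣ X ^ d - C (Ideal.Quotient.mk 𝔫 ε) := ⟨c, by rw [hgh]; ring⟩
    exact hgprime.not_isUnit (hsep.squarefree g h1)
  obtain ⟨h, hh⟩ := hπs hbar
  have hhP : h ∉ P := by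
    intro hh'
    have := (hmem h).2 hh'
    rw [hh, hg', Ideal.mem_span_singleton] at this
    exact hndvd this
  intro q hq
  have hq' := (hmem q).2 hq
  rw [hg', Ideal.mem_span_singleton] at hq'
  obtain ⟨abar, ha⟩ := hq'
  obtain ⟨a, rfl⟩ := hπs abar
  refine ⟨h, hhP, ?_⟩
  have h0 : h * q - (X ^ d - C ε) * a ∈ RingHom.ker π := by
    rw [RingHom.mem_ker, map_sub, map_mul, map_mul, hFbar, hh, ha, hgh]
    ring
  rw [hker] at h0
  have h1 : h * q = (h * q - (X ^ d - C ε) * a) + (X ^ d - C ε) * a := by ring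
  rw [h1]
  exact Ideal.add_mem _ (Ideal.mem_sup_left h0)
    (Ideal.mem_sup_right (Ideal.mul_mem_right _ _ (Ideal.mem_span_singleton_self _)))

end Poly

/-! ### The discriminant -/

section Discr

variable {R K L : Type*} [CommRing R] [IsDomain R] [IsIntegrallyClosed R]
  [Field K] [Algebra R K] [IsFractionRing R K] [Field L] [Algebra K L] [Algebra R L]
  [IsScalarTower R K L]

omit [IsDomain R] [IsIntegrallyClosed R] [Field L] in
lemma rtk6et_isIntegral_aeval {L' : Type*} [CommRing L'] [Algebra R L'] {t : L'}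
    (ht : IsIntegral R t) (q : R[X]) : IsIntegral R (aeval t q) := by
  have h1 : aeval t q ∈ Algebra.adjoin R ({t} : Set L') := aeval_mem_adjoin_singleton R t
  have h2 : Algebra.adjoin R ({t} : Set L') ≤ integralClosure R L' :=
    Algebra.adjoin_le (by
      rintro x hx
      rw [Set.mem_singleton_iff.1 hx]
      exact ht)
  exact h2 h1

/-- **The discriminant relation.**  `L = K(t)`, `t ^ d = ε`, `d ε ≠ 0`: there are `D, c, τ ∈ R`
with `D c = d ^ n τ ^ (d - 1)`, `τ ^ d = ε ^ n` and `D z ∈ R[t]` for every `z ∈ L` integral over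
`R`.  (`D` is the discriminant of `1, t, …, t ^ (n - 1)`, `τ` the norm of `t`.) -/
theorem rtk6et_discr_rel (d : ℕ) (hdR : (d : R) ≠ 0) (ε : R) (hεR : ε ≠ 0) (t : L)
    (ht : t ^ d = algebraMap R L ε) (hgen : Algebra.adjoin K ({t} : Set L) = ⊤) :
    ∃ (D c τ : R) (n : ℕ), D * c = (d : R) ^ n * τ ^ (d - 1) ∧ τ ^ d = ε ^ n ∧
      ∀ z : L, IsIntegral R z → algebraMap R L D * z ∈ Algebra.adjoin R ({t} : Set L) := by
  have hd0 : d ≠ 0 := by
    rintro rfl
    exact hdR (by simp)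
  have hinj : Function.Injective (algebraMap R K) := IsFractionRing.injective R K
  have hdK : ((d : ℕ) : K) ≠ 0 := by
    rw [← map_natCast (algebraMap R K)]
    exact fun h => hdR (hinj (by rw [h, map_zero]))
  have hεK : algebraMap R K ε ≠ 0 := fun h => hεR (hinj (by rw [h, map_zero]))
  -- `t` is integral
  have htR : IsIntegral R t := ⟨X ^ d - C ε, monic_X_pow_sub_C _ hd0, by simp [ht]⟩
  have htK : IsIntegral K t := htR.tower_top
  -- separability
  have hsepF : (X ^ d - C (algebraMap R K ε) : K[X]).Separable :=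
    separable_X_pow_sub_C _ hdK hεK
  have haev : aeval t (X ^ d - C (algebraMap R K ε) : K[X]) = 0 := by
    simp [ht, ← IsScalarTower.algebraMap_apply]
  have hsept : IsSeparable K t := hsepF.of_dvd (minpoly.dvd K t haev)
  let pb : PowerBasis K L := PowerBasis.ofAdjoinEqTop htK hgen
  have hpbgen : pb.gen = t := rfl
  haveI : FiniteDimensional K L := pb.finite
  haveI : Algebra.IsSeparable K L := by
    refine ⟨fun x => ?_⟩
    have hle : IntermediateField.adjoin K ({t} : Set L) ≤ separableClosure K L := by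
      rw [IntermediateField.adjoin_simple_le_iff]
      exact mem_separableClosure_iff.2 hsept
    have htop : IntermediateField.adjoin K ({t} : Set L) = ⊤ :=
      IntermediateField.adjoin_eq_top_of_algebra K _ hgen
    rw [htop] at hle
    exact mem_separableClosure_iff.1 (hle IntermediateField.mem_top)
  -- the factorisation of `F` over `R`
  have hinjL : Function.Injective (algebraMap R L) := by
    rw [IsScalarTower.algebraMap_eq R K L]
    exact (algebraMap K L).injective.comp hinj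
  haveI : Module.IsTorsionFree R L := (Module.isTorsionFree_iff_algebraMap_injective).2 hinjL
  obtain ⟨h, hFh⟩ : minpoly R t ∣ X ^ d - C ε :=
    minpoly.isIntegrallyClosed_dvd htR (by simp [ht])
  -- derivative
  have hder : aeval t (derivative (minpoly R t)) * aeval t h = (d : L) * t ^ (d - 1) := by
    have h1 := congrArg (fun p => aeval t (derivative p)) hFh
    simp only [derivative_mul, derivative_sub, derivative_X_pow, derivative_C, sub_zero,
      map_add, map_mul, minpoly.aeval, zero_mul, add_zero] at h1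
    rw [← h1]
    simp
  set δ := aeval t (derivative (minpoly R t)) with hδ
  have hδK : aeval t (derivative (minpoly K t)) = δ := by
    rw [minpoly.isIntegrallyClosed_eq_field_fractions' K htR, derivative_map,
      aeval_map_algebraMap]
  -- norms
  obtain ⟨a, ha⟩ := IsIntegrallyClosed.isIntegral_iff.1
    (Algebra.isIntegral_norm K (rtk6et_isIntegral_aeval htR (derivative (minpoly R t))))
  obtain ⟨c, hc⟩ := IsIntegrallyClosed.isIntegral_iff.1
    (Algebra.isIntegral_norm K (rtk6et_isIntegral_aeval htR h))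
  obtain ⟨τ, hτ⟩ := IsIntegrallyClosed.isIntegral_iff.1 (Algebra.isIntegral_norm K htR)
  set n := Module.finrank K L with hn
  have hNd : Algebra.norm K ((d : ℕ) : L) = ((d : ℕ) : K) ^ n := by
    rw [← map_natCast (algebraMap K L) d, Algebra.norm_algebraMap]
  have hNder : Algebra.norm K δ * Algebra.norm K (aeval t h) =
      ((d : ℕ) : K) ^ n * (Algebra.norm K t) ^ (d - 1) := by
    rw [← map_mul, hder, map_mul, map_pow, hNd]
  have hac : a * c = (d : R) ^ n * τ ^ (d - 1) := by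
    apply hinj
    rw [map_mul, ha, hc, hNder, map_mul, map_pow, map_pow, map_natCast, hτ]
  have hτd : τ ^ d = ε ^ n := by
    apply hinj
    rw [map_pow, hτ, ← map_pow, ht, IsScalarTower.algebraMap_apply R K L,
      Algebra.norm_algebraMap, map_pow]
  -- the discriminant
  have hdisc := Algebra.discr_powerBasis_eq_norm K pb
  rw [hpbgen, hδK, ← ha] at hdisc
  set m := Module.finrank K L * (Module.finrank K L - 1) / 2 with hm
  refine ⟨(-1) ^ m * a, (-1) ^ m * c, τ, n, ?_, hτd, fun z hz => ?_⟩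
  · have h1 : (-1) ^ m * a * ((-1) ^ m * c) = ((-1) ^ m * (-1) ^ m) * (a * c) := by ring
    rw [h1, hac, ← mul_pow]
    simp
  · have h1 := Algebra.discr_mul_isIntegral_mem_adjoin (R := R) (K := K) (B := pb)
      (hpbgen ▸ htR) hz
    rw [hpbgen, hdisc] at h1
    have h2 : ((-1) ^ m * (algebraMap R K) a) • z = algebraMap R L ((-1) ^ m * a) * z := by
      rw [Algebra.smul_def, IsScalarTower.algebraMap_apply R K L]
      simp
    rw [h2] at h1
    exact h1

/-- **The discriminant is a unit at `𝔫`.**  `L = K(t)`, `t ^ d = ε`, `d, ε ∉ 𝔫`: there is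
`D ∉ 𝔫` with `D z ∈ R[t]` for every `z ∈ L` integral over `R`. -/
theorem rtk6et_discr (𝔫 : Ideal R) [h𝔫 : 𝔫.IsPrime] (d : ℕ) (hd : (d : R) ∉ 𝔫) (ε : R)
    (hε : ε ∉ 𝔫) (t : L) (ht : t ^ d = algebraMap R L ε)
    (hgen : Algebra.adjoin K ({t} : Set L) = ⊤) :
    ∃ D : R, D ∉ 𝔫 ∧ ∀ z : L, IsIntegral R z →
      algebraMap R L D * z ∈ Algebra.adjoin R ({t} : Set L) := by
  have hd0 : d ≠ 0 := by
    rintro rfl
    exact hd (by simp)
  have hdR : (d : R) ≠ 0 := fun h => hd (h ▸ 𝔫.zero_mem)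
  have hεR : ε ≠ 0 := fun h => hε (h ▸ 𝔫.zero_mem)
  obtain ⟨D, c, τ, n, hDc, hτd, hDz⟩ := rtk6et_discr_rel (K := K) d hdR ε hεR t ht hgen
  refine ⟨D, fun hD => ?_, hDz⟩
  have h1 : (d : R) ^ n * τ ^ (d - 1) ∈ 𝔫 := hDc ▸ 𝔫.mul_mem_right c hD
  rcases h𝔫.mem_or_mem h1 with h2 | h2
  · exact hd (h𝔫.mem_of_pow_mem _ h2)
  · have h3 : τ ∈ 𝔫 := h𝔫.mem_of_pow_mem _ h2
    have h4 : ε ^ n ∈ 𝔫 := hτd ▸ 𝔫.pow_mem_of_mem h3 d (Nat.pos_of_ne_zero hd0)
    exact hε (h𝔫.mem_of_pow_mem _ h4)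

/-- **The integral closure of an étale Kummer extension** (`d` and `ε` units of `R`): every
element of `L = K(t)`, `t ^ d = ε`, which is integral over `R` lies in `R[t]`. -/
theorem rtk6et_integral_mem_adjoin (d : ℕ) (hd : IsUnit (d : R)) (ε : R) (hε : IsUnit ε)
    (t : L) (ht : t ^ d = algebraMap R L ε) (hgen : Algebra.adjoin K ({t} : Set L) = ⊤)
    {z : L} (hz : IsIntegral R z) : z ∈ Algebra.adjoin R ({t} : Set L) := by
  obtain ⟨D, c, τ, n, hDc, hτd, hDz⟩ :=
    rtk6et_discr_rel (K := K) d hd.ne_zero ε hε.ne_zero t ht hgen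
  have hd0 : d ≠ 0 := by
    rintro rfl
    exact hd.ne_zero (by simp)
  have hτ : IsUnit τ := by
    have h1 : IsUnit (τ ^ d) := hτd ▸ hε.pow n
    exact (isUnit_pow_iff hd0).1 h1
  have hD : IsUnit D := by
    have h1 : IsUnit (D * c) := hDc ▸ (hd.pow n).mul (hτ.pow (d - 1))
    exact isUnit_of_mul_isUnit_left h1
  obtain ⟨u, rfl⟩ := hD
  have h1 := hDz z hz
  have h2 : z = algebraMap R L (↑u⁻¹ : R) * (algebraMap R L (u : R) * z) := by
    rw [← mul_assoc, ← map_mul, Units.inv_mul, map_one, one_mul]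
  rw [h2, ← Algebra.smul_def]
  exact Subalgebra.smul_mem _ h1 _

end Discr

/-! ### The main statement -/

section Main

variable {R K L B : Type*} [CommRing R] [IsDomain R] [IsIntegrallyClosed R]
  [Field K] [Algebra R K] [IsFractionRing R K] [Field L] [Algebra K L] [Algebra R L]
  [IsScalarTower R K L] [CommRing B] [Algebra R B] [Algebra B L] [IsScalarTower R B L]
  [IsIntegralClosure B R L]

/-- **D-ET.**  `B` the integral closure of `R` in `L = K(t)`, `t ^ d = ε`, `𝔫` a maximal ideal of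
`R` with `d, ε ∉ 𝔫`, `𝔫'` a prime of `B` above `𝔫`.  Then `𝔫'` is generated by `𝔫` locally at
`𝔫'`: for every `b ∈ 𝔫'` there is `u ∉ 𝔫'` with `u b ∈ 𝔫 B`. -/
theorem rtk6et_locGen (𝔫 : Ideal R) [h𝔫 : 𝔫.IsMaximal] (d : ℕ) (hd : (d : R) ∉ 𝔫) (ε : R)
    (hε : ε ∉ 𝔫) (t : L) (ht : t ^ d = algebraMap R L ε)
    (hgen : Algebra.adjoin K ({t} : Set L) = ⊤)
    (𝔫' : Ideal B) [h𝔫' : 𝔫'.IsPrime] (hlie : 𝔫'.comap (algebraMap R B) = 𝔫) :
    ∀ b ∈ 𝔫', ∃ u : B, u ∉ 𝔫' ∧ u * b ∈ Ideal.map (algebraMap R B) 𝔫 := by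
  have hd0 : d ≠ 0 := by
    rintro rfl
    exact hd (by simp)
  have htR : IsIntegral R t := ⟨X ^ d - C ε, monic_X_pow_sub_C _ hd0, by simp [ht]⟩
  have hBinj : Function.Injective (algebraMap B L) :=
    IsIntegralClosure.algebraMap_injective B R L
  obtain ⟨tB, htB⟩ : ∃ tB : B, algebraMap B L tB = t :=
    IsIntegralClosure.isIntegral_iff.1 htR
  have htBd : tB ^ d = algebraMap R B ε :=
    hBinj (by rw [map_pow, htB, ht, ← IsScalarTower.algebraMap_apply])
  obtain ⟨D, hD, hDz⟩ := rtk6et_discr (K := K) 𝔫 d hd ε hε t ht hgen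
  set φ : R[X] →ₐ[R] B := aeval tB with hφ
  have hφL : ∀ q : R[X], algebraMap B L (φ q) = aeval t q := by
    intro q
    rw [hφ, ← htB]
    exact (aeval_algebraMap_apply L tB q).symm
  have hφF : φ (X ^ d - C ε) = 0 := by
    rw [hφ]
    simp [htBd]
  set P : Ideal R[X] := 𝔫'.comap (φ : R[X] →+* B) with hPdef
  haveI : P.IsPrime := Ideal.comap_isPrime _ _
  have hnP : Ideal.map C 𝔫 ≤ P := by
    rw [Ideal.map_le_iff_le_comap]
    intro x hx
    show φ (C x) ∈ 𝔫'
    rw [hφ, aeval_C]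
    have : x ∈ 𝔫'.comap (algebraMap R B) := hlie ▸ hx
    exact this
  have hF : X ^ d - C ε ∈ P := by
    show φ (X ^ d - C ε) ∈ 𝔫'
    rw [hφF]
    exact 𝔫'.zero_mem
  have hsep := rtk6et_poly_sep 𝔫 d hd ε hε P hnP hF
  intro b hb
  obtain ⟨q, hq⟩ : ∃ q : R[X], aeval t q = algebraMap R L D * algebraMap B L b := by
    have := hDz (algebraMap B L b)
      (IsIntegralClosure.isIntegral_iff (A := B).2 ⟨b, rfl⟩)
    rw [Algebra.adjoin_singleton_eq_range_aeval] at this
    obtain ⟨q, hq⟩ := this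
    exact ⟨q, hq⟩
  have hq' : φ q = algebraMap R B D * b :=
    hBinj (by rw [hφL, hq, map_mul, ← IsScalarTower.algebraMap_apply])
  have hqP : q ∈ P := by
    show φ q ∈ 𝔫'
    rw [hq']
    exact 𝔫'.mul_mem_left _ hb
  obtain ⟨h, hhP, hhq⟩ := hsep q hqP
  refine ⟨φ h * algebraMap R B D, ?_, ?_⟩
  · intro hmem
    rcases h𝔫'.mem_or_mem hmem with h1 | h1
    · exact hhP h1
    · have : D ∈ 𝔫'.comap (algebraMap R B) := h1
      rw [hlie] at this
      exact hD this
  · have h1 : φ h * algebraMap R B D * b = φ (h * q) := by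
      rw [map_mul, hq']
      ring
    rw [h1]
    have hle : Ideal.map (C : R →+* R[X]) 𝔫 ⊔ Ideal.span {X ^ d - C ε} ≤
        (Ideal.map (algebraMap R B) 𝔫).comap (φ : R[X] →+* B) := by
      refine sup_le ?_ ?_
      · rw [Ideal.map_le_iff_le_comap]
        intro x hx
        show φ (C x) ∈ Ideal.map (algebraMap R B) 𝔫
        rw [hφ, aeval_C]
        exact Ideal.mem_map_of_mem _ hx
      · rw [Ideal.span_le, Set.singleton_subset_iff]
        show φ (X ^ d - C ε) ∈ Ideal.map (algebraMap R B) 𝔫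
        rw [hφF]
        exact Ideal.zero_mem _
    exact hle hhq

end Main

/-! ### Transport of local generators, variants -/

section Trans

/-- Transitivity of local generation: if `𝔫'` is generated by `𝔫 B` locally at `𝔫'` and `𝔫` is
generated by `T` locally at `𝔫`, then `𝔫'` is generated by the image of `T` locally at `𝔫'`. -/
theorem rtk6et_locGen_trans {R B : Type*} [CommRing R] [CommRing B] [Algebra R B]
    (𝔫 : Ideal R) [h𝔫 : 𝔫.IsPrime] (𝔫' : Ideal B) [h𝔫' : 𝔫'.IsPrime]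
    (hlie : 𝔫'.comap (algebraMap R B) = 𝔫)
    (h1 : ∀ b ∈ 𝔫', ∃ u : B, u ∉ 𝔫' ∧ u * b ∈ Ideal.map (algebraMap R B) 𝔫)
    (T : Set R) (hT : ∀ b ∈ 𝔫, ∃ u : R, u ∉ 𝔫 ∧ u * b ∈ Ideal.span T) :
    ∀ b ∈ 𝔫', ∃ u : B, u ∉ 𝔫' ∧ u * b ∈ Ideal.span (algebraMap R B '' T) := by
  -- the ideal of the elements which land in `span T` after multiplication by some `v ∉ 𝔫`
  let J : Ideal B :=
    { carrier := {x | ∃ v : R, v ∉ 𝔫 ∧ algebraMap R B v * x ∈ Ideal.span (algebraMap R B '' T)}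
      zero_mem' := ⟨1, fun h => h𝔫.ne_top ((Ideal.eq_top_iff_one 𝔫).2 h), by simp⟩
      add_mem' := by
        rintro x y ⟨v, hv, hvx⟩ ⟨w, hw, hwy⟩
        refine ⟨v * w, fun h => (h𝔫.mem_or_mem h).elim hv hw, ?_⟩
        have : algebraMap R B (v * w) * (x + y) =
            algebraMap R B w * (algebraMap R B v * x) +
              algebraMap R B v * (algebraMap R B w * y) := by
          rw [map_mul]
          ring
        rw [this]
        exact Ideal.add_mem _ (Ideal.mul_mem_left _ _ hvx) (Ideal.mul_mem_left _ _ hwy)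
      smul_mem' := by
        rintro c x ⟨v, hv, hvx⟩
        refine ⟨v, hv, ?_⟩
        have : algebraMap R B v * (c • x) = c * (algebraMap R B v * x) := by
          rw [smul_eq_mul]
          ring
        rw [this]
        exact Ideal.mul_mem_left _ _ hvx }
  have hJ : Ideal.map (algebraMap R B) 𝔫 ≤ J := by
    rw [Ideal.map_le_iff_le_comap]
    intro n hn
    obtain ⟨u, hu, hun⟩ := hT n hn
    refine ⟨u, hu, ?_⟩
    rw [← map_mul, ← Ideal.map_span]
    exact Ideal.mem_map_of_mem _ hun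
  intro b hb
  obtain ⟨u₁, hu₁, hu₁b⟩ := h1 b hb
  obtain ⟨v, hv, hvb⟩ := hJ hu₁b
  refine ⟨algebraMap R B v * u₁, fun h => ?_, by rw [mul_assoc]; exact hvb⟩
  rcases h𝔫'.mem_or_mem h with h2 | h2
  · have : v ∈ 𝔫'.comap (algebraMap R B) := h2
    rw [hlie] at this
    exact hv this
  · exact hu₁ h2

variable {R K L B : Type*} [CommRing R] [IsDomain R] [IsIntegrallyClosed R]
  [Field K] [Algebra R K] [IsFractionRing R K] [Field L] [Algebra K L] [Algebra R L]
  [IsScalarTower R K L] [CommRing B] [Algebra R B] [Algebra B L] [IsScalarTower R B L]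
  [IsIntegralClosure B R L]

/-- **D-ET with a unit of the local ring.**  As `rtk6et_locGen`, for a Kummer generator `t` with
`t ^ d = a / b`, `a, b ∈ R`, `a, b ∉ 𝔫` (a `d`-th root of a unit of `R_𝔫`; `t` need not be
integral over `R`). -/
theorem rtk6et_locGen_frac (𝔫 : Ideal R) [h𝔫 : 𝔫.IsMaximal] (d : ℕ) (hd : (d : R) ∉ 𝔫)
    (a b : R) (ha : a ∉ 𝔫) (hb : b ∉ 𝔫) (t : L)
    (ht : algebraMap R L b * t ^ d = algebraMap R L a)
    (hgen : Algebra.adjoin K ({t} : Set L) = ⊤)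
    (𝔫' : Ideal B) [h𝔫' : 𝔫'.IsPrime] (hlie : 𝔫'.comap (algebraMap R B) = 𝔫) :
    ∀ x ∈ 𝔫', ∃ u : B, u ∉ 𝔫' ∧ u * x ∈ Ideal.map (algebraMap R B) 𝔫 := by
  have hd0 : d ≠ 0 := by
    rintro rfl
    exact hd (by simp)
  have hbR : b ≠ 0 := fun h => hb (h ▸ 𝔫.zero_mem)
  have hinj : Function.Injective (algebraMap R K) := IsFractionRing.injective R K
  have hbK : algebraMap R K b ≠ 0 := fun h => hbR (hinj (by rw [h, map_zero]))
  -- the integral generator `t₁ = b t`
  set t₁ : L := algebraMap R L b * t with ht₁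
  have ht₁d : t₁ ^ d = algebraMap R L (b ^ (d - 1) * a) := by
    obtain ⟨e, rfl⟩ : ∃ e, d = e + 1 := ⟨d - 1, by omega⟩
    rw [ht₁, mul_pow, pow_succ (algebraMap R L b), mul_assoc, ht, Nat.add_sub_cancel, map_mul,
      map_pow]
  have hε : b ^ (d - 1) * a ∉ 𝔫 := fun h =>
    (h𝔫.isPrime.mem_or_mem h).elim (fun h' => hb (h𝔫.isPrime.mem_of_pow_mem _ h')) ha
  have hgen₁ : Algebra.adjoin K ({t₁} : Set L) = ⊤ := by
    rw [eq_top_iff, ← hgen]
    refine Algebra.adjoin_le ?_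
    rintro x hx
    rw [Set.mem_singleton_iff.1 hx]
    have h1 : t = (algebraMap R K b)⁻¹ • t₁ := by
      rw [ht₁, Algebra.smul_def, IsScalarTower.algebraMap_apply R K L, ← mul_assoc, ← map_mul,
        inv_mul_cancel₀ hbK, map_one, one_mul]
    rw [h1]
    exact Subalgebra.smul_mem _ (Algebra.subset_adjoin (Set.mem_singleton _)) _
  exact rtk6et_locGen (K := K) 𝔫 d hd _ hε t₁ ht₁d hgen₁ 𝔫' hlie

/-- **D-ET, generators.**  Local generators `T` of `𝔫` are local generators of every prime `𝔫'`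
of the integral closure above `𝔫` (in the shape of `UNIP.NodesLocGen`). -/
theorem rtk6et_locGen_of_span (𝔫 : Ideal R) [h𝔫 : 𝔫.IsMaximal] (d : ℕ) (hd : (d : R) ∉ 𝔫)
    (a b : R) (ha : a ∉ 𝔫) (hb : b ∉ 𝔫) (t : L)
    (ht : algebraMap R L b * t ^ d = algebraMap R L a)
    (hgen : Algebra.adjoin K ({t} : Set L) = ⊤)
    (𝔫' : Ideal B) [h𝔫' : 𝔫'.IsPrime] (hlie : 𝔫'.comap (algebraMap R B) = 𝔫)
    (T : Set R) (hT : ∀ x ∈ 𝔫, ∃ u : R, u ∉ 𝔫 ∧ u * x ∈ Ideal.span T) :
    ∀ x ∈ 𝔫', ∃ u : B, u ∉ 𝔫' ∧ u * x ∈ Ideal.span (algebraMap R B '' T) :=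
  haveI := h𝔫.isPrime
  rtk6et_locGen_trans 𝔫 𝔫' hlie
    (rtk6et_locGen_frac (K := K) (L := L) 𝔫 d hd a b ha hb t ht hgen 𝔫' hlie) T hT

end Trans

end Fermat.Agent.RT.K6
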