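/-
K-machine, piece K6, piece C4-1 (helper4): **D-ET for SEVERAL Kummer generators** (Mathlib +
`DEt.lean`).

`R` an integrally closed domain, `K = Frac R`, `L = K(t₁, …, t_m)` with `b_i t_i ^ d = a_i`,
`a_i, b_i ∈ R ∖ 𝔫`, `d ∉ 𝔫` (`𝔫` a maximal ideal of `R`), `B` the integral closure of `R` in `L`,
`𝔫'` a prime of `B` above `𝔫`.  Then `𝔫'` is generated by `𝔫` locally at `𝔫'`.

* `rtk6etm_locGen`         : `∀ x ∈ 𝔫', ∃ u ∉ 𝔫', u x ∈ 𝔫 B`;
* `rtk6etm_locGen_of_span` : local generators `T` of `𝔫` are local generators of `𝔫'`.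

Proof: induction on the list of generators along the tower `K ⊆ K(t₁) ⊆ L` (`rtk6et_locGen_frac`
at each step, `rtk6et_locGen_trans`).
-/
import Fermat.Agent.RT.K6.DEt

set_option autoImplicit false
set_option linter.style.haveILetI false
set_option linter.unusedSectionVars false
set_option linter.unusedVariables false

namespace Fermat.Agent.RT.K6

open Polynomial IntermediateField

universe u

section Multi

/-- the base of the induction: `L = K` -/
theorem rtk6etm_base {R K L B : Type*} [CommRing R] [IsDomain R] [IsIntegrallyClosed R]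
    [Field K] [Algebra R K] [IsFractionRing R K] [Field L] [Algebra K L] [Algebra R L]
    [IsScalarTower R K L] [CommRing B] [Algebra R B] [Algebra B L] [IsScalarTower R B L]
    [IsIntegralClosure B R L]
    (hsurj : Function.Surjective (algebraMap K L))
    (𝔫 : Ideal R) (𝔫' : Ideal B) [h𝔫' : 𝔫'.IsPrime] (hlie : 𝔫'.comap (algebraMap R B) = 𝔫) :
    ∀ x ∈ 𝔫', ∃ u : B, u ∉ 𝔫' ∧ u * x ∈ Ideal.map (algebraMap R B) 𝔫 := by
  intro x hx
  refine ⟨1, fun h => h𝔫'.ne_top ((Ideal.eq_top_iff_one 𝔫').2 h), ?_⟩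
  rw [one_mul]
  have hint : IsIntegral R (algebraMap B L x) :=
    (IsIntegralClosure.isIntegral_iff (A := B)).2 ⟨x, rfl⟩
  obtain ⟨k, hk⟩ := hsurj (algebraMap B L x)
  have hk' : IsIntegral R k := by
    rw [← hk] at hint
    exact (isIntegral_algebraMap_iff (algebraMap K L).injective).1 hint
  obtain ⟨r, hr⟩ := IsIntegrallyClosed.isIntegral_iff.1 hk'
  have hx' : algebraMap R B r = x := by
    apply IsIntegralClosure.algebraMap_injective B R L
    rw [← IsScalarTower.algebraMap_apply R B L, IsScalarTower.algebraMap_apply R K L, hr, hk]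
  have hr𝔫 : r ∈ 𝔫 := by
    rw [← hlie, Ideal.mem_comap, hx']
    exact hx
  rw [← hx']
  exact Ideal.mem_map_of_mem _ hr𝔫

/-- the generator of `K⟮t⟯`, inside `K⟮t⟯`, generates it as an algebra (`t` algebraic) -/
theorem rtk6etm_adjoin_gen {K L : Type*} [Field K] [Field L] [Algebra K L] (t : L)
    (ht : IsIntegral K t) :
    Algebra.adjoin K ({(⟨t, mem_adjoin_simple_self K t⟩ : ↥K⟮t⟯)} : Set ↥K⟮t⟯) = ⊤ := by
  rw [eq_top_iff]
  rintro ⟨x, hx⟩ -
  have h1 : x ∈ (K⟮t⟯).toSubalgebra := hx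
  rw [IntermediateField.adjoin_simple_toSubalgebra_of_isAlgebraic ht.isAlgebraic,
    Algebra.adjoin_singleton_eq_range_aeval] at h1
  obtain ⟨p, hp⟩ := h1
  rw [Algebra.adjoin_singleton_eq_range_aeval]
  refine ⟨p, ?_⟩
  apply Subtype.ext
  have h2 : ((aeval (⟨t, mem_adjoin_simple_self K t⟩ : ↥K⟮t⟯) p : ↥K⟮t⟯) : L)
      = aeval t p := by
    have := (Polynomial.aeval_algHom_apply (K⟮t⟯).val
      (⟨t, mem_adjoin_simple_self K t⟩ : ↥K⟮t⟯) p).symm
    simpa using this
  show ((aeval (⟨t, mem_adjoin_simple_self K t⟩ : ↥K⟮t⟯) p : ↥K⟮t⟯) : L) = x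
  rw [h2]
  exact hp

/-- generation along the tower `K ⊆ K(t₁) ⊆ L` -/
theorem rtk6etm_adjoin_tower {K L : Type*} [Field K] [Field L] [Algebra K L] (t₁ : L)
    (S : Set L) (h : Algebra.adjoin K (insert t₁ S) = ⊤) :
    Algebra.adjoin ↥K⟮t₁⟯ S = ⊤ := by
  rw [eq_top_iff]
  intro x hxtop
  clear hxtop
  have hx : x ∈ Algebra.adjoin K (insert t₁ S) := by
    rw [h]
    exact Algebra.mem_top
  induction hx using Algebra.adjoin_induction with
  | mem y hy =>
    rcases hy with rfl | hy'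
    · exact (Algebra.adjoin ↥K⟮y⟯ S).algebraMap_mem ⟨y, mem_adjoin_simple_self K y⟩
    · exact Algebra.subset_adjoin hy'
  | algebraMap k =>
    exact (Algebra.adjoin ↥K⟮t₁⟯ S).algebraMap_mem (algebraMap K ↥K⟮t₁⟯ k)
  | add y z _ _ hy hz => exact add_mem hy hz
  | mul y z _ _ hy hz => exact mul_mem hy hz

/-- **D-ET for several Kummer generators**, all types in one universe (the induction changes the
base). -/
theorem rtk6etm_locGen_aux (L : Type u) [Field L] (d : ℕ) (l : List L) :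
    ∀ (R K B : Type u) [CommRing R] [IsDomain R] [IsIntegrallyClosed R]
      [Field K] [Algebra R K] [IsFractionRing R K] [Algebra K L] [Algebra R L]
      [IsScalarTower R K L] [CommRing B] [Algebra R B] [Algebra B L] [IsScalarTower R B L]
      [IsIntegralClosure B R L]
      (𝔫 : Ideal R) [𝔫.IsMaximal] (_ : (d : R) ∉ 𝔫)
      (_ : ∀ t ∈ l, ∃ a b : R, a ∉ 𝔫 ∧ b ∉ 𝔫 ∧ algebraMap R L b * t ^ d = algebraMap R L a)
      (_ : Algebra.adjoin K {t : L | t ∈ l} = ⊤)
      (𝔫' : Ideal B) [𝔫'.IsPrime] (_ : 𝔫'.comap (algebraMap R B) = 𝔫),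
      ∀ x ∈ 𝔫', ∃ u : B, u ∉ 𝔫' ∧ u * x ∈ Ideal.map (algebraMap R B) 𝔫 := by
  induction l with
  | nil =>
    intro R K B _ _ _ _ _ _ _ _ _ _ _ _ _ _ 𝔫 h𝔫 hd hl hgen 𝔫' h𝔫' hlie
    refine rtk6etm_base (K := K) (L := L) ?_ 𝔫 𝔫' hlie
    intro x
    have hx : x ∈ Algebra.adjoin K {t : L | t ∈ ([] : List L)} := by
      rw [hgen]
      exact Algebra.mem_top
    have he : {t : L | t ∈ ([] : List L)} = (∅ : Set L) := by
      ext t
      simp
    rw [he, Algebra.adjoin_empty] at hx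
    obtain ⟨k, hk⟩ := Algebra.mem_bot.1 hx
    exact ⟨k, hk⟩
  | cons t₁ l' ih =>
    intro R K B _ _ _ _ _ _ _ _ _ _ _ _ _ _ 𝔫 h𝔫 hd hl hgen 𝔫' h𝔫' hlie
    have hd0 : d ≠ 0 := by
      rintro rfl
      exact hd (by simp)
    have hinjRK : Function.Injective (algebraMap R K) := IsFractionRing.injective R K
    have hinjRL : Function.Injective (algebraMap R L) := by
      rw [IsScalarTower.algebraMap_eq R K L]
      exact (algebraMap K L).injective.comp hinjRK
    obtain ⟨a, b, ha, hb, hab⟩ := hl t₁ (List.mem_cons_self)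
    have hb0 : b ≠ 0 := fun h => hb (h ▸ 𝔫.zero_mem)
    -- `t₁` is integral over `K`
    have ht₁ : IsIntegral K t₁ := by
      rw [← isAlgebraic_iff_isIntegral]
      refine ⟨C (algebraMap R K b) * X ^ d - C (algebraMap R K a), ?_, ?_⟩
      · intro h0
        have h1 := congrArg (fun p : K[X] => p.coeff d) h0
        simp only [coeff_sub, coeff_C_mul, coeff_X_pow, if_true, mul_one, coeff_zero,
          coeff_C, if_neg hd0] at h1
        rw [sub_zero] at h1
        exact hb0 (hinjRK (by rw [h1, map_zero]))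
      · simp only [map_sub, map_mul, aeval_C, map_pow, aeval_X]
        rw [← IsScalarTower.algebraMap_apply R K L, ← IsScalarTower.algebraMap_apply R K L, hab,
          sub_self]
    -- the intermediate field `K' = K(t₁)` and the integral closure `R'` of `R` in `K'`
    let K' : IntermediateField K L := K⟮t₁⟯
    haveI : FiniteDimensional K ↥K' := IntermediateField.adjoin.finiteDimensional ht₁
    let R' : Subalgebra R ↥K' := integralClosure R ↥K'
    haveI : IsIntegrallyClosed ↥R' := integralClosure.isIntegrallyClosedOfFiniteExtension K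
    haveI : IsFractionRing ↥R' ↥K' := integralClosure.isFractionRing_of_finite_extension K ↥K'
    -- `B` is the integral closure of `R'` in `L`
    haveI : IsScalarTower R ↥R' L := IsScalarTower.of_algebraMap_eq fun r => rfl
    let φ : ↥R' →ₐ[R] B := IsIntegralClosure.lift R B L
    letI : Algebra ↥R' B := φ.toRingHom.toAlgebra
    have hφ : ∀ x : ↥R', algebraMap ↥R' B x = φ x := fun _ => rfl
    haveI : IsScalarTower ↥R' B L := IsScalarTower.of_algebraMap_eq fun x => by
      rw [hφ]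
      exact (IsIntegralClosure.algebraMap_lift R B L x).symm
    haveI : IsIntegralClosure B ↥R' L := IsIntegralClosure.tower_top (R := R) (A := ↥R')
    have hcomp : ∀ r : R, algebraMap ↥R' B (algebraMap R ↥R' r) = algebraMap R B r := fun r => by
      rw [hφ]
      exact φ.commutes r
    -- the prime of `R'` below `𝔫'`
    let 𝔫'' : Ideal ↥R' := 𝔫'.comap (algebraMap ↥R' B)
    haveI h𝔫''p : 𝔫''.IsPrime := Ideal.comap_isPrime _ _
    have hlie'' : 𝔫''.comap (algebraMap R ↥R') = 𝔫 := by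
      ext r
      rw [Ideal.mem_comap, Ideal.mem_comap, hcomp, ← hlie, Ideal.mem_comap]
    haveI h𝔫''m : 𝔫''.IsMaximal :=
      Ideal.isMaximal_of_isIntegral_of_isMaximal_comap (R := R) 𝔫'' (by rw [hlie'']; exact h𝔫)
    -- step A: `𝔫''` is generated by `𝔫` locally
    have hA : ∀ x ∈ 𝔫'', ∃ u : ↥R', u ∉ 𝔫'' ∧ u * x ∈ Ideal.map (algebraMap R ↥R') 𝔫 := by
      refine rtk6et_locGen_frac (K := K) (L := ↥K') (B := ↥R') 𝔫 d hd a b ha hb
        ⟨t₁, mem_adjoin_simple_self K t₁⟩ ?_ (rtk6etm_adjoin_gen t₁ ht₁) 𝔫'' hlie''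
      apply Subtype.ext
      exact hab
    -- step B: the induction hypothesis over `R'`
    have hB : ∀ x ∈ 𝔫', ∃ u : B, u ∉ 𝔫' ∧ u * x ∈ Ideal.map (algebraMap ↥R' B) 𝔫'' := by
      refine ih ↥R' ↥K' B 𝔫'' ?_ ?_ ?_ 𝔫' rfl
      · intro h
        apply hd
        rw [← hlie'', Ideal.mem_comap, map_natCast]
        exact h
      · intro t ht
        obtain ⟨a', b', ha', hb', hab'⟩ := hl t (List.mem_cons_of_mem _ ht)
        refine ⟨algebraMap R ↥R' a', algebraMap R ↥R' b', ?_, ?_, ?_⟩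
        · intro h
          apply ha'
          rw [← hlie'', Ideal.mem_comap]
          exact h
        · intro h
          apply hb'
          rw [← hlie'', Ideal.mem_comap]
          exact h
        · exact hab'
      · apply rtk6etm_adjoin_tower t₁
        have he : insert t₁ {t : L | t ∈ l'} = {t : L | t ∈ t₁ :: l'} := by
          ext y
          simp
        rw [he]
        exact hgen
    -- combine
    have hC := rtk6et_locGen_trans 𝔫'' 𝔫' rfl hB (algebraMap R ↥R' '' (𝔫 : Set R)) hA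
    have himg : (algebraMap ↥R' B '' (algebraMap R ↥R' '' (𝔫 : Set R)))
        = algebraMap R B '' (𝔫 : Set R) := by
      rw [Set.image_image]
      exact Set.image_congr fun r _ => hcomp r
    rw [himg] at hC
    exact hC

/-- **D-ET for several Kummer generators.**  `B` the integral closure of `R` in
`L = K(t₁, …, t_m)`, `b_i t_i ^ d = a_i` with `a_i, b_i ∈ R ∖ 𝔫`, `d ∉ 𝔫`: every prime `𝔫'` of
`B` above the maximal ideal `𝔫` is generated by `𝔫` locally at `𝔫'`. -/
theorem rtk6etm_locGen {R K L B : Type u} [CommRing R] [IsDomain R] [IsIntegrallyClosed R]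
    [Field K] [Algebra R K] [IsFractionRing R K] [Field L] [Algebra K L] [Algebra R L]
    [IsScalarTower R K L] [CommRing B] [Algebra R B] [Algebra B L] [IsScalarTower R B L]
    [IsIntegralClosure B R L]
    (𝔫 : Ideal R) [h𝔫 : 𝔫.IsMaximal] (d : ℕ) (hd : (d : R) ∉ 𝔫) (S : Set L) (hS : S.Finite)
    (hl : ∀ t ∈ S, ∃ a b : R, a ∉ 𝔫 ∧ b ∉ 𝔫 ∧ algebraMap R L b * t ^ d = algebraMap R L a)
    (hgen : Algebra.adjoin K S = ⊤)
    (𝔫' : Ideal B) [h𝔫' : 𝔫'.IsPrime] (hlie : 𝔫'.comap (algebraMap R B) = 𝔫) :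
    ∀ x ∈ 𝔫', ∃ u : B, u ∉ 𝔫' ∧ u * x ∈ Ideal.map (algebraMap R B) 𝔫 := by
  classical
  have he : {t : L | t ∈ hS.toFinset.toList} = S := by
    ext t
    simp
  refine rtk6etm_locGen_aux L d hS.toFinset.toList R K B 𝔫 hd ?_ ?_ 𝔫' hlie
  · intro t ht
    exact hl t (by simpa using ht)
  · rw [he]
    exact hgen

/-- **D-ET for several Kummer generators, generators.**  Local generators `T` of `𝔫` are local
generators of every prime `𝔫'` of the integral closure above `𝔫` (shape of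
`UNIP.NodesLocGen`). -/
theorem rtk6etm_locGen_of_span {R K L B : Type u} [CommRing R] [IsDomain R]
    [IsIntegrallyClosed R]
    [Field K] [Algebra R K] [IsFractionRing R K] [Field L] [Algebra K L] [Algebra R L]
    [IsScalarTower R K L] [CommRing B] [Algebra R B] [Algebra B L] [IsScalarTower R B L]
    [IsIntegralClosure B R L]
    (𝔫 : Ideal R) [h𝔫 : 𝔫.IsMaximal] (d : ℕ) (hd : (d : R) ∉ 𝔫) (S : Set L) (hS : S.Finite)
    (hl : ∀ t ∈ S, ∃ a b : R, a ∉ 𝔫 ∧ b ∉ 𝔫 ∧ algebraMap R L b * t ^ d = algebraMap R L a)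
    (hgen : Algebra.adjoin K S = ⊤)
    (𝔫' : Ideal B) [h𝔫' : 𝔫'.IsPrime] (hlie : 𝔫'.comap (algebraMap R B) = 𝔫)
    (T : Set R) (hT : ∀ x ∈ 𝔫, ∃ u : R, u ∉ 𝔫 ∧ u * x ∈ Ideal.span T) :
    ∀ x ∈ 𝔫', ∃ u : B, u ∉ 𝔫' ∧ u * x ∈ Ideal.span (algebraMap R B '' T) :=
  haveI := h𝔫.isPrime
  rtk6et_locGen_trans 𝔫 𝔫' hlie (rtk6etm_locGen (K := K) 𝔫 d hd S hS hl hgen 𝔫' hlie) T hT

end Multi

end Fermat.Agent.RT.K6
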