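/-
K-machine, piece K6, piece **C4-ET-abs** (helper97): the ÉTALE stage at the closed points of a
chart, chart level (table v7 of `NOTES/RT-K6-D.md`).

Setting: `A₀` a discrete valuation ring (`π`), `E = Frac A₀`, `F₀ ⊆ F` function fields over `E`
(all types in one universe), `u₀ ∈ F₀`, `u = algebraMap F₀ F u₀`, the charts
`R = zchClosure {u₀} ⊆ F₀`, `B = zchClosure {u} ⊆ F`, the chart map `rtk6c4etJ u₀ : R →+* B`.
`F = F₀[S]`, `S` finite, every `t ∈ S` an étale Kummer generator at the point: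
`b t ^ d = a` with `a, b ∈ R ∖ 𝔫₀`, `d ∉ 𝔫₀`.

* `rtk6c4et_mem`, `rtk6c4etJ`, `rtk6c4etJ_coe`, `rtk6c4etJ_algebraMap` : the chart map;
* `rtk6c4et_isIntegral` : `B` is integral over `R`; `rtk6c4et_closed` : `B` is the integral
  closure of `R` in `F`;
* `rtk6c4et_comap_isMaximal`, `rtk6c4etPt` : the closed point `𝔫 ∩ R` of `R` below a closed point
  `𝔫` of `B`;
* `rtk6c4et_locGen` : **D-ET at the chart level**: local generators `T` of `𝔫 ∩ R` are local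
  generators of `𝔫` (`UNIP.NodesLocGen`);
* `rtk6c4et_nodeAt` : **C4-ET-abs**: the thin dichotomy `Rtk6lfThinAt W₁ W₂ 𝔫₀` at `𝔫₀ = 𝔫 ∩ R`
  gives `Rtk6ewmNodeAt V 𝔫 (RingHom.id _) π` (the hypothesis `hnode` of `rtk6ew_main_multi` on the
  unramified chart), given at the crossing points two components `c₁, c₂` of the family through
  `𝔫` above `W₁, W₂`.
-/
import Fermat.Agent.RT.K6.DEtMulti
import Fermat.Agent.RT.K6.DLFChart
import Fermat.Agent.RT.K6.EWMulti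
import Fermat.Agent.UNIP.MGChartsMain
import Fermat.Agent.UNIP.NodesInstAbs
import Fermat.Agent.UNIP.NodesCuspPoly

set_option autoImplicit false
set_option linter.style.haveILetI false
set_option linter.unusedSectionVars false
set_option linter.unusedVariables false

namespace Fermat.Agent.RT.K6

open Polynomial IntermediateField Fermat.Agent.INJ Fermat.Agent.UNIP Fermat.Agent.STB

section C4Et

universe u

variable {A₀ E F₀ F : Type u} [CommRing A₀] [IsDomain A₀] [IsDiscreteValuationRing A₀]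
  [Field E] [Algebra A₀ E] [IsFractionRing A₀ E] [CharZero E]
  [Field F₀] [Algebra E F₀] [Algebra A₀ F₀] [IsScalarTower A₀ E F₀]
  [Field F] [Algebra E F] [Algebra A₀ F] [IsScalarTower A₀ E F]
  [Algebra F₀ F] [IsScalarTower A₀ F₀ F]
  {π : A₀} {κ : Type*}

/-- the image of the base chart lies in the top chart -/
theorem rtk6c4et_mem (u₀ : F₀) {x : F₀} (hx : x ∈ zchClosure (A₀ := A₀) ({u₀} : Set F₀)) :
    algebraMap F₀ F x ∈ zchClosure (A₀ := A₀) ({algebraMap F₀ F u₀} : Set F) := by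
  rw [mem_zchClosure] at hx ⊢
  exact cusp_isIntegral_adjoin_map (algebraMap F₀ F)
    (fun c => (IsScalarTower.algebraMap_apply A₀ F₀ F c).symm) hx

/-- **the chart map** `R = zchClosure {u₀} →+* B = zchClosure {u}` -/
def rtk6c4etJ (u₀ : F₀) : ↥(zchClosure (A₀ := A₀) ({u₀} : Set F₀)) →+*
    ↥(zchClosure (A₀ := A₀) ({algebraMap F₀ F u₀} : Set F)) where
  toFun x := ⟨algebraMap F₀ F (x : F₀), rtk6c4et_mem u₀ x.2⟩
  map_one' := Subtype.ext (map_one _)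
  map_mul' _ _ := Subtype.ext (map_mul _ _ _)
  map_zero' := Subtype.ext (map_zero _)
  map_add' _ _ := Subtype.ext (map_add _ _ _)

theorem rtk6c4etJ_coe (u₀ : F₀) (x : ↥(zchClosure (A₀ := A₀) ({u₀} : Set F₀))) :
    ((rtk6c4etJ (F := F) u₀ x : ↥(zchClosure (A₀ := A₀) ({algebraMap F₀ F u₀} : Set F))) : F)
      = algebraMap F₀ F (x : F₀) := rfl

theorem rtk6c4etJ_injective (u₀ : F₀) :
    Function.Injective (rtk6c4etJ (A₀ := A₀) (F := F) u₀) := by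
  intro x y hxy
  apply Subtype.ext
  apply (algebraMap F₀ F).injective
  exact congrArg Subtype.val hxy

/-- the chart map is the identity on the constants -/
theorem rtk6c4etJ_algebraMap (u₀ : F₀) (a : A₀) :
    rtk6c4etJ (F := F) u₀ (algebraMap A₀ ↥(zchClosure (A₀ := A₀) ({u₀} : Set F₀)) a)
      = algebraMap A₀ ↥(zchClosure (A₀ := A₀) ({algebraMap F₀ F u₀} : Set F)) a := by
  apply Subtype.ext
  show algebraMap F₀ F (algebraMap A₀ F₀ a) = algebraMap A₀ F a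
  rw [← IsScalarTower.algebraMap_apply]

theorem rtk6c4etJ_natCast (u₀ : F₀) (d : ℕ) :
    rtk6c4etJ (A₀ := A₀) (F := F) u₀ (d : ↥(zchClosure (A₀ := A₀) ({u₀} : Set F₀)))
      = (d : ↥(zchClosure (A₀ := A₀) ({algebraMap F₀ F u₀} : Set F))) := map_natCast _ d

/-- **`B` is integral over `R`** (in the form of a ring homomorphism) -/
theorem rtk6c4et_isIntegral (u₀ : F₀) : (rtk6c4etJ (A₀ := A₀) (F := F) u₀).IsIntegral := by
  intro b
  have hb : IsIntegral (Algebra.adjoin A₀ ({algebraMap F₀ F u₀} : Set F)) (b : F) := b.2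
  rw [cusp_isIntegral_adjoin_iff] at hb
  obtain ⟨p, hp, hpb⟩ := hb
  -- the polynomial ring maps to `R`
  have hu₀ : u₀ ∈ zchClosure (A₀ := A₀) ({u₀} : Set F₀) :=
    mem_zchClosure.mpr (isIntegral_algebraMap (R := ↥(Algebra.adjoin A₀ ({u₀} : Set F₀)))
      (x := ⟨u₀, Algebra.subset_adjoin (Set.mem_singleton u₀)⟩))
  let g : A₀[X] →+* ↥(zchClosure (A₀ := A₀) ({u₀} : Set F₀)) :=
    ((aeval (⟨u₀, hu₀⟩ : ↥(zchClosure (A₀ := A₀) ({u₀} : Set F₀))) :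
      A₀[X] →ₐ[A₀] ↥(zchClosure (A₀ := A₀) ({u₀} : Set F₀))) : A₀[X] →+* _)
  refine ⟨p.map g, hp.map g, ?_⟩
  rw [Polynomial.eval₂_map]
  have hc : ((zchClosure (A₀ := A₀) ({algebraMap F₀ F u₀} : Set F)).val.toRingHom).comp
      ((rtk6c4etJ (A₀ := A₀) (F := F) u₀).comp g)
      = ((aeval (algebraMap F₀ F u₀) : A₀[X] →ₐ[A₀] F) : A₀[X] →+* F) := by
    apply Polynomial.ringHom_ext
    · intro a
      show algebraMap F₀ F ((g (C a) : ↥(zchClosure (A₀ := A₀) ({u₀} : Set F₀))) : F₀) = _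
      have h1 : g (C a) = algebraMap A₀ _ a := by
        show aeval _ (C a) = _
        rw [aeval_C]
      rw [h1]
      show algebraMap F₀ F (algebraMap A₀ F₀ a) = _
      rw [← IsScalarTower.algebraMap_apply]
      show _ = aeval _ (C a)
      rw [aeval_C]
    · show algebraMap F₀ F ((g X : ↥(zchClosure (A₀ := A₀) ({u₀} : Set F₀))) : F₀) = _
      have h1 : g X = ⟨u₀, hu₀⟩ := by
        show aeval _ X = _
        rw [aeval_X]
      rw [h1]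
      show _ = aeval _ X
      rw [aeval_X]
  apply Subtype.ext
  show (zchClosure (A₀ := A₀) ({algebraMap F₀ F u₀} : Set F)).val.toRingHom
    (eval₂ ((rtk6c4etJ (A₀ := A₀) (F := F) u₀).comp g) b p) = 0
  rw [Polynomial.hom_eval₂, hc]
  exact hpb

/-- **`B` is the integral closure of `R` in `F`**: an element of `F` integral over `R` lies in
`B`. -/
theorem rtk6c4et_closed (u₀ : F₀) (x : F)
    (hx : ((algebraMap F₀ F).comp
      (zchClosure (A₀ := A₀) ({u₀} : Set F₀)).val.toRingHom).IsIntegralElem x) :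
    x ∈ zchClosure (A₀ := A₀) ({algebraMap F₀ F u₀} : Set F) := by
  obtain ⟨p, hp, hpx⟩ := hx
  have h1 : IsIntegral ↥(zchClosure (A₀ := A₀) ({algebraMap F₀ F u₀} : Set F)) x := by
    refine ⟨p.map (rtk6c4etJ (A₀ := A₀) (F := F) u₀), hp.map _, ?_⟩
    rw [Polynomial.eval₂_map]
    exact hpx
  obtain ⟨r, hr⟩ := at_chart_integrallyClosed (A₀ := A₀) (algebraMap F₀ F u₀) x h1
  have h2 : x = (r : F) := hr.symm
  rw [h2]
  exact r.2

/-- the contraction of a maximal ideal of `B` to `R` is maximal -/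
theorem rtk6c4et_comap_isMaximal (u₀ : F₀)
    (𝔫 : Ideal ↥(zchClosure (A₀ := A₀) ({algebraMap F₀ F u₀} : Set F))) [h𝔫 : 𝔫.IsMaximal] :
    (𝔫.comap (rtk6c4etJ (A₀ := A₀) (F := F) u₀)).IsMaximal :=
  Ideal.isMaximal_comap_of_isIntegral_of_isMaximal' (rtk6c4etJ (A₀ := A₀) (F := F) u₀)
    (rtk6c4et_isIntegral u₀) 𝔫

/-- **the closed point `𝔫 ∩ R` of the base chart** below a closed point `𝔫` of the top chart -/
def rtk6c4etPt (u₀ : F₀) (𝔫 : AtPt (F := F) π (algebraMap F₀ F u₀)) : AtPt (F := F₀) π u₀ :=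
  ⟨𝔫.1.comap (rtk6c4etJ (A₀ := A₀) (F := F) u₀),
    haveI := 𝔫.2.1
    rtk6c4et_comap_isMaximal u₀ 𝔫.1, by
    rw [Ideal.mem_comap, rtk6c4etJ_algebraMap]
    exact 𝔫.2.2⟩

theorem rtk6c4etPt_val (u₀ : F₀) (𝔫 : AtPt (F := F) π (algebraMap F₀ F u₀)) :
    (rtk6c4etPt u₀ 𝔫).1 = 𝔫.1.comap (rtk6c4etJ (A₀ := A₀) (F := F) u₀) := rfl

/-- **D-ET at the chart level.**  `F = F₀[S]`, `S` finite, `b t ^ d = a` with
`a, b ∈ R ∖ 𝔫₀` for `t ∈ S`, `d ∉ 𝔫₀`, `𝔫₀ = 𝔫 ∩ R` maximal: local generators `T` of `𝔫₀` are local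
generators of `𝔫`. -/
theorem rtk6c4et_locGen (u₀ : F₀) [FiniteDimensional E⟮u₀⟯ F₀]
    (𝔫 : Ideal ↥(zchClosure (A₀ := A₀) ({algebraMap F₀ F u₀} : Set F))) [h𝔫 : 𝔫.IsPrime]
    (𝔫₀ : Ideal ↥(zchClosure (A₀ := A₀) ({u₀} : Set F₀))) [h𝔫₀ : 𝔫₀.IsMaximal]
    (hlie : 𝔫.comap (rtk6c4etJ (A₀ := A₀) (F := F) u₀) = 𝔫₀)
    (d : ℕ) (hd : (d : ↥(zchClosure (A₀ := A₀) ({u₀} : Set F₀))) ∉ 𝔫₀)
    (S : Set F) (hS : S.Finite)
    (hl : ∀ t ∈ S, ∃ a b : ↥(zchClosure (A₀ := A₀) ({u₀} : Set F₀)), a ∉ 𝔫₀ ∧ b ∉ 𝔫₀ ∧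
      algebraMap F₀ F (b : F₀) * t ^ d = algebraMap F₀ F (a : F₀))
    (hgen : Algebra.adjoin F₀ S = ⊤)
    (T : Set ↥(zchClosure (A₀ := A₀) ({u₀} : Set F₀))) (hT : NodesLocGen 𝔫₀ T) :
    NodesLocGen 𝔫 (rtk6c4etJ (A₀ := A₀) (F := F) u₀ '' T) := by
  letI : Algebra ↥(zchClosure (A₀ := A₀) ({u₀} : Set F₀))
      ↥(zchClosure (A₀ := A₀) ({algebraMap F₀ F u₀} : Set F)) :=
    (rtk6c4etJ (A₀ := A₀) (F := F) u₀).toAlgebra
  haveI : IsScalarTower ↥(zchClosure (A₀ := A₀) ({u₀} : Set F₀))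
      ↥(zchClosure (A₀ := A₀) ({algebraMap F₀ F u₀} : Set F)) F :=
    IsScalarTower.of_algebraMap_eq fun _ => rfl
  haveI : IsIntegrallyClosed ↥(zchClosure (A₀ := A₀) ({u₀} : Set F₀)) :=
    nodesInst_isIntegrallyClosed ↥(Algebra.adjoin A₀ ({u₀} : Set F₀)) F₀
  haveI : IsFractionRing ↥(zchClosure (A₀ := A₀) ({u₀} : Set F₀)) F₀ :=
    mgc_chart_isFractionRing (A₀ := A₀) (E₀ := E) u₀
  haveI : IsIntegralClosure ↥(zchClosure (A₀ := A₀) ({algebraMap F₀ F u₀} : Set F))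
      ↥(zchClosure (A₀ := A₀) ({u₀} : Set F₀)) F :=
    { algebraMap_injective := Subtype.val_injective
      isIntegral_iff := fun {x} => by
        constructor
        · intro hx
          exact ⟨⟨x, rtk6c4et_closed u₀ x hx⟩, rfl⟩
        · rintro ⟨b, rfl⟩
          obtain ⟨p, hp, hpb⟩ := rtk6c4et_isIntegral (A₀ := A₀) (F := F) u₀ b
          refine ⟨p, hp, ?_⟩
          have h1 := congrArg (fun z : ↥(zchClosure (A₀ := A₀)
            ({algebraMap F₀ F u₀} : Set F)) => (z : F)) hpb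
          simp only [ZeroMemClass.coe_zero] at h1
          rw [← h1]
          exact (Polynomial.hom_eval₂ p (rtk6c4etJ (A₀ := A₀) (F := F) u₀)
            (zchClosure (A₀ := A₀) ({algebraMap F₀ F u₀} : Set F)).val.toRingHom b).symm }
  intro x hx
  exact rtk6etm_locGen_of_span (K := F₀) (L := F) 𝔫₀ d hd S hS hl hgen 𝔫 hlie T hT x hx

/-- **C4-ET-abs, general form.**  `j : B →+* B′` any ring homomorphism from the chart `B` of `F`
(over `A₀`) to a chart `B′ = zchClosure {u′}` (over another discrete valuation ring `A′`, e.g. the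
ramified base), `𝔫′` a closed point of `B′`, `𝔫₀ = 𝔫′ ∩ R` a closed point of the base chart `R`.
The thin dichotomy at `𝔫₀` gives `Rtk6ewmNodeAt V 𝔫′ j π` for the family `V` of `F′`, when
`F = F₀[S]` is generated by étale Kummer generators at `𝔫₀`.  At a crossing point the two
components `c₁, c₂` of the family through `𝔫′` containing `X`, `Y` are an input (`hcross`). -/
theorem rtk6c4et_nodeAt_gen {A' F' : Type*} [CommRing A'] [IsDomain A']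
    [IsDiscreteValuationRing A'] [Field F'] [Algebra A' F'] {π' : A'} {u' : F'}
    (u₀ : F₀) [FiniteDimensional E⟮u₀⟯ F₀]
    (W₁ W₂ : ValuationSubring F₀) (V : κ → ValuationSubring F')
    (𝔫' : AtPt (F := F') π' u')
    (j : ↥(zchClosure (A₀ := A₀) ({algebraMap F₀ F u₀} : Set F)) →+*
      ↥(zchClosure (A₀ := A') ({u'} : Set F')))
    (𝔫₀ : AtPt (F := F₀) π u₀)
    (hlie : (𝔫'.1.comap j).comap (rtk6c4etJ (A₀ := A₀) (F := F) u₀) = 𝔫₀.1)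
    (h0 : Rtk6lfThinAt W₁ W₂ 𝔫₀)
    (d : ℕ) (hd : (d : ↥(zchClosure (A₀ := A₀) ({u₀} : Set F₀))) ∉ 𝔫₀.1)
    (S : Set F) (hS : S.Finite)
    (hl : ∀ t ∈ S, ∃ a b : ↥(zchClosure (A₀ := A₀) ({u₀} : Set F₀)), a ∉ 𝔫₀.1 ∧ b ∉ 𝔫₀.1 ∧
      algebraMap F₀ F (b : F₀) * t ^ d = algebraMap F₀ F (a : F₀))
    (hgen : Algebra.adjoin F₀ S = ⊤)
    (hcross : ∀ X Y : ↥(zchClosure (A₀ := A₀) ({u₀} : Set F₀)),
      Rtk6lfCrossAt W₁ W₂ 𝔫₀ X Y →
      ∃ c₁ c₂ : κ,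
        (∀ x : ↥(zchClosure (A₀ := A₀) ({algebraMap F₀ F u₀} : Set F)),
          ((j x : ↥(zchClosure (A₀ := A') ({u'} : Set F'))) : F') ∈ (V c₁).nonunits →
            j x ∈ 𝔫'.1) ∧
        (∀ x : ↥(zchClosure (A₀ := A₀) ({algebraMap F₀ F u₀} : Set F)),
          ((j x : ↥(zchClosure (A₀ := A') ({u'} : Set F'))) : F') ∈ (V c₂).nonunits →
            j x ∈ 𝔫'.1) ∧
        ((j (rtk6c4etJ u₀ X) : ↥(zchClosure (A₀ := A') ({u'} : Set F'))) : F')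
          ∈ (V c₁).nonunits ∧
        ((j (rtk6c4etJ u₀ Y) : ↥(zchClosure (A₀ := A') ({u'} : Set F'))) : F')
          ∈ (V c₂).nonunits) :
    Rtk6ewmNodeAt V 𝔫' j
      (algebraMap A₀ ↥(zchClosure (A₀ := A₀) ({algebraMap F₀ F u₀} : Set F)) π) := by
  haveI := 𝔫'.2.1.isPrime
  haveI : (𝔫'.1.comap j).IsPrime := Ideal.comap_isPrime j 𝔫'.1
  haveI := 𝔫₀.2.1
  rcases h0 with ⟨s, hs, hgen₀⟩ | ⟨X, Y, hXY⟩
  · left
    refine ⟨rtk6c4etJ u₀ s, ?_, ?_⟩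
    · rw [← Ideal.mem_comap, ← Ideal.mem_comap, hlie]
      exact hs
    · have h := rtk6c4et_locGen (E := E) u₀ (𝔫'.1.comap j) 𝔫₀.1 hlie d hd S hS hl hgen _ hgen₀
      rw [Set.image_pair, rtk6c4etJ_algebraMap] at h
      exact h
  · right
    obtain ⟨c₁, c₂, ht₁, ht₂, hV₁, hV₂⟩ := hcross X Y hXY
    obtain ⟨h₁, h₂, hX, hY, ⟨w, hw, hwXY⟩, hgen₀⟩ := hXY
    refine ⟨c₁, c₂, rtk6c4etJ u₀ X, rtk6c4etJ u₀ Y, rtk6c4etJ u₀ w, ht₁, ht₂, hV₁, hV₂,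
      ?_, ?_, ?_⟩
    · rw [← Ideal.mem_comap, ← Ideal.mem_comap, hlie]
      exact hw
    · rw [← rtk6c4etJ_algebraMap, ← map_mul, hwXY, map_mul]
    · have h := rtk6c4et_locGen (E := E) u₀ (𝔫'.1.comap j) 𝔫₀.1 hlie d hd S hS hl hgen _ hgen₀
      rw [Set.image_insert_eq, Set.image_pair, rtk6c4etJ_algebraMap] at h
      exact h

/-- **C4-ET-abs.**  The thin dichotomy at the closed point `𝔫₀ = 𝔫 ∩ R` of the base chart gives
the dichotomy `Rtk6ewmNodeAt` at the closed point `𝔫` of the top chart `B` (on `B` itself), when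
`F = F₀[S]` is generated by étale Kummer generators at `𝔫₀`.  At a crossing point the two
components `c₁, c₂` of the family through `𝔫` above `W₁, W₂` are an input (`hcross`). -/
theorem rtk6c4et_nodeAt (u₀ : F₀) [FiniteDimensional E⟮u₀⟯ F₀]
    (W₁ W₂ : ValuationSubring F₀) (V : κ → ValuationSubring F)
    (𝔫 : AtPt (F := F) π (algebraMap F₀ F u₀)) (𝔫₀ : AtPt (F := F₀) π u₀)
    (hlie : 𝔫.1.comap (rtk6c4etJ (A₀ := A₀) (F := F) u₀) = 𝔫₀.1)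
    (h0 : Rtk6lfThinAt W₁ W₂ 𝔫₀)
    (d : ℕ) (hd : (d : ↥(zchClosure (A₀ := A₀) ({u₀} : Set F₀))) ∉ 𝔫₀.1)
    (S : Set F) (hS : S.Finite)
    (hl : ∀ t ∈ S, ∃ a b : ↥(zchClosure (A₀ := A₀) ({u₀} : Set F₀)), a ∉ 𝔫₀.1 ∧ b ∉ 𝔫₀.1 ∧
      algebraMap F₀ F (b : F₀) * t ^ d = algebraMap F₀ F (a : F₀))
    (hgen : Algebra.adjoin F₀ S = ⊤)
    (hcross : ∀ X Y : ↥(zchClosure (A₀ := A₀) ({u₀} : Set F₀)),
      Rtk6lfCrossAt W₁ W₂ 𝔫₀ X Y →
      ∃ c₁ c₂ : κ, atThrough 𝔫 (V c₁) ∧ atThrough 𝔫 (V c₂) ∧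
        (∀ x : F₀, x ∈ W₁.nonunits → algebraMap F₀ F x ∈ (V c₁).nonunits) ∧
        (∀ x : F₀, x ∈ W₂.nonunits → algebraMap F₀ F x ∈ (V c₂).nonunits)) :
    Rtk6ewmNodeAt V 𝔫 (RingHom.id ↥(zchClosure (A₀ := A₀) ({algebraMap F₀ F u₀} : Set F)))
      (algebraMap A₀ ↥(zchClosure (A₀ := A₀) ({algebraMap F₀ F u₀} : Set F)) π) := by
  refine rtk6c4et_nodeAt_gen (E := E) u₀ W₁ W₂ V 𝔫 (RingHom.id _) 𝔫₀ ?_ h0 d hd S hS hl hgen ?_
  · rw [Ideal.comap_id]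
    exact hlie
  · intro X Y hXY
    obtain ⟨c₁, c₂, ht₁, ht₂, hV₁, hV₂⟩ := hcross X Y hXY
    exact ⟨c₁, c₂, fun x hx => ht₁ x hx, fun x hx => ht₂ x hx, hV₁ _ hXY.2.2.1,
      hV₂ _ hXY.2.2.2.1⟩

/-- **C4-ET-abs** at `𝔫₀ := rtk6c4etPt u₀ 𝔫` (the closed point `𝔫 ∩ R`). -/
theorem rtk6c4et_nodeAt_pt (u₀ : F₀) [FiniteDimensional E⟮u₀⟯ F₀]
    (W₁ W₂ : ValuationSubring F₀) (V : κ → ValuationSubring F)
    (𝔫 : AtPt (F := F) π (algebraMap F₀ F u₀))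
    (h0 : Rtk6lfThinAt W₁ W₂ (rtk6c4etPt u₀ 𝔫))
    (d : ℕ) (hd : (d : ↥(zchClosure (A₀ := A₀) ({algebraMap F₀ F u₀} : Set F))) ∉ 𝔫.1)
    (S : Set F) (hS : S.Finite)
    (hl : ∀ t ∈ S, ∃ a b : ↥(zchClosure (A₀ := A₀) ({u₀} : Set F₀)),
      rtk6c4etJ (F := F) u₀ a ∉ 𝔫.1 ∧ rtk6c4etJ (F := F) u₀ b ∉ 𝔫.1 ∧
      algebraMap F₀ F (b : F₀) * t ^ d = algebraMap F₀ F (a : F₀))
    (hgen : Algebra.adjoin F₀ S = ⊤)
    (hcross : ∀ X Y : ↥(zchClosure (A₀ := A₀) ({u₀} : Set F₀)),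
      Rtk6lfCrossAt W₁ W₂ (rtk6c4etPt u₀ 𝔫) X Y →
      ∃ c₁ c₂ : κ, atThrough 𝔫 (V c₁) ∧ atThrough 𝔫 (V c₂) ∧
        (∀ x : F₀, x ∈ W₁.nonunits → algebraMap F₀ F x ∈ (V c₁).nonunits) ∧
        (∀ x : F₀, x ∈ W₂.nonunits → algebraMap F₀ F x ∈ (V c₂).nonunits)) :
    Rtk6ewmNodeAt V 𝔫 (RingHom.id ↥(zchClosure (A₀ := A₀) ({algebraMap F₀ F u₀} : Set F)))
      (algebraMap A₀ ↥(zchClosure (A₀ := A₀) ({algebraMap F₀ F u₀} : Set F)) π) :=
  rtk6c4et_nodeAt (E := E) u₀ W₁ W₂ V 𝔫 (rtk6c4etPt u₀ 𝔫) rfl h0 d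
    (fun h => hd (by rw [← rtk6c4etJ_natCast u₀ d]; exact h)) S hS
    (fun t ht => by
      obtain ⟨a, b, ha, hb, hab⟩ := hl t ht
      exact ⟨a, b, ha, hb, hab⟩) hgen hcross

end C4Et

end Fermat.Agent.RT.K6
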