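/-
K-machine, piece K6, piece **C4-THR** (helper66), abstract part (Mathlib only):
**a component over a point of the base chart has a conjugate through every point above it.**

`F` a field with an action of a finite group `G`, `R ⊆ B` subrings of `F`, `B` stable under `G`,
`B ^ G = R`  (so `B` is integral over `R` and `G` is transitive on the primes of `B` over a prime
of `R`);  `W` a valuation subring of `F` containing `B`;  `𝔫` a prime of `B` such that the centre
of `W` on `R` lies in `𝔫 ∩ R`.  Then some conjugate `g⁻¹ W` passes through `𝔫`: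
`∀ b ∈ B, g • b ∈ 𝔪(W) → b ∈ 𝔫`.

* `rtk6thr_abs` : the statement above (going-up + `Algebra.IsInvariant.exists_smul_of_under_eq`);
* `rtk6thr_of_decomp` : through-ness at a ramified chart `B = j R + ϖ B`: `W` passes through `𝔫`
  as soon as `𝔪(W) ∩ j R ⊆ 𝔫`.
-/
import Mathlib

set_option autoImplicit false
set_option linter.style.haveILetI false
set_option linter.unusedSectionVars false
set_option linter.unusedVariables false

namespace Fermat.Agent.RT.K6

open scoped Pointwise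

section Abs

variable {F : Type*} [Field F] {G : Type*} [Group G] [MulSemiringAction G F]
  {A₀ : Type*} [CommRing A₀] [Algebra A₀ F]

/-- the action of `G` on a stable subalgebra -/
@[reducible] def rtk6thrAct (B : Subalgebra A₀ F) (hGB : ∀ (g : G), ∀ b ∈ B, g • b ∈ B) :
    MulSemiringAction G ↥B where
  smul g b := ⟨g • (b : F), hGB g b b.2⟩
  one_smul b := Subtype.ext (one_smul G (b : F))
  mul_smul g h b := Subtype.ext (mul_smul g h (b : F))
  smul_zero g := Subtype.ext (smul_zero g)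
  smul_add g a b := Subtype.ext (smul_add g (a : F) (b : F))
  smul_one g := Subtype.ext (smul_one g)
  smul_mul g a b := Subtype.ext (MulSemiringAction.smul_mul g (a : F) (b : F))

/-- **Some conjugate of `W` passes through `𝔫`.** -/
theorem rtk6thr_abs [Finite G] (R : Subring F) (B : Subalgebra A₀ F) (hRB : ∀ x ∈ R, x ∈ B)
    (hGB : ∀ (g : G), ∀ b ∈ B, g • b ∈ B)
    (hGR : ∀ (g : G), ∀ x ∈ R, g • x = x)
    (hfix : ∀ b ∈ B, (∀ g : G, g • b = b) → b ∈ R)
    (W : ValuationSubring F) (hBW : ∀ b ∈ B, b ∈ W)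
    (𝔫 : Ideal ↥B) [h𝔫 : 𝔫.IsPrime]
    (hthr : ∀ b : ↥B, (b : F) ∈ R → (b : F) ∈ W.nonunits → b ∈ 𝔫) :
    ∃ g : G, ∀ b : ↥B, g • (b : F) ∈ W.nonunits → b ∈ 𝔫 := by
  classical
  letI : MulSemiringAction G ↥B := rtk6thrAct B hGB
  let jRB : ↥R →+* ↥B :=
    { toFun := fun x => ⟨(x : F), hRB x x.2⟩
      map_one' := rfl
      map_mul' := fun _ _ => rfl
      map_zero' := rfl
      map_add' := fun _ _ => rfl }
  letI : Algebra ↥R ↥B := jRB.toAlgebra
  have hsmul : ∀ (g : G) (b : ↥B), ((g • b : ↥B) : F) = g • (b : F) := fun _ _ => rfl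
  have halg : ∀ x : ↥R, ((algebraMap ↥R ↥B x : ↥B) : F) = (x : F) := fun _ => rfl
  haveI : SMulCommClass G ↥R ↥B := ⟨fun g x b => by
    apply Subtype.ext
    rw [hsmul, Algebra.smul_def, Algebra.smul_def]
    show g • ((x : F) * (b : F)) = (x : F) * g • (b : F)
    rw [MulSemiringAction.smul_mul, hGR g x x.2]⟩
  haveI : Algebra.IsInvariant ↥R ↥B G := ⟨fun b hb =>
    ⟨⟨(b : F), hfix b b.2 fun g => by rw [← hsmul, hb g]⟩, Subtype.ext rfl⟩⟩
  haveI : Algebra.IsIntegral ↥R ↥B := Algebra.IsInvariant.isIntegral ↥R ↥B G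
  -- the centre of `W` on `B`
  let f : ↥B →+* ↥W :=
    { toFun := fun b => ⟨(b : F), hBW b b.2⟩
      map_one' := rfl
      map_mul' := fun _ _ => rfl
      map_zero' := rfl
      map_add' := fun _ _ => rfl }
  let P : Ideal ↥B := (IsLocalRing.maximalIdeal ↥W).comap f
  haveI hP : P.IsPrime := Ideal.comap_isPrime f _
  have hPmem : ∀ b : ↥B, b ∈ P ↔ (b : F) ∈ W.nonunits := by
    intro b
    show f b ∈ IsLocalRing.maximalIdeal ↥W ↔ _
    rw [IsLocalRing.mem_maximalIdeal, mem_nonunits_iff]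
    constructor
    · intro h
      by_contra hcon
      have hval : W.valuation (b : F) = 1 := by
        have hle : W.valuation (b : F) ≤ 1 := (W.valuation_le_one_iff _).mpr (hBW b b.2)
        rcases lt_or_eq_of_le hle with hlt | heq
        · exact absurd ((ValuationSubring.mem_nonunits_iff W).mpr hlt) hcon
        · exact heq
      exact h ((W.valuation_eq_one_iff (f b)).mpr hval)
    · intro h hu
      have hval : W.valuation ((f b : ↥W) : F) = 1 := (W.valuation_eq_one_iff (f b)).mp hu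
      have hlt : W.valuation (b : F) < 1 := (ValuationSubring.mem_nonunits_iff W).mp h
      exact absurd hval hlt.ne
  -- the centre of `W` on `R` lies in `𝔫 ∩ R`
  have hle : P.comap (algebraMap ↥R ↥B) ≤ 𝔫.comap (algebraMap ↥R ↥B) := by
    intro x hx
    rw [Ideal.mem_comap] at hx ⊢
    exact hthr _ (by rw [halg]; exact x.2) ((hPmem _).mp hx)
  -- going up
  obtain ⟨Q, hPQ, hQ, hQ𝔫⟩ :=
    Ideal.exists_ideal_over_prime_of_isIntegral_of_isPrime (𝔫.comap (algebraMap ↥R ↥B)) P hle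
  -- transitivity
  haveI := hQ
  obtain ⟨g, hg⟩ := Algebra.IsInvariant.exists_smul_of_under_eq ↥R ↥B G Q 𝔫 hQ𝔫
  refine ⟨g⁻¹, fun b hb => ?_⟩
  rw [hg, Ideal.mem_pointwise_smul_iff_inv_smul_mem]
  apply hPQ
  rw [hPmem, hsmul]
  exact hb

end Abs

section Ramified

variable {F : Type*} [Field F] {R B : Type*} [CommRing R] [CommRing B]

/-- **Through-ness at a ramified chart.**  If `B = j R + ϖ B` (`MgcRamified.decomp`), `ϖ ∈ 𝔫` and
`ϖ ∈ 𝔪(W)`, then `W` passes through `𝔫` as soon as `𝔪(W) ∩ j R ⊆ 𝔫`. -/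
theorem rtk6thr_of_decomp (ι : B →+* F) (j : R →+* B) (ϖ : B)
    (hdec : ∀ x : B, ∃ c : R, ∃ z : B, x = j c + ϖ * z)
    (W : ValuationSubring F) (hBW : ∀ b, ι b ∈ W) (hϖW : ι ϖ ∈ W.nonunits)
    (𝔫 : Ideal B) (hϖ𝔫 : ϖ ∈ 𝔫)
    (h : ∀ x : R, ι (j x) ∈ W.nonunits → j x ∈ 𝔫) :
    ∀ b : B, ι b ∈ W.nonunits → b ∈ 𝔫 := by
  intro b hb
  obtain ⟨c, z, rfl⟩ := hdec b
  have hϖz : ι (ϖ * z) ∈ W.nonunits := by
    rw [map_mul, ValuationSubring.mem_nonunits_iff, map_mul]
    have h1 : W.valuation (ι ϖ) < 1 := (ValuationSubring.mem_nonunits_iff W).mp hϖW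
    have h2 : W.valuation (ι z) ≤ 1 := (W.valuation_le_one_iff _).mpr (hBW z)
    exact lt_of_le_of_lt (mul_le_of_le_one_right' h2) h1
  have hjc : ι (j c) ∈ W.nonunits := by
    have e : ι (j c) = ι (j c + ϖ * z) - ι (ϖ * z) := by rw [map_add]; ring
    rw [e, ValuationSubring.mem_nonunits_iff]
    exact lt_of_le_of_lt (W.valuation.map_sub _ _)
      (max_lt ((ValuationSubring.mem_nonunits_iff W).mp hb)
        ((ValuationSubring.mem_nonunits_iff W).mp hϖz))
  exact 𝔫.add_mem (h c hjc) (𝔫.mul_mem_right z hϖ𝔫)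

end Ramified

end Fermat.Agent.RT.K6
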