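/-
K-machine, piece K6, piece **C4-THR** (helper66): THE COMPONENTS THROUGH A CLOSED POINT.

Setting of `DIFamMg.lean` (helper82): `A′ = mgcA A K₁` a DVR with uniformizer `π`,
`E′ = mgcE A K₁`, `F′ = rtk6diF A K₁ (M₁ q) M H`, `F₀′ = mgcF A K₁ (M₁ q)` the `Γ₀(M₁ q)`-field,
`incl = rtk6diIncl : F₀′ → F′`, `κ = rtk6dfK`, `V = rtk6dfV` the family of all conjugates of
`V_∞`, `V_0` under `Γ = Gal(F′ / F₀′)`.  `u₀ ∈ F₀′`, `u = incl u₀`, `B = zchClosure {u}` the chart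
of `F′`, `R₀ = zchClosure {u₀}` the chart of the `Γ₀`-field, `𝔫 : AtPt π u` a closed point of `B`.

* `rtk6thr_isIntegral_of_incl` : `incl x` integral over `A′[incl u₀]` ⇒ `x` integral over `A′[u₀]`;
* `rtk6thrJ u₀ : R₀ →+* B` the chart map (`rtk6thrJ_coe`), `rtk6thrPt 𝔫 : AtPt π u₀` the closed
  point `𝔫 ∩ R₀` of the `Γ₀`-chart;
* **`rtk6thr_main`** : if `UNIP.mgvV b` passes through `𝔫 ∩ R₀` (elementwise form), then there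
  is `c : κ` with `(V c).comap incl = mgvV b` and `atThrough 𝔫 (V c)`;
* `rtk6thr_of_atThrough`, `rtk6thr_J`, `rtk6thr_Jinv` : the same with `atThrough (𝔫 ∩ R₀) (mgvV b)`,
  for the charts `u₀`, `j`, `1 / j`;
* `rtk6thr_cross` : both components at a crossing point;
* `rtk6thr_comap_atThrough`, `rtk6thr_side` : conversely, `V c` through `𝔫` ⇒ `(V c) ∩ F₀′`
  (`= mgvV b` for some `b`) through `𝔫 ∩ R₀`;
* `rtk6thr_atThrough_of_ramified` (abstract charts): through-ness at a ramified chart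
  `B_u = j R + π B_u` follows from `𝔪(W) ∩ j R ⊆ 𝔫` (level change `A₀ → A′`).
-/
import Fermat.Agent.RT.K6.DIFamMg
import Fermat.Agent.RT.K6.C4ThrAbs
import Fermat.Agent.UNIP.MGChartsGen

set_option autoImplicit false
set_option linter.style.haveILetI false
set_option linter.unusedSectionVars false
set_option linter.unusedVariables false

noncomputable section

namespace Fermat.Agent.RT.K6

open ModularCurve AlgebraicCurve Fermat.Agent.ES Fermat.Agent.ES.G2 Fermat.Agent.INJ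
open Fermat.Agent.UNIP Fermat.Agent.ES1 Fermat.Agent.ES1.G2 Fermat.Agent.AL IntermediateField
open Polynomial

/-! ### Transfer along the inclusion, converse direction -/

section Transfer

variable {K : Type*} [Field K] {A' : ValuationSubring K} {L M : ℕ} {H : Subgroup (ZMod M)ˣ}

theorem rtk6thr_inclAdj_surjective (u₀ : ↥(modularFunctionFieldFullC K L)) :
    Function.Surjective (rtk6dvInclAdj A' L M H u₀) := by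
  rintro ⟨s, hs⟩
  obtain ⟨s₀, hs₀, rfl⟩ := rtk6dv_exists_of_mem_adjoin hs
  exact ⟨⟨s₀, hs₀⟩, Subtype.ext rfl⟩

/-- integrality over the chart ring is reflected by the inclusion -/
theorem rtk6thr_isIntegral_of_incl {u₀ b₀ : ↥(modularFunctionFieldFullC K L)}
    (hb : IsIntegral ↥(Algebra.adjoin ↥A' ({rtk6diIncl L M H u₀} : Set ↥(fieldC K L M H)))
      (rtk6diIncl L M H b₀)) :
    IsIntegral ↥(Algebra.adjoin ↥A' ({u₀} : Set ↥(modularFunctionFieldFullC K L))) b₀ := by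
  obtain ⟨P, hPm, hP⟩ := hb
  obtain ⟨P₁, hP₁⟩ := Polynomial.map_surjective _ (rtk6thr_inclAdj_surjective (A' := A')
    (M := M) (H := H) u₀) P
  obtain ⟨P₀, hP₀, -, hP₀m⟩ := Polynomial.lifts_and_degree_eq_and_monic
    ((Polynomial.mem_lifts P).mpr ⟨P₁, hP₁⟩) hPm
  refine ⟨P₀, hP₀m, ?_⟩
  apply rtk6diIncl_injective (K := K) L M H
  rw [map_zero, Polynomial.hom_eval₂]
  have e : (rtk6diIncl L M H).comp
      (algebraMap ↥(Algebra.adjoin ↥A' ({u₀} : Set ↥(modularFunctionFieldFullC K L)))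
        ↥(modularFunctionFieldFullC K L)) =
      (algebraMap ↥(Algebra.adjoin ↥A' ({rtk6diIncl L M H u₀} : Set ↥(fieldC K L M H)))
        ↥(fieldC K L M H)).comp (rtk6dvInclAdj A' L M H u₀) := RingHom.ext fun _ => rfl
  rw [e, ← Polynomial.eval₂_map, hP₀]
  exact hP

end Transfer

/-! ### Through-ness at a ramified chart -/

section Ramified

variable {A₀ E F : Type*} [CommRing A₀] [IsDomain A₀] [IsDiscreteValuationRing A₀]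
  [Field E] [Algebra A₀ E] [IsFractionRing A₀ E] [CharZero E]
  [Field F] [Algebra E F] [Algebra A₀ F] [IsScalarTower A₀ E F]
  {π : A₀}

/-- **Through-ness at a ramified chart**: if `j : R →+* B_u` is `MgcRamified` (`B_u = j R + π B_u`)
and `𝔪(W) ∩ j R ⊆ 𝔫` (the first two fields of `Rtk6ewmCrossAt`), then `W` passes through `𝔫`. -/
theorem rtk6thr_atThrough_of_ramified {u : F} (𝔫 : AtPt (F := F) π u)
    {R : Type*} [CommRing R] (j : R →+* ↥(zchClosure (A₀ := A₀) ({u} : Set F))) {p : R}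
    (hram : MgcRamified j (algebraMap A₀ ↥(zchClosure (A₀ := A₀) ({u} : Set F)) π) p)
    (W : ValuationSubring F)
    (hBW : ∀ b : F, IsIntegral ↥(Algebra.adjoin A₀ ({u} : Set F)) b → b ∈ W)
    (hπW : algebraMap A₀ F π ∈ W.nonunits)
    (h : ∀ x : R, ((j x : ↥(zchClosure (A₀ := A₀) ({u} : Set F))) : F) ∈ W.nonunits →
      j x ∈ 𝔫.1) :
    atThrough 𝔫 W :=
  rtk6thr_of_decomp (zchClosure (A₀ := A₀) ({u} : Set F)).val.toRingHom j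
    (algebraMap A₀ ↥(zchClosure (A₀ := A₀) ({u} : Set F)) π) hram.decomp W
    (fun b => hBW _ (mem_zchClosure.mp b.2)) hπW 𝔫.1 𝔫.2.2 h

end Ramified

/-! ### The chart map `R₀ →+* B` and the point `𝔫 ∩ R₀` -/

section ChartMap

variable {A : ValuationSubring Qb} {K₁ : IntermediateField ℚ Qb}
  [IsDiscreteValuationRing ↥(mgcA A K₁)] {π : ↥(mgcA A K₁)}
  {L : ℕ} (M : ℕ) (H : Subgroup (ZMod M)ˣ)

/-- **the chart map** `R₀ = zchClosure {u₀} →+* B = zchClosure {u}`, `u = incl u₀` -/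
def rtk6thrJ (u₀ : ↥(mgcF A K₁ L)) {u : ↥(rtk6diF A K₁ L M H)}
    (hu : rtk6diIncl L M H u₀ = u) :
    ↥(zchClosure (A₀ := ↥(mgcA A K₁)) ({u₀} : Set ↥(mgcF A K₁ L))) →+*
      ↥(zchClosure (A₀ := ↥(mgcA A K₁)) ({u} : Set ↥(rtk6diF A K₁ L M H))) :=
  RingHom.codRestrict ((rtk6diIncl (K := ↥(mgcE A K₁)) L M H).comp
      (zchClosure (A₀ := ↥(mgcA A K₁)) ({u₀} : Set ↥(mgcF A K₁ L))).val.toRingHom)
    (zchClosure (A₀ := ↥(mgcA A K₁)) ({u} : Set ↥(rtk6diF A K₁ L M H)))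
    (fun x => by
      subst hu
      exact mem_zchClosure.mpr (rtk6dv_isIntegral_incl (mem_zchClosure.mp x.2)))

@[simp]
theorem rtk6thrJ_coe (u₀ : ↥(mgcF A K₁ L)) {u : ↥(rtk6diF A K₁ L M H)}
    (hu : rtk6diIncl L M H u₀ = u)
    (x : ↥(zchClosure (A₀ := ↥(mgcA A K₁)) ({u₀} : Set ↥(mgcF A K₁ L)))) :
    ((rtk6thrJ M H u₀ hu x : ↥(zchClosure (A₀ := ↥(mgcA A K₁))
      ({u} : Set ↥(rtk6diF A K₁ L M H)))) : ↥(rtk6diF A K₁ L M H)) =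
      rtk6diIncl L M H (x : ↥(mgcF A K₁ L)) := rfl

theorem rtk6thrJ_injective (u₀ : ↥(mgcF A K₁ L)) {u : ↥(rtk6diF A K₁ L M H)}
    (hu : rtk6diIncl L M H u₀ = u) : Function.Injective (rtk6thrJ M H u₀ hu) := by
  intro x y hxy
  apply Subtype.ext
  apply rtk6diIncl_injective (K := ↥(mgcE A K₁)) L M H
  rw [← rtk6thrJ_coe M H u₀ hu x, ← rtk6thrJ_coe M H u₀ hu y, hxy]

theorem rtk6thrJ_algebraMap (u₀ : ↥(mgcF A K₁ L)) {u : ↥(rtk6diF A K₁ L M H)}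
    (hu : rtk6diIncl L M H u₀ = u) (a : ↥(mgcA A K₁)) :
    rtk6thrJ M H u₀ hu (algebraMap ↥(mgcA A K₁)
      ↥(zchClosure (A₀ := ↥(mgcA A K₁)) ({u₀} : Set ↥(mgcF A K₁ L))) a) =
    algebraMap ↥(mgcA A K₁)
      ↥(zchClosure (A₀ := ↥(mgcA A K₁)) ({u} : Set ↥(rtk6diF A K₁ L M H))) a :=
  Subtype.ext (rtk6dv_incl_algebraMapA (mgcA A K₁) L M H a)

/-- an element of `B` lying in the image of the `Γ₀`-field comes from `R₀` -/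
theorem rtk6thrJ_exists_of_incl (u₀ : ↥(mgcF A K₁ L)) {u : ↥(rtk6diF A K₁ L M H)}
    (hu : rtk6diIncl L M H u₀ = u)
    (y : ↥(zchClosure (A₀ := ↥(mgcA A K₁)) ({u} : Set ↥(rtk6diF A K₁ L M H))))
    (x : ↥(mgcF A K₁ L)) (hxy : rtk6diIncl L M H x = (y : ↥(rtk6diF A K₁ L M H))) :
    ∃ x' : ↥(zchClosure (A₀ := ↥(mgcA A K₁)) ({u₀} : Set ↥(mgcF A K₁ L))),
      (x' : ↥(mgcF A K₁ L)) = x ∧ rtk6thrJ M H u₀ hu x' = y := by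
  subst hu
  have hint : IsIntegral ↥(Algebra.adjoin ↥(mgcA A K₁) ({u₀} : Set ↥(mgcF A K₁ L))) x :=
    rtk6thr_isIntegral_of_incl (A' := mgcA A K₁) (M := M) (H := H)
      (by rw [hxy]; exact mem_zchClosure.mp y.2)
  exact ⟨⟨x, mem_zchClosure.mpr hint⟩, rfl, Subtype.ext hxy⟩

/-- **`B` is integral over `R₀`** -/
theorem rtk6thrJ_isIntegral (u₀ : ↥(mgcF A K₁ L)) {u : ↥(rtk6diF A K₁ L M H)}
    (hu : rtk6diIncl L M H u₀ = u) : (rtk6thrJ M H u₀ hu).IsIntegral := by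
  subst hu
  intro y
  obtain ⟨P, hPm, hP⟩ := mem_zchClosure.mp y.2
  obtain ⟨P₁, hP₁⟩ := Polynomial.map_surjective _ (rtk6thr_inclAdj_surjective
    (A' := mgcA A K₁) (M := M) (H := H) u₀) P
  obtain ⟨P₀, hP₀, -, hP₀m⟩ := Polynomial.lifts_and_degree_eq_and_monic
    ((Polynomial.mem_lifts P).mpr ⟨P₁, hP₁⟩) hPm
  -- the inclusion `A′[u₀] → R₀`
  let i : ↥(Algebra.adjoin ↥(mgcA A K₁) ({u₀} : Set ↥(mgcF A K₁ L))) →+*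
      ↥(zchClosure (A₀ := ↥(mgcA A K₁)) ({u₀} : Set ↥(mgcF A K₁ L))) :=
    { toFun := fun s => ⟨(s : ↥(mgcF A K₁ L)), mem_zchClosure.mpr isIntegral_algebraMap⟩
      map_one' := rfl
      map_mul' := fun _ _ => rfl
      map_zero' := rfl
      map_add' := fun _ _ => rfl }
  refine ⟨P₀.map i, hP₀m.map i, ?_⟩
  apply Subtype.ext
  have e1 : ((Polynomial.eval₂ (rtk6thrJ M H u₀ rfl) y (P₀.map i) :
      ↥(zchClosure (A₀ := ↥(mgcA A K₁))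
        ({rtk6diIncl L M H u₀} : Set ↥(rtk6diF A K₁ L M H)))) : ↥(rtk6diF A K₁ L M H)) =
      Polynomial.eval₂ ((zchClosure (A₀ := ↥(mgcA A K₁))
        ({rtk6diIncl L M H u₀} : Set ↥(rtk6diF A K₁ L M H))).val.toRingHom.comp
          (rtk6thrJ M H u₀ rfl)) (y : ↥(rtk6diF A K₁ L M H)) (P₀.map i) :=
    Polynomial.hom_eval₂ (P₀.map i) (rtk6thrJ M H u₀ rfl)
      (zchClosure (A₀ := ↥(mgcA A K₁))
        ({rtk6diIncl L M H u₀} : Set ↥(rtk6diF A K₁ L M H))).val.toRingHom y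
  rw [e1, Polynomial.eval₂_map]
  have e2 : ((zchClosure (A₀ := ↥(mgcA A K₁))
        ({rtk6diIncl L M H u₀} : Set ↥(rtk6diF A K₁ L M H))).val.toRingHom.comp
          (rtk6thrJ M H u₀ rfl)).comp i =
      (algebraMap ↥(Algebra.adjoin ↥(mgcA A K₁)
        ({rtk6diIncl L M H u₀} : Set ↥(rtk6diF A K₁ L M H))) ↥(rtk6diF A K₁ L M H)).comp
        (rtk6dvInclAdj (mgcA A K₁) L M H u₀) := RingHom.ext fun _ => rfl
  rw [e2, ← Polynomial.eval₂_map, hP₀]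
  exact hP

/-- **the closed point `𝔫 ∩ R₀` of the `Γ₀`-chart** -/
def rtk6thrPt (u₀ : ↥(mgcF A K₁ L)) {u : ↥(rtk6diF A K₁ L M H)}
    (hu : rtk6diIncl L M H u₀ = u) (𝔫 : AtPt (F := ↥(rtk6diF A K₁ L M H)) π u) :
    AtPt (F := ↥(mgcF A K₁ L)) π u₀ :=
  ⟨𝔫.1.comap (rtk6thrJ M H u₀ hu),
    haveI := 𝔫.2.1
    Ideal.isMaximal_comap_of_isIntegral_of_isMaximal' (rtk6thrJ M H u₀ hu)
      (rtk6thrJ_isIntegral M H u₀ hu) 𝔫.1,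
    by
      rw [Ideal.mem_comap, rtk6thrJ_algebraMap]
      exact 𝔫.2.2⟩

theorem mem_rtk6thrPt (u₀ : ↥(mgcF A K₁ L)) {u : ↥(rtk6diF A K₁ L M H)}
    (hu : rtk6diIncl L M H u₀ = u) (𝔫 : AtPt (F := ↥(rtk6diF A K₁ L M H)) π u)
    (x : ↥(zchClosure (A₀ := ↥(mgcA A K₁)) ({u₀} : Set ↥(mgcF A K₁ L)))) :
    x ∈ (rtk6thrPt M H u₀ hu 𝔫).1 ↔ rtk6thrJ M H u₀ hu x ∈ 𝔫.1 :=
  Ideal.mem_comap (f := rtk6thrJ M H u₀ hu) (K := 𝔫.1) (x := x)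

/-- **`W` through `𝔫` ⇒ `W ∩ F₀′` through `𝔫 ∩ R₀`** -/
theorem rtk6thr_comap_atThrough (u₀ : ↥(mgcF A K₁ L)) {u : ↥(rtk6diF A K₁ L M H)}
    (hu : rtk6diIncl L M H u₀ = u) (𝔫 : AtPt (F := ↥(rtk6diF A K₁ L M H)) π u)
    (W : ValuationSubring ↥(rtk6diF A K₁ L M H)) (h : atThrough 𝔫 W) :
    atThrough (rtk6thrPt M H u₀ hu 𝔫) (W.comap (rtk6diIncl L M H)) := by
  intro x hx
  rw [mem_rtk6thrPt]
  refine h _ ?_
  rw [rtk6thrJ_coe]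
  exact (vt_mem_nonunits_comap W _ _).mp hx

end ChartMap

section Concrete

variable {A : ValuationSubring Qb} {K₁ : IntermediateField ℚ Qb}
  [IsDiscreteValuationRing ↥(mgcA A K₁)] {π : ↥(mgcA A K₁)} (hπ : Irreducible π)
  (ιC : ↥(mgcE A K₁) →+* ℂ) {q M₁ : ℕ} [NeZero q] [NeZero M₁] [NeZero (M₁ * q)]
  (hq : q.Prime) (hqM : ¬ q ∣ M₁) (M : ℕ) (H : Subgroup (ZMod M)ˣ)
  (w : ↥(rtk6diF A K₁ (M₁ * q) M H) ≃ₐ[↥(mgcE A K₁)] ↥(rtk6diF A K₁ (M₁ * q) M H))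

/-- **C4-THR, elementwise form.**  If `mgvV b` passes through `𝔫 ∩ R₀`, then some member `V c` of
the family with `(V c) ∩ F₀′ = mgvV b` passes through `𝔫`. -/
theorem rtk6thr_main (hw : Rtk6dvWIncl ιC hq hqM M H w) (hML : M ∣ M₁ * q)
    (u₀ : ↥(mgcF A K₁ (M₁ * q))) {u : ↥(rtk6diF A K₁ (M₁ * q) M H)}
    (hu : rtk6diIncl (M₁ * q) M H u₀ = u)
    (b : Bool) (hu₀ : u₀ ∈ mgvV hπ ιC hq hqM b)
    (𝔫 : AtPt (F := ↥(rtk6diF A K₁ (M₁ * q) M H)) π u)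
    (hthr : ∀ (y : ↥(zchClosure (A₀ := ↥(mgcA A K₁))
        ({u} : Set ↥(rtk6diF A K₁ (M₁ * q) M H)))) (x : ↥(mgcF A K₁ (M₁ * q))),
      rtk6diIncl (M₁ * q) M H x = (y : ↥(rtk6diF A K₁ (M₁ * q) M H)) →
      x ∈ (mgvV hπ ιC hq hqM b).nonunits → y ∈ 𝔫.1) :
    ∃ c : rtk6dfK hπ M H w,
      (rtk6dfV hπ M H w c).comap (rtk6diIncl (M₁ * q) M H) = mgvV hπ ιC hq hqM b ∧
      atThrough 𝔫 (rtk6dfV hπ M H w c) := by
  subst hu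
  haveI : Algebra.IsAlgebraic ℚ Qb := AlgebraicClosure.isAlgebraic ℚ
  haveI : Algebra.IsAlgebraic ℚ ↥(mgcE A K₁) :=
    Algebra.IsAlgebraic.of_injective (mgcE A K₁).val Subtype.val_injective
  haveI : NeZero M := ⟨fun h0 => NeZero.ne (M₁ * q) (Nat.eq_zero_of_zero_dvd (h0 ▸ hML))⟩
  haveI : Finite ↥(rtk6dfGam ↥(mgcE A K₁) (M₁ * q) M H) :=
    rtk6df_finite (K := ↥(mgcE A K₁)) (H := H) (NeZero.ne (M₁ * q)) hML
  haveI := 𝔫.2.1.isPrime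
  -- the image of the `Γ₀`-field inside the chart
  let R : Subring ↥(rtk6diF A K₁ (M₁ * q) M H) :=
    (zchClosure (A₀ := ↥(mgcA A K₁))
      ({rtk6diIncl (M₁ * q) M H u₀} : Set ↥(rtk6diF A K₁ (M₁ * q) M H))).toSubring ⊓
    (rtk6diIncl (K := ↥(mgcE A K₁)) (M₁ * q) M H).range
  have hgfix : ∀ (g : ↥(rtk6dfGam ↥(mgcE A K₁) (M₁ * q) M H))
      (s : ↥(rtk6diF A K₁ (M₁ * q) M H)),
      s ∈ Algebra.adjoin ↥(mgcA A K₁)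
        ({rtk6diIncl (M₁ * q) M H u₀} : Set ↥(rtk6diF A K₁ (M₁ * q) M H)) →
      (g : ↥(rtk6diF A K₁ (M₁ * q) M H) ≃ₐ[↥(mgcE A K₁)] _) s = s :=
    fun g s hs => rtk6df_gam_adjoin (mgcA A K₁) g.2 hs
  obtain ⟨g, hg⟩ := rtk6thr_abs (G := ↥(rtk6dfGam ↥(mgcE A K₁) (M₁ * q) M H)) R
    (zchClosure (A₀ := ↥(mgcA A K₁))
      ({rtk6diIncl (M₁ * q) M H u₀} : Set ↥(rtk6diF A K₁ (M₁ * q) M H)))
    (fun x hx => hx.1)
    (fun g y hy => by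
      have h := IsIntegral.map_of_comp_eq
        (RingHom.id ↥(Algebra.adjoin ↥(mgcA A K₁)
          ({rtk6diIncl (M₁ * q) M H u₀} : Set ↥(rtk6diF A K₁ (M₁ * q) M H))))
        (g.1.toRingEquiv.toRingHom)
        (RingHom.ext fun s => (hgfix g _ s.2).symm) (mem_zchClosure.mp hy)
      exact mem_zchClosure.mpr h)
    (fun g x hx => by
      obtain ⟨x₀, rfl⟩ := hx.2
      exact g.2 x₀)
    (fun y hy hfix => by
      refine ⟨hy, ?_⟩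
      have h := rtk6d0_mem_full_of_fixed ↥(mgcE A K₁) H (NeZero.ne (M₁ * q)) hML y
        (fun c σ hσ => hfix ⟨σ, hσ.mem_gam⟩)
      exact ⟨⟨_, h⟩, Subtype.ext rfl⟩)
    (rtk6dvV hπ M H w b)
    (fun y hy => rtk6df_mem_of_isIntegral (rtk6dvV hπ M H w b)
      (fun a => rtk6dvFam_const_mem (vtBase_residue hπ) (M₁ * q) M H w b a) _
      (by
        rintro s rfl
        exact (rtk6dv_incl_mem_iff hπ ιC hq hqM M H w hw b u₀).mpr hu₀)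
      (mem_zchClosure.mp hy))
    𝔫.1
    (fun y hyR hyW => by
      obtain ⟨x₀, hx₀⟩ := hyR.2
      refine hthr y x₀ hx₀ ?_
      rw [← rtk6dv_incl_mem_nonunits_iff hπ ιC hq hqM M H w hw b x₀]
      show rtk6diIncl (M₁ * q) M H x₀ ∈ _
      rw [hx₀]
      exact hyW)
  refine ⟨rtk6dfComap (rtk6dvV hπ M H w) g.1 g.2 (rtk6dfBase (rtk6dvV hπ M H w) b),
    rtk6dfc_comap_incl hπ ιC hq hqM M H w g.1 g.2 b hw, fun y hy => hg y ?_⟩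
  exact mem_nonunits_rtk6dfCo.mp hy

/-- **C4-THR.**  `𝔫₀` a closed point of the `Γ₀`-chart containing `𝔫 ∩ R₀`: if `mgvV b` passes
through `𝔫₀`, then some `V c` with `(V c) ∩ F₀′ = mgvV b` passes through `𝔫`. -/
theorem rtk6thr_of_atThrough (hw : Rtk6dvWIncl ιC hq hqM M H w) (hML : M ∣ M₁ * q)
    (u₀ : ↥(mgcF A K₁ (M₁ * q))) {u : ↥(rtk6diF A K₁ (M₁ * q) M H)}
    (hu : rtk6diIncl (M₁ * q) M H u₀ = u)
    (b : Bool) (hu₀ : u₀ ∈ mgvV hπ ιC hq hqM b)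
    (𝔫 : AtPt (F := ↥(rtk6diF A K₁ (M₁ * q) M H)) π u)
    (𝔫₀ : AtPt (F := ↥(mgcF A K₁ (M₁ * q))) π u₀)
    (h𝔫₀ : ∀ x, x ∈ 𝔫₀.1 → rtk6thrJ M H u₀ hu x ∈ 𝔫.1)
    (hthr : atThrough 𝔫₀ (mgvV hπ ιC hq hqM b)) :
    ∃ c : rtk6dfK hπ M H w,
      (rtk6dfV hπ M H w c).comap (rtk6diIncl (M₁ * q) M H) = mgvV hπ ιC hq hqM b ∧
      atThrough 𝔫 (rtk6dfV hπ M H w c) := by
  refine rtk6thr_main hπ ιC hq hqM M H w hw hML u₀ hu b hu₀ 𝔫 fun y x hxy hx => ?_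
  obtain ⟨x', hx', hJ⟩ := rtk6thrJ_exists_of_incl M H u₀ hu y x hxy
  rw [← hJ]
  exact h𝔫₀ x' (hthr x' (by rw [hx']; exact hx))

/-- **C4-THR at `𝔫 ∩ R₀`.** -/
theorem rtk6thr_of_atThrough_pt (hw : Rtk6dvWIncl ιC hq hqM M H w) (hML : M ∣ M₁ * q)
    (u₀ : ↥(mgcF A K₁ (M₁ * q))) {u : ↥(rtk6diF A K₁ (M₁ * q) M H)}
    (hu : rtk6diIncl (M₁ * q) M H u₀ = u)
    (b : Bool) (hu₀ : u₀ ∈ mgvV hπ ιC hq hqM b)
    (𝔫 : AtPt (F := ↥(rtk6diF A K₁ (M₁ * q) M H)) π u)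
    (hthr : atThrough (rtk6thrPt M H u₀ hu 𝔫) (mgvV hπ ιC hq hqM b)) :
    ∃ c : rtk6dfK hπ M H w,
      (rtk6dfV hπ M H w c).comap (rtk6diIncl (M₁ * q) M H) = mgvV hπ ιC hq hqM b ∧
      atThrough 𝔫 (rtk6dfV hπ M H w c) :=
  rtk6thr_of_atThrough hπ ιC hq hqM M H w hw hML u₀ hu b hu₀ 𝔫 (rtk6thrPt M H u₀ hu 𝔫)
    (fun x hx => (mem_rtk6thrPt M H u₀ hu 𝔫 x).mp hx) hthr

/-- **C4-THR on the chart `j`.** -/
theorem rtk6thr_J (hw : Rtk6dvWIncl ιC hq hqM M H w) (hML : M ∣ M₁ * q) (b : Bool)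
    (𝔫 : AtPt (F := ↥(rtk6diF A K₁ (M₁ * q) M H)) π (rtk6diT A K₁ (M₁ * q) M H))
    (𝔫₀ : AtPt (F := ↥(mgcF A K₁ (M₁ * q))) π (mgcT A K₁ (M₁ * q)))
    (h𝔫₀ : ∀ x, x ∈ 𝔫₀.1 → rtk6thrJ M H (mgcT A K₁ (M₁ * q)) rfl x ∈ 𝔫.1)
    (hthr : atThrough 𝔫₀ (mgvV hπ ιC hq hqM b)) :
    ∃ c : rtk6dfK hπ M H w,
      (rtk6dfV hπ M H w c).comap (rtk6diIncl (M₁ * q) M H) = mgvV hπ ιC hq hqM b ∧
      atThrough 𝔫 (rtk6dfV hπ M H w c) :=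
  rtk6thr_of_atThrough hπ ιC hq hqM M H w hw hML (mgcT A K₁ (M₁ * q)) rfl b
    (mgv_T_mem hπ ιC hq hqM b) 𝔫 𝔫₀ h𝔫₀ hthr

/-- `incl (1 / j) = 1 / j` -/
theorem rtk6thr_incl_inv :
    rtk6diIncl (M₁ * q) M H (mgcT A K₁ (M₁ * q))⁻¹ = (rtk6diT A K₁ (M₁ * q) M H)⁻¹ :=
  map_inv₀ _ _

/-- **C4-THR on the chart `1 / j`.** -/
theorem rtk6thr_Jinv (hw : Rtk6dvWIncl ιC hq hqM M H w) (hML : M ∣ M₁ * q) (b : Bool)
    (𝔫 : AtPt (F := ↥(rtk6diF A K₁ (M₁ * q) M H)) π (rtk6diT A K₁ (M₁ * q) M H)⁻¹)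
    (𝔫₀ : AtPt (F := ↥(mgcF A K₁ (M₁ * q))) π (mgcT A K₁ (M₁ * q))⁻¹)
    (h𝔫₀ : ∀ x, x ∈ 𝔫₀.1 →
      rtk6thrJ M H (mgcT A K₁ (M₁ * q))⁻¹ (rtk6thr_incl_inv M H) x ∈ 𝔫.1)
    (hthr : atThrough 𝔫₀ (mgvV hπ ιC hq hqM b)) :
    ∃ c : rtk6dfK hπ M H w,
      (rtk6dfV hπ M H w c).comap (rtk6diIncl (M₁ * q) M H) = mgvV hπ ιC hq hqM b ∧
      atThrough 𝔫 (rtk6dfV hπ M H w c) :=
  rtk6thr_of_atThrough hπ ιC hq hqM M H w hw hML (mgcT A K₁ (M₁ * q))⁻¹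
    (rtk6thr_incl_inv M H) b (mgv_T_inv_mem hπ ιC hq hqM b) 𝔫 𝔫₀ h𝔫₀ hthr

/-- **C4-THR at a crossing point**: both components. -/
theorem rtk6thr_cross (hw : Rtk6dvWIncl ιC hq hqM M H w) (hML : M ∣ M₁ * q)
    (u₀ : ↥(mgcF A K₁ (M₁ * q))) {u : ↥(rtk6diF A K₁ (M₁ * q) M H)}
    (hu : rtk6diIncl (M₁ * q) M H u₀ = u)
    (hu₀ : ∀ b, u₀ ∈ mgvV hπ ιC hq hqM b)
    (𝔫 : AtPt (F := ↥(rtk6diF A K₁ (M₁ * q) M H)) π u)
    (𝔫₀ : AtPt (F := ↥(mgcF A K₁ (M₁ * q))) π u₀)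
    (h𝔫₀ : ∀ x, x ∈ 𝔫₀.1 → rtk6thrJ M H u₀ hu x ∈ 𝔫.1)
    (h₁ : atThrough 𝔫₀ (mgvV hπ ιC hq hqM true))
    (h₂ : atThrough 𝔫₀ (mgvV hπ ιC hq hqM false)) :
    ∃ c₁ c₂ : rtk6dfK hπ M H w,
      (rtk6dfV hπ M H w c₁).comap (rtk6diIncl (M₁ * q) M H) = mgvV hπ ιC hq hqM true ∧
      (rtk6dfV hπ M H w c₂).comap (rtk6diIncl (M₁ * q) M H) = mgvV hπ ιC hq hqM false ∧
      atThrough 𝔫 (rtk6dfV hπ M H w c₁) ∧ atThrough 𝔫 (rtk6dfV hπ M H w c₂) := by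
  obtain ⟨c₁, hc₁, ht₁⟩ := rtk6thr_of_atThrough hπ ιC hq hqM M H w hw hML u₀ hu true
    (hu₀ true) 𝔫 𝔫₀ h𝔫₀ h₁
  obtain ⟨c₂, hc₂, ht₂⟩ := rtk6thr_of_atThrough hπ ιC hq hqM M H w hw hML u₀ hu false
    (hu₀ false) 𝔫 𝔫₀ h𝔫₀ h₂
  exact ⟨c₁, c₂, hc₁, hc₂, ht₁, ht₂⟩

/-- **the side of a component through `𝔫`**: `(V c) ∩ F₀′ = mgvV b` passes through `𝔫 ∩ R₀`. -/
theorem rtk6thr_side (hw : Rtk6dvWIncl ιC hq hqM M H w)
    (u₀ : ↥(mgcF A K₁ (M₁ * q))) {u : ↥(rtk6diF A K₁ (M₁ * q) M H)}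
    (hu : rtk6diIncl (M₁ * q) M H u₀ = u)
    (𝔫 : AtPt (F := ↥(rtk6diF A K₁ (M₁ * q) M H)) π u)
    (c : rtk6dfK hπ M H w) (hc : atThrough 𝔫 (rtk6dfV hπ M H w c)) :
    ∃ b : Bool,
      (rtk6dfV hπ M H w c).comap (rtk6diIncl (M₁ * q) M H) = mgvV hπ ιC hq hqM b ∧
      atThrough (rtk6thrPt M H u₀ hu 𝔫) (mgvV hπ ιC hq hqM b) := by
  obtain ⟨b, hb⟩ := rtk6df_comap_incl hπ ιC hq hqM M H w hw c
  refine ⟨b, hb, ?_⟩
  rw [← hb]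
  exact rtk6thr_comap_atThrough M H u₀ hu 𝔫 _ hc


end Concrete

end Fermat.Agent.RT.K6
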