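/-
K-machine, piece K6, piece **C4-U-inst, half (A)** (helper37): the dichotomy `Rtk6ewmNodeAt` at
every closed point of the two charts of `F = rtk6diF A K₁ (M₁ q) M H` over an UNRAMIFIED base
`A₁ = mgcA A K₁`, when `F` is generated over the `Γ₀(M₁ q)`-field by étale Kummer generators
(the case (U): `H` contains the diamonds at `q`).

Setting of `RT/K6/DIFamMg.lean` (helper82): `A₁ = mgcA A K₁` a DVR, `π` a uniformizer,
`F₀ = modularFunctionFieldFullC ↥(mgcE A K₁) (M₁ q)` (the `Γ₀`-field), `F = rtk6diF A K₁ (M₁ q) M H`,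
`incl = rtk6diIncl : F₀ →+* F`, `w` with `Rtk6dvWIncl`, `V = rtk6dfV hπ M H w` the family of all
conjugates of `V_∞`, `V_0`.

The open inputs, one Prop each (all at the chart `u₀` of `F₀`, `u₀ = j` or `1 / j`):
* `Rtk6c4uThin hπ ιC hq hqM u₀` : the thin dichotomy `Rtk6lfThinAt` of the chart `u₀` of `F₀`
  (chart `j`: helper54 `rtk6lfb_thinAt_J`, proved here: `rtk6c4u_thin_J`; chart `1 / j`: helper71);
* `Rtk6c4uGet π M H u₀`  : (G-et) (helper74): at every closed point `𝔫₀` of the chart `u₀` there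
  are `d ∉ 𝔫₀` and a finite set `S ⊆ F` generating `F` over `F₀` with `b t ^ d = a`,
  `a, b ∉ 𝔫₀`, for `t ∈ S`;
* `Rtk6c4uThr hπ ιC hq hqM M H w u₀` : (C4-THR) (helper66): over a closed point through which
  `mgvV b` passes there is a component `c` of the family through the point with
  `(V c).comap incl = mgvV b`.

Results:
* `rtk6c4uAlg`, `rtk6c4u_tower`, `rtk6c4u_towerE` : the algebra structure `F₀ → F`;
* **`rtk6c4u_nodeAt_of`** : `Rtk6ewmNodeAt V 𝔫 (RingHom.id _) π` at every closed point `𝔫` of the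
  chart `u = incl u₀` (helper97's `rtk6c4et_nodeAt`);
* `rtk6c4u_nodeAt_J`, `rtk6c4u_nodeAt_Jinv` : the two charts `t = rtk6diT`, `t⁻¹`.
-/
import Fermat.Agent.RT.K6.C4Et
import Fermat.Agent.RT.K6.C4Thr
import Fermat.Agent.RT.K6.DIFamMg
import Fermat.Agent.RT.K6.DLFConc

set_option autoImplicit false
set_option linter.style.haveILetI false
set_option linter.unusedSectionVars false
set_option linter.unusedVariables false
set_option linter.style.longLine false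
set_option synthInstance.maxHeartbeats 400000
set_option maxHeartbeats 1000000

noncomputable section

namespace Fermat.Agent.RT.K6

open ModularCurve AlgebraicCurve Fermat.Agent.ES Fermat.Agent.ES.G2 Fermat.Agent.INJ
open Fermat.Agent.UNIP Fermat.Agent.STB Fermat.Agent.ES1 Fermat.Agent.ES1.G2 Fermat.Agent.AL
  IntermediateField

/-! ### the algebra structure `F₀ → F` -/

section Setup

variable (E : IntermediateField ℚ Qb) (L M : ℕ) (H : Subgroup (ZMod M)ˣ)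

/-- the algebra structure `F₀ → F` given by the inclusion of the `Γ₀(L)`-field -/
@[reducible] def rtk6c4uAlg :
    Algebra ↥(modularFunctionFieldFullC ↥E L) ↥(fieldC ↥E L M H) :=
  (rtk6diIncl L M H).toAlgebra

theorem rtk6c4uAlg_algebraMap (x : ↥(modularFunctionFieldFullC ↥E L)) :
    letI := rtk6c4uAlg E L M H
    algebraMap ↥(modularFunctionFieldFullC ↥E L) ↥(fieldC ↥E L M H) x = rtk6diIncl L M H x :=
  rfl

variable {E}

theorem rtk6c4u_tower (A' : ValuationSubring ↥E) :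
    letI := rtk6c4uAlg E L M H
    IsScalarTower ↥A' ↥(modularFunctionFieldFullC ↥E L) ↥(fieldC ↥E L M H) := by
  letI := rtk6c4uAlg E L M H
  refine IsScalarTower.of_algebraMap_eq fun a => ?_
  show algebraMap ↥E ↥(fieldC ↥E L M H) (a : ↥E) =
    rtk6diIncl L M H (algebraMap ↥E ↥(modularFunctionFieldFullC ↥E L) (a : ↥E))
  rw [rtk6diIncl_algebraMap]

end Setup

/-! ### the open inputs -/

section Concrete

variable {A : ValuationSubring Qb} {K₁ : IntermediateField ℚ Qb}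
  [IsDiscreteValuationRing ↥(mgcA A K₁)] {π : ↥(mgcA A K₁)} (hπ : Irreducible π)
  (ιC : ↥(mgcE A K₁) →+* ℂ) {q M₁ : ℕ} [NeZero q] [NeZero M₁] [NeZero (M₁ * q)]
  (hq : q.Prime) (hqM : ¬ q ∣ M₁) (M : ℕ) (H : Subgroup (ZMod M)ˣ)
  (w : ↥(rtk6diF A K₁ (M₁ * q) M H) ≃ₐ[↥(mgcE A K₁)] ↥(rtk6diF A K₁ (M₁ * q) M H))

/-- **the thin dichotomy** of the chart `u₀` of the `Γ₀(M₁ q)`-field over `A₁` -/
def Rtk6c4uThin (u₀ : ↥(modularFunctionFieldFullC ↥(mgcE A K₁) (M₁ * q))) : Prop :=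
  ∀ 𝔫₀ : AtPt (F := ↥(modularFunctionFieldFullC ↥(mgcE A K₁) (M₁ * q))) π u₀,
    Rtk6lfThinAt (mgvV hπ ιC hq hqM true) (mgvV hπ ιC hq hqM false) 𝔫₀

variable (π) in
/-- **(G-et)** on the chart `u₀` of the `Γ₀(M₁ q)`-field: at every closed point, `F` is generated
over `F₀` by finitely many étale Kummer generators. -/
def Rtk6c4uGet (u₀ : ↥(modularFunctionFieldFullC ↥(mgcE A K₁) (M₁ * q))) : Prop :=
  ∀ 𝔫₀ : AtPt (F := ↥(modularFunctionFieldFullC ↥(mgcE A K₁) (M₁ * q))) π u₀,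
    ∃ (d : ℕ) (S : Set ↥(rtk6diF A K₁ (M₁ * q) M H)),
      (d : ↥(zchClosure (A₀ := ↥(mgcA A K₁))
        ({u₀} : Set ↥(modularFunctionFieldFullC ↥(mgcE A K₁) (M₁ * q))))) ∉ 𝔫₀.1 ∧
      S.Finite ∧
      (∀ t ∈ S, ∃ a b : ↥(zchClosure (A₀ := ↥(mgcA A K₁))
          ({u₀} : Set ↥(modularFunctionFieldFullC ↥(mgcE A K₁) (M₁ * q)))),
        a ∉ 𝔫₀.1 ∧ b ∉ 𝔫₀.1 ∧
        rtk6diIncl (M₁ * q) M H (b : ↥(modularFunctionFieldFullC ↥(mgcE A K₁) (M₁ * q))) * t ^ d =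
          rtk6diIncl (M₁ * q) M H (a : ↥(modularFunctionFieldFullC ↥(mgcE A K₁) (M₁ * q)))) ∧
      Subring.closure (Set.range (rtk6diIncl (K := ↥(mgcE A K₁)) (M₁ * q) M H) ∪ S) = ⊤

/-! ### the dichotomy -/

/-- **C4-U, (A)**: the dichotomy `Rtk6ewmNodeAt` at every closed point of the chart
`u = incl u₀` of `F` over the unramified base. -/
theorem rtk6c4u_nodeAt_of (hw : Rtk6dvWIncl ιC hq hqM M H w) (hML : M ∣ M₁ * q)
    (u₀ : ↥(modularFunctionFieldFullC ↥(mgcE A K₁) (M₁ * q)))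
    [FiniteDimensional (↥(mgcE A K₁))⟮u₀⟯ ↥(modularFunctionFieldFullC ↥(mgcE A K₁) (M₁ * q))]
    (hu₀ : ∀ b, u₀ ∈ mgvV hπ ιC hq hqM b)
    (hthin : Rtk6c4uThin hπ ιC hq hqM u₀) (hget : Rtk6c4uGet π M H u₀)
    {u : ↥(rtk6diF A K₁ (M₁ * q) M H)} (hu : rtk6diIncl (M₁ * q) M H u₀ = u)
    (𝔫 : AtPt (F := ↥(rtk6diF A K₁ (M₁ * q) M H)) π u) :
    Rtk6ewmNodeAt (rtk6dfV hπ M H w) 𝔫
      (RingHom.id ↥(zchClosure (A₀ := ↥(mgcA A K₁)) ({u} : Set ↥(rtk6diF A K₁ (M₁ * q) M H))))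
      (algebraMap ↥(mgcA A K₁)
        ↥(zchClosure (A₀ := ↥(mgcA A K₁)) ({u} : Set ↥(rtk6diF A K₁ (M₁ * q) M H))) π) := by
  subst hu
  letI := rtk6c4uAlg (mgcE A K₁) (M₁ * q) M H
  haveI := rtk6c4u_tower (E := mgcE A K₁) (M₁ * q) M H (mgcA A K₁)
  obtain ⟨d, S, hd, hS, hl, hgen⟩ := hget (rtk6c4etPt (F := ↥(rtk6diF A K₁ (M₁ * q) M H)) u₀ 𝔫)
  refine rtk6c4et_nodeAt (E := ↥(mgcE A K₁)) u₀ (mgvV hπ ιC hq hqM true)
    (mgvV hπ ιC hq hqM false) (rtk6dfV hπ M H w) 𝔫 (rtk6c4etPt u₀ 𝔫) rfl (hthin _) d hd S hS hl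
    ?_ ?_
  · -- generation
    rw [← Subalgebra.toSubring_injective.eq_iff, Algebra.adjoin_eq_ring_closure]
    exact hgen
  · -- the two components at a crossing point
    intro X Y hXY
    obtain ⟨c₁, c₂, hc₁, hc₂, ht₁, ht₂⟩ := rtk6thr_cross hπ ιC hq hqM M H w hw hML u₀ rfl hu₀ 𝔫
      (rtk6c4etPt (F := ↥(rtk6diF A K₁ (M₁ * q) M H)) u₀ 𝔫) (fun x hx => hx) hXY.1 hXY.2.1
    refine ⟨c₁, c₂, ht₁, ht₂, fun x hx => ?_, fun x hx => ?_⟩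
    · rw [← hc₁] at hx
      exact (vt_mem_nonunits_comap _ _ x).mp hx
    · rw [← hc₂] at hx
      exact (vt_mem_nonunits_comap _ _ x).mp hx

/-! ### the two charts -/

/-- the thin dichotomy of the chart `j` of the `Γ₀`-field over an unramified, Frobenius-stable
base (helper54's `rtk6lfb_thinAt_J`), rigid level -/
theorem rtk6c4u_thin_J [Normal ℚ K₁] (hA : A.LiesOverPrime q)
    (hqπ : Associated ((q : ℕ) : ↥(mgcA A K₁)) π)
    (rigid : (q ≠ 2 → 4 ∣ M₁) ∧ (q = 2 → 9 ∣ M₁)) :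
    Rtk6c4uThin hπ ιC hq hqM (bgJ ↥(mgcE A K₁) (M₁ * q)) := by
  intro 𝔫₀
  obtain ⟨φ, hφF⟩ := Fermat.Agent.Common.exists_isFrobeniusAt_of_liesOverPrime q hq A hA
  exact rtk6lfb_thinAt_J hπ ιC hq hqM hA hφF
    (stb_stable_beta0_sup hφF.mem_decompositionSubgroup K₁) hqπ rigid
    (stb_regChart_conc_J M₁ hq hA le_sup_left hπ hqM (rtk6lfb_rigid_h2 rigid)
      (rtk6lfb_rigid_h3 rigid)) 𝔫₀

/-- **C4-U, (A), chart `j`** -/
theorem rtk6c4u_nodeAt_J (hw : Rtk6dvWIncl ιC hq hqM M H w) (hML : M ∣ M₁ * q)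
    (hthin : Rtk6c4uThin hπ ιC hq hqM (bgJ ↥(mgcE A K₁) (M₁ * q)))
    (hget : Rtk6c4uGet π M H (bgJ ↥(mgcE A K₁) (M₁ * q)))
    (𝔫 : AtPt (F := ↥(rtk6diF A K₁ (M₁ * q) M H)) π (rtk6diT A K₁ (M₁ * q) M H)) :
    Rtk6ewmNodeAt (rtk6dfV hπ M H w) 𝔫
      (RingHom.id ↥(zchClosure (A₀ := ↥(mgcA A K₁))
        ({rtk6diT A K₁ (M₁ * q) M H} : Set ↥(rtk6diF A K₁ (M₁ * q) M H))))
      (algebraMap ↥(mgcA A K₁) ↥(zchClosure (A₀ := ↥(mgcA A K₁))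
        ({rtk6diT A K₁ (M₁ * q) M H} : Set ↥(rtk6diF A K₁ (M₁ * q) M H))) π) := by
  haveI : FiniteDimensional (↥(mgcE A K₁))⟮bgJ ↥(mgcE A K₁) (M₁ * q)⟯
      ↥(modularFunctionFieldFullC ↥(mgcE A K₁) (M₁ * q)) :=
    bgFin_finiteDimensional_full ↥(mgcE A K₁) (M₁ * q)
  exact rtk6c4u_nodeAt_of hπ ιC hq hqM M H w hw hML (bgJ ↥(mgcE A K₁) (M₁ * q))
    (mgv_T_mem hπ ιC hq hqM) hthin hget rfl 𝔫

/-- **C4-U, (A), chart `1 / j`** -/
theorem rtk6c4u_nodeAt_Jinv (hw : Rtk6dvWIncl ιC hq hqM M H w) (hML : M ∣ M₁ * q)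
    (hthin : Rtk6c4uThin hπ ιC hq hqM (bgJ ↥(mgcE A K₁) (M₁ * q))⁻¹)
    (hget : Rtk6c4uGet π M H (bgJ ↥(mgcE A K₁) (M₁ * q))⁻¹)
    (𝔫 : AtPt (F := ↥(rtk6diF A K₁ (M₁ * q) M H)) π (rtk6diT A K₁ (M₁ * q) M H)⁻¹) :
    Rtk6ewmNodeAt (rtk6dfV hπ M H w) 𝔫
      (RingHom.id ↥(zchClosure (A₀ := ↥(mgcA A K₁))
        ({(rtk6diT A K₁ (M₁ * q) M H)⁻¹} : Set ↥(rtk6diF A K₁ (M₁ * q) M H))))
      (algebraMap ↥(mgcA A K₁) ↥(zchClosure (A₀ := ↥(mgcA A K₁))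
        ({(rtk6diT A K₁ (M₁ * q) M H)⁻¹} : Set ↥(rtk6diF A K₁ (M₁ * q) M H))) π) := by
  haveI : FiniteDimensional (↥(mgcE A K₁))⟮bgJ ↥(mgcE A K₁) (M₁ * q)⟯
      ↥(modularFunctionFieldFullC ↥(mgcE A K₁) (M₁ * q)) :=
    bgFin_finiteDimensional_full ↥(mgcE A K₁) (M₁ * q)
  haveI : FiniteDimensional (↥(mgcE A K₁))⟮(bgJ ↥(mgcE A K₁) (M₁ * q))⁻¹⟯
      ↥(modularFunctionFieldFullC ↥(mgcE A K₁) (M₁ * q)) :=
    at_finiteDimensional_inv (bgJ ↥(mgcE A K₁) (M₁ * q))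
  exact rtk6c4u_nodeAt_of hπ ιC hq hqM M H w hw hML (bgJ ↥(mgcE A K₁) (M₁ * q))⁻¹
    (mgv_T_inv_mem hπ ιC hq hqM) hthin hget (map_inv₀ (rtk6diIncl (M₁ * q) M H) _) 𝔫

end Concrete

end Fermat.Agent.RT.K6

end
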