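/-
K-machine, piece K6, LF-inst on the chart `1/j` (helper71): ABSTRACT CHART TRANSFER.

Two charts `B₁`, `B₂ ⊆ F` (injective `Algebra B_i F`), primes `𝔫₁ ⊆ B₁`, `𝔫₂ ⊆ B₂` with the SAME
local ring `ls_localSubring 𝔫₁ = ls_localSubring 𝔫₂ ⊆ F`.  Then local generation
(`UNIP.NodesLocGen`) and the thin dichotomy of `RT/K6/DLFChart.lean` (`Rtk6lfThinAt`) move from
`𝔫₁` to `𝔫₂`.

* `rtk6lfi_exists_num`     : every element of `B₁` is `b / v` with `b, v ∈ B₂`, `v ∉ 𝔫₂`;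
* `rtk6lfi_not_mem_of_not_mem` : `x ∉ 𝔫₁`, `v x = x'` ⇒ `x' ∉ 𝔫₂`;
* `rtk6lfi_mem_of_mem`     : `x ∈ 𝔫₁`, `v x = x'` (`v ∉ 𝔫₂`) ⇒ `x' ∈ 𝔫₂`;
* `rtk6lfi_span_transfer`  : clearing denominators in `Ideal.span T₁`;
* `rtk6lfi_locGen_transfer`: `NodesLocGen 𝔫₁ T₁ → NodesLocGen 𝔫₂ T₂` if every element of `T₁`
  is, up to a factor outside `𝔫₂`, in `Ideal.span T₂`;
* `rtk6lfi_thinAt_transfer`: **`Rtk6lfThinAt V₁ V₂ 𝔫₁ → Rtk6lfThinAt V₁ V₂ 𝔫₂`** for closed points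
  of two charts `u`, `u'` with `atLoc 𝔫₁ = atLoc 𝔫₂`.
-/
import Fermat.Agent.RT.K6.DLFChart

set_option autoImplicit false
set_option linter.unusedSectionVars false
set_option linter.unusedVariables false
set_option linter.style.haveILetI false

namespace Fermat.Agent.RT.K6

open Fermat.Agent.UNIP Fermat.Agent.STB Fermat.Agent.INJ IntermediateField

section Abs

variable {F : Type*} [Field F] {B₁ B₂ : Type*} [CommRing B₁] [CommRing B₂]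
  [Algebra B₁ F] [Algebra B₂ F]

/-- every element of `B₁` is a fraction over `B₂` with denominator outside `𝔫₂` -/
theorem rtk6lfi_exists_num (𝔫₁ : Ideal B₁) [𝔫₁.IsPrime] (𝔫₂ : Ideal B₂) [𝔫₂.IsPrime]
    (h : ls_localSubring (F := F) 𝔫₁ ≤ ls_localSubring (F := F) 𝔫₂) (x : B₁) :
    ∃ b v : B₂, v ∉ 𝔫₂ ∧ algebraMap B₂ F v * algebraMap B₁ F x = algebraMap B₂ F b :=
  h (ls_algebraMap_mem (F := F) 𝔫₁ x)

/-- numerators of elements outside `𝔫₁` are outside `𝔫₂` -/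
theorem rtk6lfi_not_mem_of_not_mem (hinj₁ : Function.Injective (algebraMap B₁ F))
    (hinj₂ : Function.Injective (algebraMap B₂ F))
    (𝔫₁ : Ideal B₁) [h₁ : 𝔫₁.IsPrime] (𝔫₂ : Ideal B₂) [h₂ : 𝔫₂.IsPrime]
    (h : ls_localSubring (F := F) 𝔫₁ ≤ ls_localSubring (F := F) 𝔫₂) {x : B₁} (hx : x ∉ 𝔫₁)
    {x' v : B₂} (hv : v ∉ 𝔫₂)
    (hxx' : algebraMap B₂ F v * algebraMap B₁ F x = algebraMap B₂ F x') : x' ∉ 𝔫₂ := by
  intro hx'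
  have hx0 : algebraMap B₁ F x ≠ 0 := by
    intro h0
    apply hx
    have : x = 0 := hinj₁ (by rw [h0, map_zero])
    rw [this]
    exact 𝔫₁.zero_mem
  have hmem : (algebraMap B₁ F x)⁻¹ ∈ ls_localSubring (F := F) 𝔫₁ :=
    ⟨1, x, hx, by rw [mul_inv_cancel₀ hx0, map_one]⟩
  obtain ⟨c, s, hs, hsc⟩ := h hmem
  -- `s = c · x`, so `v s = c x'`
  have e : algebraMap B₂ F (v * s) = algebraMap B₂ F (c * x') := by
    rw [map_mul, map_mul, ← hsc, ← hxx']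
    field_simp
  have e' : v * s = c * x' := hinj₂ e
  have : v * s ∈ 𝔫₂ := by rw [e']; exact 𝔫₂.mul_mem_left _ hx'
  rcases h₂.mem_or_mem this with h' | h'
  · exact hv h'
  · exact hs h'

/-- numerators of elements of `𝔫₁` are in `𝔫₂` -/
theorem rtk6lfi_mem_of_mem (hinj₁ : Function.Injective (algebraMap B₁ F))
    (hinj₂ : Function.Injective (algebraMap B₂ F))
    (𝔫₁ : Ideal B₁) [h₁ : 𝔫₁.IsPrime] (𝔫₂ : Ideal B₂) [h₂ : 𝔫₂.IsPrime]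
    (h : ls_localSubring (F := F) 𝔫₂ ≤ ls_localSubring (F := F) 𝔫₁) {x : B₁} (hx : x ∈ 𝔫₁)
    {x' v : B₂}
    (hxx' : algebraMap B₂ F v * algebraMap B₁ F x = algebraMap B₂ F x') : x' ∈ 𝔫₂ := by
  by_contra hx'
  -- `x' ∉ 𝔫₂`: then `x'` is a unit of the local ring, `1 / x = v / x'`
  have hx'0 : algebraMap B₂ F x' ≠ 0 := by
    intro h0
    apply hx'
    have : x' = 0 := hinj₂ (by rw [h0, map_zero])
    rw [this]
    exact 𝔫₂.zero_mem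
  have hx0 : algebraMap B₁ F x ≠ 0 := by
    intro h0
    rw [h0, mul_zero] at hxx'
    exact hx'0 hxx'.symm
  have hmem : (algebraMap B₁ F x)⁻¹ ∈ ls_localSubring (F := F) 𝔫₂ :=
    ⟨v, x', hx', by rw [← hxx']; field_simp⟩
  obtain ⟨c, s, hs, hsc⟩ := h hmem
  -- `s = c x`
  have e : algebraMap B₁ F s = algebraMap B₁ F (c * x) := by
    rw [map_mul, ← hsc]
    field_simp
  have e' : s = c * x := hinj₁ e
  exact hs (by rw [e']; exact 𝔫₁.mul_mem_left _ hx)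

/-- **Clearing denominators in a span.** -/
theorem rtk6lfi_span_transfer (hinj₂ : Function.Injective (algebraMap B₂ F))
    (𝔫₁ : Ideal B₁) [h₁ : 𝔫₁.IsPrime] (𝔫₂ : Ideal B₂) [h₂ : 𝔫₂.IsPrime]
    (h : ls_localSubring (F := F) 𝔫₁ ≤ ls_localSubring (F := F) 𝔫₂)
    {T₁ : Set B₁} {T₂ : Set B₂}
    (hT : ∀ x ∈ T₁, ∃ w y : B₂, w ∉ 𝔫₂ ∧ y ∈ Ideal.span T₂ ∧
      algebraMap B₂ F w * algebraMap B₁ F x = algebraMap B₂ F y)
    {z : B₁} (hz : z ∈ Ideal.span T₁) :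
    ∃ w y : B₂, w ∉ 𝔫₂ ∧ y ∈ Ideal.span T₂ ∧
      algebraMap B₂ F w * algebraMap B₁ F z = algebraMap B₂ F y := by
  induction hz using Submodule.span_induction with
  | mem x hx => exact hT x hx
  | zero =>
    exact ⟨1, 0, fun h' => h₂.ne_top ((Ideal.eq_top_iff_one 𝔫₂).mpr h'), Ideal.zero_mem _,
      by simp⟩
  | add x y _ _ hx hy =>
    obtain ⟨w, a, hw, ha, e⟩ := hx
    obtain ⟨w', a', hw', ha', e'⟩ := hy
    refine ⟨w * w', w' * a + w * a', fun h' => ?_,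
      Ideal.add_mem _ (Ideal.mul_mem_left _ _ ha) (Ideal.mul_mem_left _ _ ha'), ?_⟩
    · rcases h₂.mem_or_mem h' with h'' | h''
      · exact hw h''
      · exact hw' h''
    · rw [map_add, map_add, map_mul, map_mul, map_mul, ← e, ← e']
      ring
  | smul c x _ hx =>
    obtain ⟨w, a, hw, ha, e⟩ := hx
    obtain ⟨c', v, hv, ec⟩ := rtk6lfi_exists_num 𝔫₁ 𝔫₂ h c
    refine ⟨v * w, c' * a, fun h' => ?_, Ideal.mul_mem_left _ _ ha, ?_⟩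
    · rcases h₂.mem_or_mem h' with h'' | h''
      · exact hv h''
      · exact hw h''
    · rw [smul_eq_mul, map_mul, map_mul, map_mul, ← e, ← ec]
      ring

/-- **Transfer of local generation** between two charts with the same local ring. -/
theorem rtk6lfi_locGen_transfer (hinj₁ : Function.Injective (algebraMap B₁ F))
    (hinj₂ : Function.Injective (algebraMap B₂ F))
    (𝔫₁ : Ideal B₁) [h₁ : 𝔫₁.IsPrime] (𝔫₂ : Ideal B₂) [h₂ : 𝔫₂.IsPrime]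
    (h : ls_localSubring (F := F) 𝔫₁ = ls_localSubring (F := F) 𝔫₂)
    {T₁ : Set B₁} {T₂ : Set B₂}
    (hT : ∀ x ∈ T₁, ∃ w y : B₂, w ∉ 𝔫₂ ∧ y ∈ Ideal.span T₂ ∧
      algebraMap B₂ F w * algebraMap B₁ F x = algebraMap B₂ F y)
    (hgen : NodesLocGen 𝔫₁ T₁) : NodesLocGen 𝔫₂ T₂ := by
  intro b' hb'
  -- `b' = b / t` over `B₁`
  obtain ⟨b, t, ht, e⟩ := rtk6lfi_exists_num 𝔫₂ 𝔫₁ h.ge b'
  have hb : b ∈ 𝔫₁ := rtk6lfi_mem_of_mem hinj₂ hinj₁ 𝔫₂ 𝔫₁ h.le hb' e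
  obtain ⟨u₁, hu₁, hub⟩ := hgen b hb
  obtain ⟨w, y, hw, hy, e₂⟩ := rtk6lfi_span_transfer hinj₂ 𝔫₁ 𝔫₂ h.le hT hub
  -- `u₁ t = w₁ / w₀`
  have hut : u₁ * t ∉ 𝔫₁ := fun h' => by
    rcases h₁.mem_or_mem h' with h'' | h''
    · exact hu₁ h''
    · exact ht h''
  obtain ⟨w₁, w₀, hw₀, e₃⟩ := rtk6lfi_exists_num 𝔫₁ 𝔫₂ h.le (u₁ * t)
  have hw₁ : w₁ ∉ 𝔫₂ := rtk6lfi_not_mem_of_not_mem hinj₁ hinj₂ 𝔫₁ 𝔫₂ h.le hut hw₀ e₃
  refine ⟨w * w₁, fun h' => ?_, ?_⟩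
  · rcases h₂.mem_or_mem h' with h'' | h''
    · exact hw h''
    · exact hw₁ h''
  · have e₄ : w * w₁ * b' = w₀ * y := by
      apply hinj₂
      rw [map_mul, map_mul, map_mul, ← e₂, ← e₃, map_mul, map_mul, ← e]
      ring
    rw [e₄]
    exact Ideal.mul_mem_left _ _ hy

end Abs

section Chart

universe u

variable {A₀ E F : Type u} [CommRing A₀] [IsDomain A₀] [IsDiscreteValuationRing A₀]
  [Field E] [Algebra A₀ E] [IsFractionRing A₀ E] [CharZero E]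
  [Field F] [Algebra E F] [Algebra A₀ F] [IsScalarTower A₀ E F]
  {π : A₀}

/-- incidence moves between charts with the same local ring -/
theorem rtk6lfi_through_transfer {u u' : F} (𝔫₁ : AtPt (F := F) π u) (𝔫₂ : AtPt (F := F) π u')
    (h : atLoc 𝔫₁ = atLoc 𝔫₂) (W : ValuationSubring F)
    (hBW : ∀ b : F, IsIntegral ↥(Algebra.adjoin A₀ {u}) b → b ∈ W)
    (h₁ : atThrough 𝔫₁ W) : atThrough 𝔫₂ W := by
  haveI := 𝔫₁.2.1.isPrime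
  haveI := 𝔫₂.2.1.isPrime
  intro b' hb'
  obtain ⟨b, t, ht, e⟩ := rtk6lfi_exists_num (F := F) 𝔫₂.1 𝔫₁.1 h.ge b'
  have e' : (t : F) * (b' : F) = (b : F) := e
  have hb : (b : F) ∈ W.nonunits := by
    rw [← e']
    exact pwi_mul_mem_nonunits W (hBW _ (mem_zchClosure.mp t.2)) hb'
  have hb𝔫 : b ∈ 𝔫₁.1 := h₁ b hb
  by_contra hb'𝔫
  exact rtk6lfi_not_mem_of_not_mem (F := F) Subtype.val_injective Subtype.val_injective
    𝔫₂.1 𝔫₁.1 h.ge hb'𝔫 ht e hb𝔫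

/-- the coercion of the uniformizer of a chart -/
theorem rtk6lfi_coe_pi (u : F) :
    ((algebraMap A₀ ↥(zchClosure (A₀ := A₀) ({u} : Set F)) π :
      ↥(zchClosure (A₀ := A₀) ({u} : Set F))) : F) = algebraMap A₀ F π := rfl

/-- the uniformizer moves between charts -/
theorem rtk6lfi_pi_transfer {u u' : F} (𝔫₂ : AtPt (F := F) π u')
    (T₂ : Set ↥(zchClosure (A₀ := A₀) ({u'} : Set F)))
    (hT₂ : algebraMap A₀ ↥(zchClosure (A₀ := A₀) ({u'} : Set F)) π ∈ T₂) :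
    ∃ w y : ↥(zchClosure (A₀ := A₀) ({u'} : Set F)), w ∉ 𝔫₂.1 ∧ y ∈ Ideal.span T₂ ∧
      algebraMap ↥(zchClosure (A₀ := A₀) ({u'} : Set F)) F w *
        algebraMap ↥(zchClosure (A₀ := A₀) ({u} : Set F)) F
          (algebraMap A₀ ↥(zchClosure (A₀ := A₀) ({u} : Set F)) π) =
      algebraMap ↥(zchClosure (A₀ := A₀) ({u'} : Set F)) F y := by
  haveI := 𝔫₂.2.1.isPrime
  refine ⟨1, algebraMap A₀ ↥(zchClosure (A₀ := A₀) ({u'} : Set F)) π,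
    fun h' => 𝔫₂.2.1.isPrime.ne_top ((Ideal.eq_top_iff_one 𝔫₂.1).mpr h'),
    Ideal.subset_span hT₂, ?_⟩
  rw [map_one, one_mul]
  exact (rtk6lfi_coe_pi (π := π) u).trans (rtk6lfi_coe_pi (π := π) u').symm

/-- **Transfer of the thin dichotomy, smooth case.** -/
theorem rtk6lfi_smooth_transfer {u u' : F} (𝔫₁ : AtPt (F := F) π u) (𝔫₂ : AtPt (F := F) π u')
    (h : atLoc 𝔫₁ = atLoc 𝔫₂)
    {s : ↥(zchClosure (A₀ := A₀) ({u} : Set F))} (hs : s ∈ 𝔫₁.1)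
    (hgen : NodesLocGen 𝔫₁.1 {algebraMap A₀ ↥(zchClosure (A₀ := A₀) ({u} : Set F)) π, s}) :
    ∃ s' : ↥(zchClosure (A₀ := A₀) ({u'} : Set F)), s' ∈ 𝔫₂.1 ∧
      NodesLocGen 𝔫₂.1 {algebraMap A₀ ↥(zchClosure (A₀ := A₀) ({u'} : Set F)) π, s'} := by
  haveI := 𝔫₁.2.1.isPrime
  haveI := 𝔫₂.2.1.isPrime
  have hinj₁ : Function.Injective
      (algebraMap ↥(zchClosure (A₀ := A₀) ({u} : Set F)) F) := Subtype.val_injective
  have hinj₂ : Function.Injective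
      (algebraMap ↥(zchClosure (A₀ := A₀) ({u'} : Set F)) F) := Subtype.val_injective
  have hloc : ls_localSubring (F := F) 𝔫₁.1 = ls_localSubring (F := F) 𝔫₂.1 := h
  obtain ⟨s', v, hv, e⟩ := rtk6lfi_exists_num (F := F) 𝔫₁.1 𝔫₂.1 hloc.le s
  have hs' : s' ∈ 𝔫₂.1 := rtk6lfi_mem_of_mem hinj₁ hinj₂ 𝔫₁.1 𝔫₂.1 hloc.ge hs e
  refine ⟨s', hs', ?_⟩
  refine rtk6lfi_locGen_transfer hinj₁ hinj₂ 𝔫₁.1 𝔫₂.1 hloc ?_ hgen
  intro x hx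
  rcases hx with hx | hx
  · rw [hx]
    exact rtk6lfi_pi_transfer 𝔫₂ _ (Set.mem_insert _ _)
  · rw [Set.mem_singleton_iff] at hx
    rw [hx]
    exact ⟨v, s', hv, Ideal.subset_span (Set.mem_insert_of_mem _ rfl), e⟩

/-- **Transfer of the thin dichotomy, crossing case.** -/
theorem rtk6lfi_cross_transfer {u u' : F} (𝔫₁ : AtPt (F := F) π u) (𝔫₂ : AtPt (F := F) π u')
    (h : atLoc 𝔫₁ = atLoc 𝔫₂) (V₁ V₂ : ValuationSubring F)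
    (hBV₁ : ∀ b : F, IsIntegral ↥(Algebra.adjoin A₀ {u}) b → b ∈ V₁)
    (hBV₂ : ∀ b : F, IsIntegral ↥(Algebra.adjoin A₀ {u}) b → b ∈ V₂)
    (hBV₁' : ∀ b : F, IsIntegral ↥(Algebra.adjoin A₀ {u'}) b → b ∈ V₁)
    (hBV₂' : ∀ b : F, IsIntegral ↥(Algebra.adjoin A₀ {u'}) b → b ∈ V₂)
    {X Y : ↥(zchClosure (A₀ := A₀) ({u} : Set F))}
    (hc : Rtk6lfCrossAt V₁ V₂ 𝔫₁ X Y) :
    ∃ X' Y' : ↥(zchClosure (A₀ := A₀) ({u'} : Set F)), Rtk6lfCrossAt V₁ V₂ 𝔫₂ X' Y' := by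
  haveI := 𝔫₁.2.1.isPrime
  haveI := 𝔫₂.2.1.isPrime
  have hinj₁ : Function.Injective
      (algebraMap ↥(zchClosure (A₀ := A₀) ({u} : Set F)) F) := Subtype.val_injective
  have hinj₂ : Function.Injective
      (algebraMap ↥(zchClosure (A₀ := A₀) ({u'} : Set F)) F) := Subtype.val_injective
  have hloc : ls_localSubring (F := F) 𝔫₁.1 = ls_localSubring (F := F) 𝔫₂.1 := h
  obtain ⟨hth₁, hth₂, hX, hY, ⟨w, hw, hXY⟩, hgen⟩ := hc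
  obtain ⟨X', v₁, hv₁, eX⟩ := rtk6lfi_exists_num (F := F) 𝔫₁.1 𝔫₂.1 hloc.le X
  obtain ⟨Y', v₂, hv₂, eY⟩ := rtk6lfi_exists_num (F := F) 𝔫₁.1 𝔫₂.1 hloc.le Y
  obtain ⟨w₁, w₀, hw₀, ew⟩ := rtk6lfi_exists_num (F := F) 𝔫₁.1 𝔫₂.1 hloc.le w
  have hw₁ : w₁ ∉ 𝔫₂.1 :=
    rtk6lfi_not_mem_of_not_mem hinj₁ hinj₂ 𝔫₁.1 𝔫₂.1 hloc.le hw hw₀ ew
  have eX' : (v₁ : F) * (X : F) = (X' : F) := eX
  have eY' : (v₂ : F) * (Y : F) = (Y' : F) := eY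
  have ew' : (w₀ : F) * (w : F) = (w₁ : F) := ew
  have hXY' : (w : F) * algebraMap A₀ F π = (X : F) * (Y : F) := by
    have h1 := congrArg (fun z : ↥(zchClosure (A₀ := A₀) ({u} : Set F)) => (z : F)) hXY
    simp only [MulMemClass.coe_mul] at h1
    rw [rtk6lfi_coe_pi] at h1
    exact h1
  have hwv : w₀ * v₁ ∉ 𝔫₂.1 := fun h' => by
    rcases 𝔫₂.2.1.isPrime.mem_or_mem h' with h'' | h''
    · exact hw₀ h''
    · exact hv₁ h''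
  have e1 : ((w₀ * X' : ↥(zchClosure (A₀ := A₀) ({u'} : Set F))) : F) =
      ((w₀ : F) * (v₁ : F)) * (X : F) := by
    rw [MulMemClass.coe_mul, ← eX']; ring
  refine ⟨w₀ * X', Y', ?_, ?_, ?_, ?_, ⟨w₁ * v₁ * v₂, ?_, ?_⟩, ?_⟩
  · exact rtk6lfi_through_transfer 𝔫₁ 𝔫₂ h V₁ hBV₁ hth₁
  · exact rtk6lfi_through_transfer 𝔫₁ 𝔫₂ h V₂ hBV₂ hth₂
  · -- `w₀ X' = (w₀ v₁) X ∈ 𝔪(V₁)`
    rw [e1]
    exact pwi_mul_mem_nonunits V₁
      (V₁.mul_mem _ _ (hBV₁' _ (mem_zchClosure.mp w₀.2)) (hBV₁' _ (mem_zchClosure.mp v₁.2))) hX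
  · rw [← eY']
    exact pwi_mul_mem_nonunits V₂ (hBV₂' _ (mem_zchClosure.mp v₂.2)) hY
  · intro h'
    rcases 𝔫₂.2.1.isPrime.mem_or_mem h' with h'' | h''
    · rcases 𝔫₂.2.1.isPrime.mem_or_mem h'' with h3 | h3
      · exact hw₁ h3
      · exact hv₁ h3
    · exact hv₂ h''
  · apply Subtype.ext
    rw [MulMemClass.coe_mul, MulMemClass.coe_mul, MulMemClass.coe_mul, MulMemClass.coe_mul,
      MulMemClass.coe_mul, rtk6lfi_coe_pi, ← ew', ← eX', ← eY']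
    calc (w₀ : F) * (w : F) * (v₁ : F) * (v₂ : F) * algebraMap A₀ F π
        = (w₀ : F) * (v₁ : F) * (v₂ : F) * ((w : F) * algebraMap A₀ F π) := by ring
      _ = (w₀ : F) * (v₁ : F) * (v₂ : F) * ((X : F) * (Y : F)) := by rw [hXY']
      _ = (w₀ : F) * ((v₁ : F) * (X : F)) * ((v₂ : F) * (Y : F)) := by ring
  · refine rtk6lfi_locGen_transfer hinj₁ hinj₂ 𝔫₁.1 𝔫₂.1 hloc ?_ hgen
    intro x hx
    rcases hx with hx | hx | hx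
    · rw [hx]
      exact rtk6lfi_pi_transfer 𝔫₂ _ (Set.mem_insert _ _)
    · rw [hx]
      exact ⟨w₀ * v₁, w₀ * X', hwv,
        Ideal.subset_span (Set.mem_insert_of_mem _ (Set.mem_insert _ _)), by
          show ((w₀ * v₁ : ↥(zchClosure (A₀ := A₀) ({u'} : Set F))) : F) * (X : F) =
            ((w₀ * X' : ↥(zchClosure (A₀ := A₀) ({u'} : Set F))) : F)
          rw [e1, MulMemClass.coe_mul]⟩
    · rw [Set.mem_singleton_iff] at hx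
      rw [hx]
      exact ⟨v₂, Y', hv₂,
        Ideal.subset_span (Set.mem_insert_of_mem _ (Set.mem_insert_of_mem _ rfl)), eY⟩

/-- **Transfer of the thin dichotomy** between two charts with the same local ring. -/
theorem rtk6lfi_thinAt_transfer {u u' : F} (𝔫₁ : AtPt (F := F) π u) (𝔫₂ : AtPt (F := F) π u')
    (h : atLoc 𝔫₁ = atLoc 𝔫₂) (V₁ V₂ : ValuationSubring F)
    (hBV₁ : ∀ b : F, IsIntegral ↥(Algebra.adjoin A₀ {u}) b → b ∈ V₁)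
    (hBV₂ : ∀ b : F, IsIntegral ↥(Algebra.adjoin A₀ {u}) b → b ∈ V₂)
    (hBV₁' : ∀ b : F, IsIntegral ↥(Algebra.adjoin A₀ {u'}) b → b ∈ V₁)
    (hBV₂' : ∀ b : F, IsIntegral ↥(Algebra.adjoin A₀ {u'}) b → b ∈ V₂)
    (hthin : Rtk6lfThinAt V₁ V₂ 𝔫₁) : Rtk6lfThinAt V₁ V₂ 𝔫₂ := by
  rcases hthin with ⟨s, hs, hgen⟩ | ⟨X, Y, hc⟩
  · exact Or.inl (rtk6lfi_smooth_transfer 𝔫₁ 𝔫₂ h hs hgen)
  · exact Or.inr (rtk6lfi_cross_transfer 𝔫₁ 𝔫₂ h V₁ V₂ hBV₁ hBV₂ hBV₁' hBV₂' hc)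

end Chart

end Fermat.Agent.RT.K6
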