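/-
K-machine, piece K6, LF-inst on the chart `1 / j` (helper71): the twin of `RT/K6/DLFConc.lean`
(helper54, chart `j`) for the chart `1 / j` of `F_{Mq}(K₀)`.

Level `M q`, `q ∤ M`, RIGID: `4 ∣ M` if `q ≠ 2`, `9 ∣ M` if `q = 2`.  `A` a valuation subring of
`ℚ̄` over `q`, `K₀ ⊇ ℚ̄^I` with `A₀ = A ∩ K₀` a DVR, unramified (`q` a uniformizer), stable under a
Frobenius element; `F = F_{Mq}(K₀)`, `V = mgvV hπ ιC hq hqM` (`V true = V_∞`, `V false = V_0`).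

A closed point `𝔫` of the special fibre of the chart `1 / j` is either a CUSP (`1 / j ∈ 𝔫`), which
is a smooth point (`RIB.MP.ribmp_fcu_smooth`, helper81), or it lies on the chart `j`
(`RIB.MP.ribmp_fgl_exists_pt_inv`, helper2), where the thin dichotomy is `rtk6lfb_thinAt_J`
(helper54); the thin datum moves between the charts by `rtk6lfi_thinAt_transfer`
(`RT/K6/LFInvAbs.lean`).

* `rtk6lfi_thinAt_Jinv` : **`Rtk6lfThinAt V_∞ V_0 𝔫` at every closed point of the chart `1 / j`**;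
* `rtk6lfi_ufd_Jinv` : `atLoc 𝔫` is a UFD;
* `rtk6lfi_cross_LF_Jinv`, `rtk6lfi_smooth_LF_Jinv`, `rtk6lfi_LF_Jinv` : **(LF)** on the chart
  `1 / j`, in exactly the shape of `rtk6lfb_LF_J`;
* `rtk6lfi0_thinAt_Jinv`, `rtk6lfi0_ufd_Jinv`, `rtk6lfi0_LF_Jinv` : the same for
  `K₀ = ℚ̄^I = beta0Field A` (no hypothesis left but the rigidity of the level).
-/
import Fermat.Agent.RT.K6.LFInvAbs
import Fermat.Agent.RT.K6.DLFConc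
import Fermat.Agent.RIB.MP.FacCusp

set_option autoImplicit false
set_option linter.style.haveILetI false
set_option linter.unusedSectionVars false
set_option linter.unusedVariables false
set_option linter.style.longLine false
set_option synthInstance.maxHeartbeats 400000
set_option maxHeartbeats 8000000

noncomputable section

namespace Fermat.Agent.RT.K6

open ModularCurve Polynomial IntermediateField Fermat.Agent.INJ Fermat.Agent.AL AlgebraicCurve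
open Fermat.Agent.ES Fermat.Agent.ES.G2 Fermat.Agent.STB Fermat.Agent.UNIP Fermat.Agent.S36
open Fermat.Agent.RIB.MP

section Reg

variable {A : ValuationSubring Qb} {K₀ : IntermediateField ℚ Qb}
  [IsDiscreteValuationRing ↥(beta0Ring A K₀)] {π : ↥(beta0Ring A K₀)} (hπ : Irreducible π)
  (ιC : ↥K₀ →+* ℂ) {q M : ℕ} [NeZero q] [NeZero M] [NeZero (M * q)]
  (hq : q.Prime) (hqM : ¬ q ∣ M)

include hπ ιC hq hqM in
/-- **The thin dichotomy at every closed point of the chart `1 / j`** of `F_{Mq}(K₀)` over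
`A₀ = A ∩ K₀` (unramified, Frobenius-stable), rigid level. -/
theorem rtk6lfi_thinAt_Jinv (hA : A.LiesOverPrime q) (hE : beta0Field A ≤ K₀)
    {φ : Qb ≃ₐ[ℚ] Qb} (hφF : A.IsFrobeniusAt φ q) (hφ : ∀ x ∈ K₀, φ x ∈ K₀)
    (hqπ : Associated ((q : ℕ) : ↥(beta0Ring A K₀)) π)
    (rigid : (q ≠ 2 → 4 ∣ M) ∧ (q = 2 → 9 ∣ M))
    (𝔫 : AtPt (F := ↥(modularFunctionFieldFullC ↥K₀ (M * q))) π (bgJ ↥K₀ (M * q))⁻¹) :
    Rtk6lfThinAt (mgvV hπ ιC hq hqM true) (mgvV hπ ιC hq hqM false) 𝔫 := by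
  have h2 := rtk6lfb_rigid_h2 rigid
  have h3 := rtk6lfb_rigid_h3 rigid
  by_cases hT : ribmpFglGen (A₀ := ↥(beta0Ring A K₀)) (bgJ ↥K₀ (M * q))⁻¹ ∈ 𝔫.1
  · exact Or.inl (ribmp_fcu_smooth hπ hq hqM hA hE hφF hφ h2 h3 𝔫 hT)
  · obtain ⟨𝔫₁, h𝔫₁⟩ := ribmp_fgl_exists_pt_inv hπ (ribmp_fcu_bgJ_ne_zero K₀ M q) 𝔫 hT
    exact rtk6lfi_thinAt_transfer 𝔫₁ 𝔫 h𝔫₁ _ _
      (mgv_hBV₁ hπ ιC hq hqM true) (mgv_hBV₁ hπ ιC hq hqM false)
      (mgv_hBV₂ hπ ιC hq hqM true) (mgv_hBV₂ hπ ιC hq hqM false)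
      (rtk6lfb_thinAt_J hπ ιC hq hqM hA hφF hφ hqπ rigid
        (stb_regChart_conc_J M hq hA hE hπ hqM h2 h3) 𝔫₁)

include hπ ιC hq hqM in
/-- **`atLoc 𝔫` is a UFD at every closed point of the chart `1 / j`**. -/
theorem rtk6lfi_ufd_Jinv (hA : A.LiesOverPrime q) (hE : beta0Field A ≤ K₀) {φ : Qb ≃ₐ[ℚ] Qb}
    (hφF : A.IsFrobeniusAt φ q) (hφ : ∀ x ∈ K₀, φ x ∈ K₀)
    (hqπ : Associated ((q : ℕ) : ↥(beta0Ring A K₀)) π)
    (rigid : (q ≠ 2 → 4 ∣ M) ∧ (q = 2 → 9 ∣ M))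
    (𝔫 : AtPt (F := ↥(modularFunctionFieldFullC ↥K₀ (M * q))) π (bgJ ↥K₀ (M * q))⁻¹) :
    UniqueFactorizationMonoid ↥(atLoc 𝔫) := by
  have h2 := rtk6lfb_rigid_h2 rigid
  have h3 := rtk6lfb_rigid_h3 rigid
  by_cases hT : ribmpFglGen (A₀ := ↥(beta0Ring A K₀)) (bgJ ↥K₀ (M * q))⁻¹ ∈ 𝔫.1
  · exact ribmp_fcu_ufd_atLoc hπ hq hqM hA hE hφF hφ h2 h3 𝔫 hT
  · obtain ⟨𝔫₁, h𝔫₁⟩ := ribmp_fgl_exists_pt_inv hπ (ribmp_fcu_bgJ_ne_zero K₀ M q) 𝔫 hT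
    exact ribmp_fgl_ufd_of_eq h𝔫₁ (rtk6lfb_ufd_J hπ ιC hq hqM hA hE hφF hφ hqπ rigid 𝔫₁)

/-! ### (LF) -/

include hπ ιC hq hqM in
/-- **(LF) at a thin crossing point** of the chart `1 / j`: `y = ε · Y ^ n₀ · γ ^ m`. -/
theorem rtk6lfi_cross_LF_Jinv (hA : A.LiesOverPrime q) (hE : beta0Field A ≤ K₀)
    (h2 : q = 2 → 3 ∣ M) (h3 : q = 3 → 2 ∣ M)
    (𝔫 : AtPt (F := ↥(modularFunctionFieldFullC ↥K₀ (M * q))) π (bgJ ↥K₀ (M * q))⁻¹)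
    {X Y : ↥(zchClosure (A₀ := ↥(beta0Ring A K₀))
      ({(bgJ ↥K₀ (M * q))⁻¹} : Set ↥(modularFunctionFieldFullC ↥K₀ (M * q))))}
    (h : Rtk6lfCrossAt (mgvV hπ ιC hq hqM true) (mgvV hπ ιC hq hqM false) 𝔫 X Y)
    (m : ℕ) {y : ↥(modularFunctionFieldFullC ↥K₀ (M * q))} (hy : y ≠ 0)
    (hhor : ∀ P : Place ↥K₀ ↥(modularFunctionFieldFullC ↥K₀ (M * q)),
      (∀ x ∈ atLoc 𝔫, x ∈ P.toValuationSubring) → (m : ℤ) ∣ P.ord y)
    (hy₁ : (mgvV hπ ιC hq hqM true).valuation y = 1) {n₀ : ℤ}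
    (hn₀ : (mgvV hπ ιC hq hqM false).valuation y = (mgvV hπ ιC hq hqM false).valuation
      (algebraMap ↥(beta0Ring A K₀) ↥(modularFunctionFieldFullC ↥K₀ (M * q)) π) ^ n₀) :
    ∃ (γ : ↥(modularFunctionFieldFullC ↥K₀ (M * q))) (ε : ↥(atLoc 𝔫)), IsUnit ε ∧
      y = (ε : ↥(modularFunctionFieldFullC ↥K₀ (M * q))) *
        (Y : ↥(modularFunctionFieldFullC ↥K₀ (M * q))) ^ n₀ * γ ^ m ∧ γ ≠ 0 ∧
      (mgvV hπ ιC hq hqM true).valuation γ = 1 ∧ (mgvV hπ ιC hq hqM false).valuation γ = 1 := by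
  haveI := ribmp_fcu_noeth (A := A) (K₀ := K₀) (M := M) (q := q)
  haveI := ribmp_fc_fin_inv (K₀ := K₀) (M * q)
  obtain ⟨γ, ε, b, hε, hyε, hγ, hγ₁, hγ₂, hb⟩ := rtk6lfc_cross_LF (E := ↥K₀) hπ
    (mgvV hπ ιC hq hqM) true false mgv_hκ (mgv_hBV₂ hπ ιC hq hqM) (mgv_hπV hπ ιC hq hqM)
    (ribmp_fc_hSS1_inv hπ ιC hq hqM hA hE h2 h3) (ribmp_fc_hU hπ ιC hq hqM) 𝔫 h m hy hhor hy₁
  have hbn : b = n₀ := rtk6lfb_zpow_inj _ (mgv_hπV hπ ιC hq hqM false) (ribmp_fc_hπ0 hπ)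
    (hb.symm.trans hn₀)
  subst hbn
  exact ⟨γ, ε, hε, hyε, hγ, hγ₁, hγ₂⟩

include hπ ιC hq hqM in
/-- **(LF) at a smooth point** of the chart `1 / j` on the component `V c`:
`y = ε · π ^ n · γ ^ m`, `v_c(y) = v_c(π) ^ n`. -/
theorem rtk6lfi_smooth_LF_Jinv (hA : A.LiesOverPrime q) (hE : beta0Field A ≤ K₀)
    (h2 : q = 2 → 3 ∣ M) (h3 : q = 3 → 2 ∣ M)
    (𝔫 : AtPt (F := ↥(modularFunctionFieldFullC ↥K₀ (M * q))) π (bgJ ↥K₀ (M * q))⁻¹)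
    {s : ↥(zchClosure (A₀ := ↥(beta0Ring A K₀))
      ({(bgJ ↥K₀ (M * q))⁻¹} : Set ↥(modularFunctionFieldFullC ↥K₀ (M * q))))} (hs : s ∈ 𝔫.1)
    (hgen : NodesLocGen 𝔫.1 {algebraMap ↥(beta0Ring A K₀) ↥(zchClosure (A₀ := ↥(beta0Ring A K₀))
      ({(bgJ ↥K₀ (M * q))⁻¹} : Set ↥(modularFunctionFieldFullC ↥K₀ (M * q)))) π, s})
    (m : ℕ) {y : ↥(modularFunctionFieldFullC ↥K₀ (M * q))} (hy : y ≠ 0)
    (hhor : ∀ P : Place ↥K₀ ↥(modularFunctionFieldFullC ↥K₀ (M * q)),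
      (∀ x ∈ atLoc 𝔫, x ∈ P.toValuationSubring) → (m : ℤ) ∣ P.ord y) :
    ∃ c : Bool, atThrough 𝔫 (mgvV hπ ιC hq hqM c) ∧
      (∀ c', atThrough 𝔫 (mgvV hπ ιC hq hqM c') → c' = c) ∧
      ∀ n : ℤ, (mgvV hπ ιC hq hqM c).valuation y = (mgvV hπ ιC hq hqM c).valuation
          (algebraMap ↥(beta0Ring A K₀) ↥(modularFunctionFieldFullC ↥K₀ (M * q)) π) ^ n →
        ∃ (γ : ↥(modularFunctionFieldFullC ↥K₀ (M * q))) (ε : ↥(atLoc 𝔫)), IsUnit ε ∧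
          y = (ε : ↥(modularFunctionFieldFullC ↥K₀ (M * q))) *
            algebraMap ↥(beta0Ring A K₀) ↥(modularFunctionFieldFullC ↥K₀ (M * q)) π ^ n *
              γ ^ m ∧ γ ≠ 0 ∧ (mgvV hπ ιC hq hqM c).valuation γ = 1 := by
  haveI := ribmp_fcu_noeth (A := A) (K₀ := K₀) (M := M) (q := q)
  haveI := ribmp_fc_fin_inv (K₀ := K₀) (M * q)
  have hSS1 := ribmp_fc_hSS1_inv hπ ιC hq hqM hA hE h2 h3
  have harch' : ∀ c, StbArch (mgvV hπ ιC hq hqM c) := fun c x a ha => by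
    obtain ⟨N, hN⟩ := mgv_harch hπ ιC hq hqM c a x ha
    exact ⟨N, by rw [mul_comm x (a ^ N)]; exact hN⟩
  obtain ⟨c, hc, hone⟩ := stb_sx_exists_unique (mgvV hπ ιC hq hqM) (mgv_hBV₂ hπ ιC hq hqM)
    (mgv_hπV hπ ιC hq hqM) hSS1
    (mgv_hVloc₂ hπ ιC hq hqM hA (ribmp_fc_hSS1 hπ ιC hq hqM hA hE h2 h3))
    (fun c c' hcc' => stb_not_le_of_ne (harch' c) (ribmp_fc_hπ0 hπ) (mgv_hπV hπ ιC hq hqM c')
      (rtk6lfb_hne hπ ιC hq hqM hA c c' hcc')) 𝔫 s hs hgen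
  refine ⟨c, hc, hone, fun n hn => ?_⟩
  obtain ⟨γ, ε, a, hε, hyε, hγ, hγ₁, ha⟩ := rtk6lfc_smooth_fac (E := ↥K₀) hπ
    (mgvV hπ ιC hq hqM) (mgv_hBV₂ hπ ιC hq hqM) (mgv_hπV hπ ιC hq hqM)
    hSS1 (ribmp_fc_hU hπ ιC hq hqM) 𝔫 c hc hone hs hgen m hy hhor
  have han : a = n := rtk6lfb_zpow_inj _ (mgv_hπV hπ ιC hq hqM c) (ribmp_fc_hπ0 hπ)
    (ha.symm.trans hn)
  subst han
  exact ⟨γ, ε, hε, hyε, hγ, hγ₁⟩

include hπ ιC hq hqM in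
/-- **(LF) at every closed point of the chart `1 / j`** (rigid level, unramified
Frobenius-stable base): `y ≠ 0` with divisor divisible by `m`, unit at `V_∞`,
`v_0(y) = v_0(π) ^ n₀`.  Then at `𝔫`:
* crossing point `𝔫 = (π, X, Y)`, `w π = X Y`: `y = ε · Y ^ n₀ · γ ^ m`;
* smooth point of `Σ_0`: `y = ε · π ^ n₀ · γ ^ m`;
* smooth point of `Σ_∞`: `y = ε · γ ^ m`;
with `ε` a unit of `atLoc 𝔫` and `γ` a unit at the components through `𝔫`. -/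
theorem rtk6lfi_LF_Jinv (hA : A.LiesOverPrime q) (hE : beta0Field A ≤ K₀) {φ : Qb ≃ₐ[ℚ] Qb}
    (hφF : A.IsFrobeniusAt φ q) (hφ : ∀ x ∈ K₀, φ x ∈ K₀)
    (hqπ : Associated ((q : ℕ) : ↥(beta0Ring A K₀)) π)
    (rigid : (q ≠ 2 → 4 ∣ M) ∧ (q = 2 → 9 ∣ M))
    (m : ℕ) {y : ↥(modularFunctionFieldFullC ↥K₀ (M * q))} (hy : y ≠ 0)
    (hhor : ∀ P : Place ↥K₀ ↥(modularFunctionFieldFullC ↥K₀ (M * q)), (m : ℤ) ∣ P.ord y)
    (hy₁ : (mgvV hπ ιC hq hqM true).valuation y = 1) {n₀ : ℤ}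
    (hn₀ : (mgvV hπ ιC hq hqM false).valuation y = (mgvV hπ ιC hq hqM false).valuation
      (algebraMap ↥(beta0Ring A K₀) ↥(modularFunctionFieldFullC ↥K₀ (M * q)) π) ^ n₀)
    (𝔫 : AtPt (F := ↥(modularFunctionFieldFullC ↥K₀ (M * q))) π (bgJ ↥K₀ (M * q))⁻¹) :
    (∃ X Y : ↥(zchClosure (A₀ := ↥(beta0Ring A K₀))
        ({(bgJ ↥K₀ (M * q))⁻¹} : Set ↥(modularFunctionFieldFullC ↥K₀ (M * q)))),
      Rtk6lfCrossAt (mgvV hπ ιC hq hqM true) (mgvV hπ ιC hq hqM false) 𝔫 X Y ∧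
      ∃ (γ : ↥(modularFunctionFieldFullC ↥K₀ (M * q))) (ε : ↥(atLoc 𝔫)), IsUnit ε ∧
        y = (ε : ↥(modularFunctionFieldFullC ↥K₀ (M * q))) *
          (Y : ↥(modularFunctionFieldFullC ↥K₀ (M * q))) ^ n₀ * γ ^ m ∧ γ ≠ 0 ∧
        (mgvV hπ ιC hq hqM true).valuation γ = 1 ∧
        (mgvV hπ ιC hq hqM false).valuation γ = 1) ∨
    (atThrough 𝔫 (mgvV hπ ιC hq hqM false) ∧ ¬ atThrough 𝔫 (mgvV hπ ιC hq hqM true) ∧
      (∃ s : ↥(zchClosure (A₀ := ↥(beta0Ring A K₀))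
          ({(bgJ ↥K₀ (M * q))⁻¹} : Set ↥(modularFunctionFieldFullC ↥K₀ (M * q)))), s ∈ 𝔫.1 ∧
        NodesLocGen 𝔫.1 {algebraMap ↥(beta0Ring A K₀) ↥(zchClosure (A₀ := ↥(beta0Ring A K₀))
          ({(bgJ ↥K₀ (M * q))⁻¹} : Set ↥(modularFunctionFieldFullC ↥K₀ (M * q)))) π, s}) ∧
      ∃ (γ : ↥(modularFunctionFieldFullC ↥K₀ (M * q))) (ε : ↥(atLoc 𝔫)), IsUnit ε ∧
        y = (ε : ↥(modularFunctionFieldFullC ↥K₀ (M * q))) *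
          algebraMap ↥(beta0Ring A K₀) ↥(modularFunctionFieldFullC ↥K₀ (M * q)) π ^ n₀ *
            γ ^ m ∧ γ ≠ 0 ∧ (mgvV hπ ιC hq hqM false).valuation γ = 1) ∨
    (atThrough 𝔫 (mgvV hπ ιC hq hqM true) ∧ ¬ atThrough 𝔫 (mgvV hπ ιC hq hqM false) ∧
      (∃ s : ↥(zchClosure (A₀ := ↥(beta0Ring A K₀))
          ({(bgJ ↥K₀ (M * q))⁻¹} : Set ↥(modularFunctionFieldFullC ↥K₀ (M * q)))), s ∈ 𝔫.1 ∧
        NodesLocGen 𝔫.1 {algebraMap ↥(beta0Ring A K₀) ↥(zchClosure (A₀ := ↥(beta0Ring A K₀))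
          ({(bgJ ↥K₀ (M * q))⁻¹} : Set ↥(modularFunctionFieldFullC ↥K₀ (M * q)))) π, s}) ∧
      ∃ (γ : ↥(modularFunctionFieldFullC ↥K₀ (M * q))) (ε : ↥(atLoc 𝔫)), IsUnit ε ∧
        y = (ε : ↥(modularFunctionFieldFullC ↥K₀ (M * q))) * γ ^ m ∧ γ ≠ 0 ∧
        (mgvV hπ ιC hq hqM true).valuation γ = 1) := by
  have h2 := rtk6lfb_rigid_h2 rigid
  have h3 := rtk6lfb_rigid_h3 rigid
  rcases rtk6lfi_thinAt_Jinv hπ ιC hq hqM hA hE hφF hφ hqπ rigid 𝔫 with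
    ⟨s, hs, hgen⟩ | ⟨X, Y, h⟩
  · obtain ⟨c, hc, hone, hfac⟩ := rtk6lfi_smooth_LF_Jinv hπ ιC hq hqM hA hE h2 h3 𝔫 hs hgen m hy
      (fun P _ => hhor P)
    cases c
    · -- the point lies on `Σ_0`
      obtain ⟨γ, ε, hε, hyε, hγ, hγ₁⟩ := hfac n₀ hn₀
      exact Or.inr (Or.inl ⟨hc, fun h => Bool.noConfusion (hone true h), ⟨s, hs, hgen⟩,
        γ, ε, hε, hyε, hγ, hγ₁⟩)
    · -- the point lies on `Σ_∞`
      obtain ⟨γ, ε, hε, hyε, hγ, hγ₁⟩ := hfac 0 (by rw [hy₁, zpow_zero])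
      rw [zpow_zero, mul_one] at hyε
      exact Or.inr (Or.inr ⟨hc, fun h => Bool.noConfusion (hone false h), ⟨s, hs, hgen⟩,
        γ, ε, hε, hyε, hγ, hγ₁⟩)
  · exact Or.inl ⟨X, Y, h, rtk6lfi_cross_LF_Jinv hπ ιC hq hqM hA hE h2 h3 𝔫 h m hy
      (fun P _ => hhor P) hy₁ hn₀⟩

end Reg

/-! ### `K₀ = ℚ̄^I` -/

section Base

variable {A : ValuationSubring Qb} {q M : ℕ} [NeZero q] [NeZero M] [NeZero (M * q)]
  [IsDiscreteValuationRing ↥(beta0Ring A (beta0Field A))]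
  {π : ↥(beta0Ring A (beta0Field A))} (hπ : Irreducible π)
  (ιC : ↥(beta0Field A) →+* ℂ) (hq : q.Prime) (hqM : ¬ q ∣ M)

include hπ ιC hq hqM in
/-- **The thin dichotomy at every closed point of the chart `1 / j`** of `F_{Mq}(ℚ̄^I)`, rigid
level. -/
theorem rtk6lfi0_thinAt_Jinv (hA : A.LiesOverPrime q)
    (rigid : (q ≠ 2 → 4 ∣ M) ∧ (q = 2 → 9 ∣ M))
    (𝔫 : AtPt (F := ↥(modularFunctionFieldFullC ↥(beta0Field A) (M * q))) π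
      (bgJ ↥(beta0Field A) (M * q))⁻¹) :
    Rtk6lfThinAt (mgvV hπ ιC hq hqM true) (mgvV hπ ιC hq hqM false) 𝔫 := by
  obtain ⟨φ, hφF⟩ := Fermat.Agent.Common.exists_isFrobeniusAt_of_liesOverPrime q hq A hA
  exact rtk6lfi_thinAt_Jinv hπ ιC hq hqM hA le_rfl hφF
    (fun x hx => beta0_decomp_apply_mem hφF.mem_decompositionSubgroup hx)
    (rtk6lfb0_hqπ hπ hq hA) rigid 𝔫

include hπ ιC hq hqM in
/-- **`atLoc 𝔫` is a UFD at every closed point of the chart `1 / j`** of `F_{Mq}(ℚ̄^I)`, rigid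
level. -/
theorem rtk6lfi0_ufd_Jinv (hA : A.LiesOverPrime q)
    (rigid : (q ≠ 2 → 4 ∣ M) ∧ (q = 2 → 9 ∣ M))
    (𝔫 : AtPt (F := ↥(modularFunctionFieldFullC ↥(beta0Field A) (M * q))) π
      (bgJ ↥(beta0Field A) (M * q))⁻¹) :
    UniqueFactorizationMonoid ↥(atLoc 𝔫) := by
  obtain ⟨φ, hφF⟩ := Fermat.Agent.Common.exists_isFrobeniusAt_of_liesOverPrime q hq A hA
  exact rtk6lfi_ufd_Jinv hπ ιC hq hqM hA le_rfl hφF
    (fun x hx => beta0_decomp_apply_mem hφF.mem_decompositionSubgroup hx)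
    (rtk6lfb0_hqπ hπ hq hA) rigid 𝔫

include hπ ιC hq hqM in
/-- **(LF) at every closed point of the chart `1 / j`** of `F_{Mq}(ℚ̄^I)`, rigid level
(see `rtk6lfi_LF_Jinv`). -/
theorem rtk6lfi0_LF_Jinv (hA : A.LiesOverPrime q)
    (rigid : (q ≠ 2 → 4 ∣ M) ∧ (q = 2 → 9 ∣ M))
    (m : ℕ) {y : ↥(modularFunctionFieldFullC ↥(beta0Field A) (M * q))} (hy : y ≠ 0)
    (hhor : ∀ P : Place ↥(beta0Field A) ↥(modularFunctionFieldFullC ↥(beta0Field A) (M * q)),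
      (m : ℤ) ∣ P.ord y)
    (hy₁ : (mgvV hπ ιC hq hqM true).valuation y = 1) {n₀ : ℤ}
    (hn₀ : (mgvV hπ ιC hq hqM false).valuation y = (mgvV hπ ιC hq hqM false).valuation
      (algebraMap ↥(beta0Ring A (beta0Field A))
        ↥(modularFunctionFieldFullC ↥(beta0Field A) (M * q)) π) ^ n₀)
    (𝔫 : AtPt (F := ↥(modularFunctionFieldFullC ↥(beta0Field A) (M * q))) π
      (bgJ ↥(beta0Field A) (M * q))⁻¹) :
    (∃ X Y : ↥(zchClosure (A₀ := ↥(beta0Ring A (beta0Field A)))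
        ({(bgJ ↥(beta0Field A) (M * q))⁻¹} :
          Set ↥(modularFunctionFieldFullC ↥(beta0Field A) (M * q)))),
      Rtk6lfCrossAt (mgvV hπ ιC hq hqM true) (mgvV hπ ιC hq hqM false) 𝔫 X Y ∧
      ∃ (γ : ↥(modularFunctionFieldFullC ↥(beta0Field A) (M * q))) (ε : ↥(atLoc 𝔫)), IsUnit ε ∧
        y = (ε : ↥(modularFunctionFieldFullC ↥(beta0Field A) (M * q))) *
          (Y : ↥(modularFunctionFieldFullC ↥(beta0Field A) (M * q))) ^ n₀ * γ ^ m ∧ γ ≠ 0 ∧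
        (mgvV hπ ιC hq hqM true).valuation γ = 1 ∧
        (mgvV hπ ιC hq hqM false).valuation γ = 1) ∨
    (atThrough 𝔫 (mgvV hπ ιC hq hqM false) ∧ ¬ atThrough 𝔫 (mgvV hπ ιC hq hqM true) ∧
      (∃ s : ↥(zchClosure (A₀ := ↥(beta0Ring A (beta0Field A)))
          ({(bgJ ↥(beta0Field A) (M * q))⁻¹} :
            Set ↥(modularFunctionFieldFullC ↥(beta0Field A) (M * q)))), s ∈ 𝔫.1 ∧
        NodesLocGen 𝔫.1 {algebraMap ↥(beta0Ring A (beta0Field A))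
          ↥(zchClosure (A₀ := ↥(beta0Ring A (beta0Field A)))
            ({(bgJ ↥(beta0Field A) (M * q))⁻¹} :
              Set ↥(modularFunctionFieldFullC ↥(beta0Field A) (M * q)))) π, s}) ∧
      ∃ (γ : ↥(modularFunctionFieldFullC ↥(beta0Field A) (M * q))) (ε : ↥(atLoc 𝔫)), IsUnit ε ∧
        y = (ε : ↥(modularFunctionFieldFullC ↥(beta0Field A) (M * q))) *
          algebraMap ↥(beta0Ring A (beta0Field A))
            ↥(modularFunctionFieldFullC ↥(beta0Field A) (M * q)) π ^ n₀ *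
            γ ^ m ∧ γ ≠ 0 ∧ (mgvV hπ ιC hq hqM false).valuation γ = 1) ∨
    (atThrough 𝔫 (mgvV hπ ιC hq hqM true) ∧ ¬ atThrough 𝔫 (mgvV hπ ιC hq hqM false) ∧
      (∃ s : ↥(zchClosure (A₀ := ↥(beta0Ring A (beta0Field A)))
          ({(bgJ ↥(beta0Field A) (M * q))⁻¹} :
            Set ↥(modularFunctionFieldFullC ↥(beta0Field A) (M * q)))), s ∈ 𝔫.1 ∧
        NodesLocGen 𝔫.1 {algebraMap ↥(beta0Ring A (beta0Field A))
          ↥(zchClosure (A₀ := ↥(beta0Ring A (beta0Field A)))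
            ({(bgJ ↥(beta0Field A) (M * q))⁻¹} :
              Set ↥(modularFunctionFieldFullC ↥(beta0Field A) (M * q)))) π, s}) ∧
      ∃ (γ : ↥(modularFunctionFieldFullC ↥(beta0Field A) (M * q))) (ε : ↥(atLoc 𝔫)), IsUnit ε ∧
        y = (ε : ↥(modularFunctionFieldFullC ↥(beta0Field A) (M * q))) * γ ^ m ∧ γ ≠ 0 ∧
        (mgvV hπ ιC hq hqM true).valuation γ = 1) := by
  obtain ⟨φ, hφF⟩ := Fermat.Agent.Common.exists_isFrobeniusAt_of_liesOverPrime q hq A hA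
  exact rtk6lfi_LF_Jinv hπ ιC hq hqM hA le_rfl hφF
    (fun x hx => beta0_decomp_apply_mem hφF.mem_decompositionSubgroup hx)
    (rtk6lfb0_hqπ hπ hq hA) rigid m hy hhor hy₁ hn₀ 𝔫

end Base

end Fermat.Agent.RT.K6

end
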