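/-
K-machine, piece K6, piece **C4-U-inst** (helper81), adapter: the case (U) from (G-et) ALONE.

(C4-U-inst) (A) = helper37's `rtk6c4u_nodeAt_J`, `rtk6c4u_nodeAt_Jinv` (`RT/K6/C4UInst.lean`)
needs, at the unramified level `K₁′ = rtk6ebK q 1`, the thin dichotomy of the two charts of the
`Γ₀(M₁ q)`-field (chart `j`: `rtk6c4u_thin_J`; chart `1 / j`: helper71 / helper54's
`rtk6lfi_thinAt_Jinv`, here `rtk6c4b_thin_Jinv`) and (G-et) `Rtk6c4uGet` on the two charts.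

* `rtk6c4b_rigid` : the rigidity of the level from `4 ∣ M₁ q`, `q ∤ M₁`;
* `rtk6c4b_thin_Jinv` : `Rtk6c4uThin` on the chart `1 / j`;
* `rtk6c4b_asm_of_get` : (G-et) on the two charts → (A) (`Rtk6c4bAsm`);
* `rtk6c4b_stmtUnipHRig_of_get` : (G-et) on the two charts → `StmtUnipHRig`.
-/
import Fermat.Agent.RT.K6.C4InstBU
import Fermat.Agent.RT.K6.C4UInst
import Fermat.Agent.RT.K6.LFInv

set_option autoImplicit false
set_option linter.style.haveILetI false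
set_option linter.unusedSectionVars false
set_option linter.unusedVariables false
set_option linter.style.longLine false

noncomputable section

namespace Fermat.Agent.RT.K6

open ModularCurve AlgebraicCurve Fermat.Agent.ES Fermat.Agent.ES.G2 Fermat.Agent.INJ
open Fermat.Agent.UNIP Fermat.Agent.STB Fermat.Agent.ES1 Fermat.Agent.ES1.G2 Fermat.Agent.AL
  IntermediateField

/-- the rigidity of the level `M₁` from `4 ∣ M₁ q`, `q ∤ M₁` -/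
theorem rtk6c4b_rigid {q M₁ : ℕ} (hq : q.Prime) (hqM : ¬ q ∣ M₁) (h4 : 4 ∣ M₁ * q) :
    (q ≠ 2 → 4 ∣ M₁) ∧ (q = 2 → 9 ∣ M₁) := by
  have hq2 : q ≠ 2 := by
    rintro rfl
    apply hqM
    have h5 : 2 ∣ M₁ := by omega
    exact h5
  refine ⟨fun _ => ?_, fun h => absurd h hq2⟩
  have hodd : Nat.Coprime 4 q := by
    have h2q : Nat.Coprime 2 q := (Nat.coprime_primes Nat.prime_two hq).mpr (Ne.symm hq2)
    exact Nat.Coprime.pow_left 2 h2q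
  exact (Nat.Coprime.dvd_mul_right hodd).mp h4

section Thin

variable {A : ValuationSubring Qb} {K₁ : IntermediateField ℚ Qb}
  [IsDiscreteValuationRing ↥(mgcA A K₁)] {π : ↥(mgcA A K₁)} (hπ : Irreducible π)
  (ιC : ↥(mgcE A K₁) →+* ℂ) {q M₁ : ℕ} [NeZero q] [NeZero M₁] [NeZero (M₁ * q)]
  (hq : q.Prime) (hqM : ¬ q ∣ M₁)

/-- the thin dichotomy of the chart `1 / j` of the `Γ₀`-field over an unramified,
Frobenius-stable base, rigid level -/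
theorem rtk6c4b_thin_Jinv [Normal ℚ K₁] (hA : A.LiesOverPrime q)
    (hqπ : Associated ((q : ℕ) : ↥(mgcA A K₁)) π)
    (rigid : (q ≠ 2 → 4 ∣ M₁) ∧ (q = 2 → 9 ∣ M₁)) :
    Rtk6c4uThin hπ ιC hq hqM (bgJ ↥(mgcE A K₁) (M₁ * q))⁻¹ := by
  intro 𝔫₀
  obtain ⟨φ, hφF⟩ := Fermat.Agent.Common.exists_isFrobeniusAt_of_liesOverPrime q hq A hA
  exact rtk6lfi_thinAt_Jinv hπ ιC hq hqM hA le_sup_left hφF
    (stb_stable_beta0_sup hφF.mem_decompositionSubgroup K₁) hqπ rigid 𝔫₀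

end Thin

/-- **(A) from (G-et) on the two charts** at the level `rtk6ebK q 1`. -/
theorem rtk6c4b_asm_of_get {q M₁ : ℕ} [NeZero q] [NeZero M₁] [NeZero (M₁ * q)] {M : ℕ}
    {H : Subgroup (ZMod M)ˣ} (hq : q.Prime) (hqM' : q ∣ M) (hM0 : M ≠ 0) (hqM : ¬ q ∣ M₁)
    (hML : M ∣ M₁ * q) (h4 : 4 ∣ M₁ * q)
    (w₀ : fieldBar (M₁ * q) M H ≃ₐ[Qb] fieldBar (M₁ * q) M H)
    (hw₀ : IsWAt (M₁ * q) M H q w₀)
    {A : ValuationSubring Qb} (hA : A.LiesOverPrime q)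
    [IsDiscreteValuationRing ↥(mgcA A (rtk6ebK q 1))]
    (hcomm : RtkCommK (mgcE A (rtk6ebK q 1)) w₀)
    (hget₁ : ∀ {ϖ₁ : ↥(mgcA A (rtk6ebK q 1))}, Irreducible ϖ₁ →
      Associated ((q : ℕ) : ↥(mgcA A (rtk6ebK q 1))) ϖ₁ →
      Rtk6c4uGet ϖ₁ M H (bgJ ↥(mgcE A (rtk6ebK q 1)) (M₁ * q)))
    (hget₂ : ∀ {ϖ₁ : ↥(mgcA A (rtk6ebK q 1))}, Irreducible ϖ₁ →
      Associated ((q : ℕ) : ↥(mgcA A (rtk6ebK q 1))) ϖ₁ →
      Rtk6c4uGet ϖ₁ M H (bgJ ↥(mgcE A (rtk6ebK q 1)) (M₁ * q))⁻¹) :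
    Rtk6c4bAsm q M₁ M H w₀ A hcomm := by
  have hwI := rtk6w1_wIncl w₀ hw₀ hcomm hq (mgdIota (mgcE A (rtk6ebK q 1))) hqM
  have rigid := rtk6c4b_rigid hq hqM h4
  refine rtk6c4b_asm_of_charts hq w₀ hA hcomm (fun {ϖ₁} hϖ₁ hass 𝔫₁ => ?_)
    (fun {ϖ₁} hϖ₁ hass 𝔫₁ => ?_)
  · exact rtk6c4u_nodeAt_J hϖ₁ (mgdIota (mgcE A (rtk6ebK q 1))) hq hqM M H _ hwI hML
      (rtk6c4u_thin_J hϖ₁ (mgdIota (mgcE A (rtk6ebK q 1))) hq hqM hA hass rigid)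
      (hget₁ hϖ₁ hass) 𝔫₁
  · exact rtk6c4u_nodeAt_Jinv hϖ₁ (mgdIota (mgcE A (rtk6ebK q 1))) hq hqM M H _ hwI hML
      (rtk6c4b_thin_Jinv hϖ₁ (mgdIota (mgcE A (rtk6ebK q 1))) hq hqM hA hass rigid)
      (hget₂ hϖ₁ hass) 𝔫₁

/-- **Case (U): `StmtUnipHRig` from (G-et) on the two charts ALONE.** -/
theorem rtk6c4b_stmtUnipHRig_of_get
    (hGet : ∀ (q M₁ : ℕ) [NeZero q] [NeZero M₁] [NeZero (M₁ * q)] (M : ℕ)
      (H : Subgroup (ZMod M)ˣ) (hq : q.Prime) (hqM' : q ∣ M) (hM0 : M ≠ 0), ¬ q ∣ M₁ →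
      M ∣ M₁ * q → (∀ c : (ZMod M)ˣ, IsAtR M q c → c ∈ pmH H) → IsTameAt (M₁ * q) M q H →
      4 ∣ M₁ * q →
      ∀ (A : ValuationSubring Qb), A.LiesOverPrime q →
      ∀ [IsDiscreteValuationRing ↥(mgcA A (rtk6ebK q 1))] {ϖ₁ : ↥(mgcA A (rtk6ebK q 1))},
        Irreducible ϖ₁ → Associated ((q : ℕ) : ↥(mgcA A (rtk6ebK q 1))) ϖ₁ →
        Rtk6c4uGet ϖ₁ M H (bgJ ↥(mgcE A (rtk6ebK q 1)) (M₁ * q)) ∧
        Rtk6c4uGet ϖ₁ M H (bgJ ↥(mgcE A (rtk6ebK q 1)) (M₁ * q))⁻¹) :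
    StmtUnipHRig :=
  rtk6c4b_stmtUnipHRig
    (fun q M₁ _ _ _ M H hq hqM' hM0 hqM hML hat htame h4 w₀ hw₀ A hA _ hcomm =>
      rtk6c4b_asm_of_get hq hqM' hM0 hqM hML h4 w₀ hw₀ hA hcomm
        (fun hϖ₁ hass => (hGet q M₁ M H hq hqM' hM0 hqM hML hat htame h4 A hA hϖ₁ hass).1)
        (fun hϖ₁ hass => (hGet q M₁ M H hq hqM' hM0 hqM hML hat htame h4 A hA hϖ₁ hass).2))

end Fermat.Agent.RT.K6
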