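import Fermat.Agent.ES1.RamLineH
import Fermat.Agent.ES1.RealFinal
import Fermat.Agent.ES1.HGen
import Fermat.Agent.ES1.HInputs
import Fermat.Agent.ES1.HBridge
import Fermat.Agent.ES.RiemannGeneric
import Fermat.Agent.ES1.DescentLevelH
import Fermat.Agent.ES.HModular
import Fermat.Agent.INJ.BGRam
import Fermat.Agent.RT.K6.D0Gal

/-!
# RT-K6, piece D-unr: the Kummer cover `F_H / F₀` is unramified (tame case)

`F₀ = ` the `Γ₀(L)`-field, `F_H = fieldC K L M H`.  If `y ∈ F_H`, `y ^ d = u ∈ F₀` and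
`gcd (d, 6 L) = 1`, then `d ∣ ord_P u` at EVERY place `P` of `F₀`
(the ramification of `F_H` over the `j`-line divides `2`, `3` or `L`: `ES1.stmtRamJH`).

* `rtk6unr_abs` : the abstract statement (fundamental identity + a coprime ramification witness);
* `rtk6unr_bar` : over `ℚ̄`, for `FF L ⊆ fieldBar L M H`;
* `rtk6unr_nf` : over an intermediate field `K₀ ⊆ ℚ̄`, for
  `modularFunctionFieldFullC K₀ L ⊆ fieldC K₀ L M H`;
* `rtk6unr_Y` : the instance `u₀ = y_ψ ^ d` of piece D0.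
-/

set_option autoImplicit false
set_option linter.style.haveILetI false
set_option linter.unusedSectionVars false
set_option synthInstance.maxHeartbeats 400000
set_option maxHeartbeats 1000000

noncomputable section

namespace Fermat.Agent.RT.K6

open HahnSeries ModularCurve AlgebraicCurve Polynomial IntermediateField
open Fermat.Agent.ES Fermat.Agent.ES1 Fermat.Agent.S24 Fermat.Agent.INJ

section Abs

variable {K F F' : Type*} [Field K] [Field F] [Field F'] [Algebra K F] [Algebra K F']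

/-- a place of nonzero degree has a place above it (fundamental identity) -/
theorem rtk6unr_exists_over [HasPrincipalDivisors K F'] (φ : F →ₐ[K] F')
    (hφ : φ.toRingHom.IsIntegral)
    (hFI : FundamentalIdentityAlong K φ hφ) (hn : finrankAlong K φ ≠ 0) (x : Place K F)
    (hx : x.deg ≠ 0) :
    ∃ w : Place K F', w.restrictAlong φ hφ = x := by
  letI := algebraAlong φ
  haveI := isScalarTower_along φ
  haveI := isIntegral_along φ hφ
  haveI : FundamentalIdentity K F F' := hFI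
  by_contra hne
  have hempty : x.fiber F' = ∅ := by
    rw [Finset.eq_empty_iff_forall_notMem]
    intro w hw
    exact hne ⟨w, Place.mem_fiber.1 hw⟩
  have h := FundamentalIdentity.sum_ramificationIndex_mul_deg (K := K) (F := F) (F' := F') x
  rw [hempty, Finset.sum_empty] at h
  have h0 : ((Module.finrank F F' : ℤ)) * (x.deg : ℤ) ≠ 0 := by
    refine mul_ne_zero ?_ ?_
    · exact_mod_cast hn
    · exact_mod_cast hx
  exact h0 h.symm

/-- **D-unr, abstract form.**  If at every place `w` of `F'` some `s ∈ F` has positive order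
prime to `d`, then `d ∣ ord_P u` for every `u ∈ F` which is a `d`-th power in `F'`. -/
theorem rtk6unr_abs [HasPrincipalDivisors K F'] (φ : F →ₐ[K] F')
    (hφ : φ.toRingHom.IsIntegral)
    (hFI : FundamentalIdentityAlong K φ hφ) (hn : finrankAlong K φ ≠ 0) (d : ℕ)
    (hram : ∀ w : Place K F', ∃ s : F, 0 < w.ord (φ s) ∧ IsCoprime (w.ord (φ s)) (d : ℤ))
    (u : F) (y : F') (hy : y ^ d = φ u) (P : Place K F) (hP : P.deg ≠ 0) :
    (d : ℤ) ∣ P.ord u := by
  obtain ⟨w, rfl⟩ := rtk6unr_exists_over φ hφ hFI hn P hP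
  obtain ⟨s, hs0, hsd⟩ := hram w
  have h1 := Place.ord_restrictAlong φ hφ w s
  have h2 := Place.ord_restrictAlong φ hφ w u
  have h3 : w.ord (φ u) = (d : ℤ) * w.ord y := by
    rw [← hy, ← zpow_natCast, Place.ord_zpow]
  rw [h1] at hsd
  have hcop : IsCoprime (Place.ramificationIndexAlong φ w : ℤ) (d : ℤ) :=
    IsCoprime.of_mul_left_left hsd
  have h4 : (d : ℤ) ∣ (Place.ramificationIndexAlong φ w : ℤ) * (w.restrictAlong φ hφ).ord u := by
    rw [← h2, h3]
    exact dvd_mul_right _ _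
  exact hcop.symm.dvd_of_dvd_mul_left h4

end Abs

section Bar

variable (L M : ℕ) (H : Subgroup (ZMod M)ˣ) [NeZero L]

/-- the inclusion `F₀(L) → F_H(L)` over `ℚ̄` -/
def rtk6unrIncl : FF L →ₐ[Kb] fieldBar L M H :=
  IntermediateField.inclusion (dlh_bar_le_fieldBar L M H)

theorem rtk6unrIncl_coe (x : FF L) :
    ((rtk6unrIncl L M H x : fieldBar L M H) : LaurentSeries Kb) = (x : LaurentSeries Kb) :=
  IntermediateField.coe_inclusion (dlh_bar_le_fieldBar L M H) x

theorem rtk6unr_ff1 : Es1hFF1 Kb (FF L) :=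
  ⟨jF L, Fermat.Agent.S24.transcendental_jF L, Fermat.Agent.ES.H.finiteDimensional_adjoin_jF L⟩

theorem rtk6unr_ff1' (hML : M ∣ L) : Es1hFF1 Kb (fieldBar L M H) :=
  (es1hFin_of_ramJH (stmtRamJH L M H hML)).ff1

theorem rtk6unrIncl_jF : rtk6unrIncl L M H (jF L) = jFH L M H := by
  apply Subtype.ext
  rw [rtk6unrIncl_coe, coe_jF]
  rfl

/-- the ramification witness at every place of `fieldBar L M H` -/
theorem rtk6unr_hram (hML : M ∣ L) (d : ℕ) (hd : Nat.Coprime d (6 * L))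
    (w : Place Kb (fieldBar L M H)) :
    ∃ s : FF L, 0 < w.ord (rtk6unrIncl L M H s) ∧
      IsCoprime (w.ord (rtk6unrIncl L M H s)) (d : ℤ) := by
  have hR := stmtRamJH L M H hML
  have hd6 : Nat.Coprime d 6 := Nat.Coprime.coprime_mul_right_right hd
  have hdL : Nat.Coprime d L := Nat.Coprime.coprime_mul_left_right hd
  have hd2 : IsCoprime (2 : ℤ) (d : ℤ) := by
    have : Nat.Coprime 2 d := (Nat.Coprime.coprime_dvd_right (by norm_num : 2 ∣ 6) hd6).symm
    exact_mod_cast Nat.isCoprime_iff_coprime.2 this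
  have hd3 : IsCoprime (3 : ℤ) (d : ℤ) := by
    have : Nat.Coprime 3 d := (Nat.Coprime.coprime_dvd_right (by norm_num : 3 ∣ 6) hd6).symm
    exact_mod_cast Nat.isCoprime_iff_coprime.2 this
  have hdL' : IsCoprime (L : ℤ) (d : ℤ) := Nat.isCoprime_iff_coprime.2 hdL.symm
  rcases ramJH_cases L M H hR w with ⟨c, hc⟩ | hinf
  · refine ⟨jF L - algebraMap Kb (FF L) c, ?_, ?_⟩
    · rw [map_sub, rtk6unrIncl_jF, AlgHom.commutes]
      exact hc
    · rw [map_sub, rtk6unrIncl_jF, AlgHom.commutes]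
      by_cases h0 : c = 0
      · subst h0
        rw [map_zero, sub_zero] at hc ⊢
        exact IsCoprime.of_isCoprime_of_dvd_left hd3 (hR.zero w hc)
      by_cases h1 : c = 1728
      · subst h1
        exact IsCoprime.of_isCoprime_of_dvd_left hd2 (hR.e1728 w hc)
      · rw [hR.gen c h0 h1 w hc]
        exact isCoprime_one_left
  · refine ⟨(jF L)⁻¹, ?_, ?_⟩
    · rw [map_inv₀, rtk6unrIncl_jF, Place.ord_inv]
      omega
    · rw [map_inv₀, rtk6unrIncl_jF]
      exact IsCoprime.of_isCoprime_of_dvd_left hdL' (hR.inf w hinf)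

/-- **D-unr over `ℚ̄`.**  `y ∈ F_H(L)`, `y ^ d = u ∈ F₀(L)`, `gcd (d, 6 L) = 1`: then
`d ∣ ord_P u` at every place `P` of `F₀(L)`. -/
theorem rtk6unr_bar (hML : M ∣ L) (d : ℕ) (hd : Nat.Coprime d (6 * L))
    (u : FF L) (y : LaurentSeries Kb) (hy : y ∈ fieldBar L M H)
    (hyu : y ^ d = (u : LaurentSeries Kb)) (P : Place Kb (FF L)) :
    (d : ℤ) ∣ P.ord u := by
  have hFF := rtk6unr_ff1 L
  have hFF' := rtk6unr_ff1' L M H hML
  haveI := es1h_gen_hasPrincipalDivisors hFF'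
  have hfin := es1h_gen_finiteAlong (rtk6unrIncl L M H) hFF hFF'
  have hn : finrankAlong Kb (rtk6unrIncl L M H) ≠ 0 := by
    letI := algebraAlong (rtk6unrIncl L M H)
    haveI : Module.Finite (FF L) (fieldBar L M H) := hfin
    exact (Module.finrank_pos (R := FF L) (M := fieldBar L M H)).ne'
  refine rtk6unr_abs (rtk6unrIncl L M H) (es1h_gen_integral _ hFF hFF')
    (es1h_gen_fundamentalIdentityAlong _ hFF hFF') hn d (rtk6unr_hram L M H hML d hd) u
    ⟨y, hy⟩ ?_ P ?_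
  · apply Subtype.ext
    rw [rtk6unrIncl_coe]
    exact hyu
  · rw [Fermat.Agent.ES.R.place_deg_eq_one P (es1h_gen_residue_bijective hFF P)]
    exact one_ne_zero

end Bar

section NF

variable (K₀ : IntermediateField ℚ NfQb) (L M : ℕ) (H : Subgroup (ZMod M)ˣ)

/-- **D-unr over an intermediate field `K₀ ⊆ ℚ̄`.**  `y ∈ fieldC K₀ L M H`,
`y ^ d = u ∈ modularFunctionFieldFullC K₀ L`, `gcd (d, 6 L) = 1`: then `d ∣ ord_Q u` at every
place `Q` of the `Γ₀(L)`-field over `K₀`. -/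
theorem rtk6unr_nf (hL : L ≠ 0) (hML : M ∣ L) (d : ℕ) (hd : Nat.Coprime d (6 * L))
    (u : modularFunctionFieldFullC K₀ L) (y : LaurentSeries K₀) (hy : y ∈ fieldC K₀ L M H)
    (hyu : y ^ d = (u : LaurentSeries K₀)) (Q : Place K₀ (modularFunctionFieldFullC K₀ L)) :
    (d : ℤ) ∣ Q.ord u := by
  haveI : NeZero L := ⟨hL⟩
  obtain ⟨v, hv⟩ := bgRam_hext K₀ L Q
  rw [← hv u]
  refine rtk6unr_bar L M H hML d hd (nfEmb K₀ L u) (coeffMap (algebraMap K₀ NfQb) y)
    (nfH_coeffMap_mem_bar K₀ L M H hy) ?_ v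
  rw [nfEmb_coe, ← hyu, map_pow]

/-- the Kummer element `u₀ = y_ψ ^ d` lies in the `Γ₀(L)`-field over `K₀` -/
theorem rtk6unr_Y_mem [NeZero M] (hL : L ≠ 0) (hML : M ∣ L) (ψ : (ZMod M)ˣ →* (K₀)ˣ) (d : ℕ)
    (hψ : ∀ c, ψ c ^ d = 1) :
    rtk6d0Y K₀ M H ⊤ ψ ^ d ∈ modularFunctionFieldFullC K₀ L := by
  haveI : Algebra.IsAlgebraic ℚ NfQb := AlgebraicClosure.isAlgebraic ℚ
  haveI : Algebra.IsAlgebraic ℚ K₀ :=
    Algebra.IsAlgebraic.of_injective K₀.val Subtype.val_injective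
  exact rtk6d0_pow_mem_full K₀ H ψ hL hML hψ

/-- **D-unr for the Kummer generator of piece D0**: `u₀ = y_ψ ^ d`, `ψ ^ d = 1`,
`gcd (d, 6 L) = 1`. -/
theorem rtk6unr_Y [NeZero M] (hL : L ≠ 0) (hML : M ∣ L) (ψ : (ZMod M)ˣ →* (K₀)ˣ) (d : ℕ)
    (hd : Nat.Coprime d (6 * L))
    (hmem : rtk6d0Y K₀ M H ⊤ ψ ^ d ∈ modularFunctionFieldFullC K₀ L)
    (Q : Place K₀ (modularFunctionFieldFullC K₀ L)) :
    (d : ℤ) ∣ Q.ord (⟨rtk6d0Y K₀ M H ⊤ ψ ^ d, hmem⟩ : modularFunctionFieldFullC K₀ L) :=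
  rtk6unr_nf K₀ L M H hL hML d hd _ (rtk6d0Y K₀ M H ⊤ ψ) (rtk6d0Y_mem K₀ M H ⊤ ψ hML) rfl Q

end NF

end Fermat.Agent.RT.K6
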