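/-
K-machine, piece K6, piece GEN-inst (helper74), part 1: the `R₀`-LEVEL data for C4 (helper94's
`Rtk6c4Cross`), from (LF) (helper54, `DLFConc.lean`) and the vertical orders `n₀`
(`DE.lean`, `DE0.lean`).

`R₀ = zchClosure {j}` the chart `j` of the `Γ₀(Mq)`-field `K` over `A₀ = A ∩ ℚ̄^I`, `𝔫` a closed
point of the special fibre.  A unit `ε` of `(R₀)_𝔫` is written `e₁ / e₂`, `e₁, e₂ ∈ R₀ ∖ 𝔫`.

* `rtk6gi_unit_frac`   : `ε ∈ ((R₀)_𝔫)ˣ` ⇒ `e₂ ε = e₁`, `e₁, e₂ ∉ 𝔫`.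
* `rtk6gi_LF_frac`     : `y = ε Y^n₀ γ^m` ⇒ `e₂ y = e₁ Y^n₀ γ^m`.
* `rtk6gi_et_of_LF`    : … and `m ∣ n₀` ⇒ `e₂ y = e₁ γ'^m`  (`γ' = Y^(n₀/m) γ`).
* `rtk6gi_crossAt_data`: the thin crossing datum in the shape `hw hXY hX₀ hY₀ hgen₀` of C4.
* `rtk6gi_cross_J`     : **(LF), crossing point, fraction form** (for the generator `ψ_r`).
* `rtk6gi_et_J`        : **(G-et), `K`-level**: `m ∣ n₀` ⇒ at EVERY closed point of the chart `j`
                         `e₂ y = e₁ γ'^m` with `e₁, e₂ ∈ R₀ ∖ 𝔫`, `γ' ≠ 0`.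
* `rtk6gi_bezout`      : `gcd(n₀, d) = 1` ⇒ `a n₀ − b d = 1`.
-/
import Fermat.Agent.RT.K6.DLFConc

set_option autoImplicit false
set_option linter.style.haveILetI false
set_option linter.unusedSectionVars false
set_option linter.unusedVariables false
set_option linter.style.longLine false
set_option synthInstance.maxHeartbeats 400000
set_option maxHeartbeats 4000000

noncomputable section

namespace Fermat.Agent.RT.K6

open ModularCurve Polynomial IntermediateField Fermat.Agent.INJ Fermat.Agent.AL AlgebraicCurve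
open Fermat.Agent.ES Fermat.Agent.ES.G2 Fermat.Agent.STB Fermat.Agent.UNIP Fermat.Agent.S36
open Fermat.Agent.RIB.MP

section Frac

variable {F : Type*} [Field F] {B : Type*} [CommRing B] [Algebra B F]

/-- a unit of `B_𝔫` is a quotient `e₁ / e₂` with `e₁, e₂ ∈ B ∖ 𝔫` -/
theorem rtk6gi_unit_frac (hinj : Function.Injective (algebraMap B F)) (𝔫 : Ideal B)
    [h𝔫 : 𝔫.IsPrime] {ε : ls_localSubring (F := F) 𝔫} (hε : IsUnit ε) :
    ∃ e₁ e₂ : B, e₁ ∉ 𝔫 ∧ e₂ ∉ 𝔫 ∧ algebraMap B F e₂ * (ε : F) = algebraMap B F e₁ := by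
  obtain ⟨b, s, hs, hx⟩ := ε.2
  obtain ⟨ε', hεε'⟩ := hε.exists_right_inv
  obtain ⟨b', s', hs', hx'⟩ := ε'.2
  refine ⟨b, s, fun hb => ?_, hs, hx⟩
  have h2 : (ε : F) * (ε' : F) = 1 := by
    have := congrArg (fun z : ls_localSubring (F := F) 𝔫 => (z : F)) hεε'
    simpa using this
  have h1 : algebraMap B F (s * s') = algebraMap B F (b * b') := by
    rw [map_mul, map_mul, ← hx, ← hx']
    calc algebraMap B F s * algebraMap B F s'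
        = algebraMap B F s * algebraMap B F s' * ((ε : F) * (ε' : F)) := by rw [h2, mul_one]
      _ = algebraMap B F s * (ε : F) * (algebraMap B F s' * (ε' : F)) := by ring
  have h3 : s * s' ∈ 𝔫 := by
    rw [hinj h1]
    exact 𝔫.mul_mem_right _ hb
  rcases h𝔫.mem_or_mem h3 with h | h
  · exact hs h
  · exact hs' h

/-- (LF) in fraction form -/
theorem rtk6gi_LF_frac (hinj : Function.Injective (algebraMap B F)) (𝔫 : Ideal B)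
    [h𝔫 : 𝔫.IsPrime] {ε : ls_localSubring (F := F) 𝔫} (hε : IsUnit ε) {y Y γ : F} {n₀ : ℤ}
    {m : ℕ} (hy : y = (ε : F) * Y ^ n₀ * γ ^ m) :
    ∃ e₁ e₂ : B, e₁ ∉ 𝔫 ∧ e₂ ∉ 𝔫 ∧
      algebraMap B F e₂ * y = algebraMap B F e₁ * Y ^ n₀ * γ ^ m := by
  obtain ⟨e₁, e₂, h1, h2, h⟩ := rtk6gi_unit_frac hinj 𝔫 hε
  refine ⟨e₁, e₂, h1, h2, ?_⟩
  rw [hy, ← h]
  ring

/-- (LF) with `m ∣ n₀`: a unit times an `m`-th power -/
theorem rtk6gi_et_of_LF (hinj : Function.Injective (algebraMap B F)) (𝔫 : Ideal B)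
    [h𝔫 : 𝔫.IsPrime] {ε : ls_localSubring (F := F) 𝔫} (hε : IsUnit ε) {y Y γ : F} {n₀ : ℤ}
    {m : ℕ} (hY : Y ≠ 0) (hγ : γ ≠ 0) (hy : y = (ε : F) * Y ^ n₀ * γ ^ m)
    (hdvd : (m : ℤ) ∣ n₀) :
    ∃ (γ' : F) (e₁ e₂ : B), γ' ≠ 0 ∧ e₁ ∉ 𝔫 ∧ e₂ ∉ 𝔫 ∧
      algebraMap B F e₂ * y = algebraMap B F e₁ * γ' ^ m := by
  obtain ⟨e₁, e₂, h1, h2, h⟩ := rtk6gi_LF_frac hinj 𝔫 hε hy
  obtain ⟨k, rfl⟩ := hdvd
  refine ⟨Y ^ k * γ, e₁, e₂, mul_ne_zero (zpow_ne_zero _ hY) hγ, h1, h2, ?_⟩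
  rw [h, mul_pow, ← zpow_natCast (Y ^ k) m, ← zpow_mul, mul_comm k (m : ℤ)]
  ring

end Frac

section Bezout

/-- `gcd(n₀, d) = 1` ⇒ `a n₀ − b d = 1` is solvable -/
theorem rtk6gi_bezout {n₀ : ℤ} {d : ℕ} (h : Nat.Coprime n₀.natAbs d) :
    ∃ a b : ℤ, a * n₀ - b * d = 1 := by
  have h1 : IsCoprime n₀ (d : ℤ) := by
    rw [Int.isCoprime_iff_gcd_eq_one, Int.gcd, Int.natAbs_natCast]
    exact h
  obtain ⟨u, v, huv⟩ := h1
  exact ⟨u, -v, by rw [neg_mul, sub_neg_eq_add]; exact huv⟩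

end Bezout

section Base

variable {A : ValuationSubring Qb} {q M : ℕ} [NeZero q] [NeZero M] [NeZero (M * q)]
  [IsDiscreteValuationRing ↥(beta0Ring A (beta0Field A))]
  {π : ↥(beta0Ring A (beta0Field A))} (hπ : Irreducible π)
  (ιC : ↥(beta0Field A) →+* ℂ) (hq : q.Prime) (hqM : ¬ q ∣ M)

omit [NeZero q] [NeZero M] in
/-- **the thin crossing datum in the shape of C4**: `w ∉ 𝔫`, `w π = X Y`, `X, Y ∈ 𝔫`,
`𝔫 = (π, X, Y)` locally. -/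
theorem rtk6gi_crossAt_data {V₁ V₂ : ValuationSubring ↥(modularFunctionFieldFullC ↥(beta0Field A) (M * q))}
    {𝔫 : AtPt (F := ↥(modularFunctionFieldFullC ↥(beta0Field A) (M * q))) π (bgJ ↥(beta0Field A) (M * q))} {X Y : ↥(zchClosure (A₀ := ↥(beta0Ring A (beta0Field A))) ({bgJ ↥(beta0Field A) (M * q)} : Set ↥(modularFunctionFieldFullC ↥(beta0Field A) (M * q))))}
    (h : Rtk6lfCrossAt V₁ V₂ 𝔫 X Y) :
    X ∈ 𝔫.1 ∧ Y ∈ 𝔫.1 ∧ (∃ w : ↥(zchClosure (A₀ := ↥(beta0Ring A (beta0Field A))) ({bgJ ↥(beta0Field A) (M * q)} : Set ↥(modularFunctionFieldFullC ↥(beta0Field A) (M * q)))), w ∉ 𝔫.1 ∧ w * algebraMap _ ↥(zchClosure (A₀ := ↥(beta0Ring A (beta0Field A))) ({bgJ ↥(beta0Field A) (M * q)} : Set ↥(modularFunctionFieldFullC ↥(beta0Field A) (M * q)))) π = X * Y) ∧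
      NodesLocGen 𝔫.1 {algebraMap _ ↥(zchClosure (A₀ := ↥(beta0Ring A (beta0Field A))) ({bgJ ↥(beta0Field A) (M * q)} : Set ↥(modularFunctionFieldFullC ↥(beta0Field A) (M * q)))) π, X, Y} := by
  obtain ⟨h₁, h₂, hX, hY, hw, hgen⟩ := h
  exact ⟨h₁ X hX, h₂ Y hY, hw, hgen⟩

include hπ ιC hq hqM in
/-- **(LF) at a crossing point, fraction form** (for the generator `ψ_r`: the fields `hγ he₁ he₂`
and, after `rtk6gi_LF_lift`, `hy` of `Rtk6c4Cross`). -/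
theorem rtk6gi_cross_J (hA : A.LiesOverPrime q)
    (rigid : (q ≠ 2 → 4 ∣ M) ∧ (q = 2 → 9 ∣ M))
    (𝔫 : AtPt (F := ↥(modularFunctionFieldFullC ↥(beta0Field A) (M * q))) π (bgJ ↥(beta0Field A) (M * q))) {X Y : ↥(zchClosure (A₀ := ↥(beta0Ring A (beta0Field A))) ({bgJ ↥(beta0Field A) (M * q)} : Set ↥(modularFunctionFieldFullC ↥(beta0Field A) (M * q))))}
    (h : Rtk6lfCrossAt (mgvV hπ ιC hq hqM true) (mgvV hπ ιC hq hqM false) 𝔫 X Y)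
    (m : ℕ) {y : ↥(modularFunctionFieldFullC ↥(beta0Field A) (M * q))} (hy : y ≠ 0)
    (hhor : ∀ P : Place ↥(beta0Field A) ↥(modularFunctionFieldFullC ↥(beta0Field A) (M * q)), (m : ℤ) ∣ P.ord y)
    (hy₁ : (mgvV hπ ιC hq hqM true).valuation y = 1) {n₀ : ℤ}
    (hn₀ : (mgvV hπ ιC hq hqM false).valuation y = (mgvV hπ ιC hq hqM false).valuation
      (algebraMap ↥(beta0Ring A (beta0Field A)) ↥(modularFunctionFieldFullC ↥(beta0Field A) (M * q)) π) ^ n₀) :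
    ∃ (γ : ↥(modularFunctionFieldFullC ↥(beta0Field A) (M * q))) (e₁ e₂ : ↥(zchClosure (A₀ := ↥(beta0Ring A (beta0Field A))) ({bgJ ↥(beta0Field A) (M * q)} : Set ↥(modularFunctionFieldFullC ↥(beta0Field A) (M * q))))), γ ≠ 0 ∧ e₁ ∉ 𝔫.1 ∧ e₂ ∉ 𝔫.1 ∧
      (e₂ : ↥(modularFunctionFieldFullC ↥(beta0Field A) (M * q))) * y = (e₁ : ↥(modularFunctionFieldFullC ↥(beta0Field A) (M * q))) * (Y : ↥(modularFunctionFieldFullC ↥(beta0Field A) (M * q))) ^ n₀ * γ ^ m := by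
  obtain ⟨γ, ε, hε, hyε, hγ, -, -⟩ := rtk6lfb_cross_LF_J hπ ιC hq hqM hA le_rfl
    (rtk6lfb_rigid_h2 rigid) (rtk6lfb_rigid_h3 rigid) 𝔫 h m hy (fun P _ => hhor P) hy₁ hn₀
  haveI := 𝔫.2.1.isPrime
  obtain ⟨e₁, e₂, h1, h2, h3⟩ := rtk6gi_LF_frac (F := ↥(modularFunctionFieldFullC ↥(beta0Field A) (M * q))) (B := ↥(zchClosure (A₀ := ↥(beta0Ring A (beta0Field A))) ({bgJ ↥(beta0Field A) (M * q)} : Set ↥(modularFunctionFieldFullC ↥(beta0Field A) (M * q))))) Subtype.val_injective 𝔫.1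
    (ε := ε) hε hyε
  exact ⟨γ, e₁, e₂, hγ, h1, h2, h3⟩

include hπ ιC hq hqM in
/-- **(LF) at every closed point of the chart `j`, fraction form.** -/
theorem rtk6gi_LF_J (hA : A.LiesOverPrime q)
    (rigid : (q ≠ 2 → 4 ∣ M) ∧ (q = 2 → 9 ∣ M))
    (m : ℕ) {y : ↥(modularFunctionFieldFullC ↥(beta0Field A) (M * q))} (hy : y ≠ 0)
    (hhor : ∀ P : Place ↥(beta0Field A) ↥(modularFunctionFieldFullC ↥(beta0Field A) (M * q)), (m : ℤ) ∣ P.ord y)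
    (hy₁ : (mgvV hπ ιC hq hqM true).valuation y = 1) {n₀ : ℤ}
    (hn₀ : (mgvV hπ ιC hq hqM false).valuation y = (mgvV hπ ιC hq hqM false).valuation
      (algebraMap ↥(beta0Ring A (beta0Field A)) ↥(modularFunctionFieldFullC ↥(beta0Field A) (M * q)) π) ^ n₀)
    (𝔫 : AtPt (F := ↥(modularFunctionFieldFullC ↥(beta0Field A) (M * q))) π (bgJ ↥(beta0Field A) (M * q))) :
    (∃ X Y : ↥(zchClosure (A₀ := ↥(beta0Ring A (beta0Field A))) ({bgJ ↥(beta0Field A) (M * q)} : Set ↥(modularFunctionFieldFullC ↥(beta0Field A) (M * q)))),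
      Rtk6lfCrossAt (mgvV hπ ιC hq hqM true) (mgvV hπ ιC hq hqM false) 𝔫 X Y ∧
      ∃ (γ : ↥(modularFunctionFieldFullC ↥(beta0Field A) (M * q))) (e₁ e₂ : ↥(zchClosure (A₀ := ↥(beta0Ring A (beta0Field A))) ({bgJ ↥(beta0Field A) (M * q)} : Set ↥(modularFunctionFieldFullC ↥(beta0Field A) (M * q))))), γ ≠ 0 ∧ e₁ ∉ 𝔫.1 ∧ e₂ ∉ 𝔫.1 ∧
        (e₂ : ↥(modularFunctionFieldFullC ↥(beta0Field A) (M * q))) * y = (e₁ : ↥(modularFunctionFieldFullC ↥(beta0Field A) (M * q))) * (Y : ↥(modularFunctionFieldFullC ↥(beta0Field A) (M * q))) ^ n₀ * γ ^ m) ∨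
    (atThrough 𝔫 (mgvV hπ ιC hq hqM false) ∧ ¬ atThrough 𝔫 (mgvV hπ ιC hq hqM true) ∧
      (∃ s : ↥(zchClosure (A₀ := ↥(beta0Ring A (beta0Field A))) ({bgJ ↥(beta0Field A) (M * q)} : Set ↥(modularFunctionFieldFullC ↥(beta0Field A) (M * q)))), s ∈ 𝔫.1 ∧ NodesLocGen 𝔫.1 {algebraMap _ ↥(zchClosure (A₀ := ↥(beta0Ring A (beta0Field A))) ({bgJ ↥(beta0Field A) (M * q)} : Set ↥(modularFunctionFieldFullC ↥(beta0Field A) (M * q)))) π, s}) ∧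
      ∃ (γ : ↥(modularFunctionFieldFullC ↥(beta0Field A) (M * q))) (e₁ e₂ : ↥(zchClosure (A₀ := ↥(beta0Ring A (beta0Field A))) ({bgJ ↥(beta0Field A) (M * q)} : Set ↥(modularFunctionFieldFullC ↥(beta0Field A) (M * q))))), γ ≠ 0 ∧ e₁ ∉ 𝔫.1 ∧ e₂ ∉ 𝔫.1 ∧
        (e₂ : ↥(modularFunctionFieldFullC ↥(beta0Field A) (M * q))) * y = (e₁ : ↥(modularFunctionFieldFullC ↥(beta0Field A) (M * q))) *
          algebraMap ↥(beta0Ring A (beta0Field A)) ↥(modularFunctionFieldFullC ↥(beta0Field A) (M * q)) π ^ n₀ * γ ^ m) ∨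
    (atThrough 𝔫 (mgvV hπ ιC hq hqM true) ∧ ¬ atThrough 𝔫 (mgvV hπ ιC hq hqM false) ∧
      (∃ s : ↥(zchClosure (A₀ := ↥(beta0Ring A (beta0Field A))) ({bgJ ↥(beta0Field A) (M * q)} : Set ↥(modularFunctionFieldFullC ↥(beta0Field A) (M * q)))), s ∈ 𝔫.1 ∧ NodesLocGen 𝔫.1 {algebraMap _ ↥(zchClosure (A₀ := ↥(beta0Ring A (beta0Field A))) ({bgJ ↥(beta0Field A) (M * q)} : Set ↥(modularFunctionFieldFullC ↥(beta0Field A) (M * q)))) π, s}) ∧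
      ∃ (γ : ↥(modularFunctionFieldFullC ↥(beta0Field A) (M * q))) (e₁ e₂ : ↥(zchClosure (A₀ := ↥(beta0Ring A (beta0Field A))) ({bgJ ↥(beta0Field A) (M * q)} : Set ↥(modularFunctionFieldFullC ↥(beta0Field A) (M * q))))), γ ≠ 0 ∧ e₁ ∉ 𝔫.1 ∧ e₂ ∉ 𝔫.1 ∧
        (e₂ : ↥(modularFunctionFieldFullC ↥(beta0Field A) (M * q))) * y = (e₁ : ↥(modularFunctionFieldFullC ↥(beta0Field A) (M * q))) * γ ^ m) := by
  haveI := 𝔫.2.1.isPrime
  rcases rtk6lfb0_LF_J hπ ιC hq hqM hA rigid m hy hhor hy₁ hn₀ 𝔫 with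
    ⟨X, Y, h, γ, ε, hε, hyε, hγ, -, -⟩ | ⟨h1, h2, hs, γ, ε, hε, hyε, hγ, -⟩ |
    ⟨h1, h2, hs, γ, ε, hε, hyε, hγ, -⟩
  · obtain ⟨e₁, e₂, he₁, he₂, h3⟩ := rtk6gi_LF_frac (F := ↥(modularFunctionFieldFullC ↥(beta0Field A) (M * q))) (B := ↥(zchClosure (A₀ := ↥(beta0Ring A (beta0Field A))) ({bgJ ↥(beta0Field A) (M * q)} : Set ↥(modularFunctionFieldFullC ↥(beta0Field A) (M * q)))))
      Subtype.val_injective 𝔫.1 (ε := ε) hε hyε
    exact Or.inl ⟨X, Y, h, γ, e₁, e₂, hγ, he₁, he₂, h3⟩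
  · obtain ⟨e₁, e₂, he₁, he₂, h3⟩ := rtk6gi_LF_frac (F := ↥(modularFunctionFieldFullC ↥(beta0Field A) (M * q))) (B := ↥(zchClosure (A₀ := ↥(beta0Ring A (beta0Field A))) ({bgJ ↥(beta0Field A) (M * q)} : Set ↥(modularFunctionFieldFullC ↥(beta0Field A) (M * q)))))
      Subtype.val_injective 𝔫.1 (ε := ε) hε hyε
    exact Or.inr (Or.inl ⟨h1, h2, hs, γ, e₁, e₂, hγ, he₁, he₂, h3⟩)
  · have hyε' : y = (ε : ↥(modularFunctionFieldFullC ↥(beta0Field A) (M * q))) * (1 : ↥(modularFunctionFieldFullC ↥(beta0Field A) (M * q))) ^ (0 : ℤ) * γ ^ m := by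
      rw [zpow_zero, mul_one]
      exact hyε
    obtain ⟨e₁, e₂, he₁, he₂, h3⟩ := rtk6gi_LF_frac (F := ↥(modularFunctionFieldFullC ↥(beta0Field A) (M * q))) (B := ↥(zchClosure (A₀ := ↥(beta0Ring A (beta0Field A))) ({bgJ ↥(beta0Field A) (M * q)} : Set ↥(modularFunctionFieldFullC ↥(beta0Field A) (M * q)))))
      Subtype.val_injective 𝔫.1 (ε := ε) hε hyε'
    rw [zpow_zero, mul_one] at h3
    exact Or.inr (Or.inr ⟨h1, h2, hs, γ, e₁, e₂, hγ, he₁, he₂, h3⟩)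

include hπ ιC hq hqM in
/-- **(G-et), `K`-level**: a function `y ≠ 0` on the `Γ₀(Mq)`-curve whose divisor is divisible by
`m`, unit at `V_∞`, with `v_0(y) = v_0(π) ^ n₀` and **`m ∣ n₀`**, is at EVERY closed point `𝔫` of
the chart `j` a unit times an `m`-th power: `e₂ y = e₁ γ' ^ m`, `e₁, e₂ ∈ R₀ ∖ 𝔫`. -/
theorem rtk6gi_et_J (hA : A.LiesOverPrime q)
    (rigid : (q ≠ 2 → 4 ∣ M) ∧ (q = 2 → 9 ∣ M))
    (m : ℕ) {y : ↥(modularFunctionFieldFullC ↥(beta0Field A) (M * q))} (hy : y ≠ 0)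
    (hhor : ∀ P : Place ↥(beta0Field A) ↥(modularFunctionFieldFullC ↥(beta0Field A) (M * q)), (m : ℤ) ∣ P.ord y)
    (hy₁ : (mgvV hπ ιC hq hqM true).valuation y = 1) {n₀ : ℤ}
    (hn₀ : (mgvV hπ ιC hq hqM false).valuation y = (mgvV hπ ιC hq hqM false).valuation
      (algebraMap ↥(beta0Ring A (beta0Field A)) ↥(modularFunctionFieldFullC ↥(beta0Field A) (M * q)) π) ^ n₀)
    (hdvd : (m : ℤ) ∣ n₀)
    (𝔫 : AtPt (F := ↥(modularFunctionFieldFullC ↥(beta0Field A) (M * q))) π (bgJ ↥(beta0Field A) (M * q))) :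
    ∃ (γ' : ↥(modularFunctionFieldFullC ↥(beta0Field A) (M * q))) (e₁ e₂ : ↥(zchClosure (A₀ := ↥(beta0Ring A (beta0Field A))) ({bgJ ↥(beta0Field A) (M * q)} : Set ↥(modularFunctionFieldFullC ↥(beta0Field A) (M * q))))), γ' ≠ 0 ∧ e₁ ∉ 𝔫.1 ∧ e₂ ∉ 𝔫.1 ∧
      (e₂ : ↥(modularFunctionFieldFullC ↥(beta0Field A) (M * q))) * y = (e₁ : ↥(modularFunctionFieldFullC ↥(beta0Field A) (M * q))) * γ' ^ m := by
  haveI := 𝔫.2.1.isPrime
  have hπ0 : algebraMap ↥(beta0Ring A (beta0Field A)) ↥(modularFunctionFieldFullC ↥(beta0Field A) (M * q)) π ≠ 0 := ribmp_fc_hπ0 hπ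
  rcases rtk6lfb0_LF_J hπ ιC hq hqM hA rigid m hy hhor hy₁ hn₀ 𝔫 with
    ⟨X, Y, h, γ, ε, hε, hyε, hγ, -, -⟩ | ⟨-, -, -, γ, ε, hε, hyε, hγ, -⟩ |
    ⟨-, -, -, γ, ε, hε, hyε, hγ, -⟩
  · have hY0 : (Y : ↥(modularFunctionFieldFullC ↥(beta0Field A) (M * q))) ≠ 0 := by
      intro h0
      obtain ⟨-, -, -, -, ⟨w, hw, hXY⟩, -⟩ := h
      have hY : Y = 0 := Subtype.ext h0
      rw [hY, mul_zero] at hXY
      have hπR : algebraMap ↥(beta0Ring A (beta0Field A)) ↥(zchClosure (A₀ := ↥(beta0Ring A (beta0Field A))) ({bgJ ↥(beta0Field A) (M * q)} : Set ↥(modularFunctionFieldFullC ↥(beta0Field A) (M * q)))) π ≠ 0 := by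
        intro h1
        apply hπ0
        have := congrArg (fun z : ↥(zchClosure (A₀ := ↥(beta0Ring A (beta0Field A))) ({bgJ ↥(beta0Field A) (M * q)} : Set ↥(modularFunctionFieldFullC ↥(beta0Field A) (M * q)))) => (z : ↥(modularFunctionFieldFullC ↥(beta0Field A) (M * q)))) h1
        simpa using this
      rcases mul_eq_zero.1 hXY with h2 | h2
      · exact hw (h2 ▸ 𝔫.1.zero_mem)
      · exact hπR h2
    exact rtk6gi_et_of_LF (F := ↥(modularFunctionFieldFullC ↥(beta0Field A) (M * q))) (B := ↥(zchClosure (A₀ := ↥(beta0Ring A (beta0Field A))) ({bgJ ↥(beta0Field A) (M * q)} : Set ↥(modularFunctionFieldFullC ↥(beta0Field A) (M * q))))) Subtype.val_injective 𝔫.1 (ε := ε) hε hY0 hγ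
      hyε hdvd
  · exact rtk6gi_et_of_LF (F := ↥(modularFunctionFieldFullC ↥(beta0Field A) (M * q))) (B := ↥(zchClosure (A₀ := ↥(beta0Ring A (beta0Field A))) ({bgJ ↥(beta0Field A) (M * q)} : Set ↥(modularFunctionFieldFullC ↥(beta0Field A) (M * q))))) Subtype.val_injective 𝔫.1 (ε := ε) hε hπ0 hγ
      hyε hdvd
  · have hyε' : y = (ε : ↥(modularFunctionFieldFullC ↥(beta0Field A) (M * q))) * (1 : ↥(modularFunctionFieldFullC ↥(beta0Field A) (M * q))) ^ (0 : ℤ) * γ ^ m := by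
      rw [zpow_zero, mul_one]
      exact hyε
    exact rtk6gi_et_of_LF (F := ↥(modularFunctionFieldFullC ↥(beta0Field A) (M * q))) (B := ↥(zchClosure (A₀ := ↥(beta0Ring A (beta0Field A))) ({bgJ ↥(beta0Field A) (M * q)} : Set ↥(modularFunctionFieldFullC ↥(beta0Field A) (M * q))))) Subtype.val_injective 𝔫.1 (ε := ε) hε
      one_ne_zero hγ hyε' (dvd_zero _)

end Base

end Fermat.Agent.RT.K6

end
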