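/-
K-machine, piece K6, piece GEN-inst (helper74), part 2: the `F`-LEVEL algebra (Mathlib only).

`K ⊆ F` fields, `R₀` a ring with `R₀ → K → F`.  `y ∈ F` a Kummer generator, `y ^ d = u ∈ K`.

* `rtk6gi_t_pow`   : `e₂ u = e₁ γ'^d` in `K` ⇒ `t := y / γ'` has `e₂ t^d = e₁` in `F`   (G-et);
* `rtk6gi_t_map`   : `σ y = c • y` ⇒ `σ t = c • t` for `σ : F ≃ₐ[K] F` (in particular `σ t = t`);
* `rtk6gi_LF_lift` : `e₂ u = e₁ Y₀^n₀ γ^d` in `K` ⇒ `e₂ y^d = e₁ Y₀^n₀ γ^d` in `F`   (the field `hy`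
                     of `Rtk6c4Cross`);
* `rtk6gi_adjoin_div` : `K[{y_i / γ_i} ∪ T] = K[{y_i} ∪ T]`;
* `rtk6gi_sm_inf`, `rtk6gi_sm_zero` : the smooth generators (G-sm) on `Σ_∞`, `Σ_0`.
-/
import Mathlib

set_option autoImplicit false
set_option linter.unusedSectionVars false
set_option linter.unusedVariables false

namespace Fermat.Agent.RT.K6

section Abs

variable {K F R₀ : Type*} [Field K] [Field F] [Algebra K F] [CommRing R₀] [Algebra R₀ K]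
  [Algebra R₀ F] [IsScalarTower R₀ K F]

/-- **(G-et)**: if `u = y ^ d` is a unit `e₁ / e₂` times a `d`-th power `γ' ^ d` in `K`, then
`t = y / γ'` satisfies `e₂ t ^ d = e₁`. -/
theorem rtk6gi_t_pow {d : ℕ} {y : F} {u γ' : K} (hyu : y ^ d = algebraMap K F u) (hγ' : γ' ≠ 0)
    {e₁ e₂ : R₀} (h : algebraMap R₀ K e₂ * u = algebraMap R₀ K e₁ * γ' ^ d) :
    algebraMap R₀ F e₂ * (y / algebraMap K F γ') ^ d = algebraMap R₀ F e₁ := by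
  have hγF : algebraMap K F γ' ≠ 0 := (map_ne_zero _).2 hγ'
  have h1 := congrArg (algebraMap K F) h
  rw [map_mul, map_mul, map_pow, ← IsScalarTower.algebraMap_apply,
    ← IsScalarTower.algebraMap_apply, ← hyu] at h1
  rw [div_pow, ← mul_div_assoc, h1, mul_div_assoc, div_self (pow_ne_zero _ hγF), mul_one]

/-- `σ y = c y` ⇒ `σ (y / γ') = c (y / γ')` for a `K`-automorphism `σ` -/
theorem rtk6gi_t_map (σ : F ≃ₐ[K] F) {y c : F} (γ' : K) (h : σ y = c * y) :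
    σ (y / algebraMap K F γ') = c * (y / algebraMap K F γ') := by
  rw [map_div₀, AlgEquiv.commutes, h, mul_div_assoc]

/-- `σ y = y` ⇒ `σ (y / γ') = y / γ'` -/
theorem rtk6gi_t_fix (σ : F ≃ₐ[K] F) {y : F} (γ' : K) (h : σ y = y) :
    σ (y / algebraMap K F γ') = y / algebraMap K F γ' := by
  rw [map_div₀, AlgEquiv.commutes, h]

/-- **the field `hy` of `Rtk6c4Cross`**: (LF) for `u = y ^ d`, lifted to `F`. -/
theorem rtk6gi_LF_lift {d : ℕ} {y : F} {u γ : K} (hyu : y ^ d = algebraMap K F u)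
    {e₁ e₂ Y₀ : R₀} {n₀ : ℤ}
    (h : algebraMap R₀ K e₂ * u = algebraMap R₀ K e₁ * algebraMap R₀ K Y₀ ^ n₀ * γ ^ d) :
    algebraMap R₀ F e₂ * y ^ d =
      algebraMap R₀ F e₁ * algebraMap R₀ F Y₀ ^ n₀ * algebraMap K F γ ^ d := by
  have h1 := congrArg (algebraMap K F) h
  rw [map_mul, map_mul, map_mul, map_pow, map_zpow₀, ← IsScalarTower.algebraMap_apply,
    ← IsScalarTower.algebraMap_apply, ← IsScalarTower.algebraMap_apply, ← hyu] at h1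
  exact h1

/-- dividing generators by nonzero elements of `K` does not change the generated algebra -/
theorem rtk6gi_adjoin_div {ι : Type*} (yy : ι → F) (γ : ι → K) (hγ : ∀ i, γ i ≠ 0) (T : Set F) :
    Algebra.adjoin K (Set.range (fun i => yy i / algebraMap K F (γ i)) ∪ T) =
      Algebra.adjoin K (Set.range yy ∪ T) := by
  apply le_antisymm
  · refine Algebra.adjoin_le ?_
    rintro x (⟨i, rfl⟩ | hx)
    · have h1 : yy i ∈ Algebra.adjoin K (Set.range yy ∪ T) :=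
        Algebra.subset_adjoin (Or.inl ⟨i, rfl⟩)
      have h2 : yy i / algebraMap K F (γ i) = algebraMap K F (γ i)⁻¹ * yy i := by
        rw [map_inv₀, div_eq_inv_mul]
      show yy i / algebraMap K F (γ i) ∈ _
      rw [h2]
      exact Subalgebra.mul_mem _ (Subalgebra.algebraMap_mem _ _) h1
    · exact Algebra.subset_adjoin (Or.inr hx)
  · refine Algebra.adjoin_le ?_
    rintro x (⟨i, rfl⟩ | hx)
    · have h1 : yy i / algebraMap K F (γ i) ∈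
          Algebra.adjoin K (Set.range (fun i => yy i / algebraMap K F (γ i)) ∪ T) :=
        Algebra.subset_adjoin (Or.inl ⟨i, rfl⟩)
      have hγF : algebraMap K F (γ i) ≠ 0 := (map_ne_zero _).2 (hγ i)
      have h2 : yy i = algebraMap K F (γ i) * (yy i / algebraMap K F (γ i)) := by
        rw [mul_div_cancel₀ _ hγF]
      show yy i ∈ _
      rw [h2]
      exact Subalgebra.mul_mem _ (Subalgebra.algebraMap_mem _ _) h1
    · exact Algebra.subset_adjoin (Or.inr hx)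

/-- **(G-sm) on `Σ_∞`**: `u = (e₁ / e₂) γ ^ d` ⇒ `t = y / γ` has `e₂ t ^ d = e₁`
(= `rtk6gi_t_pow`). -/
theorem rtk6gi_sm_inf {d : ℕ} {y : F} {u γ : K} (hyu : y ^ d = algebraMap K F u) (hγ : γ ≠ 0)
    {e₁ e₂ : R₀} (h : algebraMap R₀ K e₂ * u = algebraMap R₀ K e₁ * γ ^ d) :
    algebraMap R₀ F e₂ * (y / algebraMap K F γ) ^ d = algebraMap R₀ F e₁ :=
  rtk6gi_t_pow hyu hγ h

/-- **(G-sm) on `Σ_0`**: `u = (e₁ / e₂) p ^ n₀ γ ^ d`, `ϖ₁ ^ d = p`, `a n₀ − b d = 1` ⇒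
`t = (y / γ) ^ a / (p ^ b ϖ₁)` has `t ^ d = (e₁ / e₂) ^ a`. -/
theorem rtk6gi_sm_zero_pow {d : ℕ} {y ϖ₁ : F} {u γ : K} (hyu : y ^ d = algebraMap K F u)
    (hγ : γ ≠ 0) {e₁ e₂ p : R₀} (hp : algebraMap R₀ K p ≠ 0) (he₂ : algebraMap R₀ K e₂ ≠ 0)
    (hϖ : ϖ₁ ^ d = algebraMap R₀ F p) {n₀ a b : ℤ} (hab : a * n₀ - b * d = 1)
    (h : algebraMap R₀ K e₂ * u = algebraMap R₀ K e₁ * algebraMap R₀ K p ^ n₀ * γ ^ d) :
    ((y / algebraMap K F γ) ^ a / (algebraMap R₀ F p ^ b * ϖ₁)) ^ d =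
      (algebraMap R₀ F e₁ / algebraMap R₀ F e₂) ^ a := by
  have hγF : algebraMap K F γ ≠ 0 := (map_ne_zero _).2 hγ
  have hpF : algebraMap R₀ F p ≠ 0 := by
    rw [IsScalarTower.algebraMap_apply R₀ K F]
    exact (map_ne_zero _).2 hp
  have he₂F : algebraMap R₀ F e₂ ≠ 0 := by
    rw [IsScalarTower.algebraMap_apply R₀ K F]
    exact (map_ne_zero _).2 he₂
  have hF := rtk6gi_LF_lift (R₀ := R₀) hyu h
  have hyΓ : (y / algebraMap K F γ) ^ d =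
      algebraMap R₀ F e₁ / algebraMap R₀ F e₂ * algebraMap R₀ F p ^ n₀ := by
    rw [div_pow, div_eq_iff (pow_ne_zero _ hγF), div_mul_eq_mul_div, div_mul_eq_mul_div,
      eq_div_iff he₂F, mul_comm]
    exact hF
  calc ((y / algebraMap K F γ) ^ a / (algebraMap R₀ F p ^ b * ϖ₁)) ^ d
      = ((y / algebraMap K F γ) ^ d) ^ a / ((algebraMap R₀ F p ^ d) ^ b * ϖ₁ ^ d) := by
        rw [div_pow, mul_pow, ← zpow_natCast ((y / algebraMap K F γ) ^ a) d, ← zpow_mul,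
          mul_comm a (d : ℤ), zpow_mul, zpow_natCast, ← zpow_natCast (algebraMap R₀ F p ^ b) d,
          ← zpow_mul, mul_comm b (d : ℤ), zpow_mul, zpow_natCast]
    _ = (algebraMap R₀ F e₁ / algebraMap R₀ F e₂ * algebraMap R₀ F p ^ n₀) ^ a /
          ((algebraMap R₀ F p ^ d) ^ b * algebraMap R₀ F p) := by rw [hyΓ, hϖ]
    _ = (algebraMap R₀ F e₁ / algebraMap R₀ F e₂) ^ a *
          (algebraMap R₀ F p ^ (n₀ * a) / algebraMap R₀ F p ^ ((d : ℤ) * b + 1)) := by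
        rw [mul_zpow, ← zpow_mul, ← zpow_natCast (algebraMap R₀ F p) d, ← zpow_mul,
          ← zpow_add_one₀ hpF, mul_div_assoc]
    _ = (algebraMap R₀ F e₁ / algebraMap R₀ F e₂) ^ a := by
        rw [← zpow_sub₀ hpF, show n₀ * a - ((d : ℤ) * b + 1) = 0 by linarith, zpow_zero, mul_one]

/-- **(G-sm) on `Σ_0`, fraction form**: with `e₁, e₂` in a submonoid `S` of `R₀` (the complement
of the point), `t = (y / γ) ^ a / (p ^ b ϖ₁)` satisfies `b' t ^ d = a'` with `a', b' ∈ S`. -/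
theorem rtk6gi_sm_zero (S : Submonoid R₀) {d : ℕ} {y ϖ₁ : F} {u γ : K}
    (hyu : y ^ d = algebraMap K F u) (hγ : γ ≠ 0) {e₁ e₂ p : R₀} (he₁S : e₁ ∈ S)
    (he₂S : e₂ ∈ S) (hp : algebraMap R₀ K p ≠ 0) (he₁ : algebraMap R₀ K e₁ ≠ 0)
    (he₂ : algebraMap R₀ K e₂ ≠ 0)
    (hϖ : ϖ₁ ^ d = algebraMap R₀ F p) {n₀ a b : ℤ} (hab : a * n₀ - b * d = 1)
    (h : algebraMap R₀ K e₂ * u = algebraMap R₀ K e₁ * algebraMap R₀ K p ^ n₀ * γ ^ d) :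
    ∃ a' b' : R₀, a' ∈ S ∧ b' ∈ S ∧
      algebraMap R₀ F b' * ((y / algebraMap K F γ) ^ a / (algebraMap R₀ F p ^ b * ϖ₁)) ^ d =
        algebraMap R₀ F a' := by
  have he₁F : algebraMap R₀ F e₁ ≠ 0 := by
    rw [IsScalarTower.algebraMap_apply R₀ K F]
    exact (map_ne_zero _).2 he₁
  have he₂F : algebraMap R₀ F e₂ ≠ 0 := by
    rw [IsScalarTower.algebraMap_apply R₀ K F]
    exact (map_ne_zero _).2 he₂
  rw [rtk6gi_sm_zero_pow hyu hγ hp he₂ hϖ hab h]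
  rcases le_total 0 a with ha | ha
  · obtain ⟨n, rfl⟩ := Int.eq_ofNat_of_zero_le ha
    refine ⟨e₁ ^ n, e₂ ^ n, pow_mem he₁S n, pow_mem he₂S n, ?_⟩
    rw [zpow_natCast, div_pow, map_pow, map_pow, mul_div_assoc', mul_comm,
      mul_div_assoc, div_self (pow_ne_zero _ he₂F), mul_one]
  · obtain ⟨n, rfl⟩ := Int.exists_eq_neg_ofNat ha
    refine ⟨e₂ ^ n, e₁ ^ n, pow_mem he₂S n, pow_mem he₁S n, ?_⟩
    rw [zpow_neg, zpow_natCast, ← inv_pow, inv_div, div_pow, map_pow, map_pow, mul_div_assoc',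
      mul_comm, mul_div_assoc, div_self (pow_ne_zero _ he₁F), mul_one]

end Abs

section Hom

variable {K F : Type*} [Field K] [Field F] (φ : K →+* F)

/-- `rtk6gi_t_pow`, hom form: `E₂ u = E₁ γ'^d` in `K`, `y ^ d = φ u` ⇒ `φ E₂ (y / φ γ')^d = φ E₁` -/
theorem rtk6gi_t_pow_hom {d : ℕ} {y : F} {u γ' E₁ E₂ : K} (hyu : y ^ d = φ u) (hγ' : γ' ≠ 0)
    (h : E₂ * u = E₁ * γ' ^ d) : φ E₂ * (y / φ γ') ^ d = φ E₁ := by
  have hγF : φ γ' ≠ 0 := (map_ne_zero φ).2 hγ'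
  have h1 := congrArg φ h
  rw [map_mul, map_mul, map_pow, ← hyu] at h1
  rw [div_pow, ← mul_div_assoc, h1, mul_div_assoc, div_self (pow_ne_zero _ hγF), mul_one]

/-- `rtk6gi_LF_lift`, hom form -/
theorem rtk6gi_LF_lift_hom {d : ℕ} {y : F} {u γ E₁ E₂ Y₀ : K} (hyu : y ^ d = φ u) {n₀ : ℤ}
    (h : E₂ * u = E₁ * Y₀ ^ n₀ * γ ^ d) :
    φ E₂ * y ^ d = φ E₁ * φ Y₀ ^ n₀ * φ γ ^ d := by
  have h1 := congrArg φ h
  rw [map_mul, map_mul, map_mul, map_pow, map_zpow₀, ← hyu] at h1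
  exact h1

/-- `rtk6gi_sm_zero_pow`, hom form: `t = (y / γ) ^ a / (P ^ b ϖ₁)` has `t ^ d = (E₁ / E₂) ^ a` -/
theorem rtk6gi_sm_zero_pow_hom {d : ℕ} {y ϖ₁ : F} {u γ E₁ E₂ P : K} (hyu : y ^ d = φ u)
    (hγ : γ ≠ 0) (hP : P ≠ 0) (hE₂ : E₂ ≠ 0) (hϖ : ϖ₁ ^ d = φ P) {n₀ a b : ℤ}
    (hab : a * n₀ - b * d = 1) (h : E₂ * u = E₁ * P ^ n₀ * γ ^ d) :
    ((y / φ γ) ^ a / (φ P ^ b * ϖ₁)) ^ d = (φ E₁ / φ E₂) ^ a := by
  have hγF : φ γ ≠ 0 := (map_ne_zero φ).2 hγ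
  have hpF : φ P ≠ 0 := (map_ne_zero φ).2 hP
  have he₂F : φ E₂ ≠ 0 := (map_ne_zero φ).2 hE₂
  have hF := rtk6gi_LF_lift_hom φ hyu h
  have hyΓ : (y / φ γ) ^ d = φ E₁ / φ E₂ * φ P ^ n₀ := by
    rw [div_pow, div_eq_iff (pow_ne_zero _ hγF), div_mul_eq_mul_div, div_mul_eq_mul_div,
      eq_div_iff he₂F, mul_comm]
    exact hF
  calc ((y / φ γ) ^ a / (φ P ^ b * ϖ₁)) ^ d
      = ((y / φ γ) ^ d) ^ a / ((φ P ^ d) ^ b * ϖ₁ ^ d) := by
        rw [div_pow, mul_pow, ← zpow_natCast ((y / φ γ) ^ a) d, ← zpow_mul,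
          mul_comm a (d : ℤ), zpow_mul, zpow_natCast, ← zpow_natCast (φ P ^ b) d,
          ← zpow_mul, mul_comm b (d : ℤ), zpow_mul, zpow_natCast]
    _ = (φ E₁ / φ E₂ * φ P ^ n₀) ^ a / ((φ P ^ d) ^ b * φ P) := by rw [hyΓ, hϖ]
    _ = (φ E₁ / φ E₂) ^ a * (φ P ^ (n₀ * a) / φ P ^ ((d : ℤ) * b + 1)) := by
        rw [mul_zpow, ← zpow_mul, ← zpow_natCast (φ P) d, ← zpow_mul,
          ← zpow_add_one₀ hpF, mul_div_assoc]
    _ = (φ E₁ / φ E₂) ^ a := by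
        rw [← zpow_sub₀ hpF, show n₀ * a - ((d : ℤ) * b + 1) = 0 by linarith, zpow_zero, mul_one]

/-- **(G-sm) on `Σ_0`, hom form**: with `E₁, E₂` in a submonoid `S` of `K` (the image of the
complement of the point), `t = (y / γ) ^ a / (P ^ b ϖ₁)` satisfies `φ b' t ^ d = φ a'` with
`a', b' ∈ S`. -/
theorem rtk6gi_sm_zero_hom (S : Submonoid K) {d : ℕ} {y ϖ₁ : F} {u γ E₁ E₂ P : K}
    (hyu : y ^ d = φ u) (hγ : γ ≠ 0) (hE₁S : E₁ ∈ S) (hE₂S : E₂ ∈ S) (hP : P ≠ 0)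
    (hE₁ : E₁ ≠ 0) (hE₂ : E₂ ≠ 0) (hϖ : ϖ₁ ^ d = φ P) {n₀ a b : ℤ}
    (hab : a * n₀ - b * d = 1) (h : E₂ * u = E₁ * P ^ n₀ * γ ^ d) :
    ∃ a' b' : K, a' ∈ S ∧ b' ∈ S ∧
      φ b' * ((y / φ γ) ^ a / (φ P ^ b * ϖ₁)) ^ d = φ a' := by
  have he₁F : φ E₁ ≠ 0 := (map_ne_zero φ).2 hE₁
  have he₂F : φ E₂ ≠ 0 := (map_ne_zero φ).2 hE₂
  rw [rtk6gi_sm_zero_pow_hom φ hyu hγ hP hE₂ hϖ hab h]
  rcases le_total 0 a with ha | ha
  · obtain ⟨n, rfl⟩ := Int.eq_ofNat_of_zero_le ha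
    refine ⟨E₁ ^ n, E₂ ^ n, pow_mem hE₁S n, pow_mem hE₂S n, ?_⟩
    rw [zpow_natCast, div_pow, map_pow, map_pow, mul_div_assoc', mul_comm,
      mul_div_assoc, div_self (pow_ne_zero _ he₂F), mul_one]
  · obtain ⟨n, rfl⟩ := Int.exists_eq_neg_ofNat ha
    refine ⟨E₂ ^ n, E₁ ^ n, pow_mem hE₂S n, pow_mem hE₁S n, ?_⟩
    rw [zpow_neg, zpow_natCast, ← inv_pow, inv_div, div_pow, map_pow, map_pow, mul_div_assoc',
      mul_comm, mul_div_assoc, div_self (pow_ne_zero _ he₁F), mul_one]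

/-- a ring endomorphism of `F` fixing `φ K` pointwise and `y` fixes `y / φ γ'` -/
theorem rtk6gi_t_fix_hom (σ : F →+* F) (hσ : ∀ k : K, σ (φ k) = φ k) {y : F} (γ' : K)
    (h : σ y = y) : σ (y / φ γ') = y / φ γ' := by
  rw [map_div₀, hσ, h]

/-- a ring endomorphism of `F` fixing `φ K` pointwise with `σ y = c y` maps `y / φ γ'` to
`c (y / φ γ')` -/
theorem rtk6gi_t_map_hom (σ : F →+* F) (hσ : ∀ k : K, σ (φ k) = φ k) {y c : F} (γ' : K)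
    (h : σ y = c * y) : σ (y / φ γ') = c * (y / φ γ') := by
  rw [map_div₀, hσ, h, mul_div_assoc]

end Hom

/-- **(G-sm) on `Σ_0`, the relation to `y`**: with `T = y / γ`, `T ^ d = E P ^ n₀`,
`a n₀ − b d = 1`, the element `t = T ^ a / (P ^ b ϖ₁)` satisfies `(t ϖ₁) ^ n₀ = T E ^ b`. -/
theorem rtk6gi_sm_zero_rel {F : Type*} [Field F] {T P E ϖ₁ : F} {d : ℕ} {n₀ a b : ℤ}
    (hT : T ≠ 0) (hP : P ≠ 0) (hϖ : ϖ₁ ≠ 0) (hab : a * n₀ - b * d = 1)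
    (h : T ^ d = E * P ^ n₀) :
    ((T ^ a / (P ^ b * ϖ₁)) * ϖ₁) ^ n₀ = T * E ^ b := by
  have ht : T ^ a / (P ^ b * ϖ₁) * ϖ₁ = T ^ a / P ^ b := by
    rw [div_mul_eq_mul_div, mul_div_mul_right _ _ hϖ]
  have h1 : a * n₀ = 1 + (d : ℤ) * b := by linarith
  have h2 : (T ^ a) ^ n₀ = T * (E ^ b * P ^ (b * n₀)) := by
    rw [← zpow_mul, h1, zpow_add₀ hT, zpow_one, zpow_mul, zpow_natCast, h, mul_zpow,
      ← zpow_mul, mul_comm n₀ b]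
  rw [ht, div_zpow, h2, ← zpow_mul, ← mul_assoc, mul_div_assoc,
    div_self (zpow_ne_zero _ hP), mul_one]

end Fermat.Agent.RT.K6
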