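/-
K-machine, piece K6, piece GEN-inst (helper74), part 4: GENERATION and exponent bookkeeping for the
generators of (G-et) / (G-sm) (Mathlib only).

`K ⊆ F` fields.  The function field `F` is generated over `K` by the Kummer elements `y_i`
(étale), `y` (the ramified character `ψ_r`) and the uniformiser `ϖ₁` of the ramified base
((F1), helper70).  At a closed point the `y`'s are replaced by the local generators
`t_i = y_i / γ_i`, `t = y / γ` resp. `t = (y / γ) ^ a / (π ^ b ϖ₁)`.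

* `rtk6gi_adjoin_top`     : `K[Y] = ⊤`, `Y ⊆ K[T]` ⇒ `K[T] = ⊤`;
* `rtk6gi_zpow_mem`       : `z ∈ S`, `z ^ m = c ∈ Kˣ` ⇒ `z ^ n ∈ S` for all `n : ℤ`;
* `rtk6gi_pow_unify`      : `φ b · t ^ m' = φ a`, `m' ∣ m` ⇒ `φ b' · t ^ m = φ a'` (`a', b'` powers
                            of `a, b`);
* `rtk6gi_hgen_cross_abs` : `hgen` of `Rtk6c4Cross(E)` for the set `S` of the `t_i`;
* `rtk6gi_hgen_sm_abs`    : `hgen` of `Rtk6c4Sm` for `{ϖ₁} ∪ (S ∪ {t})`;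
* `rtk6gi_fix_of_div`     : `σ t = t` for `t = y_i / c`, `σ : F ≃ₐ[K] F` fixing `y_i`.
-/
import Mathlib

set_option autoImplicit false
set_option linter.unusedSectionVars false
set_option linter.unusedVariables false

namespace Fermat.Agent.RT.K6

section GenAbs

variable {K F : Type*} [Field K] [Field F] [Algebra K F]

/-- `K[Y] = ⊤` and `Y ⊆ K[T]` ⇒ `K[T] = ⊤` -/
theorem rtk6gi_adjoin_top {Y T : Set F} (hY : Algebra.adjoin K Y = ⊤)
    (h : ∀ y ∈ Y, y ∈ Algebra.adjoin K T) : Algebra.adjoin K T = ⊤ := by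
  rw [eq_top_iff, ← hY]
  exact Algebra.adjoin_le h

/-- a subalgebra containing `z` with `z ^ m ∈ Kˣ` contains all integer powers of `z` -/
theorem rtk6gi_zpow_mem (S : Subalgebra K F) {z : F} (hz : z ∈ S) {m : ℕ} (hm : 0 < m)
    {c : K} (hc : c ≠ 0) (hzm : z ^ m = algebraMap K F c) (n : ℤ) : z ^ n ∈ S := by
  have hcF : algebraMap K F c ≠ 0 := (map_ne_zero _).2 hc
  have hinv : z⁻¹ ∈ S := by
    have h1 : z⁻¹ = algebraMap K F c⁻¹ * z ^ (m - 1) := by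
      have hz0 : z ≠ 0 := by
        intro h0
        rw [h0, zero_pow hm.ne'] at hzm
        exact hcF hzm.symm
      have hmm : z ^ m = z ^ (m - 1) * z := by
        rw [← pow_succ, Nat.sub_add_cancel hm]
      rw [map_inv₀, ← hzm, hmm, mul_inv, mul_comm (z ^ (m - 1))⁻¹, mul_assoc,
        inv_mul_cancel₀ (pow_ne_zero _ hz0), mul_one]
    rw [h1]
    exact S.mul_mem (S.algebraMap_mem _) (S.pow_mem hz _)
  cases n with
  | ofNat n => rw [Int.ofNat_eq_natCast, zpow_natCast]; exact S.pow_mem hz n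
  | negSucc n => rw [zpow_negSucc, ← inv_pow]; exact S.pow_mem hinv _

/-- exponent bookkeeping: a Kummer relation of exponent `m'` gives one of every exponent `m`
divisible by `m'` -/
theorem rtk6gi_pow_unify {R₀ : Type*} [CommRing R₀] (φ : R₀ →+* F) (𝔫 : Ideal R₀)
    [h𝔫 : 𝔫.IsPrime] {t : F} {m' m : ℕ} (hdvd : m' ∣ m) {a b : R₀} (ha : a ∉ 𝔫) (hb : b ∉ 𝔫)
    (h : φ b * t ^ m' = φ a) :
    ∃ a' b' : R₀, a' ∉ 𝔫 ∧ b' ∉ 𝔫 ∧ φ b' * t ^ m = φ a' := by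
  obtain ⟨k, rfl⟩ := hdvd
  refine ⟨a ^ k, b ^ k, fun h1 => ha (h𝔫.mem_of_pow_mem k h1),
    fun h1 => hb (h𝔫.mem_of_pow_mem k h1), ?_⟩
  rw [map_pow, map_pow, pow_mul, ← mul_pow, h]

/-- the same with the membership tested after a ring homomorphism `j` (shape of the field `hSet`
of `Rtk6c4Cross`, `Rtk6c4Sm`) -/
theorem rtk6gi_pow_unify_j {R₀ B : Type*} [CommRing R₀] [CommRing B] (φ : R₀ →+* F)
    (j : R₀ →+* B) (𝔫 : Ideal B) [h𝔫 : 𝔫.IsPrime] {t : F} {m' m : ℕ} (hdvd : m' ∣ m)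
    {a b : R₀} (ha : j a ∉ 𝔫) (hb : j b ∉ 𝔫) (h : φ b * t ^ m' = φ a) :
    ∃ a' b' : R₀, j a' ∉ 𝔫 ∧ j b' ∉ 𝔫 ∧ φ b' * t ^ m = φ a' := by
  obtain ⟨k, rfl⟩ := hdvd
  refine ⟨a ^ k, b ^ k, fun h1 => ha (h𝔫.mem_of_pow_mem k (by rw [← map_pow]; exact h1)),
    fun h1 => hb (h𝔫.mem_of_pow_mem k (by rw [← map_pow]; exact h1)), ?_⟩
  rw [map_pow, map_pow, pow_mul, ← mul_pow, h]

/-- **`hgen` at a crossing point**: if `F = K[Y]`, every element of `Y` being one of the `y_i` or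
an element of `T`, and every `y_i` is a `K`-multiple of an element of `S`, then `F = K[S ∪ T]`. -/
theorem rtk6gi_hgen_cross_abs {ι : Type*} (yy : ι → F) (S T Y : Set F)
    (hS : ∀ i, ∃ t ∈ S, ∃ c : K, yy i = algebraMap K F c * t)
    (hY : ∀ z ∈ Y, z ∈ T ∨ ∃ i, z = yy i)
    (hF1 : Algebra.adjoin K Y = ⊤) : Algebra.adjoin K (S ∪ T) = ⊤ := by
  refine rtk6gi_adjoin_top hF1 fun z hz => ?_
  rcases hY z hz with h | ⟨i, rfl⟩
  · exact Algebra.subset_adjoin (Or.inr h)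
  · obtain ⟨t, ht, c, hc⟩ := hS i
    rw [hc]
    exact Subalgebra.mul_mem _ (Subalgebra.algebraMap_mem _ _)
      (Algebra.subset_adjoin (Or.inl ht))

/-- **`hgen` at a smooth point**: `F = K[Y]`, every element of `Y` being `ϖ₁`, `y` or one of the
`y_i`; the `y_i` are `K`-multiples of elements of `S`; `y = c t` (on `Σ_∞`) or
`y = c (t ϖ₁) ^ n₀` with `(t ϖ₁) ^ m ∈ Kˣ` (on `Σ_0`).  Then `F = K[{ϖ₁} ∪ (S ∪ {t})]`. -/
theorem rtk6gi_hgen_sm_abs {ι : Type*} (yy : ι → F) (S Y : Set F) {ϖ₁ y t : F}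
    (hS : ∀ i, ∃ t ∈ S, ∃ c : K, yy i = algebraMap K F c * t)
    (hY : ∀ z ∈ Y, z = ϖ₁ ∨ z = y ∨ ∃ i, z = yy i)
    (hF1 : Algebra.adjoin K Y = ⊤)
    (hy : (∃ c : K, y = algebraMap K F c * t) ∨
      ∃ (c c' : K) (n₀ : ℤ) (m : ℕ), 0 < m ∧ c' ≠ 0 ∧ (t * ϖ₁) ^ m = algebraMap K F c' ∧
        y = algebraMap K F c * (t * ϖ₁) ^ n₀) :
    Algebra.adjoin K ({ϖ₁} ∪ (S ∪ {t})) = ⊤ := by
  have hϖ : ϖ₁ ∈ Algebra.adjoin K ({ϖ₁} ∪ (S ∪ {t}) : Set F) :=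
    Algebra.subset_adjoin (Or.inl rfl)
  have ht : t ∈ Algebra.adjoin K ({ϖ₁} ∪ (S ∪ {t}) : Set F) :=
    Algebra.subset_adjoin (Or.inr (Or.inr rfl))
  refine rtk6gi_adjoin_top hF1 fun z hz => ?_
  rcases hY z hz with rfl | rfl | ⟨i, rfl⟩
  · exact hϖ
  · rcases hy with ⟨c, hc⟩ | ⟨c, c', n₀, m, hm, hc', hpow, hc⟩
    · rw [hc]
      exact Subalgebra.mul_mem _ (Subalgebra.algebraMap_mem _ _) ht
    · rw [hc]
      exact Subalgebra.mul_mem _ (Subalgebra.algebraMap_mem _ _)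
        (rtk6gi_zpow_mem _ (Subalgebra.mul_mem _ ht hϖ) hm hc' hpow n₀)
  · obtain ⟨s, hs, c, hc⟩ := hS i
    rw [hc]
    exact Subalgebra.mul_mem _ (Subalgebra.algebraMap_mem _ _)
      (Algebra.subset_adjoin (Or.inr (Or.inl hs)))

/-- a `K`-automorphism fixing `y` fixes `y / c`, `c ∈ K` -/
theorem rtk6gi_fix_of_div (σ : F ≃ₐ[K] F) {y t : F} {c : K} (ht : t = y / algebraMap K F c)
    (h : σ y = y) : σ t = t := by
  rw [ht, map_div₀, σ.commutes, h]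

/-- the fields `hσS`, `hδS`: a `K`-automorphism fixing all `y_i` fixes every element of a set `S`
of elements `y_i / c` -/
theorem rtk6gi_fix_set {ι : Type*} (yy : ι → F) (S : Set F)
    (hS : ∀ t ∈ S, ∃ i, ∃ c : K, c ≠ 0 ∧ t = yy i / algebraMap K F c)
    (σ : F ≃ₐ[K] F) (h : ∀ i, σ (yy i) = yy i) : ∀ t ∈ S, σ t = t := by
  intro t ht
  obtain ⟨i, c, -, hc⟩ := hS t ht
  exact rtk6gi_fix_of_div σ hc (h i)

end GenAbs

end Fermat.Agent.RT.K6
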