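/-
K-machine, piece K6 / D-E (helper74): BRIDGE from the Gauss ring over a number field (UNIP
`VtUnit ι r`, `A₀ → E` a DVR with residue map `r`) to Kronecker contents over `ℚ̄`.

`φ : E →+* Ω` a ring homomorphism into a field `Ω` with a valuation subring `A` such that
`φ (ι a) ∈ A` for all `a : A₀` and `φ (ι a)` is a unit of `A` if `r a ≠ 0`.

* `rtk6de_kronPrim_of_red` : `T` over `A₀` with nonzero reduction ⇒ `coeffMap (φ ∘ ι) T` primitive.
* `rtk6de_content_of_vtUnit` : a unit `ε₀` of the Gauss ring has unit content after base change: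
  `coeffMap φ ε₀ · e₂ = C 1 · e₁`, `e₁`, `e₂` primitive at `A`.
* `rtk6de_content_of_pow_mul` : `x = C (ι π) ^ n · ε₀` ⇒ `coeffMap φ x · e₂ = C (φ (ι π) ^ n) · e₁`.
These are the shapes consumed by `rtk6de_main'` / `rtk6de_inst` (`RT/K6/DE.lean`).
-/
import Fermat.Agent.UNIP.MGVertGauss
import Fermat.Agent.ES.Kronecker

set_option autoImplicit false
set_option linter.unusedSectionVars false
set_option linter.unusedVariables false

noncomputable section

namespace Fermat.Agent.RT.K6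

open ModularCurve HahnSeries Fermat.Agent.ES Fermat.Agent.UNIP

section Bridge

variable {A₀ E k Ω : Type*} [CommRing A₀] [Field E] [Field k] [Field Ω]
  {ι : A₀ →+* E} {r : A₀ →+* k} (A : ValuationSubring Ω) (φ : E →+* Ω)

/-- a series over `A₀` with nonzero reduction is primitive at `A` after base change -/
theorem rtk6de_kronPrim_of_red (hφA : ∀ a : A₀, φ (ι a) ∈ A)
    (hφu : ∀ a : A₀, r a ≠ 0 → φ (ι a) ∉ A.nonunits) {T : LaurentSeries A₀}
    (hT : coeffMap r T ≠ 0) : KronPrim A (coeffMap (φ.comp ι) T) := by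
  refine ⟨fun n => ?_, ?_⟩
  · rw [coeffMap_coeff]
    exact hφA _
  · have hex : ∃ n, (coeffMap r T).coeff n ≠ 0 := by
      by_contra hcon
      apply hT
      ext n
      by_contra hne
      exact hcon ⟨n, hne⟩
    obtain ⟨n, hn⟩ := hex
    rw [coeffMap_coeff] at hn
    refine ⟨n, ?_⟩
    rw [coeffMap_coeff]
    exact hφu _ hn

/-- **a unit of the Gauss ring has unit content after base change** -/
theorem rtk6de_content_of_vtUnit (hφA : ∀ a : A₀, φ (ι a) ∈ A)
    (hφu : ∀ a : A₀, r a ≠ 0 → φ (ι a) ∉ A.nonunits) {ε₀ : LaurentSeries E}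
    (h : VtUnit ι r ε₀) :
    ∃ e₁ e₂ : LaurentSeries Ω, KronPrim A e₁ ∧ KronPrim A e₂ ∧
      coeffMap φ ε₀ * e₂ = HahnSeries.C (1 : Ω) * e₁ := by
  obtain ⟨T, b, hT, hb, hrel⟩ := h
  refine ⟨coeffMap (φ.comp ι) T, coeffMap (φ.comp ι) b,
    rtk6de_kronPrim_of_red A φ hφA hφu hT, rtk6de_kronPrim_of_red A φ hφA hφu hb, ?_⟩
  have h1 := congrArg (coeffMap φ) hrel
  rw [map_mul, coeffMap_coeffMap, coeffMap_coeffMap] at h1
  rw [map_one, one_mul, mul_comm]
  exact h1

/-- `x = π ^ n · (unit of the Gauss ring)` has content `φ (ι π) ^ n` after base change -/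
theorem rtk6de_content_of_pow_mul (hφA : ∀ a : A₀, φ (ι a) ∈ A)
    (hφu : ∀ a : A₀, r a ≠ 0 → φ (ι a) ∉ A.nonunits) {x ε₀ : LaurentSeries E} (t : E)
    (hε : VtUnit ι r ε₀) (hx : x = HahnSeries.C t * ε₀) :
    ∃ e₁ e₂ : LaurentSeries Ω, KronPrim A e₁ ∧ KronPrim A e₂ ∧
      coeffMap φ x * e₂ = HahnSeries.C (φ t) * e₁ := by
  obtain ⟨e₁, e₂, h1, h2, h⟩ := rtk6de_content_of_vtUnit A φ hφA hφu hε
  refine ⟨e₁, e₂, h1, h2, ?_⟩
  rw [map_one, one_mul] at h
  rw [hx, map_mul, mul_assoc, h]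
  congr 1
  show coeffMap φ (HahnSeries.single 0 t) = HahnSeries.single 0 (φ t)
  rw [coeffMap_single]

end Bridge

end Fermat.Agent.RT.K6

end
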