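/-
K-machine, piece K6 / N0-inst (helper6), ABSTRACT part: Gauss valuations and contents.

`hB : VtBase ι r π` (a DVR `A₀` with fraction field `E`, residue map `r`), `F` a field embedded in
`E((Q))` by `e` (all values quotients of series over `A₀`), `vtSub hB e hfrac` the Gauss valuation.

* `rtk6n0_vtUnit_of_kronPrim` : a primitive series (at a valuation subring `V` of `E`) is a unit
  of the Gauss ring of `V`;
* `rtk6n0_val_one_of_kronPrim` : hence an element of `F` with primitive expansion has Gauss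
  valuation `1`;
* `rtk6n0_decomp` : `v(x) = v(π) ^ n` (`n : ℤ`) ⇒ `e x = C (ι π) ^ n * ε₀`, `ε₀` a unit of the
  Gauss ring;
* `rtk6n0_content` : base change `φ : E →+* Ω`, `A` a valuation subring of `Ω` over `A₀`,
  `ι π = t₁ * t₂` with `φ t₂` a unit of `A`: from `v(x) = v(π) ^ n` we get
  `coeffMap φ (e x) = C (φ t₁ ^ n) * ε`, `ε * e₂ = C c' * e₁`, `e₁`, `e₂` primitive at `A`,
  `v_A(c') = 1`  — the shape consumed by `rtk6de_inst_coprime` / `rtk6de0_inst` (helper74).
-/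
import Fermat.Agent.RT.K6.DEBridge

set_option autoImplicit false
set_option linter.unusedSectionVars false
set_option linter.unusedVariables false
set_option linter.style.haveILetI false

noncomputable section

namespace Fermat.Agent.RT.K6

open ModularCurve HahnSeries Fermat.Agent.ES Fermat.Agent.UNIP

section Prim

variable {E : Type*} [Field E] (V : ValuationSubring E)

/-- a primitive series is a unit of the Gauss ring -/
theorem rtk6n0_vtUnit_of_kronPrim {x : LaurentSeries E} (hx : KronPrim V x) :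
    VtUnit (algebraMap ↥V E) (IsLocalRing.residue ↥V) x := by
  obtain ⟨hint, n, hn⟩ := hx
  obtain ⟨T, hT⟩ := hint.exists_lift
  have hT' : coeffMap (algebraMap ↥V E) T = x := hT
  rw [← hT']
  refine vtUnit_coeffMap fun h0 => hn ?_
  have h1 := congrArg (fun z : LaurentSeries (IsLocalRing.ResidueField ↥V) => z.coeff n) h0
  simp only [coeffMap_coeff, HahnSeries.coeff_zero] at h1
  rw [IsLocalRing.residue_eq_zero_iff] at h1
  have h2 : ((T.coeff n : ↥V) : E) ∈ V.nonunits :=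
    (ValuationSubring.coe_mem_nonunits_iff (A := V)).2 h1
  have h3 : ((T.coeff n : ↥V) : E) = x.coeff n := by
    rw [← hT]
    rfl
  rwa [h3] at h2

variable {F : Type*} [Field F] {π : ↥V}
  (hB : VtBase (algebraMap ↥V E) (IsLocalRing.residue ↥V) π)
  (e : F →+* LaurentSeries E) (hfrac : ∀ x : F, VtFrac (algebraMap ↥V E) (e x))

/-- an element with primitive expansion has Gauss valuation `1` -/
theorem rtk6n0_val_one_of_kronPrim {x : F} (hx : KronPrim V (e x)) :
    (vtSub hB e hfrac).valuation x = 1 :=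
  (vtSub_valuation_eq_one_iff hB e hfrac).2 (rtk6n0_vtUnit_of_kronPrim V hx)

end Prim

section Decomp

variable {A₀ E k : Type*} [CommRing A₀] [Field E] [Field k]
  {ι : A₀ →+* E} {r : A₀ →+* k} {π : A₀} {F : Type*} [Field F]
  (hB : VtBase ι r π) (e : F →+* LaurentSeries E) (hfrac : ∀ x : F, VtFrac ι (e x))

/-- **decomposition**: `v(x) = v(π) ^ n` ⇒ `e x = C (ι π) ^ n * (unit of the Gauss ring)` -/
theorem rtk6n0_decomp {x c : F} (hc : e c = HahnSeries.C (ι π)) {n : ℤ}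
    (hx : (vtSub hB e hfrac).valuation x = (vtSub hB e hfrac).valuation c ^ n) :
    ∃ ε₀ : LaurentSeries E, VtUnit ι r ε₀ ∧
      e x = (HahnSeries.C (ι π) : LaurentSeries E) ^ n * ε₀ := by
  have hc0 : c ≠ 0 := by
    intro h0
    rw [h0, map_zero] at hc
    exact hB.Cιπ_ne hc.symm
  have hvc : (vtSub hB e hfrac).valuation c ≠ 0 := (Valuation.ne_zero_iff _).2 hc0
  have h1 : (vtSub hB e hfrac).valuation (x / c ^ n) = 1 := by
    rw [map_div₀, map_zpow₀, hx]
    exact div_self (zpow_ne_zero n hvc)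
  have h2 := (vtSub_valuation_eq_one_iff hB e hfrac).1 h1
  refine ⟨e (x / c ^ n), h2, ?_⟩
  rw [map_div₀, map_zpow₀, hc]
  have h3 : (HahnSeries.C (ι π) : LaurentSeries E) ^ n ≠ 0 := zpow_ne_zero n hB.Cιπ_ne
  field_simp

/-- **discreteness**: every nonzero element has valuation `v(π) ^ n`, `n : ℤ` -/
theorem rtk6n0_exists_zpow {x c : F} (hc : e c = HahnSeries.C (ι π)) (hx : x ≠ 0) :
    ∃ n : ℤ, (vtSub hB e hfrac).valuation x = (vtSub hB e hfrac).valuation c ^ n := by
  have hc0 : c ≠ 0 := by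
    intro h0
    rw [h0, map_zero] at hc
    exact hB.Cιπ_ne hc.symm
  have hvc : (vtSub hB e hfrac).valuation c ≠ 0 := (Valuation.ne_zero_iff _).2 hc0
  have hex0 : e x ≠ 0 := (map_ne_zero e).mpr hx
  have hCd : ∀ d : ℕ, (HahnSeries.C (ι π) : LaurentSeries E) ^ d ≠ 0 :=
    fun d => pow_ne_zero d hB.Cιπ_ne
  obtain ⟨d, u, hu, h | h⟩ := vt_exists_pow_mul hB hex0 (hfrac x)
  · refine ⟨(d : ℤ), ?_⟩
    have h1 : e (x / c ^ d) = u := by
      rw [map_div₀, map_pow, hc, h]
      exact mul_div_cancel_left₀ u (hCd d)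
    have h2 : (vtSub hB e hfrac).valuation (x / c ^ d) = 1 := by
      rw [vtSub_valuation_eq_one_iff, h1]
      exact hu
    rw [map_div₀, map_pow, div_eq_one_iff_eq (pow_ne_zero d hvc)] at h2
    rw [h2, zpow_natCast]
  · refine ⟨-(d : ℤ), ?_⟩
    have h1 : e (x⁻¹ / c ^ d) = u := by
      rw [map_div₀, map_pow, map_inv₀, hc, h]
      exact mul_div_cancel_left₀ u (hCd d)
    have h2 : (vtSub hB e hfrac).valuation (x⁻¹ / c ^ d) = 1 := by
      rw [vtSub_valuation_eq_one_iff, h1]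
      exact hu
    rw [map_div₀, map_pow, div_eq_one_iff_eq (pow_ne_zero d hvc), map_inv₀] at h2
    rw [zpow_neg, zpow_natCast, ← h2, inv_inv]

variable {Ω : Type*} [Field Ω] (A : ValuationSubring Ω) (φ : E →+* Ω)

/-- **the content after base change**: `v(x) = v(π) ^ n`, `ι π = t₁ * t₂`, `φ t₂` a unit of `A` ⇒
`coeffMap φ (e x) = C (φ t₁ ^ n) * ε` with `ε` of unit content at `A`. -/
theorem rtk6n0_content (hφA : ∀ a : A₀, φ (ι a) ∈ A)
    (hφu : ∀ a : A₀, r a ≠ 0 → φ (ι a) ∉ A.nonunits) {x c : F}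
    (hc : e c = HahnSeries.C (ι π)) {n : ℤ}
    (hx : (vtSub hB e hfrac).valuation x = (vtSub hB e hfrac).valuation c ^ n)
    {t₁ t₂ : E} (ht : ι π = t₁ * t₂) (ht₂ : A.valuation (φ t₂) = 1) :
    ∃ (ε e₁ e₂ : LaurentSeries Ω) (c' : Ω), A.valuation c' = 1 ∧ KronPrim A e₁ ∧
      KronPrim A e₂ ∧ ε * e₂ = HahnSeries.C c' * e₁ ∧
      coeffMap φ (e x) = HahnSeries.C (φ t₁ ^ n) * ε := by
  obtain ⟨ε₀, hε₀, hxe⟩ := rtk6n0_decomp hB e hfrac hc hx
  obtain ⟨e₁, e₂, he1, he2, he⟩ := rtk6de_content_of_vtUnit A φ hφA hφu hε₀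
  rw [map_one, one_mul] at he
  refine ⟨HahnSeries.C (φ t₂ ^ n) * coeffMap φ ε₀, e₁, e₂, φ t₂ ^ n, ?_, he1, he2, ?_, ?_⟩
  · rw [map_zpow₀, ht₂, one_zpow]
  · rw [mul_assoc, he]
  · have hC : coeffMap φ (HahnSeries.C (ι π) : LaurentSeries E)
        = (HahnSeries.C (φ t₁) : LaurentSeries Ω) * HahnSeries.C (φ t₂) := by
      rw [ht, ← map_mul, ← map_mul]
      show coeffMap φ (HahnSeries.single 0 _) = HahnSeries.single 0 _
      rw [coeffMap_single]
    have h1 : (HahnSeries.C (φ t₁ ^ n) : LaurentSeries Ω) = HahnSeries.C (φ t₁) ^ n :=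
      map_zpow₀ (HahnSeries.C : Ω →+* LaurentSeries Ω) (φ t₁) n
    have h2 : (HahnSeries.C (φ t₂ ^ n) : LaurentSeries Ω) = HahnSeries.C (φ t₂) ^ n :=
      map_zpow₀ (HahnSeries.C : Ω →+* LaurentSeries Ω) (φ t₂) n
    rw [hxe, map_mul, map_zpow₀, hC, mul_zpow, h1, h2, mul_assoc]

end Decomp

end Fermat.Agent.RT.K6

end
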