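/-
K-machine, piece K6 / N0-inst (helper6), **(N1)**: the Kummer element `u_ψ = y_ψ ^ d` is a unit
of the vertical valuation `V_∞ = mgvV hπ ιC hq hqM true` (Gauss valuation of the expansion at `∞`)
— PROVIDED `n₀ = rtk6d0N N H D = #(D ∩ ±H)` (the `q³`-coefficient of `y_ψ`) is prime to `q`.

(For `D = ⊤` the resolvent is `#(±H)` times the reduced resolvent, so this hypothesis cannot be
dropped; the normalised statement is in `N0Norm.lean`.)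

Setting: `A` a valuation subring of `ℚ̄`, `K₀ ⊆ ℚ̄` with `A ∩ K₀` a DVR with uniformizer `π`,
level `M q`, character level `N`, `ψ : (ℤ/N)ˣ →* K₀ˣ` trivial on `H` and `-1`.

* `rtk6n0_inf_of_prim` : an element of `F_{Mq}(K₀)` with primitive expansion has `v_∞ = 1`;
* `rtk6n0_kronPrim`, `rtk6n0_kronPrim_pow` : `y_ψ`, `y_ψ ^ d` are primitive at `A ∩ K₀`;
* `rtk6n0_inf` : **(N1)** `v_∞(u_ψ) = 1`; `rtk6n0_inf'` : with `hn : ¬ q ∣ rtk6d0N N H D`.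
-/
import Fermat.Agent.RT.K6.N0Abs
import Fermat.Agent.RT.K6.DE
import Fermat.Agent.UNIP.MGVertInertia

set_option autoImplicit false
set_option linter.style.haveILetI false
set_option linter.unusedSectionVars false
set_option linter.unusedVariables false
set_option synthInstance.maxHeartbeats 400000
set_option maxHeartbeats 1000000

noncomputable section

namespace Fermat.Agent.RT.K6

open ModularCurve AlgebraicCurve HahnSeries Fermat.Agent.ES Fermat.Agent.ES.G2 Fermat.Agent.INJ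
open Fermat.Agent.UNIP Fermat.Agent.ES1 Fermat.Agent.ES1.G2 IntermediateField Fermat.Agent.AL

section Nat

/-- an integer prime to `q` is a unit of `A` -/
theorem rtk6n0_nat_unit {A : ValuationSubring Qb} {q : ℕ} (hq : q.Prime)
    (hA : A.LiesOverPrime q) {n : ℕ} (hn : ¬ q ∣ n) :
    ((n : ℕ) : Qb) ∉ A.nonunits := by
  have hnd : ¬ (q : ℤ) ∣ ((n : ℕ) : ℤ) := by
    intro h
    exact hn (by exact_mod_cast h)
  have h4 := Fermat.Agent.S15.tame_val_int A hq hA _ hnd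
  rw [ValuationSubring.mem_nonunits_iff]
  have h5 : A.valuation ((n : ℕ) : Qb) = 1 := by
    simpa using h4
  rw [h5]
  exact lt_irrefl _

end Nat

section Inf

variable {A : ValuationSubring Qb} {K₀ : IntermediateField ℚ Qb}
  [IsDiscreteValuationRing ↥(beta0Ring A K₀)] {π : ↥(beta0Ring A K₀)} (hπ : Irreducible π)
  (ιC : ↥K₀ →+* ℂ) {q M : ℕ} [NeZero q] [NeZero M] [NeZero (M * q)]
  (hq : q.Prime) (hqM : ¬ q ∣ M)

/-- an element of `F_{Mq}(K₀)` whose expansion at `∞` is primitive at `A ∩ K₀` is a unit of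
`V_∞` -/
theorem rtk6n0_inf_of_prim {x : ↥(modularFunctionFieldFullC ↥K₀ (M * q))}
    (hx : KronPrim (beta0Ring A K₀) (x : LaurentSeries ↥K₀)) :
    (mgvV hπ ιC hq hqM true).valuation x = 1 :=
  (vtFam_valuation_eq_one_iff (vtBase_residue hπ) ιC hq hqM true).2
    (rtk6n0_vtUnit_of_kronPrim (beta0Ring A K₀) hx)

variable {N : ℕ} [NeZero N] (H D : Subgroup (ZMod N)ˣ) (ψ : (ZMod N)ˣ →* (↥K₀)ˣ)

/-- the resolvent is primitive at `A ∩ K₀` if `n₀ = #(D ∩ ±H)` is a unit of `A` -/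
theorem rtk6n0_kronPrim (hN3 : 3 ≤ N) (hψH : ∀ h ∈ H, ψ h = 1) (hψ1 : ψ (-1) = 1)
    (hn : ((rtk6d0N N H D : ℕ) : Qb) ∉ A.nonunits) :
    KronPrim (beta0Ring A K₀) (rtk6d0Y ↥K₀ N H D ψ) := by
  refine rtk6d0_kronPrim ↥K₀ D ψ (beta0Ring A K₀) hN3 hψH hψ1 ?_
  intro h
  apply hn
  obtain ⟨ha, hm⟩ := (ValuationSubring.mem_nonunits_iff_exists_mem_maximalIdeal).1 h
  have h1 := (beta0Ring_mem_maximalIdeal_iff _).1 hm
  have h3 : (((rtk6d0N N H D : ℕ) : ↥K₀) : Qb) = ((rtk6d0N N H D : ℕ) : Qb) := by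
    simp
  rw [← h3]
  exact h1

theorem rtk6n0_kronPrim_pow (hN3 : 3 ≤ N) (hψH : ∀ h ∈ H, ψ h = 1) (hψ1 : ψ (-1) = 1)
    (hn : ((rtk6d0N N H D : ℕ) : Qb) ∉ A.nonunits) (d : ℕ) :
    KronPrim (beta0Ring A K₀) (rtk6d0Y ↥K₀ N H D ψ ^ d) :=
  (rtk6n0_kronPrim H D ψ hN3 hψH hψ1 hn).pow d

/-- **(N1)**: `v_∞(u_ψ) = 1` for `u_ψ = y_ψ ^ d`, if `n₀ = #(D ∩ ±H)` is a unit of `A`. -/
theorem rtk6n0_inf (hN3 : 3 ≤ N) (hψH : ∀ h ∈ H, ψ h = 1) (hψ1 : ψ (-1) = 1)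
    (hn : ((rtk6d0N N H D : ℕ) : Qb) ∉ A.nonunits) (d : ℕ)
    (hmem : rtk6d0Y ↥K₀ N H D ψ ^ d ∈ modularFunctionFieldFullC ↥K₀ (M * q)) :
    (mgvV hπ ιC hq hqM true).valuation
      (⟨rtk6d0Y ↥K₀ N H D ψ ^ d, hmem⟩ : ↥(modularFunctionFieldFullC ↥K₀ (M * q))) = 1 :=
  rtk6n0_inf_of_prim hπ ιC hq hqM (rtk6n0_kronPrim_pow H D ψ hN3 hψH hψ1 hn d)

/-- **(N1)**, arithmetic form: `v_∞(u_ψ) = 1` if `q ∤ #(D ∩ ±H)`. -/
theorem rtk6n0_inf' (hA : A.LiesOverPrime q) (hN3 : 3 ≤ N) (hψH : ∀ h ∈ H, ψ h = 1)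
    (hψ1 : ψ (-1) = 1) (hn : ¬ q ∣ rtk6d0N N H D) (d : ℕ)
    (hmem : rtk6d0Y ↥K₀ N H D ψ ^ d ∈ modularFunctionFieldFullC ↥K₀ (M * q)) :
    (mgvV hπ ιC hq hqM true).valuation
      (⟨rtk6d0Y ↥K₀ N H D ψ ^ d, hmem⟩ : ↥(modularFunctionFieldFullC ↥K₀ (M * q))) = 1 :=
  rtk6n0_inf hπ ιC hq hqM H D ψ hN3 hψH hψ1 (rtk6n0_nat_unit hq hA hn) d hmem

end Inf

end Fermat.Agent.RT.K6

end
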