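/-
K-machine, piece K6 / LF-inst, `n₀` for the ÉTALE generators (helper74): if `ψ` is trivial on the
diamonds at `r`, the valuation `n₀` of `u_ψ = y_ψ ^ d` at `v_0` is DIVISIBLE by `d`.

`A ⊂ ℚ̄` a valuation ring over `r`, `I = I_A`, `E₀ = ℚ̄^I` (`UNIP.beta0Field A`), `r ∤ d`.

* `rtk6de0_dvd_of_pow_mem` : `ϖ ^ d = r`, `ϖ ^ n ∈ E₀` ⇒ `d ∣ n`   (`r` is a uniformizer of `E₀`).
* `rtk6de0_core`   : `v(c)^d = v(r)^n₀` and `θ_c(σ) = 1` for ALL `σ ∈ I` ⇒ `d ∣ n₀`.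
* `rtk6de0_main`   : `z` a Laurent series with content `c`, `σ z = z` for all `σ ∈ I`,
                     `v(c)^d = v(r)^n₀` ⇒ `d ∣ n₀`;   `rtk6de0_main'` : with `z^d = r^n₀ · ε`.
* `rtk6de0_isCycAt` : every `σ ∈ I` has a cyclotomic image at `r` (`r ∥ M`).
* `rtk6de0_fix`    : `y ∈ fieldBar L M H` fixed by `I` (coefficientwise) and by the diamonds at `r`
                     ⇒ `σ (w y) = w y` for all `σ ∈ I`.
* `rtk6de0_inst_gen`, `rtk6de0_inst` : **`d ∣ n₀`** for such `y`, resp. for the resolvent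
                     `y = rtk6deY D ψ H hML`, `D ⊇` diamonds at `r`, `ψ` trivial on them.
-/
import Fermat.Agent.RT.K6.DE
import Fermat.Agent.UNIP.Beta0Abs

set_option autoImplicit false
set_option linter.unusedSectionVars false
set_option linter.unusedVariables false
set_option linter.style.haveILetI false

noncomputable section

namespace Fermat.Agent.RT.K6

open ModularCurve AlgebraicCurve HahnSeries Fermat.Agent.ES Fermat.Agent.ES1
  Fermat.Agent.ES1.G2 Fermat.Agent.S05 Fermat.Agent.S15 Fermat.Agent.UNIP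

section Core

variable (A : ValuationSubring QbH)

/-- `r` is a uniformizer of the inertia field: if `ϖ ^ d = r` and `ϖ ^ n ∈ E₀` then `d ∣ n` -/
theorem rtk6de0_dvd_of_pow_mem {r d : ℕ} (hr : r.Prime) (hA : A.LiesOverPrime r) (hd : 0 < d)
    {ϖ : QbH} (hϖ : ϖ ^ d = ((r : ℕ) : QbH)) :
    ∀ n : ℕ, ϖ ^ n ∈ beta0Field A → d ∣ n := by
  have hr0 : ((r : ℕ) : QbH) ≠ 0 := Nat.cast_ne_zero.2 hr.ne_zero
  have hϖ0 : ϖ ≠ 0 := by
    rintro rfl
    rw [zero_pow hd.ne'] at hϖ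
    exact hr0 hϖ.symm
  have hvr : A.valuation ((r : ℕ) : QbH) < 1 := (ValuationSubring.mem_nonunits_iff A).1 hA
  have hvϖ : A.valuation ϖ < 1 := by
    by_contra h
    have h1 : 1 ≤ A.valuation ϖ := not_lt.1 h
    have h2 : 1 ≤ A.valuation ϖ ^ d := one_le_pow₀ h1
    rw [← map_pow, hϖ] at h2
    exact absurd hvr (not_lt.2 h2)
  have hvϖ0 : 0 < A.valuation ϖ := zero_lt_iff.2 ((Valuation.ne_zero_iff _).2 hϖ0)
  intro n
  induction n using Nat.strong_induction_on with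
  | _ n ih =>
    intro hn
    rcases Nat.eq_zero_or_pos n with h0 | hpos
    · rw [h0]
      exact dvd_zero d
    · have hmem : ϖ ^ n ∈ A.nonunits := by
        rw [ValuationSubring.mem_nonunits_iff, map_pow]
        exact pow_lt_one₀ zero_le hvϖ hpos.ne'
      have hdiv := beta0_div_mem hr hA hn hmem
      have hnd : d ≤ n := by
        by_contra h
        have hlt : n < d := not_le.1 h
        have e : ϖ ^ n / ((r : ℕ) : QbH) = (ϖ ^ (d - n))⁻¹ := by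
          rw [← hϖ]
          have h3 : ϖ ^ d = ϖ ^ n * ϖ ^ (d - n) := by
            rw [← _root_.pow_add]
            congr 1
            omega
          rw [h3]
          field_simp
        rw [e] at hdiv
        have h1 : A.valuation ((ϖ ^ (d - n))⁻¹) ≤ 1 := (A.valuation_le_one_iff _).2 hdiv
        rw [map_inv₀, map_pow] at h1
        have h2 : A.valuation ϖ ^ (d - n) < 1 := pow_lt_one₀ zero_le hvϖ (by omega)
        have h4 : 0 < A.valuation ϖ ^ (d - n) := pow_pos hvϖ0 _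
        rw [inv_le_one₀ h4] at h1
        exact absurd h2 (not_lt.2 h1)
      have e : ϖ ^ (n - d) = ϖ ^ n / ((r : ℕ) : QbH) := by
        rw [← hϖ, eq_div_iff (pow_ne_zero _ hϖ0), ← _root_.pow_add]
        congr 1
        omega
      have hmem' : ϖ ^ (n - d) ∈ beta0Field A := by
        rw [e]
        exact div_mem hn (natCast_mem _ r)
      have h5 := ih (n - d) (by omega) hmem'
      have h6 : n = (n - d) + d := by omega
      rw [h6]
      exact dvd_add h5 (dvd_refl d)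

/-- **Core**: `v(c)^d = v(r)^n₀`, `r ∤ d`, and `θ_c(σ) = 1` for all `σ` in the inertia group ⇒
`d ∣ n₀`. -/
theorem rtk6de0_core {r d : ℕ} (hr : r.Prime) (hA : A.LiesOverPrime r) (hd : 0 < d)
    (hrd : ¬ r ∣ d) {c : QbH} (hc : c ≠ 0) {n₀ : ℤ}
    (hval : A.valuation c ^ d = A.valuation ((r : ℕ) : QbH) ^ n₀)
    (hθ : ∀ σ ∈ A.inertiaSubgroupIn ℚ, tameTr A σ c) : (d : ℤ) ∣ n₀ := by
  haveI : Algebra.IsAlgebraic ℚ QbH := isAlgebraic_rat_qbar
  have hr0 : ((r : ℕ) : QbH) ≠ 0 := Nat.cast_ne_zero.2 hr.ne_zero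
  obtain ⟨ϖ, hϖ⟩ := IsAlgClosed.exists_pow_nat_eq ((r : ℕ) : QbH) hd
  have hϖ0 : ϖ ≠ 0 := by
    rintro rfl
    rw [zero_pow hd.ne'] at hϖ
    exact hr0 hϖ.symm
  have hz0 : ϖ ^ n₀ ≠ 0 := zpow_ne_zero _ hϖ0
  -- `v(ϖ ^ n₀) = v(c)`
  have h1 : tameW A (Units.mk0 (ϖ ^ n₀) hz0) = tameW A (Units.mk0 c hc) ^ (1 : ℤ) := by
    rw [zpow_one]
    have h2 : (tameW A (Units.mk0 (ϖ ^ n₀) hz0) * (tameW A (Units.mk0 c hc))⁻¹) ^ d = 1 := by
      rw [mul_pow, inv_pow, mul_inv_eq_one]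
      apply Units.ext
      rw [Units.val_pow_eq_pow_val, tameW_val, Units.val_mk0, Units.val_pow_eq_pow_val, tameW_val,
        Units.val_mk0, hval, ← hϖ, map_pow, map_zpow₀, ← zpow_natCast, ← zpow_mul,
        ← zpow_natCast (A.valuation ϖ) d, ← zpow_mul, mul_comm]
    exact mul_inv_eq_one.1 (tameW_torsionFree A _ d hd h2)
  -- `ϖ ^ n₀` is fixed by inertia
  have hfix : ϖ ^ n₀ ∈ beta0Field A := by
    rw [mem_beta0Field]
    intro σ hσ
    have hT : tameTr A σ (ϖ ^ n₀) := by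
      have h3 := tameTr_of_val_zpow A hσ (Units.mk0 (ϖ ^ n₀) hz0) (Units.mk0 c hc) 1 h1
        (by rw [Units.val_mk0]; exact hθ σ hσ)
      rwa [Units.val_mk0] at h3
    have hηd : (σ (ϖ ^ n₀) / ϖ ^ n₀) ^ d = 1 := by
      have e1 : (ϖ ^ n₀) ^ d = ((r : ℕ) : QbH) ^ n₀ := by
        rw [← zpow_natCast (ϖ ^ n₀), ← zpow_mul, mul_comm, zpow_mul, zpow_natCast, hϖ]
      rw [div_pow, ← map_pow, e1, map_zpow₀, map_natCast, div_self (zpow_ne_zero _ hr0)]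
    by_contra hne
    have hη1 : σ (ϖ ^ n₀) / ϖ ^ n₀ ≠ 1 := by
      intro h
      apply hne
      rwa [div_eq_one_iff_eq hz0] at h
    exact rtk6de_root_unit_gen A hr hA hrd hηd hη1 hT
  -- conclusion
  rcases le_total 0 n₀ with h | h
  · obtain ⟨n, rfl⟩ := Int.eq_ofNat_of_zero_le h
    rw [zpow_natCast] at hfix
    exact Int.natCast_dvd_natCast.2 (rtk6de0_dvd_of_pow_mem A hr hA hd hϖ n hfix)
  · obtain ⟨n, hn⟩ := Int.exists_eq_neg_ofNat h
    subst hn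
    rw [zpow_neg, zpow_natCast] at hfix
    have h4 : ϖ ^ n ∈ beta0Field A := by
      have := inv_mem hfix
      rwa [inv_inv] at this
    exact (dvd_neg).2 (Int.natCast_dvd_natCast.2 (rtk6de0_dvd_of_pow_mem A hr hA hd hϖ n h4))

/-- **abstract form**: `z` a Laurent series with content `c`, fixed (coefficientwise) by the
inertia group at `r`, `v(c)^d = v(r)^n₀`, `r ∤ d` ⇒ `d ∣ n₀`. -/
theorem rtk6de0_main {r d : ℕ} (hr : r.Prime) (hA : A.LiesOverPrime r) (hd : 0 < d)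
    (hrd : ¬ r ∣ d) {z y₁ y₂ : LaurentSeries QbH} {c : QbH} (hc : c ≠ 0)
    (h1 : KronPrim A y₁) (h2 : KronPrim A y₂) (h : z * y₂ = HahnSeries.C c * y₁)
    (hσz : ∀ σ ∈ A.inertiaSubgroupIn ℚ, coeffMap ((σ : QbH ≃ₐ[ℚ] QbH) : QbH →+* QbH) z = z)
    {n₀ : ℤ} (hval : A.valuation c ^ d = A.valuation ((r : ℕ) : QbH) ^ n₀) : (d : ℤ) ∣ n₀ := by
  haveI : Algebra.IsAlgebraic ℚ QbH := isAlgebraic_rat_qbar
  refine rtk6de0_core A hr hA hd hrd hc hval fun σ hσ => ?_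
  have h3 : coeffMap ((σ : QbH ≃ₐ[ℚ] QbH) : QbH →+* QbH) z = HahnSeries.C (1 : QbH) * z := by
    rw [map_one, one_mul]
    exact hσz σ hσ
  exact rtk6de_symbol A hσ hc A.one_mem h1 h2 h h3

/-- **abstract form with a unit**: as `rtk6de0_main`, with `z ^ d = r ^ n₀ · ε`, `ε` of unit
content. -/
theorem rtk6de0_main' {r d : ℕ} (hr : r.Prime) (hA : A.LiesOverPrime r) (hd : 0 < d)
    (hrd : ¬ r ∣ d) {z y₁ y₂ : LaurentSeries QbH} {c : QbH} (hz : z ≠ 0) (hc : c ≠ 0)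
    (h1 : KronPrim A y₁) (h2 : KronPrim A y₂) (h : z * y₂ = HahnSeries.C c * y₁)
    (hσz : ∀ σ ∈ A.inertiaSubgroupIn ℚ, coeffMap ((σ : QbH ≃ₐ[ℚ] QbH) : QbH →+* QbH) z = z)
    {n₀ : ℤ} {ε e₁ e₂ : LaurentSeries QbH} {c' : QbH} (hc' : A.valuation c' = 1)
    (he1 : KronPrim A e₁) (he2 : KronPrim A e₂) (he : ε * e₂ = HahnSeries.C c' * e₁)
    (hzd : z ^ d = HahnSeries.C (((r : ℕ) : QbH) ^ n₀) * ε) : (d : ℤ) ∣ n₀ := by
  have hr0 : ((r : ℕ) : QbH) ≠ 0 := Nat.cast_ne_zero.2 hr.ne_zero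
  have hc'0 : c' ≠ 0 := by
    intro h0
    rw [h0, map_zero] at hc'
    exact zero_ne_one hc'
  refine rtk6de0_main A hr hA hd hrd hc h1 h2 h hσz ?_
  have hA1 : z ^ d * y₂ ^ d = HahnSeries.C (c ^ d) * y₁ ^ d := by
    rw [← mul_pow, h, mul_pow, map_pow]
  have hA2 : z ^ d * e₂ = HahnSeries.C (((r : ℕ) : QbH) ^ n₀ * c') * e₁ := by
    rw [hzd, map_mul, mul_assoc, he]
    ring
  have := rtk6de_content_unique A (pow_ne_zero d hz) (pow_ne_zero d hc)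
    (mul_ne_zero (zpow_ne_zero _ hr0) hc'0) (h1.pow d) (h2.pow d) he1 he2 hA1 hA2
  rw [map_pow, map_mul, hc', mul_one, map_zpow₀] at this
  exact this

end Core

section Cyc

variable {M : ℕ} [NeZero M]

/-- **every `σ` in the inertia group at `r` has a cyclotomic image at `r`** (`r ∥ M`) -/
theorem rtk6de0_isCycAt {r : ℕ} (hr : r.Prime) (hrM : r ∣ M) (hr2 : ¬ r ^ 2 ∣ M)
    (A : ValuationSubring QbH) (hA : A.LiesOverPrime r) {σ : QbH ≃ₐ[ℚ] QbH}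
    (hσ : σ ∈ A.inertiaSubgroupIn ℚ) : ∃ c : (ZMod M)ˣ, IsCycAt M r σ c := by
  haveI : Algebra.IsAlgebraic ℚ QbH := isAlgebraic_rat_qbar
  have hM0 : M ≠ 0 := NeZero.ne M
  haveI : NeZero (M : AlgebraicClosure ℚ) := ⟨Nat.cast_ne_zero.mpr hM0⟩
  obtain ⟨ζ, hζ⟩ := HasEnoughRootsOfUnity.exists_primitiveRoot (AlgebraicClosure ℚ) M
  -- `σ ζ = ζ ^ k`
  have hσζ : IsPrimitiveRoot (σ ζ) M := hζ.map_of_injective σ.injective
  obtain ⟨k, hkM, hk⟩ := hζ.eq_pow_of_pow_eq_one hσζ.pow_eq_one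
  have hcop : Nat.Coprime k M := by
    rw [← hk] at hσζ
    exact (hζ.pow_iff_coprime (Nat.pos_of_ne_zero hM0) k).1 hσζ
  have hval : ((ZMod.unitOfCoprime k hcop : (ZMod M)ˣ) : ZMod M).val = k := by
    rw [ZMod.coe_unitOfCoprime, ZMod.val_natCast, Nat.mod_eq_of_lt hkM]
  refine ⟨ZMod.unitOfCoprime k hcop, fun η hη => ?_, ?_⟩
  · rw [hval]
    have hηM : η ^ M = 1 := by
      obtain ⟨m, rfl⟩ := hrM
      rw [pow_mul, hη, one_pow]
    obtain ⟨j, -, rfl⟩ := hζ.eq_pow_of_pow_eq_one hηM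
    rw [map_pow, ← hk, ← pow_mul, ← pow_mul, mul_comm]
  · show (((((ZMod.unitOfCoprime k hcop : (ZMod M)ˣ) : ZMod M).val : ℕ) : ZMod (M / r))) = 1
    rw [hval]
    have hd0 : M / r ≠ 0 := by
      intro h
      rcases (Nat.div_eq_zero_iff).mp h with h0 | h0
      · exact hr.ne_zero h0
      · exact absurd (Nat.le_of_dvd (Nat.pos_of_ne_zero hM0) hrM) (not_le.mpr h0)
    have hrd : ¬ r ∣ M / r := by
      intro h
      apply hr2
      obtain ⟨m, hm⟩ := h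
      refine ⟨m, ?_⟩
      have h3 := Nat.div_mul_cancel hrM
      rw [hm] at h3
      rw [← h3]
      ring
    have hMr : M = r * (M / r) := (Nat.mul_div_cancel' hrM).symm
    -- `ζ' = ζ ^ r` is a primitive `(M / r)`-th root of unity, fixed by `σ`
    have hζ' : IsPrimitiveRoot (ζ ^ r) (M / r) :=
      hζ.pow (Nat.pos_of_ne_zero hM0) hMr
    have hfix : σ (ζ ^ r) = ζ ^ r := rtk6de_inertia_fix_root A hr hA hrd hσ hζ'.pow_eq_one
    have h4 : (ζ ^ r) ^ k = (ζ ^ r) ^ 1 := by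
      rw [pow_one]
      calc (ζ ^ r) ^ k = (ζ ^ k) ^ r := by rw [← pow_mul, ← pow_mul, mul_comm]
        _ = σ (ζ ^ r) := by rw [hk, map_pow]
        _ = ζ ^ r := hfix
    have hfo : IsOfFinOrder (ζ ^ r) :=
      isOfFinOrder_iff_pow_eq_one.mpr ⟨M / r, Nat.pos_of_ne_zero hd0, hζ'.pow_eq_one⟩
    have hmod : k ≡ 1 [MOD M / r] := by
      have h5 := hfo.pow_eq_pow_iff_modEq (n := k) (m := 1)
      rw [← hζ'.eq_orderOf] at h5
      exact h5.mp h4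
    have h6 := (ZMod.natCast_eq_natCast_iff _ _ _).mpr hmod
    rw [h6, Nat.cast_one]

end Cyc

section Inst

variable {L M : ℕ} [NeZero M] {H : Subgroup (ZMod M)ˣ}

/-- **`σ (w y) = w y`** for every `σ` in the inertia group at `r`, if `y` is fixed by the
inertia group (coefficientwise) and by the diamonds at `r`. -/
theorem rtk6de0_fix (hL : L ≠ 0) (hML : M ∣ L) {r : ℕ} (hr : r.Prime) (hrM : r ∣ M)
    (hr2 : ¬ r ^ 2 ∣ M) (A : ValuationSubring QbH) (hA : A.LiesOverPrime r)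
    {w : fieldBar L M H ≃ₐ[QbH] fieldBar L M H} (hw : IsWAt L M H r w)
    (y : fieldBar L M H)
    (hgal : ∀ σ ∈ A.inertiaSubgroupIn ℚ, arithmeticGalois (fieldQ L M H) σ • y = y)
    (hdiam : ∀ c : (ZMod M)ˣ, IsAtR M r c → ∀ δ : fieldBar L M H ≃ₐ[QbH] fieldBar L M H,
      IsDiamondH L M H c δ → δ y = y)
    {σ : QbH ≃ₐ[ℚ] QbH} (hσ : σ ∈ A.inertiaSubgroupIn ℚ) :
    coeffMap (σ : QbH →+* QbH) ((w y : fieldBar L M H) : LaurentSeries QbH)
      = ((w y : fieldBar L M H) : LaurentSeries QbH) := by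
  obtain ⟨c, hcyc⟩ := rtk6de0_isCycAt hr hrM hr2 A hA hσ
  obtain ⟨δ, hδ⟩ := stmtDiamondBarH_of_diamond stmtDiamondH L M H hL hML c
  have h1 := hw.galois σ c hcyc δ hδ y
  rw [hgal σ hσ, hdiam c hcyc.2 δ hδ] at h1
  have h3 : ((arithmeticGalois (fieldQ L M H) σ • w y : fieldBar L M H) :
      LaurentSeries QbH) = ((w y : fieldBar L M H) : LaurentSeries QbH) :=
    congrArg (fun x : fieldBar L M H => (x : LaurentSeries QbH)) h1
  rw [coe_arithmeticGalois_smul] at h3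
  exact h3

/-- **`d ∣ n₀`, general form.**  `y ∈ fieldBar L M H`, `y ≠ 0`, fixed by the inertia group at `r`
(coefficientwise) and by the diamonds at `r`, `w = w_r`; if `(w y)^d = r^n₀ · ε` with `ε` of unit
content at `A` and `r ∤ d`, then `d ∣ n₀`. -/
theorem rtk6de0_inst_gen (hL : L ≠ 0) (hML : M ∣ L) {r d : ℕ} (hr : r.Prime) (hrM : r ∣ M)
    (hr2 : ¬ r ^ 2 ∣ M) (A : ValuationSubring QbH) (hA : A.LiesOverPrime r) (hd : ¬ r ∣ d)
    {w : fieldBar L M H ≃ₐ[QbH] fieldBar L M H} (hw : IsWAt L M H r w)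
    (y : fieldBar L M H) (hy : y ≠ 0)
    (hgal : ∀ σ ∈ A.inertiaSubgroupIn ℚ, arithmeticGalois (fieldQ L M H) σ • y = y)
    (hdiam : ∀ c : (ZMod M)ˣ, IsAtR M r c → ∀ δ : fieldBar L M H ≃ₐ[QbH] fieldBar L M H,
      IsDiamondH L M H c δ → δ y = y)
    {n₀ : ℤ} {ε e₁ e₂ : LaurentSeries QbH} {c' : QbH} (hc' : A.valuation c' = 1)
    (he1 : KronPrim A e₁) (he2 : KronPrim A e₂) (he : ε * e₂ = HahnSeries.C c' * e₁)
    (hzd : ((w y : fieldBar L M H) : LaurentSeries QbH) ^ d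
      = HahnSeries.C (((r : ℕ) : QbH) ^ n₀) * ε) :
    (d : ℤ) ∣ n₀ := by
  have hd0 : 0 < d := by
    rcases Nat.eq_zero_or_pos d with h | h
    · exact absurd (h ▸ dvd_zero r) hd
    · exact h
  have hwy : w y ≠ 0 := fun h0 => hy ((map_eq_zero_iff w w.injective).1 h0)
  have hz : ((w y : fieldBar L M H) : LaurentSeries QbH) ≠ 0 := by
    intro h0
    exact hwy (Subtype.ext h0)
  haveI : Algebra.IsAlgebraic ℚ QbH := isAlgebraic_rat_qbar
  obtain ⟨c, y₁, y₂, hc, -, -, h1, h2, h⟩ := stmtPrimH L M H A (w y) hwy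
  exact rtk6de0_main' A hr hA hd0 hd hz hc h1 h2 h
    (fun σ hσ => rtk6de0_fix hL hML hr hrM hr2 A hA hw y hgal hdiam hσ) hc' he1 he2 he hzd

/-- **`d ∣ n₀`, valuation form**: the same with the content `c` of `w y` given,
`v(c)^d = v(r)^n₀`. -/
theorem rtk6de0_inst_val (hL : L ≠ 0) (hML : M ∣ L) {r d : ℕ} (hr : r.Prime) (hrM : r ∣ M)
    (hr2 : ¬ r ^ 2 ∣ M) (A : ValuationSubring QbH) (hA : A.LiesOverPrime r) (hd0 : 0 < d)
    (hd : ¬ r ∣ d)
    {w : fieldBar L M H ≃ₐ[QbH] fieldBar L M H} (hw : IsWAt L M H r w)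
    (y : fieldBar L M H)
    (hgal : ∀ σ ∈ A.inertiaSubgroupIn ℚ, arithmeticGalois (fieldQ L M H) σ • y = y)
    (hdiam : ∀ c : (ZMod M)ˣ, IsAtR M r c → ∀ δ : fieldBar L M H ≃ₐ[QbH] fieldBar L M H,
      IsDiamondH L M H c δ → δ y = y)
    {c : QbH} {y₁ y₂ : LaurentSeries QbH} (hc : c ≠ 0) (h1 : KronPrim A y₁)
    (h2 : KronPrim A y₂)
    (h : ((w y : fieldBar L M H) : LaurentSeries QbH) * y₂ = HahnSeries.C c * y₁)
    {n₀ : ℤ} (hval : A.valuation c ^ d = A.valuation ((r : ℕ) : QbH) ^ n₀) :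
    (d : ℤ) ∣ n₀ :=
  rtk6de0_main A hr hA hd0 hd hc h1 h2 h
    (fun σ hσ => rtk6de0_fix hL hML hr hrM hr2 A hA hw y hgal hdiam hσ) hval

variable (D : Subgroup (ZMod M)ˣ) (ψ : (ZMod M)ˣ →* QbHˣ)

/-- **`d ∣ n₀` for the étale generators.**  `y = rtk6deY D ψ H hML` the resolvent of a character
`ψ` which is TRIVIAL on the diamonds at `r` (`D` contains them), `ψ^d = 1` on `D`, `r ∤ d`,
`r ∥ M`, `w = w_r`: if `(w y)^d = r^n₀ · ε` with `ε` of unit content at `A`, then `d ∣ n₀`. -/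
theorem rtk6de0_inst (hL : L ≠ 0) (hML : M ∣ L) {r d : ℕ} (hr : r.Prime) (hrM : r ∣ M)
    (hr2 : ¬ r ^ 2 ∣ M) (A : ValuationSubring QbH) (hA : A.LiesOverPrime r) (hd : ¬ r ∣ d)
    (hM : 3 ≤ M) (hψH : ∀ h ∈ H, ψ h = 1) (hψ1 : ψ (-1) = 1) (hψd : ∀ c ∈ D, ψ c ^ d = 1)
    (hDr : ∀ c : (ZMod M)ˣ, IsAtR M r c → c ∈ D)
    (hψr : ∀ c : (ZMod M)ˣ, IsAtR M r c → ψ c = 1)
    {w : fieldBar L M H ≃ₐ[QbH] fieldBar L M H} (hw : IsWAt L M H r w)
    {n₀ : ℤ} {ε e₁ e₂ : LaurentSeries QbH} {c' : QbH} (hc' : A.valuation c' = 1)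
    (he1 : KronPrim A e₁) (he2 : KronPrim A e₂) (he : ε * e₂ = HahnSeries.C c' * e₁)
    (hzd : ((w (rtk6deY D ψ H hML) : fieldBar L M H) : LaurentSeries QbH) ^ d
      = HahnSeries.C (((r : ℕ) : QbH) ^ n₀) * ε) :
    (d : ℤ) ∣ n₀ := by
  have hy : rtk6deY D ψ H hML ≠ 0 := rtk6deY_ne_zero D ψ hM hψH hψ1 hML
  refine rtk6de0_inst_gen hL hML hr hrM hr2 A hA hd hw (rtk6deY D ψ H hML) hy
    (fun σ hσ => rtk6de_galois_y D ψ hr A hA hd hψd hσ hML) ?_ hc' he1 he2 he hzd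
  intro c hc δ hδ
  rw [rtk6de_diamond_y D ψ hML (hDr c hc) hδ, hψr c hc, Units.val_one, one_smul]

end Inst

end Fermat.Agent.RT.K6

end
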