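/-
K-machine, piece K6 / N0-inst (helper6): the Atkin–Lehner involution of UNIP (on the
`Γ₀(M₁ q)`-field over ANY `K₀ ⊆ ℚ̄`) is the restriction of `w` (`IsWAt`), and the base change of
the Lagrange resolvent.

* `rtk6n0Emb` : `F_{M₁q}(K₀) →+* fieldBar (M₁ q) N H` (coefficientwise base change);
* `rtk6n0_w_emb` : `w (emb x) = emb (atkinLehner x)` — NO hypothesis `μ_q ⊆ K₀`
  (compare `rtk6diwW_incl`, DIW.lean);
* `rtk6n0Psi f ψ` : the character `ψ` pushed along `f : K →+* K'`; `rtk6n0_coeffMap_Y`: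
  `coeffMap f (rtk6d0Y K N H D ψ) = rtk6d0Y K' N H D (rtk6n0Psi f ψ)`;
* `rtk6n0_emb_pow` : `emb ⟨y_ψ ^ d, _⟩ = (rtk6deY D ψ' H hNL) ^ d`.
-/
import Fermat.Agent.RT.K6.DIW
import Fermat.Agent.RT.K6.DE

set_option autoImplicit false
set_option linter.style.haveILetI false
set_option linter.unusedSectionVars false
set_option linter.unusedVariables false

noncomputable section

namespace Fermat.Agent.RT.K6

open ModularCurve AlgebraicCurve HahnSeries Fermat.Agent.ES Fermat.Agent.ES.G2 Fermat.Agent.INJ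
open Fermat.Agent.UNIP Fermat.Agent.ES1 Fermat.Agent.ES1.G2 IntermediateField Fermat.Agent.AL

section Emb

variable (K₀ : IntermediateField ℚ Qb) (L N : ℕ) (H : Subgroup (ZMod N)ˣ)

/-- coefficientwise base change `F_L(K₀) → fieldBar L N H` -/
def rtk6n0Emb : modularFunctionFieldFullC K₀ L →+* fieldBar L N H :=
  (nfEmbH K₀ L N H).comp (rtk6diIncl L N H)

theorem rtk6n0Emb_coe (x : modularFunctionFieldFullC K₀ L) :
    ((rtk6n0Emb K₀ L N H x : fieldBar L N H) : LaurentSeries Qb)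
      = coeffMap (algebraMap K₀ Qb) (x : LaurentSeries K₀) := by
  show ((nfEmbH K₀ L N H (rtk6diIncl L N H x) : fieldBar L N H) : LaurentSeries Qb) = _
  rw [nfEmbH_coe, rtk6diIncl_coe]

theorem rtk6n0Emb_injective : Function.Injective (rtk6n0Emb K₀ L N H) :=
  (rtk6n0Emb K₀ L N H).injective

theorem rtk6n0Emb_algebraMap (c : K₀) :
    rtk6n0Emb K₀ L N H (algebraMap K₀ (modularFunctionFieldFullC K₀ L) c)
      = algebraMap Qb (fieldBar L N H) (algebraMap K₀ Qb c) := by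
  show nfEmbH K₀ L N H (rtk6diIncl L N H (algebraMap K₀ _ c)) = _
  rw [rtk6diIncl_algebraMap, nfEmbH_algebraMap]

end Emb

section W

variable {K₀ : IntermediateField ℚ Qb} {M₁ q : ℕ} [NeZero q] [NeZero M₁] [NeZero (M₁ * q)]
  {N : ℕ} {H : Subgroup (ZMod N)ˣ}
  (w : fieldBar (M₁ * q) N H ≃ₐ[Qb] fieldBar (M₁ * q) N H) (hw : IsWAt (M₁ * q) N H q w)
  (hq : q.Prime) (ιC : K₀ →+* ℂ) (hqM : ¬ q ∣ M₁)

include hw in
/-- **`w` restricted to the `Γ₀`-field over `K₀` is the Atkin–Lehner involution of UNIP** -/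
theorem rtk6n0_w_emb (x : modularFunctionFieldFullC K₀ (M₁ * q)) :
    w (rtk6n0Emb K₀ (M₁ * q) N H x) =
      rtk6n0Emb K₀ (M₁ * q) N H (atkinLehner K₀ ιC hq hqM x) := by
  have key : ((w : fieldBar (M₁ * q) N H →+* fieldBar (M₁ * q) N H).comp
        (rtk6n0Emb K₀ (M₁ * q) N H)) =
      (rtk6n0Emb K₀ (M₁ * q) N H).comp
        ((atkinLehner K₀ ιC hq hqM).toRingEquiv.toRingHom) := by
    apply al_ringHom_ext K₀ (M₁ * q)
    · intro c
      show w (rtk6n0Emb K₀ (M₁ * q) N H (algebraMap K₀ _ c)) =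
        rtk6n0Emb K₀ (M₁ * q) N H (atkinLehner K₀ ιC hq hqM (algebraMap K₀ _ c))
      rw [AlgEquiv.commutes, rtk6n0Emb_algebraMap, AlgEquiv.commutes]
    · intro d _ hd
      show w (rtk6n0Emb K₀ (M₁ * q) N H
          ⟨qExpand K₀ d (jqModC K₀), jqModCd_mem_full K₀ (M₁ * q) hd⟩) =
        rtk6n0Emb K₀ (M₁ * q) N H (atkinLehner K₀ ιC hq hqM
          ⟨qExpand K₀ d (jqModC K₀), jqModCd_mem_full K₀ (M₁ * q) hd⟩)
      have hsw : alSwap q (M₁ * q) d = (if q ∣ d then d / q else d * q) := by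
        unfold alSwap
        rw [if_pos hd]
      have hsd : alSwap q (M₁ * q) d ∣ M₁ * q := alSwap_dvd hq hqM hd
      haveI : NeZero (alSwap q (M₁ * q) d) :=
        ⟨fun h0 => NeZero.ne (M₁ * q) (by rw [h0] at hsd; exact Nat.eq_zero_of_zero_dvd hsd)⟩
      apply Subtype.ext
      have h3 : ((rtk6n0Emb K₀ (M₁ * q) N H
          ⟨qExpand K₀ d (jqModC K₀), jqModCd_mem_full K₀ (M₁ * q) hd⟩ :
            fieldBar (M₁ * q) N H) : LaurentSeries Qb) = qExpand Qb d (jqModC Qb) := by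
        rw [rtk6n0Emb_coe]
        exact coeffMap_jqNModC (algebraMap K₀ Qb) d
      rw [hw.map_j d (alSwap q (M₁ * q) d) hd hsw _ h3, rtk6n0Emb_coe]
      have e0 : (⟨qExpand K₀ d (jqModC K₀), jqModCd_mem_full K₀ (M₁ * q) hd⟩ :
          modularFunctionFieldFullC K₀ (M₁ * q)) = ⟨alGen K₀ (M₁ * q) d, alGen_mem K₀ d⟩ :=
        Subtype.ext (alGen_of_dvd K₀ hd).symm
      rw [e0, atkinLehner_gen, alGen_of_dvd K₀ hsd]
      exact (coeffMap_jqNModC (algebraMap K₀ Qb) (alSwap q (M₁ * q) d)).symm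
  exact congrArg (fun φ : modularFunctionFieldFullC K₀ (M₁ * q) →+*
    fieldBar (M₁ * q) N H => φ x) key

end W

section Psi

variable {K K' : Type*} [Field K] [Field K'] (f : K →+* K') {N : ℕ} [NeZero N]
  (H D : Subgroup (ZMod N)ˣ) (ψ : (ZMod N)ˣ →* Kˣ)

/-- the character `ψ` pushed along `f : K →+* K'` -/
def rtk6n0Psi : (ZMod N)ˣ →* K'ˣ := (Units.map (f : K →* K')).comp ψ

theorem rtk6n0Psi_apply (c : (ZMod N)ˣ) :
    ((rtk6n0Psi f ψ c : K'ˣ) : K') = f ((ψ c : Kˣ) : K) := rfl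

theorem rtk6n0Psi_inv_apply (c : (ZMod N)ˣ) :
    (((rtk6n0Psi f ψ c)⁻¹ : K'ˣ) : K') = f (((ψ c)⁻¹ : Kˣ) : K) := by
  have h : (rtk6n0Psi f ψ c)⁻¹ = Units.map (f : K →* K') (ψ c)⁻¹ :=
    (map_inv (Units.map (f : K →* K')) (ψ c)).symm
  rw [h]
  rfl

theorem rtk6n0Psi_eq_one {c : (ZMod N)ˣ} (h : ψ c = 1) : rtk6n0Psi f ψ c = 1 := by
  show Units.map (f : K →* K') (ψ c) = 1
  rw [h, map_one]

theorem rtk6n0Psi_pow_eq_one {c : (ZMod N)ˣ} {d : ℕ} (h : ψ c ^ d = 1) :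
    rtk6n0Psi f ψ c ^ d = 1 := by
  show Units.map (f : K →* K') (ψ c) ^ d = 1
  rw [← map_pow, h, map_one]

theorem rtk6n0Psi_injective : Function.Injective (Units.map (f : K →* K')) := by
  intro a b h
  apply Units.ext
  apply f.injective
  exact congrArg (fun u : K'ˣ => (u : K')) h

theorem rtk6n0Psi_orderOf (c : (ZMod N)ˣ) : orderOf (rtk6n0Psi f ψ c) = orderOf (ψ c) :=
  orderOf_injective (Units.map (f : K →* K')) (rtk6n0Psi_injective f) (ψ c)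

/-- **base change of the resolvent** -/
theorem rtk6n0_coeffMap_Y :
    coeffMap f (rtk6d0Y K N H D ψ) = rtk6d0Y K' N H D (rtk6n0Psi f ψ) := by
  unfold rtk6d0Y
  rw [map_sum]
  refine Finset.sum_congr rfl fun c _ => ?_
  rw [map_mul, es1f_coeffMap_sS, rtk6n0Psi_inv_apply]
  congr 1
  show coeffMap f (HahnSeries.single 0 _) = HahnSeries.single 0 _
  rw [coeffMap_single]

end Psi

section EmbPow

variable (K₀ : IntermediateField ℚ Qb) {L N : ℕ} [NeZero N] (H D : Subgroup (ZMod N)ˣ)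
  (ψ : (ZMod N)ˣ →* (↥K₀)ˣ)

/-- the base change of the Kummer element `u = y_ψ ^ d` is `(y_{ψ'}) ^ d` -/
theorem rtk6n0_emb_pow (hNL : N ∣ L) (d : ℕ)
    (hmem : rtk6d0Y ↥K₀ N H D ψ ^ d ∈ modularFunctionFieldFullC ↥K₀ L) :
    rtk6n0Emb K₀ L N H ⟨rtk6d0Y ↥K₀ N H D ψ ^ d, hmem⟩
      = rtk6deY D (rtk6n0Psi (algebraMap ↥K₀ Qb) ψ) H hNL ^ d := by
  apply Subtype.ext
  rw [rtk6n0Emb_coe, SubmonoidClass.coe_pow, rtk6deY_coe, map_pow, rtk6n0_coeffMap_Y]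

end EmbPow

end Fermat.Agent.RT.K6

end
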