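/-
K-machine, piece K6 / N0-inst (helper6), **(N2), (N3)**: the order of the Kummer element
`u_ψ = y_ψ ^ d` along the component `V_0 = mgvV hπ ιC hq hqM false` of the special fibre.

Setting: `A` a valuation subring of `ℚ̄` over `q`, `K₀ ⊆ ℚ̄` with `A ∩ K₀` a DVR with uniformizer
`π`, UNRAMIFIED (`hqπ : Associated q π`; e.g. `K₀ = ℚ̄^I = beta0Field A`), level `M q`, `q ∤ M`,
character level `N ∣ M q`, `q ∣ N`, `w` an automorphism of `fieldBar (M q) N H` with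
`IsWAt (M q) N H q w` (piece B: `stmtB`).

* `rtk6n0_exists` : `v_c(x) = v_c(π) ^ n` for some `n : ℤ` (`x ≠ 0`; both components);
* `rtk6n0_zero_shape` : if `v_0(u) = v_0(π) ^ n₀` then `w (u ⊗ ℚ̄) = C (q ^ n₀) · ε`, `ε` of unit
  content at `A` — the shape of the hypotheses of helper74's `rtk6de_inst_coprime`, `rtk6de0_inst`;
* `rtk6n0_zero_coprime_of` / `rtk6n0_zero_coprime` : **(N2)** `ψ(c₀)` of order `d` for a diamond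
  `c₀` at `q` ⇒ `gcd(n₀, d) = 1`;
* `rtk6n0_zero_dvd_of` / `rtk6n0_zero_dvd` : **(N3)** `ψ` trivial on the diamonds at `q` ⇒
  `d ∣ n₀`;
* `rtk6n0_zero_dvd_gen` : (N3) for any `u ∈ F_{Mq}(K₀)` with `u ⊗ ℚ̄ = y ^ d`, `y ∈ fieldBar` fixed
  by the inertia group and the diamonds at `q`.
-/
import Fermat.Agent.RT.K6.N0Abs
import Fermat.Agent.RT.K6.N0AL
import Fermat.Agent.RT.K6.DE0
import Fermat.Agent.UNIP.MGVertInertia

set_option autoImplicit false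
set_option linter.style.haveILetI false
set_option linter.unusedSectionVars false
set_option linter.unusedVariables false
set_option synthInstance.maxHeartbeats 400000
set_option maxHeartbeats 1000000

noncomputable section

namespace Fermat.Agent.RT.K6

open ModularCurve AlgebraicCurve HahnSeries Fermat.Agent.ES Fermat.Agent.ES.G2 Fermat.Agent.INJ
open Fermat.Agent.UNIP Fermat.Agent.ES1 Fermat.Agent.ES1.G2 IntermediateField Fermat.Agent.AL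

section Zero

variable {A : ValuationSubring Qb} {K₀ : IntermediateField ℚ Qb}
  [IsDiscreteValuationRing ↥(beta0Ring A K₀)] {π : ↥(beta0Ring A K₀)} (hπ : Irreducible π)
  (ιC : ↥K₀ →+* ℂ) {q M : ℕ} [NeZero q] [NeZero M] [NeZero (M * q)]
  (hq : q.Prime) (hqM : ¬ q ∣ M)

/-- the uniformizer, as a constant function, has expansion `C π` at both cusps -/
theorem rtk6n0_emb_unif (c : Bool) :
    vtEmbFam ιC hq hqM c
        (algebraMap ↥(beta0Ring A K₀) ↥(modularFunctionFieldFullC ↥K₀ (M * q)) π)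
      = HahnSeries.C (algebraMap ↥(beta0Ring A K₀) ↥K₀ π) :=
  vtEmbFam_const ιC hq hqM c (algebraMap ↥(beta0Ring A K₀) ↥K₀ π)

/-- **discreteness of the vertical valuations** (= `rtk6lfb_val_zpow_J`, re-proved here to keep
the import closure small) -/
theorem rtk6n0_exists (c : Bool) {x : ↥(modularFunctionFieldFullC ↥K₀ (M * q))} (hx : x ≠ 0) :
    ∃ n : ℤ, (mgvV hπ ιC hq hqM c).valuation x = (mgvV hπ ιC hq hqM c).valuation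
      (algebraMap ↥(beta0Ring A K₀) ↥(modularFunctionFieldFullC ↥K₀ (M * q)) π) ^ n :=
  rtk6n0_exists_zpow (vtBase_residue hπ) (vtEmbFam ιC hq hqM c)
    (vt_frac_fam (vtBase_residue hπ) ιC hq hqM c) (rtk6n0_emb_unif ιC hq hqM c) hx

variable {N : ℕ} {H : Subgroup (ZMod N)ˣ}
  {w : fieldBar (M * q) N H ≃ₐ[Qb] fieldBar (M * q) N H}

/-- **the shape of `w u` over `ℚ̄`**: if `v_0(u) = v_0(π) ^ n₀` on the unramified base, then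
`w (u ⊗ ℚ̄) = C (q ^ n₀) · ε` with `ε` of unit content at `A`. -/
theorem rtk6n0_zero_shape (hqπ : Associated (((q : ℕ) : ↥(beta0Ring A K₀))) π)
    (hw : IsWAt (M * q) N H q w)
    {u : ↥(modularFunctionFieldFullC ↥K₀ (M * q))} {n₀ : ℤ}
    (hn₀ : (mgvV hπ ιC hq hqM false).valuation u = (mgvV hπ ιC hq hqM false).valuation
      (algebraMap ↥(beta0Ring A K₀) ↥(modularFunctionFieldFullC ↥K₀ (M * q)) π) ^ n₀) :
    ∃ (ε e₁ e₂ : LaurentSeries Qb) (c' : Qb), A.valuation c' = 1 ∧ KronPrim A e₁ ∧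
      KronPrim A e₂ ∧ ε * e₂ = HahnSeries.C c' * e₁ ∧
      ((w (rtk6n0Emb K₀ (M * q) N H u) : fieldBar (M * q) N H) : LaurentSeries Qb)
        = HahnSeries.C (((q : ℕ) : Qb) ^ n₀) * ε := by
  obtain ⟨v, hv⟩ := hqπ
  have hφA : ∀ a : ↥(beta0Ring A K₀),
      algebraMap ↥K₀ Qb (algebraMap ↥(beta0Ring A K₀) ↥K₀ a) ∈ A := fun a => a.2
  have hφu : ∀ a : ↥(beta0Ring A K₀), IsLocalRing.residue ↥(beta0Ring A K₀) a ≠ 0 →
      algebraMap ↥K₀ Qb (algebraMap ↥(beta0Ring A K₀) ↥K₀ a) ∉ A.nonunits := by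
    intro a ha h
    apply ha
    rw [IsLocalRing.residue_eq_zero_iff, beta0Ring_mem_maximalIdeal_iff]
    exact h
  have ht : algebraMap ↥(beta0Ring A K₀) ↥K₀ π
      = ((q : ℕ) : ↥K₀) * algebraMap ↥(beta0Ring A K₀) ↥K₀ (v : ↥(beta0Ring A K₀)) := by
    rw [← hv, map_mul, map_natCast]
  have ht₂ : A.valuation (algebraMap ↥K₀ Qb
      (algebraMap ↥(beta0Ring A K₀) ↥K₀ (v : ↥(beta0Ring A K₀)))) = 1 :=
    (beta0Ring_isUnit_iff (v : ↥(beta0Ring A K₀))).1 v.isUnit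
  obtain ⟨ε, e₁, e₂, c', hc', he1, he2, he, hx⟩ :=
    rtk6n0_content (vtBase_residue hπ) (vtEmbFam ιC hq hqM false)
      (vt_frac_fam (vtBase_residue hπ) ιC hq hqM false) A (algebraMap ↥K₀ Qb) hφA hφu
      (rtk6n0_emb_unif ιC hq hqM false) hn₀ ht ht₂
  refine ⟨ε, e₁, e₂, c', hc', he1, he2, he, ?_⟩
  rw [rtk6n0_w_emb w hw hq ιC hqM u, rtk6n0Emb_coe]
  rw [map_natCast] at hx
  exact hx

/-! ### (N3) -/

/-- **(N3), general form**: `u ∈ F_{Mq}(K₀)` with `u ⊗ ℚ̄ = y ^ d`, `y ∈ fieldBar (M q) N H`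
nonzero, fixed by the inertia group (coefficientwise) and by the diamonds at `q`, `q ∤ d`:
if `v_0(u) = v_0(π) ^ n₀` then `d ∣ n₀`. -/
theorem rtk6n0_zero_dvd_gen [NeZero N] (hA : A.LiesOverPrime q)
    (hqπ : Associated (((q : ℕ) : ↥(beta0Ring A K₀))) π)
    (hNL : N ∣ M * q) (hqN : q ∣ N) (hw : IsWAt (M * q) N H q w) {d : ℕ} (hd : ¬ q ∣ d)
    (y : fieldBar (M * q) N H) (hy : y ≠ 0)
    (hgal : ∀ σ ∈ A.inertiaSubgroupIn ℚ,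
      arithmeticGalois (fieldQ (M * q) N H) σ • y = y)
    (hdiam : ∀ c : (ZMod N)ˣ, IsAtR N q c →
      ∀ δ : fieldBar (M * q) N H ≃ₐ[Qb] fieldBar (M * q) N H,
        IsDiamondH (M * q) N H c δ → δ y = y)
    {u : ↥(modularFunctionFieldFullC ↥K₀ (M * q))}
    (hu : rtk6n0Emb K₀ (M * q) N H u = y ^ d) {n₀ : ℤ}
    (hn₀ : (mgvV hπ ιC hq hqM false).valuation u = (mgvV hπ ιC hq hqM false).valuation
      (algebraMap ↥(beta0Ring A K₀) ↥(modularFunctionFieldFullC ↥K₀ (M * q)) π) ^ n₀) :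
    (d : ℤ) ∣ n₀ := by
  obtain ⟨ε, e₁, e₂, c', hc', he1, he2, he, hx⟩ :=
    rtk6n0_zero_shape hπ ιC hq hqM hqπ hw hn₀
  have hL : M * q ≠ 0 := NeZero.ne (M * q)
  have hr2 : ¬ q ^ 2 ∣ N := by
    intro h
    have h1 : q ^ 2 ∣ M * q := h.trans hNL
    rw [pow_two] at h1
    exact hqM (Nat.dvd_of_mul_dvd_mul_right hq.pos h1)
  refine rtk6de0_inst_gen hL hNL hq hqN hr2 A hA hd hw y hy hgal hdiam hc' he1 he2 he ?_
  rw [← hx, hu, map_pow, SubmonoidClass.coe_pow]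

variable [NeZero N] (ψ : (ZMod N)ˣ →* (↥K₀)ˣ)

/-- **(N3)**, implication form: `ψ` trivial on the diamonds at `q` ⇒ `d ∣ n₀` for every `n₀` with
`v_0(u_ψ) = v_0(π) ^ n₀`. -/
theorem rtk6n0_zero_dvd_of (hA : A.LiesOverPrime q)
    (hqπ : Associated (((q : ℕ) : ↥(beta0Ring A K₀))) π)
    (hNL : N ∣ M * q) (hqN : q ∣ N) (hN3 : 3 ≤ N) (hw : IsWAt (M * q) N H q w)
    (hψH : ∀ h ∈ H, ψ h = 1) (hψ1 : ψ (-1) = 1) {d : ℕ} (hd : ¬ q ∣ d)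
    (hψd : ∀ c, ψ c ^ d = 1) (hψr : ∀ c : (ZMod N)ˣ, IsAtR N q c → ψ c = 1)
    (hmem : rtk6d0Y ↥K₀ N H ⊤ ψ ^ d ∈ modularFunctionFieldFullC ↥K₀ (M * q)) {n₀ : ℤ}
    (hn₀ : (mgvV hπ ιC hq hqM false).valuation
        (⟨rtk6d0Y ↥K₀ N H ⊤ ψ ^ d, hmem⟩ : ↥(modularFunctionFieldFullC ↥K₀ (M * q)))
      = (mgvV hπ ιC hq hqM false).valuation
        (algebraMap ↥(beta0Ring A K₀) ↥(modularFunctionFieldFullC ↥K₀ (M * q)) π) ^ n₀) :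
    (d : ℤ) ∣ n₀ := by
  obtain ⟨ε, e₁, e₂, c', hc', he1, he2, he, hx⟩ :=
    rtk6n0_zero_shape hπ ιC hq hqM hqπ hw hn₀
  have hL : M * q ≠ 0 := NeZero.ne (M * q)
  have hr2 : ¬ q ^ 2 ∣ N := by
    intro h
    have h1 : q ^ 2 ∣ M * q := h.trans hNL
    rw [pow_two] at h1
    exact hqM (Nat.dvd_of_mul_dvd_mul_right hq.pos h1)
  refine rtk6de0_inst ⊤ (rtk6n0Psi (algebraMap ↥K₀ Qb) ψ) hL hNL hq hqN hr2 A hA hd hN3
    (fun h hh => rtk6n0Psi_eq_one _ ψ (hψH h hh)) (rtk6n0Psi_eq_one _ ψ hψ1)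
    (fun c _ => rtk6n0Psi_pow_eq_one _ ψ (hψd c)) (fun c _ => Subgroup.mem_top c)
    (fun c hc => rtk6n0Psi_eq_one _ ψ (hψr c hc)) hw hc' he1 he2 he ?_
  rw [← hx, rtk6n0_emb_pow K₀ H ⊤ ψ hNL d hmem, map_pow, SubmonoidClass.coe_pow]

/-- the Kummer element is nonzero -/
theorem rtk6n0_u_ne_zero (hN3 : 3 ≤ N) (hψH : ∀ h ∈ H, ψ h = 1) (hψ1 : ψ (-1) = 1)
    (D : Subgroup (ZMod N)ˣ) (d : ℕ)
    (hmem : rtk6d0Y ↥K₀ N H D ψ ^ d ∈ modularFunctionFieldFullC ↥K₀ (M * q)) :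
    (⟨rtk6d0Y ↥K₀ N H D ψ ^ d, hmem⟩ : ↥(modularFunctionFieldFullC ↥K₀ (M * q))) ≠ 0 := by
  intro h
  have h1 : rtk6d0Y ↥K₀ N H D ψ ^ d = 0 :=
    congrArg (fun z : ↥(modularFunctionFieldFullC ↥K₀ (M * q)) => (z : LaurentSeries ↥K₀)) h
  exact rtk6d0Y_ne_zero ↥K₀ D ψ hN3 hψH hψ1 (eq_zero_of_pow_eq_zero h1)

/-- **(N3)**: `ψ` trivial on the diamonds at `q` ⇒ `v_0(u_ψ) = v_0(π) ^ n₀` with `d ∣ n₀`. -/
theorem rtk6n0_zero_dvd (hA : A.LiesOverPrime q)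
    (hqπ : Associated (((q : ℕ) : ↥(beta0Ring A K₀))) π)
    (hNL : N ∣ M * q) (hqN : q ∣ N) (hN3 : 3 ≤ N) (hw : IsWAt (M * q) N H q w)
    (hψH : ∀ h ∈ H, ψ h = 1) (hψ1 : ψ (-1) = 1) {d : ℕ} (hd : ¬ q ∣ d)
    (hψd : ∀ c, ψ c ^ d = 1) (hψr : ∀ c : (ZMod N)ˣ, IsAtR N q c → ψ c = 1)
    (hmem : rtk6d0Y ↥K₀ N H ⊤ ψ ^ d ∈ modularFunctionFieldFullC ↥K₀ (M * q)) :
    ∃ n₀ : ℤ, (d : ℤ) ∣ n₀ ∧
      (mgvV hπ ιC hq hqM false).valuation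
        (⟨rtk6d0Y ↥K₀ N H ⊤ ψ ^ d, hmem⟩ : ↥(modularFunctionFieldFullC ↥K₀ (M * q)))
      = (mgvV hπ ιC hq hqM false).valuation
        (algebraMap ↥(beta0Ring A K₀) ↥(modularFunctionFieldFullC ↥K₀ (M * q)) π) ^ n₀ := by
  obtain ⟨n₀, hn₀⟩ := rtk6n0_exists hπ ιC hq hqM false
    (rtk6n0_u_ne_zero (M := M) (q := q) ψ hN3 hψH hψ1 ⊤ d hmem)
  exact ⟨n₀, rtk6n0_zero_dvd_of hπ ιC hq hqM ψ hA hqπ hNL hqN hN3 hw hψH hψ1 hd hψd hψr hmem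
    hn₀, hn₀⟩

/-! ### (N2) -/

/-- **(N2)**, implication form: `ψ(c₀)` of order `d` for a diamond `c₀` at `q`, `q ∤ d` ⇒
`gcd(n₀, d) = 1` for every `n₀` with `v_0(u_ψ) = v_0(π) ^ n₀`. -/
theorem rtk6n0_zero_coprime_of (hA : A.LiesOverPrime q)
    (hqπ : Associated (((q : ℕ) : ↥(beta0Ring A K₀))) π)
    (hNL : N ∣ M * q) (hqN : q ∣ N) (hw : IsWAt (M * q) N H q w)
    (hψH : ∀ h ∈ H, ψ h = 1) (hψ1 : ψ (-1) = 1) {d : ℕ} (hd : ¬ q ∣ d)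
    (hψd : ∀ c, ψ c ^ d = 1) {c₀ : (ZMod N)ˣ} (hc₀ : IsAtR N q c₀)
    (hord : orderOf (ψ c₀) = d)
    (hmem : rtk6d0Y ↥K₀ N H ⊤ ψ ^ d ∈ modularFunctionFieldFullC ↥K₀ (M * q)) {n₀ : ℤ}
    (hn₀ : (mgvV hπ ιC hq hqM false).valuation
        (⟨rtk6d0Y ↥K₀ N H ⊤ ψ ^ d, hmem⟩ : ↥(modularFunctionFieldFullC ↥K₀ (M * q)))
      = (mgvV hπ ιC hq hqM false).valuation
        (algebraMap ↥(beta0Ring A K₀) ↥(modularFunctionFieldFullC ↥K₀ (M * q)) π) ^ n₀) :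
    Nat.Coprime n₀.natAbs d := by
  obtain ⟨ε, e₁, e₂, c', hc', he1, he2, he, hx⟩ :=
    rtk6n0_zero_shape hπ ιC hq hqM hqπ hw hn₀
  have hL : M * q ≠ 0 := NeZero.ne (M * q)
  refine rtk6de_inst_coprime ⊤ (rtk6n0Psi (algebraMap ↥K₀ Qb) ψ) hL hNL hq hqN A hA hd
    (fun h hh => rtk6n0Psi_eq_one _ ψ (hψH h hh)) (rtk6n0Psi_eq_one _ ψ hψ1)
    (fun c _ => rtk6n0Psi_pow_eq_one _ ψ (hψd c)) hw (Subgroup.mem_top c₀) hc₀
    ((rtk6n0Psi_orderOf _ ψ c₀).trans hord) hc' he1 he2 he ?_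
  rw [← hx, rtk6n0_emb_pow K₀ H ⊤ ψ hNL d hmem, map_pow, SubmonoidClass.coe_pow]

/-- **(N2)**: `ψ(c₀)` of order `d` for a diamond `c₀` at `q`, `q ∤ d` ⇒
`v_0(u_ψ) = v_0(π) ^ n₀` with `gcd(n₀, d) = 1`. -/
theorem rtk6n0_zero_coprime (hA : A.LiesOverPrime q)
    (hqπ : Associated (((q : ℕ) : ↥(beta0Ring A K₀))) π)
    (hNL : N ∣ M * q) (hqN : q ∣ N) (hN3 : 3 ≤ N) (hw : IsWAt (M * q) N H q w)
    (hψH : ∀ h ∈ H, ψ h = 1) (hψ1 : ψ (-1) = 1) {d : ℕ} (hd : ¬ q ∣ d)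
    (hψd : ∀ c, ψ c ^ d = 1) {c₀ : (ZMod N)ˣ} (hc₀ : IsAtR N q c₀)
    (hord : orderOf (ψ c₀) = d)
    (hmem : rtk6d0Y ↥K₀ N H ⊤ ψ ^ d ∈ modularFunctionFieldFullC ↥K₀ (M * q)) :
    ∃ n₀ : ℤ, (mgvV hπ ιC hq hqM false).valuation
        (⟨rtk6d0Y ↥K₀ N H ⊤ ψ ^ d, hmem⟩ : ↥(modularFunctionFieldFullC ↥K₀ (M * q)))
      = (mgvV hπ ιC hq hqM false).valuation
        (algebraMap ↥(beta0Ring A K₀) ↥(modularFunctionFieldFullC ↥K₀ (M * q)) π) ^ n₀ ∧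
      Nat.Coprime n₀.natAbs d := by
  obtain ⟨n₀, hn₀⟩ := rtk6n0_exists hπ ιC hq hqM false
    (rtk6n0_u_ne_zero (M := M) (q := q) ψ hN3 hψH hψ1 ⊤ d hmem)
  exact ⟨n₀, hn₀, rtk6n0_zero_coprime_of hπ ιC hq hqM ψ hA hqπ hNL hqN hw hψH hψ1 hd hψd hc₀
    hord hmem hn₀⟩

end Zero

/-! ### `K₀ = ℚ̄^I = beta0Field A` : the base is unramified -/

section Base

variable {A : ValuationSubring Qb} {q : ℕ}
  [IsDiscreteValuationRing ↥(beta0Ring A (beta0Field A))]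
  {π : ↥(beta0Ring A (beta0Field A))}

/-- `q` is a uniformizer of `A ∩ ℚ̄^I` -/
theorem rtk6n0_base_assoc (hπ : Irreducible π) (hq : q.Prime) (hA : A.LiesOverPrime q) :
    Associated (((q : ℕ) : ↥(beta0Ring A (beta0Field A)))) π :=
  IsDiscreteValuationRing.associated_of_irreducible _ (beta0Ring_irreducible_q hq hA) hπ

end Base

end Fermat.Agent.RT.K6

end
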