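/-
K-machine, piece K6 / N0-inst (helper6): the NORMALISED Kummer generator.

For `D = ⊤` the Lagrange resolvent `y_ψ = Σ_{c ∈ (ℤ/N)ˣ} ψ(c)⁻¹ S_c` is `n₀ = #(±H)` times the
reduced resolvent `Σ_{c ∈ (ℤ/N)ˣ/±H} ψ(c)⁻¹ S_c` (`S_c` and `ψ(c)` only depend on `c·(±H)`), and
`n₀` need not be a unit at `q`.  The normalised generator `rtk6n0Y = y_ψ / n₀` is primitive at
EVERY valuation subring.

* `rtk6n0_sum_cosets` : `Σ_{c ∈ G} f c = #P · Σ_{x ∈ G/P} f(x.out)` for `f` right-`P`-invariant;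
* `rtk6n0P H` : the subgroup `±H` of `(ℤ/N)ˣ`; `rtk6n0_mem_P`, `rtk6n0_card_P`;
* `rtk6n0Y K N H ψ = C (n₀⁻¹) * rtk6d0Y K N H ⊤ ψ`; `rtk6n0Y_mul`, `rtk6n0Y_kronPrim`,
  `rtk6n0Y_mem`, `rtk6n0Y_pow_mem`, `rtk6n0Y_pow`;
* **(N1′)** `rtk6n0_norm_inf` : `v_∞(u′) = 1` for `u′ = (y_ψ / n₀) ^ d` — NO hypothesis on `n₀`;
* **(N2′)** `rtk6n0_norm_zero_coprime`, **(N3′)** `rtk6n0_norm_zero_dvd` : the same statements as
  (N2), (N3) for `u′`;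
* `rtk6n0_norm_hor` : `d ∣ ord_P u ⇒ d ∣ ord_P u′` at every place.
-/
import Fermat.Agent.RT.K6.N0Zero
import Fermat.Agent.RT.K6.N0Inf

set_option autoImplicit false
set_option linter.style.haveILetI false
set_option linter.unusedSectionVars false
set_option linter.unusedVariables false
set_option synthInstance.maxHeartbeats 400000
set_option maxHeartbeats 1000000

noncomputable section

namespace Fermat.Agent.RT.K6

open ModularCurve AlgebraicCurve HahnSeries Fermat.Agent.ES Fermat.Agent.ES.G2 Fermat.Agent.INJ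
open Fermat.Agent.UNIP Fermat.Agent.ES1 Fermat.Agent.ES1.G2 IntermediateField Fermat.Agent.AL

/-! ### sums over a group of a function constant on cosets -/

section Cosets

variable {G M₀ : Type*} [Group G] [AddCommMonoid M₀] (P : Subgroup G)

/-- the bijection `(G ⧸ P) × P ≃ G`, `(x, p) ↦ x.out * p` -/
def rtk6n0CosetEquiv : (G ⧸ P) × P ≃ G where
  toFun xp := Quotient.out xp.1 * (xp.2 : G)
  invFun c := ((c : G ⧸ P), ⟨(Quotient.out (c : G ⧸ P))⁻¹ * c, by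
    rw [← QuotientGroup.eq]
    exact QuotientGroup.out_eq' _⟩)
  left_inv := by
    rintro ⟨x, p⟩
    have hx : (((Quotient.out x * (p : G) : G)) : G ⧸ P) = x := by
      rw [QuotientGroup.mk_mul_of_mem _ p.2]
      exact QuotientGroup.out_eq' x
    refine Prod.ext hx (Subtype.ext ?_)
    show (Quotient.out ((Quotient.out x * (p : G) : G) : G ⧸ P))⁻¹ * (Quotient.out x * (p : G))
      = (p : G)
    rw [hx, inv_mul_cancel_left]
  right_inv := by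
    intro c
    show Quotient.out (c : G ⧸ P) * ((Quotient.out (c : G ⧸ P))⁻¹ * c) = c
    rw [mul_inv_cancel_left]

theorem rtk6n0_sum_cosets [Fintype G] [Fintype P] [Fintype (G ⧸ P)] (f : G → M₀)
    (hf : ∀ c : G, ∀ p ∈ P, f (c * p) = f c) :
    ∑ c : G, f c = Fintype.card P • ∑ x : G ⧸ P, f (Quotient.out x) := by
  rw [← Equiv.sum_comp (rtk6n0CosetEquiv P) f, Fintype.sum_prod_type, Finset.smul_sum]
  refine Finset.sum_congr rfl fun x _ => ?_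
  have h1 : ∀ p : P, f (rtk6n0CosetEquiv P (x, p)) = f (Quotient.out x) :=
    fun p => hf _ p p.2
  rw [Finset.sum_congr rfl fun p _ => h1 p, Finset.sum_const, Finset.card_univ]

end Cosets

/-! ### the subgroup `±H` -/

section PM

variable {N : ℕ} (H : Subgroup (ZMod N)ˣ)

/-- the subgroup `±H` of `(ℤ/N)ˣ` -/
def rtk6n0P : Subgroup (ZMod N)ˣ where
  carrier := {c | InPM H c (1 : ZMod N)}
  one_mem' := ⟨1, H.one_mem, Or.inl (by rw [mul_one, Units.val_one])⟩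
  mul_mem' := by
    rintro a b ⟨h₁, hh₁, e₁⟩ ⟨h₂, hh₂, e₂⟩
    refine ⟨h₁ * h₂, H.mul_mem hh₁ hh₂, ?_⟩
    simp only [Units.val_mul] at e₁ e₂ ⊢
    rcases e₁ with e₁ | e₁ <;> rcases e₂ with e₂ | e₂
    · left; linear_combination e₁ + ((a : ZMod N) * (h₁ : ZMod N)) * e₂
    · right; linear_combination e₁ + ((a : ZMod N) * (h₁ : ZMod N)) * e₂
    · right; linear_combination e₁ - ((a : ZMod N) * (h₁ : ZMod N)) * e₂
    · left; linear_combination e₁ - ((a : ZMod N) * (h₁ : ZMod N)) * e₂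
  inv_mem' := by
    rintro a ⟨h, hh, e⟩
    refine ⟨h⁻¹, H.inv_mem hh, ?_⟩
    have hu : ((a⁻¹ * h⁻¹ : (ZMod N)ˣ) : ZMod N) * ((a * h : (ZMod N)ˣ) : ZMod N) = 1 := by
      rw [← Units.val_mul]
      have : a⁻¹ * h⁻¹ * (a * h) = 1 := by
        rw [mul_comm a h, ← mul_inv_rev, inv_mul_cancel]
      rw [this, Units.val_one]
    rcases e with e | e
    · left
      rw [← e, mul_one] at hu
      exact hu.symm
    · right
      have e' : ((a * h : (ZMod N)ˣ) : ZMod N) = -1 := by rw [e, neg_neg]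
      rw [e', mul_neg, mul_one] at hu
      exact hu.symm

variable {H}

theorem rtk6n0_mem_P {c : (ZMod N)ˣ} : c ∈ rtk6n0P H ↔ InPM H c (1 : ZMod N) := Iff.rfl

/-- `c p ∈ ± c H` for `p ∈ ±H` -/
theorem rtk6n0_inPM_mul (c : (ZMod N)ˣ) {p : (ZMod N)ˣ} (hp : p ∈ rtk6n0P H) :
    InPM H c ((c * p : (ZMod N)ˣ) : ZMod N) := by
  obtain ⟨h, hh, e⟩ := hp
  refine ⟨h⁻¹, H.inv_mem hh, ?_⟩
  have hu : ((h : (ZMod N)ˣ) : ZMod N) * ((h⁻¹ : (ZMod N)ˣ) : ZMod N) = 1 := by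
    rw [← Units.val_mul, mul_inv_cancel, Units.val_one]
  simp only [Units.val_mul] at e ⊢
  rcases e with e | e
  · left
    linear_combination (-((c : ZMod N) * (p : ZMod N))) * hu
      - ((c : ZMod N) * ((h⁻¹ : (ZMod N)ˣ) : ZMod N)) * e
  · right
    linear_combination (-((c : ZMod N) * (p : ZMod N))) * hu
      + ((c : ZMod N) * ((h⁻¹ : (ZMod N)ˣ) : ZMod N)) * e

variable (H) in
/-- `#(±H) = rtk6d0N N H ⊤` -/
theorem rtk6n0_card_P [NeZero N] [Fintype (rtk6n0P H)] :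
    Fintype.card (rtk6n0P H) = rtk6d0N N H ⊤ := by
  classical
  unfold rtk6d0N
  refine Fintype.card_of_subtype _ fun c => ?_
  rw [Finset.mem_filter, rtk6d0_mem_set]
  exact ⟨fun h => h.2, fun h => ⟨Subgroup.mem_top c, h⟩⟩

end PM

/-! ### the normalised resolvent -/

section Norm

variable (K : Type*) [Field K] (N : ℕ) [NeZero N] (H : Subgroup (ZMod N)ˣ)
  (ψ : (ZMod N)ˣ →* Kˣ)

/-- **the normalised Kummer generator** `y_ψ / #(±H)` -/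
def rtk6n0Y : LaurentSeries K :=
  HahnSeries.C (((rtk6d0N N H ⊤ : ℕ) : K)⁻¹) * rtk6d0Y K N H ⊤ ψ

variable {K N H ψ}

theorem rtk6n0_N_ne_zero [CharZero K] : ((rtk6d0N N H ⊤ : ℕ) : K) ≠ 0 := by
  have h2 := rtk6d0N_pos N H ⊤
  exact_mod_cast h2.ne'

theorem rtk6n0_C_ne_zero {a : K} (ha : a ≠ 0) : (HahnSeries.C a : LaurentSeries K) ≠ 0 := by
  intro h
  apply ha
  have := congrArg (fun z : LaurentSeries K => z.coeff 0) h
  simpa using this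

/-- `y_ψ = n₀ · (normalised generator)` -/
theorem rtk6n0Y_mul [CharZero K] :
    HahnSeries.C ((rtk6d0N N H ⊤ : ℕ) : K) * rtk6n0Y K N H ψ = rtk6d0Y K N H ⊤ ψ := by
  unfold rtk6n0Y
  rw [← mul_assoc, ← map_mul, mul_inv_cancel₀ rtk6n0_N_ne_zero, map_one, one_mul]

theorem rtk6n0Y_pow [CharZero K] (d : ℕ) :
    HahnSeries.C (((rtk6d0N N H ⊤ : ℕ) : K) ^ d) * rtk6n0Y K N H ψ ^ d
      = rtk6d0Y K N H ⊤ ψ ^ d := by
  rw [map_pow, ← mul_pow, rtk6n0Y_mul]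

theorem rtk6n0Y_ne_zero [CharZero K] (hN3 : 3 ≤ N) (hψH : ∀ h ∈ H, ψ h = 1)
    (hψ1 : ψ (-1) = 1) : rtk6n0Y K N H ψ ≠ 0 := by
  intro h
  apply rtk6d0Y_ne_zero K ⊤ ψ hN3 hψH hψ1
  rw [← rtk6n0Y_mul, h, mul_zero]

/-- the coefficients of the resolvent, regrouped along the cosets of `±H` -/
theorem rtk6n0_coeff_regroup (hψH : ∀ h ∈ H, ψ h = 1) (hψ1 : ψ (-1) = 1) (k : ℤ) :
    ∃ S : Finset (ZMod N)ˣ, (rtk6d0Y K N H ⊤ ψ).coeff k
      = ((rtk6d0N N H ⊤ : ℕ) : K) *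
          ∑ c ∈ S, (((ψ c)⁻¹ : Kˣ) : K) * (sS K N H c).coeff k := by
  classical
  haveI : Fintype (rtk6n0P H) := Fintype.ofFinite _
  haveI : Fintype ((ZMod N)ˣ ⧸ rtk6n0P H) := Fintype.ofFinite _
  refine ⟨Finset.univ.image (fun x : (ZMod N)ˣ ⧸ rtk6n0P H => Quotient.out x), ?_⟩
  have hinj : Function.Injective (fun x : (ZMod N)ˣ ⧸ rtk6n0P H => Quotient.out x) := by
    intro x y hxy
    have := congrArg (fun c : (ZMod N)ˣ => (c : (ZMod N)ˣ ⧸ rtk6n0P H)) hxy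
    simpa [QuotientGroup.out_eq'] using this
  rw [rtk6d0Y_coeff, Finset.sum_image (fun x _ y _ h => hinj h)]
  have hset : rtk6d0Set N (⊤ : Subgroup (ZMod N)ˣ) = Finset.univ := by
    ext c
    rw [rtk6d0_mem_set]
    exact ⟨fun _ => Finset.mem_univ c, fun _ => Subgroup.mem_top c⟩
  rw [hset, rtk6n0_sum_cosets (rtk6n0P H)
    (fun c => (((ψ c)⁻¹ : Kˣ) : K) * (sS K N H c).coeff k) ?_, rtk6n0_card_P H, nsmul_eq_mul]
  intro c p hp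
  have h1 : ψ (c * p) = ψ c := by
    rw [map_mul, rtk6d0_psi_eq_one hψH hψ1 (rtk6n0_mem_P.1 hp), mul_one]
  have h2 : sS K N H (c * p) = sS K N H c := by
    unfold sS sZ
    rw [es1f_cosetReps_eq (rtk6n0_inPM_mul c hp)]
  show (((ψ (c * p))⁻¹ : Kˣ) : K) * (sS K N H (c * p)).coeff k = _
  rw [h1, h2]

/-- **the normalised generator is primitive at EVERY valuation subring** -/
theorem rtk6n0Y_kronPrim [CharZero K] (A : ValuationSubring K) (hN3 : 3 ≤ N)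
    (hψH : ∀ h ∈ H, ψ h = 1) (hψ1 : ψ (-1) = 1) : KronPrim A (rtk6n0Y K N H ψ) := by
  have hcoeff : ∀ k : ℤ, (rtk6n0Y K N H ψ).coeff k
      = (((rtk6d0N N H ⊤ : ℕ) : K)⁻¹) * (rtk6d0Y K N H ⊤ ψ).coeff k := by
    intro k
    unfold rtk6n0Y
    rw [HahnSeries.C_mul_eq_smul, HahnSeries.coeff_smul, smul_eq_mul]
  refine ⟨fun k => ?_, 3, ?_⟩
  · obtain ⟨S, hS⟩ := rtk6n0_coeff_regroup (K := K) (ψ := ψ) hψH hψ1 k
    rw [hcoeff, hS, ← mul_assoc, inv_mul_cancel₀ rtk6n0_N_ne_zero, one_mul]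
    refine sum_mem fun c _ => mul_mem ?_ ?_
    · have hcard : (ψ c)⁻¹ ^ Fintype.card (ZMod N)ˣ = 1 := by
        rw [inv_pow, ← map_pow, pow_card_eq_one, map_one, inv_one]
      exact rtk6d0_unit_mem K A _ Fintype.card_ne_zero hcard
    · unfold sS
      rw [coeffMap_coeff]
      exact intCast_mem A _
  · rw [hcoeff, rtk6d0_coeff_three K ⊤ ψ hN3 hψH hψ1, inv_mul_cancel₀ rtk6n0_N_ne_zero,
      ValuationSubring.mem_nonunits_iff, map_one]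
    exact lt_irrefl _

/-- membership in an intermediate field is inherited -/
theorem rtk6n0Y_pow_mem [CharZero K] (F : IntermediateField K (LaurentSeries K)) {d : ℕ}
    (hmem : rtk6d0Y K N H ⊤ ψ ^ d ∈ F) : rtk6n0Y K N H ψ ^ d ∈ F := by
  unfold rtk6n0Y
  rw [mul_pow]
  refine mul_mem (pow_mem ?_ d) hmem
  rw [← LaurentSeries.algebraMap_apply K]
  exact F.algebraMap_mem _

theorem rtk6n0Y_mem [CharZero K] {L : ℕ} (hNL : N ∣ L) : rtk6n0Y K N H ψ ∈ fieldC K L N H := by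
  have h := rtk6n0Y_pow_mem (fieldC K L N H) (d := 1) (ψ := ψ)
    (by rw [pow_one]; exact rtk6d0Y_mem K N H ⊤ ψ hNL)
  rwa [pow_one] at h

end Norm

/-! ### the vertical orders of the normalised Kummer element -/

section NormVal

variable {A : ValuationSubring Qb} {K₀ : IntermediateField ℚ Qb}
  [IsDiscreteValuationRing ↥(beta0Ring A K₀)] {π : ↥(beta0Ring A K₀)} (hπ : Irreducible π)
  (ιC : ↥K₀ →+* ℂ) {q M : ℕ} [NeZero q] [NeZero M] [NeZero (M * q)]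
  (hq : q.Prime) (hqM : ¬ q ∣ M)
  {N : ℕ} [NeZero N] {H : Subgroup (ZMod N)ˣ} (ψ : (ZMod N)ˣ →* (↥K₀)ˣ)

/-- **(N1′)**: the normalised Kummer element `u′ = (y_ψ / n₀) ^ d` is a unit of `V_∞`
(no hypothesis on `n₀ = #(±H)`). -/
theorem rtk6n0_norm_inf (hN3 : 3 ≤ N) (hψH : ∀ h ∈ H, ψ h = 1) (hψ1 : ψ (-1) = 1) (d : ℕ)
    (hmem : rtk6n0Y ↥K₀ N H ψ ^ d ∈ modularFunctionFieldFullC ↥K₀ (M * q)) :
    (mgvV hπ ιC hq hqM true).valuation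
      (⟨rtk6n0Y ↥K₀ N H ψ ^ d, hmem⟩ : ↥(modularFunctionFieldFullC ↥K₀ (M * q))) = 1 :=
  rtk6n0_inf_of_prim hπ ιC hq hqM
    ((rtk6n0Y_kronPrim (beta0Ring A K₀) hN3 hψH hψ1).pow d)

/-- `y_ψ ^ d` lies in the `Γ₀`-field if `(y_ψ / n₀) ^ d` does -/
theorem rtk6n0_mem_of_norm {d : ℕ}
    (hmem : rtk6n0Y ↥K₀ N H ψ ^ d ∈ modularFunctionFieldFullC ↥K₀ (M * q)) :
    rtk6d0Y ↥K₀ N H ⊤ ψ ^ d ∈ modularFunctionFieldFullC ↥K₀ (M * q) := by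
  rw [← rtk6n0Y_pow]
  refine mul_mem ?_ hmem
  rw [← LaurentSeries.algebraMap_apply ↥K₀]
  exact (modularFunctionFieldFullC ↥K₀ (M * q)).algebraMap_mem _

/-- `u = n₀ ^ d · u′` in the `Γ₀`-field -/
theorem rtk6n0_u_eq {d : ℕ}
    (hmem : rtk6n0Y ↥K₀ N H ψ ^ d ∈ modularFunctionFieldFullC ↥K₀ (M * q)) :
    (⟨rtk6d0Y ↥K₀ N H ⊤ ψ ^ d, rtk6n0_mem_of_norm ψ hmem⟩ :
        ↥(modularFunctionFieldFullC ↥K₀ (M * q)))
      = algebraMap ↥K₀ ↥(modularFunctionFieldFullC ↥K₀ (M * q))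
          (((rtk6d0N N H ⊤ : ℕ) : ↥K₀)) ^ d *
        ⟨rtk6n0Y ↥K₀ N H ψ ^ d, hmem⟩ := by
  apply Subtype.ext
  show rtk6d0Y ↥K₀ N H ⊤ ψ ^ d
    = (algebraMap ↥K₀ (LaurentSeries ↥K₀) (((rtk6d0N N H ⊤ : ℕ) : ↥K₀))) ^ d *
        rtk6n0Y ↥K₀ N H ψ ^ d
  rw [LaurentSeries.algebraMap_apply, ← map_pow, rtk6n0Y_pow]

/-- the order of `u_ψ` along `V_0` from the order of the normalised element -/
theorem rtk6n0_norm_val {d : ℕ}
    (hmem : rtk6n0Y ↥K₀ N H ψ ^ d ∈ modularFunctionFieldFullC ↥K₀ (M * q)) (c : Bool)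
    {n' : ℤ}
    (hn' : (mgvV hπ ιC hq hqM c).valuation
        (⟨rtk6n0Y ↥K₀ N H ψ ^ d, hmem⟩ : ↥(modularFunctionFieldFullC ↥K₀ (M * q)))
      = (mgvV hπ ιC hq hqM c).valuation
        (algebraMap ↥(beta0Ring A K₀) ↥(modularFunctionFieldFullC ↥K₀ (M * q)) π) ^ n') :
    ∃ k : ℤ, (mgvV hπ ιC hq hqM c).valuation
        (⟨rtk6d0Y ↥K₀ N H ⊤ ψ ^ d, rtk6n0_mem_of_norm ψ hmem⟩ :
          ↥(modularFunctionFieldFullC ↥K₀ (M * q)))
      = (mgvV hπ ιC hq hqM c).valuation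
        (algebraMap ↥(beta0Ring A K₀) ↥(modularFunctionFieldFullC ↥K₀ (M * q)) π)
          ^ (k * d + n') := by
  have hc0 : algebraMap ↥K₀ ↥(modularFunctionFieldFullC ↥K₀ (M * q))
      (((rtk6d0N N H ⊤ : ℕ) : ↥K₀)) ≠ 0 := by
    rw [Ne, map_eq_zero_iff _ (algebraMap ↥K₀ _).injective]
    exact rtk6n0_N_ne_zero
  obtain ⟨k, hk⟩ := rtk6n0_exists hπ ιC hq hqM c hc0
  have hπ0 : (mgvV hπ ιC hq hqM c).valuation
      (algebraMap ↥(beta0Ring A K₀) ↥(modularFunctionFieldFullC ↥K₀ (M * q)) π) ≠ 0 := by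
    rw [Valuation.ne_zero_iff]
    intro h0
    have h1 := rtk6n0_emb_unif (π := π) ιC hq hqM c
    rw [h0, map_zero] at h1
    exact (vtBase_residue hπ).Cιπ_ne h1.symm
  refine ⟨k, ?_⟩
  rw [rtk6n0_u_eq ψ hmem, map_mul, map_pow, hk, hn', ← zpow_natCast, ← zpow_mul,
    ← zpow_add₀ hπ0]

variable {w : fieldBar (M * q) N H ≃ₐ[Qb] fieldBar (M * q) N H}

/-- **(N2′)**: `ψ(c₀)` of order `d` for a diamond `c₀` at `q`, `q ∤ d` ⇒
`v_0(u′) = v_0(π) ^ n₀` with `gcd(n₀, d) = 1`, for the normalised `u′ = (y_ψ / n₀) ^ d`. -/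
theorem rtk6n0_norm_zero_coprime (hA : A.LiesOverPrime q)
    (hqπ : Associated (((q : ℕ) : ↥(beta0Ring A K₀))) π)
    (hNL : N ∣ M * q) (hqN : q ∣ N) (hN3 : 3 ≤ N) (hw : IsWAt (M * q) N H q w)
    (hψH : ∀ h ∈ H, ψ h = 1) (hψ1 : ψ (-1) = 1) {d : ℕ} (hd : ¬ q ∣ d)
    (hψd : ∀ c, ψ c ^ d = 1) {c₀ : (ZMod N)ˣ} (hc₀ : IsAtR N q c₀)
    (hord : orderOf (ψ c₀) = d)
    (hmem : rtk6n0Y ↥K₀ N H ψ ^ d ∈ modularFunctionFieldFullC ↥K₀ (M * q)) :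
    ∃ n₀ : ℤ, (mgvV hπ ιC hq hqM false).valuation
        (⟨rtk6n0Y ↥K₀ N H ψ ^ d, hmem⟩ : ↥(modularFunctionFieldFullC ↥K₀ (M * q)))
      = (mgvV hπ ιC hq hqM false).valuation
        (algebraMap ↥(beta0Ring A K₀) ↥(modularFunctionFieldFullC ↥K₀ (M * q)) π) ^ n₀ ∧
      Nat.Coprime n₀.natAbs d := by
  have hu0 : (⟨rtk6n0Y ↥K₀ N H ψ ^ d, hmem⟩ : ↥(modularFunctionFieldFullC ↥K₀ (M * q))) ≠ 0 := by
    intro h
    have h1 : rtk6n0Y ↥K₀ N H ψ ^ d = 0 :=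
      congrArg (fun z : ↥(modularFunctionFieldFullC ↥K₀ (M * q)) => (z : LaurentSeries ↥K₀)) h
    exact rtk6n0Y_ne_zero hN3 hψH hψ1 (eq_zero_of_pow_eq_zero h1)
  obtain ⟨n', hn'⟩ := rtk6n0_exists hπ ιC hq hqM false hu0
  obtain ⟨k, hk⟩ := rtk6n0_norm_val hπ ιC hq hqM ψ hmem false hn'
  refine ⟨n', hn', ?_⟩
  have h1 := rtk6n0_zero_coprime_of hπ ιC hq hqM ψ hA hqπ hNL hqN hw hψH hψ1 hd hψd hc₀ hord
    (rtk6n0_mem_of_norm ψ hmem) hk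
  have h2 : IsCoprime (k * (d : ℤ) + n') (d : ℤ) := by
    rw [Int.isCoprime_iff_gcd_eq_one, Int.gcd_eq_natAbs, Int.natAbs_natCast]
    exact h1
  have h3 : IsCoprime n' (d : ℤ) := by
    have h4 : k * (d : ℤ) + n' = n' + (d : ℤ) * k := by ring
    rw [h4] at h2
    exact h2.of_add_mul_left_left
  rw [Int.isCoprime_iff_gcd_eq_one, Int.gcd_eq_natAbs, Int.natAbs_natCast] at h3
  exact h3

/-- **(N3′)**: `ψ` trivial on the diamonds at `q` ⇒ `v_0(u′) = v_0(π) ^ n₀` with `d ∣ n₀`, for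
the normalised `u′ = (y_ψ / n₀) ^ d`. -/
theorem rtk6n0_norm_zero_dvd (hA : A.LiesOverPrime q)
    (hqπ : Associated (((q : ℕ) : ↥(beta0Ring A K₀))) π)
    (hNL : N ∣ M * q) (hqN : q ∣ N) (hN3 : 3 ≤ N) (hw : IsWAt (M * q) N H q w)
    (hψH : ∀ h ∈ H, ψ h = 1) (hψ1 : ψ (-1) = 1) {d : ℕ} (hd : ¬ q ∣ d)
    (hψd : ∀ c, ψ c ^ d = 1) (hψr : ∀ c : (ZMod N)ˣ, IsAtR N q c → ψ c = 1)
    (hmem : rtk6n0Y ↥K₀ N H ψ ^ d ∈ modularFunctionFieldFullC ↥K₀ (M * q)) :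
    ∃ n₀ : ℤ, (d : ℤ) ∣ n₀ ∧
      (mgvV hπ ιC hq hqM false).valuation
        (⟨rtk6n0Y ↥K₀ N H ψ ^ d, hmem⟩ : ↥(modularFunctionFieldFullC ↥K₀ (M * q)))
      = (mgvV hπ ιC hq hqM false).valuation
        (algebraMap ↥(beta0Ring A K₀) ↥(modularFunctionFieldFullC ↥K₀ (M * q)) π) ^ n₀ := by
  have hu0 : (⟨rtk6n0Y ↥K₀ N H ψ ^ d, hmem⟩ : ↥(modularFunctionFieldFullC ↥K₀ (M * q))) ≠ 0 := by
    intro h
    have h1 : rtk6n0Y ↥K₀ N H ψ ^ d = 0 :=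
      congrArg (fun z : ↥(modularFunctionFieldFullC ↥K₀ (M * q)) => (z : LaurentSeries ↥K₀)) h
    exact rtk6n0Y_ne_zero hN3 hψH hψ1 (eq_zero_of_pow_eq_zero h1)
  obtain ⟨n', hn'⟩ := rtk6n0_exists hπ ιC hq hqM false hu0
  obtain ⟨k, hk⟩ := rtk6n0_norm_val hπ ιC hq hqM ψ hmem false hn'
  refine ⟨n', ?_, hn'⟩
  have h1 := rtk6n0_zero_dvd_of hπ ιC hq hqM ψ hA hqπ hNL hqN hN3 hw hψH hψ1 hd hψd hψr
    (rtk6n0_mem_of_norm ψ hmem) hk
  exact (Int.dvd_add_right (Dvd.intro_left k rfl)).1 h1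

end NormVal

end Fermat.Agent.RT.K6

end
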