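/-
K-machine, piece K6, piece **C4-U-inst, half (A)** (helper37), part 2: **(G-et) on the chart `j`
from chart-free Kummer data**, and the Kummer data from the characters.

Setting of `C4UInst.lean`: `A₁ = mgcA A K₁` a DVR (unramified level), `π` a uniformizer,
`F₀ = modularFunctionFieldFullC ↥(mgcE A K₁) (M₁ q)`, `F = rtk6diF A K₁ (M₁ q) M H`,
`incl = rtk6diIncl`.

* `Rtk6c4uKummer hπ ιC hq hqM M H` : **the chart-free Kummer data**: an exponent `m` prime to `q`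
  and a finite family `y_i ∈ F`, `y_i ^ m = u_i ∈ F₀`, with `m ∣ ord_P u_i` at every place of the
  generic fibre, `v_∞(u_i) = 1`, `v_0(u_i) = v_0(π) ^ n₀ i`, `m ∣ n₀ i`, generating `F` over `F₀`;
* `rtk6c4u_natCast_not_mem` : `q ∤ m ⇒ m ∉ 𝔫₀`;
* **`rtk6c4u_get_J`** : `Rtk6c4uKummer → Rtk6c4uGet π M H (bgJ)` (helper74's generic-`K₀`
  `rtk6gik_et_family`);
* `rtk6c4u_kummer_of_psi` : the Kummer data from a family of characters `ψ_i` of `(ℤ/M)ˣ`,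
  trivial on `±H` (hence on the diamonds at `q`: case (U)), of exponent `d` prime to `6 M₁ q`,
  whose normalised resolvents generate `F` over `F₀` (helper6's N0, helper36's D-unr).
-/
import Fermat.Agent.RT.K6.C4UInst
import Fermat.Agent.RT.K6.GenInstK
import Fermat.Agent.RT.K6.GenInstClos
import Fermat.Agent.RT.K6.N0Norm
import Fermat.Agent.RT.K6.DUnr

set_option autoImplicit false
set_option linter.style.haveILetI false
set_option linter.unusedSectionVars false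
set_option linter.unusedVariables false
set_option linter.style.longLine false
set_option synthInstance.maxHeartbeats 400000
set_option maxHeartbeats 1000000

noncomputable section

namespace Fermat.Agent.RT.K6

open ModularCurve AlgebraicCurve Fermat.Agent.ES Fermat.Agent.ES.G2 Fermat.Agent.INJ
open Fermat.Agent.UNIP Fermat.Agent.STB Fermat.Agent.ES1 Fermat.Agent.ES1.G2 Fermat.Agent.AL
  IntermediateField

section Concrete

variable {A : ValuationSubring Qb} {K₁ : IntermediateField ℚ Qb}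
  [IsDiscreteValuationRing ↥(mgcA A K₁)] {π : ↥(mgcA A K₁)} (hπ : Irreducible π)
  (ιC : ↥(mgcE A K₁) →+* ℂ) {q M₁ : ℕ} [NeZero q] [NeZero M₁] [NeZero (M₁ * q)]
  (hq : q.Prime) (hqM : ¬ q ∣ M₁) (M : ℕ) (H : Subgroup (ZMod M)ˣ)

/-- **The chart-free Kummer data** of `F / F₀` at an unramified level (case (U)). -/
def Rtk6c4uKummer : Prop :=
  ∃ (m k : ℕ) (y : Fin k → ↥(rtk6diF A K₁ (M₁ * q) M H))
    (u : Fin k → ↥(modularFunctionFieldFullC ↥(mgcE A K₁) (M₁ * q))) (n₀ : Fin k → ℤ),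
    ¬ q ∣ m ∧
    (∀ i, y i ^ m = rtk6diIncl (M₁ * q) M H (u i)) ∧
    (∀ i, u i ≠ 0) ∧
    (∀ i, ∀ P : Place ↥(mgcE A K₁) ↥(modularFunctionFieldFullC ↥(mgcE A K₁) (M₁ * q)),
      (m : ℤ) ∣ P.ord (u i)) ∧
    (∀ i, (mgvV hπ ιC hq hqM true).valuation (u i) = 1) ∧
    (∀ i, (mgvV hπ ιC hq hqM false).valuation (u i) =
      (mgvV hπ ιC hq hqM false).valuation
        (algebraMap ↥(mgcA A K₁) ↥(modularFunctionFieldFullC ↥(mgcE A K₁) (M₁ * q)) π)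
          ^ n₀ i) ∧
    (∀ i, (m : ℤ) ∣ n₀ i) ∧
    Subring.closure (Set.range (rtk6diIncl (K := ↥(mgcE A K₁)) (M₁ * q) M H) ∪ Set.range y) = ⊤

omit [NeZero q] [NeZero M₁] in
/-- an integer prime to `q` is a unit at every closed point of the special fibre -/
theorem rtk6c4u_natCast_not_mem (hq : q.Prime)
    (hqπ : Associated ((q : ℕ) : ↥(mgcA A K₁)) π) {m : ℕ} (hqm : ¬ q ∣ m)
    {u₀ : ↥(modularFunctionFieldFullC ↥(mgcE A K₁) (M₁ * q))}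
    (𝔫₀ : AtPt (F := ↥(modularFunctionFieldFullC ↥(mgcE A K₁) (M₁ * q))) π u₀) :
    (m : ↥(zchClosure (A₀ := ↥(mgcA A K₁))
      ({u₀} : Set ↥(modularFunctionFieldFullC ↥(mgcE A K₁) (M₁ * q))))) ∉ 𝔫₀.1 := by
  intro hm
  have hq𝔫 : ((q : ℕ) : ↥(zchClosure (A₀ := ↥(mgcA A K₁))
      ({u₀} : Set ↥(modularFunctionFieldFullC ↥(mgcE A K₁) (M₁ * q))))) ∈ 𝔫₀.1 := by
    obtain ⟨v, hv⟩ := hqπ.symm
    have e : ((q : ℕ) : ↥(zchClosure (A₀ := ↥(mgcA A K₁))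
        ({u₀} : Set ↥(modularFunctionFieldFullC ↥(mgcE A K₁) (M₁ * q))))) =
        algebraMap ↥(mgcA A K₁) _ π * algebraMap ↥(mgcA A K₁) _ (v : ↥(mgcA A K₁)) := by
      rw [← map_mul, hv, map_natCast]
    rw [e]
    exact 𝔫₀.1.mul_mem_right _ 𝔫₀.2.2
  have hcop : IsCoprime (m : ℤ) (q : ℤ) :=
    Nat.isCoprime_iff_coprime.2 ((Nat.Prime.coprime_iff_not_dvd hq).2 hqm).symm
  obtain ⟨a, b, hab⟩ := hcop
  have h1 : (1 : ↥(zchClosure (A₀ := ↥(mgcA A K₁))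
      ({u₀} : Set ↥(modularFunctionFieldFullC ↥(mgcE A K₁) (M₁ * q))))) ∈ 𝔫₀.1 := by
    have e := congrArg (Int.cast : ℤ → ↥(zchClosure (A₀ := ↥(mgcA A K₁))
      ({u₀} : Set ↥(modularFunctionFieldFullC ↥(mgcE A K₁) (M₁ * q))))) hab
    push_cast at e
    rw [← e]
    exact 𝔫₀.1.add_mem (𝔫₀.1.mul_mem_left _ hm) (𝔫₀.1.mul_mem_left _ hq𝔫)
  exact 𝔫₀.2.1.ne_top ((Ideal.eq_top_iff_one _).2 h1)

/-- **(G-et) on the chart `j`** from the chart-free Kummer data. -/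
theorem rtk6c4u_get_J [Normal ℚ K₁] (hA : A.LiesOverPrime q)
    (hqπ : Associated ((q : ℕ) : ↥(mgcA A K₁)) π)
    (rigid : (q ≠ 2 → 4 ∣ M₁) ∧ (q = 2 → 9 ∣ M₁))
    (hk : Rtk6c4uKummer hπ ιC hq hqM M H) :
    Rtk6c4uGet π M H (bgJ ↥(mgcE A K₁) (M₁ * q)) := by
  intro 𝔫₀
  obtain ⟨m, k, y, u, n₀, hqm, hyu, hu, hhor, hy₁, hn₀, hdvd, hgen⟩ := hk
  obtain ⟨φ, hφF⟩ := Fermat.Agent.Common.exists_isFrobeniusAt_of_liesOverPrime q hq A hA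
  obtain ⟨S, hS, hSet, -, hyS⟩ := rtk6gik_et_family hπ ιC hq hqM
    (rtk6diIncl (K := ↥(mgcE A K₁)) (M₁ * q) M H) hA le_sup_left hφF
    (stb_stable_beta0_sup hφF.mem_decompositionSubgroup K₁) hqπ rigid m y u n₀ hyu hu hhor hy₁
    hn₀ hdvd 𝔫₀
  refine ⟨m, S, rtk6c4u_natCast_not_mem hq hqπ hqm 𝔫₀, hS, hSet, ?_⟩
  refine rtk6gi_closure_top (rtk6diIncl (K := ↥(mgcE A K₁)) (M₁ * q) M H) y S (fun i => ?_) hgen
  obtain ⟨t, ht, c, -, h⟩ := hyS i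
  exact ⟨t, ht, c, h⟩

/-! ### the Kummer data from the characters -/

omit [NeZero q] [NeZero M₁] in
/-- a character trivial on `H` and at `-1` is trivial on `±H` -/
theorem rtk6c4u_psi_pmH {K : Type*} [Field K] {M : ℕ} {H : Subgroup (ZMod M)ˣ}
    (ψ : (ZMod M)ˣ →* Kˣ) (hψH : ∀ h ∈ H, ψ h = 1) (hψ1 : ψ (-1) = 1)
    {c : (ZMod M)ˣ} (hc : c ∈ pmH H) : ψ c = 1 := by
  have hle : pmH H ≤ ψ.ker :=
    sup_le (fun h hh => MonoidHom.mem_ker.2 (hψH h hh))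
      ((Subgroup.zpowers_le).2 (MonoidHom.mem_ker.2 hψ1))
  exact MonoidHom.mem_ker.1 (hle hc)

/-- **The Kummer data of the case (U)** from a finite family of characters `ψ_i` of `(ℤ/M)ˣ`,
trivial on `±H ⊇` the diamonds at `q`, of exponent `d` prime to `6 M₁ q`, whose normalised
resolvents `y_i = rtk6n0Y (ψ_i)` generate `F` over `F₀`. -/
theorem rtk6c4u_kummer_of_psi [NeZero M] (hA : A.LiesOverPrime q)
    (hqπ : Associated ((q : ℕ) : ↥(mgcA A K₁)) π)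
    (hML : M ∣ M₁ * q) (hqN : q ∣ M) (hN3 : 3 ≤ M)
    {w₀ : fieldBar (M₁ * q) M H ≃ₐ[Qb] fieldBar (M₁ * q) M H} (hw₀ : IsWAt (M₁ * q) M H q w₀)
    (hat : ∀ c : (ZMod M)ˣ, IsAtR M q c → c ∈ pmH H)
    {d : ℕ} (hd : Nat.Coprime d (6 * (M₁ * q)))
    {k : ℕ} (ψ : Fin k → ((ZMod M)ˣ →* (↥(mgcE A K₁))ˣ))
    (hψH : ∀ i, ∀ h ∈ H, ψ i h = 1) (hψ1 : ∀ i, ψ i (-1) = 1) (hψd : ∀ i c, ψ i c ^ d = 1)
    (hgen : Subring.closure (Set.range (rtk6diIncl (K := ↥(mgcE A K₁)) (M₁ * q) M H) ∪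
      Set.range fun i => (⟨rtk6n0Y ↥(mgcE A K₁) M H (ψ i), rtk6n0Y_mem hML⟩ :
        ↥(rtk6diF A K₁ (M₁ * q) M H))) = ⊤) :
    Rtk6c4uKummer hπ ιC hq hqM M H := by
  have hL : M₁ * q ≠ 0 := NeZero.ne _
  have hqd : ¬ q ∣ d := by
    intro h
    have h1 : q ∣ Nat.gcd d (6 * (M₁ * q)) :=
      Nat.dvd_gcd h (Dvd.dvd.mul_left (Dvd.intro_left M₁ rfl) 6)
    rw [hd] at h1
    exact hq.one_lt.ne' (Nat.dvd_one.1 h1)
  have hmem : ∀ i, rtk6n0Y ↥(mgcE A K₁) M H (ψ i) ^ d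
      ∈ modularFunctionFieldFullC ↥(mgcE A K₁) (M₁ * q) := fun i =>
    rtk6n0Y_pow_mem _ (rtk6unr_Y_mem (mgcE A K₁) (M₁ * q) M H hL hML (ψ i) d (hψd i))
  have hzero := fun i => rtk6n0_norm_zero_dvd hπ ιC hq hqM (ψ i) hA hqπ hML hqN hN3 hw₀
    (hψH i) (hψ1 i) hqd (hψd i)
    (fun c hc => rtk6c4u_psi_pmH (ψ i) (hψH i) (hψ1 i) (hat c hc)) (hmem i)
  choose n₀ hdvd hn₀ using hzero
  refine ⟨d, k, fun i => ⟨rtk6n0Y ↥(mgcE A K₁) M H (ψ i), rtk6n0Y_mem hML⟩,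
    fun i => ⟨rtk6n0Y ↥(mgcE A K₁) M H (ψ i) ^ d, hmem i⟩, n₀, hqd, fun i => ?_, fun i => ?_,
    fun i P => ?_, fun i => ?_, hn₀, hdvd, hgen⟩
  · exact Subtype.ext rfl
  · intro h
    have h1 : rtk6n0Y ↥(mgcE A K₁) M H (ψ i) ^ d = 0 :=
      congrArg (fun z : ↥(modularFunctionFieldFullC ↥(mgcE A K₁) (M₁ * q)) =>
        (z : LaurentSeries ↥(mgcE A K₁))) h
    exact rtk6n0Y_ne_zero hN3 (hψH i) (hψ1 i) (eq_zero_of_pow_eq_zero h1)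
  · exact rtk6unr_nf (mgcE A K₁) (M₁ * q) M H hL hML d hd _
      (rtk6n0Y ↥(mgcE A K₁) M H (ψ i)) (rtk6n0Y_mem hML) rfl P
  · exact rtk6n0_norm_inf hπ ιC hq hqM (ψ i) hN3 (hψH i) (hψ1 i) d (hmem i)

/-- the same with the generation in `Algebra.adjoin` form -/
theorem rtk6c4u_kummer_of_psi_adjoin [NeZero M] (hA : A.LiesOverPrime q)
    (hqπ : Associated ((q : ℕ) : ↥(mgcA A K₁)) π)
    (hML : M ∣ M₁ * q) (hqN : q ∣ M) (hN3 : 3 ≤ M)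
    {w₀ : fieldBar (M₁ * q) M H ≃ₐ[Qb] fieldBar (M₁ * q) M H} (hw₀ : IsWAt (M₁ * q) M H q w₀)
    (hat : ∀ c : (ZMod M)ˣ, IsAtR M q c → c ∈ pmH H)
    {d : ℕ} (hd : Nat.Coprime d (6 * (M₁ * q)))
    {k : ℕ} (ψ : Fin k → ((ZMod M)ˣ →* (↥(mgcE A K₁))ˣ))
    (hψH : ∀ i, ∀ h ∈ H, ψ i h = 1) (hψ1 : ∀ i, ψ i (-1) = 1) (hψd : ∀ i c, ψ i c ^ d = 1)
    (hgen : letI := rtk6c4uAlg (mgcE A K₁) (M₁ * q) M H
      Algebra.adjoin ↥(modularFunctionFieldFullC ↥(mgcE A K₁) (M₁ * q))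
        (Set.range fun i => (⟨rtk6n0Y ↥(mgcE A K₁) M H (ψ i), rtk6n0Y_mem hML⟩ :
          ↥(fieldC ↥(mgcE A K₁) (M₁ * q) M H))) = ⊤) :
    Rtk6c4uKummer hπ ιC hq hqM M H := by
  letI := rtk6c4uAlg (mgcE A K₁) (M₁ * q) M H
  exact rtk6c4u_kummer_of_psi hπ ιC hq hqM M H hA hqπ hML hqN hN3 hw₀ hat hd ψ hψH hψ1 hψd
    (rtk6gi_closure_of_adjoin _ hgen)

end Concrete

end Fermat.Agent.RT.K6

end
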