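/-
K-machine, piece K6, piece **C4-U-inst, half (A)** (helper37), part 3: (G-et) on the chart `j`
in the case (U), from the characters (K1) and the generation (K2).

* `rtk6c4u_three_le` : `3 ≤ M` from `q ∣ M`, `4 ∣ M₁ q`, `q ∤ M₁`;
* `rtk6c4u_kummer_of_K` : `Rtk6c4uKummer` from (K1) + (K2) (`w` from piece B);
* `rtk6c4u_get_J_of_K` : `Rtk6c4uGet π M H (bgJ)` from (K1) + (K2).
-/
import Fermat.Agent.RT.K6.C4UGet
import Fermat.Agent.RT.K6.N0Final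
import Fermat.Agent.RT.K6.EInstRig

set_option autoImplicit false
set_option linter.style.haveILetI false
set_option linter.unusedSectionVars false
set_option linter.unusedVariables false
set_option linter.style.longLine false
set_option synthInstance.maxHeartbeats 400000
set_option maxHeartbeats 1000000

noncomputable section

namespace Fermat.Agent.RT.K6

open ModularCurve AlgebraicCurve Fermat.Agent.ES Fermat.Agent.ES.G2 Fermat.Agent.INJ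
open Fermat.Agent.UNIP Fermat.Agent.STB Fermat.Agent.ES1 Fermat.Agent.ES1.G2 Fermat.Agent.AL
  IntermediateField

/-- `q ≠ 2` at a rigid level -/
theorem rtk6c4u_ne_two {q M₁ : ℕ} (hqM : ¬ q ∣ M₁) (h4 : 4 ∣ M₁ * q) : q ≠ 2 := by
  rintro rfl
  apply hqM
  omega

/-- `3 ≤ M` from `q ∣ M`, `q` an odd prime -/
theorem rtk6c4u_three_le {q M₁ M : ℕ} (hq : q.Prime) (hqM' : q ∣ M) (hM0 : M ≠ 0)
    (hqM : ¬ q ∣ M₁) (h4 : 4 ∣ M₁ * q) : 3 ≤ M := by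
  have h2 := rtk6c4u_ne_two hqM h4
  have h3 : 3 ≤ q := by
    have := hq.two_le
    omega
  exact h3.trans (Nat.le_of_dvd (Nat.pos_of_ne_zero hM0) hqM')

section Concrete

variable {A : ValuationSubring Qb} {K₁ : IntermediateField ℚ Qb}
  [IsDiscreteValuationRing ↥(mgcA A K₁)] {π : ↥(mgcA A K₁)} (hπ : Irreducible π)
  (ιC : ↥(mgcE A K₁) →+* ℂ) {q M₁ : ℕ} [NeZero q] [NeZero M₁] [NeZero (M₁ * q)]
  (hq : q.Prime) (hqM : ¬ q ∣ M₁) (M : ℕ) (H : Subgroup (ZMod M)ˣ)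

/-- **The Kummer data of the case (U)** from (K1) the characters and (K2) the generation. -/
theorem rtk6c4u_kummer_of_K [NeZero M] (hA : A.LiesOverPrime q)
    (hqπ : Associated ((q : ℕ) : ↥(mgcA A K₁)) π)
    (hML : M ∣ M₁ * q) (hqN : q ∣ M) (h4 : 4 ∣ M₁ * q)
    (hat : ∀ c : (ZMod M)ˣ, IsAtR M q c → c ∈ pmH H)
    (htame : IsTameAt (M₁ * q) M q H)
    (hK1 : ∀ d : ℕ, Nat.Coprime d (6 * (M₁ * q)) → (∀ c : (ZMod M)ˣ, c ^ d ∈ pmH H) →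
      ∃ (k : ℕ) (ψ : Fin k → ((ZMod M)ˣ →* (↥(mgcE A K₁))ˣ)),
        (∀ i, ∀ h ∈ H, ψ i h = 1) ∧ (∀ i, ψ i (-1) = 1) ∧ (∀ i c, ψ i c ^ d = 1) ∧
        (∀ c, (∀ i, ψ i c = 1) → c ∈ pmH H))
    (hK2 : ∀ (d k : ℕ) (ψ : Fin k → ((ZMod M)ˣ →* (↥(mgcE A K₁))ˣ)), d ≠ 0 →
      (∀ i, ∀ h ∈ H, ψ i h = 1) → (∀ i, ψ i (-1) = 1) → (∀ i c, ψ i c ^ d = 1) →
      (∀ c, (∀ i, ψ i c = 1) → c ∈ pmH H) →
      letI := rtk6c4uAlg (mgcE A K₁) (M₁ * q) M H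
      Algebra.adjoin ↥(modularFunctionFieldFullC ↥(mgcE A K₁) (M₁ * q))
        (Set.range fun i => (⟨rtk6n0Y ↥(mgcE A K₁) M H (ψ i), rtk6n0Y_mem hML⟩ :
          ↥(fieldC ↥(mgcE A K₁) (M₁ * q) M H))) = ⊤) :
    Rtk6c4uKummer hπ ιC hq hqM M H := by
  have hM0 : M ≠ 0 := NeZero.ne M
  have hN3 := rtk6c4u_three_le hq hqN hM0 hqM h4
  obtain ⟨w₀, hw₀⟩ := rtk6n0b_exists_w (H := H) hq hqM hML hqN
    (rtk6ei_starStable_of_hat hM0 hqN hat)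
  obtain ⟨d, hd, hdH⟩ := htame
  obtain ⟨k, ψ, hψH, hψ1, hψd, hfaith⟩ := hK1 d hd hdH
  have hd0 : d ≠ 0 := by
    rintro rfl
    rw [Nat.coprime_zero_left] at hd
    have := hq.two_le
    have h1 : q ∣ 6 * (M₁ * q) := Dvd.dvd.mul_left (Dvd.intro_left M₁ rfl) 6
    rw [hd] at h1
    exact hq.one_lt.ne' (Nat.dvd_one.1 h1)
  exact rtk6c4u_kummer_of_psi_adjoin hπ ιC hq hqM M H hA hqπ hML hqN hN3 hw₀ hat hd ψ hψH hψ1
    hψd (hK2 d k ψ hd0 hψH hψ1 hψd hfaith)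

include hπ ιC hq hqM in
/-- **(G-et) on the chart `j`, case (U)**, from (K1) + (K2). -/
theorem rtk6c4u_get_J_of_K [NeZero M] [Normal ℚ K₁] (hA : A.LiesOverPrime q)
    (hqπ : Associated ((q : ℕ) : ↥(mgcA A K₁)) π)
    (hML : M ∣ M₁ * q) (hqN : q ∣ M) (h4 : 4 ∣ M₁ * q)
    (hat : ∀ c : (ZMod M)ˣ, IsAtR M q c → c ∈ pmH H)
    (htame : IsTameAt (M₁ * q) M q H)
    (hK1 : ∀ d : ℕ, Nat.Coprime d (6 * (M₁ * q)) → (∀ c : (ZMod M)ˣ, c ^ d ∈ pmH H) →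
      ∃ (k : ℕ) (ψ : Fin k → ((ZMod M)ˣ →* (↥(mgcE A K₁))ˣ)),
        (∀ i, ∀ h ∈ H, ψ i h = 1) ∧ (∀ i, ψ i (-1) = 1) ∧ (∀ i c, ψ i c ^ d = 1) ∧
        (∀ c, (∀ i, ψ i c = 1) → c ∈ pmH H))
    (hK2 : ∀ (d k : ℕ) (ψ : Fin k → ((ZMod M)ˣ →* (↥(mgcE A K₁))ˣ)), d ≠ 0 →
      (∀ i, ∀ h ∈ H, ψ i h = 1) → (∀ i, ψ i (-1) = 1) → (∀ i c, ψ i c ^ d = 1) →
      (∀ c, (∀ i, ψ i c = 1) → c ∈ pmH H) →
      letI := rtk6c4uAlg (mgcE A K₁) (M₁ * q) M H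
      Algebra.adjoin ↥(modularFunctionFieldFullC ↥(mgcE A K₁) (M₁ * q))
        (Set.range fun i => (⟨rtk6n0Y ↥(mgcE A K₁) M H (ψ i), rtk6n0Y_mem hML⟩ :
          ↥(fieldC ↥(mgcE A K₁) (M₁ * q) M H))) = ⊤) :
    Rtk6c4uGet π M H (bgJ ↥(mgcE A K₁) (M₁ * q)) := by
  have rigid : (q ≠ 2 → 4 ∣ M₁) ∧ (q = 2 → 9 ∣ M₁) := by
    have hq2 := rtk6c4u_ne_two hqM h4
    refine ⟨fun _ => ?_, fun h => absurd h hq2⟩
    have hodd : Nat.Coprime 4 q := by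
      have h2q : Nat.Coprime 2 q := (Nat.coprime_primes Nat.prime_two hq).mpr (Ne.symm hq2)
      exact Nat.Coprime.pow_left 2 h2q
    exact (Nat.Coprime.dvd_mul_right hodd).mp h4
  exact rtk6c4u_get_J hπ ιC hq hqM M H hA hqπ rigid
    (rtk6c4u_kummer_of_K hπ ιC hq hqM M H hA hqπ hML hqN h4 hat htame hK1 hK2)

end Concrete

end Fermat.Agent.RT.K6

end
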