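/-
K-machine, piece K6, piece **C4-U-inst (A), (K2)** (helper81): GENERATION of
`F = fieldC K L M H` over the `Γ₀(L)`-field `F₀ = modularFunctionFieldFullC K L` by the
NORMALISED Kummer generators `rtk6n0Y K M H (ψ i)` (`RT/K6/N0Norm.lean`), in ALGEBRA form
(`Algebra.adjoin F₀ (range y) = ⊤`), for a family of characters `ψ i`, trivial on `±H`, of
exponent dividing `d ≠ 0`, jointly faithful on `(ℤ/M)ˣ / ±H`.

From helper36's `rtk6d0_gen` (`RT/K6/D0Gal.lean`, field form for the resolvents `rtk6d0Y`) and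
`rtk6d0_pow_mem_full` (the Kummer elements lie in `F₀`).

* `rtk6c4uk_mem_adjoin` : every element of `F` lies in `IntermediateField.adjoin F₀ (range y)`;
* `rtk6c4uk_field_adjoin_eq_top` : `IntermediateField.adjoin F₀ (range y) = ⊤`;
* `rtk6c4uk_isIntegral` : the generators are integral over `F₀`;
* `rtk6c4uk_gen` : `Algebra.adjoin F₀ (range y) = ⊤`, any algebra structure with
  `algebraMap = rtk6diIncl`;
* `rtk6c4uk_gen_alg` : the same for `rtk6c4uAlg K₀ L M H`, `K₀ : IntermediateField ℚ Qb`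
  (the shape of helper37's note);
* `rtk6c4uk_subring_closure` : `Subring.closure (range rtk6diIncl ∪ range y) = ⊤`.
-/
import Fermat.Agent.RT.K6.D0Gal
import Fermat.Agent.RT.K6.N0Norm
import Fermat.Agent.RT.K6.C4UInst

set_option autoImplicit false
set_option linter.style.haveILetI false
set_option linter.unusedSectionVars false
set_option linter.unusedVariables false
set_option linter.style.longLine false

noncomputable section

namespace Fermat.Agent.RT.K6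

open HahnSeries ModularCurve AlgebraicCurve Polynomial IntermediateField
open Fermat.Agent.ES Fermat.Agent.ES1

section Gen

variable {K : Type} [Field K] [CharZero K] [Algebra.IsAlgebraic ℚ K]
  {L M : ℕ} [NeZero M] {H : Subgroup (ZMod M)ˣ}
  [Algebra (modularFunctionFieldFullC K L) (fieldC K L M H)]

/-- the generators are integral over the `Γ₀(L)`-field -/
theorem rtk6c4uk_isIntegral
    (halg : ∀ z : modularFunctionFieldFullC K L,
      algebraMap (modularFunctionFieldFullC K L) (fieldC K L M H) z = rtk6diIncl L M H z)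
    (ψ : (ZMod M)ˣ →* Kˣ) (hL : L ≠ 0) (hML : M ∣ L)
    {d : ℕ} (hd0 : d ≠ 0) (hψd : ∀ c, ψ c ^ d = 1) :
    IsIntegral (modularFunctionFieldFullC K L)
      (⟨rtk6n0Y K M H ψ, rtk6n0Y_mem hML⟩ : fieldC K L M H) := by
  apply IsIntegral.of_pow (Nat.pos_of_ne_zero hd0)
  have hmem : rtk6n0Y K M H ψ ^ d ∈ modularFunctionFieldFullC K L :=
    rtk6n0Y_pow_mem _ (rtk6d0_pow_mem_full K H ψ hL hML hψd)
  have h1 : (⟨rtk6n0Y K M H ψ, rtk6n0Y_mem hML⟩ : fieldC K L M H) ^ d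
      = algebraMap (modularFunctionFieldFullC K L) (fieldC K L M H)
          ⟨rtk6n0Y K M H ψ ^ d, hmem⟩ := by
    rw [halg]
    apply Subtype.ext
    rw [rtk6diIncl_coe]
    rfl
  rw [h1]
  exact isIntegral_algebraMap

/-- every element of `F` lies in the field generated over `F₀` by the normalised Kummer
generators -/
theorem rtk6c4uk_mem_adjoin
    (halg : ∀ z : modularFunctionFieldFullC K L,
      algebraMap (modularFunctionFieldFullC K L) (fieldC K L M H) z = rtk6diIncl L M H z)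
    {ι : Type*} (ψ : ι → ((ZMod M)ˣ →* Kˣ)) (hL : L ≠ 0) (hML : M ∣ L) (hM : 3 ≤ M)
    (hψH : ∀ i, ∀ h ∈ H, ψ i h = 1) (hψ1 : ∀ i, ψ i (-1) = 1)
    (hfaith : ∀ c : (ZMod M)ˣ, (∀ i, ψ i c = 1) → c ∈ pmH H)
    (x : fieldC K L M H) :
    x ∈ IntermediateField.adjoin (modularFunctionFieldFullC K L)
      (Set.range fun i => (⟨rtk6n0Y K M H (ψ i), rtk6n0Y_mem hML⟩ : fieldC K L M H)) := by
  set T := IntermediateField.adjoin (modularFunctionFieldFullC K L)
      (Set.range fun i => (⟨rtk6n0Y K M H (ψ i), rtk6n0Y_mem hML⟩ : fieldC K L M H)) with hT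
  have hgen := rtk6d0_gen (K := K) (L := L) (H := H) ψ hL hML hM hψH hψ1
    (fun c hc => es1rc_mem_pmH_iff.mp (hfaith c hc))
  -- the image of `T` in `K((q))` contains the field generated by `F₀` and the resolvents
  have key : ∀ z ∈ IntermediateField.adjoin K
      ((modularFunctionFieldFullC K L : Set (LaurentSeries K)) ∪
        Set.range fun i => rtk6d0Y K M H ⊤ (ψ i)),
      ∃ t ∈ T, ((t : fieldC K L M H) : LaurentSeries K) = z := by
    intro z hz
    have hF₀ : ∀ w : modularFunctionFieldFullC K L,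
        ∃ t ∈ T, ((t : fieldC K L M H) : LaurentSeries K) = (w : LaurentSeries K) := by
      intro w
      refine ⟨algebraMap (modularFunctionFieldFullC K L) (fieldC K L M H) w,
        T.algebraMap_mem w, ?_⟩
      rw [halg, rtk6diIncl_coe]
    induction hz using IntermediateField.adjoin_induction with
    | mem z hz =>
      rcases hz with hz | ⟨i, rfl⟩
      · exact hF₀ ⟨z, hz⟩
      · -- `y = n₀ · y′`
        obtain ⟨t, ht, hte⟩ := hF₀ (algebraMap K (modularFunctionFieldFullC K L)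
          ((rtk6d0N M H ⊤ : ℕ) : K))
        refine ⟨t * ⟨rtk6n0Y K M H (ψ i), rtk6n0Y_mem hML⟩,
          T.mul_mem ht (IntermediateField.subset_adjoin _ _ ⟨i, rfl⟩), ?_⟩
        show ((t : fieldC K L M H) : LaurentSeries K) * rtk6n0Y K M H (ψ i)
          = rtk6d0Y K M H ⊤ (ψ i)
        rw [hte, ← rtk6n0Y_mul (K := K) (N := M) (H := H) (ψ := ψ i),
          ← LaurentSeries.algebraMap_apply K]
        rfl
    | algebraMap k =>
      obtain ⟨t, ht, hte⟩ := hF₀ (algebraMap K (modularFunctionFieldFullC K L) k)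
      exact ⟨t, ht, hte⟩
    | add z₁ z₂ _ _ h₁ h₂ =>
      obtain ⟨t₁, ht₁, rfl⟩ := h₁
      obtain ⟨t₂, ht₂, rfl⟩ := h₂
      exact ⟨t₁ + t₂, T.add_mem ht₁ ht₂, rfl⟩
    | inv z _ h =>
      obtain ⟨t, ht, rfl⟩ := h
      exact ⟨t⁻¹, T.inv_mem ht, rfl⟩
    | mul z₁ z₂ _ _ h₁ h₂ =>
      obtain ⟨t₁, ht₁, rfl⟩ := h₁
      obtain ⟨t₂, ht₂, rfl⟩ := h₂
      exact ⟨t₁ * t₂, T.mul_mem ht₁ ht₂, rfl⟩
  obtain ⟨t, ht, hte⟩ := key (x : LaurentSeries K) (hgen x.2)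
  have : t = x := Subtype.ext hte
  rw [← this]
  exact ht

/-- **(K2), field form**: `F = F₀(y′_i)`. -/
theorem rtk6c4uk_field_adjoin_eq_top
    (halg : ∀ z : modularFunctionFieldFullC K L,
      algebraMap (modularFunctionFieldFullC K L) (fieldC K L M H) z = rtk6diIncl L M H z)
    {ι : Type*} (ψ : ι → ((ZMod M)ˣ →* Kˣ)) (hL : L ≠ 0) (hML : M ∣ L) (hM : 3 ≤ M)
    (hψH : ∀ i, ∀ h ∈ H, ψ i h = 1) (hψ1 : ∀ i, ψ i (-1) = 1)
    (hfaith : ∀ c : (ZMod M)ˣ, (∀ i, ψ i c = 1) → c ∈ pmH H) :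
    IntermediateField.adjoin (modularFunctionFieldFullC K L)
      (Set.range fun i => (⟨rtk6n0Y K M H (ψ i), rtk6n0Y_mem hML⟩ : fieldC K L M H)) = ⊤ := by
  rw [eq_top_iff]
  rintro x -
  exact rtk6c4uk_mem_adjoin halg ψ hL hML hM hψH hψ1 hfaith x

/-- **(K2), algebra form**: `F = F₀[y′_i]`, for any algebra structure with
`algebraMap = rtk6diIncl`. -/
theorem rtk6c4uk_gen
    (halg : ∀ z : modularFunctionFieldFullC K L,
      algebraMap (modularFunctionFieldFullC K L) (fieldC K L M H) z = rtk6diIncl L M H z)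
    {ι : Type*} (ψ : ι → ((ZMod M)ˣ →* Kˣ)) (hL : L ≠ 0) (hML : M ∣ L) (hM : 3 ≤ M)
    (hψH : ∀ i, ∀ h ∈ H, ψ i h = 1) (hψ1 : ∀ i, ψ i (-1) = 1)
    {d : ℕ} (hd0 : d ≠ 0) (hψd : ∀ i c, ψ i c ^ d = 1)
    (hfaith : ∀ c : (ZMod M)ˣ, (∀ i, ψ i c = 1) → c ∈ pmH H) :
    Algebra.adjoin (modularFunctionFieldFullC K L)
      (Set.range fun i => (⟨rtk6n0Y K M H (ψ i), rtk6n0Y_mem hML⟩ : fieldC K L M H)) = ⊤ := by
  have h1 := IntermediateField.adjoin_toSubalgebra_of_isAlgebraic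
    (F := modularFunctionFieldFullC K L) (E := fieldC K L M H)
    (S := Set.range fun i => (⟨rtk6n0Y K M H (ψ i), rtk6n0Y_mem hML⟩ : fieldC K L M H))
    (by
      rintro x ⟨i, rfl⟩
      exact (rtk6c4uk_isIntegral halg (ψ i) hL hML hd0 (hψd i)).isAlgebraic)
  rw [← h1, rtk6c4uk_field_adjoin_eq_top halg ψ hL hML hM hψH hψ1 hfaith,
    IntermediateField.top_toSubalgebra]

end Gen

section Conc

open Fermat.Agent.ES.G2

variable (K₀ : IntermediateField ℚ Qb) {L M : ℕ} [NeZero M] (H : Subgroup (ZMod M)ˣ)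

/-- **(K2)** for the algebra structure `rtk6c4uAlg K₀ L M H` (`F₀ → F` the inclusion of the
`Γ₀(L)`-field), `K₀` any intermediate field of `ℚ̄ / ℚ`. -/
theorem rtk6c4uk_gen_alg
    {ι : Type*} (ψ : ι → ((ZMod M)ˣ →* (↥K₀)ˣ)) (hL : L ≠ 0) (hML : M ∣ L) (hM : 3 ≤ M)
    (hψH : ∀ i, ∀ h ∈ H, ψ i h = 1) (hψ1 : ∀ i, ψ i (-1) = 1)
    {d : ℕ} (hd0 : d ≠ 0) (hψd : ∀ i c, ψ i c ^ d = 1)
    (hfaith : ∀ c : (ZMod M)ˣ, (∀ i, ψ i c = 1) → c ∈ pmH H) :
    letI := rtk6c4uAlg K₀ L M H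
    Algebra.adjoin ↥(modularFunctionFieldFullC ↥K₀ L)
      (Set.range fun i => (⟨rtk6n0Y ↥K₀ M H (ψ i), rtk6n0Y_mem hML⟩ :
        ↥(fieldC ↥K₀ L M H))) = ⊤ := by
  letI := rtk6c4uAlg K₀ L M H
  haveI : Algebra.IsAlgebraic ℚ Qb := AlgebraicClosure.isAlgebraic ℚ
  haveI : Algebra.IsAlgebraic ℚ ↥K₀ :=
    Algebra.IsAlgebraic.of_injective K₀.val Subtype.val_injective
  exact rtk6c4uk_gen (K := ↥K₀) (L := L) (M := M) (H := H) (rtk6c4uAlg_algebraMap K₀ L M H)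
    ψ hL hML hM hψH hψ1 hd0 hψd hfaith

/-- **(K2), subring form**: `F` is generated as a ring by the `Γ₀(L)`-field and the normalised
Kummer generators. -/
theorem rtk6c4uk_subring_closure
    {ι : Type*} (ψ : ι → ((ZMod M)ˣ →* (↥K₀)ˣ)) (hL : L ≠ 0) (hML : M ∣ L) (hM : 3 ≤ M)
    (hψH : ∀ i, ∀ h ∈ H, ψ i h = 1) (hψ1 : ∀ i, ψ i (-1) = 1)
    {d : ℕ} (hd0 : d ≠ 0) (hψd : ∀ i c, ψ i c ^ d = 1)
    (hfaith : ∀ c : (ZMod M)ˣ, (∀ i, ψ i c = 1) → c ∈ pmH H) :
    Subring.closure (Set.range (rtk6diIncl (K := ↥K₀) L M H) ∪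
      Set.range fun i => (⟨rtk6n0Y ↥K₀ M H (ψ i), rtk6n0Y_mem hML⟩ :
        ↥(fieldC ↥K₀ L M H))) = ⊤ := by
  letI := rtk6c4uAlg K₀ L M H
  have h := rtk6c4uk_gen_alg K₀ H ψ hL hML hM hψH hψ1 hd0 hψd hfaith
  rw [← Subalgebra.toSubring_injective.eq_iff, Algebra.adjoin_eq_ring_closure] at h
  exact h

end Conc

end Fermat.Agent.RT.K6
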