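/-
K-machine, piece K6, **CASE (U), CLOSED TERM** (helper81): `rtk6uf_stmtUnipHRig : StmtUnipHRig`
and `rtk6uf_geomUnip : StmtRtk6GeomUnip`, with NO hypotheses.

At the unramified level `K₁′ = rtk6ebK q 1`, uniformizer `ϖ₁ ~ q`:

* the Kummer data `Rtk6c4uKummer` (helper37, `rtk6c4u_kummer_of_K`) from (K1) the characters
  (helper18, `rtk6c4uc_characters`) and (K2) the generation (`rtk6c4uk_gen_alg`);
* (G-et) on the chart `j` : helper37's `rtk6c4u_get_J`;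
* (G-et) on the chart `1 / j` : `rtk6uf_get_Jinv`, the twin of `rtk6c4u_get_J` with helper74's
  `rtk6giki_et_family` (`RT/K6/GenInstKInv.lean`);
* the thin dichotomies `rtk6c4u_thin_J`, `rtk6c4b_thin_Jinv`, the dichotomy (A)
  `rtk6c4u_nodeAt_J`, `rtk6c4u_nodeAt_Jinv`, and the top half `rtk6c4b_stmtUnipHRig_of_get`.
-/
import Fermat.Agent.RT.K6.C4InstBUGet
import Fermat.Agent.RT.K6.C4UGetFinal
import Fermat.Agent.RT.K6.C4UKum
import Fermat.Agent.RT.K6.C4UKumChar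
import Fermat.Agent.RT.K6.GenInstKInv

set_option autoImplicit false
set_option linter.style.haveILetI false
set_option linter.unusedSectionVars false
set_option linter.unusedVariables false
set_option linter.style.longLine false
set_option synthInstance.maxHeartbeats 400000
set_option maxHeartbeats 1000000

noncomputable section

namespace Fermat.Agent.RT.K6

open ModularCurve AlgebraicCurve Fermat.Agent.ES Fermat.Agent.ES.G2 Fermat.Agent.INJ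
open Fermat.Agent.UNIP Fermat.Agent.STB Fermat.Agent.ES1 Fermat.Agent.ES1.G2 Fermat.Agent.AL
  IntermediateField

section Concrete

variable {A : ValuationSubring Qb} {K₁ : IntermediateField ℚ Qb}
  [IsDiscreteValuationRing ↥(mgcA A K₁)] {π : ↥(mgcA A K₁)} (hπ : Irreducible π)
  (ιC : ↥(mgcE A K₁) →+* ℂ) {q M₁ : ℕ} [NeZero q] [NeZero M₁] [NeZero (M₁ * q)]
  (hq : q.Prime) (hqM : ¬ q ∣ M₁) (M : ℕ) (H : Subgroup (ZMod M)ˣ)

/-- **The Kummer data of the case (U)**, unconditionally (level `K₁` unramified). -/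
theorem rtk6uf_kummer [NeZero M] (hA : A.LiesOverPrime q)
    (hqπ : Associated ((q : ℕ) : ↥(mgcA A K₁)) π)
    (hML : M ∣ M₁ * q) (hqN : q ∣ M) (h4 : 4 ∣ M₁ * q)
    (hat : ∀ c : (ZMod M)ˣ, IsAtR M q c → c ∈ pmH H)
    (htame : IsTameAt (M₁ * q) M q H) :
    Rtk6c4uKummer hπ ιC hq hqM M H :=
  rtk6c4u_kummer_of_K hπ ιC hq hqM M H hA hqπ hML hqN h4 hat htame
    (fun d hdc hdH => rtk6c4uc_characters hq hA le_sup_left H (NeZero.ne M) hdc
      (Dvd.intro_left M₁ rfl) hdH)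
    (fun d k ψ hd0 hψH hψ1 hψd hfaith =>
      rtk6c4uk_gen_alg (mgcE A K₁) H ψ (NeZero.ne (M₁ * q)) hML
        (rtk6c4u_three_le hq hqN (NeZero.ne M) hqM h4) hψH hψ1 hd0 hψd hfaith)

include hπ ιC hq hqM in
/-- **(G-et) on the chart `1 / j`** from the chart-free Kummer data. -/
theorem rtk6uf_get_Jinv [Normal ℚ K₁] (hA : A.LiesOverPrime q)
    (hqπ : Associated ((q : ℕ) : ↥(mgcA A K₁)) π)
    (rigid : (q ≠ 2 → 4 ∣ M₁) ∧ (q = 2 → 9 ∣ M₁))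
    (hk : Rtk6c4uKummer hπ ιC hq hqM M H) :
    Rtk6c4uGet π M H (bgJ ↥(mgcE A K₁) (M₁ * q))⁻¹ := by
  intro 𝔫₀
  obtain ⟨m, k, y, u, n₀, hqm, hyu, hu, hhor, hy₁, hn₀, hdvd, hgen⟩ := hk
  obtain ⟨φ, hφF⟩ := Fermat.Agent.Common.exists_isFrobeniusAt_of_liesOverPrime q hq A hA
  obtain ⟨S, hS, hSet, -, hyS⟩ := rtk6giki_et_family hπ ιC hq hqM
    (rtk6diIncl (K := ↥(mgcE A K₁)) (M₁ * q) M H) hA le_sup_left hφF
    (stb_stable_beta0_sup hφF.mem_decompositionSubgroup K₁) hqπ rigid m y u n₀ hyu hu hhor hy₁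
    hn₀ hdvd 𝔫₀
  refine ⟨m, S, rtk6c4u_natCast_not_mem hq hqπ hqm 𝔫₀, hS, hSet, ?_⟩
  refine rtk6gi_closure_top (rtk6diIncl (K := ↥(mgcE A K₁)) (M₁ * q) M H) y S (fun i => ?_) hgen
  obtain ⟨t, ht, c, -, h⟩ := hyS i
  exact ⟨t, ht, c, h⟩

include hπ ιC hq hqM in
/-- **(G-et) on both charts, case (U)**, unconditionally. -/
theorem rtk6uf_get [NeZero M] [Normal ℚ K₁] (hA : A.LiesOverPrime q)
    (hqπ : Associated ((q : ℕ) : ↥(mgcA A K₁)) π)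
    (hML : M ∣ M₁ * q) (hqN : q ∣ M) (h4 : 4 ∣ M₁ * q)
    (hat : ∀ c : (ZMod M)ˣ, IsAtR M q c → c ∈ pmH H)
    (htame : IsTameAt (M₁ * q) M q H) :
    Rtk6c4uGet π M H (bgJ ↥(mgcE A K₁) (M₁ * q)) ∧
      Rtk6c4uGet π M H (bgJ ↥(mgcE A K₁) (M₁ * q))⁻¹ := by
  have hk := rtk6uf_kummer hπ ιC hq hqM M H hA hqπ hML hqN h4 hat htame
  have rigid := rtk6c4b_rigid hq hqM h4
  exact ⟨rtk6c4u_get_J hπ ιC hq hqM M H hA hqπ rigid hk,
    rtk6uf_get_Jinv hπ ιC hq hqM M H hA hqπ rigid hk⟩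

end Concrete

/-- **CASE (U), CLOSED: `StmtUnipHRig`.** -/
theorem rtk6uf_stmtUnipHRig : StmtUnipHRig :=
  rtk6c4b_stmtUnipHRig_of_get
    (fun q M₁ _ _ _ M H hq hqM' hM0 hqM hML hat htame h4 A hA _ ϖ₁ hϖ₁ hass => by
      haveI : NeZero M := ⟨hM0⟩
      exact rtk6uf_get hϖ₁ (mgdIota (mgcE A (rtk6ebK q 1))) hq hqM M H hA hass hML hqM' h4
        hat htame)

/-- **CASE (U), CLOSED: `StmtRtk6GeomUnip`.** -/
theorem rtk6uf_geomUnip : StmtRtk6GeomUnip :=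
  rtk6c4b_geomUnip
    (fun q M₁ _ _ _ M H hq hqM' hM0 hqM hML hat htame h4 w₀ hw₀ A hA _ hcomm => by
      haveI : NeZero M := ⟨hM0⟩
      exact rtk6c4b_asm_of_get hq hqM' hM0 hqM hML h4 w₀ hw₀ hA hcomm
        (fun {ϖ₁} hϖ₁ hass => (rtk6uf_get hϖ₁ (mgdIota (mgcE A (rtk6ebK q 1))) hq hqM M H hA
          hass hML hqM' h4 hat htame).1)
        (fun {ϖ₁} hϖ₁ hass => (rtk6uf_get hϖ₁ (mgdIota (mgcE A (rtk6ebK q 1))) hq hqM M H hA
          hass hML hqM' h4 hat htame).2))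

end Fermat.Agent.RT.K6
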