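import Fermat.Agent.S15.LocDivPush

/-!
# RT-K6 / AUX, abstract part (helper94): descent of an operator identity on torsion classes
along a finite map of function fields of degree prime to the exponent

`φ : F → F'` a finite map of function fields over `K` (all places of degree one), `D = [F' : F]`,
`g, h` semilinear automorphisms of `F` and `g', h'` of `F'` intertwined by `φ`.

* `rtk6aux_pull_chi`  : `φ^*` commutes with the operator `(g − 1)(h g − 1)` (in the expanded form
  `g • h • g • x − g • x − h • g • x + x` of `RT/K6/Plan.lean`);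
* `rtk6aux_abs`       : if `(g' − 1)(h' g' − 1)` kills the `m`-torsion of `Pic⁰ F'` and `m` is prime
  to `D`, then `(g − 1)(h g − 1)` kills the `m`-torsion of `Pic⁰ F`
  (`D • z = φ_* φ^* z = 0` and `m • z = 0`).
-/

set_option autoImplicit false
set_option linter.unusedSectionVars false
set_option linter.style.haveILetI false

noncomputable section

open AlgebraicCurve AlgebraicCurve.SemilinearAut Module

namespace Fermat.Agent.RT.K6

open Fermat.Agent.ES Fermat.Agent.W1 Fermat.Agent.STB Fermat.Agent.S15.LD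

variable {K F F' : Type*} [Field K] [Field F] [Field F'] [Algebra K F] [Algebra K F']
  [HasPrincipalDivisors K F']

/-- the operator `(g − 1)(h g − 1)`, expanded -/
def rtk6auxChi (g h : SemilinearAut K F) (x : Pic0 K F) : Pic0 K F :=
  g • h • (g • x) - g • x - h • (g • x) + x

theorem rtk6aux_smul_nsmul (g : SemilinearAut K F) (m : ℕ) (x : Pic0 K F) :
    g • (m • x) = m • (g • x) :=
  map_nsmul (DistribSMul.toAddMonoidHom (Pic0 K F) g) m x

theorem rtk6auxChi_nsmul (g h : SemilinearAut K F) (m : ℕ) (x : Pic0 K F) :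
    rtk6auxChi g h (m • x) = m • rtk6auxChi g h x := by
  unfold rtk6auxChi
  rw [rtk6aux_smul_nsmul g, rtk6aux_smul_nsmul h, rtk6aux_smul_nsmul g, nsmul_add, nsmul_sub,
    nsmul_sub]

/-- `φ^*` commutes with `(g − 1)(h g − 1)` -/
theorem rtk6aux_pull_chi (φ : F →ₐ[K] F') (hφ : φ.toRingHom.IsIntegral)
    (hFI : FundamentalIdentityAlong K φ hφ)
    {g h : SemilinearAut K F} {g' h' : SemilinearAut K F'}
    (hg : IntertwinesAlong (φ : F →+* F') g g') (hh : IntertwinesAlong (φ : F →+* F') h h')
    (x : Pic0 K F) :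
    lvlPic0 φ hφ hFI (rtk6auxChi g h x) = rtk6auxChi g' h' (lvlPic0 φ hφ hFI x) := by
  unfold rtk6auxChi
  rw [map_add, map_sub, map_sub, lvlPic0_smul φ hφ hFI hg, lvlPic0_smul φ hφ hFI hh,
    lvlPic0_smul φ hφ hFI hg]

/-- **AUX, abstract**: descent of `(g − 1)(h g − 1) = 0` on `m`-torsion along a map of degree
prime to `m`. -/
theorem rtk6aux_abs
    (hres : ∀ v : Place K F, Function.Bijective (algebraMap K v.ResidueField))
    (hres' : ∀ v : Place K F', Function.Bijective (algebraMap K v.ResidueField))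
    (φ : F →ₐ[K] F') (hφ : φ.toRingHom.IsIntegral) (hFI : FundamentalIdentityAlong K φ hφ)
    (hfin : FiniteAlong K φ) (hN : NormFormulaAlong K φ hfin)
    {g h : SemilinearAut K F} {g' h' : SemilinearAut K F'}
    (hg : IntertwinesAlong (φ : F →+* F') g g') (hh : IntertwinesAlong (φ : F →+* F') h h')
    (m : ℕ) (hcop : Nat.Coprime m (finrankAlong K φ))
    (H' : ∀ y : Pic0 K F', m • y = 0 → rtk6auxChi g' h' y = 0)
    (x : Pic0 K F) (hx : m • x = 0) : rtk6auxChi g h x = 0 := by
  set z := rtk6auxChi g h x with hz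
  have hmz : m • z = 0 := by
    rw [hz, ← rtk6auxChi_nsmul, hx]
    have h0 := rtk6auxChi_nsmul g h 0 x
    rwa [zero_nsmul, zero_nsmul] at h0
  have hpull : lvlPic0 φ hφ hFI z = 0 := by
    rw [hz, rtk6aux_pull_chi φ hφ hFI hg hh]
    apply H'
    rw [← map_nsmul, hx, map_zero]
  have hD : finrankAlong K φ • z = 0 := by
    rw [← ld_push_pull hres hres' φ hφ hFI hfin hN z, hpull, map_zero]
  -- Bezout
  have hb := Nat.gcd_eq_gcd_ab m (finrankAlong K φ)
  rw [hcop.gcd_eq_one] at hb
  have e1 : ((m : ℤ) * m.gcdA (finrankAlong K φ)) • z = 0 := by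
    rw [mul_comm, mul_zsmul, natCast_zsmul, hmz, zsmul_zero]
  have e2 : (((finrankAlong K φ : ℕ) : ℤ) * m.gcdB (finrankAlong K φ)) • z = 0 := by
    rw [mul_comm, mul_zsmul, natCast_zsmul, hD, zsmul_zero]
  have h1 : ((1 : ℕ) : ℤ) • z = 0 := by
    rw [hb, add_zsmul, e1, e2, add_zero]
  rwa [Nat.cast_one, one_zsmul] at h1

end Fermat.Agent.RT.K6
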