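import Fermat.Agent.RT.K6.PlanP
import Fermat.Agent.RT.K6.AuxAbs
import Fermat.Agent.ES1.HFinal
import Fermat.Agent.ES1.G2.DiamBar
import Fermat.Agent.ES1.Conj
import Fermat.Agent.ES1.DescentLevelH

/-!
# RT-K6 / AUX (helper94): (χ-J) at the rigid levels `4 ∣ L` implies (χ-J) at all levels,
for exponents prime to `6`

`F_H(L) = fieldBar L M H ⊆ F_H(L ℓ₀) = fieldBar (L * ℓ₀) M H` (subfields of `ℚ̄((q))`),
`φ = es1hAlpha L M H ℓ₀` the inclusion, `ℓ₀` a prime.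

* `rtk6aux_relfinrank` : `[F_H(L ℓ₀) : F_H(L)] = ℓ₀` if `ℓ₀ ∣ L`, `= ℓ₀ + 1` otherwise
  (Igusa's degree theorem and `StmtRelDegH`);
* `rtk6aux_intertwines_gal`, `rtk6aux_intertwines_diamond` : `φ` intertwines the arithmetic Galois
  action and the diamonds `δ_c` of the two levels;
* `ChiJAt L M H r m` : the statement (χ-J) of `RT/K6/Plan.lean` at one level and one exponent;
* `rtk6aux_step` : `ChiJAt (L ℓ₀) M H r m → ChiJAt L M H r m` for a prime `ℓ₀ ≠ r` with `m` prime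
  to `ℓ₀ (ℓ₀ + 1)`;
* `rtk6aux_four` : `ChiJAt (L * 2 * 2) M H r m → ChiJAt L M H r m` for `r ≠ 2`, `gcd (m, 6) = 1`;
* `stmtAux : StmtChiJRigid → StmtChiJ6` : **AUX**.  `StmtChiJRigid` is `StmtChiJ` restricted to
  the levels with `4 ∣ L`; `StmtChiJ6` is `StmtChiJ` for `r ≠ 2` and the exponents prime to `6`
  (the K-machine needs `m = pⁿ`, `p ≥ 5`, and odd primes `r`).
-/

set_option autoImplicit false
set_option linter.unusedSectionVars false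
set_option linter.style.haveILetI false

noncomputable section

open AlgebraicCurve AlgebraicCurve.SemilinearAut Module ModularCurve IntermediateField

namespace Fermat.Agent.RT.K6

open Fermat.Agent.ES Fermat.Agent.ES1 Fermat.Agent.ES1.G2 Fermat.Agent.W1 Fermat.Agent.STB
  Fermat.Agent.S15.LD

/-! ## The degree -/

/-- Igusa + tower law: `[F₀(N ℓ) : F₀(N)] = ℓ` for a prime `ℓ ∣ N` (over `ℚ̄`). -/
theorem rtk6aux_relfinrank_bar_dvd (N ℓ : ℕ) [NeZero N] [NeZero ℓ] (hℓ : ℓ.Prime)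
    (hℓN : ℓ ∣ N) :
    (modularFunctionFieldBar N).relfinrank (modularFunctionFieldBar (N * ℓ)) = ℓ := by
  show (laurentBaseChange (AlgebraicClosure ℚ) (modularFunctionFieldFull N)).relfinrank
    (laurentBaseChange (AlgebraicClosure ℚ) (modularFunctionFieldFull (N * ℓ))) = ℓ
  rw [Fermat.Agent.ES.G2.hdeg_laurentBaseChange_full,
    Fermat.Agent.ES.G2.hdeg_laurentBaseChange_full]
  have hN : ((N : ℕ) : AlgebraicClosure ℚ) ≠ 0 := Nat.cast_ne_zero.mpr (NeZero.ne N)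
  have hNℓ : ((N * ℓ : ℕ) : AlgebraicClosure ℚ) ≠ 0 := Nat.cast_ne_zero.mpr (NeZero.ne (N * ℓ))
  have h1 := Fermat.Agent.S28.relfinrank_full_eq_dedekindPsi (AlgebraicClosure ℚ) N hN
  have h2 := Fermat.Agent.S28.relfinrank_full_eq_dedekindPsi (AlgebraicClosure ℚ) (N * ℓ) hNℓ
  have hle1 : adjoin (AlgebraicClosure ℚ) {jqModC (AlgebraicClosure ℚ)} ≤
      modularFunctionFieldFullC (AlgebraicClosure ℚ) N :=
    Fermat.Agent.S28.UB.K0_le_full (AlgebraicClosure ℚ) N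
  have hle2 : modularFunctionFieldFullC (AlgebraicClosure ℚ) N ≤
      modularFunctionFieldFullC (AlgebraicClosure ℚ) (N * ℓ) :=
    Fermat.Agent.S28.UB.full_mono (AlgebraicClosure ℚ) (Dvd.intro _ rfl)
  have h3 := relfinrank_mul_relfinrank hle1 hle2
  have hψ : dedekindPsi (N * ℓ) = ℓ * dedekindPsi N := by
    rw [Nat.mul_comm]
    exact Fermat.Agent.S28.UB.psi_mul_of_dvd hℓ hℓN (NeZero.ne N)
  rw [h1, h2, hψ] at h3
  have hpos : dedekindPsi N ≠ 0 := by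
    intro h0
    rw [h0] at h1
    have hfin := Fermat.Agent.S28.relrank_full_lt_aleph0_of_ne_zero (AlgebraicClosure ℚ) N hN
    have hne := Fermat.Agent.S28.UB.relrank_ne_zero
      (adjoin (AlgebraicClosure ℚ) {jqModC (AlgebraicClosure ℚ)})
      (modularFunctionFieldFullC (AlgebraicClosure ℚ) N)
    rw [relfinrank_eq_toNat_relrank, Cardinal.toNat_eq_zero] at h1
    rcases h1 with h1 | h1
    · exact hne h1
    · exact absurd hfin (not_lt.mpr h1)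
  have h4 : dedekindPsi N * (modularFunctionFieldFullC (AlgebraicClosure ℚ) N).relfinrank
      (modularFunctionFieldFullC (AlgebraicClosure ℚ) (N * ℓ)) = dedekindPsi N * ℓ := by
    rw [h3, Nat.mul_comm]
  exact Nat.eq_of_mul_eq_mul_left (Nat.pos_of_ne_zero hpos) h4

/-- `[F₀(N ℓ) : F₀(N)]` for a prime `ℓ` -/
theorem rtk6aux_relfinrank_bar (N ℓ : ℕ) [NeZero N] [NeZero ℓ] (hℓ : ℓ.Prime) :
    (modularFunctionFieldBar N).relfinrank (modularFunctionFieldBar (N * ℓ)) =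
      if ℓ ∣ N then ℓ else ℓ + 1 := by
  split_ifs with h
  · exact rtk6aux_relfinrank_bar_dvd N ℓ hℓ h
  · exact Fermat.Agent.ES.G2.hdeg_relfinrank N ℓ hℓ h

variable (L M : ℕ) (H : Subgroup (ZMod M)ˣ)

/-- **the relative degree of `F_H(L ℓ)` over `F_H(L)`**, `ℓ` a prime -/
theorem rtk6aux_relfinrank (ℓ : ℕ) (hL : L ≠ 0) (hML : M ∣ L) (hℓ : ℓ.Prime) :
    (fieldBar L M H).relfinrank (fieldBar (L * ℓ) M H) = if ℓ ∣ L then ℓ else ℓ + 1 := by
  have : NeZero L := ⟨hL⟩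
  have : NeZero ℓ := ⟨hℓ.ne_zero⟩
  obtain ⟨d, hd0, hd⟩ := stmtRelDegH_of_diamond stmtDiamondH M H
  have h1 := hd L hL hML
  have h2 := hd (L * ℓ) (Nat.mul_ne_zero hL hℓ.ne_zero) (Dvd.dvd.mul_right hML ℓ)
  have h0 := rtk6aux_relfinrank_bar L ℓ hℓ
  have t1 := IntermediateField.relfinrank_mul_relfinrank
    (Fermat.Agent.ES.G2.hdeg_bar_le L ℓ) (dlh_bar_le_fieldBar (L * ℓ) M H)
  have t2 := IntermediateField.relfinrank_mul_relfinrank
    (dlh_bar_le_fieldBar L M H) (es1h_fieldBar_mono M H (dvd_mul_right L ℓ))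
  rw [h0, h2] at t1
  rw [h1, ← t1, mul_comm] at t2
  exact Nat.eq_of_mul_eq_mul_right (Nat.pos_of_ne_zero hd0) t2

/-- the degree along the inclusion -/
theorem rtk6aux_finrankAlong (ℓ : ℕ) (hL : L ≠ 0) (hML : M ∣ L) (hℓ : ℓ.Prime) :
    finrankAlong QbH (es1hAlpha L M H ℓ) = if ℓ ∣ L then ℓ else ℓ + 1 := by
  have h := Fermat.Agent.ES.G2.hdeg_finrank_inclusion
    (es1h_fieldBar_mono M H (dvd_mul_right L ℓ))
  rw [rtk6aux_relfinrank L M H ℓ hL hML hℓ] at h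
  exact h

/-! ## The inclusion intertwines Galois and the diamonds -/

theorem rtk6aux_intertwines_gal (ℓ : ℕ) (σ : QbH ≃ₐ[ℚ] QbH) :
    IntertwinesAlong ((es1hAlpha L M H ℓ : _ →ₐ[QbH] _) : fieldBar L M H →+* fieldBar (L * ℓ) M H)
      (arithmeticGalois (fieldQ L M H) σ) (arithmeticGalois (fieldQ (L * ℓ) M H) σ) := by
  intro x
  apply Subtype.ext
  show coeffMap (σ : QbH →+* QbH) ((es1hAlpha L M H ℓ x : _) : LaurentSeries QbH)
    = ((es1hAlpha L M H ℓ (arithmeticGalois (fieldQ L M H) σ • x) : _) : LaurentSeries QbH)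
  rw [coe_es1hAlpha, coe_es1hAlpha, coe_arithmeticGalois_smul]

variable {L M H}

theorem rtk6aux_diamond_comm (ℓ : ℕ) {c : (ZMod M)ˣ}
    {δ : fieldBar L M H ≃ₐ[QbH] fieldBar L M H}
    {δ' : fieldBar (L * ℓ) M H ≃ₐ[QbH] fieldBar (L * ℓ) M H}
    (h : IsDiamondH L M H c δ) (h' : IsDiamondH (L * ℓ) M H c δ') (x : fieldBar L M H) :
    δ' (es1hAlpha L M H ℓ x) = es1hAlpha L M H ℓ (δ x) := by
  have key : (δ' : fieldBar (L * ℓ) M H →ₐ[QbH] fieldBar (L * ℓ) M H).comp (es1hAlpha L M H ℓ)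
      = (es1hAlpha L M H ℓ).comp (δ : fieldBar L M H →ₐ[QbH] fieldBar L M H) := by
    refine IntermediateField.algHom_ext_of_eq_adjoin QbH (es1f_fieldBar_eq L M H) ?_
    intro y hyS
    have hmem : y ∈ fieldBar L M H := by
      rw [es1f_fieldBar_eq L M H]
      exact IntermediateField.subset_adjoin _ _ hyS
    show δ' (es1hAlpha L M H ℓ ⟨y, hmem⟩) = es1hAlpha L M H ℓ (δ ⟨y, hmem⟩)
    apply Subtype.ext
    rcases hyS with ⟨d, hd, hdL, hy⟩ | ⟨e, he, a, heL, hy⟩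
    · have e1 := h.fix_j d hdL ⟨y, hmem⟩ hy
      have e2 := h'.fix_j d (hdL.trans (dvd_mul_right L ℓ)) (es1hAlpha L M H ℓ ⟨y, hmem⟩)
        (by rw [coe_es1hAlpha]; exact hy)
      rw [e1, e2]
    · have e1 := h.map_s e a heL ⟨y, hmem⟩ hy
      have e2 := h'.map_s e a (heL.trans (dvd_mul_right L ℓ)) (es1hAlpha L M H ℓ ⟨y, hmem⟩)
        (by rw [coe_es1hAlpha]; exact hy)
      rw [e2, coe_es1hAlpha, e1]
  exact congrArg (fun φ : fieldBar L M H →ₐ[QbH] fieldBar (L * ℓ) M H => φ x) key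

theorem rtk6aux_intertwines_diamond (ℓ : ℕ) {c : (ZMod M)ˣ}
    {δ : fieldBar L M H ≃ₐ[QbH] fieldBar L M H}
    {δ' : fieldBar (L * ℓ) M H ≃ₐ[QbH] fieldBar (L * ℓ) M H}
    (h : IsDiamondH L M H c δ) (h' : IsDiamondH (L * ℓ) M H c δ') :
    IntertwinesAlong ((es1hAlpha L M H ℓ : _ →ₐ[QbH] _) : fieldBar L M H →+* fieldBar (L * ℓ) M H)
      (SemilinearAut.ofAlgAut δ) (SemilinearAut.ofAlgAut δ') := by
  intro x
  rw [ofAlgAut_smul, ofAlgAut_smul]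
  exact rtk6aux_diamond_comm ℓ h h' x

/-! ## (χ-J) at one level -/

variable (L M H)

/-- **(χ-J)** at the level `(L; M, H)`, the prime `r` and the exponent `m` -/
def ChiJAt (r m : ℕ) : Prop :=
  ∀ A : ValuationSubring QbH, A.LiesOverPrime r →
    ∀ σ ∈ A.inertiaSubgroupIn ℚ, ∀ c : (ZMod M)ˣ, IsCycAt M r σ c →
    ∀ δ : fieldBar L M H ≃ₐ[QbH] fieldBar L M H, IsDiamondH L M H c δ →
      ∀ x : JH L M H, m • x = 0 →
        σ • diamondJ δ (σ • x) - σ • x - diamondJ δ (σ • x) + x = 0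

/-- the expression of (χ-J) is the abstract operator -/
theorem rtk6aux_chi_eq (σ : QbH ≃ₐ[ℚ] QbH) (δ : fieldBar L M H ≃ₐ[QbH] fieldBar L M H)
    (x : JH L M H) :
    σ • diamondJ δ (σ • x) - σ • x - diamondJ δ (σ • x) + x =
      rtk6auxChi (arithmeticGalois (fieldQ L M H) σ) (SemilinearAut.ofAlgAut δ) x := rfl

/-- **AUX, one prime step**: (χ-J) descends from the level `L ℓ₀` to the level `L`, for a prime
`ℓ₀` and exponents prime to the degree. -/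
theorem rtk6aux_step (r m ℓ₀ : ℕ) (hL : L ≠ 0) (hML : M ∣ L) (hℓ₀ : ℓ₀.Prime)
    (hm : Nat.Coprime m (if ℓ₀ ∣ L then ℓ₀ else ℓ₀ + 1))
    (h : ChiJAt (L * ℓ₀) M H r m) : ChiJAt L M H r m := by
  intro A hA σ hσ c hc δ hδ x hx
  have hL' : L * ℓ₀ ≠ 0 := Nat.mul_ne_zero hL hℓ₀.ne_zero
  have hML' : M ∣ L * ℓ₀ := Dvd.dvd.mul_right hML ℓ₀
  obtain ⟨δ', hδ'⟩ := stmtDiamondBarH_of_diamond stmtDiamondH (L * ℓ₀) M H hL' hML' c
  have hF : Es1hFin L M H := es1hFin_all hL hML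
  have hF' : Es1hFin (L * ℓ₀) M H := es1hFin_all hL' hML'
  haveI : HasPrincipalDivisors QbH (fieldBar (L * ℓ₀) M H) := es1h_hasPrincipalDivisors hF'
  have hφ := es1h_integral (es1hAlpha L M H ℓ₀) hF hF'
  have hfin := es1h_finiteAlong (es1hAlpha L M H ℓ₀) hF hF'
  rw [rtk6aux_chi_eq]
  refine rtk6aux_abs (es1h_residue_bijective hF) (es1h_residue_bijective hF')
    (es1hAlpha L M H ℓ₀) hφ (es1h_fundamentalIdentityAlong (es1hAlpha L M H ℓ₀) hF hF')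
    hfin (es1h_normFormulaAlong (es1hAlpha L M H ℓ₀) hF hF')
    (rtk6aux_intertwines_gal L M H ℓ₀ σ) (rtk6aux_intertwines_diamond ℓ₀ hδ hδ') m ?_ ?_ x hx
  · rw [rtk6aux_finrankAlong L M H ℓ₀ hL hML hℓ₀]
    exact hm
  · intro y hy
    rw [← rtk6aux_chi_eq]
    exact h A hA σ hσ c hc δ' hδ' y hy

/-- **AUX, two steps**: from the level `4 L` to the level `L`, exponents prime to `6`. -/
theorem rtk6aux_four (r m : ℕ) (hL : L ≠ 0) (hML : M ∣ L) (hm : Nat.Coprime m 6)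
    (h : ChiJAt (L * 2 * 2) M H r m) : ChiJAt L M H r m := by
  have h2 : Nat.Coprime m 2 := Nat.Coprime.coprime_dvd_right (by norm_num : 2 ∣ 6) hm
  have h3 : Nat.Coprime m 3 := Nat.Coprime.coprime_dvd_right (by norm_num : 3 ∣ 6) hm
  have hc : ∀ L' : ℕ, Nat.Coprime m (if 2 ∣ L' then 2 else 2 + 1) := by
    intro L'
    split_ifs
    · exact h2
    · exact h3
  refine rtk6aux_step L M H r m 2 hL hML Nat.prime_two (hc L) ?_
  exact rtk6aux_step (L * 2) M H r m 2 (Nat.mul_ne_zero hL two_ne_zero)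
    (Dvd.dvd.mul_right hML 2) Nat.prime_two (hc (L * 2)) h

/-- **AUX, general auxiliary level** `2 ^ a * 3 ^ b`, exponents prime to `6`. -/
theorem rtk6aux_pow (r m : ℕ) (hm : Nat.Coprime m 6) (a b : ℕ) :
    ∀ L : ℕ, L ≠ 0 → M ∣ L → ChiJAt (L * 2 ^ a * 3 ^ b) M H r m → ChiJAt L M H r m := by
  have h2 : Nat.Coprime m 2 := Nat.Coprime.coprime_dvd_right (by norm_num : 2 ∣ 6) hm
  have h3 : Nat.Coprime m 3 := Nat.Coprime.coprime_dvd_right (by norm_num : 3 ∣ 6) hm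
  have h4 : Nat.Coprime m 4 := by
    have : (4 : ℕ) = 2 ^ 2 := by norm_num
    rw [this]
    exact Nat.Coprime.pow_right 2 h2
  have hc2 : ∀ L' : ℕ, Nat.Coprime m (if 2 ∣ L' then 2 else 2 + 1) := by
    intro L'
    split_ifs
    · exact h2
    · exact h3
  have hc3 : ∀ L' : ℕ, Nat.Coprime m (if 3 ∣ L' then 3 else 3 + 1) := by
    intro L'
    split_ifs
    · exact h3
    · exact h4
  induction b with
  | zero =>
    induction a with
    | zero =>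
      intro L _ _ h
      simpa using h
    | succ a iha =>
      intro L hL hML h
      refine rtk6aux_step L M H r m 2 hL hML Nat.prime_two (hc2 L) ?_
      refine iha (L * 2) (Nat.mul_ne_zero hL two_ne_zero) (Dvd.dvd.mul_right hML 2) ?_
      have e : L * 2 * 2 ^ a * 3 ^ 0 = L * 2 ^ (a + 1) * 3 ^ 0 := by ring
      rw [e]
      exact h
  | succ b ihb =>
    intro L hL hML h
    refine rtk6aux_step L M H r m 3 hL hML Nat.prime_three (hc3 L) ?_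
    refine ihb (L * 3) (Nat.mul_ne_zero hL three_ne_zero) (Dvd.dvd.mul_right hML 3) ?_
    have e : L * 3 * 2 ^ a * 3 ^ b = L * 2 ^ a * 3 ^ (b + 1) := by ring
    rw [e]
    exact h

/-! ## The statement of the piece -/

/-- (χ-J) at the rigid levels: `StmtChiJ` of `RT/K6/Plan.lean` with the extra hypothesis
`4 ∣ L` (no elliptic points). -/
def StmtChiJRigid : Prop :=
  ∀ (L M : ℕ) (H : Subgroup (ZMod M)ˣ) (r : ℕ), L ≠ 0 → M ∣ L → r.Prime → r ∣ M → ¬ r ^ 2 ∣ L →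
    IsStarStable M r H → 4 ∣ L →
    ∀ A : ValuationSubring QbH, A.LiesOverPrime r →
      ∀ m : ℕ, ¬ r ∣ m →
        ∀ σ ∈ A.inertiaSubgroupIn ℚ, ∀ c : (ZMod M)ˣ, IsCycAt M r σ c →
        ∀ δ : fieldBar L M H ≃ₐ[QbH] fieldBar L M H, IsDiamondH L M H c δ →
          ∀ x : JH L M H, m • x = 0 →
            σ • diamondJ δ (σ • x) - σ • x - diamondJ δ (σ • x) + x = 0

/-- (χ-J) for odd `r` and exponents prime to `6`: what the K-machine consumes
(`m = pⁿ`, `p ≥ 5`). -/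
def StmtChiJ6 : Prop :=
  ∀ (L M : ℕ) (H : Subgroup (ZMod M)ˣ) (r : ℕ), L ≠ 0 → M ∣ L → r.Prime → r ∣ M → ¬ r ^ 2 ∣ L →
    IsStarStable M r H → r ≠ 2 →
    ∀ A : ValuationSubring QbH, A.LiesOverPrime r →
      ∀ m : ℕ, ¬ r ∣ m → Nat.Coprime m 6 →
        ∀ σ ∈ A.inertiaSubgroupIn ℚ, ∀ c : (ZMod M)ˣ, IsCycAt M r σ c →
        ∀ δ : fieldBar L M H ≃ₐ[QbH] fieldBar L M H, IsDiamondH L M H c δ →
          ∀ x : JH L M H, m • x = 0 →
            σ • diamondJ δ (σ • x) - σ • x - diamondJ δ (σ • x) + x = 0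

/-- **AUX**: (χ-J) at the levels with `4 ∣ L` gives (χ-J) at all levels, for odd `r` and
exponents prime to `6`. -/
theorem stmtAux : StmtChiJRigid → StmtChiJ6 := by
  intro hR L M H r hL hML hr hrM hr2 hstar hr2' A hA m hrm hm6 σ hσ c hc δ hδ x hx
  have hL4 : L * 2 * 2 ≠ 0 := Nat.mul_ne_zero (Nat.mul_ne_zero hL two_ne_zero) two_ne_zero
  have hML4 : M ∣ L * 2 * 2 := Dvd.dvd.mul_right (Dvd.dvd.mul_right hML 2) 2
  have hcop : Nat.Coprime (r ^ 2) (2 * 2) := by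
    have h1 : Nat.Coprime r 2 := (Nat.coprime_primes hr Nat.prime_two).mpr hr2'
    exact Nat.Coprime.pow_left 2 (Nat.Coprime.mul_right h1 h1)
  have hr4 : ¬ r ^ 2 ∣ L * 2 * 2 := by
    intro h
    rw [mul_assoc] at h
    exact hr2 (hcop.dvd_of_dvd_mul_right h)
  have h4 : 4 ∣ L * 2 * 2 := ⟨L, by ring⟩
  have key : ChiJAt (L * 2 * 2) M H r m := fun A' hA' σ' hσ' c' hc' δ' hδ' y hy =>
    hR (L * 2 * 2) M H r hL4 hML4 hr hrM hr4 hstar h4 A' hA' m hrm σ' hσ' c' hc' δ' hδ' y hy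
  exact rtk6aux_four L M H r m hL hML hm6 key A hA σ hσ c hc δ hδ x hx

/-! ## The tame form (`RT/K6/PlanP.lean`) -/

theorem rtk6aux_isTameAt_four {L M r : ℕ} {H : Subgroup (ZMod M)ˣ} (h : IsTameAt L M r H) :
    IsTameAt (L * 2 * 2) M r H := by
  obtain ⟨d, hd, hc⟩ := h
  refine ⟨d, ?_, hc⟩
  have h6 : Nat.Coprime d 6 := Nat.Coprime.coprime_dvd_right (Dvd.intro _ rfl) hd
  have hL : Nat.Coprime d L := Nat.Coprime.coprime_dvd_right (Dvd.intro_left _ rfl) hd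
  have h2 : Nat.Coprime d 2 := Nat.Coprime.coprime_dvd_right (by norm_num : 2 ∣ 6) h6
  exact Nat.Coprime.mul_right h6 (Nat.Coprime.mul_right (Nat.Coprime.mul_right hL h2) h2)

/-- (χ-J), tame case, at the rigid levels: `StmtChiJP` of `RT/K6/PlanP.lean` with the extra
hypothesis `4 ∣ L` (no elliptic points). -/
def StmtChiJPRigid : Prop :=
  ∀ (L M : ℕ) (H : Subgroup (ZMod M)ˣ) (r : ℕ), L ≠ 0 → M ∣ L → r.Prime → r ∣ M → ¬ r ^ 2 ∣ L →
    IsStarStable M r H → IsTameAt L M r H → 4 ∣ L →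
    ∀ A : ValuationSubring QbH, A.LiesOverPrime r →
      ∀ m : ℕ, ¬ r ∣ m →
        ∀ σ ∈ A.inertiaSubgroupIn ℚ, ∀ c : (ZMod M)ˣ, IsCycAt M r σ c →
        ∀ δ : fieldBar L M H ≃ₐ[QbH] fieldBar L M H, IsDiamondH L M H c δ →
          ∀ x : JH L M H, m • x = 0 →
            σ • diamondJ δ (σ • x) - σ • x - diamondJ δ (σ • x) + x = 0

/-- (χ-J), tame case, for odd `r` and exponents prime to `6`. -/
def StmtChiJP6 : Prop :=
  ∀ (L M : ℕ) (H : Subgroup (ZMod M)ˣ) (r : ℕ), L ≠ 0 → M ∣ L → r.Prime → r ∣ M → ¬ r ^ 2 ∣ L →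
    IsStarStable M r H → IsTameAt L M r H → r ≠ 2 →
    ∀ A : ValuationSubring QbH, A.LiesOverPrime r →
      ∀ m : ℕ, ¬ r ∣ m → Nat.Coprime m 6 →
        ∀ σ ∈ A.inertiaSubgroupIn ℚ, ∀ c : (ZMod M)ˣ, IsCycAt M r σ c →
        ∀ δ : fieldBar L M H ≃ₐ[QbH] fieldBar L M H, IsDiamondH L M H c δ →
          ∀ x : JH L M H, m • x = 0 →
            σ • diamondJ δ (σ • x) - σ • x - diamondJ δ (σ • x) + x = 0

/-- **AUX, tame form**: (χ-J) at the tame levels with `4 ∣ L` gives (χ-J) at all tame levels,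
for odd `r` and exponents prime to `6`. -/
theorem stmtAuxP : StmtChiJPRigid → StmtChiJP6 := by
  intro hR L M H r hL hML hr hrM hr2 hstar htame hr2' A hA m hrm hm6 σ hσ c hc δ hδ x hx
  have hL4 : L * 2 * 2 ≠ 0 := Nat.mul_ne_zero (Nat.mul_ne_zero hL two_ne_zero) two_ne_zero
  have hML4 : M ∣ L * 2 * 2 := Dvd.dvd.mul_right (Dvd.dvd.mul_right hML 2) 2
  have hcop : Nat.Coprime (r ^ 2) (2 * 2) := by
    have h1 : Nat.Coprime r 2 := (Nat.coprime_primes hr Nat.prime_two).mpr hr2'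
    exact Nat.Coprime.pow_left 2 (Nat.Coprime.mul_right h1 h1)
  have hr4 : ¬ r ^ 2 ∣ L * 2 * 2 := by
    intro h
    rw [mul_assoc] at h
    exact hr2 (hcop.dvd_of_dvd_mul_right h)
  have h4 : 4 ∣ L * 2 * 2 := ⟨L, by ring⟩
  have key : ChiJAt (L * 2 * 2) M H r m := fun A' hA' σ' hσ' c' hc' δ' hδ' y hy =>
    hR (L * 2 * 2) M H r hL4 hML4 hr hrM hr4 hstar (rtk6aux_isTameAt_four htame) h4 A' hA' m hrm
      σ' hσ' c' hc' δ' hδ' y hy
  exact rtk6aux_four L M H r m hL hML hm6 key A hA σ hσ c hc δ hδ x hx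

/-- (χ-J), tame case, at the levels with `36 ∣ L`. -/
def StmtChiJPRigid36 : Prop :=
  ∀ (L M : ℕ) (H : Subgroup (ZMod M)ˣ) (r : ℕ), L ≠ 0 → M ∣ L → r.Prime → r ∣ M → ¬ r ^ 2 ∣ L →
    IsStarStable M r H → IsTameAt L M r H → 36 ∣ L →
    ∀ A : ValuationSubring QbH, A.LiesOverPrime r →
      ∀ m : ℕ, ¬ r ∣ m →
        ∀ σ ∈ A.inertiaSubgroupIn ℚ, ∀ c : (ZMod M)ˣ, IsCycAt M r σ c →
        ∀ δ : fieldBar L M H ≃ₐ[QbH] fieldBar L M H, IsDiamondH L M H c δ →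
          ∀ x : JH L M H, m • x = 0 →
            σ • diamondJ δ (σ • x) - σ • x - diamondJ δ (σ • x) + x = 0

/-- (χ-J), tame case, for `r ≥ 5` and exponents prime to `6`. -/
def StmtChiJP5 : Prop :=
  ∀ (L M : ℕ) (H : Subgroup (ZMod M)ˣ) (r : ℕ), L ≠ 0 → M ∣ L → r.Prime → r ∣ M → ¬ r ^ 2 ∣ L →
    IsStarStable M r H → IsTameAt L M r H → 5 ≤ r →
    ∀ A : ValuationSubring QbH, A.LiesOverPrime r →
      ∀ m : ℕ, ¬ r ∣ m → Nat.Coprime m 6 →
        ∀ σ ∈ A.inertiaSubgroupIn ℚ, ∀ c : (ZMod M)ˣ, IsCycAt M r σ c →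
        ∀ δ : fieldBar L M H ≃ₐ[QbH] fieldBar L M H, IsDiamondH L M H c δ →
          ∀ x : JH L M H, m • x = 0 →
            σ • diamondJ δ (σ • x) - σ • x - diamondJ δ (σ • x) + x = 0

theorem rtk6aux_isTameAt_36 {L M r : ℕ} {H : Subgroup (ZMod M)ˣ} (h : IsTameAt L M r H) :
    IsTameAt (L * 2 ^ 2 * 3 ^ 2) M r H := by
  obtain ⟨d, hd, hc⟩ := h
  refine ⟨d, ?_, hc⟩
  have h6 : Nat.Coprime d 6 := Nat.Coprime.coprime_dvd_right (Dvd.intro _ rfl) hd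
  have hL : Nat.Coprime d L := Nat.Coprime.coprime_dvd_right (Dvd.intro_left _ rfl) hd
  have h2 : Nat.Coprime d 2 := Nat.Coprime.coprime_dvd_right (by norm_num : 2 ∣ 6) h6
  have h3 : Nat.Coprime d 3 := Nat.Coprime.coprime_dvd_right (by norm_num : 3 ∣ 6) h6
  exact Nat.Coprime.mul_right h6 (Nat.Coprime.mul_right
    (Nat.Coprime.mul_right hL (Nat.Coprime.pow_right 2 h2)) (Nat.Coprime.pow_right 2 h3))

/-- **AUX, tame form, auxiliary level `36`**: (χ-J) at the tame levels with `36 ∣ L` gives (χ-J)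
at all tame levels, for `r ≥ 5` and exponents prime to `6`. -/
theorem stmtAuxP36 : StmtChiJPRigid36 → StmtChiJP5 := by
  intro hR L M H r hL hML hr hrM hr2 hstar htame hr5 A hA m hrm hm6 σ hσ c hc δ hδ x hx
  have hL36 : L * 2 ^ 2 * 3 ^ 2 ≠ 0 :=
    Nat.mul_ne_zero (Nat.mul_ne_zero hL (by norm_num)) (by norm_num)
  have hML36 : M ∣ L * 2 ^ 2 * 3 ^ 2 := Dvd.dvd.mul_right (Dvd.dvd.mul_right hML _) _
  have hr2' : Nat.Coprime r 2 :=
    (Nat.coprime_primes hr Nat.prime_two).mpr (by omega)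
  have hr3' : Nat.Coprime r 3 :=
    (Nat.coprime_primes hr Nat.prime_three).mpr (by omega)
  have hcop : Nat.Coprime (r ^ 2) (2 ^ 2 * 3 ^ 2) :=
    Nat.Coprime.pow_left 2 (Nat.Coprime.mul_right (Nat.Coprime.pow_right 2 hr2')
      (Nat.Coprime.pow_right 2 hr3'))
  have hr36 : ¬ r ^ 2 ∣ L * 2 ^ 2 * 3 ^ 2 := by
    intro h
    rw [mul_assoc] at h
    exact hr2 (hcop.dvd_of_dvd_mul_right h)
  have h36 : 36 ∣ L * 2 ^ 2 * 3 ^ 2 := ⟨L, by ring⟩
  have key : ChiJAt (L * 2 ^ 2 * 3 ^ 2) M H r m := fun A' hA' σ' hσ' c' hc' δ' hδ' y hy =>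
    hR (L * 2 ^ 2 * 3 ^ 2) M H r hL36 hML36 hr hrM hr36 hstar (rtk6aux_isTameAt_36 htame) h36
      A' hA' m hrm σ' hσ' c' hc' δ' hδ' y hy
  exact rtk6aux_pow M H r m hm6 2 2 L hL hML key A hA σ hσ c hc δ hδ x hx

end Fermat.Agent.RT.K6
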