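import Fermat.Agent.RT.K6.BLam

/-!
# RT-K6 / B (2): the constant term `∑_d u(d) d⁻³` of an `r`-periodic weight

By finite Fourier inversion and the Fourier series of the Bernoulli polynomial `B₃`
(`hasSum_one_div_pow_mul_fourier_mul_bernoulliFun`):
`∑_{d ∈ ℤ} u(d) d⁻³ = −(2πi)³/3! · r⁻¹ · ∑_{j<r} (∑_{b<r} u(b) ζ^{−bj}) B₃(j/r)` (helper96).
-/

set_option autoImplicit false

open Filter Topology
open scoped Real

noncomputable section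

namespace Fermat.Agent.RT.K6

/-- `B₃(j / r) ∈ ℚ` -/
def rtk6bB3 (r j : ℕ) : ℚ := (Polynomial.bernoulli 3).eval ((j : ℚ) / (r : ℚ))

theorem rtk6b_bernoulliFun (r j : ℕ) :
    bernoulliFun 3 ((j : ℝ) / (r : ℝ)) = ((rtk6bB3 r j : ℚ) : ℝ) := by
  unfold bernoulliFun rtk6bB3
  rw [Polynomial.eval_map]
  have h : ((j : ℝ) / (r : ℝ)) = algebraMap ℚ ℝ ((j : ℚ) / (r : ℚ)) := by
    simp
  rw [h, Polynomial.eval₂_at_apply]
  rfl

theorem rtk6bZ_pow (r : ℕ) (j n : ℕ) : rtk6bZ r j ^ n = rtk6bZ r (j * n) := by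
  unfold rtk6bZ
  rw [← Complex.exp_nat_mul]
  congr 1
  push_cast
  ring

theorem rtk6bZ_add (r : ℕ) (j k : ℕ) : rtk6bZ r (j + k) = rtk6bZ r j * rtk6bZ r k := by
  unfold rtk6bZ
  rw [← Complex.exp_add]
  congr 1
  push_cast
  ring

theorem rtk6bZ_self_mul (r : ℕ) [NeZero r] (k : ℕ) : rtk6bZ r (r * k) = 1 := by
  unfold rtk6bZ
  have hr0 : (r : ℂ) ≠ 0 := Nat.cast_ne_zero.mpr (NeZero.ne r)
  have : 2 * (π : ℂ) * Complex.I * ((r * k : ℕ) : ℂ) / (r : ℂ) = (k : ℂ) * (2 * π * Complex.I) := by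
    push_cast
    field_simp
  rw [this]
  exact Complex.exp_nat_mul_two_pi_mul_I k

/-- `e^{2πi x / r}` for an integer `x` -/
def rtk6bZi (r : ℕ) (x : ℤ) : ℂ := Complex.exp (2 * π * Complex.I * (x : ℂ) / (r : ℂ))

theorem rtk6bZi_natCast (r j : ℕ) : rtk6bZi r (j : ℤ) = rtk6bZ r j := by
  unfold rtk6bZi rtk6bZ
  push_cast
  rfl

theorem rtk6bZi_add (r : ℕ) (x y : ℤ) : rtk6bZi r (x + y) = rtk6bZi r x * rtk6bZi r y := by
  unfold rtk6bZi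
  rw [← Complex.exp_add]
  congr 1
  push_cast
  ring

theorem rtk6bZi_mul_nat (r : ℕ) (x : ℤ) (n : ℕ) : rtk6bZi r (x * n) = rtk6bZi r x ^ n := by
  unfold rtk6bZi
  rw [← Complex.exp_nat_mul]
  congr 1
  push_cast
  ring

theorem rtk6bZi_eq_one_iff (r : ℕ) [NeZero r] (x : ℤ) : rtk6bZi r x = 1 ↔ (r : ℤ) ∣ x := by
  unfold rtk6bZi
  have hr0 : (r : ℂ) ≠ 0 := Nat.cast_ne_zero.mpr (NeZero.ne r)
  rw [Complex.exp_eq_one_iff]
  constructor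
  · rintro ⟨n, hn⟩
    have h2 : (x : ℂ) = ((n * r : ℤ) : ℂ) := by
      have hpi : (2 * (π : ℂ) * Complex.I) ≠ 0 := Complex.two_pi_I_ne_zero
      have h3 : 2 * (π : ℂ) * Complex.I * (x : ℂ) = 2 * (π : ℂ) * Complex.I * ((n : ℂ) * r) := by
        have h4 := hn
        rw [div_eq_iff hr0] at h4
        rw [h4]
        ring
      have := mul_left_cancel₀ hpi h3
      rw [this]
      push_cast
      rfl
    have h4 : x = n * r := by exact_mod_cast h2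
    exact ⟨n, by rw [h4]; ring⟩
  · rintro ⟨n, rfl⟩
    refine ⟨n, ?_⟩
    push_cast
    field_simp

theorem rtk6bZi_pow_self (r : ℕ) [NeZero r] (x : ℤ) : rtk6bZi r x ^ r = 1 := by
  rw [← rtk6bZi_mul_nat, rtk6bZi_eq_one_iff]
  exact dvd_mul_left _ _

/-- orthogonality of the characters of `ℤ/r` -/
theorem rtk6b_orth (r : ℕ) [NeZero r] (x : ℤ) :
    ∑ j : Fin r, rtk6bZi r x ^ (j : ℕ) = if (r : ℤ) ∣ x then (r : ℂ) else 0 := by
  rw [Fin.sum_univ_eq_sum_range (fun j => rtk6bZi r x ^ j) r]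
  split_ifs with h
  · rw [(rtk6bZi_eq_one_iff r x).mpr h]
    simp
  · have hne : rtk6bZi r x ≠ 1 := fun h1 => h ((rtk6bZi_eq_one_iff r x).mp h1)
    rw [geom_sum_eq hne, rtk6bZi_pow_self, sub_self, zero_div]

/-- the finite Fourier transform `û(j) = ∑_{b<r} u(b) ζ^{-bj}` -/
def rtk6bHat (r : ℕ) (u : ℤ → ℂ) (j : ℕ) : ℂ :=
  ∑ b : Fin r, u ((b : ℕ) : ℤ) * rtk6bZi r (-((b : ℕ) : ℤ)) ^ j

theorem rtk6b_inversion (r : ℕ) [NeZero r] (u : ℤ → ℂ) (hper : ∀ d, u (d + r) = u d) (d : ℤ) :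
    ∑ j : Fin r, rtk6bHat r u j * rtk6bZi r d ^ (j : ℕ) = (r : ℂ) * u d := by
  unfold rtk6bHat
  simp_rw [Finset.sum_mul]
  rw [Finset.sum_comm]
  have h1 : ∀ b : Fin r, ∑ j : Fin r,
      u ((b : ℕ) : ℤ) * rtk6bZi r (-((b : ℕ) : ℤ)) ^ (j : ℕ) * rtk6bZi r d ^ (j : ℕ) =
      u ((b : ℕ) : ℤ) * (if (r : ℤ) ∣ (d - (b : ℕ)) then (r : ℂ) else 0) := by
    intro b
    rw [← rtk6b_orth r (d - (b : ℕ)), Finset.mul_sum]
    refine Finset.sum_congr rfl fun j _ => ?_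
    rw [mul_assoc, ← mul_pow, ← rtk6bZi_add]
    congr 3
    ring
  simp_rw [h1]
  -- the unique `b` with `b ≡ d`
  have hr : (0 : ℤ) < (r : ℤ) := by exact_mod_cast Nat.pos_of_ne_zero (NeZero.ne r)
  set b₀ : Fin r := ⟨(d % r).toNat, by
    have h2 := Int.emod_lt_of_pos d hr
    have h3 := Int.emod_nonneg d hr.ne'
    omega⟩ with hb₀
  have hb₀' : ((b₀ : ℕ) : ℤ) = d % r := by
    rw [hb₀]
    exact Int.toNat_of_nonneg (Int.emod_nonneg d hr.ne')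
  rw [Finset.sum_eq_single b₀]
  · have hdvd : (r : ℤ) ∣ d - ((b₀ : ℕ) : ℤ) := by
      rw [hb₀']
      exact (Int.mod_modEq d r).dvd
    rw [if_pos hdvd]
    obtain ⟨k, hk⟩ := hdvd
    have hd : d = k * r + ((b₀ : ℕ) : ℤ) := by linear_combination hk
    have hu : u d = u ((b₀ : ℕ) : ℤ) := by
      have hper' : ∀ c d : ℤ, (fun _ : ℤ => u) c (d + r) = (fun _ : ℤ => u) c d := fun _ d => hper d
      have := rtk6b_per_int (ω := fun _ => u) hper' 0 ((b₀ : ℕ) : ℤ) k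
      rw [hd]
      exact this
    rw [hu]
    ring
  · intro b _ hb
    have hnd : ¬ (r : ℤ) ∣ d - ((b : ℕ) : ℤ) := by
      intro hdvd
      apply hb
      apply Fin.ext
      have h2 : d % r = ((b : ℕ) : ℤ) % r := ((Int.modEq_iff_dvd.mpr hdvd : _ ≡ _ [ZMOD _])).symm
      have h3 : ((b : ℕ) : ℤ) % r = (b : ℕ) := Int.emod_eq_of_lt (by positivity)
        (by exact_mod_cast b.2)
      have h4 : ((b₀ : ℕ) : ℤ) = ((b : ℕ) : ℤ) := by rw [hb₀', h2, h3]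
      exact_mod_cast h4.symm
    rw [if_neg hnd, mul_zero]
  · intro h
    exact absurd (Finset.mem_univ _) h

open Complex in
/-- **the constant term** -/
theorem rtk6b_const (r : ℕ) [NeZero r] (u : ℤ → ℂ) (hper : ∀ d, u (d + r) = u d) :
    ∑' d : ℤ, u d * ((d : ℂ) ^ 3)⁻¹ =
      (-(2 * π * Complex.I) ^ 3 / (3 : ℕ).factorial) * ((r : ℂ)⁻¹ *
        ∑ j : Fin r, rtk6bHat r u j * ((rtk6bB3 r j : ℚ) : ℂ)) := by
  have hr0 : (r : ℂ) ≠ 0 := Nat.cast_ne_zero.mpr (NeZero.ne r)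
  have hrR : (0 : ℝ) < (r : ℝ) := Nat.cast_pos.mpr (Nat.pos_of_ne_zero (NeZero.ne r))
  have H : ∀ j : Fin r, HasSum (fun d : ℤ => 1 / (d : ℂ) ^ 3 * rtk6bZi r d ^ (j : ℕ))
      (-(2 * π * Complex.I) ^ 3 / (3 : ℕ).factorial * ((rtk6bB3 r j : ℚ) : ℂ)) := by
    intro j
    have hx : ((j : ℕ) : ℝ) / (r : ℝ) ∈ Set.Icc (0 : ℝ) 1 := by
      constructor
      · positivity
      · rw [div_le_one hrR]
        exact_mod_cast j.2.le
    have h := hasSum_one_div_pow_mul_fourier_mul_bernoulliFun (k := 3) (by norm_num) hx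
    rw [rtk6b_bernoulliFun] at h
    have h2 : ((((rtk6bB3 r j : ℚ) : ℝ)) : ℂ) = ((rtk6bB3 r j : ℚ) : ℂ) := by push_cast; rfl
    rw [h2] at h
    refine h.congr_fun ?_
    intro d
    rw [fourier_coe_apply, ← rtk6bZi_mul_nat]
    unfold rtk6bZi
    congr 2
    push_cast
    field_simp
  have H2 : HasSum (fun d : ℤ => ∑ j : Fin r, (r : ℂ)⁻¹ * rtk6bHat r u j *
      (1 / (d : ℂ) ^ 3 * rtk6bZi r d ^ (j : ℕ)))
      (∑ j : Fin r, (r : ℂ)⁻¹ * rtk6bHat r u j *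
        (-(2 * π * Complex.I) ^ 3 / (3 : ℕ).factorial * ((rtk6bB3 r j : ℚ) : ℂ))) :=
    hasSum_sum fun j _ => (H j).mul_left _
  have H3 : (fun d : ℤ => ∑ j : Fin r, (r : ℂ)⁻¹ * rtk6bHat r u j *
      (1 / (d : ℂ) ^ 3 * rtk6bZi r d ^ (j : ℕ))) = fun d : ℤ => u d * ((d : ℂ) ^ 3)⁻¹ := by
    funext d
    have h := rtk6b_inversion r u hper d
    have : ∑ j : Fin r, (r : ℂ)⁻¹ * rtk6bHat r u j * (1 / (d : ℂ) ^ 3 * rtk6bZi r d ^ (j : ℕ)) =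
        (r : ℂ)⁻¹ * (1 / (d : ℂ) ^ 3) * ∑ j : Fin r, rtk6bHat r u j * rtk6bZi r d ^ (j : ℕ) := by
      rw [Finset.mul_sum]
      refine Finset.sum_congr rfl fun j _ => ?_
      ring
    rw [this, h]
    field_simp
  rw [H3] at H2
  rw [H2.tsum_eq, Finset.mul_sum, Finset.mul_sum]
  refine Finset.sum_congr rfl fun j _ => ?_
  ring

end Fermat.Agent.RT.K6
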