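import Fermat.Agent.RT.K6.BMat
import Fermat.Agent.ES1.G2.SwapH
import Fermat.Agent.ES1.RealEmb
import Fermat.Agent.ES.DescentInj

/-!
# RT-K6 / B (6): the generators of `fieldBar L M H` under `W` (helper96)

* `rtk6bTA D H i = swhA L M H i ∘ W` : the analytic targets;
* `rtk6bTB D H i` : the formal targets (in `ℚ̄((q))`): `j(q^{d'})`, resp.
  `∑_{a' ∈ ± a H} T_{a'}(q^e)`;
* `rtk6b_laurentOf_TA` : `laurentOf (TA i) = embC (TB i)`;
* `rtk6bTB_mem` : `TB i ∈ fieldBar L M H` for star-stable `H`.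
-/

set_option autoImplicit false
set_option linter.style.haveILetI false
set_option linter.unusedSectionVars false

open UpperHalfPlane ModularForm CongruenceSubgroup Matrix
open Fermat.Agent.ES Fermat.Agent.S23 Fermat.Agent.S24 Fermat.Agent.S28
open Fermat.Agent.ES1 Fermat.Agent.ES1.G2 Fermat.Agent.ES.G2 ModularCurve
open Fermat.Agent.S24.KExp (zetaBD zetaBD_mem_range)
open scoped MatrixGroups Manifold Real

noncomputable section

namespace Fermat.Agent.RT.K6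

/-! ### the roots of unity in `ℚ̄` -/

theorem rtk6bXi_eq_zetaBD (r : ℕ) : rtk6bXi r = zetaBD 1 r := by
  unfold rtk6bXi rtk6bZ zetaBD
  push_cast
  rfl

theorem rtk6bXi'_eq_zetaBD (r : ℕ) : rtk6bXi' r = zetaBD (-1) r := by
  unfold rtk6bXi' rtk6bZi zetaBD
  rfl

theorem rtk6b_exists_xiB (r : ℕ) [NeZero r] : ∃ ξ : Kb, embC ξ = rtk6bXi r := by
  rw [rtk6bXi_eq_zetaBD]
  exact zetaBD_mem_range 1 (Nat.pos_of_ne_zero (NeZero.ne r))

theorem rtk6b_exists_xiB' (r : ℕ) [NeZero r] : ∃ ξ : Kb, embC ξ = rtk6bXi' r := by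
  rw [rtk6bXi'_eq_zetaBD]
  exact zetaBD_mem_range (-1) (Nat.pos_of_ne_zero (NeZero.ne r))

/-- `ζ_r ∈ ℚ̄` -/
def rtk6bXiB (r : ℕ) [NeZero r] : Kb := (rtk6b_exists_xiB r).choose

/-- `ζ_r⁻¹ ∈ ℚ̄` -/
def rtk6bXiB' (r : ℕ) [NeZero r] : Kb := (rtk6b_exists_xiB' r).choose

theorem embC_rtk6bXiB (r : ℕ) [NeZero r] : embC (rtk6bXiB r) = rtk6bXi r :=
  (rtk6b_exists_xiB r).choose_spec

theorem embC_rtk6bXiB' (r : ℕ) [NeZero r] : embC (rtk6bXiB' r) = rtk6bXi' r :=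
  (rtk6b_exists_xiB' r).choose_spec

theorem rtk6bXiB_pow (r : ℕ) [NeZero r] : rtk6bXiB r ^ r = 1 := by
  apply embC.injective
  rw [map_pow, embC_rtk6bXiB, map_one, rtk6bXi_pow]

theorem rtk6bXiB_mul (r : ℕ) [NeZero r] : rtk6bXiB r * rtk6bXiB' r = 1 := by
  apply embC.injective
  rw [map_mul, embC_rtk6bXiB, embC_rtk6bXiB', map_one, rtk6bXi_mul_Xi']

/-! ### arithmetic of the data -/

namespace RtBDat

variable {L M r : ℕ} (D : RtBDat L M r)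

include D

theorem dvd_L'_of_not_dvd {d : ℕ} (hd : d ∣ L) (h : ¬ r ∣ d) : d ∣ D.L' := by
  have h1 : d ∣ D.L' * r := D.hL ▸ hd
  exact (Nat.Coprime.symm ((Nat.Prime.coprime_iff_not_dvd D.hr).mpr h)).dvd_of_dvd_mul_right h1

theorem div_dvd_L' {d : ℕ} (hd : d ∣ L) (h : r ∣ d) : d / r ∣ D.L' := by
  obtain ⟨d', rfl⟩ := h
  rw [Nat.mul_div_cancel_left d' D.hr.pos]
  have h1 : r * d' ∣ D.L' * r := D.hL ▸ hd
  rw [mul_comm r d'] at h1
  exact Nat.dvd_of_mul_dvd_mul_right D.hr.pos h1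

theorem mul_dvd_L {d : ℕ} (hd : d ∣ D.L') : d * r ∣ L := by
  have := mul_dvd_mul_right hd r
  rw [← D.hL] at this
  exact this

theorem eM'_dvd {e : ℕ} (he : e * M ∣ L) : e * D.M' ∣ D.L' := by
  have h1 : e * (D.M' * r) ∣ D.L' * r := by
    have h2 := he
    rw [D.hM] at h2
    exact D.hL ▸ h2
  rw [← mul_assoc] at h1
  exact Nat.dvd_of_mul_dvd_mul_right D.hr.pos h1

theorem e_dvd {e : ℕ} (he : e * M ∣ L) : e ∣ D.L' :=
  (Dvd.intro _ rfl).trans (D.eM'_dvd he)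

/-- `f = L' / e` -/
def f (e : ℕ) : ℤ := ((D.L' / e : ℕ) : ℤ)

theorem L'_eq {e : ℕ} (he : e * M ∣ L) : D.L' = e * (D.L' / e) :=
  (Nat.mul_div_cancel' (D.e_dvd he)).symm

theorem M'_dvd_f {e : ℕ} (he0 : e ≠ 0) (he : e * M ∣ L) : (D.M' : ℤ) ∣ D.f e := by
  unfold f
  have h1 := D.eM'_dvd he
  obtain ⟨k, hk⟩ := h1
  have h2 : D.L' / e = D.M' * k := by
    rw [hk, mul_assoc, Nat.mul_div_cancel_left _ (Nat.pos_of_ne_zero he0)]
  rw [h2]
  push_cast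
  exact Dvd.intro _ rfl

theorem hrf {e : ℕ} (he0 : e ≠ 0) (he : e * M ∣ L) : (M : ℤ) ∣ (r : ℤ) * D.f e := by
  rw [D.hMZ, mul_comm (D.M' : ℤ) (r : ℤ)]
  exact mul_dvd_mul_left _ (D.M'_dvd_f he0 he)

theorem hdet_e {e : ℕ} (he : e * M ∣ L) :
    (1 : ℤ) * ((r : ℤ) * D.t) - ((e : ℤ) * D.y) * ((D.L' / e : ℕ) : ℤ) = 1 := by
  have h1 : (D.L' : ℤ) = (e : ℤ) * ((D.L' / e : ℕ) : ℤ) := by
    have := D.L'_eq he
    exact_mod_cast this
  have h2 := D.hdet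
  rw [h1] at h2
  linear_combination h2

end RtBDat

/-! ### `θ_a(e · W τ)` -/

section Theta

variable {L M r : ℕ} (D : RtBDat L M r) (H : Subgroup (ZMod M)ˣ)

theorem rtk6b_scaleN_mul (e r : ℕ) [NeZero e] [NeZero r] [NeZero (e * r)] (τ : ℍ) :
    scaleN (e * r) τ = scaleN r (scaleN e τ) := by
  apply UpperHalfPlane.ext
  simp only [coe_scaleN]
  push_cast
  ring

theorem rtk6b_thetaE_W [NeZero M] [NeZero r] (e : ℕ) [NeZero e] (he : e * M ∣ L)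
    (a : (ZMod M)ˣ) (τ : ℍ) :
    es1rcThetaE e H a (D.W τ) =
      ∑ a' ∈ cosetReps M H a, rtk6bPsi M r D.s (D.f e) (a' : ZMod M) (scaleN e τ) := by
  haveI : NeZero (e * r) := ⟨Nat.mul_ne_zero (NeZero.ne e) (NeZero.ne r)⟩
  unfold es1rcThetaE
  rw [es1rcTheta_apply]
  refine Finset.sum_congr rfl fun a' _ => ?_
  have h1 : scaleN e (D.W τ) =
      swapMat 1 ((e : ℤ) * D.y) ((D.L' / e : ℕ) : ℤ) ((r : ℤ) * D.t) (D.hdet_e he) •
        scaleN (e * r) τ :=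
    swh_scale_W D.y D.t D.hdet e (D.L' / e) (D.L'_eq he) (D.hdet_e he) τ
  rw [h1, rtk6b_scaleN_mul e r τ]
  exact rtk6b_f2Ga_smul M r D.s (D.f e) (a' : ZMod M) ((e : ℤ) * D.y) (D.hdet_e he) (scaleN e τ)

end Theta

/-! ### the families -/

section Families

variable {L M r : ℕ} [NeZero L] [NeZero M] [NeZero r] (D : RtBDat L M r)
  (H : Subgroup (ZMod M)ˣ)

/-- the index map on the `j`-generators: `d ↦ d / r` resp. `d r` -/
def rtk6bSd (d : {d : ℕ // d ∣ L}) : {d : ℕ // d ∣ L} :=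
  if h : r ∣ d.1 then ⟨d.1 / r, (Nat.div_dvd_of_dvd h).trans d.2⟩
  else ⟨d.1 * r, D.mul_dvd_L (D.dvd_L'_of_not_dvd d.2 h)⟩

theorem rtk6bSd_of_dvd (d : ℕ) (hd : d ∣ L) (h : r ∣ d) :
    rtk6bSd D ⟨d, hd⟩ = ⟨d / r, (Nat.div_dvd_of_dvd h).trans hd⟩ := dif_pos h

theorem rtk6bSd_of_not_dvd (d : ℕ) (hd : d ∣ L) (h : ¬ r ∣ d) :
    rtk6bSd D ⟨d, hd⟩ = ⟨d * r, D.mul_dvd_L (D.dvd_L'_of_not_dvd hd h)⟩ := dif_neg h

/-- the formal target for the class `x ∈ ℤ/M` at `e` -/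
def rtk6bTx (e : ℕ) (x : ZMod M) : LaurentSeries Kb :=
  rtk6bT Kb r (rtk6bXiB r) (rtk6bXiB' r) (rtk6bOm M D.s (D.f e) x)

/-- the formal targets -/
def rtk6bTB : SwhIx L M → LaurentSeries Kb
  | Sum.inl d => swhB L M H (Sum.inl (rtk6bSd D d))
  | Sum.inr p =>
      haveI := swh_neZero_of_mul_dvd L M p.2
      ∑ a' ∈ cosetReps M H p.1.2, qExpand Kb p.1.1 (rtk6bTx D p.1.1 (a' : ZMod M))

/-- the analytic targets -/
def rtk6bTA (i : SwhIx L M) : ℍ → ℂ := fun τ => swhA L M H i (D.W τ)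

theorem rtk6bTB_inr (e : ℕ) [NeZero e] (a : (ZMod M)ˣ) (he : e * M ∣ L) :
    rtk6bTB D H (Sum.inr ⟨(e, a), he⟩) =
      ∑ a' ∈ cosetReps M H a, qExpand Kb e (rtk6bTx D e (a' : ZMod M)) := rfl

theorem rtk6bTA_inl (d : {d : ℕ // d ∣ L}) (τ : ℍ) :
    rtk6bTA D H (Sum.inl d) τ = swhA L M H (Sum.inl (rtk6bSd D d)) τ := by
  obtain ⟨d, hd⟩ := d
  have hr0 : r ≠ 0 := NeZero.ne r
  haveI := swh_neZero_of_dvd L hd
  unfold rtk6bTA
  by_cases hdvd : r ∣ d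
  · rw [rtk6bSd_of_dvd D d hd hdvd]
    have hd' : d / r ∣ D.L' := D.div_dvd_L' hd hdvd
    haveI : NeZero (d / r) := ⟨ne_zero_of_dvd_ne_zero D.hL0 hd'⟩
    haveI : NeZero (d / r * r) := ⟨Nat.mul_ne_zero (NeZero.ne _) hr0⟩
    rw [swhA_inl, swhA_inl, swh_scaleN_congr (Nat.div_mul_cancel hdvd).symm (D.W τ)]
    exact swh_J_W' D.hL0 D.y D.t D.hdet (d / r) hd' τ
  · rw [rtk6bSd_of_not_dvd D d hd hdvd]
    haveI : NeZero (d * r) := ⟨Nat.mul_ne_zero (NeZero.ne _) hr0⟩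
    rw [swhA_inl, swhA_inl]
    exact swh_J_W D.y D.t D.hdet d (D.dvd_L'_of_not_dvd hd hdvd) τ

theorem rtk6bTA_inr (e : ℕ) [NeZero e] (a : (ZMod M)ˣ) (he : e * M ∣ L) :
    rtk6bTA D H (Sum.inr ⟨(e, a), he⟩) =
      ∑ a' ∈ cosetReps M H a, fun τ => rtk6bPsi M r D.s (D.f e) (a' : ZMod M) (scaleN e τ) := by
  funext τ
  rw [Finset.sum_apply]
  exact rtk6b_thetaE_W D H e he a τ

theorem rtk6bTA_isMerInf (i : SwhIx L M) : IsMerInf (rtk6bTA D H i) := by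
  rcases i with d | ⟨⟨e, a⟩, he⟩
  · have h : rtk6bTA D H (Sum.inl d) = swhA L M H (Sum.inl (rtk6bSd D d)) :=
      funext fun τ => rtk6bTA_inl D H d τ
    rw [h]
    exact swhA_isMerInf L M H _
  · haveI := swh_neZero_of_mul_dvd L M he
    rw [rtk6bTA_inr D H e a he]
    exact Fermat.Agent.ES.RC.rc_isMerInf_sum _ _ fun a' _ =>
      isMerInf_comp_scaleN e (rtk6bPsi_isMerInf M r D.s (D.f e) _ (D.hrf (NeZero.ne e) he))

theorem rtk6b_coeffMap_Tx (e : ℕ) (x : ZMod M) :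
    coeffMap embC (rtk6bTx D e x) =
      rtk6bT ℂ r (rtk6bXi r) (rtk6bXi' r) (rtk6bOm M D.s (D.f e) x) := by
  unfold rtk6bTx
  rw [rtk6b_coeffMap_T, embC_rtk6bXiB, embC_rtk6bXiB']

theorem rtk6b_laurentOf_TA (i : SwhIx L M) :
    laurentOf (rtk6bTA D H i) = coeffMap embC (rtk6bTB D H i) := by
  rcases i with d | ⟨⟨e, a⟩, he⟩
  · have h : rtk6bTA D H (Sum.inl d) = swhA L M H (Sum.inl (rtk6bSd D d)) :=
      funext fun τ => rtk6bTA_inl D H d τ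
    rw [h]
    exact swh_laurentOf L M H _
  · haveI := swh_neZero_of_mul_dvd L M he
    rw [rtk6bTA_inr D H e a he, rtk6bTB_inr D H e a he,
      Fermat.Agent.ES.RC.rc_laurentOf_sum _ _ fun a' _ =>
        isMerInf_comp_scaleN e (rtk6bPsi_isMerInf M r D.s (D.f e) _ (D.hrf (NeZero.ne e) he)),
      map_sum]
    refine Finset.sum_congr rfl fun a' _ => ?_
    rw [laurentOf_comp_scaleN e
      (rtk6bPsi_isMerInf M r D.s (D.f e) _ (D.hrf (NeZero.ne e) he)),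
      laurentOf_rtk6bPsi M r D.s (D.f e) _ (D.hrf (NeZero.ne e) he), coeffMap_qExpand,
      rtk6b_coeffMap_Tx]

end Families

/-! ### the targets are modular functions for `Γ_H(M) ∩ Γ₀(L)` -/

section Member

attribute [local instance] Fermat.Agent.S24.algKbC

variable {L M r : ℕ} [NeZero L] [NeZero M] [NeZero r] (D : RtBDat L M r)
  (H : Subgroup (ZMod M)ˣ)

theorem rtk6b_fieldC_le_baseChange (K : Type*) [Field K] [Algebra ℚ K] (L M : ℕ)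
    (H : Subgroup (ZMod M)ˣ) : fieldC K L M H ≤ laurentBaseChange K (fieldQ L M H) := by
  rw [fieldC, IntermediateField.adjoin_le_iff]
  rintro _ (⟨d, hd, hdN, rfl⟩ | ⟨e, he, a, heL, rfl⟩)
  · have h1 : qExpand K d (jqModC K) = coeffEmb K (qExpand ℚ d (jqModC ℚ)) :=
      (coeffMap_jqNModC (algebraMap ℚ K) d).symm
    rw [h1]
    exact coeffEmb_mem_laurentBaseChange _ (jd_mem_fieldC ℚ L M H hdN)
  · have h1 : qExpand K e (sS K M H a) = coeffEmb K (qExpand ℚ e (sS ℚ M H a)) :=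
      (es1f_coeffMap_qExpand_sS (algebraMap ℚ K) M H a e).symm
    rw [h1]
    exact coeffEmb_mem_laurentBaseChange _ (qExpand_sS_mem ℚ L M H heL a)

/-- descent: a series over `ℚ̄` whose image over `ℂ` lies in `fieldC ℂ L M H` lies in
`fieldBar L M H` -/
theorem rtk6b_mem_fieldBar_of_coeffMap {x : LaurentSeries Kb}
    (h : coeffMap embC x ∈ fieldC ℂ L M H) : x ∈ fieldBar L M H := by
  have h1 : coeffMap (algebraMap Kb ℂ) x ∈ laurentBaseChange ℂ (fieldQ L M H) :=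
    rtk6b_fieldC_le_baseChange ℂ L M H h
  exact Fermat.Agent.ES.DescentInj.mem_laurentBaseChange_of_coeffMap_mem (K := Kb) (L := ℂ) _ h1

theorem rtk6b_swhA_isModFunG (hML : M ∣ L) (i : SwhIx L M) :
    IsModFunG (gammaH L M H) (swhA L M H i) := by
  rcases i with ⟨d, hd⟩ | ⟨⟨e, a⟩, he⟩
  · haveI := swh_neZero_of_dvd L hd
    have h1 : IsModFunG (Gamma0 L) (fun z => Jfun (scaleN d z)) :=
      (isModFunG_gamma0_iff L _).mpr (Fermat.Agent.ES.RC.rc_isModFun_Jfun_scaleN hd)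
    exact h1.mono (gammaH_le_gamma0 L M H)
  · haveI := swh_neZero_of_mul_dvd L M he
    exact es1rcThetaE_isModFunG H a e he

theorem rtk6b_companion_mem_Gamma {γ : SL(2, ℤ)} (hγ : γ ∈ Gamma (L * r)) :
    ∃ hdvd : (r : ℤ) ∣ γ 1 0, P7_thetaCompanion r γ hdvd ∈ Gamma L := by
  rw [Gamma_mem] at hγ
  obtain ⟨h00, h01, h10, h11⟩ := hγ
  have hLr : L ∣ L * r := Dvd.intro _ rfl
  have c00 := congrArg (ZMod.castHom hLr (ZMod L)) h00
  have c01 := congrArg (ZMod.castHom hLr (ZMod L)) h01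
  have c11 := congrArg (ZMod.castHom hLr (ZMod L)) h11
  rw [map_intCast, map_one] at c00 c11
  rw [map_intCast, map_zero] at c01
  rw [ZMod.intCast_zmod_eq_zero_iff_dvd] at h10
  obtain ⟨k, hk⟩ := h10
  have hr0 : (r : ℤ) ≠ 0 := by exact_mod_cast NeZero.ne r
  have hdvd : (r : ℤ) ∣ γ 1 0 := ⟨L * k, by rw [hk]; push_cast; ring⟩
  refine ⟨hdvd, ?_⟩
  rw [Gamma_mem]
  have e00 : (P7_thetaCompanion r γ hdvd) 0 0 = γ 0 0 := by simp [P7_thetaCompanion]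
  have e01 : (P7_thetaCompanion r γ hdvd) 0 1 = r * γ 0 1 := by simp [P7_thetaCompanion]
  have e10 : (P7_thetaCompanion r γ hdvd) 1 0 = γ 1 0 / r := by simp [P7_thetaCompanion]
  have e11 : (P7_thetaCompanion r γ hdvd) 1 1 = γ 1 1 := by simp [P7_thetaCompanion]
  rw [e00, e01, e10, e11]
  refine ⟨c00, ?_, ?_, c11⟩
  · push_cast
    rw [c01, mul_zero]
  · rw [hk]
    push_cast
    rw [show ((L : ℤ) * (r : ℤ) * k) = (r : ℤ) * ((L : ℤ) * k) by ring,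
      Int.mul_ediv_cancel_left _ hr0]
    push_cast
    simp

/-- the targets are modular functions of level `Γ(L r)` -/
theorem rtk6bTA_isModFunG_Gamma (hML : M ∣ L) (i : SwhIx L M) :
    IsModFunG (Gamma (L * r)) (rtk6bTA D H i) := by
  haveI : NeZero (L * r) := ⟨Nat.mul_ne_zero (NeZero.ne L) (NeZero.ne r)⟩
  have h1 : IsModFunG (Gamma L) (swhA L M H i) :=
    (rtk6b_swhA_isModFunG H hML i).mono (es1r_gamma_le_gammaH hML H)
  have h2 : IsModFunG (Gamma L) (fun z => swhA L M H i (D.gW • z)) :=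
    h1.comp_normalizer D.gW (fun γ hγ => (Gamma_normal L).conj_mem γ hγ D.gW)
  exact es1rc_isModFunG_comp_scaleN r h2 (fun γ hγ => rtk6b_companion_mem_Gamma hγ)

end Member

end Fermat.Agent.RT.K6
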