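import Fermat.Agent.RT.K6.BMain

/-!
# RT-K6 / B (9): the Galois action on the targets (helper96)

For `σ ∈ Gal(ℚ̄/ℚ)` with `σ ζ = ζ^k` on `μ_r`, `k ≡ c` mod `M`, `c ≡ 1` mod `M / r`:
`σ (T_a) = T_{a c}` coefficientwise, hence `σ (tB i) = tB (i • c)`.
-/

set_option autoImplicit false
set_option linter.style.haveILetI false
set_option linter.unusedSectionVars false

open UpperHalfPlane ModularForm CongruenceSubgroup Matrix
open Fermat.Agent.ES Fermat.Agent.S23 Fermat.Agent.S24 Fermat.Agent.S28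
open Fermat.Agent.ES1 Fermat.Agent.ES1.G2 Fermat.Agent.ES.G2 ModularCurve
open scoped MatrixGroups Manifold Real

noncomputable section

namespace Fermat.Agent.RT.K6

/-! ### reindexing by multiplication by `k` modulo `r` -/

section Reindex

variable (r : ℕ) [NeZero r] (k : ℕ) (hk : Nat.Coprime k r)

/-- `j ↦ k j mod r` -/
def rtk6bMulFin (j : Fin r) : Fin r :=
  ⟨(k * (j : ℕ)) % r, Nat.mod_lt _ (Nat.pos_of_ne_zero (NeZero.ne r))⟩

include hk in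
theorem rtk6bMulFin_injective : Function.Injective (rtk6bMulFin r k) := by
  intro a b hab
  have h1 : (k * (a : ℕ)) % r = (k * (b : ℕ)) % r := congrArg Fin.val hab
  have h2 : (a : ℕ) ≡ (b : ℕ) [MOD r] :=
    Nat.ModEq.cancel_left_of_coprime (Nat.Coprime.symm hk) h1
  exact Fin.ext (Nat.ModEq.eq_of_lt_of_lt h2 a.2 b.2)

/-- multiplication by `k` as a permutation of `Fin r` -/
def rtk6bMulEquiv (hk' : Nat.Coprime k r) : Fin r ≃ Fin r :=
  Equiv.ofBijective (rtk6bMulFin r k)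
    (Finite.injective_iff_bijective.mp (rtk6bMulFin_injective r k hk'))

include hk in
theorem rtk6b_reindex {K : Type*} [Field K] (u u' : ℕ → ℤ)
    (hu : ∀ j j' : ℕ, j' % r = (k * j) % r → u' j' = u j) (G : ℕ → K)
    (hG : ∀ x y : ℕ, x % r = y % r → G x = G y) :
    ∑ j : Fin r, ((u (j : ℕ) : ℤ) : K) * G (k * (j : ℕ)) =
      ∑ j : Fin r, ((u' (j : ℕ) : ℤ) : K) * G (j : ℕ) := by
  refine Fintype.sum_equiv (rtk6bMulEquiv r k hk) _ _ fun j => ?_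
  have h1 : ((rtk6bMulEquiv r k hk j : Fin r) : ℕ) = (k * (j : ℕ)) % r := rfl
  rw [h1, hu j ((k * (j : ℕ)) % r) (Nat.mod_mod _ _), hG (k * (j : ℕ)) ((k * (j : ℕ)) % r)
    (Nat.mod_mod _ _).symm]

end Reindex

/-! ### the coefficients -/

section Coef

variable {K : Type*} [Field K] (r : ℕ) [NeZero r] (ξ ξ' : K) (hξ : ξ ^ r = 1) (hξ' : ξ' ^ r = 1)
  (k : ℕ) (hk : Nat.Coprime k r) (ω ω' : ℤ → ℤ → ℤ)
  (hω : ∀ (c₀ : ℤ) (j j' : ℕ), j' % r = (k * j) % r → ω' c₀ j' = ω c₀ j)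

theorem rtk6b_pow_congr {ζ : K} (hζ : ζ ^ r = 1) {x y : ℕ} (h : x % r = y % r) :
    ζ ^ x = ζ ^ y := by
  rw [pow_eq_pow_mod x hζ, pow_eq_pow_mod y hζ, h]

include hξ hk hω in
theorem rtk6bAf_galois (c₀ n : ℕ) :
    rtk6bAf K r (ξ ^ k) ω c₀ n = rtk6bAf K r ξ ω' c₀ n := by
  unfold rtk6bAf
  have h := rtk6b_reindex r k hk (fun j => ω c₀ j) (fun j => ω' c₀ j)
    (fun j j' hj => hω c₀ j j' hj) (fun x => ξ ^ (x * n)) (fun x y hxy => by
      apply rtk6b_pow_congr r hξ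
      rw [Nat.mul_mod, hxy, ← Nat.mul_mod])
  rw [← h]
  refine Finset.sum_congr rfl fun j _ => ?_
  rw [← pow_mul, mul_assoc]

include hξ' hk hω in
theorem rtk6bK0_galois : rtk6bK0 K r (ξ' ^ k) ω = rtk6bK0 K r ξ' ω' := by
  unfold rtk6bK0
  congr 1
  refine Finset.sum_congr rfl fun j _ => ?_
  congr 1
  have h := rtk6b_reindex r k hk (fun b => ω 0 b) (fun b => ω' 0 b)
    (fun b b' hb => hω 0 b b' hb) (fun x => ξ' ^ (x * (j : ℕ))) (fun x y hxy => by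
      apply rtk6b_pow_congr r hξ'
      rw [Nat.mul_mod, hxy, ← Nat.mul_mod])
  rw [← h]
  refine Finset.sum_congr rfl fun b _ => ?_
  rw [← pow_mul, mul_assoc]

include hξ hξ' hk hω in
theorem rtk6bCoef_galois (m : ℕ) :
    rtk6bCoef K r (ξ ^ k) (ξ' ^ k) ω m = rtk6bCoef K r ξ ξ' ω' m := by
  unfold rtk6bCoef
  rw [rtk6bK0_galois r ξ' hξ' k hk ω ω' hω]
  congr 1
  refine Finset.sum_congr rfl fun c _ => ?_
  rw [rtk6bAf_galois r ξ hξ k hk ω ω' hω]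

include hξ hξ' hk hω in
theorem rtk6bT_galois :
    rtk6bT K r (ξ ^ k) (ξ' ^ k) ω = rtk6bT K r ξ ξ' ω' := by
  unfold rtk6bT
  have h : rtk6bSer K r (ξ ^ k) (ξ' ^ k) ω = rtk6bSer K r ξ ξ' ω' := by
    ext m
    rw [rtk6bSer, rtk6bSer, PowerSeries.coeff_mk, PowerSeries.coeff_mk]
    exact rtk6bCoef_galois r ξ ξ' hξ hξ' k hk ω ω' hω m
  rw [h]

end Coef

/-! ### the weights -/

theorem rtk6bOm_galois {M M' r : ℕ} (hM : (M : ℤ) = (M' : ℤ) * (r : ℤ)) (s f : ℤ)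
    (hs : (r : ℤ) ∣ s) (hf : (M' : ℤ) ∣ f) (a : ZMod M) (c : (ZMod M)ˣ) (k : ℤ)
    (hck : (c : ZMod M) = (k : ZMod M)) (hk : (M' : ℤ) ∣ k - 1) (c₀ j j' : ℤ)
    (hj : (r : ℤ) ∣ j' - k * j) :
    rtk6bOm M s f (a * c) c₀ j' = rtk6bOm M s f a c₀ j := by
  unfold rtk6bOm
  have h1 : (((c₀ * s - j' * f : ℤ) : ℤ) : ZMod M) =
      (((c₀ * s - j * f : ℤ) : ℤ) : ZMod M) * (c : ZMod M) := by
    rw [hck, ← Int.cast_mul, ZMod.intCast_eq_intCast_iff_dvd_sub, hM]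
    obtain ⟨s', rfl⟩ := hs
    obtain ⟨f', rfl⟩ := hf
    obtain ⟨k', hk'⟩ := hk
    obtain ⟨q, hq⟩ := hj
    have hk2 : k = 1 + M' * k' := by linear_combination hk'
    have hj2 : j' = k * j + r * q := by linear_combination hq
    refine ⟨c₀ * s' * k' + f' * q, ?_⟩
    rw [hj2, hk2]
    ring
  rw [h1]
  exact rtk6bWa_mul_unit M c a _

/-! ### the Galois action on the targets -/

section Galois

variable {L M r : ℕ} [NeZero L] [NeZero M] [NeZero r] (D : RtBDat L M r)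
  (H : Subgroup (ZMod M)ˣ)

theorem rtk6bXiB'_pow (r : ℕ) [NeZero r] : rtk6bXiB' r ^ r = 1 := by
  have h := congrArg (· ^ r) (rtk6bXiB_mul r)
  simp only [mul_pow, rtk6bXiB_pow, one_mul, one_pow] at h
  exact h

theorem rtk6bTx_neg (e : ℕ) [NeZero e] (he : e * M ∣ L) (x : ZMod M) :
    rtk6bTx D e (-x) = rtk6bTx D e x := by
  apply br_coeffMap_embC_injective
  rw [rtk6b_coeffMap_Tx, rtk6b_coeffMap_Tx,
    ← laurentOf_rtk6bPsi M r D.s (D.f e) _ (D.hrf (NeZero.ne e) he),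
    ← laurentOf_rtk6bPsi M r D.s (D.f e) _ (D.hrf (NeZero.ne e) he), rtk6bPsi_neg]

theorem rtk6bTx_galois (σ : Kb ≃ₐ[ℚ] Kb) (c : (ZMod M)ˣ) (hc : IsCycAt M r σ c)
    (e : ℕ) [NeZero e] (he : e * M ∣ L) (x : ZMod M) :
    coeffMap (σ : Kb →+* Kb) (rtk6bTx D e x) = rtk6bTx D e (x * (c : ZMod M)) := by
  unfold rtk6bTx
  rw [rtk6b_coeffMap_T]
  have h1 : (σ : Kb →+* Kb) (rtk6bXiB r) = rtk6bXiB r ^ ((c : ZMod M).val) :=
    hc.1 _ (rtk6bXiB_pow r)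
  have h2 : (σ : Kb →+* Kb) (rtk6bXiB' r) = rtk6bXiB' r ^ ((c : ZMod M).val) :=
    hc.1 _ (rtk6bXiB'_pow r)
  rw [h1, h2]
  have hrM : r ∣ M := Dvd.intro_left D.M' D.hM.symm
  have hcop : Nat.Coprime (c : ZMod M).val r :=
    Nat.Coprime.coprime_dvd_right hrM (ZMod.val_coe_unit_coprime c)
  have hM' : M / r = D.M' := Nat.div_eq_of_eq_mul_left D.hr.pos D.hM
  have hk : (D.M' : ℤ) ∣ (((c : ZMod M).val : ℕ) : ℤ) - 1 := by
    have h3 := hc.2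
    unfold IsAtR at h3
    rw [hM'] at h3
    rw [← ZMod.intCast_eq_intCast_iff_dvd_sub]
    push_cast
    exact h3.symm
  apply rtk6bT_galois r _ _ (rtk6bXiB_pow r) (rtk6bXiB'_pow r) (c : ZMod M).val hcop
  intro c₀ j j' hj
  refine rtk6bOm_galois D.hMZ D.s (D.f e) (Dvd.intro _ rfl) (D.M'_dvd_f (NeZero.ne e) he) x c
    (((c : ZMod M).val : ℕ) : ℤ) ?_ hk c₀ j j' ?_
  · rw [Int.cast_natCast, ZMod.natCast_zmod_val]
  · have h4 : ((c : ZMod M).val * j) ≡ j' [MOD r] := hj.symm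
    have h5 := (Nat.modEq_iff_dvd).mp h4
    push_cast at h5
    exact h5

theorem rtk6b_swhB_rational (φ : Kb →+* Kb) (i : SwhIx L M) :
    coeffMap φ (swhB L M H i) = swhB L M H i := by
  rcases i with ⟨d, hd⟩ | ⟨⟨e, a⟩, he⟩
  · haveI := swh_neZero_of_dvd L hd
    rw [swhB_inl]
    exact coeffMap_jqNModC φ d
  · haveI := swh_neZero_of_mul_dvd L M he
    rw [swhB_inr]
    exact es1f_coeffMap_qExpand_sS φ M H a e

theorem rtk6bTB_galois (σ : Kb ≃ₐ[ℚ] Kb) (c : (ZMod M)ˣ) (hc : IsCycAt M r σ c)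
    (i : SwhIx L M) :
    coeffMap (σ : Kb →+* Kb) (rtk6bTB D H i) = rtk6bTB D H (rtk6bAct c i) := by
  rcases i with d | ⟨⟨e, a⟩, he⟩
  · exact rtk6b_swhB_rational H _ (Sum.inl (rtk6bSd D d))
  · haveI := swh_neZero_of_mul_dvd L M he
    show coeffMap _ (rtk6bTB D H (Sum.inr ⟨(e, a), he⟩)) =
      rtk6bTB D H (Sum.inr ⟨(e, a * c), he⟩)
    rw [rtk6bTB_inr, rtk6bTB_inr, map_sum]
    simp_rw [coeffMap_qExpand, rtk6bTx_galois D σ c hc e he]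
    exact es1rc_sum_cosetReps_mul H a c (fun x => qExpand Kb e (rtk6bTx D e x))
      (fun x => by rw [rtk6bTx_neg D e he])

end Galois

end Fermat.Agent.RT.K6
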