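import Fermat.Agent.RT.K6.BFam
import Fermat.Agent.ES1.RCGamma

/-!
# RT-K6 / B (7): the star involution, invariance of the targets, membership (helper96)

* `IsStarOf M r u v` : `v ≡ u⁻¹` mod `r`, `v ≡ u` mod `M / r`;
* `rtk6b_conj_star` : the class of `W g W⁻¹` is the star of the class of `g` (`g ∈ Γ₀(L)`);
* `rtk6bTA_smul` : `TA i (g • τ) = TA (i • v) τ`, `v` the star of the class of `g`;
* `rtk6bTB_mem` : for star-stable `H` the targets lie in `fieldBar L M H`.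
-/

set_option autoImplicit false
set_option linter.style.haveILetI false
set_option linter.unusedSectionVars false

open UpperHalfPlane ModularForm CongruenceSubgroup Matrix
open Fermat.Agent.ES Fermat.Agent.S23 Fermat.Agent.S24 Fermat.Agent.S28
open Fermat.Agent.ES1 Fermat.Agent.ES1.G2 Fermat.Agent.ES.G2 ModularCurve
open scoped MatrixGroups Manifold Real

noncomputable section

namespace Fermat.Agent.RT.K6

/-! ### the star relation -/

theorem rtk6b_val_cast {M n : ℕ} [NeZero M] (hn : n ∣ M) (x : ZMod M) :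
    (((x.val : ℕ)) : ZMod n) = ZMod.castHom hn (ZMod n) x := by
  rw [ZMod.natCast_val, ZMod.castHom_apply]

/-- `v` is the star of `u`: `v ≡ u⁻¹` mod `r` and `v ≡ u` mod `M / r` -/
def IsStarOf (M r : ℕ) (u v : (ZMod M)ˣ) : Prop :=
  (((v : ZMod M).val : ℕ) : ZMod r) = ((((u⁻¹ : (ZMod M)ˣ) : ZMod M).val : ℕ) : ZMod r) ∧
    (((v : ZMod M).val : ℕ) : ZMod (M / r)) = (((u : ZMod M).val : ℕ) : ZMod (M / r))

theorem isStarStable_iff {M r : ℕ} {H : Subgroup (ZMod M)ˣ} :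
    IsStarStable M r H ↔ ∀ h ∈ H, ∀ h' : (ZMod M)ˣ, IsStarOf M r h h' → h' ∈ pmH H :=
  ⟨fun hs h hh h' hst => hs h hh h' hst.1 hst.2, fun hs h hh h' h1 h2 => hs h hh h' ⟨h1, h2⟩⟩

section Star

variable {M r : ℕ} [NeZero M] (hr : r ∣ M)

include hr

theorem isStarOf_iff (u v : (ZMod M)ˣ) :
    IsStarOf M r u v ↔
      ZMod.castHom hr (ZMod r) (v : ZMod M) =
          ZMod.castHom hr (ZMod r) ((u⁻¹ : (ZMod M)ˣ) : ZMod M) ∧
        ZMod.castHom (Nat.div_dvd_of_dvd hr) (ZMod (M / r)) (v : ZMod M) =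
          ZMod.castHom (Nat.div_dvd_of_dvd hr) (ZMod (M / r)) (u : ZMod M) := by
  unfold IsStarOf
  rw [rtk6b_val_cast hr, rtk6b_val_cast hr, rtk6b_val_cast (Nat.div_dvd_of_dvd hr),
    rtk6b_val_cast (Nat.div_dvd_of_dvd hr)]

theorem IsStarOf.neg {u v : (ZMod M)ˣ} (h : IsStarOf M r u v) : IsStarOf M r (-u) (-v) := by
  rw [isStarOf_iff hr] at h ⊢
  have e1 : (((-u)⁻¹ : (ZMod M)ˣ) : ZMod M) = -((u⁻¹ : (ZMod M)ˣ) : ZMod M) := by
    rw [inv_neg, Units.val_neg]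
  rw [e1, Units.val_neg, Units.val_neg, map_neg, map_neg, map_neg, map_neg, h.1, h.2]
  exact ⟨rfl, rfl⟩

/-- star-stability passes to `±H` -/
theorem rtk6b_star_pmH {H : Subgroup (ZMod M)ˣ} (hs : IsStarStable M r H) {u v : (ZMod M)ˣ}
    (hu : u ∈ pmH H) (hst : IsStarOf M r u v) : v ∈ pmH H := by
  obtain ⟨h, hh, rfl | rfl⟩ := es1rc_exists_of_mem_pmH hu
  · exact isStarStable_iff.mp hs u hh v hst
  · have h1 := IsStarOf.neg hr hst
    rw [neg_neg] at h1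
    have h2 := isStarStable_iff.mp hs h hh (-v) h1
    have h3 : v = (-v) * (-1) := by rw [mul_neg, mul_one, neg_neg]
    rw [h3]
    exact mul_mem h2 (neg_one_mem_pmH H)

theorem isStarOf_inv_of_isAtR {c : (ZMod M)ˣ} (hc : IsAtR M r c) : IsStarOf M r c⁻¹ c := by
  rw [isStarOf_iff hr]
  unfold IsAtR at hc
  rw [rtk6b_val_cast (Nat.div_dvd_of_dvd hr)] at hc
  refine ⟨by rw [inv_inv], ?_⟩
  have h1 : ZMod.castHom (Nat.div_dvd_of_dvd hr) (ZMod (M / r)) (c : ZMod M) *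
      ZMod.castHom (Nat.div_dvd_of_dvd hr) (ZMod (M / r)) ((c⁻¹ : (ZMod M)ˣ) : ZMod M) = 1 := by
    rw [← map_mul, ← Units.val_mul, mul_inv_cancel, Units.val_one, map_one]
  rw [hc, one_mul] at h1
  rw [hc, h1]

theorem isStarOf_of_isAtR {c : (ZMod M)ˣ} (hc : IsAtR M r c) : IsStarOf M r c c⁻¹ := by
  rw [isStarOf_iff hr]
  unfold IsAtR at hc
  rw [rtk6b_val_cast (Nat.div_dvd_of_dvd hr)] at hc
  refine ⟨rfl, ?_⟩
  have h1 : ZMod.castHom (Nat.div_dvd_of_dvd hr) (ZMod (M / r)) (c : ZMod M) *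
      ZMod.castHom (Nat.div_dvd_of_dvd hr) (ZMod (M / r)) ((c⁻¹ : (ZMod M)ˣ) : ZMod M) = 1 := by
    rw [← map_mul, ← Units.val_mul, mul_inv_cancel, Units.val_one, map_one]
  rw [hc, one_mul] at h1
  rw [hc, h1]

end Star

/-- uniqueness of the star (CRT) -/
theorem IsStarOf.unique {L M r : ℕ} [NeZero M] (D : RtBDat L M r) {u v v' : (ZMod M)ˣ}
    (h : IsStarOf M r u v) (h' : IsStarOf M r u v') : v = v' := by
  have hrM : r ∣ M := Dvd.intro_left D.M' D.hM.symm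
  rw [isStarOf_iff hrM] at h h'
  have h1 := h.1.trans h'.1.symm
  have h2 := h.2.trans h'.2.symm
  apply Units.ext
  obtain ⟨a, ha⟩ := ZMod.intCast_surjective (v : ZMod M)
  obtain ⟨b, hb⟩ := ZMod.intCast_surjective (v' : ZMod M)
  rw [← ha, ← hb] at h1 h2 ⊢
  rw [map_intCast, map_intCast, ZMod.intCast_eq_intCast_iff_dvd_sub] at h1 h2
  rw [ZMod.intCast_eq_intCast_iff_dvd_sub]
  have hM' : M / r = D.M' := Nat.div_eq_of_eq_mul_left D.hr.pos D.hM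
  rw [hM'] at h2
  have hcop : IsCoprime (D.M' : ℤ) (r : ℤ) := by
    have h3 : Nat.Coprime r D.L' := (Nat.Prime.coprime_iff_not_dvd D.hr).mpr D.hrL
    have h4 : Nat.Coprime r D.M' := Nat.Coprime.coprime_dvd_right D.hML h3
    exact (Nat.isCoprime_iff_coprime.mpr h4).symm
  rw [D.hMZ]
  exact hcop.mul_dvd h2 h1

/-! ### the class of `W g W⁻¹` -/

section Conj

variable {L M r : ℕ} [NeZero L] [NeZero M] [NeZero r] (D : RtBDat L M r)
  (H : Subgroup (ZMod M)ˣ)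

include D in
theorem rtk6b_gamma0_LM {g : SL(2, ℤ)} (hg : g ∈ Gamma0 L) : g ∈ Gamma0 M :=
  Fermat.Agent.ES.RC.rc_Gamma0_le_of_dvd D.M_dvd_L hg

/-- **(N)**, class form -/
theorem rtk6b_conj_star (g : SL(2, ℤ)) (hg : g ∈ Gamma0 L) :
    IsStarOf M r (diamHom M ⟨g, rtk6b_gamma0_LM D hg⟩)
      (diamHom M ⟨rtk6bConj D g (rtk6b_dvd_of_mem D hg),
        rtk6b_gamma0_LM D (rtk6bConj_mem D g hg)⟩) := by
  have hrM : r ∣ M := Dvd.intro_left D.M' D.hM.symm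
  have hM' : M / r = D.M' := Nat.div_eq_of_eq_mul_left D.hr.pos D.hM
  rw [isStarOf_iff hrM, coe_diamHom, coe_inv_diamHom, coe_diamHom]
  simp only [map_intCast]
  constructor
  · rw [ZMod.intCast_eq_intCast_iff_dvd_sub]
    have h := rtk6bConj_00_modr D g hg
    rw [← neg_sub] 
    exact (dvd_neg.mpr h)
  · rw [ZMod.intCast_eq_intCast_iff_dvd_sub]
    have h := rtk6bConj_00_modL' D g hg
    rw [← neg_sub, dvd_neg]
    refine Dvd.dvd.trans ?_ h
    rw [hM']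
    exact_mod_cast D.hML

/-- the action of a class on the indices -/
def rtk6bAct (u : (ZMod M)ˣ) : SwhIx L M → SwhIx L M
  | Sum.inl d => Sum.inl d
  | Sum.inr p => Sum.inr ⟨(p.1.1, p.1.2 * u), p.2⟩

theorem rtk6bAct_mul (u v : (ZMod M)ˣ) (i : SwhIx L M) :
    rtk6bAct v (rtk6bAct u i) = rtk6bAct (u * v) i := by
  rcases i with d | ⟨⟨e, a⟩, he⟩
  · rfl
  · show Sum.inr _ = Sum.inr _
    congr 3
    exact mul_assoc a u v

theorem rtk6bAct_one (i : SwhIx L M) : rtk6bAct (1 : (ZMod M)ˣ) i = i := by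
  rcases i with d | ⟨⟨e, a⟩, he⟩
  · rfl
  · show Sum.inr _ = Sum.inr _
    congr 3
    exact mul_one a

theorem rtk6b_Jfun_scaleN_smul {d : ℕ} [NeZero d] (hd : d ∣ L) (g : SL(2, ℤ))
    (hg : g ∈ Gamma0 L) (τ : ℍ) : Jfun (scaleN d (g • τ)) = Jfun (scaleN d τ) := by
  have hg' := hg
  rw [Gamma0_mem, ZMod.intCast_zmod_eq_zero_iff_dvd] at hg'
  have hdvd : (d : ℤ) ∣ g 1 0 := (Int.natCast_dvd_natCast.mpr hd).trans hg'
  rw [P7_thetaCompanion_smul d g hdvd τ, Jfun_smul_SL]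

/-- the generators under `Γ₀(L)` -/
theorem rtk6b_swhA_smul (g : SL(2, ℤ)) (hg : g ∈ Gamma0 L) (i : SwhIx L M) (τ : ℍ) :
    swhA L M H i (g • τ) =
      swhA L M H (rtk6bAct (diamHom M ⟨g, rtk6b_gamma0_LM D hg⟩) i) τ := by
  rcases i with ⟨d, hd⟩ | ⟨⟨e, a⟩, he⟩
  · haveI := swh_neZero_of_dvd L hd
    show swhA L M H (Sum.inl ⟨d, hd⟩) (g • τ) = swhA L M H (Sum.inl ⟨d, hd⟩) τ
    rw [swhA_inl, swhA_inl]
    exact rtk6b_Jfun_scaleN_smul hd g hg τ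
  · haveI := swh_neZero_of_mul_dvd L M he
    show swhA L M H (Sum.inr ⟨(e, a), he⟩) (g • τ) =
      swhA L M H (Sum.inr ⟨(e, a * diamHom M ⟨g, rtk6b_gamma0_LM D hg⟩), he⟩) τ
    rw [swhA_inr, swhA_inr]
    exact es1rcThetaE_smul_of_mem H a e he g hg (rtk6b_gamma0_LM D hg) τ

/-- the generators only depend on the class modulo `±H` -/
theorem rtk6b_swhA_act_of_mem {u : (ZMod M)ˣ} (hu : u ∈ pmH H) (i : SwhIx L M) :
    swhA L M H (rtk6bAct u i) = swhA L M H i := by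
  rcases i with ⟨d, hd⟩ | ⟨⟨e, a⟩, he⟩
  · rfl
  · haveI := swh_neZero_of_mul_dvd L M he
    funext τ
    show swhA L M H (Sum.inr ⟨(e, a * u), he⟩) τ = swhA L M H (Sum.inr ⟨(e, a), he⟩) τ
    rw [swhA_inr, swhA_inr]
    exact congrFun (es1rcThetaE_eq_of_mem H a e hu) τ

/-- the targets under `Γ₀(L)` -/
theorem rtk6bTA_smul (g : SL(2, ℤ)) (hg : g ∈ Gamma0 L) (i : SwhIx L M) (τ : ℍ) :
    rtk6bTA D H i (g • τ) =
      rtk6bTA D H (rtk6bAct (diamHom M ⟨rtk6bConj D g (rtk6b_dvd_of_mem D hg),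
        rtk6b_gamma0_LM D (rtk6bConj_mem D g hg)⟩) i) τ := by
  unfold rtk6bTA
  rw [rtk6b_W_smul D g (rtk6b_dvd_of_mem D hg) τ]
  exact rtk6b_swhA_smul D H _ (rtk6bConj_mem D g hg) i (D.W τ)

/-- the targets under `W`: `TA i ∘ W = A (i • c₂)` -/
theorem rtk6bTA_W (i : SwhIx L M) (τ : ℍ) :
    rtk6bTA D H i (D.W τ) =
      swhA L M H (rtk6bAct (diamHom M ⟨rtk6bSq D, rtk6b_gamma0_LM D (rtk6bSq_mem D)⟩) i) τ := by
  unfold rtk6bTA
  rw [rtk6b_W_W D τ]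
  exact rtk6b_swhA_smul D H _ (rtk6bSq_mem D) i τ

/-- for star-stable `H` the targets are modular functions for `Γ_H(M) ∩ Γ₀(L)` -/
theorem rtk6bTA_isModFunG (hs : IsStarStable M r H) (i : SwhIx L M) :
    IsModFunG (gammaH L M H) (rtk6bTA D H i) := by
  have hML := D.M_dvd_L
  have hrM : r ∣ M := Dvd.intro_left D.M' D.hM.symm
  haveI : NeZero (L * r) := ⟨Nat.mul_ne_zero (NeZero.ne L) (NeZero.ne r)⟩
  haveI := es1rc_finiteIndex hML H
  refine (rtk6bTA_isModFunG_Gamma D H hML i).of_invariant fun g hg τ => ?_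
  obtain ⟨hL, hM, hH⟩ := hg
  rw [rtk6bTA_smul D H g hL i τ]
  have hst := rtk6b_conj_star D g hL
  have hmem := rtk6b_star_pmH hrM hs hH hst
  unfold rtk6bTA
  rw [rtk6b_swhA_act_of_mem H hmem i]

/-- **the targets lie in `fieldBar L M H`** -/
theorem rtk6bTB_mem (hs : IsStarStable M r H) (i : SwhIx L M) :
    rtk6bTB D H i ∈ fieldBar L M H := by
  apply rtk6b_mem_fieldBar_of_coeffMap
  rw [← rtk6b_laurentOf_TA D H i]
  exact es1rc_laurentOf_mem_fieldC D.M_dvd_L H (rtk6bTA_isModFunG D H hs i)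

end Conj

end Fermat.Agent.RT.K6
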