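import Fermat.Agent.ES1.F2Series
import Fermat.Agent.S23.Basic

/-!
# RT-K6 / B (1): the `q`-expansion of a weight `3` Eisenstein series at the "other" cusp

For a bounded odd weight `ω : ℤ → ℤ → ℂ` with `ω c (d + r) = ω c d`, the series
`E(z) = ∑_{(c,d)} ω(c,d) (c · r z + d)⁻³` is
`∑_d ω(0,d) d⁻³ + 2 · ((-2πi)³/2!) · r⁻³ · ∑_{m ≥ 1} (∑_{c ∣ m} (∑_{j < r} ω(c,j) ζ^{j (m/c)}) (m/c)²) q^m`,
`ζ = e^{2πi/r}`, `q = e^{2πiz}` (helper96).
-/

set_option autoImplicit false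

open EisensteinSeries UpperHalfPlane ModularForm CongruenceSubgroup Matrix Filter Topology
open Fermat.Agent.ES Fermat.Agent.S48 Fermat.Agent.S23
open scoped MatrixGroups Manifold Real

noncomputable section

namespace Fermat.Agent.RT.K6

/-! ### splitting a sum over `ℤ` into residue classes -/

theorem rtk6b_summable_residue (r : ℕ) [NeZero r] (F : ℤ → ℂ) (hF : Summable F) (j : Fin r) :
    Summable fun k : ℤ => F (k * r + (j : ℕ)) := by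
  have h1 : Summable fun p : ℤ × Fin r => F ((Int.divModEquiv r).symm p) :=
    (Int.divModEquiv r).symm.summable_iff.mpr hF
  exact h1.prod_symm.prod_factor j

theorem rtk6b_tsum_residue (r : ℕ) [NeZero r] (F : ℤ → ℂ) (hF : Summable F) :
    ∑' d : ℤ, F d = ∑ j : Fin r, ∑' k : ℤ, F (k * r + (j : ℕ)) := by
  have h1 : Summable fun p : ℤ × Fin r => F ((Int.divModEquiv r).symm p) :=
    (Int.divModEquiv r).symm.summable_iff.mpr hF
  rw [← (Int.divModEquiv r).symm.tsum_eq F, Summable.tsum_prod h1]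
  have h3 : ∀ k : ℤ, ∑' j : Fin r, F ((Int.divModEquiv r).symm (k, j)) =
      ∑ j : Fin r, F (k * r + (j : ℕ)) := fun k => by
    rw [tsum_fintype]; rfl
  simp_rw [h3]
  rw [Summable.tsum_finsetSum]
  intro j _
  exact h1.prod_symm.prod_factor j

/-! ### a Lambert series rearrangement with a twist depending on both variables -/

theorem rtk6b_summable_twist (k : ℕ) {q : ℂ} (hq : ‖q‖ < 1) (A : ℕ → ℕ → ℂ) {B : ℝ}
    (hA : ∀ c n, ‖A c n‖ ≤ B) :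
    Summable fun c : ℕ+ × ℕ+ => A c.1 c.2 * ((c.2 : ℂ) ^ k * q ^ (c.1 * c.2 : ℕ)) := by
  have h := (summable_prod_mul_pow (𝕜 := ℝ) k (r := ‖q‖) (by simpa using hq)).mul_left B
  refine Summable.of_norm_bounded h fun c => ?_
  rw [norm_mul, norm_mul, norm_pow, norm_pow, Complex.norm_natCast]
  apply mul_le_mul_of_nonneg_right (hA _ _)
  positivity

theorem rtk6b_tsum_twist (k : ℕ) {q : ℂ} (hq : ‖q‖ < 1) (A : ℕ → ℕ → ℂ) {B : ℝ}
    (hA : ∀ c n, ‖A c n‖ ≤ B) :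
    ∑' d : ℕ+, ∑' c : ℕ+, A d c * ((c : ℂ) ^ k * q ^ (d * c : ℕ)) =
      ∑' e : ℕ+, (∑ d ∈ (e : ℕ).divisors, A d (e / d) * ((e / d : ℕ) : ℂ) ^ k) * q ^ (e : ℕ) := by
  have hs := rtk6b_summable_twist k hq A hA
  rw [← hs.tsum_prod (f := fun c : ℕ+ × ℕ+ => A c.1 c.2 * ((c.2 : ℂ) ^ k * q ^ (c.1 * c.2 : ℕ)))]
  rw [← sigmaAntidiagonalEquivProd.tsum_eq]
  have hs' : Summable fun x : (Σ n : ℕ+, Nat.divisorsAntidiagonal n) =>
      (fun c : ℕ+ × ℕ+ => A c.1 c.2 * ((c.2 : ℂ) ^ k * q ^ (c.1 * c.2 : ℕ)))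
        (sigmaAntidiagonalEquivProd x) :=
    sigmaAntidiagonalEquivProd.summable_iff.mpr hs
  rw [hs'.tsum_sigma]
  refine tsum_congr fun n => ?_
  rw [tsum_fintype, Finset.univ_eq_attach]
  have h1 : ∀ x : Nat.divisorsAntidiagonal n,
      (fun c : ℕ+ × ℕ+ => A c.1 c.2 * ((c.2 : ℂ) ^ k * q ^ (c.1 * c.2 : ℕ)))
        (sigmaAntidiagonalEquivProd ⟨n, x⟩) =
      (fun y : ℕ × ℕ => A y.1 y.2 * ((y.2 : ℂ) ^ k * q ^ (y.1 * y.2))) x.1 := by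
    intro x
    simp [sigmaAntidiagonalEquivProd, divisorsAntidiagonalFactors]
  simp_rw [h1]
  rw [(n : ℕ).divisorsAntidiagonal.sum_attach
    (fun y : ℕ × ℕ => A y.1 y.2 * ((y.2 : ℂ) ^ k * q ^ (y.1 * y.2)))]
  rw [Nat.sum_divisorsAntidiagonal (fun x y => A x y * ((y : ℂ) ^ k * q ^ (x * y)))]
  rw [Finset.sum_mul]
  refine Finset.sum_congr rfl fun i hi => ?_
  rw [Nat.mul_div_cancel' (Nat.dvd_of_mem_divisors hi)]
  ring

theorem rtk6b_summable_divisor_sum (k : ℕ) {q : ℂ} (hq : ‖q‖ < 1) (A : ℕ → ℕ → ℂ) {B : ℝ}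
    (hA : ∀ c n, ‖A c n‖ ≤ B) :
    Summable fun e : ℕ+ =>
      (∑ d ∈ (e : ℕ).divisors, A d (e / d) * ((e / d : ℕ) : ℂ) ^ k) * q ^ (e : ℕ) := by
  have hs := rtk6b_summable_twist k hq A hA
  have hs' := sigmaAntidiagonalEquivProd.summable_iff.mpr hs
  have h3 := hs'.sigma
  refine h3.congr fun n => ?_
  rw [tsum_fintype, Finset.univ_eq_attach]
  have h1 : ∀ x : Nat.divisorsAntidiagonal n,
      ((fun c : ℕ+ × ℕ+ => A c.1 c.2 * ((c.2 : ℂ) ^ k * q ^ (c.1 * c.2 : ℕ))) ∘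
          sigmaAntidiagonalEquivProd) ⟨n, x⟩ =
      (fun y : ℕ × ℕ => A y.1 y.2 * ((y.2 : ℂ) ^ k * q ^ (y.1 * y.2))) x.1 := by
    intro x
    simp [sigmaAntidiagonalEquivProd, divisorsAntidiagonalFactors]
  simp_rw [h1]
  rw [(n : ℕ).divisorsAntidiagonal.sum_attach
    (fun y : ℕ × ℕ => A y.1 y.2 * ((y.2 : ℂ) ^ k * q ^ (y.1 * y.2)))]
  rw [Nat.sum_divisorsAntidiagonal (fun x y => A x y * ((y : ℂ) ^ k * q ^ (x * y)))]
  rw [Finset.sum_mul]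
  refine Finset.sum_congr rfl fun i hi => ?_
  rw [Nat.mul_div_cancel' (Nat.dvd_of_mem_divisors hi)]
  ring

/-! ### the `q`-expansion -/

theorem rtk6b_per_int {r : ℕ} {ω : ℤ → ℤ → ℂ} (hper : ∀ c d, ω c (d + r) = ω c d) (c d k : ℤ) :
    ω c (k * r + d) = ω c d := by
  induction k using Int.induction_on with
  | zero => simp
  | succ n ih =>
    have : ((n : ℤ) + 1) * r + d = (n * r + d) + r := by ring
    rw [this, hper, ih]
  | pred n ih =>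
    have h := hper c ((-(n : ℤ) - 1) * r + d)
    have : (-(n : ℤ) - 1) * r + d + r = -(n : ℤ) * r + d := by ring
    rw [this] at h
    rw [← h, ih]

/-- the point `b z + j / r` of `ℍ` -/
def rtk6bPt (r : ℕ) [NeZero r] (b : ℕ+) (j : ℕ) (z : ℍ) : ℍ :=
  ⟨(b : ℕ) * (z : ℂ) + (j : ℂ) / (r : ℂ), by
    have h1 : (((b : ℕ) : ℂ) * (z : ℂ) + (j : ℂ) / (r : ℂ)).im = (b : ℕ) * z.im := by
      have h2 : ((j : ℂ) / (r : ℂ)).im = 0 := by
        rw [show ((j : ℂ) / (r : ℂ)) = (((j : ℝ) / (r : ℝ) : ℝ) : ℂ) by push_cast; rfl]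
        exact Complex.ofReal_im _
      rw [Complex.add_im, h2, add_zero, Complex.mul_im, Complex.natCast_re, Complex.natCast_im,
        zero_mul, add_zero]
      rfl
    rw [h1]
    exact mul_pos (Nat.cast_pos.mpr b.pos) z.im_pos⟩

theorem coe_rtk6bPt (r : ℕ) [NeZero r] (b : ℕ+) (j : ℕ) (z : ℍ) :
    ((rtk6bPt r b j z : ℍ) : ℂ) = (b : ℕ) * (z : ℂ) + (j : ℂ) / (r : ℂ) := rfl

/-- `ζ_j = e^{2πi j / r}` -/
def rtk6bZ (r : ℕ) (j : ℕ) : ℂ := Complex.exp (2 * π * Complex.I * (j : ℂ) / (r : ℂ))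

theorem norm_rtk6bZ (r j : ℕ) : ‖rtk6bZ r j‖ = 1 := by
  unfold rtk6bZ
  rw [Complex.norm_exp]
  have : (2 * (π : ℂ) * Complex.I * (j : ℂ) / (r : ℂ)).re = 0 := by
    rw [show (2 * (π : ℂ) * Complex.I * (j : ℂ) / (r : ℂ)) =
      (((2 * π * (j : ℝ) / (r : ℝ) : ℝ) : ℂ)) * Complex.I by push_cast; ring]
    rw [Complex.re_ofReal_mul, Complex.I_re, mul_zero]
  rw [this, Real.exp_zero]

theorem rtk6b_exp_pt (r : ℕ) [NeZero r] (b : ℕ+) (j : ℕ) (z : ℍ) (n : ℕ) :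
    Complex.exp (2 * π * Complex.I * (rtk6bPt r b j z : ℍ)) ^ n =
      rtk6bZ r j ^ n * Complex.exp (2 * π * Complex.I * z) ^ ((b : ℕ) * n) := by
  rw [coe_rtk6bPt, rtk6bZ, ← Complex.exp_nat_mul, ← Complex.exp_nat_mul, ← Complex.exp_nat_mul,
    ← Complex.exp_add]
  congr 1
  push_cast
  ring

/-- the twist `A(c, n) = ∑_{j < r} ω(c, j) ζ_j^n` -/
def rtk6bA (r : ℕ) (ω : ℤ → ℤ → ℂ) (c n : ℕ) : ℂ :=
  ∑ j : Fin r, ω c (j : ℕ) * rtk6bZ r j ^ n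

theorem norm_rtk6bA_le (r : ℕ) (ω : ℤ → ℤ → ℂ) (hω : ∀ c d, ‖ω c d‖ ≤ 1) (c n : ℕ) :
    ‖rtk6bA r ω c n‖ ≤ r := by
  unfold rtk6bA
  refine (norm_sum_le _ _).trans ?_
  have : ∀ j ∈ (Finset.univ : Finset (Fin r)), ‖ω c (j : ℕ) * rtk6bZ r j ^ n‖ ≤ 1 := by
    intro j _
    rw [norm_mul, norm_pow, norm_rtk6bZ, one_pow, mul_one]
    exact hω _ _
  refine (Finset.sum_le_sum this).trans ?_
  simp

open Complex Nat in
/-- the inner sum over `d`, for `c = b ≥ 1` -/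
theorem rtk6b_inner (r : ℕ) [NeZero r] (ω : ℤ → ℤ → ℂ) (hω : ∀ c d, ‖ω c d‖ ≤ 1)
    (hper : ∀ c d, ω c (d + r) = ω c d) (z : ℍ) (b : ℕ+) :
    ∑' d : ℤ, ω ((b : ℕ) : ℤ) d * eisSummand 3 ![((b : ℕ) : ℤ), d] (scaleN r z) =
      ((-2 * π * Complex.I) ^ 3 / (3 - 1)!) * ((r : ℂ) ^ 3)⁻¹ *
        ∑' n : ℕ+, rtk6bA r ω b n *
          (((n : ℕ) : ℂ) ^ (3 - 1) * cexp (2 * π * Complex.I * z) ^ ((b : ℕ) * (n : ℕ))) := by
  have hr0 : (r : ℂ) ≠ 0 := Nat.cast_ne_zero.mpr (NeZero.ne r)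
  have hsumv := eisC_summable (κ := fun v => ω (v 0) (v 1)) (C := 1) (fun v => hω _ _)
    (k := 3) (le_refl _) (scaleN r z)
  have hsum : Summable fun x : ℤ × ℤ => ω x.1 x.2 * eisSummand 3 ![x.1, x.2] (scaleN r z) := by
    refine (finTwoArrowEquiv ℤ).summable_iff.mp (hsumv.congr fun v => ?_)
    simp [show ![v 0, v 1] = v from List.ofFn_inj.mp rfl]
  have hF := hsum.prod_factor ((b : ℕ) : ℤ)
  rw [rtk6b_tsum_residue r _ hF]
  have H (j : ℕ) := qExpansion_identity_pnat (k := 3 - 1) (by omega) (rtk6bPt r b j z)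
  simp_rw [show 3 - 1 + 1 = 3 by omega] at H
  have hterm : ∀ (j : Fin r) (k : ℤ),
      ω ((b : ℕ) : ℤ) (k * r + (j : ℕ)) *
        eisSummand 3 ![((b : ℕ) : ℤ), k * r + (j : ℕ)] (scaleN r z) =
      ω ((b : ℕ) : ℤ) (j : ℕ) * ((r : ℂ) ^ 3)⁻¹ *
        (1 / (((rtk6bPt r b j z : ℍ) : ℂ) + k) ^ 3) := by
    intro j k
    rw [rtk6b_per_int hper]
    have h1 : eisSummand 3 ![((b : ℕ) : ℤ), k * r + (j : ℕ)] (scaleN r z) =
        ((((b : ℕ) : ℂ) * ((r : ℂ) * z) + ((k : ℂ) * r + (j : ℕ))) ^ 3)⁻¹ := by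
      simp [eisSummand, coe_scaleN]
    rw [h1, coe_rtk6bPt]
    have h2 : ((b : ℕ) : ℂ) * ((r : ℂ) * z) + ((k : ℂ) * r + (j : ℕ)) =
        (r : ℂ) * (((b : ℕ) : ℂ) * (z : ℂ) + ((j : ℕ) : ℂ) / (r : ℂ) + k) := by
      field_simp
      ring
    rw [h2, mul_pow, mul_inv, one_div]
    ring
  simp_rw [hterm, tsum_mul_left, H, rtk6b_exp_pt]
  -- interchange the finite sum and the series
  have hq := norm_exp_two_pi_I_lt_one z
  have hsumj : ∀ j : Fin r, Summable fun n : ℕ+ =>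
      ω ((b : ℕ) : ℤ) (j : ℕ) * rtk6bZ r j ^ (n : ℕ) *
        (((n : ℕ) : ℂ) ^ (3 - 1) * cexp (2 * π * Complex.I * z) ^ ((b : ℕ) * (n : ℕ))) := by
    intro j
    have h := rtk6b_summable_twist (3 - 1) hq
      (fun _ n => ω ((b : ℕ) : ℤ) (j : ℕ) * rtk6bZ r j ^ n) (B := 1) (fun c n => by
        rw [norm_mul, norm_pow, norm_rtk6bZ, one_pow, mul_one]
        exact hω _ _)
    exact h.prod_factor b
  have hrhs : ∑' n : ℕ+, rtk6bA r ω b n *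
        (((n : ℕ) : ℂ) ^ (3 - 1) * cexp (2 * π * Complex.I * z) ^ ((b : ℕ) * (n : ℕ))) =
      ∑ j : Fin r, ∑' n : ℕ+, ω ((b : ℕ) : ℤ) (j : ℕ) * rtk6bZ r j ^ (n : ℕ) *
        (((n : ℕ) : ℂ) ^ (3 - 1) * cexp (2 * π * Complex.I * z) ^ ((b : ℕ) * (n : ℕ))) := by
    rw [← Summable.tsum_finsetSum (fun j _ => hsumj j)]
    refine tsum_congr fun n => ?_
    unfold rtk6bA
    rw [Finset.sum_mul]
  rw [hrhs, Finset.mul_sum]
  refine Finset.sum_congr rfl fun j _ => ?_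
  rw [← tsum_mul_left, ← tsum_mul_left, ← tsum_mul_left]
  refine tsum_congr fun n => ?_
  ring

open Complex Nat in
/-- **the `q`-expansion at the other cusp**, as an identity of functions -/
theorem rtk6b_eisC_tsum (r : ℕ) [NeZero r] (ω : ℤ → ℤ → ℂ) (hω : ∀ c d, ‖ω c d‖ ≤ 1)
    (hper : ∀ c d, ω c (d + r) = ω c d) (hodd : ∀ c d, ω (-c) (-d) = -ω c d) (z : ℍ) :
    eisC (fun v => ω (v 0) (v 1)) 3 (scaleN r z) =
      (∑' d : ℤ, ω 0 d * ((d : ℂ) ^ 3)⁻¹) +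
      2 * (((-2 * π * Complex.I) ^ 3 / (3 - 1)!) * ((r : ℂ) ^ 3)⁻¹ *
        ∑' e : ℕ+, (∑ c ∈ (e : ℕ).divisors,
          rtk6bA r ω c (e / c) * ((e / c : ℕ) : ℂ) ^ (3 - 1)) *
            cexp (2 * π * Complex.I * z) ^ (e : ℕ)) := by
  have hsumv := eisC_summable (κ := fun v => ω (v 0) (v 1)) (C := 1) (fun v => hω _ _)
    (k := 3) (le_refl _) (scaleN r z)
  have hsum : Summable fun x : ℤ × ℤ => ω x.1 x.2 * eisSummand 3 ![x.1, x.2] (scaleN r z) := by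
    refine (finTwoArrowEquiv ℤ).summable_iff.mp (hsumv.congr fun v => ?_)
    simp [show ![v 0, v 1] = v from List.ofFn_inj.mp rfl]
  have hG : eisC (fun v => ω (v 0) (v 1)) 3 (scaleN r z) = ∑' x : ℤ × ℤ,
      ω x.1 x.2 * eisSummand 3 ![x.1, x.2] (scaleN r z) := by
    unfold eisC
    rw [← (finTwoArrowEquiv ℤ).symm.tsum_eq]
    refine tsum_congr fun x => ?_
    simp
  rw [hG, Summable.tsum_prod hsum]
  have heven : Function.Even fun c : ℤ =>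
      ∑' d : ℤ, ω c d * eisSummand 3 ![c, d] (scaleN r z) := by
    intro c
    simp only
    rw [← tsum_comp_neg (fun d : ℤ => ω (-c) d * eisSummand 3 ![-c, d] (scaleN r z))]
    refine tsum_congr fun d => ?_
    have h2 : eisSummand 3 ![-c, -d] (scaleN r z) = -eisSummand 3 ![c, d] (scaleN r z) := by
      simp only [eisSummand, Matrix.cons_val_zero, Matrix.cons_val_one, Int.cast_neg]
      have : (-(c : ℂ) * ((scaleN r z : ℍ) : ℂ) + -(d : ℂ)) =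
          -1 * ((c : ℂ) * (scaleN r z : ℍ) + d) := by ring
      rw [this, mul_zpow]
      have h3 : ((-1 : ℂ)) ^ (-(3 : ℤ)) = -1 := by
        rw [_root_.zpow_neg]
        norm_num [zpow_ofNat]
      rw [h3]
      ring
    rw [hodd, h2]
    ring
  rw [tsum_int_eq_zero_add_two_mul_tsum_pnat heven hsum.prod]
  have h0 : (∑' d : ℤ, ω 0 d * eisSummand 3 ![0, d] (scaleN r z)) =
      ∑' d : ℤ, ω 0 d * ((d : ℂ) ^ 3)⁻¹ := by
    refine tsum_congr fun d => ?_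
    simp [eisSummand]
  rw [h0, nsmul_eq_mul, Nat.cast_ofNat]
  congr 2
  simp_rw [rtk6b_inner r ω hω hper z]
  rw [tsum_mul_left]
  congr 1
  exact rtk6b_tsum_twist (3 - 1) (norm_exp_two_pi_I_lt_one z) (rtk6bA r ω)
    (norm_rtk6bA_le r ω hω)

end Fermat.Agent.RT.K6
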