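import Fermat.Agent.RT.K6.BInv

/-!
# RT-K6 / B (8): the Atkin–Lehner automorphism `w_r` of `fieldBar L M H` (helper96)

The extended family `gB ⊔ tB` (generators and their targets) is stable under the substitutions
`τ ↦ W τ` and `τ ↦ g • τ` (`g ∈ Γ₀(L)`); the bridge `swh_exists_algHom` gives
* `w₀` : `gB i ↦ tB i`, `tB i ↦ gB (i • c₂)`; `w₀² = ⟨c₂⟩`-like, so `w₀` is bijective;
* `ψ_g` : `gB i ↦ gB (i • [g])`, `tB i ↦ tB (i • [g]*)`.
-/

set_option autoImplicit false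
set_option linter.style.haveILetI false
set_option linter.unusedSectionVars false

open UpperHalfPlane ModularForm CongruenceSubgroup Matrix
open Fermat.Agent.ES Fermat.Agent.S23 Fermat.Agent.S24 Fermat.Agent.S28
open Fermat.Agent.ES1 Fermat.Agent.ES1.G2 Fermat.Agent.ES.G2 ModularCurve
open scoped MatrixGroups Manifold Real

noncomputable section

namespace Fermat.Agent.RT.K6

section Ext

variable {L M r : ℕ} [NeZero L] [NeZero M] [NeZero r] (D : RtBDat L M r)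
  (H : Subgroup (ZMod M)ˣ)

/-- the extended index set -/
abbrev RtBIx (L M : ℕ) : Type := SwhIx L M ⊕ SwhIx L M

/-- generators and targets, analytic -/
def rtk6bXA : RtBIx L M → ℍ → ℂ
  | Sum.inl i => swhA L M H i
  | Sum.inr i => rtk6bTA D H i

/-- generators and targets, formal -/
def rtk6bXB : RtBIx L M → LaurentSeries Kb
  | Sum.inl i => swhB L M H i
  | Sum.inr i => rtk6bTB D H i

theorem rtk6bXA_isMerInf (j : RtBIx L M) : IsMerInf (rtk6bXA D H j) := by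
  rcases j with i | i
  · exact swhA_isMerInf L M H i
  · exact rtk6bTA_isMerInf D H i

theorem rtk6bX_laurentOf (j : RtBIx L M) :
    laurentOf (rtk6bXA D H j) = coeffMap embC (rtk6bXB D H j) := by
  rcases j with i | i
  · exact swh_laurentOf L M H i
  · exact rtk6b_laurentOf_TA D H i

theorem rtk6b_swhB_mem (i : SwhIx L M) : swhB L M H i ∈ fieldBar L M H := by
  rw [swh_fieldBar_eq L M H]
  exact IntermediateField.subset_adjoin Kb _ ⟨i, rfl⟩

theorem rtk6bXB_mem (hs : IsStarStable M r H) (j : RtBIx L M) :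
    rtk6bXB D H j ∈ fieldBar L M H := by
  rcases j with i | i
  · exact rtk6b_swhB_mem H i
  · exact rtk6bTB_mem D H hs i

theorem rtk6b_fieldBar_eq_X (hs : IsStarStable M r H) :
    fieldBar L M H = IntermediateField.adjoin Kb (Set.range (rtk6bXB D H)) := by
  apply le_antisymm
  · rw [swh_fieldBar_eq L M H]
    refine IntermediateField.adjoin.mono Kb _ _ ?_
    rintro _ ⟨i, rfl⟩
    exact ⟨Sum.inl i, rfl⟩
  · rw [IntermediateField.adjoin_le_iff]
    rintro _ ⟨j, rfl⟩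
    exact rtk6bXB_mem D H hs j

/-- the class of `W²` -/
def RtBDat.c2 : (ZMod M)ˣ := diamHom M ⟨rtk6bSq D, rtk6b_gamma0_LM D (rtk6bSq_mem D)⟩

/-- the index map of `W` -/
def rtk6bSW : RtBIx L M → RtBIx L M
  | Sum.inl i => Sum.inr i
  | Sum.inr i => Sum.inl (rtk6bAct D.c2 i)

/-- the index map of `g ∈ Γ₀(L)`: classes `u` on the generators, `v` on the targets -/
def rtk6bSg (u v : (ZMod M)ˣ) : RtBIx L M → RtBIx L M
  | Sum.inl i => Sum.inl (rtk6bAct u i)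
  | Sum.inr i => Sum.inr (rtk6bAct v i)

theorem rtk6bXA_W (j : RtBIx L M) (τ : ℍ) :
    rtk6bXA D H j (D.W τ) = rtk6bXA D H (rtk6bSW D j) τ := by
  rcases j with i | i
  · rfl
  · exact rtk6bTA_W D H i τ

theorem rtk6bXA_smul (g : SL(2, ℤ)) (hg : g ∈ Gamma0 L) (j : RtBIx L M) (τ : ℍ) :
    rtk6bXA D H j (g • τ) =
      rtk6bXA D H (rtk6bSg (diamHom M ⟨g, rtk6b_gamma0_LM D hg⟩)
        (diamHom M ⟨rtk6bConj D g (rtk6b_dvd_of_mem D hg),
          rtk6b_gamma0_LM D (rtk6bConj_mem D g hg)⟩) j) τ := by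
  rcases j with i | i
  · exact rtk6b_swhA_smul D H g hg i τ
  · exact rtk6bTA_smul D H g hg i τ

/-- the endomorphism `w₀` -/
theorem rtk6b_exists_w0 (hs : IsStarStable M r H) :
    ∃ φ : fieldBar L M H →ₐ[Kb] fieldBar L M H,
      ∀ (j : RtBIx L M) (hj : rtk6bXB D H j ∈ fieldBar L M H),
        ((φ ⟨rtk6bXB D H j, hj⟩ : fieldBar L M H) : LaurentSeries Kb) =
          rtk6bXB D H (rtk6bSW D j) :=
  swh_exists_algHom (fieldBar L M H) (rtk6bXA D H) (rtk6bXB D H) (rtk6b_fieldBar_eq_X D H hs)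
    (rtk6bXA_isMerInf D H) (rtk6bX_laurentOf D H) (rtk6bSW D) D.W D.W_surjective
    (rtk6bXA_W D H)

theorem rtk6b_smul_surjective (g : SL(2, ℤ)) : Function.Surjective (fun τ : ℍ => g • τ) :=
  fun z => ⟨g⁻¹ • z, by simp [smul_smul]⟩

/-- the endomorphism `ψ_g` -/
theorem rtk6b_exists_psi (hs : IsStarStable M r H) (g : SL(2, ℤ)) (hg : g ∈ Gamma0 L) :
    ∃ φ : fieldBar L M H →ₐ[Kb] fieldBar L M H,
      ∀ (j : RtBIx L M) (hj : rtk6bXB D H j ∈ fieldBar L M H),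
        ((φ ⟨rtk6bXB D H j, hj⟩ : fieldBar L M H) : LaurentSeries Kb) =
          rtk6bXB D H (rtk6bSg (diamHom M ⟨g, rtk6b_gamma0_LM D hg⟩)
            (diamHom M ⟨rtk6bConj D g (rtk6b_dvd_of_mem D hg),
              rtk6b_gamma0_LM D (rtk6bConj_mem D g hg)⟩) j) :=
  swh_exists_algHom (fieldBar L M H) (rtk6bXA D H) (rtk6bXB D H) (rtk6b_fieldBar_eq_X D H hs)
    (rtk6bXA_isMerInf D H) (rtk6bX_laurentOf D H) _ (fun τ => g • τ)
    (rtk6b_smul_surjective g) (rtk6bXA_smul D H g hg)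

end Ext

/-! ### `w₀` is bijective -/

section Bij

variable {L M r : ℕ} [NeZero L] [NeZero M] [NeZero r] (D : RtBDat L M r)
  (H : Subgroup (ZMod M)ˣ)

/-- the defining property of `w₀` -/
def IsW0 (φ : fieldBar L M H →ₐ[Kb] fieldBar L M H) : Prop :=
  ∀ (j : RtBIx L M) (hj : rtk6bXB D H j ∈ fieldBar L M H),
    ((φ ⟨rtk6bXB D H j, hj⟩ : fieldBar L M H) : LaurentSeries Kb) = rtk6bXB D H (rtk6bSW D j)

variable {D H}

theorem IsW0.apply_gen {φ : fieldBar L M H →ₐ[Kb] fieldBar L M H} (hφ : IsW0 D H φ)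
    (i : SwhIx L M) (hi : swhB L M H i ∈ fieldBar L M H) :
    ((φ ⟨swhB L M H i, hi⟩ : fieldBar L M H) : LaurentSeries Kb) = rtk6bTB D H i :=
  hφ (Sum.inl i) hi

theorem IsW0.apply_target {φ : fieldBar L M H →ₐ[Kb] fieldBar L M H} (hφ : IsW0 D H φ)
    (i : SwhIx L M) (hi : rtk6bTB D H i ∈ fieldBar L M H) :
    ((φ ⟨rtk6bTB D H i, hi⟩ : fieldBar L M H) : LaurentSeries Kb) =
      swhB L M H (rtk6bAct D.c2 i) :=
  hφ (Sum.inr i) hi

theorem IsW0.sq_gen {φ : fieldBar L M H →ₐ[Kb] fieldBar L M H} (hφ : IsW0 D H φ)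
    (i : SwhIx L M) (hi : swhB L M H i ∈ fieldBar L M H) :
    φ (φ ⟨swhB L M H i, hi⟩) = ⟨swhB L M H (rtk6bAct D.c2 i), rtk6b_swhB_mem H _⟩ := by
  have h1 : φ ⟨swhB L M H i, hi⟩ = ⟨rtk6bTB D H i, by
      rw [← hφ.apply_gen i hi]; exact Subtype.mem _⟩ :=
    Subtype.ext (hφ.apply_gen i hi)
  rw [h1]
  exact Subtype.ext (hφ.apply_target i _)

theorem IsW0.pow_gen {φ : fieldBar L M H →ₐ[Kb] fieldBar L M H} (hφ : IsW0 D H φ) (k : ℕ) :
    ∀ (i : SwhIx L M) (hi : swhB L M H i ∈ fieldBar L M H),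
      (φ ^ (2 * k)) ⟨swhB L M H i, hi⟩ =
        ⟨swhB L M H (rtk6bAct (D.c2 ^ k) i), rtk6b_swhB_mem H _⟩ := by
  induction k with
  | zero =>
    intro i hi
    apply Subtype.ext
    simp only [Nat.mul_zero, pow_zero, AlgHom.one_apply]
    rw [rtk6bAct_one]
  | succ k ih =>
    intro i hi
    have h2 : φ ^ (2 * (k + 1)) = φ ^ (2 * k) * (φ * φ) := by
      rw [show 2 * (k + 1) = 2 * k + 2 by ring, pow_add, pow_two]
    rw [h2, AlgHom.mul_apply, AlgHom.mul_apply, hφ.sq_gen i hi, ih]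
    apply Subtype.ext
    show swhB L M H _ = swhB L M H _
    rw [rtk6bAct_mul, pow_succ']

theorem IsW0.pow_eq_one {φ : fieldBar L M H →ₐ[Kb] fieldBar L M H} (hφ : IsW0 D H φ) :
    φ ^ (2 * orderOf D.c2) = 1 := by
  apply IntermediateField.algHom_ext_of_eq_adjoin Kb (swh_fieldBar_eq L M H)
  rintro _ ⟨i, rfl⟩
  rw [hφ.pow_gen (orderOf D.c2) i, AlgHom.one_apply]
  apply Subtype.ext
  show swhB L M H _ = swhB L M H i
  rw [pow_orderOf_eq_one, rtk6bAct_one]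

theorem IsW0.bijective {φ : fieldBar L M H →ₐ[Kb] fieldBar L M H} (hφ : IsW0 D H φ) :
    Function.Bijective φ := by
  refine ⟨φ.toRingHom.injective, fun y => ?_⟩
  have hn : 0 < orderOf D.c2 := orderOf_pos _
  have h1 := hφ.pow_eq_one
  have h2 : 2 * orderOf D.c2 = (2 * orderOf D.c2 - 1) + 1 := by omega
  rw [h2, pow_succ'] at h1
  refine ⟨(φ ^ (2 * orderOf D.c2 - 1)) y, ?_⟩
  have h3 := congrArg (fun f : fieldBar L M H →ₐ[Kb] fieldBar L M H => f y) h1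
  simpa using h3

end Bij

/-! ### the diamonds on generators and targets -/

section Diamond

variable {L M r : ℕ} [NeZero L] [NeZero M] [NeZero r] (D : RtBDat L M r)
  (H : Subgroup (ZMod M)ˣ)

theorem rtk6b_diamond_gen {c : (ZMod M)ˣ} {δ : fieldBar L M H ≃ₐ[Kb] fieldBar L M H}
    (hδ : IsDiamondH L M H c δ) (i : SwhIx L M) (hi : swhB L M H i ∈ fieldBar L M H) :
    δ ⟨swhB L M H i, hi⟩ = ⟨swhB L M H (rtk6bAct c i), rtk6b_swhB_mem H _⟩ := by
  rcases i with ⟨d, hd⟩ | ⟨⟨e, a⟩, he⟩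
  · haveI := swh_neZero_of_dvd L hd
    exact hδ.fix_j d hd _ rfl
  · haveI := swh_neZero_of_mul_dvd L M he
    apply Subtype.ext
    exact hδ.map_s e a he _ rfl

/-- a diamond on the targets: `δ_u (tB i) = tB (i • v)`, `v` the star of `u` -/
theorem rtk6b_diamond_target (hs : IsStarStable M r H) {u v : (ZMod M)ˣ}
    (huv : IsStarOf M r u v) {δ : fieldBar L M H ≃ₐ[Kb] fieldBar L M H}
    (hδ : IsDiamondH L M H u δ) (i : SwhIx L M) (hi : rtk6bTB D H i ∈ fieldBar L M H) :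
    δ ⟨rtk6bTB D H i, hi⟩ = ⟨rtk6bTB D H (rtk6bAct v i), rtk6bTB_mem D H hs _⟩ := by
  obtain ⟨g, hg, hg00⟩ := es1rc_exists_rep D.M_dvd_L u
  have hcl : diamHom M ⟨g, rtk6b_gamma0_LM D hg⟩ = u := by
    apply Units.ext
    rw [coe_diamHom]
    exact hg00
  obtain ⟨ψ, hψ⟩ := rtk6b_exists_psi D H hs g hg
  have hst := rtk6b_conj_star D g hg
  rw [hcl] at hst hψ
  have hv := IsStarOf.unique D hst huv
  rw [hv] at hψ
  have hψδ : ψ = (δ : fieldBar L M H →ₐ[Kb] fieldBar L M H) := by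
    apply IntermediateField.algHom_ext_of_eq_adjoin Kb (swh_fieldBar_eq L M H)
    rintro _ ⟨i, rfl⟩
    have h1 : ψ ⟨swhB L M H i, rtk6b_swhB_mem H i⟩ =
        ⟨swhB L M H (rtk6bAct u i), rtk6b_swhB_mem H _⟩ :=
      Subtype.ext (hψ (Sum.inl i) (rtk6b_swhB_mem H i))
    rw [h1]
    exact (rtk6b_diamond_gen H hδ i _).symm
  have h2 : ψ ⟨rtk6bTB D H i, hi⟩ = ⟨rtk6bTB D H (rtk6bAct v i), rtk6bTB_mem D H hs _⟩ :=
    Subtype.ext (hψ (Sum.inr i) hi)
  rw [← h2, hψδ]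
  rfl

end Diamond

end Fermat.Agent.RT.K6
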