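import Fermat.Agent.RT.K6.BPsi
import Fermat.Agent.RT.K6.Plan

/-!
# RT-K6 / B (5): the Atkin–Lehner substitution `W` (helper96)

`L = L' r`, `M = M' r`, `r ∤ L'`, `M' ∣ L'`, `r t − y L' = 1`, `γ_W = [[1, y], [L', r t]]`,
`W τ = γ_W • (r τ)`.

* `rtk6b_W_smul` : **(N)** for `g ∈ Γ₀(L)`: `W (g • τ) = g″ • W τ` with `g″ ∈ Γ₀(L)`,
  `g″₀₀ ≡ g₀₀` mod `M'` (even mod `L'`) and `g″₀₀ ≡ g₁₁` mod `r`;
* `rtk6b_W_W` : **(Sq)** `W (W τ) = γ₂ • τ`, `γ₂ = [[r + y L', y (1 + t)], [L (1 + t), L' y + r t²]]`.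
-/

set_option autoImplicit false

open UpperHalfPlane ModularForm CongruenceSubgroup Matrix
open Fermat.Agent.ES Fermat.Agent.S23 Fermat.Agent.S24 Fermat.Agent.S28
open Fermat.Agent.ES1 Fermat.Agent.ES1.G2 Fermat.Agent.ES.G2 ModularCurve
open scoped MatrixGroups Manifold Real

noncomputable section

namespace Fermat.Agent.RT.K6

/-- the arithmetic data of `w_r` -/
structure RtBDat (L M r : ℕ) where
  /-- `L / r` -/
  L' : ℕ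
  /-- `M / r` -/
  M' : ℕ
  hL : L = L' * r
  hM : M = M' * r
  hML : M' ∣ L'
  hr : r.Prime
  hrL : ¬ r ∣ L'
  hL0 : L' ≠ 0
  /-- Bezout coefficient -/
  t : ℤ
  /-- Bezout coefficient -/
  y : ℤ
  hdet : (r : ℤ) * t - y * (L' : ℤ) = 1

theorem rtk6b_exists_dat {L M r : ℕ} (hL0 : L ≠ 0) (hML : M ∣ L) (hr : r.Prime) (hrM : r ∣ M)
    (hr2 : ¬ r ^ 2 ∣ L) : Nonempty (RtBDat L M r) := by
  obtain ⟨M', rfl⟩ := hrM
  obtain ⟨k, rfl⟩ := hML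
  have hr0 : r ≠ 0 := hr.ne_zero
  have hrL : ¬ r ∣ M' * k := by
    intro h
    apply hr2
    rw [pow_two, mul_assoc]
    exact mul_dvd_mul_left r h
  have hcop : Nat.Coprime r (M' * k) := (Nat.Prime.coprime_iff_not_dvd hr).mpr hrL
  obtain ⟨u, v, huv⟩ := Nat.Coprime.isCoprime hcop
  refine ⟨⟨M' * k, M', by ring, by ring, Dvd.intro _ rfl, hr, hrL, ?_, u, -v, ?_⟩⟩
  · intro h
    apply hL0
    rw [mul_assoc, h, mul_zero]
  · linear_combination huv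

namespace RtBDat

variable {L M r : ℕ} (D : RtBDat L M r)

include D

theorem neZero_r : NeZero r := ⟨D.hr.ne_zero⟩

theorem neZero_L' : NeZero D.L' := ⟨D.hL0⟩

theorem L_ne_zero : L ≠ 0 := by
  intro h
  subst h
  exact Nat.mul_ne_zero D.hL0 D.hr.ne_zero D.hL.symm

theorem M'_ne_zero : D.M' ≠ 0 := ne_zero_of_dvd_ne_zero D.hL0 D.hML

theorem M_ne_zero : M ≠ 0 := by
  intro h
  subst h
  exact Nat.mul_ne_zero D.M'_ne_zero D.hr.ne_zero D.hM.symm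

theorem hLZ : (L : ℤ) = (D.L' : ℤ) * (r : ℤ) := by
  have := D.hL
  exact_mod_cast this

theorem hMZ : (M : ℤ) = (D.M' : ℤ) * (r : ℤ) := by
  have := D.hM
  exact_mod_cast this

theorem M_dvd_L : M ∣ L := by
  obtain ⟨k, hk⟩ := D.hML
  refine ⟨k, ?_⟩
  calc L = D.L' * r := D.hL
    _ = D.M' * k * r := by rw [hk]
    _ = D.M' * r * k := by ring
    _ = M * k := by rw [← D.hM]

/-- `s = r t` -/
def s : ℤ := (r : ℤ) * D.t

theorem s_eq : D.s = 1 + D.y * (D.L' : ℤ) := by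
  unfold s
  linear_combination D.hdet

/-- the substitution `W τ = [[1, y], [L', r t]] • (r τ)` -/
def W (τ : ℍ) : ℍ :=
  haveI := D.neZero_r
  swhW D.L' r D.y D.t D.hdet τ

theorem W_surjective : Function.Surjective D.W := by
  haveI := D.neZero_r
  exact swhW_surjective D.L' r D.y D.t D.hdet

/-- the matrix `γ_W` -/
def gW : SL(2, ℤ) := swapMat 1 D.y D.L' ((r : ℤ) * D.t) (by rw [one_mul]; exact D.hdet)

theorem W_eq (τ : ℍ) : D.W τ = D.gW • (haveI := D.neZero_r; scaleN r τ) := rfl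

end RtBDat

/-! ### (N) -/

section N

variable {L M r : ℕ} (D : RtBDat L M r)

include D

/-- the conjugate `γ_W · comp_r(g) · γ_W⁻¹` -/
def rtk6bConj (g : SL(2, ℤ)) (hg : (r : ℤ) ∣ g 1 0) : SL(2, ℤ) :=
  haveI := D.neZero_r
  D.gW * P7_thetaCompanion r g hg * D.gW⁻¹

theorem rtk6b_W_smul (g : SL(2, ℤ)) (hg : (r : ℤ) ∣ g 1 0) (τ : ℍ) :
    D.W (g • τ) = rtk6bConj D g hg • D.W τ := by
  haveI := D.neZero_r
  rw [D.W_eq, D.W_eq, rtk6bConj, P7_thetaCompanion_smul r g hg τ, ← mul_smul, ← mul_smul,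
    inv_mul_cancel_right]

theorem rtk6b_dvd_of_mem {g : SL(2, ℤ)} (hg : g ∈ Gamma0 L) : (r : ℤ) ∣ g 1 0 := by
  rw [Gamma0_mem, ZMod.intCast_zmod_eq_zero_iff_dvd] at hg
  refine Dvd.dvd.trans ?_ hg
  rw [D.hLZ]
  exact Dvd.intro_left _ rfl

theorem rtk6bConj_entries (g : SL(2, ℤ)) (hg : g ∈ Gamma0 L) :
    ∃ c' : ℤ, g 1 0 = (L : ℤ) * c' ∧
      (rtk6bConj D g (rtk6b_dvd_of_mem D hg)) 0 0 =
        g 0 0 * D.s + D.y * D.L' * c' * D.s - (r : ℤ) * g 0 1 * D.L' - D.y * g 1 1 * D.L' ∧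
      (rtk6bConj D g (rtk6b_dvd_of_mem D hg)) 1 0 =
        (L : ℤ) * (g 0 0 * D.t + D.s * D.t * c' - D.L' * g 0 1 - D.t * g 1 1) := by
  haveI := D.neZero_r
  have hg' := hg
  rw [Gamma0_mem, ZMod.intCast_zmod_eq_zero_iff_dvd] at hg'
  obtain ⟨c', hc'⟩ := hg'
  have hr0 : (r : ℤ) ≠ 0 := by exact_mod_cast D.hr.ne_zero
  have hdiv : g 1 0 / (r : ℤ) = (D.L' : ℤ) * c' := by
    rw [hc', D.hLZ]
    rw [mul_comm (D.L' : ℤ) (r : ℤ), mul_assoc, Int.mul_ediv_cancel_left _ hr0]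
  refine ⟨c', hc', ?_, ?_⟩
  · unfold rtk6bConj RtBDat.gW RtBDat.s
    simp only [Matrix.SpecialLinearGroup.coe_mul, Matrix.SpecialLinearGroup.coe_inv,
      swapMat, P7_thetaCompanion, Matrix.adjugate_fin_two, Matrix.mul_apply, Fin.sum_univ_two,
      Matrix.of_apply, Matrix.cons_val_zero, Matrix.cons_val_one, Matrix.cons_val', 
      Matrix.cons_val_fin_one]
    simp [hdiv]
    ring
  · unfold rtk6bConj RtBDat.gW RtBDat.s
    simp only [Matrix.SpecialLinearGroup.coe_mul, Matrix.SpecialLinearGroup.coe_inv,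
      swapMat, P7_thetaCompanion, Matrix.adjugate_fin_two, Matrix.mul_apply, Fin.sum_univ_two,
      Matrix.of_apply, Matrix.cons_val_zero, Matrix.cons_val_one, Matrix.cons_val', 
      Matrix.cons_val_fin_one]
    simp [hdiv]
    rw [D.hLZ]
    ring

theorem rtk6bConj_mem (g : SL(2, ℤ)) (hg : g ∈ Gamma0 L) :
    rtk6bConj D g (rtk6b_dvd_of_mem D hg) ∈ Gamma0 L := by
  obtain ⟨c', -, -, h10⟩ := rtk6bConj_entries D g hg
  rw [Gamma0_mem, ZMod.intCast_zmod_eq_zero_iff_dvd, h10]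
  exact Dvd.intro _ rfl

/-- `g″₀₀ ≡ g₀₀` mod `L'` -/
theorem rtk6bConj_00_modL' (g : SL(2, ℤ)) (hg : g ∈ Gamma0 L) :
    (D.L' : ℤ) ∣ (rtk6bConj D g (rtk6b_dvd_of_mem D hg)) 0 0 - g 0 0 := by
  obtain ⟨c', -, h00, -⟩ := rtk6bConj_entries D g hg
  rw [h00, D.s_eq]
  refine ⟨g 0 0 * D.y + D.y * c' * (1 + D.y * D.L') - (r : ℤ) * g 0 1 - D.y * g 1 1, ?_⟩
  ring

/-- `g″₀₀ ≡ g₁₁` mod `r` -/
theorem rtk6bConj_00_modr (g : SL(2, ℤ)) (hg : g ∈ Gamma0 L) :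
    (r : ℤ) ∣ (rtk6bConj D g (rtk6b_dvd_of_mem D hg)) 0 0 - g 1 1 := by
  obtain ⟨c', -, h00, -⟩ := rtk6bConj_entries D g hg
  rw [h00]
  have h1 : D.y * (D.L' : ℤ) = D.s - 1 := by rw [D.s_eq]; ring
  have h2 : g 0 0 * D.s + D.y * D.L' * c' * D.s - (r : ℤ) * g 0 1 * D.L' - D.y * g 1 1 * D.L' -
      g 1 1 = D.s * (g 0 0 + D.y * D.L' * c' - g 1 1) - (r : ℤ) * (g 0 1 * D.L') := by
    linear_combination (-g 1 1) * h1
  rw [h2]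
  unfold RtBDat.s
  refine ⟨D.t * (g 0 0 + D.y * D.L' * c' - g 1 1) - g 0 1 * D.L', ?_⟩
  ring

end N

/-! ### (Sq) -/

section Sq

variable {L M r : ℕ} (D : RtBDat L M r)

include D

theorem rtk6b_sq_det :
    ((r : ℤ) + D.y * D.L') * ((D.L' : ℤ) * D.y + (r : ℤ) * D.t ^ 2) -
      (D.y * (1 + D.t)) * ((L : ℤ) * (1 + D.t)) = 1 := by
  have h := D.hdet
  have hL : (L : ℤ) = (D.L' : ℤ) * r := D.hLZ
  rw [hL]
  have : ((r : ℤ) + D.y * D.L') * ((D.L' : ℤ) * D.y + (r : ℤ) * D.t ^ 2) -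
      (D.y * (1 + D.t)) * ((D.L' : ℤ) * r * (1 + D.t)) = ((r : ℤ) * D.t - D.y * D.L') ^ 2 := by
    ring
  rw [this, h, one_pow]

/-- `γ₂` with `W ∘ W = γ₂ •` -/
def rtk6bSq : SL(2, ℤ) :=
  swapMat ((r : ℤ) + D.y * D.L') (D.y * (1 + D.t)) ((L : ℤ) * (1 + D.t))
    ((D.L' : ℤ) * D.y + (r : ℤ) * D.t ^ 2) (rtk6b_sq_det D)

theorem rtk6bSq_mem : rtk6bSq D ∈ Gamma0 L := by
  rw [Gamma0_mem, ZMod.intCast_zmod_eq_zero_iff_dvd]
  have : (rtk6bSq D) 1 0 = (L : ℤ) * (1 + D.t) := by simp [rtk6bSq, swapMat]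
  rw [this]
  exact Dvd.intro _ rfl

theorem rtk6b_W_W (τ : ℍ) : D.W (D.W τ) = rtk6bSq D • τ := by
  haveI := D.neZero_r
  apply UpperHalfPlane.ext
  have hr0 : (r : ℂ) ≠ 0 := Nat.cast_ne_zero.mpr D.hr.ne_zero
  have hL'0 : (D.L' : ℤ) ≠ 0 := by exact_mod_cast D.hL0
  -- denominators
  have hd1 := swh_denom_ne_zero (D.L' : ℤ) D.t (Or.inl hL'0) τ
  have hd1' : (D.L' : ℂ) * ((r : ℂ) * τ) + (r : ℂ) * D.t ≠ 0 := by
    have : (D.L' : ℂ) * ((r : ℂ) * τ) + (r : ℂ) * D.t = (r : ℂ) * ((D.L' : ℂ) * τ + D.t) := by ring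
    rw [this]
    exact mul_ne_zero hr0 (by push_cast at hd1; exact hd1)
  have hd2 := swh_denom_ne_zero (D.L' : ℤ) D.t (Or.inl hL'0) (D.W τ)
  have hd2' : (D.L' : ℂ) * ((r : ℂ) * (D.W τ : ℍ)) + (r : ℂ) * D.t ≠ 0 := by
    have : (D.L' : ℂ) * ((r : ℂ) * (D.W τ : ℍ)) + (r : ℂ) * D.t =
        (r : ℂ) * ((D.L' : ℂ) * (D.W τ : ℍ) + D.t) := by ring
    rw [this]
    exact mul_ne_zero hr0 (by push_cast at hd2; exact hd2)
  have hL0 : (L : ℤ) * (1 + D.t) ≠ 0 ∨ (D.L' : ℤ) * D.y + (r : ℤ) * D.t ^ 2 ≠ 0 := by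
    by_contra hcon
    rw [not_or, not_not, not_not] at hcon
    have h := rtk6b_sq_det D
    rw [hcon.1, hcon.2] at h
    simp at h
  have hd3 := swh_denom_ne_zero ((L : ℤ) * (1 + D.t)) ((D.L' : ℤ) * D.y + (r : ℤ) * D.t ^ 2) hL0 τ
  have hW : ((D.W τ : ℍ) : ℂ) =
      ((r : ℂ) * τ + D.y) / ((D.L' : ℂ) * ((r : ℂ) * τ) + (r : ℂ) * D.t) :=
    coe_swhW D.L' r D.y D.t D.hdet τ
  have hWW : ((D.W (D.W τ) : ℍ) : ℂ) =
      ((r : ℂ) * (D.W τ : ℍ) + D.y) / ((D.L' : ℂ) * ((r : ℂ) * (D.W τ : ℍ)) + (r : ℂ) * D.t) :=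
    coe_swhW D.L' r D.y D.t D.hdet (D.W τ)
  have hrel := (eq_div_iff hd1').mp hW
  rw [hWW, rtk6bSq, coe_swapMat_smul]
  push_cast at hd3 ⊢
  rw [div_eq_div_iff hd2' hd3]
  have hLc : (L : ℂ) = (D.L' : ℂ) * r := by
    have := D.hLZ
    exact_mod_cast this
  rw [hLc]
  linear_combination ((r : ℂ) * D.t - D.y * D.L') * hrel

end Sq

end Fermat.Agent.RT.K6
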