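import Fermat.Agent.RT.K6.BSer
import Fermat.Agent.ES1.G2.SwapHAn
import Fermat.Agent.S28.ModUnit

/-!
# RT-K6 / B (4): the function `G_a ∘ γ ∘ (r ·)` and its Laurent expansion (helper96)

* `rtk6bT K r ξ ξ' ω = r⁻¹² · Z⁴ · Δ(q^r)⁻¹`, `Z = rtk6bSer K r ξ ξ' ω`: the formal target;
* `rtk6bPsi M r s f a z = r⁻¹² Φ_a(z)⁴ / Δ(r z)`; `laurentOf_rtk6bPsi`;
* `rtk6b_f2Ga_smul` : `G_a([[1, b], [f, s]] • (r z)) = Ψ_a(z)`.
-/

set_option autoImplicit false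

open EisensteinSeries UpperHalfPlane ModularForm CongruenceSubgroup Matrix Filter Topology
open Fermat.Agent.ES Fermat.Agent.S48 Fermat.Agent.S23 Fermat.Agent.S24 Fermat.Agent.S28
open Fermat.Agent.ES1 Fermat.Agent.ES1.G2 Fermat.Agent.ES.G2 ModularCurve
open scoped MatrixGroups Manifold Real

noncomputable section

namespace Fermat.Agent.RT.K6

local notation "Δ" => ModularForm.discriminant

/-! ### the formal target -/

section Formal

variable (K : Type*) [Field K] (r : ℕ) [NeZero r] (ξ ξ' : K) (ω : ℤ → ℤ → ℤ)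

/-- `T = r⁻¹² · Z⁴ · Δ(q^r)⁻¹` -/
def rtk6bT : LaurentSeries K :=
  HahnSeries.C (((r : K) ^ 12)⁻¹) * HahnSeries.ofPowerSeries ℤ K (rtk6bSer K r ξ ξ' ω) ^ 4 *
    qExpand K r (deltaInvS K)

variable {K}

theorem rtk6b_coeffMap_deltaInvS {K' : Type*} [Field K'] (φ : K →+* K') :
    coeffMap φ (deltaInvS K) = deltaInvS K' := by
  unfold deltaInvS
  rw [coeffMap_coeffMap]
  exact coeffMap_congr (RingHom.ext fun n => by simp) _

theorem rtk6b_coeffMap_T {K' : Type*} [Field K'] (φ : K →+* K') :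
    coeffMap φ (rtk6bT K r ξ ξ' ω) = rtk6bT K' r (φ ξ) (φ ξ') ω := by
  have hC : ∀ x : K, coeffMap φ (HahnSeries.C x) = HahnSeries.C (φ x) :=
    fun x => coeffMap_single φ 0 x
  unfold rtk6bT
  rw [map_mul, map_mul, map_pow, coeffMap_ofPowerSeries, rtk6b_map_ser, coeffMap_qExpand,
    rtk6b_coeffMap_deltaInvS, hC]
  simp only [map_inv₀, map_pow, map_natCast]

end Formal

/-! ### the function `Ψ` -/

section Analytic

variable (M r : ℕ) [NeZero M] [NeZero r] (s f : ℤ) (a : ZMod M)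

/-- `Ψ_a(z) = r⁻¹² Φ_a(z)⁴ / Δ(r z)` -/
def rtk6bPsi : ℍ → ℂ := fun z =>
  ((r : ℂ) ^ 12)⁻¹ * rtk6bPhi M r s f a z ^ 4 / Δ (scaleN r z)

theorem rtk6b_isMerInf_inv_disc : IsMerInf (fun z : ℍ => (Δ z)⁻¹) := by
  refine ⟨1, ?_⟩
  have : (fun z : ℍ => (Δ z)⁻¹ * Δ z ^ 1) = fun _ => (1 : ℂ) := by
    funext z
    rw [pow_one, inv_mul_cancel₀ (discriminant_ne_zero z)]
  rw [this]
  exact qring_isHPB_const 1

theorem rtk6b_laurentOf_inv_disc : laurentOf (fun z : ℍ => (Δ z)⁻¹) = deltaL⁻¹ := by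
  have h := laurentOf_mul rtk6b_isMerInf_inv_disc isMerInf_discriminant
  have e : ((fun z : ℍ => (Δ z)⁻¹) * (Δ : ℍ → ℂ)) = (1 : ℍ → ℂ) := by
    funext z
    simp only [Pi.mul_apply, Pi.one_apply]
    exact inv_mul_cancel₀ (discriminant_ne_zero z)
  rw [e, laurentOf_one, laurentOf_discriminant] at h
  exact eq_inv_of_mul_eq_one_left h.symm

omit [NeZero M] in
theorem rtk6bPsi_eq :
    rtk6bPsi M r s f a = ((fun _ : ℍ => ((r : ℂ) ^ 12)⁻¹) * (rtk6bPhi M r s f a) ^ 4) *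
      (fun z => (fun w : ℍ => (Δ w)⁻¹) (scaleN r z)) := by
  funext z
  simp only [rtk6bPsi, Pi.mul_apply, Pi.pow_apply]
  rw [div_eq_mul_inv]

theorem rtk6bPsi_isMerInf (hrf : (M : ℤ) ∣ r * f) : IsMerInf (rtk6bPsi M r s f a) := by
  rw [rtk6bPsi_eq]
  have h1 : IsMerInf (rtk6bPhi M r s f a) := IsHPB.isMerInf (rtk6bPhi_isHPB M r s f a hrf)
  have h2 : IsMerInf ((rtk6bPhi M r s f a) ^ 4) :=
    IsHPB.isMerInf (bridge_isHPB_pow (rtk6bPhi_isHPB M r s f a hrf) 4)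
  exact ((isMerInf_const _).mul h2).mul (isMerInf_comp_scaleN r rtk6b_isMerInf_inv_disc)

theorem laurentOf_rtk6bPsi (hrf : (M : ℤ) ∣ r * f) :
    laurentOf (rtk6bPsi M r s f a) =
      rtk6bT ℂ r (rtk6bXi r) (rtk6bXi' r) (rtk6bOm M s f a) := by
  have h1 : IsMerInf (rtk6bPhi M r s f a) := IsHPB.isMerInf (rtk6bPhi_isHPB M r s f a hrf)
  have h2 : IsMerInf ((rtk6bPhi M r s f a) ^ 4) :=
    IsHPB.isMerInf (bridge_isHPB_pow (rtk6bPhi_isHPB M r s f a hrf) 4)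
  rw [rtk6bPsi_eq, laurentOf_mul ((isMerInf_const _).mul h2)
    (isMerInf_comp_scaleN r rtk6b_isMerInf_inv_disc), laurentOf_mul (isMerInf_const _) h2,
    laurentOf_const, laurentOf_pow h1, laurentOf_rtk6bPhi M r s f a hrf,
    laurentOf_comp_scaleN r rtk6b_isMerInf_inv_disc, rtk6b_laurentOf_inv_disc,
    ← deltaInvS_complex]
  rfl

omit [NeZero M] in
theorem rtk6bPhi_neg (z : ℍ) : rtk6bPhi M r s f (-a) z = -rtk6bPhi M r s f a z := by
  unfold rtk6bPhi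
  have h : (fun v : Fin 2 → ℤ => rtk6bOmC M s f (-a) (v 0) (v 1)) =
      fun v => (-1 : ℂ) * rtk6bOmC M s f a (v 0) (v 1) := by
    funext v
    unfold rtk6bOmC
    rw [rtk6bOm_neg_left]
    push_cast
    ring
  rw [h, eisC_const_mul]
  simp only [Pi.smul_apply, smul_eq_mul]
  ring

omit [NeZero M] in
theorem rtk6bPsi_neg : rtk6bPsi M r s f (-a) = rtk6bPsi M r s f a := by
  funext z
  unfold rtk6bPsi
  rw [rtk6bPhi_neg]
  ring

omit [NeZero M] [NeZero r] in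
theorem rtk6b_kap_vecMul (b : ℤ) (hdet : (1 : ℤ) * s - b * f = 1) (v : Fin 2 → ℤ) :
    f2KapA M a (v ᵥ* (((swapMat 1 b f s hdet)⁻¹ : SL(2, ℤ)) : Matrix (Fin 2) (Fin 2) ℤ)) =
      f2Const⁻¹ * rtk6bOmC M s f a (v 0) (v 1) := by
  unfold f2KapA f2KapW rtk6bOmC rtk6bOm
  rw [rtk6bWa_cast]
  congr 3
  simp [swapMat, Matrix.vecMul, dotProduct, Fin.sum_univ_two, Matrix.SpecialLinearGroup.coe_inv,
    Matrix.adjugate_fin_two]
  ring

omit [NeZero M] in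
/-- **`G_a([[1, b], [f, s]] • (r z)) = Ψ_a(z)`** -/
theorem rtk6b_f2Ga_smul (b : ℤ) (hdet : (1 : ℤ) * s - b * f = 1) (z : ℍ) :
    f2Ga M a (swapMat 1 b f s hdet • scaleN r z) = rtk6bPsi M r s f a z := by
  have hr0 : (r : ℂ) ≠ 0 := Nat.cast_ne_zero.mpr (NeZero.ne r)
  have hsl : f2Ya M a ∣[(3 : ℤ)] (swapMat 1 b f s hdet) =
      f2Const⁻¹ • eisC (fun v => rtk6bOmC M s f a (v 0) (v 1)) 3 := by
    unfold f2Ya
    rw [eisC_slash, ← eisC_const_mul]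
    congr 1
    funext v
    exact rtk6b_kap_vecMul M s f a b hdet v
  have h := f2_G_smul_of_slash (swapMat 1 b f s hdet) hsl (scaleN r z)
  unfold f2Ga
  rw [h]
  unfold rtk6bPsi rtk6bPhi
  simp only [Pi.smul_apply, smul_eq_mul]
  have hΔ : Δ (scaleN r z) ≠ 0 := discriminant_ne_zero _
  field_simp

end Analytic

end Fermat.Agent.RT.K6
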