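import Fermat.Agent.RT.K6.BConst
import Fermat.Agent.ES1.F2G
import Fermat.Agent.S28.Bridge
import Fermat.Agent.S24.KExp

/-!
# RT-K6 / B (3): the formal `q`-expansions at the other cusp (helper96)

* `rtk6bOm M s f a c d = [c s − d f = a] − [c s − d f = −a]` (in `ℤ/M`): the weight of
  `𝕐_a ∣ γ`, `γ = [[1, *], [f, s]]`;
* `rtk6bCoef K r ξ ξ' ω m`: the coefficients of the formal series, in any field `K ∋ ξ`;
* `rtk6bPhi M r s f a z = r³ · (𝕐_a ∣ γ)(r z)`; `rtk6bPhi_hasSum`, `rtk6bPhi_isHPB`,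
  `rtk6bPhi_qExpansion`.
-/

set_option autoImplicit false

open EisensteinSeries UpperHalfPlane ModularForm CongruenceSubgroup Matrix Filter Topology
open Fermat.Agent.ES Fermat.Agent.S48 Fermat.Agent.S23 Fermat.Agent.S24 Fermat.Agent.S28
open Fermat.Agent.ES1
open scoped MatrixGroups Manifold Real

noncomputable section

namespace Fermat.Agent.RT.K6

local notation "𝕢" => Function.Periodic.qParam

/-! ### the weights -/

/-- the odd indicator of `{a, -a} ⊂ ℤ/M`, with integer values -/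
def rtk6bWa (M : ℕ) (a x : ZMod M) : ℤ := (if x = a then 1 else 0) - (if x = -a then 1 else 0)

theorem rtk6bWa_cast (M : ℕ) (a x : ZMod M) : ((rtk6bWa M a x : ℤ) : ℂ) = f2Wa M a x := by
  unfold rtk6bWa f2Wa
  push_cast
  split_ifs <;> simp

theorem rtk6bWa_neg (M : ℕ) (a x : ZMod M) : rtk6bWa M a (-x) = -rtk6bWa M a x := by
  unfold rtk6bWa
  have h1 : (-x = a) ↔ (x = -a) := neg_eq_iff_eq_neg
  have h2 : (-x = -a) ↔ (x = a) := neg_inj
  simp only [h1, h2]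
  ring

theorem rtk6bWa_neg_left (M : ℕ) (a x : ZMod M) : rtk6bWa M (-a) x = -rtk6bWa M a x := by
  unfold rtk6bWa
  rw [neg_neg]
  ring

theorem rtk6bWa_mul_unit (M : ℕ) (u : (ZMod M)ˣ) (a x : ZMod M) :
    rtk6bWa M (a * u) (x * u) = rtk6bWa M a x := by
  unfold rtk6bWa
  have h1 : (x * (u : ZMod M) = a * u) ↔ (x = a) := u.isUnit.mul_left_inj
  have h2 : (x * (u : ZMod M) = -(a * u)) ↔ (x = -a) := by
    rw [← neg_mul]
    exact u.isUnit.mul_left_inj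
  simp only [h1, h2]

/-- the weight `ω_a(c, d) = [c s − d f = a] − [c s − d f = −a]` -/
def rtk6bOm (M : ℕ) (s f : ℤ) (a : ZMod M) (c d : ℤ) : ℤ :=
  rtk6bWa M a (((c * s - d * f : ℤ) : ℤ) : ZMod M)

theorem rtk6bOm_odd (M : ℕ) (s f : ℤ) (a : ZMod M) (c d : ℤ) :
    rtk6bOm M s f a (-c) (-d) = -rtk6bOm M s f a c d := by
  unfold rtk6bOm
  rw [← rtk6bWa_neg]
  congr 1
  push_cast
  ring

theorem rtk6bOm_per (M r : ℕ) (s f : ℤ) (hrf : (M : ℤ) ∣ r * f) (a : ZMod M) (c d : ℤ) :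
    rtk6bOm M s f a c (d + r) = rtk6bOm M s f a c d := by
  unfold rtk6bOm
  congr 1
  rw [ZMod.intCast_eq_intCast_iff_dvd_sub]
  have : c * s - d * f - (c * s - (d + r) * f) = r * f := by ring
  rw [this]
  exact hrf

theorem norm_rtk6bOm_le (M : ℕ) (s f : ℤ) (a : ZMod M) (c d : ℤ) :
    ‖((rtk6bOm M s f a c d : ℤ) : ℂ)‖ ≤ 1 := by
  unfold rtk6bOm
  rw [rtk6bWa_cast]
  exact norm_f2Wa_le M a _

theorem rtk6bOm_neg_left (M : ℕ) (s f : ℤ) (a : ZMod M) (c d : ℤ) :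
    rtk6bOm M s f (-a) c d = -rtk6bOm M s f a c d :=
  rtk6bWa_neg_left M a _

/-! ### the formal coefficients -/

section Formal

variable (K : Type*) [Field K] (r : ℕ) (ξ ξ' : K) (ω : ℤ → ℤ → ℤ)

/-- `A(c, n) = ∑_{j<r} ω(c, j) ξ^{jn}` -/
def rtk6bAf (c n : ℕ) : K := ∑ j : Fin r, ((ω c (j : ℕ) : ℤ) : K) * ξ ^ ((j : ℕ) * n)

/-- the constant term `(r²/6) ∑_j (∑_b ω(0,b) ξ'^{bj}) B₃(j/r)` -/
def rtk6bK0 : K :=
  ((r : K) ^ 2 / 6) * ∑ j : Fin r,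
    (∑ b : Fin r, ((ω 0 (b : ℕ) : ℤ) : K) * ξ' ^ ((b : ℕ) * (j : ℕ))) * ((rtk6bB3 r j : ℚ) : K)

/-- the coefficients -/
def rtk6bCoef (m : ℕ) : K :=
  (if m = 0 then rtk6bK0 K r ξ' ω else 0) +
    ∑ c ∈ m.divisors, rtk6bAf K r ξ ω c (m / c) * ((m / c : ℕ) : K) ^ 2

/-- the formal series -/
def rtk6bSer : PowerSeries K := PowerSeries.mk (rtk6bCoef K r ξ ξ' ω)

variable {K}

theorem rtk6b_map_Af {K' : Type*} [Field K'] (φ : K →+* K') (c n : ℕ) :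
    φ (rtk6bAf K r ξ ω c n) = rtk6bAf K' r (φ ξ) ω c n := by
  unfold rtk6bAf
  simp only [map_sum, map_mul, map_pow, map_intCast]

theorem rtk6b_map_K0 {K' : Type*} [Field K'] (φ : K →+* K') :
    φ (rtk6bK0 K r ξ' ω) = rtk6bK0 K' r (φ ξ') ω := by
  unfold rtk6bK0
  simp only [map_sum, map_mul, map_pow, map_intCast, map_div₀, map_natCast, map_ratCast,
    map_ofNat]

theorem rtk6b_map_coef {K' : Type*} [Field K'] (φ : K →+* K') (m : ℕ) :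
    φ (rtk6bCoef K r ξ ξ' ω m) = rtk6bCoef K' r (φ ξ) (φ ξ') ω m := by
  unfold rtk6bCoef
  rw [map_add, map_sum]
  congr 1
  · split_ifs
    · exact rtk6b_map_K0 r ξ' ω φ
    · exact map_zero φ
  · refine Finset.sum_congr rfl fun c _ => ?_
    rw [map_mul, map_pow, map_natCast, rtk6b_map_Af]

theorem rtk6b_map_ser {K' : Type*} [Field K'] (φ : K →+* K') :
    (rtk6bSer K r ξ ξ' ω).map φ = rtk6bSer K' r (φ ξ) (φ ξ') ω := by
  ext m
  rw [PowerSeries.coeff_map, rtk6bSer, rtk6bSer, PowerSeries.coeff_mk, PowerSeries.coeff_mk,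
    rtk6b_map_coef]

end Formal

/-! ### the analytic function -/

/-- `ξ = e^{2πi/r}` -/
def rtk6bXi (r : ℕ) : ℂ := rtk6bZ r 1

/-- `ξ⁻¹ = e^{-2πi/r}` -/
def rtk6bXi' (r : ℕ) : ℂ := rtk6bZi r (-1)

theorem rtk6bXi_mul_Xi' (r : ℕ) : rtk6bXi r * rtk6bXi' r = 1 := by
  unfold rtk6bXi rtk6bXi'
  rw [← rtk6bZi_natCast, ← rtk6bZi_add]
  unfold rtk6bZi
  simp

theorem rtk6bXi_pow (r : ℕ) [NeZero r] : rtk6bXi r ^ r = 1 := by
  unfold rtk6bXi
  rw [← rtk6bZi_natCast]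
  exact rtk6bZi_pow_self r _

theorem rtk6bXi'_pow (r : ℕ) [NeZero r] : rtk6bXi' r ^ r = 1 :=
  rtk6bZi_pow_self r _

section Analytic

variable (M r : ℕ) [NeZero M] [NeZero r] (s f : ℤ) (a : ZMod M)

/-- the complex weight -/
def rtk6bOmC (c d : ℤ) : ℂ := ((rtk6bOm M s f a c d : ℤ) : ℂ)

/-- `Φ(z) = r³ · f2Const⁻¹ · ∑ ω(c,d) (c r z + d)⁻³` -/
def rtk6bPhi : ℍ → ℂ := fun z =>
  (r : ℂ) ^ 3 * (f2Const⁻¹ * eisC (fun v => rtk6bOmC M s f a (v 0) (v 1)) 3 (scaleN r z))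

omit [NeZero M] [NeZero r] in
theorem rtk6bA_eq (c n : ℕ) :
    rtk6bA r (rtk6bOmC M s f a) c n = rtk6bAf ℂ r (rtk6bXi r) (rtk6bOm M s f a) c n := by
  unfold rtk6bA rtk6bAf rtk6bOmC rtk6bXi
  refine Finset.sum_congr rfl fun j _ => ?_
  rw [rtk6bZ_pow, rtk6bZ_pow, one_mul]

omit [NeZero M] [NeZero r] in
theorem rtk6bHat_eq (j : ℕ) :
    rtk6bHat r (rtk6bOmC M s f a 0) j =
      ∑ b : Fin r, ((rtk6bOm M s f a 0 (b : ℕ) : ℤ) : ℂ) * rtk6bXi' r ^ ((b : ℕ) * j) := by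
  unfold rtk6bHat rtk6bOmC rtk6bXi'
  refine Finset.sum_congr rfl fun b _ => ?_
  rw [← rtk6bZi_mul_nat, ← rtk6bZi_mul_nat]
  congr 2
  push_cast
  ring

theorem rtk6b_f2Const_eq : f2Const = -(2 * (π : ℂ) * Complex.I) ^ 3 := by
  unfold f2Const eisOddConst
  norm_num [Nat.factorial]
  ring

omit [NeZero M] in
open Complex in
/-- **the `q`-expansion of `Φ`**, as an identity of functions -/
theorem rtk6bPhi_hasSum (hrf : (M : ℤ) ∣ r * f) (z : ℍ) :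
    HasSum (fun m : ℕ => rtk6bCoef ℂ r (rtk6bXi r) (rtk6bXi' r) (rtk6bOm M s f a) m • 𝕢 1 z ^ m)
      (rtk6bPhi M r s f a z) := by
  have hr0 : (r : ℂ) ≠ 0 := Nat.cast_ne_zero.mpr (NeZero.ne r)
  have hq : 𝕢 1 (z : ℂ) = cexp (2 * π * Complex.I * z) := by
    simp [Function.Periodic.qParam]
  have hqn := norm_exp_two_pi_I_lt_one z
  have hper : ∀ c d : ℤ, rtk6bOmC M s f a c (d + r) = rtk6bOmC M s f a c d := fun c d => by
    unfold rtk6bOmC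
    rw [rtk6bOm_per M r s f hrf]
  have hodd : ∀ c d : ℤ, rtk6bOmC M s f a (-c) (-d) = -rtk6bOmC M s f a c d := fun c d => by
    unfold rtk6bOmC
    rw [rtk6bOm_odd]
    push_cast
    rfl
  have hb : ∀ c d : ℤ, ‖rtk6bOmC M s f a c d‖ ≤ 1 := fun c d => norm_rtk6bOm_le M s f a c d
  have h1 := rtk6b_eisC_tsum r (rtk6bOmC M s f a) hb hper hodd z
  have h2 := rtk6b_const r (rtk6bOmC M s f a 0) (hper 0)
  -- the non-constant part
  have hsum := rtk6b_summable_divisor_sum (3 - 1) hqn (rtk6bA r (rtk6bOmC M s f a))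
    (norm_rtk6bA_le r _ hb)
  have hF : HasSum (fun e : ℕ+ =>
      (∑ c ∈ (e : ℕ).divisors, rtk6bAf ℂ r (rtk6bXi r) (rtk6bOm M s f a) c ((e : ℕ) / c) *
        (((e : ℕ) / c : ℕ) : ℂ) ^ 2) * 𝕢 1 z ^ (e : ℕ))
      (∑' e : ℕ+, (∑ c ∈ (e : ℕ).divisors, rtk6bA r (rtk6bOmC M s f a) c (e / c) *
        ((e / c : ℕ) : ℂ) ^ (3 - 1)) * cexp (2 * π * Complex.I * z) ^ (e : ℕ)) := by
    refine hsum.hasSum.congr_fun ?_
    intro e
    rw [hq]
    congr 1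
    refine Finset.sum_congr rfl fun c _ => ?_
    rw [rtk6bA_eq]
  have hF2 : HasSum (fun m : ℕ =>
      (∑ c ∈ m.divisors, rtk6bAf ℂ r (rtk6bXi r) (rtk6bOm M s f a) c (m / c) *
        ((m / c : ℕ) : ℂ) ^ 2) * 𝕢 1 z ^ m)
      (∑' e : ℕ+, (∑ c ∈ (e : ℕ).divisors, rtk6bA r (rtk6bOmC M s f a) c (e / c) *
        ((e / c : ℕ) : ℂ) ^ (3 - 1)) * cexp (2 * π * Complex.I * z) ^ (e : ℕ)) := by
    refine (Function.Injective.hasSum_iff PNat.coe_injective ?_).mp hF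
    intro x hx
    have hx0 : x = 0 := by
      by_contra h
      exact hx ⟨⟨x, Nat.pos_of_ne_zero h⟩, rfl⟩
    simp [hx0]
  have hK : HasSum (fun m : ℕ =>
      (if m = 0 then rtk6bK0 ℂ r (rtk6bXi' r) (rtk6bOm M s f a) else 0) * 𝕢 1 z ^ m)
      (rtk6bK0 ℂ r (rtk6bXi' r) (rtk6bOm M s f a)) := by
    have h := hasSum_ite_eq (0 : ℕ) (rtk6bK0 ℂ r (rtk6bXi' r) (rtk6bOm M s f a))
    refine h.congr_fun ?_
    intro m
    by_cases hm : m = 0
    · subst hm; simp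
    · simp [hm]
  have hT := hK.add hF2
  have hval : rtk6bPhi M r s f a z = rtk6bK0 ℂ r (rtk6bXi' r) (rtk6bOm M s f a) +
      ∑' e : ℕ+, (∑ c ∈ (e : ℕ).divisors, rtk6bA r (rtk6bOmC M s f a) c (e / c) *
        ((e / c : ℕ) : ℂ) ^ (3 - 1)) * cexp (2 * π * Complex.I * z) ^ (e : ℕ) := by
    unfold rtk6bPhi
    rw [h1, h2]
    have hc : (2 : ℂ) * ((-2 * π * Complex.I) ^ 3 / ((3 - 1).factorial : ℕ)) = f2Const := rfl
    have hc0 := f2Const_ne_zero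
    have h6 : (-(2 * (π : ℂ) * Complex.I) ^ 3 / ((3 : ℕ).factorial : ℂ)) = f2Const / 6 := by
      rw [rtk6b_f2Const_eq]
      norm_num [Nat.factorial]
    rw [h6]
    set S := ∑' e : ℕ+, (∑ c ∈ (e : ℕ).divisors, rtk6bA r (rtk6bOmC M s f a) c (e / c) *
        ((e / c : ℕ) : ℂ) ^ (3 - 1)) * cexp (2 * π * Complex.I * z) ^ (e : ℕ) with hS
    have h7 : (2 : ℂ) * ((-2 * π * Complex.I) ^ 3 / ((3 - 1).factorial : ℕ) * ((r : ℂ) ^ 3)⁻¹ * S)
        = f2Const * (((r : ℂ) ^ 3)⁻¹ * S) := by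
      rw [← hc]; ring
    rw [h7]
    unfold rtk6bK0
    simp_rw [rtk6bHat_eq]
    field_simp
  rw [hval]
  refine hT.congr_fun ?_
  intro m
  unfold rtk6bCoef
  rw [smul_eq_mul, add_mul]


/-! ### `Φ` is holomorphic, periodic, bounded; its `q`-expansion -/

theorem rtk6b_periodic_of_eq {F : ℍ → ℂ} {g : ℂ → ℂ} (hfg : ∀ τ : ℍ, F τ = g τ)
    (hg : ∀ w : ℂ, g (w + 1) = g w) : Function.Periodic (F ∘ ofComplex) 1 := by
  intro w
  simp only [Function.comp_apply]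
  by_cases hw : 0 < w.im
  · have hw1 : 0 < (w + 1).im := by simpa using hw
    rw [ofComplex_apply_of_im_pos hw, ofComplex_apply_of_im_pos hw1, hfg, hfg]
    exact hg w
  · have hw1 : ¬ 0 < (w + 1).im := by simpa using hw
    rw [ofComplex_apply_of_im_nonpos (not_lt.mp hw), ofComplex_apply_of_im_nonpos (not_lt.mp hw1)]

omit [NeZero M] in
theorem rtk6b_f2Per : F2Per M (fun v => rtk6bOmC M s f a (v 0) (v 1)) := by
  intro v v' hv
  have h : (((v 0 * s - v 1 * f : ℤ) : ℤ) : ZMod M) = (((v' 0 * s - v' 1 * f : ℤ) : ℤ) : ZMod M) := by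
    push_cast
    rw [hv 0, hv 1]
  show ((rtk6bWa M a (((v 0 * s - v 1 * f : ℤ) : ℤ) : ZMod M) : ℤ) : ℂ) =
    ((rtk6bWa M a (((v' 0 * s - v' 1 * f : ℤ) : ℤ) : ZMod M) : ℤ) : ℂ)
  rw [h]

theorem rtk6bPhi_isHPB (hrf : (M : ℤ) ∣ r * f) : IsHPB (rtk6bPhi M r s f a) := by
  have hb : ∀ v : Fin 2 → ℤ, ‖rtk6bOmC M s f a (v 0) (v 1)‖ ≤ 1 :=
    fun v => norm_rtk6bOm_le M s f a _ _
  have hmd : MDiff (eisC (fun v => rtk6bOmC M s f a (v 0) (v 1)) 3) :=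
    eisC_mdiff hb (le_refl _)
  have hbd : IsBoundedAtImInfty (eisC (fun v => rtk6bOmC M s f a (v 0) (v 1)) 3) := by
    have h := f2_isBoundedAtImInfty hb (rtk6b_f2Per M s f a) 1
    rwa [SlashAction.slash_one] at h
  refine ⟨?_, ?_, ?_⟩
  · have h1 := mdiff_comp_scaleN r hmd
    have h2 : MDiff (fun _ : ℍ => (r : ℂ) ^ 3 * f2Const⁻¹) := mdifferentiable_const
    have h3 := h2.mul h1
    have e : rtk6bPhi M r s f a = (fun _ : ℍ => (r : ℂ) ^ 3 * f2Const⁻¹) *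
        (fun z => eisC (fun v => rtk6bOmC M s f a (v 0) (v 1)) 3 (scaleN r z)) := by
      funext z
      simp only [rtk6bPhi, Pi.mul_apply]
      ring
    rw [e]
    exact h3
  · refine rtk6b_periodic_of_eq
      (g := fun w => ∑' m : ℕ, rtk6bCoef ℂ r (rtk6bXi r) (rtk6bXi' r) (rtk6bOm M s f a) m •
        𝕢 1 w ^ m) (fun τ => ((rtk6bPhi_hasSum M r s f a hrf τ).tsum_eq).symm) ?_
    intro w
    have : 𝕢 1 (w + 1) = 𝕢 1 w := by
      simp only [Function.Periodic.qParam]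
      rw [show 2 * (π : ℂ) * Complex.I * (w + 1) / ((1 : ℝ) : ℂ) =
        2 * (π : ℂ) * Complex.I * w / ((1 : ℝ) : ℂ) + 2 * π * Complex.I by push_cast; ring]
      rw [Complex.exp_add, Complex.exp_two_pi_mul_I, mul_one]
    simp only [this]
  · have h1 := hbd.comp_tendsto (P7_tendsto_scaleN_atImInfty r)
    have h2 : IsBoundedAtImInfty (fun _ : ℍ => (r : ℂ) ^ 3 * f2Const⁻¹) :=
      Filter.const_boundedAtFilter _ _
    have h3 := h2.mul h1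
    have e : rtk6bPhi M r s f a = (fun _ : ℍ => (r : ℂ) ^ 3 * f2Const⁻¹) *
        (eisC (fun v => rtk6bOmC M s f a (v 0) (v 1)) 3 ∘ scaleN r) := by
      funext z
      simp only [rtk6bPhi, Pi.mul_apply, Function.comp_apply]
      ring
    rw [e]
    exact h3

theorem rtk6bPhi_qExpansion (hrf : (M : ℤ) ∣ r * f) :
    qExpansion 1 (rtk6bPhi M r s f a) =
      rtk6bSer ℂ r (rtk6bXi r) (rtk6bXi' r) (rtk6bOm M s f a) := by
  ext m
  rw [rtk6bSer, PowerSeries.coeff_mk]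
  exact qExpansion_coeff_unique_fun (c := rtk6bCoef ℂ r (rtk6bXi r) (rtk6bXi' r)
    (rtk6bOm M s f a)) one_pos (rtk6bPhi_isHPB M r s f a hrf).analyticAt
    (fun τ => rtk6bPhi_hasSum M r s f a hrf τ) m

theorem laurentOf_rtk6bPhi (hrf : (M : ℤ) ∣ r * f) :
    laurentOf (rtk6bPhi M r s f a) = HahnSeries.ofPowerSeries ℤ ℂ
      (rtk6bSer ℂ r (rtk6bXi r) (rtk6bXi' r) (rtk6bOm M s f a)) := by
  rw [laurentOf_of_isHPB (rtk6bPhi_isHPB M r s f a hrf), rtk6bPhi_qExpansion M r s f a hrf]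

end Analytic

end Fermat.Agent.RT.K6
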