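/-
K-machine, piece K6, piece D-K / TKC (helper4): the integral closure in a two-generator Kummer
extension branched along two prime elements.

Pure algebra (Mathlib only).  `O` an integrally closed domain, `K = Frac O`, `d` invertible in
`O`, `ζ ∈ O` a primitive `d`-th root of unity, `X, Y ∈ O` (prime elements, `Y ∤ X`, or units),
`L ⊇ K` a field generated by `x₂, y₂` with `x₂ ^ d = ε₁ X`, `y₂ ^ d = ε₂ Y` (`ε_i` units of `O`),
and automorphisms `s₁, s₂` of `L / K` with `s₁ x₂ = ζ x₂`, `s₁ y₂ = y₂`, `s₂ x₂ = x₂`,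
`s₂ y₂ = ζ y₂`.  Then every element of `L` integral over `O` is `Σ_{i,j<d} c_ij x₂^i y₂^j`
with `c_ij ∈ O`; in particular the integral closure of `O` in `L` is `O[x₂, y₂]`.

* `rtk6k_trick_one`, `rtk6k_trick_two` : `f ^ d X ^ i Y ^ j ∈ O`, `i, j < d` ⇒ `f ∈ O`.
* `rtk6k_integral_coeff`              : the coefficient form.
* `rtk6k_integral_mem_adjoin`         : `IsIntegral O b → b ∈ Algebra.adjoin O {x₂, y₂}`.
-/
import Mathlib

set_option autoImplicit false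
set_option linter.style.haveILetI false

namespace Fermat.Agent.RT.K6

open Finset

section Trick

variable {O K : Type*} [CommRing O] [IsDomain O] [IsIntegrallyClosed O]
  [Field K] [Algebra O K] [IsFractionRing O K]

/-- an element of `K` with a power in `O` lies in `O` -/
theorem rtk6k_mem_of_pow {d : ℕ} (hd : 0 < d) {f : K} {c : O}
    (h : f ^ d = algebraMap O K c) : ∃ a : O, algebraMap O K a = f := by
  have hint : IsIntegral O f := by
    apply IsIntegral.of_pow hd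
    rw [h]
    exact isIntegral_algebraMap
  exact IsIntegrallyClosed.isIntegral_iff.mp hint

/-- **The trick, one element.**  `f ^ d · X ^ i ∈ O`, `i < d`, `X` prime or a unit ⇒ `f ∈ O`. -/
theorem rtk6k_trick_one {d i : ℕ} (hi : i < d) {X : O} (hX : Prime X ∨ IsUnit X) {f : K} {c : O}
    (h : f ^ d * algebraMap O K X ^ i = algebraMap O K c) : ∃ a : O, algebraMap O K a = f := by
  have hd : 0 < d := by omega
  have hinj := IsFractionRing.injective O K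
  have eX : algebraMap O K X ^ d = algebraMap O K X ^ i * algebraMap O K X ^ (d - i) := by
    rw [← pow_add]
    congr 1
    omega
  have h1 : (f * algebraMap O K X) ^ d = algebraMap O K (c * X ^ (d - i)) := by
    rw [mul_pow, eX, map_mul, map_pow, ← h]
    ring
  obtain ⟨e, he⟩ := rtk6k_mem_of_pow hd h1
  rcases hX with hX | hX
  · have h2 : e ^ d = c * X ^ (d - i) := by
      apply hinj
      rw [map_pow, he, h1]
    have h3 : X ∣ e ^ d := by
      rw [h2]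
      exact Dvd.dvd.mul_left (dvd_pow_self X (by omega)) c
    obtain ⟨e', rfl⟩ := hX.dvd_of_dvd_pow h3
    refine ⟨e', ?_⟩
    have hX0 : algebraMap O K X ≠ 0 := by
      intro h0
      exact hX.ne_zero (hinj (by rw [h0, map_zero]))
    rw [map_mul] at he
    apply mul_right_cancel₀ hX0
    rw [← he]
    ring
  · obtain ⟨u, rfl⟩ := hX
    refine ⟨e * ↑u⁻¹, ?_⟩
    rw [map_mul, he, mul_assoc, ← map_mul, Units.mul_inv, map_one, mul_one]

/-- **The trick, two elements.**  `f ^ d · X ^ i · Y ^ j ∈ O`, `i, j < d`, `X` prime or a unit,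
`Y` prime with `Y ∤ X` or a unit ⇒ `f ∈ O`. -/
theorem rtk6k_trick_two {d i j : ℕ} (hi : i < d) (hj : j < d) {X Y : O}
    (hX : Prime X ∨ IsUnit X) (hY : (Prime Y ∧ ¬ Y ∣ X) ∨ IsUnit Y) {f : K} {c : O}
    (h : f ^ d * algebraMap O K X ^ i * algebraMap O K Y ^ j = algebraMap O K c) :
    ∃ a : O, algebraMap O K a = f := by
  have hd : 0 < d := by omega
  have hinj := IsFractionRing.injective O K
  have eY : algebraMap O K Y ^ d = algebraMap O K Y ^ j * algebraMap O K Y ^ (d - j) := by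
    rw [← pow_add]
    congr 1
    omega
  have h1 : (f * algebraMap O K Y) ^ d * algebraMap O K X ^ i =
      algebraMap O K (c * Y ^ (d - j)) := by
    rw [mul_pow, eY, map_mul, map_pow, ← h]
    ring
  obtain ⟨e, he⟩ := rtk6k_trick_one hi hX h1
  rcases hY with ⟨hYp, hYX⟩ | hY
  · have h2 : e ^ d * X ^ i = c * Y ^ (d - j) := by
      apply hinj
      rw [map_mul, map_pow, map_pow, he, h1]
    have h3 : Y ∣ e ^ d * X ^ i := by
      rw [h2]
      exact Dvd.dvd.mul_left (dvd_pow_self Y (by omega)) c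
    have h4 : Y ∣ e := by
      rcases hYp.dvd_or_dvd h3 with h | h
      · exact hYp.dvd_of_dvd_pow h
      · exact absurd (hYp.dvd_of_dvd_pow h) hYX
    obtain ⟨e', rfl⟩ := h4
    refine ⟨e', ?_⟩
    have hY0 : algebraMap O K Y ≠ 0 := by
      intro h0
      exact hYp.ne_zero (hinj (by rw [h0, map_zero]))
    rw [map_mul] at he
    apply mul_right_cancel₀ hY0
    rw [← he]
    ring
  · obtain ⟨u, rfl⟩ := hY
    refine ⟨e * ↑u⁻¹, ?_⟩
    rw [map_mul, he, mul_assoc, ← map_mul, Units.mul_inv, map_one, mul_one]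

end Trick

section Sum

variable {K : Type*} [Field K]

/-- the character sum: `Σ_{a<d} ω^a = 0` for `ω ≠ 1`, `ω^d = 1` -/
theorem rtk6k_geom_zero {d : ℕ} {ω : K} (h1 : ω ≠ 1) (hd : ω ^ d = 1) :
    ∑ a ∈ range d, ω ^ a = 0 := by
  have h := geom_sum_mul ω d
  rw [hd, sub_self] at h
  rcases mul_eq_zero.mp h with h | h
  · exact h
  · exact absurd (sub_eq_zero.mp h) h1

/-- orthogonality: for a primitive `d`-th root of unity `ζ` and `i, i₀ < d`,
`d⁻¹ Σ_{a<d} (ζ⁻¹)^(a i₀) (ζ^a)^i = [i = i₀]` -/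
theorem rtk6k_orth {d : ℕ} (hd0 : (d : K) ≠ 0) {ζ : K} (hζ : IsPrimitiveRoot ζ d) {i i₀ : ℕ}
    (hi : i < d) (hi₀ : i₀ < d) :
    (d : K)⁻¹ * ∑ a ∈ range d, (ζ⁻¹) ^ (a * i₀) * (ζ ^ a) ^ i = if i = i₀ then 1 else 0 := by
  have hd : 0 < d := by omega
  have hζ0 : ζ ≠ 0 := hζ.ne_zero hd.ne'
  have e : ∀ a : ℕ, (ζ⁻¹) ^ (a * i₀) * (ζ ^ a) ^ i = (ζ ^ i * (ζ⁻¹) ^ i₀) ^ a := by
    intro a
    rw [mul_pow, ← pow_mul, ← pow_mul, ← pow_mul, mul_comm a i₀, mul_comm a i, mul_comm]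
  simp only [e]
  split_ifs with h
  · subst h
    have : ζ ^ i * (ζ⁻¹) ^ i = 1 := by
      rw [inv_pow, mul_inv_cancel₀ (pow_ne_zero _ hζ0)]
    simp only [this, one_pow, sum_const, card_range, nsmul_eq_mul, mul_one]
    exact inv_mul_cancel₀ hd0
  · have hne : ζ ^ i * (ζ⁻¹) ^ i₀ ≠ 1 := by
      intro h1
      apply h
      have h2 : ζ ^ i = ζ ^ i₀ := by
        have := congrArg (fun z => z * ζ ^ i₀) h1
        simp only [one_mul] at this
        rw [mul_assoc, inv_pow, inv_mul_cancel₀ (pow_ne_zero _ hζ0), mul_one] at this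
        exact this
      exact hζ.pow_inj hi hi₀ h2
    have hpow : (ζ ^ i * (ζ⁻¹) ^ i₀) ^ d = 1 := by
      rw [mul_pow, ← pow_mul, ← pow_mul, mul_comm i d, mul_comm i₀ d, pow_mul, pow_mul,
        hζ.pow_eq_one, inv_pow, hζ.pow_eq_one, one_pow, inv_one, one_pow, mul_one]
    rw [rtk6k_geom_zero hne hpow, mul_zero]

end Sum

section Proj

variable {K L : Type*} [Field K] [Field L] [Algebra K L]

/-- the eigen-projector `d⁻¹ Σ_{a<d} ζ^(-a i₀) s^a` -/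
noncomputable def rtk6kProj (d : ℕ) (ζ : K) (s : L ≃ₐ[K] L) (i₀ : ℕ) : L →ₗ[K] L :=
  (d : K)⁻¹ • ∑ a ∈ range d, ((ζ⁻¹) ^ (a * i₀)) • (s ^ a).toLinearMap

theorem rtk6kProj_apply (d : ℕ) (ζ : K) (s : L ≃ₐ[K] L) (i₀ : ℕ) (b : L) :
    rtk6kProj d ζ s i₀ b = (d : K)⁻¹ • ∑ a ∈ range d, ((ζ⁻¹) ^ (a * i₀)) • (s ^ a) b := by
  simp only [rtk6kProj, LinearMap.smul_apply, LinearMap.sum_apply, AlgEquiv.toLinearMap_apply]

/-- powers of `s` on an eigenvector -/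
theorem rtk6k_pow_apply_eigen (s : L ≃ₐ[K] L) {ζ : K} {x : L} (hx : s x = ζ • x) (a : ℕ) :
    (s ^ a) x = (ζ ^ a) • x := by
  induction a with
  | zero => simp
  | succ a ih =>
    rw [pow_succ, AlgEquiv.mul_apply, hx, map_smul, ih, smul_smul, pow_succ, mul_comm]

/-- powers of `s` on a fixed vector -/
theorem rtk6k_pow_apply_fixed (s : L ≃ₐ[K] L) {y : L} (hy : s y = y) (a : ℕ) :
    (s ^ a) y = y := by
  induction a with
  | zero => simp
  | succ a ih => rw [pow_succ, AlgEquiv.mul_apply, hy, ih]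

/-- the projector on a monomial `x ^ i * z`, `s x = ζ x`, `s z = z` -/
theorem rtk6kProj_monomial {d : ℕ} (hd0 : (d : K) ≠ 0) {ζ : K} (hζ : IsPrimitiveRoot ζ d)
    (s : L ≃ₐ[K] L) {x z : L} (hx : s x = ζ • x) (hz : s z = z) {i i₀ : ℕ}
    (hi : i < d) (hi₀ : i₀ < d) :
    rtk6kProj d ζ s i₀ (x ^ i * z) = if i = i₀ then x ^ i * z else 0 := by
  rw [rtk6kProj_apply]
  have e : ∀ a ∈ range d, ((ζ⁻¹) ^ (a * i₀)) • (s ^ a) (x ^ i * z) =
      ((ζ⁻¹) ^ (a * i₀) * (ζ ^ a) ^ i) • (x ^ i * z) := by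
    intro a _
    rw [map_mul, map_pow, rtk6k_pow_apply_eigen s hx, rtk6k_pow_apply_fixed s hz, smul_pow,
      smul_mul_assoc, smul_smul]
  rw [sum_congr rfl e, ← sum_smul, smul_smul, rtk6k_orth hd0 hζ hi hi₀]
  split_ifs
  · rw [one_smul]
  · rw [zero_smul]

end Proj

section Main

variable {O K L : Type*} [CommRing O] [IsDomain O] [IsIntegrallyClosed O]
  [Field K] [Algebra O K] [IsFractionRing O K]
  [Field L] [Algebra K L] [Algebra O L] [IsScalarTower O K L]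

omit [IsDomain O] [IsIntegrallyClosed O] [IsFractionRing O K] in
/-- the inverse of the image of a unit -/
theorem rtk6k_inv_algebraMap {a : O} (ha : IsUnit a) :
    (algebraMap O K a)⁻¹ = algebraMap O K ↑(ha.unit⁻¹) := by
  have h1 : algebraMap O K a * algebraMap O K ↑(ha.unit⁻¹) = 1 := by
    rw [← map_mul, IsUnit.mul_val_inv, map_one]
  exact inv_eq_of_mul_eq_one_right h1

omit [IsDomain O] [IsIntegrallyClosed O] [IsFractionRing O K] in
/-- the projector preserves integrality over `O` -/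
theorem rtk6kProj_isIntegral {d : ℕ} (hd : IsUnit (d : O)) {ζ : O} (hζ : IsUnit ζ)
    (s : L ≃ₐ[K] L) (i₀ : ℕ) {b : L} (hb : IsIntegral O b) :
    IsIntegral O (rtk6kProj d (algebraMap O K ζ) s i₀ b) := by
  rw [rtk6kProj_apply]
  have e1 : ((d : K))⁻¹ = algebraMap O K ↑(hd.unit⁻¹) := by
    rw [← rtk6k_inv_algebraMap hd, map_natCast]
  rw [e1, algebraMap_smul]
  refine IsIntegral.smul _ (IsIntegral.sum _ fun a _ => ?_)
  rw [rtk6k_inv_algebraMap hζ, ← map_pow, algebraMap_smul]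
  refine IsIntegral.smul _ ?_
  exact hb.map ((s ^ a : L ≃ₐ[K] L).toAlgHom.restrictScalars O)

omit [IsDomain O] [IsIntegrallyClosed O] [IsFractionRing O K] [Algebra O L] [IsScalarTower O K L]
  [CommRing O] [Algebra O K] in
/-- **Spanning.**  If `L = K[x, y]` with `x ^ d, y ^ d ∈ K`, `d > 0`, every element of `L` is a
`K`-combination of the monomials `x ^ i y ^ j`, `i, j < d`. -/
theorem rtk6k_span {d : ℕ} (hd : 0 < d) {x y : L} {a b : K} (hx : x ^ d = algebraMap K L a)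
    (hy : y ^ d = algebraMap K L b) (hgen : Algebra.adjoin K ({x, y} : Set L) = ⊤) (z : L) :
    ∃ c : Fin d × Fin d → K, z = ∑ ι, c ι • (x ^ (ι.1 : ℕ) * y ^ (ι.2 : ℕ)) := by
  set v : Fin d × Fin d → L := fun ι => x ^ (ι.1 : ℕ) * y ^ (ι.2 : ℕ) with hv
  have hmono : ∀ n k : ℕ, x ^ n * y ^ k ∈ Submodule.span K (Set.range v) := by
    intro n k
    have e1 : x ^ n = algebraMap K L (a ^ (n / d)) * x ^ (n % d) := by
      conv_lhs => rw [← Nat.div_add_mod n d, pow_add, pow_mul, hx, ← map_pow]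
    have e2 : y ^ k = algebraMap K L (b ^ (k / d)) * y ^ (k % d) := by
      conv_lhs => rw [← Nat.div_add_mod k d, pow_add, pow_mul, hy, ← map_pow]
    have e3 : x ^ n * y ^ k = (a ^ (n / d) * b ^ (k / d)) •
        v (⟨n % d, Nat.mod_lt n hd⟩, ⟨k % d, Nat.mod_lt k hd⟩) := by
      rw [e1, e2, Algebra.smul_def, map_mul]
      simp only [hv]
      ring
    rw [e3]
    exact Submodule.smul_mem _ _ (Submodule.subset_span ⟨_, rfl⟩)
  have hz : z ∈ Submodule.span K (Set.range v) := by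
    have h1 : z ∈ Algebra.adjoin K ({x, y} : Set L) := by
      rw [hgen]
      exact Algebra.mem_top
    rw [← Subalgebra.mem_toSubmodule, Algebra.adjoin_eq_span] at h1
    refine Submodule.span_le.mpr ?_ h1
    intro w hw
    obtain ⟨n, k, rfl⟩ := (Submonoid.mem_closure_pair x y w).mp hw
    exact hmono n k
  obtain ⟨c, hc⟩ := (Submodule.mem_span_range_iff_exists_fun K).mp hz
  exact ⟨c, hc.symm⟩

/-- **TKC, coefficient form.**  Every element of `L = K(x₂, y₂)` integral over `O` is an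
`O`-combination of the monomials `x₂ ^ i y₂ ^ j`, `i, j < d`. -/
theorem rtk6k_integral_coeff {d : ℕ} (hd : IsUnit (d : O)) {ζ : O} (hζ : IsPrimitiveRoot ζ d)
    {X Y : O} (hX : Prime X ∨ IsUnit X) (hY : (Prime Y ∧ ¬ Y ∣ X) ∨ IsUnit Y)
    {ε₁ ε₂ : O} (hε₁ : IsUnit ε₁) (hε₂ : IsUnit ε₂) {x₂ y₂ : L}
    (hx : x₂ ^ d = algebraMap O L (ε₁ * X)) (hy : y₂ ^ d = algebraMap O L (ε₂ * Y))
    (s₁ s₂ : L ≃ₐ[K] L) (h11 : s₁ x₂ = algebraMap O K ζ • x₂) (h12 : s₁ y₂ = y₂)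
    (h21 : s₂ x₂ = x₂) (h22 : s₂ y₂ = algebraMap O K ζ • y₂)
    (hgen : Algebra.adjoin K ({x₂, y₂} : Set L) = ⊤) {b : L} (hb : IsIntegral O b) :
    ∃ c : Fin d × Fin d → O,
      b = ∑ ι, algebraMap O L (c ι) * (x₂ ^ (ι.1 : ℕ) * y₂ ^ (ι.2 : ℕ)) := by
  classical
  have hinjOK := IsFractionRing.injective O K
  have hinjKL : Function.Injective (algebraMap K L) := (algebraMap K L).injective
  have hdK : (d : K) ≠ 0 := by
    have := hd.map (algebraMap O K)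
    rw [map_natCast] at this
    exact this.ne_zero
  have hdpos : 0 < d := by
    rcases Nat.eq_zero_or_pos d with h | h
    · exfalso
      apply hdK
      rw [h, Nat.cast_zero]
    · exact h
  have hζK : IsPrimitiveRoot (algebraMap O K ζ) d := hζ.map_of_injective hinjOK
  have hζu : IsUnit ζ := hζ.isUnit hdpos.ne'
  have hx' : x₂ ^ d = algebraMap K L (algebraMap O K (ε₁ * X)) := by
    rw [hx, IsScalarTower.algebraMap_apply O K L]
  have hy' : y₂ ^ d = algebraMap K L (algebraMap O K (ε₂ * Y)) := by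
    rw [hy, IsScalarTower.algebraMap_apply O K L]
  obtain ⟨c, hc⟩ := rtk6k_span hdpos hx' hy' hgen b
  -- the projection onto the `(i₀, j₀)`-component
  have hproj : ∀ ι₀ : Fin d × Fin d,
      rtk6kProj d (algebraMap O K ζ) s₁ ι₀.1 (rtk6kProj d (algebraMap O K ζ) s₂ ι₀.2 b) =
        c ι₀ • (x₂ ^ (ι₀.1 : ℕ) * y₂ ^ (ι₀.2 : ℕ)) := by
    intro ι₀
    have hmon : ∀ ι : Fin d × Fin d,
        rtk6kProj d (algebraMap O K ζ) s₁ ι₀.1 (rtk6kProj d (algebraMap O K ζ) s₂ ι₀.2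
          (x₂ ^ (ι.1 : ℕ) * y₂ ^ (ι.2 : ℕ))) =
          if ι = ι₀ then x₂ ^ (ι.1 : ℕ) * y₂ ^ (ι.2 : ℕ) else 0 := by
      intro ι
      have hs2 : s₂ (x₂ ^ (ι.1 : ℕ)) = x₂ ^ (ι.1 : ℕ) := by rw [map_pow, h21]
      have hs1 : s₁ (y₂ ^ (ι.2 : ℕ)) = y₂ ^ (ι.2 : ℕ) := by rw [map_pow, h12]
      have e2 := rtk6kProj_monomial hdK hζK s₂ h22 hs2 ι.2.2 ι₀.2.2
      rw [mul_comm (x₂ ^ (ι.1 : ℕ)) (y₂ ^ (ι.2 : ℕ)), e2]
      by_cases hj : (ι.2 : ℕ) = (ι₀.2 : ℕ)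
      · rw [if_pos hj, mul_comm (y₂ ^ (ι.2 : ℕ)) (x₂ ^ (ι.1 : ℕ)),
          rtk6kProj_monomial hdK hζK s₁ h11 hs1 ι.1.2 ι₀.1.2]
        by_cases hi : (ι.1 : ℕ) = (ι₀.1 : ℕ)
        · rw [if_pos hi, if_pos (Prod.ext (Fin.ext hi) (Fin.ext hj))]
        · rw [if_neg hi, if_neg]
          intro h
          exact hi (by rw [h])
      · rw [if_neg hj, map_zero, if_neg]
        intro h
        exact hj (by rw [h])
    rw [hc, map_sum, map_sum]
    simp only [map_smul, hmon]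
    rw [Finset.sum_eq_single ι₀]
    · rw [if_pos rfl]
    · intro ι _ hι
      rw [if_neg hι, smul_zero]
    · intro h
      exact absurd (Finset.mem_univ _) h
  -- each component is integral
  have hint : ∀ ι₀ : Fin d × Fin d,
      IsIntegral O (c ι₀ • (x₂ ^ (ι₀.1 : ℕ) * y₂ ^ (ι₀.2 : ℕ))) := by
    intro ι₀
    rw [← hproj ι₀]
    exact rtk6kProj_isIntegral hd hζu s₁ _ (rtk6kProj_isIntegral hd hζu s₂ _ hb)
  -- hence each coefficient lies in `O`
  have hcO : ∀ ι₀ : Fin d × Fin d, ∃ a : O, algebraMap O K a = c ι₀ := by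
    intro ι₀
    have h1 : (c ι₀ • (x₂ ^ (ι₀.1 : ℕ) * y₂ ^ (ι₀.2 : ℕ))) ^ d =
        algebraMap K L (c ι₀ ^ d * algebraMap O K ((ε₁ * X) ^ (ι₀.1 : ℕ) *
          (ε₂ * Y) ^ (ι₀.2 : ℕ))) := by
      rw [smul_pow, mul_pow, ← pow_mul, ← pow_mul, mul_comm (ι₀.1 : ℕ) d,
        mul_comm (ι₀.2 : ℕ) d, pow_mul, pow_mul, hx', hy', Algebra.smul_def]
      simp only [map_mul, map_pow]
    have h2 : IsIntegral O (c ι₀ ^ d * algebraMap O K ((ε₁ * X) ^ (ι₀.1 : ℕ) *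
        (ε₂ * Y) ^ (ι₀.2 : ℕ))) := by
      have := (hint ι₀).pow d
      rw [h1] at this
      exact (isIntegral_algebraMap_iff hinjKL).mp this
    obtain ⟨e, he⟩ := IsIntegrallyClosed.isIntegral_iff.mp h2
    obtain ⟨u₁, hu₁⟩ := hε₁
    obtain ⟨u₂, hu₂⟩ := hε₂
    refine rtk6k_trick_two ι₀.1.2 ι₀.2.2 hX hY
      (c := e * ↑(u₁⁻¹ ^ (ι₀.1 : ℕ) * u₂⁻¹ ^ (ι₀.2 : ℕ))) ?_
    rw [map_mul, he, ← hu₁, ← hu₂]
    simp only [map_mul, map_pow, Units.val_mul, Units.val_pow_eq_pow_val]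
    have k1 : algebraMap O K (↑u₁ : O) * algebraMap O K (↑u₁⁻¹ : O) = 1 := by
      rw [← map_mul, Units.mul_inv, map_one]
    have k2 : algebraMap O K (↑u₂ : O) * algebraMap O K (↑u₂⁻¹ : O) = 1 := by
      rw [← map_mul, Units.mul_inv, map_one]
    have k1' : (algebraMap O K (↑u₁ : O) * algebraMap O K (↑u₁⁻¹ : O)) ^ (ι₀.1 : ℕ) = 1 := by
      rw [k1, one_pow]
    have k2' : (algebraMap O K (↑u₂ : O) * algebraMap O K (↑u₂⁻¹ : O)) ^ (ι₀.2 : ℕ) = 1 := by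
      rw [k2, one_pow]
    rw [mul_pow] at k1' k2'
    calc c ι₀ ^ d * algebraMap O K X ^ (ι₀.1 : ℕ) * algebraMap O K Y ^ (ι₀.2 : ℕ)
        = c ι₀ ^ d * algebraMap O K X ^ (ι₀.1 : ℕ) * algebraMap O K Y ^ (ι₀.2 : ℕ) *
          ((algebraMap O K ↑u₁ ^ (ι₀.1 : ℕ) * algebraMap O K (↑u₁⁻¹ : O) ^ (ι₀.1 : ℕ)) *
           (algebraMap O K ↑u₂ ^ (ι₀.2 : ℕ) * algebraMap O K (↑u₂⁻¹ : O) ^ (ι₀.2 : ℕ))) := by
          rw [k1', k2', mul_one, mul_one]
      _ = _ := by ring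
  choose a ha using hcO
  refine ⟨a, ?_⟩
  rw [hc]
  refine Finset.sum_congr rfl fun ι _ => ?_
  rw [← ha ι, Algebra.smul_def, ← IsScalarTower.algebraMap_apply O K L]

/-- **TKC.**  The integral closure of `O` in `L = K(x₂, y₂)` is `O[x₂, y₂]`. -/
theorem rtk6k_integral_mem_adjoin {d : ℕ} (hd : IsUnit (d : O)) {ζ : O}
    (hζ : IsPrimitiveRoot ζ d)
    {X Y : O} (hX : Prime X ∨ IsUnit X) (hY : (Prime Y ∧ ¬ Y ∣ X) ∨ IsUnit Y)
    {ε₁ ε₂ : O} (hε₁ : IsUnit ε₁) (hε₂ : IsUnit ε₂) {x₂ y₂ : L}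
    (hx : x₂ ^ d = algebraMap O L (ε₁ * X)) (hy : y₂ ^ d = algebraMap O L (ε₂ * Y))
    (s₁ s₂ : L ≃ₐ[K] L) (h11 : s₁ x₂ = algebraMap O K ζ • x₂) (h12 : s₁ y₂ = y₂)
    (h21 : s₂ x₂ = x₂) (h22 : s₂ y₂ = algebraMap O K ζ • y₂)
    (hgen : Algebra.adjoin K ({x₂, y₂} : Set L) = ⊤) {b : L} (hb : IsIntegral O b) :
    b ∈ Algebra.adjoin O ({x₂, y₂} : Set L) := by
  obtain ⟨c, rfl⟩ := rtk6k_integral_coeff hd hζ hX hY hε₁ hε₂ hx hy s₁ s₂ h11 h12 h21 h22
    hgen hb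
  refine Subalgebra.sum_mem _ fun ι _ => ?_
  refine Subalgebra.mul_mem _ (Subalgebra.algebraMap_mem _ _) (Subalgebra.mul_mem _ ?_ ?_)
  · exact Subalgebra.pow_mem _ (Algebra.subset_adjoin (Set.mem_insert _ _)) _
  · exact Subalgebra.pow_mem _
      (Algebra.subset_adjoin (Set.mem_insert_of_mem _ (Set.mem_singleton _))) _

omit [IsIntegrallyClosed O] [IsFractionRing O K] [IsScalarTower O K L] [Algebra O K] [Algebra K L]
  [Field K] [IsDomain O] in
/-- an element of `L` integral over the local ring `O`, whose `d`-th power is in `𝔪`, lies in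
every maximal ideal of the integral closure -/
theorem rtk6k_mem_maximal [IsLocalRing O] {d : ℕ} {x : L} (hx : IsIntegral O x)
    {a : O} (ha : a ∈ IsLocalRing.maximalIdeal O) (hxa : x ^ d = algebraMap O L a)
    (𝔑 : Ideal (integralClosure O L)) [h𝔑 : 𝔑.IsMaximal] :
    (⟨x, hx⟩ : integralClosure O L) ∈ 𝔑 := by
  haveI : Algebra.IsIntegral O (integralClosure O L) := inferInstance
  have hmax : (𝔑.comap (algebraMap O (integralClosure O L))).IsMaximal :=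
    Ideal.isMaximal_comap_of_isIntegral_of_isMaximal 𝔑
  have hcomap : 𝔑.comap (algebraMap O (integralClosure O L)) = IsLocalRing.maximalIdeal O :=
    IsLocalRing.eq_maximalIdeal hmax
  have h1 : algebraMap O (integralClosure O L) a ∈ 𝔑 := by
    have : a ∈ 𝔑.comap (algebraMap O (integralClosure O L)) := by rw [hcomap]; exact ha
    exact this
  have h2 : (⟨x, hx⟩ : integralClosure O L) ^ d = algebraMap O (integralClosure O L) a := by
    apply Subtype.ext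
    rw [SubmonoidClass.coe_pow]
    exact hxa
  exact h𝔑.isPrime.mem_of_pow_mem d (h2 ▸ h1)

/-- **TKC, local form.**  If moreover `O` is local with `𝔪 = (X, Y)`, every element of the
integral closure `C` of `O` in `L` is a unit of `C` or lies in `x₂ C + y₂ C`; and
`x₂ C + y₂ C ≠ C`.  (So `C` is local with maximal ideal `(x₂, y₂)`.) -/
theorem rtk6k_local [IsLocalRing O] {d : ℕ} (hd : IsUnit (d : O)) {ζ : O}
    (hζ : IsPrimitiveRoot ζ d)
    {X Y : O} (hX : Prime X ∨ IsUnit X) (hY : (Prime Y ∧ ¬ Y ∣ X) ∨ IsUnit Y)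
    (hm : IsLocalRing.maximalIdeal O = Ideal.span {X, Y})
    {ε₁ ε₂ : O} (hε₁ : IsUnit ε₁) (hε₂ : IsUnit ε₂) {x₂ y₂ : L}
    (hx : x₂ ^ d = algebraMap O L (ε₁ * X)) (hy : y₂ ^ d = algebraMap O L (ε₂ * Y))
    (s₁ s₂ : L ≃ₐ[K] L) (h11 : s₁ x₂ = algebraMap O K ζ • x₂) (h12 : s₁ y₂ = y₂)
    (h21 : s₂ x₂ = x₂) (h22 : s₂ y₂ = algebraMap O K ζ • y₂)
    (hgen : Algebra.adjoin K ({x₂, y₂} : Set L) = ⊤) :
    (∀ b : L, IsIntegral O b → (∃ b' : L, IsIntegral O b' ∧ b * b' = 1) ∨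
      ∃ c₁ c₂ : L, IsIntegral O c₁ ∧ IsIntegral O c₂ ∧ b = c₁ * x₂ + c₂ * y₂) ∧
    ¬ ∃ c₁ c₂ : L, IsIntegral O c₁ ∧ IsIntegral O c₂ ∧ 1 = c₁ * x₂ + c₂ * y₂ := by
  classical
  have hdpos : 0 < d := by
    rcases Nat.eq_zero_or_pos d with h | h
    · exfalso
      rw [h, Nat.cast_zero] at hd
      exact not_isUnit_zero hd
    · exact h
  have hXm : X ∈ IsLocalRing.maximalIdeal O := by
    rw [hm]; exact Ideal.subset_span (Set.mem_insert _ _)
  have hYm : Y ∈ IsLocalRing.maximalIdeal O := by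
    rw [hm]; exact Ideal.subset_span (Set.mem_insert_of_mem _ (Set.mem_singleton _))
  have hx2int : IsIntegral O x₂ := by
    apply IsIntegral.of_pow hdpos
    rw [hx]; exact isIntegral_algebraMap
  have hy2int : IsIntegral O y₂ := by
    apply IsIntegral.of_pow hdpos
    rw [hy]; exact isIntegral_algebraMap
  have hεX : ε₁ * X ∈ IsLocalRing.maximalIdeal O := Ideal.mul_mem_left _ _ hXm
  have hεY : ε₂ * Y ∈ IsLocalRing.maximalIdeal O := Ideal.mul_mem_left _ _ hYm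
  -- `X`, `Y` in terms of `x₂`, `y₂`
  obtain ⟨u₁, hu₁⟩ := hε₁
  obtain ⟨u₂, hu₂⟩ := hε₂
  have hXx : algebraMap O L X = algebraMap O L (↑u₁⁻¹ : O) * x₂ ^ (d - 1) * x₂ := by
    rw [mul_assoc, ← pow_succ, Nat.sub_add_cancel hdpos, hx, ← hu₁, ← map_mul, ← mul_assoc,
      Units.inv_mul, one_mul]
  have hYy : algebraMap O L Y = algebraMap O L (↑u₂⁻¹ : O) * y₂ ^ (d - 1) * y₂ := by
    rw [mul_assoc, ← pow_succ, Nat.sub_add_cancel hdpos, hy, ← hu₂, ← map_mul, ← mul_assoc,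
      Units.inv_mul, one_mul]
  -- elements of `𝔪` lie in `(x₂, y₂)`
  have hmem : ∀ a ∈ IsLocalRing.maximalIdeal O, ∃ c₁ c₂ : L, IsIntegral O c₁ ∧ IsIntegral O c₂ ∧
      algebraMap O L a = c₁ * x₂ + c₂ * y₂ := by
    intro a ha
    rw [hm, Ideal.mem_span_pair] at ha
    obtain ⟨p, q, rfl⟩ := ha
    refine ⟨algebraMap O L p * (algebraMap O L (↑u₁⁻¹ : O) * x₂ ^ (d - 1)),
      algebraMap O L q * (algebraMap O L (↑u₂⁻¹ : O) * y₂ ^ (d - 1)), ?_, ?_, ?_⟩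
    · exact isIntegral_algebraMap.mul (isIntegral_algebraMap.mul (hx2int.pow _))
    · exact isIntegral_algebraMap.mul (isIntegral_algebraMap.mul (hy2int.pow _))
    · rw [map_add, map_mul, map_mul, hXx, hYy]
      ring
  -- monomials other than `1` lie in `(x₂, y₂)`
  have hmono : ∀ ι : Fin d × Fin d, ι ≠ (⟨0, hdpos⟩, ⟨0, hdpos⟩) → ∀ c : O,
      ∃ c₁ c₂ : L, IsIntegral O c₁ ∧ IsIntegral O c₂ ∧
        algebraMap O L c * (x₂ ^ (ι.1 : ℕ) * y₂ ^ (ι.2 : ℕ)) = c₁ * x₂ + c₂ * y₂ := by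
    intro ι hι c
    by_cases hi : (ι.1 : ℕ) = 0
    · have hj : (ι.2 : ℕ) ≠ 0 := by
        intro hj
        apply hι
        exact Prod.ext (Fin.ext hi) (Fin.ext hj)
      refine ⟨0, algebraMap O L c * (x₂ ^ (ι.1 : ℕ) * y₂ ^ ((ι.2 : ℕ) - 1)), isIntegral_zero,
        isIntegral_algebraMap.mul ((hx2int.pow _).mul (hy2int.pow _)), ?_⟩
      have : y₂ ^ (ι.2 : ℕ) = y₂ ^ ((ι.2 : ℕ) - 1) * y₂ := by
        rw [← pow_succ, Nat.sub_add_cancel (Nat.pos_of_ne_zero hj)]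
      rw [this]
      ring
    · refine ⟨algebraMap O L c * (x₂ ^ ((ι.1 : ℕ) - 1) * y₂ ^ (ι.2 : ℕ)), 0,
        isIntegral_algebraMap.mul ((hx2int.pow _).mul (hy2int.pow _)), isIntegral_zero, ?_⟩
      have : x₂ ^ (ι.1 : ℕ) = x₂ ^ ((ι.1 : ℕ) - 1) * x₂ := by
        rw [← pow_succ, Nat.sub_add_cancel (Nat.pos_of_ne_zero hi)]
      rw [this]
      ring
  -- `1 ∉ (x₂, y₂)`
  have hprop : ¬ ∃ c₁ c₂ : L, IsIntegral O c₁ ∧ IsIntegral O c₂ ∧ 1 = c₁ * x₂ + c₂ * y₂ := by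
    rintro ⟨c₁, c₂, hc₁, hc₂, h1⟩
    obtain ⟨𝔑, h𝔑⟩ := Ideal.exists_maximal (integralClosure O L)
    haveI := h𝔑
    have hx𝔑 := rtk6k_mem_maximal hx2int hεX hx 𝔑
    have hy𝔑 := rtk6k_mem_maximal hy2int hεY hy 𝔑
    have : (1 : integralClosure O L) ∈ 𝔑 := by
      have e : (1 : integralClosure O L) =
          ⟨c₁, hc₁⟩ * ⟨x₂, hx2int⟩ + ⟨c₂, hc₂⟩ * ⟨y₂, hy2int⟩ := by
        apply Subtype.ext
        simpa using h1
      rw [e]
      exact Ideal.add_mem _ (Ideal.mul_mem_left _ _ hx𝔑) (Ideal.mul_mem_left _ _ hy𝔑)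
    exact h𝔑.ne_top ((Ideal.eq_top_iff_one _).mpr this)
  refine ⟨?_, hprop⟩
  intro b hb
  obtain ⟨c, hc⟩ := rtk6k_integral_coeff hd hζ hX hY ⟨u₁, hu₁⟩ ⟨u₂, hu₂⟩ hx hy s₁ s₂ h11 h12
    h21 h22 hgen hb
  set ι₀ : Fin d × Fin d := (⟨0, hdpos⟩, ⟨0, hdpos⟩) with hι₀
  -- the part of `b` outside the constant term
  have hrest : ∃ c₁ c₂ : L, IsIntegral O c₁ ∧ IsIntegral O c₂ ∧
      b - algebraMap O L (c ι₀) = c₁ * x₂ + c₂ * y₂ := by
    have hsplit : b - algebraMap O L (c ι₀) =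
        ∑ ι ∈ Finset.univ.erase ι₀, algebraMap O L (c ι) * (x₂ ^ (ι.1 : ℕ) * y₂ ^ (ι.2 : ℕ)) := by
      rw [hc, ← Finset.add_sum_erase Finset.univ _ (Finset.mem_univ ι₀)]
      simp [hι₀]
    rw [hsplit]
    have key : ∀ S : Finset (Fin d × Fin d), (∀ ι ∈ S, ι ≠ ι₀) →
        ∃ c₁ c₂ : L, IsIntegral O c₁ ∧ IsIntegral O c₂ ∧
          ∑ ι ∈ S, algebraMap O L (c ι) * (x₂ ^ (ι.1 : ℕ) * y₂ ^ (ι.2 : ℕ)) =
            c₁ * x₂ + c₂ * y₂ := by
      intro S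
      induction S using Finset.induction_on with
      | empty =>
        intro _
        exact ⟨0, 0, isIntegral_zero, isIntegral_zero, by simp⟩
      | insert a S ha ih =>
        intro hS
        obtain ⟨p₁, p₂, hp₁, hp₂, hp⟩ := ih (fun ι hι => hS ι (Finset.mem_insert_of_mem hι))
        obtain ⟨q₁, q₂, hq₁, hq₂, hq⟩ := hmono a (hS a (Finset.mem_insert_self _ _)) (c a)
        refine ⟨q₁ + p₁, q₂ + p₂, hq₁.add hp₁, hq₂.add hp₂, ?_⟩
        rw [Finset.sum_insert ha, hp, hq]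
        ring
    exact key _ (fun ι hι => Finset.ne_of_mem_erase hι)
  obtain ⟨r₁, r₂, hr₁, hr₂, hr⟩ := hrest
  by_cases hc0 : c ι₀ ∈ IsLocalRing.maximalIdeal O
  · right
    obtain ⟨p₁, p₂, hp₁, hp₂, hp⟩ := hmem _ hc0
    refine ⟨p₁ + r₁, p₂ + r₂, hp₁.add hr₁, hp₂.add hr₂, ?_⟩
    have e : b = algebraMap O L (c ι₀) + (b - algebraMap O L (c ι₀)) := by ring
    calc b = algebraMap O L (c ι₀) + (b - algebraMap O L (c ι₀)) := e
      _ = (p₁ * x₂ + p₂ * y₂) + (r₁ * x₂ + r₂ * y₂) := by rw [hr, hp]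
      _ = _ := by ring
  · left
    -- `b` is a unit of the integral closure
    have hbu : IsUnit (⟨b, hb⟩ : integralClosure O L) := by
      by_contra hnu
      obtain ⟨𝔑, h𝔑, hb𝔑⟩ := exists_max_ideal_of_mem_nonunits (mem_nonunits_iff.mpr hnu)
      haveI := h𝔑
      have hx𝔑 := rtk6k_mem_maximal hx2int hεX hx 𝔑
      have hy𝔑 := rtk6k_mem_maximal hy2int hεY hy 𝔑
      have hz : (⟨r₁, hr₁⟩ * ⟨x₂, hx2int⟩ + ⟨r₂, hr₂⟩ * ⟨y₂, hy2int⟩ :
          integralClosure O L) ∈ 𝔑 :=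
        Ideal.add_mem _ (Ideal.mul_mem_left _ _ hx𝔑) (Ideal.mul_mem_left _ _ hy𝔑)
      have hc𝔑 : algebraMap O (integralClosure O L) (c ι₀) ∈ 𝔑 := by
        have e : algebraMap O (integralClosure O L) (c ι₀) =
            ⟨b, hb⟩ - (⟨r₁, hr₁⟩ * ⟨x₂, hx2int⟩ + ⟨r₂, hr₂⟩ * ⟨y₂, hy2int⟩) := by
          apply Subtype.ext
          have := hr
          simp only [Subalgebra.coe_sub, Subalgebra.coe_add, Subalgebra.coe_mul]
          rw [← hr]
          simp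
        rw [e]
        exact Ideal.sub_mem _ hb𝔑 hz
      haveI : Algebra.IsIntegral O (integralClosure O L) := inferInstance
      have hmax : (𝔑.comap (algebraMap O (integralClosure O L))).IsMaximal :=
        Ideal.isMaximal_comap_of_isIntegral_of_isMaximal 𝔑
      have hcomap : 𝔑.comap (algebraMap O (integralClosure O L)) = IsLocalRing.maximalIdeal O :=
        IsLocalRing.eq_maximalIdeal hmax
      apply hc0
      rw [← hcomap]
      exact hc𝔑
    obtain ⟨v, hv⟩ := hbu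
    refine ⟨((↑v⁻¹ : integralClosure O L) : L), (↑v⁻¹ : integralClosure O L).2, ?_⟩
    have h1 : (⟨b, hb⟩ : integralClosure O L) * ↑v⁻¹ = 1 := by
      rw [← hv]
      exact Units.mul_inv v
    have := congrArg (Subtype.val) h1
    simpa using this

end Main

end Fermat.Agent.RT.K6
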