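/-
K-machine, piece K6, piece D-GL(c) (helper94): the automorphisms at a crossing point.

Abstract (Mathlib + `DK.lean` + `DGLCross.lean`).  In the situation of TKC (`rtk6k_local`):
`O` a normal local domain, `𝔪 = (X, Y)`, `L = K(x₂, y₂)`, `x₂ ^ d = ε₁ X`, `y₂ ^ d = ε₂ Y`, the
integral closure `C` of `O` in `L` is local with maximal ideal `(x₂, y₂)` and `C / (x₂, y₂) = O / 𝔪`.
Hence a ring endomorphism `Φ` of `L` which is the identity on `O` (or the identity modulo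
`x₂ C + y₂ C` on `O`) and multiplies `x₂` and `y₂` by integral elements is the identity modulo
`x₂ C + y₂ C` on `C`:

* `rtk6gfIn O x y z`     : `z ∈ x C + y C` (element form);
* `rtk6gf_cong_coeff`    : `Φ c - c ∈ x₂ C + y₂ C` for every `c ∈ C` (from `rtk6k_integral_coeff`);
* `rtk6gf_cong`          : C-form (`rtk6glIsLoc`): `Φ (ι b) = ι b + ι c`, `c ∈ 𝔫`, for every `b` of
                           the chart `B`;
* `rtk6gf_fix`           : C-form: `Φ 𝔫 ⊆ 𝔫`;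
* `rtk6gf_cong_local`, `rtk6gf_fix_local` : the same from the `O`-form hypotheses of
                           `rtk6gl_cross_local`;
* `rtk6gf_cong_tkc`, `rtk6gf_fix_tkc`     : the same from the hypotheses of `rtk6gl_cross_tkc`
                           (TKC on the chart) and `Φ x₂ = a x₂`, `Φ y₂ = b y₂`, `Φ|_O = id`.

The forms for `Rtk6ewFix` / `Rtk6ewCong` of `EWCross.lean` are in `DGLFixEW.lean`.
-/
import Fermat.Agent.RT.K6.DGLCross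
import Fermat.Agent.RT.K6.DK

set_option autoImplicit false
set_option linter.style.haveILetI false
set_option linter.unusedSectionVars false

namespace Fermat.Agent.RT.K6

open Fermat.Agent.UNIP

section Pred

/-- `z ∈ x C + y C`, where `C` is the integral closure of `O` in `L` (element form, as in the
conclusion of `rtk6k_local`). -/
def rtk6gfIn (O : Type*) {L : Type*} [CommRing O] [CommRing L] [Algebra O L] (x y z : L) : Prop :=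
  ∃ c₁ c₂ : L, IsIntegral O c₁ ∧ IsIntegral O c₂ ∧ z = c₁ * x + c₂ * y

variable {O L : Type*} [CommRing O] [CommRing L] [Algebra O L] {x y : L}

theorem rtk6gfIn_zero : rtk6gfIn O x y 0 :=
  ⟨0, 0, isIntegral_zero, isIntegral_zero, by rw [zero_mul, zero_mul, add_zero]⟩

theorem rtk6gfIn_left : rtk6gfIn O x y x :=
  ⟨1, 0, isIntegral_one, isIntegral_zero, by rw [one_mul, zero_mul, add_zero]⟩

theorem rtk6gfIn_right : rtk6gfIn O x y y :=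
  ⟨0, 1, isIntegral_zero, isIntegral_one, by rw [one_mul, zero_mul, zero_add]⟩

theorem rtk6gfIn_add {z z' : L} (h : rtk6gfIn O x y z) (h' : rtk6gfIn O x y z') :
    rtk6gfIn O x y (z + z') := by
  obtain ⟨c₁, c₂, hc₁, hc₂, rfl⟩ := h
  obtain ⟨d₁, d₂, hd₁, hd₂, rfl⟩ := h'
  exact ⟨c₁ + d₁, c₂ + d₂, hc₁.add hd₁, hc₂.add hd₂, by ring⟩

theorem rtk6gfIn_neg {z : L} (h : rtk6gfIn O x y z) : rtk6gfIn O x y (-z) := by
  obtain ⟨c₁, c₂, hc₁, hc₂, rfl⟩ := h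
  exact ⟨-c₁, -c₂, hc₁.neg, hc₂.neg, by ring⟩

theorem rtk6gfIn_sub {z z' : L} (h : rtk6gfIn O x y z) (h' : rtk6gfIn O x y z') :
    rtk6gfIn O x y (z - z') := by
  rw [sub_eq_add_neg]
  exact rtk6gfIn_add h (rtk6gfIn_neg h')

theorem rtk6gfIn_mul {c z : L} (hc : IsIntegral O c) (h : rtk6gfIn O x y z) :
    rtk6gfIn O x y (c * z) := by
  obtain ⟨c₁, c₂, hc₁, hc₂, rfl⟩ := h
  exact ⟨c * c₁, c * c₂, hc.mul hc₁, hc.mul hc₂, by ring⟩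

theorem rtk6gfIn_mul_right {c z : L} (hc : IsIntegral O c) (h : rtk6gfIn O x y z) :
    rtk6gfIn O x y (z * c) := by
  rw [mul_comm]
  exact rtk6gfIn_mul hc h

theorem rtk6gfIn_sum {α : Type*} (s : Finset α) (f : α → L)
    (h : ∀ i ∈ s, rtk6gfIn O x y (f i)) : rtk6gfIn O x y (∑ i ∈ s, f i) := by
  classical
  induction s using Finset.induction_on with
  | empty =>
    rw [Finset.sum_empty]
    exact rtk6gfIn_zero
  | insert a s ha ih =>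
    rw [Finset.sum_insert ha]
    exact rtk6gfIn_add (h a (Finset.mem_insert_self a s))
      (ih fun i hi => h i (Finset.mem_insert_of_mem hi))

theorem rtk6gfIn_isIntegral (hx : IsIntegral O x) (hy : IsIntegral O y) {z : L}
    (h : rtk6gfIn O x y z) : IsIntegral O z := by
  obtain ⟨c₁, c₂, hc₁, hc₂, rfl⟩ := h
  exact (hc₁.mul hx).add (hc₂.mul hy)

/-- the monomials `x ^ i y ^ j`, `(i, j) ≠ (0, 0)`, lie in `x C + y C` -/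
theorem rtk6gfIn_monomial (hx : IsIntegral O x) (hy : IsIntegral O y) {i j : ℕ}
    (hij : i ≠ 0 ∨ j ≠ 0) : rtk6gfIn O x y (x ^ i * y ^ j) := by
  rcases hij with hi | hj
  · obtain ⟨i', rfl⟩ := Nat.exists_eq_succ_of_ne_zero hi
    have e : x ^ (i' + 1) * y ^ j = (x ^ i' * y ^ j) * x := by ring
    rw [e]
    exact rtk6gfIn_mul ((hx.pow i').mul (hy.pow j)) rtk6gfIn_left
  · obtain ⟨j', rfl⟩ := Nat.exists_eq_succ_of_ne_zero hj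
    have e : x ^ i * y ^ (j' + 1) = (x ^ i * y ^ j') * y := by ring
    rw [e]
    exact rtk6gfIn_mul ((hx.pow i).mul (hy.pow j')) rtk6gfIn_right

/-- `Φ` is the identity modulo `x C + y C` on a sum of terms `α · x ^ i y ^ j`, if it is on the
coefficients `α` and `Φ x = a x`, `Φ y = b y` with `a`, `b` integral. -/
theorem rtk6gf_cong_term (hx : IsIntegral O x) (hy : IsIntegral O y) (Φ : L →+* L)
    {a b : L} (ha : IsIntegral O a) (hb : IsIntegral O b) (hΦx : Φ x = a * x)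
    (hΦy : Φ y = b * y) {α : L} (hα : IsIntegral O α) (hΦα : rtk6gfIn O x y (Φ α - α))
    (i j : ℕ) : rtk6gfIn O x y (Φ (α * (x ^ i * y ^ j)) - α * (x ^ i * y ^ j)) := by
  have hΦαi : IsIntegral O (Φ α) := by
    have : Φ α = (Φ α - α) + α := by ring
    rw [this]
    exact (rtk6gfIn_isIntegral hx hy hΦα).add hα
  have e1 : Φ (α * (x ^ i * y ^ j)) = Φ α * (a ^ i * b ^ j) * (x ^ i * y ^ j) := by
    rw [map_mul, map_mul, map_pow, map_pow, hΦx, hΦy, mul_pow, mul_pow]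
    ring
  by_cases hij : i ≠ 0 ∨ j ≠ 0
  · have hm := rtk6gfIn_monomial (O := O) hx hy hij
    rw [e1]
    exact rtk6gfIn_sub (rtk6gfIn_mul (hΦαi.mul ((ha.pow i).mul (hb.pow j))) hm)
      (rtk6gfIn_mul hα hm)
  · have hi : i = 0 := by
      by_contra h
      exact hij (Or.inl h)
    have hj : j = 0 := by
      by_contra h
      exact hij (Or.inr h)
    subst hi
    subst hj
    simpa using hΦα

end Pred

section Coeff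

variable {O K L : Type*} [CommRing O] [IsDomain O] [IsIntegrallyClosed O]
  [Field K] [Algebra O K] [IsFractionRing O K]
  [Field L] [Algebra K L] [Algebra O L] [IsScalarTower O K L]

/-- **The automorphisms at a crossing point, local form.**  In the situation of TKC, a ring
endomorphism `Φ` of `L` with `Φ o ≡ o` modulo `x₂ C + y₂ C` for `o ∈ O` and `Φ x₂ = a x₂`,
`Φ y₂ = b y₂` (`a`, `b` integral over `O`) satisfies `Φ c ≡ c` modulo `x₂ C + y₂ C` for every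
`c ∈ C` (the integral closure of `O` in `L`). -/
theorem rtk6gf_cong_coeff {d : ℕ} (hd : IsUnit (d : O)) {ζ : O} (hζ : IsPrimitiveRoot ζ d)
    {X Y : O} (hX : Prime X ∨ IsUnit X) (hY : (Prime Y ∧ ¬ Y ∣ X) ∨ IsUnit Y)
    {ε₁ ε₂ : O} (hε₁ : IsUnit ε₁) (hε₂ : IsUnit ε₂) {x₂ y₂ : L}
    (hx : x₂ ^ d = algebraMap O L (ε₁ * X)) (hy : y₂ ^ d = algebraMap O L (ε₂ * Y))
    (s₁ s₂ : L ≃ₐ[K] L) (h11 : s₁ x₂ = algebraMap O K ζ • x₂) (h12 : s₁ y₂ = y₂)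
    (h21 : s₂ x₂ = x₂) (h22 : s₂ y₂ = algebraMap O K ζ • y₂)
    (hgen : Algebra.adjoin K ({x₂, y₂} : Set L) = ⊤)
    (Φ : L →+* L)
    (hΦO : ∀ o : O, rtk6gfIn O x₂ y₂ (Φ (algebraMap O L o) - algebraMap O L o))
    {a b : L} (ha : IsIntegral O a) (hb : IsIntegral O b) (hΦx : Φ x₂ = a * x₂)
    (hΦy : Φ y₂ = b * y₂) {c : L} (hc : IsIntegral O c) :
    rtk6gfIn O x₂ y₂ (Φ c - c) := by
  have hd0 : 0 < d := by
    rcases Nat.eq_zero_or_pos d with h | h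
    · exfalso
      rw [h, Nat.cast_zero] at hd
      exact not_isUnit_zero hd
    · exact h
  have hxi : IsIntegral O x₂ := IsIntegral.of_pow hd0 (by rw [hx]; exact isIntegral_algebraMap)
  have hyi : IsIntegral O y₂ := IsIntegral.of_pow hd0 (by rw [hy]; exact isIntegral_algebraMap)
  obtain ⟨cf, rfl⟩ := rtk6k_integral_coeff hd hζ hX hY hε₁ hε₂ hx hy s₁ s₂ h11 h12 h21 h22
    hgen hc
  rw [map_sum, ← Finset.sum_sub_distrib]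
  refine rtk6gfIn_sum _ _ fun ι _ => ?_
  exact rtk6gf_cong_term hxi hyi Φ ha hb hΦx hΦy isIntegral_algebraMap (hΦO (cf ι)) _ _

/-- the same when `Φ` is the identity on `O` -/
theorem rtk6gf_cong_coeff_id {d : ℕ} (hd : IsUnit (d : O)) {ζ : O} (hζ : IsPrimitiveRoot ζ d)
    {X Y : O} (hX : Prime X ∨ IsUnit X) (hY : (Prime Y ∧ ¬ Y ∣ X) ∨ IsUnit Y)
    {ε₁ ε₂ : O} (hε₁ : IsUnit ε₁) (hε₂ : IsUnit ε₂) {x₂ y₂ : L}
    (hx : x₂ ^ d = algebraMap O L (ε₁ * X)) (hy : y₂ ^ d = algebraMap O L (ε₂ * Y))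
    (s₁ s₂ : L ≃ₐ[K] L) (h11 : s₁ x₂ = algebraMap O K ζ • x₂) (h12 : s₁ y₂ = y₂)
    (h21 : s₂ x₂ = x₂) (h22 : s₂ y₂ = algebraMap O K ζ • y₂)
    (hgen : Algebra.adjoin K ({x₂, y₂} : Set L) = ⊤)
    (Φ : L →+* L) (hΦO : ∀ o : O, Φ (algebraMap O L o) = algebraMap O L o)
    {a b : L} (ha : IsIntegral O a) (hb : IsIntegral O b) (hΦx : Φ x₂ = a * x₂)
    (hΦy : Φ y₂ = b * y₂) {c : L} (hc : IsIntegral O c) :
    rtk6gfIn O x₂ y₂ (Φ c - c) :=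
  rtk6gf_cong_coeff hd hζ hX hY hε₁ hε₂ hx hy s₁ s₂ h11 h12 h21 h22 hgen Φ
    (fun o => by rw [hΦO o, sub_self]; exact rtk6gfIn_zero) ha hb hΦx hΦy hc

end Coeff

section CForm

variable {L : Type*} [Field L] {R B : Type*} [CommRing R] [CommRing B]

/-- the elements of the chart `B` in `x C + y C` lie in `𝔫` (`C` local with maximal ideal
`(x, y)`) -/
theorem rtk6gf_mem_of_in (j : R →+* B) (ι : B →+* L) (hι : Function.Injective ι)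
    (𝔫 : Ideal B) [h𝔫 : 𝔫.IsMaximal] (C : Subring L) (hC : rtk6glIsLoc j ι 𝔫 C)
    {x y : L}
    (hloc : ∀ c ∈ C, (∃ c' ∈ C, c * c' = 1) ∨ ∃ c₁ ∈ C, ∃ c₂ ∈ C, c = c₁ * x + c₂ * y)
    (hprop : ¬ ∃ c₁ ∈ C, ∃ c₂ ∈ C, (1 : L) = c₁ * x + c₂ * y)
    {b : B} (hb : ∃ c₁ ∈ C, ∃ c₂ ∈ C, ι b = c₁ * x + c₂ * y) : b ∈ 𝔫 := by
  by_contra hb𝔫
  obtain ⟨c₁, hc₁, c₂, hc₂, hbc⟩ := hb
  obtain ⟨a, n, hn, han⟩ := h𝔫.exists_inv hb𝔫
  rcases hloc (ι n) (hC.le n) with ⟨c', hc', hnc'⟩ | ⟨d₁, hd₁, d₂, hd₂, hnd⟩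
  · exact rtk6gl_not_mem_of_unit j ι hι 𝔫 C hC hc' hnc' hn
  · apply hprop
    refine ⟨ι a * c₁ + d₁, C.add_mem (C.mul_mem (hC.le a) hc₁) hd₁,
      ι a * c₂ + d₂, C.add_mem (C.mul_mem (hC.le a) hc₂) hd₂, ?_⟩
    have : (1 : L) = ι a * ι b + ι n := by rw [← map_mul, ← map_add, han, map_one]
    rw [this, hbc, hnd]
    ring

/-- **`Φ b ≡ b` modulo `𝔫` on the chart, C-form.** -/
theorem rtk6gf_cong (j : R →+* B) (ι : B →+* L) (hι : Function.Injective ι)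
    (𝔫 : Ideal B) [h𝔫 : 𝔫.IsMaximal] (C : Subring L) (hC : rtk6glIsLoc j ι 𝔫 C)
    {x y : L}
    (hloc : ∀ c ∈ C, (∃ c' ∈ C, c * c' = 1) ∨ ∃ c₁ ∈ C, ∃ c₂ ∈ C, c = c₁ * x + c₂ * y)
    (hprop : ¬ ∃ c₁ ∈ C, ∃ c₂ ∈ C, (1 : L) = c₁ * x + c₂ * y)
    (Φ : L →+* L) (hΦB : ∀ b : B, ∃ b' : B, Φ (ι b) = ι b')
    (hΦC : ∀ b : B, ∃ c₁ ∈ C, ∃ c₂ ∈ C, Φ (ι b) - ι b = c₁ * x + c₂ * y) (b : B) :
    ∃ c ∈ 𝔫, Φ (ι b) = ι b + ι c := by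
  obtain ⟨b', hb'⟩ := hΦB b
  refine ⟨b' - b, ?_, ?_⟩
  · refine rtk6gf_mem_of_in j ι hι 𝔫 C hC hloc hprop ?_
    obtain ⟨c₁, hc₁, c₂, hc₂, h⟩ := hΦC b
    exact ⟨c₁, hc₁, c₂, hc₂, by rw [map_sub, ← hb', h]⟩
  · rw [map_sub, ← hb']
    ring

/-- **`Φ 𝔫 ⊆ 𝔫` on the chart, C-form.** -/
theorem rtk6gf_fix (j : R →+* B) (ι : B →+* L) (hι : Function.Injective ι)
    (𝔫 : Ideal B) [h𝔫 : 𝔫.IsMaximal] (C : Subring L) (hC : rtk6glIsLoc j ι 𝔫 C)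
    {x y : L}
    (hloc : ∀ c ∈ C, (∃ c' ∈ C, c * c' = 1) ∨ ∃ c₁ ∈ C, ∃ c₂ ∈ C, c = c₁ * x + c₂ * y)
    (hprop : ¬ ∃ c₁ ∈ C, ∃ c₂ ∈ C, (1 : L) = c₁ * x + c₂ * y)
    (Φ : L →+* L) (hΦB : ∀ b : B, ∃ b' : B, Φ (ι b) = ι b')
    (hΦC : ∀ b : B, ∃ c₁ ∈ C, ∃ c₂ ∈ C, Φ (ι b) - ι b = c₁ * x + c₂ * y) {b : B}
    (hb : b ∈ 𝔫) : ∃ b' ∈ 𝔫, Φ (ι b) = ι b' := by
  obtain ⟨c, hc, h⟩ := rtk6gf_cong j ι hι 𝔫 C hC hloc hprop Φ hΦB hΦC b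
  exact ⟨b + c, 𝔫.add_mem hb hc, by rw [h, map_add]⟩

end CForm

section OForm

variable {L : Type*} [Field L] {R B O : Type*} [CommRing R] [CommRing B] [CommRing O]
  [Algebra O L]

/-- **`Φ b ≡ b` modulo `𝔫` on the chart, from the conclusion of TKC** (`rtk6k_local`) and
`Φ c ≡ c` modulo `x C + y C` on the integral closure `C` of `O` in `L`. -/
theorem rtk6gf_cong_local (j : R →+* B) (ι : B →+* L) (hι : Function.Injective ι)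
    (𝔫 : Ideal B) [h𝔫 : 𝔫.IsMaximal]
    (φ : R →+* O) (hφ : ∀ r, algebraMap O L (φ r) = ι (j r))
    (hO2 : ∀ o : O, ∃ u r : R, j u ∉ 𝔫 ∧ φ u * o = φ r)
    (hO3 : ∀ u : R, j u ∉ 𝔫 → IsUnit (φ u))
    (hint : ∀ b : B, j.IsIntegralElem b)
    (hcl : ∀ x : L, (ι.comp j).IsIntegralElem x → ∃ b, ι b = x)
    {x y : L}
    (hloc : (∀ b : L, IsIntegral O b → (∃ b' : L, IsIntegral O b' ∧ b * b' = 1) ∨
      ∃ c₁ c₂ : L, IsIntegral O c₁ ∧ IsIntegral O c₂ ∧ b = c₁ * x + c₂ * y) ∧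
      ¬ ∃ c₁ c₂ : L, IsIntegral O c₁ ∧ IsIntegral O c₂ ∧ 1 = c₁ * x + c₂ * y)
    (Φ : L →+* L) (hΦB : ∀ b : B, ∃ b' : B, Φ (ι b) = ι b')
    (hΦC : ∀ c : L, IsIntegral O c → rtk6gfIn O x y (Φ c - c)) (b : B) :
    ∃ c ∈ 𝔫, Φ (ι b) = ι b + ι c := by
  haveI : 𝔫.IsPrime := h𝔫.isPrime
  have hC := rtk6gl_isLoc_of_local j ι 𝔫 φ hφ hO2 hO3 hint hcl
  refine rtk6gf_cong j ι hι 𝔫 _ hC (x := x) (y := y) ?_ ?_ Φ hΦB ?_ b
  · intro c hc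
    rcases hloc.1 c hc with ⟨b', hb', h⟩ | ⟨c₁, c₂, hc₁, hc₂, h⟩
    · exact Or.inl ⟨b', hb', h⟩
    · exact Or.inr ⟨c₁, hc₁, c₂, hc₂, h⟩
  · rintro ⟨c₁, hc₁, c₂, hc₂, h⟩
    exact hloc.2 ⟨c₁, c₂, hc₁, hc₂, h⟩
  · intro b
    obtain ⟨c₁, c₂, hc₁, hc₂, h⟩ := hΦC (ι b) (hC.le b)
    exact ⟨c₁, hc₁, c₂, hc₂, h⟩

/-- **`Φ 𝔫 ⊆ 𝔫` on the chart, from the conclusion of TKC.** -/
theorem rtk6gf_fix_local (j : R →+* B) (ι : B →+* L) (hι : Function.Injective ι)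
    (𝔫 : Ideal B) [h𝔫 : 𝔫.IsMaximal]
    (φ : R →+* O) (hφ : ∀ r, algebraMap O L (φ r) = ι (j r))
    (hO2 : ∀ o : O, ∃ u r : R, j u ∉ 𝔫 ∧ φ u * o = φ r)
    (hO3 : ∀ u : R, j u ∉ 𝔫 → IsUnit (φ u))
    (hint : ∀ b : B, j.IsIntegralElem b)
    (hcl : ∀ x : L, (ι.comp j).IsIntegralElem x → ∃ b, ι b = x)
    {x y : L}
    (hloc : (∀ b : L, IsIntegral O b → (∃ b' : L, IsIntegral O b' ∧ b * b' = 1) ∨
      ∃ c₁ c₂ : L, IsIntegral O c₁ ∧ IsIntegral O c₂ ∧ b = c₁ * x + c₂ * y) ∧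
      ¬ ∃ c₁ c₂ : L, IsIntegral O c₁ ∧ IsIntegral O c₂ ∧ 1 = c₁ * x + c₂ * y)
    (Φ : L →+* L) (hΦB : ∀ b : B, ∃ b' : B, Φ (ι b) = ι b')
    (hΦC : ∀ c : L, IsIntegral O c → rtk6gfIn O x y (Φ c - c)) {b : B} (hb : b ∈ 𝔫) :
    ∃ b' ∈ 𝔫, Φ (ι b) = ι b' := by
  obtain ⟨c, hc, h⟩ := rtk6gf_cong_local j ι hι 𝔫 φ hφ hO2 hO3 hint hcl hloc Φ hΦB hΦC b
  exact ⟨b + c, 𝔫.add_mem hb hc, by rw [h, map_add]⟩

end OForm

section TKC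

/-- **The automorphisms at a crossing point, on the chart** (hypotheses of `rtk6gl_cross_tkc`):
a ring endomorphism `Φ` of `L` which preserves the chart `B`, is the identity modulo
`x₂ C + y₂ C` on `O` and multiplies `x₂`, `y₂` by integral elements is the identity modulo `𝔫`
on `B`. -/
theorem rtk6gf_cong_tkc {O K L R B : Type*} [CommRing O] [IsDomain O] [IsIntegrallyClosed O]
    [Field K] [Algebra O K] [IsFractionRing O K] [Field L] [Algebra K L] [Algebra O L]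
    [IsScalarTower O K L] [IsLocalRing O] [CommRing R] [CommRing B]
    {d : ℕ} (hd : IsUnit (d : O)) {ζ : O}
    (hζ : IsPrimitiveRoot ζ d)
    {X₀ Y₀ : O} (hX : Prime X₀ ∨ IsUnit X₀) (hY : (Prime Y₀ ∧ ¬ Y₀ ∣ X₀) ∨ IsUnit Y₀)
    (hm : IsLocalRing.maximalIdeal O = Ideal.span {X₀, Y₀})
    {ε₁ ε₂ : O} (hε₁ : IsUnit ε₁) (hε₂ : IsUnit ε₂) {x₂ y₂ : L}
    (hx : x₂ ^ d = algebraMap O L (ε₁ * X₀)) (hy : y₂ ^ d = algebraMap O L (ε₂ * Y₀))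
    (s₁ s₂ : L ≃ₐ[K] L) (h11 : s₁ x₂ = algebraMap O K ζ • x₂) (h12 : s₁ y₂ = y₂)
    (h21 : s₂ x₂ = x₂) (h22 : s₂ y₂ = algebraMap O K ζ • y₂)
    (hgen : Algebra.adjoin K ({x₂, y₂} : Set L) = ⊤)
    (j : R →+* B) (ι : B →+* L) (hι : Function.Injective ι)
    (𝔫 : Ideal B) [h𝔫 : 𝔫.IsMaximal]
    (φ : R →+* O) (hφ : ∀ r, algebraMap O L (φ r) = ι (j r))
    (hO2 : ∀ o : O, ∃ u r : R, j u ∉ 𝔫 ∧ φ u * o = φ r)
    (hO3 : ∀ u : R, j u ∉ 𝔫 → IsUnit (φ u))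
    (hint : ∀ b : B, j.IsIntegralElem b)
    (hcl : ∀ x : L, (ι.comp j).IsIntegralElem x → ∃ b, ι b = x)
    (Φ : L →+* L) (hΦB : ∀ b : B, ∃ b' : B, Φ (ι b) = ι b')
    (hΦO : ∀ o : O, rtk6gfIn O x₂ y₂ (Φ (algebraMap O L o) - algebraMap O L o))
    {a b : L} (ha : IsIntegral O a) (hb : IsIntegral O b) (hΦx : Φ x₂ = a * x₂)
    (hΦy : Φ y₂ = b * y₂) (z : B) :
    ∃ c ∈ 𝔫, Φ (ι z) = ι z + ι c :=
  rtk6gf_cong_local j ι hι 𝔫 φ hφ hO2 hO3 hint hcl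
    (rtk6k_local (K := K) hd hζ hX hY hm hε₁ hε₂ hx hy s₁ s₂ h11 h12 h21 h22 hgen) Φ hΦB
    (fun _ hc => rtk6gf_cong_coeff hd hζ hX hY hε₁ hε₂ hx hy s₁ s₂ h11 h12 h21 h22 hgen Φ hΦO
      ha hb hΦx hΦy hc) z

/-- **`Φ 𝔫 ⊆ 𝔫` at a crossing point, on the chart** (hypotheses of `rtk6gl_cross_tkc`). -/
theorem rtk6gf_fix_tkc {O K L R B : Type*} [CommRing O] [IsDomain O] [IsIntegrallyClosed O]
    [Field K] [Algebra O K] [IsFractionRing O K] [Field L] [Algebra K L] [Algebra O L]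
    [IsScalarTower O K L] [IsLocalRing O] [CommRing R] [CommRing B]
    {d : ℕ} (hd : IsUnit (d : O)) {ζ : O}
    (hζ : IsPrimitiveRoot ζ d)
    {X₀ Y₀ : O} (hX : Prime X₀ ∨ IsUnit X₀) (hY : (Prime Y₀ ∧ ¬ Y₀ ∣ X₀) ∨ IsUnit Y₀)
    (hm : IsLocalRing.maximalIdeal O = Ideal.span {X₀, Y₀})
    {ε₁ ε₂ : O} (hε₁ : IsUnit ε₁) (hε₂ : IsUnit ε₂) {x₂ y₂ : L}
    (hx : x₂ ^ d = algebraMap O L (ε₁ * X₀)) (hy : y₂ ^ d = algebraMap O L (ε₂ * Y₀))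
    (s₁ s₂ : L ≃ₐ[K] L) (h11 : s₁ x₂ = algebraMap O K ζ • x₂) (h12 : s₁ y₂ = y₂)
    (h21 : s₂ x₂ = x₂) (h22 : s₂ y₂ = algebraMap O K ζ • y₂)
    (hgen : Algebra.adjoin K ({x₂, y₂} : Set L) = ⊤)
    (j : R →+* B) (ι : B →+* L) (hι : Function.Injective ι)
    (𝔫 : Ideal B) [h𝔫 : 𝔫.IsMaximal]
    (φ : R →+* O) (hφ : ∀ r, algebraMap O L (φ r) = ι (j r))
    (hO2 : ∀ o : O, ∃ u r : R, j u ∉ 𝔫 ∧ φ u * o = φ r)
    (hO3 : ∀ u : R, j u ∉ 𝔫 → IsUnit (φ u))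
    (hint : ∀ b : B, j.IsIntegralElem b)
    (hcl : ∀ x : L, (ι.comp j).IsIntegralElem x → ∃ b, ι b = x)
    (Φ : L →+* L) (hΦB : ∀ b : B, ∃ b' : B, Φ (ι b) = ι b')
    (hΦO : ∀ o : O, rtk6gfIn O x₂ y₂ (Φ (algebraMap O L o) - algebraMap O L o))
    {a b : L} (ha : IsIntegral O a) (hb : IsIntegral O b) (hΦx : Φ x₂ = a * x₂)
    (hΦy : Φ y₂ = b * y₂) {z : B} (hz : z ∈ 𝔫) :
    ∃ z' ∈ 𝔫, Φ (ι z) = ι z' := by
  obtain ⟨c, hc, h⟩ := rtk6gf_cong_tkc hd hζ hX hY hm hε₁ hε₂ hx hy s₁ s₂ h11 h12 h21 h22 hgen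
    j ι hι 𝔫 φ hφ hO2 hO3 hint hcl Φ hΦB hΦO ha hb hΦx hΦy z
  exact ⟨z + c, 𝔫.add_mem hz hc, by rw [h, map_add]⟩

end TKC

end Fermat.Agent.RT.K6
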