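/-
K-machine, piece K6, piece D-GL part 3 (helper79): from the local ring to the chart at a crossing
point.

Abstract (Mathlib + `UNIP.NodesLocGen`).  `L` a field (`= F′`), `R` the chart of the base, `B`
the chart of `L` (integral closure of `R`), `j : R →+* B`, `ι : B →+* L` injective, `𝔫` a maximal
ideal of `B` (a closed point of the chart `B′`).

* `rtk6glIsLoc j ι 𝔫 C` : the subring `C ⊆ L` is `S⁻¹ B`, `S = {j u : u ∈ R, j u ∉ 𝔫}`
  (the semilocal ring of `B` over the point `𝔫 ∩ R` of the base);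
* `rtk6gl_cross` : if `C` is local with maximal ideal `(x, y)` (every `c ∈ C` is a unit of `C` or
  lies in `x C + y C`, and `1 ∉ x C + y C` — the conclusion of TKC, `rtk6k_local`), then
  `X = u₁ x`, `Y = u₂ y` (`u_i ∈ R ∖ 𝔫`) lie in `𝔫`, `𝔫 = (X, Y)` locally at `𝔫`
  (`NodesLocGen 𝔫 {X, Y}`), and every valuation ring `W ⊇ B` with `𝔪(W) ∩ R ⊆ 𝔫 ∩ R` has
  `𝔪(W) ∩ B ⊆ 𝔫`;
* `rtk6gl_isLoc_of_local` : `C = ` the integral closure of `O` in `L` satisfies `rtk6glIsLoc`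
  when `O` is the local ring of `R` at `𝔫 ∩ R` (elementary form) and `B` is the integral closure
  of `R` in `L`;
* `rtk6gl_cross_local` : the two combined: directly from the conclusion of `rtk6k_local`.
-/
import Mathlib
import Fermat.Agent.UNIP.NodesMain

set_option autoImplicit false
set_option linter.style.haveILetI false

namespace Fermat.Agent.RT.K6

open Fermat.Agent.UNIP

section CForm

variable {L : Type*} [Field L] {R B : Type*} [CommRing R] [CommRing B]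

/-- `C = S⁻¹ B` inside `L`, `S = {j u : u ∈ R, j u ∉ 𝔫}`. -/
structure rtk6glIsLoc (j : R →+* B) (ι : B →+* L) (𝔫 : Ideal B) (C : Subring L) : Prop where
  le : ∀ b : B, ι b ∈ C
  den : ∀ c ∈ C, ∃ u : R, j u ∉ 𝔫 ∧ ∃ b : B, ι (j u) * c = ι b
  inv : ∀ u : R, j u ∉ 𝔫 → (ι (j u))⁻¹ ∈ C

/-- a unit of `C` in `ι B` is not in `𝔫` -/
theorem rtk6gl_not_mem_of_unit (j : R →+* B) (ι : B →+* L) (hι : Function.Injective ι)
    (𝔫 : Ideal B) (C : Subring L) (hC : rtk6glIsLoc j ι 𝔫 C) {b : B} {c' : L}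
    (hc' : c' ∈ C) (h : ι b * c' = 1) : b ∉ 𝔫 := by
  intro hb
  obtain ⟨u, hu, b', hb'⟩ := hC.den c' hc'
  apply hu
  have e : ι (j u) = ι (b * b') := by
    rw [map_mul, ← hb', mul_left_comm, h, mul_one]
  rw [hι e]
  exact 𝔫.mul_mem_right _ hb

/-- an element of `ι B ∩ (x C + y C)` lies in `(X, Y)` after multiplication by some `w ∉ 𝔫` -/
theorem rtk6gl_span_of_mem (j : R →+* B) (ι : B →+* L) (hι : Function.Injective ι)
    (𝔫 : Ideal B) [h𝔫 : 𝔫.IsPrime] (C : Subring L) (hC : rtk6glIsLoc j ι 𝔫 C)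
    {x y : L} {u₁ u₂ : R} {X Y : B} (hu₁ : j u₁ ∉ 𝔫) (hu₂ : j u₂ ∉ 𝔫)
    (hX : ι X = ι (j u₁) * x) (hY : ι Y = ι (j u₂) * y)
    {b : B} {c₁ c₂ : L} (hc₁ : c₁ ∈ C) (hc₂ : c₂ ∈ C) (h : ι b = c₁ * x + c₂ * y) :
    ∃ w : B, w ∉ 𝔫 ∧ w * b ∈ Ideal.span ({X, Y} : Set B) := by
  obtain ⟨v₁, hv₁, b₁, hb₁⟩ := hC.den c₁ hc₁
  obtain ⟨v₂, hv₂, b₂, hb₂⟩ := hC.den c₂ hc₂
  refine ⟨j v₁ * j v₂ * j u₁ * j u₂, ?_, ?_⟩
  · intro hmem
    rcases h𝔫.mem_or_mem hmem with h1 | h1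
    · rcases h𝔫.mem_or_mem h1 with h2 | h2
      · rcases h𝔫.mem_or_mem h2 with h3 | h3
        · exact hv₁ h3
        · exact hv₂ h3
      · exact hu₁ h2
    · exact hu₂ h1
  · have e : j v₁ * j v₂ * j u₁ * j u₂ * b = (j v₂ * j u₂ * b₁) * X + (j v₁ * j u₁ * b₂) * Y := by
      apply hι
      simp only [map_mul, map_add, h, hX, hY, ← hb₁, ← hb₂]
      ring
    rw [e]
    exact Ideal.add_mem _ (Ideal.mul_mem_left _ _ (Ideal.subset_span (by simp)))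
      (Ideal.mul_mem_left _ _ (Ideal.subset_span (by simp)))

/-- **Crossing point: from the local ring to the chart.** -/
theorem rtk6gl_cross (j : R →+* B) (ι : B →+* L) (hι : Function.Injective ι)
    (𝔫 : Ideal B) [h𝔫 : 𝔫.IsMaximal] (C : Subring L) (hC : rtk6glIsLoc j ι 𝔫 C)
    {x y : L} (hx : x ∈ C) (hy : y ∈ C)
    (hloc : ∀ c ∈ C, (∃ c' ∈ C, c * c' = 1) ∨ ∃ c₁ ∈ C, ∃ c₂ ∈ C, c = c₁ * x + c₂ * y)
    (hprop : ¬ ∃ c₁ ∈ C, ∃ c₂ ∈ C, (1 : L) = c₁ * x + c₂ * y) :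
    ∃ (u₁ u₂ : R) (X Y : B), j u₁ ∉ 𝔫 ∧ j u₂ ∉ 𝔫 ∧ ι X = ι (j u₁) * x ∧ ι Y = ι (j u₂) * y ∧
      X ∈ 𝔫 ∧ Y ∈ 𝔫 ∧ NodesLocGen 𝔫 {X, Y} ∧
      ∀ W : ValuationSubring L, (∀ b, ι b ∈ W) →
        (∀ u : R, ι (j u) ∈ W.nonunits → j u ∈ 𝔫) → ∀ b : B, ι b ∈ W.nonunits → b ∈ 𝔫 := by
  haveI : 𝔫.IsPrime := h𝔫.isPrime
  obtain ⟨u₁, hu₁, X, hX⟩ := hC.den x hx
  obtain ⟨u₂, hu₂, Y, hY⟩ := hC.den y hy
  -- the elements of `B` outside `𝔫` are not in `x C + y C`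
  have hout : ∀ b : B, b ∉ 𝔫 → ¬ ∃ c₁ ∈ C, ∃ c₂ ∈ C, ι b = c₁ * x + c₂ * y := by
    rintro b hb ⟨c₁, hc₁, c₂, hc₂, hbc⟩
    obtain ⟨a, n, hn, han⟩ := h𝔫.exists_inv hb
    rcases hloc (ι n) (hC.le n) with ⟨c', hc', hnc'⟩ | ⟨d₁, hd₁, d₂, hd₂, hnd⟩
    · exact rtk6gl_not_mem_of_unit j ι hι 𝔫 C hC hc' hnc' hn
    · apply hprop
      refine ⟨ι a * c₁ + d₁, C.add_mem (C.mul_mem (hC.le a) hc₁) hd₁,
        ι a * c₂ + d₂, C.add_mem (C.mul_mem (hC.le a) hc₂) hd₂, ?_⟩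
      have : (1 : L) = ι a * ι b + ι n := by rw [← map_mul, ← map_add, han, map_one]
      rw [this, hbc, hnd]
      ring
  -- `x C + y C` membership of `X`, `Y`
  have hXin : ∃ c₁ ∈ C, ∃ c₂ ∈ C, ι X = c₁ * x + c₂ * y :=
    ⟨ι (j u₁), hC.le _, 0, C.zero_mem, by rw [← hX, zero_mul, add_zero]⟩
  have hYin : ∃ c₁ ∈ C, ∃ c₂ ∈ C, ι Y = c₁ * x + c₂ * y :=
    ⟨0, C.zero_mem, ι (j u₂), hC.le _, by rw [← hY, zero_mul, zero_add]⟩
  have hX𝔫 : X ∈ 𝔫 := by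
    by_contra h
    exact hout X h hXin
  have hY𝔫 : Y ∈ 𝔫 := by
    by_contra h
    exact hout Y h hYin
  -- the dichotomy for the elements of `B`
  have hdich : ∀ b : B, b ∈ 𝔫 → ∃ w : B, w ∉ 𝔫 ∧ w * b ∈ Ideal.span ({X, Y} : Set B) := by
    intro b hb
    rcases hloc (ι b) (hC.le b) with ⟨c', hc', hbc'⟩ | ⟨c₁, hc₁, c₂, hc₂, hbc⟩
    · exact absurd hb (rtk6gl_not_mem_of_unit j ι hι 𝔫 C hC hc' hbc')
    · exact rtk6gl_span_of_mem j ι hι 𝔫 C hC hu₁ hu₂ hX.symm hY.symm hc₁ hc₂ hbc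
  refine ⟨u₁, u₂, X, Y, hu₁, hu₂, hX.symm, hY.symm, hX𝔫, hY𝔫, hdich, ?_⟩
  intro W hBW h₀ b hb
  by_contra hb𝔫
  rcases hloc (ι b) (hC.le b) with ⟨c', hc', hbc'⟩ | ⟨c₁, hc₁, c₂, hc₂, hbc⟩
  · obtain ⟨u, hu, b', hb'⟩ := hC.den c' hc'
    apply hu
    refine h₀ u ?_
    have e : ι (j u) = ι b' * ι b := by
      rw [← hb', mul_comm (ι (j u) * c'), ← mul_assoc, mul_comm (ι b) (ι (j u)), mul_assoc, hbc',
        mul_one]
    rw [e, ValuationSubring.mem_nonunits_iff, map_mul]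
    have h1 : W.valuation (ι b') ≤ 1 := (ValuationSubring.valuation_le_one_iff W _).mpr (hBW b')
    have h2 : W.valuation (ι b) < 1 := (ValuationSubring.mem_nonunits_iff W).mp hb
    calc W.valuation (ι b') * W.valuation (ι b) ≤ 1 * W.valuation (ι b) := by gcongr
      _ = W.valuation (ι b) := one_mul _
      _ < 1 := h2
  · exact hout b hb𝔫 ⟨c₁, hc₁, c₂, hc₂, hbc⟩

end CForm

section OForm

variable {L : Type*} [Field L] {R B O : Type*} [CommRing R] [CommRing B] [CommRing O]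
  [Algebra O L]

/-- clearing the denominators of an element integral over `O = R_𝔫` -/
theorem rtk6gl_clear (ψ : R →+* L) (φ : R →+* O) (hφ : ∀ r, algebraMap O L (φ r) = ψ r)
    (P : R → Prop) (hP1 : P 1) (hPmul : ∀ u v, P u → P v → P (u * v))
    (hO2 : ∀ o : O, ∃ u r : R, P u ∧ φ u * o = φ r)
    {c : L} (hc : IsIntegral O c) : ∃ u : R, P u ∧ ψ.IsIntegralElem (ψ u * c) := by
  classical
  obtain ⟨q, hq, hqc⟩ := hc
  -- a common denominator of the coefficients of `q`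
  have hden : ∀ s : Finset ℕ, ∃ u : R, P u ∧ ∀ i ∈ s, ∃ r : R, φ u * q.coeff i = φ r := by
    intro s
    induction s using Finset.induction_on with
    | empty => exact ⟨1, hP1, fun i hi => absurd hi (Finset.notMem_empty i)⟩
    | insert a s _ ih =>
      obtain ⟨u, hu, hus⟩ := ih
      obtain ⟨v, r, hv, hvr⟩ := hO2 (q.coeff a)
      refine ⟨u * v, hPmul u v hu hv, fun i hi => ?_⟩
      rcases Finset.mem_insert.mp hi with rfl | hi
      · exact ⟨u * r, by rw [map_mul, map_mul, mul_assoc, hvr]⟩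
      · obtain ⟨r', hr'⟩ := hus i hi
        exact ⟨v * r', by rw [map_mul, map_mul, mul_comm (φ u) (φ v), mul_assoc, hr']⟩
  obtain ⟨u, hu, hcoef⟩ := hden (Finset.range (q.natDegree + 1))
  refine ⟨u, hu, ?_⟩
  -- the polynomial `Σ_i r_i u ^ (n - 1 - i) X ^ i + X ^ n`
  set n := q.natDegree with hn
  have hcoef' : ∀ i : ℕ, ∃ r : R, i < n + 1 → φ u * q.coeff i = φ r := fun i => by
    by_cases hi : i < n + 1
    · obtain ⟨r, hr⟩ := hcoef i (Finset.mem_range.mpr hi)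
      exact ⟨r, fun _ => hr⟩
    · exact ⟨0, fun h => absurd h hi⟩
  choose r hr using hcoef'
  by_cases hn0 : n = 0
  · -- `q = 1`, so `L` is trivial: impossible
    exfalso
    have hq1 : q = 1 := by
      rw [Polynomial.eq_one_of_monic_natDegree_zero hq (hn ▸ hn0)]
    rw [hq1] at hqc
    simp at hqc
  let Q : Polynomial R :=
    Polynomial.X ^ n + ∑ i ∈ Finset.range n, Polynomial.C (r i * u ^ (n - 1 - i)) * Polynomial.X ^ i
  have hQdeg : (∑ i ∈ Finset.range n,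
      Polynomial.C (r i * u ^ (n - 1 - i)) * Polynomial.X ^ i : Polynomial R).degree < n := by
    refine (Polynomial.degree_sum_le _ _).trans_lt ?_
    rw [Finset.sup_lt_iff (by exact WithBot.bot_lt_coe n)]
    intro i hi
    refine (Polynomial.degree_C_mul_X_pow_le i _).trans_lt ?_
    exact_mod_cast Finset.mem_range.mp hi
  have hQm : Q.Monic := Polynomial.monic_X_pow_add hQdeg
  refine ⟨Q, hQm, ?_⟩
  -- evaluate
  have hq_eval : ∑ i ∈ Finset.range (n + 1), algebraMap O L (q.coeff i) * c ^ i = 0 := by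
    have := hqc
    rw [Polynomial.eval₂_eq_sum_range] at this
    exact this
  have hlead : q.coeff n = 1 := hq.coeff_natDegree
  simp only [Q, Polynomial.eval₂_add, Polynomial.eval₂_pow, Polynomial.eval₂_X,
    Polynomial.eval₂_finsetSum, Polynomial.eval₂_mul, Polynomial.eval₂_C]
  -- `ψ u ^ n * (Σ_{i ≤ n} q_i c ^ i) = …`
  have key : (ψ u * c) ^ n + ∑ i ∈ Finset.range n, ψ (r i * u ^ (n - 1 - i)) * (ψ u * c) ^ i =
      ψ u ^ n * ∑ i ∈ Finset.range (n + 1), algebraMap O L (q.coeff i) * c ^ i := by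
    rw [Finset.sum_range_succ, hlead, map_one, one_mul, mul_add, Finset.mul_sum, mul_pow,
      add_comm]
    congr 1
    refine Finset.sum_congr rfl fun i hi => ?_
    have hi' : i < n := Finset.mem_range.mp hi
    have h1 : ψ (r i) = ψ u * algebraMap O L (q.coeff i) := by
      rw [← hφ, ← hr i (by omega), map_mul, hφ]
    have h2 : n = (n - 1 - i) + i + 1 := by omega
    rw [map_mul, map_pow, h1, mul_pow]
    conv_rhs => rw [h2]
    ring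
  rw [key, hq_eval, mul_zero]

/-- **`C = ` the integral closure of `O` in `L` is `S⁻¹ B`** when `O` is the local ring of `R`
at `𝔫 ∩ R` and `B` is the integral closure of `R` in `L`. -/
theorem rtk6gl_isLoc_of_local (j : R →+* B) (ι : B →+* L) (𝔫 : Ideal B) [h𝔫 : 𝔫.IsPrime]
    (φ : R →+* O) (hφ : ∀ r, algebraMap O L (φ r) = ι (j r))
    (hO2 : ∀ o : O, ∃ u r : R, j u ∉ 𝔫 ∧ φ u * o = φ r)
    (hO3 : ∀ u : R, j u ∉ 𝔫 → IsUnit (φ u))
    (hint : ∀ b : B, j.IsIntegralElem b)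
    (hcl : ∀ x : L, (ι.comp j).IsIntegralElem x → ∃ b, ι b = x) :
    rtk6glIsLoc j ι 𝔫 (integralClosure O L).toSubring := by
  refine ⟨fun b => ?_, fun c hc => ?_, fun u hu => ?_⟩
  · -- `ι b` is integral over `O`
    obtain ⟨q, hq, hqb⟩ := hint b
    refine ⟨q.map φ, hq.map φ, ?_⟩
    rw [Polynomial.eval₂_map]
    have e : (algebraMap O L).comp φ = ι.comp j := RingHom.ext fun r => hφ r
    rw [e, ← Polynomial.hom_eval₂, hqb, map_zero]
  · have hc' : IsIntegral O c := hc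
    obtain ⟨u, hu, huc⟩ := rtk6gl_clear (ι.comp j) φ hφ (fun u => j u ∉ 𝔫)
      (by
        show j 1 ∉ 𝔫
        rw [map_one]
        exact fun h => h𝔫.ne_top ((Ideal.eq_top_iff_one 𝔫).mpr h))
      (fun u v hu hv => by
        show j (u * v) ∉ 𝔫
        rw [map_mul]
        exact fun h => (h𝔫.mem_or_mem h).elim hu hv)
      hO2 hc'
    obtain ⟨b, hb⟩ := hcl _ huc
    exact ⟨u, hu, b, hb.symm⟩
  · obtain ⟨v, hv⟩ := hO3 u hu
    have e : (ι (j u))⁻¹ = algebraMap O L (↑v⁻¹ : O) := by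
      have h1 : ι (j u) * algebraMap O L (↑v⁻¹ : O) = 1 := by
        rw [← hφ, ← hv, ← map_mul, Units.mul_inv, map_one]
      exact inv_eq_of_mul_eq_one_right h1
    rw [e]
    exact isIntegral_algebraMap

/-- **Crossing point, from the conclusion of TKC (`rtk6k_local`) to the chart.** -/
theorem rtk6gl_cross_local (j : R →+* B) (ι : B →+* L) (hι : Function.Injective ι)
    (𝔫 : Ideal B) [h𝔫 : 𝔫.IsMaximal]
    (φ : R →+* O) (hφ : ∀ r, algebraMap O L (φ r) = ι (j r))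
    (hO2 : ∀ o : O, ∃ u r : R, j u ∉ 𝔫 ∧ φ u * o = φ r)
    (hO3 : ∀ u : R, j u ∉ 𝔫 → IsUnit (φ u))
    (hint : ∀ b : B, j.IsIntegralElem b)
    (hcl : ∀ x : L, (ι.comp j).IsIntegralElem x → ∃ b, ι b = x)
    {x y : L} (hx : IsIntegral O x) (hy : IsIntegral O y)
    (hloc : (∀ b : L, IsIntegral O b → (∃ b' : L, IsIntegral O b' ∧ b * b' = 1) ∨
      ∃ c₁ c₂ : L, IsIntegral O c₁ ∧ IsIntegral O c₂ ∧ b = c₁ * x + c₂ * y) ∧
      ¬ ∃ c₁ c₂ : L, IsIntegral O c₁ ∧ IsIntegral O c₂ ∧ 1 = c₁ * x + c₂ * y) :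
    ∃ (u₁ u₂ : R) (X Y : B), j u₁ ∉ 𝔫 ∧ j u₂ ∉ 𝔫 ∧ ι X = ι (j u₁) * x ∧ ι Y = ι (j u₂) * y ∧
      X ∈ 𝔫 ∧ Y ∈ 𝔫 ∧ NodesLocGen 𝔫 {X, Y} ∧
      ∀ W : ValuationSubring L, (∀ b, ι b ∈ W) →
        (∀ u : R, ι (j u) ∈ W.nonunits → j u ∈ 𝔫) → ∀ b : B, ι b ∈ W.nonunits → b ∈ 𝔫 := by
  haveI : 𝔫.IsPrime := h𝔫.isPrime
  have hC := rtk6gl_isLoc_of_local j ι 𝔫 φ hφ hO2 hO3 hint hcl
  refine rtk6gl_cross j ι hι 𝔫 _ hC (x := x) (y := y) hx hy ?_ ?_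
  · intro c hc
    rcases hloc.1 c hc with ⟨b', hb', h⟩ | ⟨c₁, c₂, hc₁, hc₂, h⟩
    · exact Or.inl ⟨b', hb', h⟩
    · exact Or.inr ⟨c₁, hc₁, c₂, hc₂, h⟩
  · rintro ⟨c₁, hc₁, c₂, hc₂, h⟩
    exact hloc.2 ⟨c₁, c₂, hc₁, hc₂, h⟩

end OForm

end Fermat.Agent.RT.K6
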