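/-
K-machine, piece K6, piece D-GL part 4 (helper79): TKC on the chart.

`rtk6gl_cross_tkc` = `rtk6k_local` (TKC, helper4, `DK.lean`) + `rtk6gl_cross_local`
(`DGLCross.lean`): in the situation of TKC for the local ring `O` of the base chart `R` at the
point `𝔫 ∩ R` (`O` local, `𝔪 = (X₀, Y₀)`, `x₂ ^ d = ε₁ X₀`, `y₂ ^ d = ε₂ Y₀`), every maximal ideal
`𝔫` of the chart `B` (= integral closure of `R` in `L = K(x₂, y₂)`) over `𝔫 ∩ R` is generated,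
locally at `𝔫`, by `X = u₁ x₂` and `Y = u₂ y₂` (`u_i ∈ R ∖ 𝔫`), and the components through
`𝔫 ∩ R` pass through `𝔫`.
-/
import Fermat.Agent.RT.K6.DGLCross
import Fermat.Agent.RT.K6.DK

set_option autoImplicit false
set_option linter.style.haveILetI false
set_option linter.unusedSectionVars false

namespace Fermat.Agent.RT.K6

open Fermat.Agent.UNIP

/-- **TKC on the chart.** -/
theorem rtk6gl_cross_tkc {O K L R B : Type*} [CommRing O] [IsDomain O] [IsIntegrallyClosed O]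
    [Field K] [Algebra O K] [IsFractionRing O K] [Field L] [Algebra K L] [Algebra O L]
    [IsScalarTower O K L] [IsLocalRing O] [CommRing R] [CommRing B]
    {d : ℕ} (hd : IsUnit (d : O)) {ζ : O}
    (hζ : IsPrimitiveRoot ζ d)
    {X₀ Y₀ : O} (hX : Prime X₀ ∨ IsUnit X₀) (hY : (Prime Y₀ ∧ ¬ Y₀ ∣ X₀) ∨ IsUnit Y₀)
    (hm : IsLocalRing.maximalIdeal O = Ideal.span {X₀, Y₀})
    {ε₁ ε₂ : O} (hε₁ : IsUnit ε₁) (hε₂ : IsUnit ε₂) {x₂ y₂ : L}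
    (hx : x₂ ^ d = algebraMap O L (ε₁ * X₀)) (hy : y₂ ^ d = algebraMap O L (ε₂ * Y₀))
    (s₁ s₂ : L ≃ₐ[K] L) (h11 : s₁ x₂ = algebraMap O K ζ • x₂) (h12 : s₁ y₂ = y₂)
    (h21 : s₂ x₂ = x₂) (h22 : s₂ y₂ = algebraMap O K ζ • y₂)
    (hgen : Algebra.adjoin K ({x₂, y₂} : Set L) = ⊤)
    (j : R →+* B) (ι : B →+* L) (hι : Function.Injective ι)
    (𝔫 : Ideal B) [h𝔫 : 𝔫.IsMaximal]
    (φ : R →+* O) (hφ : ∀ r, algebraMap O L (φ r) = ι (j r))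
    (hO2 : ∀ o : O, ∃ u r : R, j u ∉ 𝔫 ∧ φ u * o = φ r)
    (hO3 : ∀ u : R, j u ∉ 𝔫 → IsUnit (φ u))
    (hint : ∀ b : B, j.IsIntegralElem b)
    (hcl : ∀ x : L, (ι.comp j).IsIntegralElem x → ∃ b, ι b = x) :
    ∃ (u₁ u₂ : R) (X Y : B), j u₁ ∉ 𝔫 ∧ j u₂ ∉ 𝔫 ∧ ι X = ι (j u₁) * x₂ ∧ ι Y = ι (j u₂) * y₂ ∧
      X ∈ 𝔫 ∧ Y ∈ 𝔫 ∧ NodesLocGen 𝔫 {X, Y} ∧
      ∀ W : ValuationSubring L, (∀ b, ι b ∈ W) →
        (∀ u : R, ι (j u) ∈ W.nonunits → j u ∈ 𝔫) → ∀ b : B, ι b ∈ W.nonunits → b ∈ 𝔫 := by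
  have hd0 : 0 < d := by
    rcases Nat.eq_zero_or_pos d with h | h
    · exfalso
      rw [h, Nat.cast_zero] at hd
      exact not_isUnit_zero hd
    · exact h
  exact rtk6gl_cross_local j ι hι 𝔫 φ hφ hO2 hO3 hint hcl
    (IsIntegral.of_pow hd0 (by rw [hx]; exact isIntegral_algebraMap))
    (IsIntegral.of_pow hd0 (by rw [hy]; exact isIntegral_algebraMap))
    (rtk6k_local (K := K) hd hζ hX hY hm hε₁ hε₂ hx hy s₁ s₂ h11 h12 h21 h22 hgen)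

end Fermat.Agent.RT.K6
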