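/-
K-machine, piece K6, piece D-GL(d) (helper79): TKC on the chart, instantiated at the local ring
`O = ls_localSubring 𝔫₀ = R_𝔫₀ ⊆ K` of the base chart `R` (the form in which D-LF, `DLFPt.lean`,
produces `Prime X₀`, `𝔪_O = (X₀, Y₀)`).

* `rtk6gls_isIntegrallyClosed` : `R_𝔫₀` is integrally closed if `R` is;
* `rtk6gls_isFractionRing`     : `K = Frac R_𝔫₀` if `K = Frac R`;
* `rtk6gls_isUnit`             : the elements of `R ∖ 𝔫₀` are units of `R_𝔫₀`;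
* `rtk6gls_cross`              : `rtk6gl_cross_tkc` at `O = ls_localSubring 𝔫₀`, `φ = s36n2pToLoc`:
  only chart-level hypotheses on `(R, 𝔫₀)`, `(B, 𝔫)` are left.
-/
import Fermat.Agent.RT.K6.DGLCrossTKC
import Fermat.Agent.S36.N2PtsReg

set_option autoImplicit false
set_option linter.style.haveILetI false
set_option linter.unusedSectionVars false

namespace Fermat.Agent.RT.K6

open Fermat.Agent.UNIP Fermat.Agent.S36

section Ls

variable {K : Type*} [Field K] {R : Type*} [CommRing R] [Algebra R K]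

/-- the elements of `R ∖ 𝔫₀` are units of `R_𝔫₀` -/
theorem rtk6gls_isUnit (hinj : Function.Injective (algebraMap R K)) (𝔫₀ : Ideal R)
    [h𝔫₀ : 𝔫₀.IsPrime] {u : R} (hu : u ∉ 𝔫₀) : IsUnit (s36n2pToLoc (F := K) 𝔫₀ u) :=
  ls_isUnit_of_not_mem hinj 𝔫₀ (s36n2pToLoc (F := K) 𝔫₀ u) (b := u) (s := 1) hu
    (fun h => h𝔫₀.ne_top ((Ideal.eq_top_iff_one 𝔫₀).mpr h)) (by rw [map_one, one_mul]; rfl)

/-- `R_𝔫₀` is integrally closed if `R` is -/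
theorem rtk6gls_isIntegrallyClosed (hinj : Function.Injective (algebraMap R K)) (𝔫₀ : Ideal R)
    [h𝔫₀ : 𝔫₀.IsPrime] [IsDomain R] [IsIntegrallyClosed R] :
    IsIntegrallyClosed (ls_localSubring (F := K) 𝔫₀) := by
  letI : Algebra R (ls_localSubring (F := K) 𝔫₀) := (s36n2pToLoc (F := K) 𝔫₀).toAlgebra
  haveI := s36n2p_isLocalization (F := K) hinj 𝔫₀
  exact isIntegrallyClosed_of_isLocalization _ 𝔫₀.primeCompl 𝔫₀.primeCompl_le_nonZeroDivisors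

/-- `K = Frac R_𝔫₀` if `K = Frac R` -/
theorem rtk6gls_isFractionRing (𝔫₀ : Ideal R) [h𝔫₀ : 𝔫₀.IsPrime] [IsDomain R]
    [IsFractionRing R K] : IsFractionRing (ls_localSubring (F := K) 𝔫₀) K := by
  refine s36n2p_isFractionRing _ fun x => ?_
  obtain ⟨a, b, hb, h⟩ := IsFractionRing.div_surjective (A := R) x
  have hb0 : algebraMap R K b ≠ 0 := by
    intro h0
    have : b = 0 := IsFractionRing.injective R K (by rw [h0, map_zero])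
    rw [this] at hb
    exact absurd hb (by simp)
  refine ⟨s36n2pToLoc (F := K) 𝔫₀ a, s36n2pToLoc (F := K) 𝔫₀ b, hb0, ?_⟩
  show x * algebraMap R K b = algebraMap R K a
  rw [← h]
  field_simp

end Ls

section Cross

variable {K L R B : Type*} [Field K] [Field L] [Algebra K L] [CommRing R] [IsDomain R]
  [IsIntegrallyClosed R] [Algebra R K] [IsFractionRing R K] [CommRing B]

/-- **TKC on the chart, at `O = R_𝔫₀ = ls_localSubring 𝔫₀`.** -/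
theorem rtk6gls_cross (𝔫₀ : Ideal R) [h𝔫₀ : 𝔫₀.IsPrime]
    [IsLocalRing (ls_localSubring (F := K) 𝔫₀)]
    {d : ℕ} (hd : (d : R) ∉ 𝔫₀) {ζ : R} (hζ : IsPrimitiveRoot ζ d)
    {X₀ Y₀ : ls_localSubring (F := K) 𝔫₀} (hX : Prime X₀ ∨ IsUnit X₀)
    (hY : (Prime Y₀ ∧ ¬ Y₀ ∣ X₀) ∨ IsUnit Y₀)
    (hm : IsLocalRing.maximalIdeal (ls_localSubring (F := K) 𝔫₀) = Ideal.span {X₀, Y₀})
    {ε₁ ε₂ : ls_localSubring (F := K) 𝔫₀} (hε₁ : IsUnit ε₁) (hε₂ : IsUnit ε₂) {x₂ y₂ : L}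
    (hx : x₂ ^ d = algebraMap K L ((ε₁ * X₀ : ls_localSubring (F := K) 𝔫₀) : K))
    (hy : y₂ ^ d = algebraMap K L ((ε₂ * Y₀ : ls_localSubring (F := K) 𝔫₀) : K))
    (s₁ s₂ : L ≃ₐ[K] L) (h11 : s₁ x₂ = algebraMap R K ζ • x₂) (h12 : s₁ y₂ = y₂)
    (h21 : s₂ x₂ = x₂) (h22 : s₂ y₂ = algebraMap R K ζ • y₂)
    (hgen : Algebra.adjoin K ({x₂, y₂} : Set L) = ⊤)
    (j : R →+* B) (ι : B →+* L) (hι : Function.Injective ι)
    (hjι : ∀ r, ι (j r) = algebraMap K L (algebraMap R K r))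
    (𝔫 : Ideal B) [h𝔫 : 𝔫.IsMaximal] (hlie : ∀ u : R, j u ∈ 𝔫 ↔ u ∈ 𝔫₀)
    (hint : ∀ b : B, j.IsIntegralElem b)
    (hcl : ∀ x : L, (ι.comp j).IsIntegralElem x → ∃ b, ι b = x) :
    ∃ (u₁ u₂ : R) (X Y : B), j u₁ ∉ 𝔫 ∧ j u₂ ∉ 𝔫 ∧ ι X = ι (j u₁) * x₂ ∧ ι Y = ι (j u₂) * y₂ ∧
      X ∈ 𝔫 ∧ Y ∈ 𝔫 ∧ NodesLocGen 𝔫 {X, Y} ∧
      ∀ W : ValuationSubring L, (∀ b, ι b ∈ W) →
        (∀ u : R, ι (j u) ∈ W.nonunits → j u ∈ 𝔫) → ∀ b : B, ι b ∈ W.nonunits → b ∈ 𝔫 := by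
  have hinj : Function.Injective (algebraMap R K) := IsFractionRing.injective R K
  haveI := rtk6gls_isIntegrallyClosed (K := K) hinj 𝔫₀
  haveI := rtk6gls_isFractionRing (K := K) 𝔫₀
  have hφinj : Function.Injective (s36n2pToLoc (F := K) 𝔫₀) := fun a b hab =>
    hinj (congrArg Subtype.val hab)
  have hdO : IsUnit ((d : ℕ) : ls_localSubring (F := K) 𝔫₀) := by
    have := rtk6gls_isUnit (K := K) hinj 𝔫₀ hd
    rwa [map_natCast] at this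
  have hζO : IsPrimitiveRoot (s36n2pToLoc (F := K) 𝔫₀ ζ) d := hζ.map_of_injective hφinj
  refine rtk6gl_cross_tkc (O := ls_localSubring (F := K) 𝔫₀) (K := K) hdO hζO hX hY hm hε₁ hε₂
    (x₂ := x₂) (y₂ := y₂) hx hy s₁ s₂ h11 h12 h21 h22 hgen j ι hι 𝔫
    (s36n2pToLoc (F := K) 𝔫₀) (fun r => (hjι r).symm) ?_ ?_ hint hcl
  · intro o
    obtain ⟨b, s, hs, h⟩ := o.2
    exact ⟨s, b, fun hjs => hs ((hlie s).mp hjs), Subtype.ext h⟩
  · intro u hu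
    exact rtk6gls_isUnit (K := K) hinj 𝔫₀ (fun h => hu ((hlie u).mpr h))

end Cross

end Fermat.Agent.RT.K6
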