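/-
K-machine, piece K6, piece D-GL(c) (helper94), part 3: the automorphisms at a crossing point, at
the local ring `O = ls_localSubring 𝔫₀ = R_𝔫₀` of the base chart `R` (the setting of
`rtk6gls_cross`, `DGLLs.lean`): only chart-level hypotheses on `(R, 𝔫₀)`, `(B, 𝔫)`, `Φ` are left.

* `rtk6gf_ls_fixO`  : a ring endomorphism `Φ` of `L` which fixes (the image of) `R` fixes `R_𝔫₀`;
* `rtk6gf_ls_cong`  : `Φ` preserves `B`, fixes `R`, `Φ x₂ = a x₂`, `Φ y₂ = b y₂` with `a`, `b`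
                      integral over `R_𝔫₀` ⟹ `Φ (ι z) = ι z + ι c`, `c ∈ 𝔫`, for every `z : B`;
* `rtk6gf_ls_fix`   : … ⟹ `Φ 𝔫 ⊆ 𝔫`;
* `rtk6gf_ls_integral_inv` : `(ι (j α))⁻¹` is integral over `R_𝔫₀` for `α ∉ 𝔫₀`.
-/
import Fermat.Agent.RT.K6.DGLFix
import Fermat.Agent.RT.K6.DGLLs

set_option autoImplicit false
set_option linter.style.haveILetI false
set_option linter.unusedSectionVars false

namespace Fermat.Agent.RT.K6

open Fermat.Agent.UNIP Fermat.Agent.S36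

section LsFix

variable {K L R B : Type*} [Field K] [Field L] [Algebra K L] [CommRing R] [IsDomain R]
  [IsIntegrallyClosed R] [Algebra R K] [IsFractionRing R K] [CommRing B]

omit [IsIntegrallyClosed R] in
/-- a ring endomorphism of `L` which fixes the image of `R` fixes the image of `R_𝔫₀` -/
theorem rtk6gf_ls_fixO (𝔫₀ : Ideal R) [h𝔫₀ : 𝔫₀.IsPrime] (Φ : L →+* L)
    (hΦR : ∀ r : R, Φ (algebraMap K L (algebraMap R K r)) = algebraMap K L (algebraMap R K r))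
    (o : ls_localSubring (F := K) 𝔫₀) :
    Φ (algebraMap K L (o : K)) = algebraMap K L (o : K) := by
  obtain ⟨b, s, hs, h⟩ := o.2
  have hs0 : algebraMap K L (algebraMap R K s) ≠ 0 := by
    intro h0
    have h1 : algebraMap R K s = 0 := (algebraMap K L).injective (by rw [h0, map_zero])
    have h2 : s = 0 := IsFractionRing.injective R K (by rw [h1, map_zero])
    exact hs (h2 ▸ 𝔫₀.zero_mem)
  have h' : algebraMap K L (algebraMap R K s) * algebraMap K L (o : K) =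
      algebraMap K L (algebraMap R K b) := by
    rw [← map_mul]
    exact congrArg (algebraMap K L) h
  have h2 := congrArg Φ h'
  rw [map_mul, hΦR, hΦR, ← h'] at h2
  exact mul_left_cancel₀ hs0 h2

omit [IsIntegrallyClosed R] in
/-- `(ι (j α))⁻¹` is integral over `R_𝔫₀` for `α ∉ 𝔫₀` -/
theorem rtk6gf_ls_integral_inv (𝔫₀ : Ideal R) [h𝔫₀ : 𝔫₀.IsPrime] {α : R} (hα : α ∉ 𝔫₀) :
    IsIntegral (ls_localSubring (F := K) 𝔫₀) (algebraMap K L (algebraMap R K α))⁻¹ := by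
  have hinj : Function.Injective (algebraMap R K) := IsFractionRing.injective R K
  obtain ⟨v, hv⟩ := rtk6gls_isUnit (K := K) hinj 𝔫₀ hα
  have e : (algebraMap K L (algebraMap R K α))⁻¹ =
      algebraMap (ls_localSubring (F := K) 𝔫₀) L (↑v⁻¹ : ls_localSubring (F := K) 𝔫₀) := by
    have h1 : algebraMap K L (algebraMap R K α) *
        algebraMap (ls_localSubring (F := K) 𝔫₀) L (↑v⁻¹ : ls_localSubring (F := K) 𝔫₀) = 1 := by
      have h2 : algebraMap K L (algebraMap R K α) =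
          algebraMap (ls_localSubring (F := K) 𝔫₀) L (s36n2pToLoc (F := K) 𝔫₀ α) := rfl
      rw [h2, ← hv, ← map_mul, Units.mul_inv, map_one]
    exact inv_eq_of_mul_eq_one_right h1
  rw [e]
  exact isIntegral_algebraMap

omit [IsIntegrallyClosed R] in
/-- `ι (j α)` is integral over `R_𝔫₀` -/
theorem rtk6gf_ls_integral (𝔫₀ : Ideal R) [h𝔫₀ : 𝔫₀.IsPrime] (α : R) :
    IsIntegral (ls_localSubring (F := K) 𝔫₀) (algebraMap K L (algebraMap R K α)) := by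
  have h2 : algebraMap K L (algebraMap R K α) =
      algebraMap (ls_localSubring (F := K) 𝔫₀) L (s36n2pToLoc (F := K) 𝔫₀ α) := rfl
  rw [h2]
  exact isIntegral_algebraMap

/-- **The automorphisms at a crossing point, at `O = R_𝔫₀ = ls_localSubring 𝔫₀`**
(hypotheses of `rtk6gls_cross`): `Φ b ≡ b` modulo `𝔫` on the chart `B`. -/
theorem rtk6gf_ls_cong (𝔫₀ : Ideal R) [h𝔫₀ : 𝔫₀.IsPrime]
    [IsLocalRing (ls_localSubring (F := K) 𝔫₀)]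
    {d : ℕ} (hd : (d : R) ∉ 𝔫₀) {ζ : R} (hζ : IsPrimitiveRoot ζ d)
    {X₀ Y₀ : ls_localSubring (F := K) 𝔫₀} (hX : Prime X₀ ∨ IsUnit X₀)
    (hY : (Prime Y₀ ∧ ¬ Y₀ ∣ X₀) ∨ IsUnit Y₀)
    (hm : IsLocalRing.maximalIdeal (ls_localSubring (F := K) 𝔫₀) = Ideal.span {X₀, Y₀})
    {ε₁ ε₂ : ls_localSubring (F := K) 𝔫₀} (hε₁ : IsUnit ε₁) (hε₂ : IsUnit ε₂) {x₂ y₂ : L}
    (hx : x₂ ^ d = algebraMap K L ((ε₁ * X₀ : ls_localSubring (F := K) 𝔫₀) : K))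
    (hy : y₂ ^ d = algebraMap K L ((ε₂ * Y₀ : ls_localSubring (F := K) 𝔫₀) : K))
    (s₁ s₂ : L ≃ₐ[K] L) (h11 : s₁ x₂ = algebraMap R K ζ • x₂) (h12 : s₁ y₂ = y₂)
    (h21 : s₂ x₂ = x₂) (h22 : s₂ y₂ = algebraMap R K ζ • y₂)
    (hgen : Algebra.adjoin K ({x₂, y₂} : Set L) = ⊤)
    (j : R →+* B) (ι : B →+* L) (hι : Function.Injective ι)
    (hjι : ∀ r, ι (j r) = algebraMap K L (algebraMap R K r))
    (𝔫 : Ideal B) [h𝔫 : 𝔫.IsMaximal] (hlie : ∀ u : R, j u ∈ 𝔫 ↔ u ∈ 𝔫₀)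
    (hint : ∀ b : B, j.IsIntegralElem b)
    (hcl : ∀ x : L, (ι.comp j).IsIntegralElem x → ∃ b, ι b = x)
    (Φ : L →+* L) (hΦB : ∀ b : B, ∃ b' : B, Φ (ι b) = ι b')
    (hΦR : ∀ r : R, Φ (ι (j r)) = ι (j r))
    {a b : L} (ha : IsIntegral (ls_localSubring (F := K) 𝔫₀) a)
    (hb : IsIntegral (ls_localSubring (F := K) 𝔫₀) b)
    (hΦx : Φ x₂ = a * x₂) (hΦy : Φ y₂ = b * y₂) (z : B) :
    ∃ c ∈ 𝔫, Φ (ι z) = ι z + ι c := by
  have hinj : Function.Injective (algebraMap R K) := IsFractionRing.injective R K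
  haveI := rtk6gls_isIntegrallyClosed (K := K) hinj 𝔫₀
  haveI := rtk6gls_isFractionRing (K := K) 𝔫₀
  have hφinj : Function.Injective (s36n2pToLoc (F := K) 𝔫₀) := fun a b hab =>
    hinj (congrArg Subtype.val hab)
  have hdO : IsUnit ((d : ℕ) : ls_localSubring (F := K) 𝔫₀) := by
    have := rtk6gls_isUnit (K := K) hinj 𝔫₀ hd
    rwa [map_natCast] at this
  have hζO : IsPrimitiveRoot (s36n2pToLoc (F := K) 𝔫₀ ζ) d := hζ.map_of_injective hφinj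
  have hΦR' : ∀ r : R,
      Φ (algebraMap K L (algebraMap R K r)) = algebraMap K L (algebraMap R K r) := fun r => by
    rw [← hjι]
    exact hΦR r
  refine rtk6gf_cong_tkc (O := ls_localSubring (F := K) 𝔫₀) (K := K) hdO hζO hX hY hm hε₁ hε₂
    (x₂ := x₂) (y₂ := y₂) hx hy s₁ s₂ h11 h12 h21 h22 hgen j ι hι 𝔫
    (s36n2pToLoc (F := K) 𝔫₀) (fun r => (hjι r).symm) ?_ ?_ hint hcl Φ hΦB ?_ ha hb hΦx hΦy z
  · intro o
    obtain ⟨b, s, hs, h⟩ := o.2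
    exact ⟨s, b, fun hjs => hs ((hlie s).mp hjs), Subtype.ext h⟩
  · intro u hu
    exact rtk6gls_isUnit (K := K) hinj 𝔫₀ (fun h => hu ((hlie u).mpr h))
  · intro o
    have h : Φ (algebraMap (ls_localSubring (F := K) 𝔫₀) L o) -
        algebraMap (ls_localSubring (F := K) 𝔫₀) L o = 0 :=
      sub_eq_zero.mpr (rtk6gf_ls_fixO 𝔫₀ Φ hΦR' o)
    rw [h]
    exact rtk6gfIn_zero

/-- **`Φ 𝔫 ⊆ 𝔫` at a crossing point, at `O = R_𝔫₀`** (hypotheses of `rtk6gls_cross`). -/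
theorem rtk6gf_ls_fix (𝔫₀ : Ideal R) [h𝔫₀ : 𝔫₀.IsPrime]
    [IsLocalRing (ls_localSubring (F := K) 𝔫₀)]
    {d : ℕ} (hd : (d : R) ∉ 𝔫₀) {ζ : R} (hζ : IsPrimitiveRoot ζ d)
    {X₀ Y₀ : ls_localSubring (F := K) 𝔫₀} (hX : Prime X₀ ∨ IsUnit X₀)
    (hY : (Prime Y₀ ∧ ¬ Y₀ ∣ X₀) ∨ IsUnit Y₀)
    (hm : IsLocalRing.maximalIdeal (ls_localSubring (F := K) 𝔫₀) = Ideal.span {X₀, Y₀})
    {ε₁ ε₂ : ls_localSubring (F := K) 𝔫₀} (hε₁ : IsUnit ε₁) (hε₂ : IsUnit ε₂) {x₂ y₂ : L}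
    (hx : x₂ ^ d = algebraMap K L ((ε₁ * X₀ : ls_localSubring (F := K) 𝔫₀) : K))
    (hy : y₂ ^ d = algebraMap K L ((ε₂ * Y₀ : ls_localSubring (F := K) 𝔫₀) : K))
    (s₁ s₂ : L ≃ₐ[K] L) (h11 : s₁ x₂ = algebraMap R K ζ • x₂) (h12 : s₁ y₂ = y₂)
    (h21 : s₂ x₂ = x₂) (h22 : s₂ y₂ = algebraMap R K ζ • y₂)
    (hgen : Algebra.adjoin K ({x₂, y₂} : Set L) = ⊤)
    (j : R →+* B) (ι : B →+* L) (hι : Function.Injective ι)
    (hjι : ∀ r, ι (j r) = algebraMap K L (algebraMap R K r))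
    (𝔫 : Ideal B) [h𝔫 : 𝔫.IsMaximal] (hlie : ∀ u : R, j u ∈ 𝔫 ↔ u ∈ 𝔫₀)
    (hint : ∀ b : B, j.IsIntegralElem b)
    (hcl : ∀ x : L, (ι.comp j).IsIntegralElem x → ∃ b, ι b = x)
    (Φ : L →+* L) (hΦB : ∀ b : B, ∃ b' : B, Φ (ι b) = ι b')
    (hΦR : ∀ r : R, Φ (ι (j r)) = ι (j r))
    {a b : L} (ha : IsIntegral (ls_localSubring (F := K) 𝔫₀) a)
    (hb : IsIntegral (ls_localSubring (F := K) 𝔫₀) b)
    (hΦx : Φ x₂ = a * x₂) (hΦy : Φ y₂ = b * y₂) {z : B} (hz : z ∈ 𝔫) :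
    ∃ z' ∈ 𝔫, Φ (ι z) = ι z' := by
  obtain ⟨c, hc, h⟩ := rtk6gf_ls_cong (K := K) 𝔫₀ hd hζ hX hY hm hε₁ hε₂ hx hy s₁ s₂ h11 h12 h21
    h22 hgen j ι hι hjι 𝔫 hlie hint hcl Φ hΦB hΦR ha hb hΦx hΦy z
  exact ⟨z + c, 𝔫.add_mem hz hc, by rw [h, map_add]⟩

end LsFix

end Fermat.Agent.RT.K6
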