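/-
K-machine, piece K6, piece D-UFD (helper4): primes of a two-generator local ring are principal.

Pure algebra (Mathlib only).  `S` a noetherian local ring whose maximal ideal is generated by two
elements `X`, `Y` (a closed point of a regular arithmetic surface: crossing point `XY = π·unit`,
or a smooth point `X = π`).  Every prime `𝔮` of `S` not containing `X` is principal.
No Auslander–Buchsbaum: the image of `𝔮` in `S / X` (local, maximal ideal `(Ȳ)`) is `(Ȳ ^ k)`,
and Nakayama lifts the generator.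

* `rtk6d_ideal_of_principal_max` : in a noetherian local ring with `𝔪 = (t)` every ideal is `⊥`
  or `(t ^ k)`.
* `rtk6d_principal_of_node`      : the statement above.
* `rtk6d_locGen_of_node`         : the element form for a chart `R` and a prime `𝔫` with
  `𝔫 R_𝔫 = (X, Y)`: for a prime `𝔮 ≤ 𝔫`, `X ∉ 𝔮`, there is `f ∈ 𝔮` with
  `∀ b ∈ 𝔮, ∃ u ∉ 𝔫, ∃ c, u * b = c * f`.
-/
import Mathlib

set_option autoImplicit false
set_option linter.style.haveILetI false

namespace Fermat.Agent.RT.K6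

open IsLocalRing

section Principal

variable {T : Type*} [CommRing T] [IsLocalRing T] [IsNoetherianRing T]

/-- In a noetherian local ring whose maximal ideal is generated by `t`, every ideal is `⊥` or
generated by a power of `t`. -/
theorem rtk6d_ideal_of_principal_max (t : T) (ht : maximalIdeal T = Ideal.span {t})
    (I : Ideal T) : I = ⊥ ∨ ∃ k : ℕ, I = Ideal.span {t ^ k} := by
  by_cases hI : I = ⊥
  · exact Or.inl hI
  right
  -- there is `n` with `I ⊄ 𝔪 ^ n`
  have hex : ∃ n : ℕ, ¬ I ≤ maximalIdeal T ^ n := by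
    by_contra hcon
    push Not at hcon
    apply hI
    rw [eq_bot_iff]
    have := Ideal.iInf_pow_eq_bot_of_isLocalRing (maximalIdeal T) (by
      exact (maximalIdeal.isMaximal T).ne_top)
    rw [← this]
    exact le_iInf hcon
  classical
  set n := Nat.find hex with hn
  have hn1 : ¬ I ≤ maximalIdeal T ^ n := Nat.find_spec hex
  have hn0 : n ≠ 0 := by
    intro h0
    rw [h0, pow_zero, Ideal.one_eq_top] at hn1
    exact hn1 le_top
  obtain ⟨k, hk⟩ : ∃ k, n = k + 1 := ⟨n - 1, by omega⟩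
  have hle : I ≤ maximalIdeal T ^ k := by
    by_contra h
    exact Nat.find_min hex (by omega : k < n) h
  refine ⟨k, le_antisymm ?_ ?_⟩
  · rw [ht, Ideal.span_singleton_pow] at hle
    exact hle
  · -- an element of `I` outside `𝔪 ^ (k + 1)`
    obtain ⟨x, hxI, hx⟩ := SetLike.not_le_iff_exists.mp hn1
    have hxk := hle hxI
    rw [ht, Ideal.span_singleton_pow, Ideal.mem_span_singleton] at hxk
    obtain ⟨a, rfl⟩ := hxk
    have ha : IsUnit a := by
      by_contra hau
      apply hx
      have ham : a ∈ maximalIdeal T := (mem_maximalIdeal a).2 hau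
      rw [hk, pow_succ]
      exact Ideal.mul_mem_mul (by
        rw [ht, Ideal.span_singleton_pow]
        exact Ideal.mem_span_singleton_self _) ham
    rw [Ideal.span_singleton_le_iff_mem]
    obtain ⟨u, rfl⟩ := ha
    have : t ^ k = (↑u⁻¹ : T) * (t ^ k * ↑u) := by
      rw [mul_comm (t ^ k), ← mul_assoc, Units.inv_mul, one_mul]
    rw [this]
    exact I.mul_mem_left _ hxI

end Principal

section Node

variable {S : Type*} [CommRing S] [IsLocalRing S] [IsNoetherianRing S]

/-- **D-UFD.**  `S` noetherian local with `𝔪 = (X, Y)`; a prime `𝔮` with `X ∉ 𝔮` is principal. -/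
theorem rtk6d_principal_of_node (X Y : S) (hm : maximalIdeal S = Ideal.span {X, Y})
    (𝔮 : Ideal S) [h𝔮 : 𝔮.IsPrime] (hX : X ∉ 𝔮) : ∃ g ∈ 𝔮, 𝔮 = Ideal.span {g} := by
  have hXm : X ∈ maximalIdeal S := by
    rw [hm]
    exact Ideal.subset_span (by simp)
  have hjac : maximalIdeal S ≤ Ideal.jacobson ⊥ := by
    rw [IsLocalRing.jacobson_eq_maximalIdeal ⊥ bot_ne_top]
  have hfg : (𝔮 : Submodule S S).FG := IsNoetherian.noetherian 𝔮
  -- the quotient `S / X`
  set J : Ideal S := Ideal.span {X} with hJ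
  have hJne : J ≠ ⊤ := fun h => by
    have : X ∈ maximalIdeal S := hXm
    have h1 : (1 : S) ∈ J := by rw [h]; trivial
    rw [hJ, Ideal.mem_span_singleton] at h1
    exact (mem_maximalIdeal X).1 this (isUnit_of_dvd_one h1)
  haveI : Nontrivial (S ⧸ J) := Ideal.Quotient.nontrivial_iff.mpr hJne
  haveI : IsLocalRing (S ⧸ J) :=
    IsLocalRing.of_surjective' (Ideal.Quotient.mk J) Ideal.Quotient.mk_surjective
  have hmq : maximalIdeal (S ⧸ J) = Ideal.span {Ideal.Quotient.mk J Y} := by
    apply le_antisymm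
    · intro z hz
      obtain ⟨s, rfl⟩ := Ideal.Quotient.mk_surjective z
      have hs : s ∈ maximalIdeal S := by
        rw [mem_maximalIdeal, mem_nonunits_iff] at hz ⊢
        exact fun hu => hz (hu.map _)
      rw [hm, Ideal.mem_span_pair] at hs
      obtain ⟨a, b, rfl⟩ := hs
      rw [map_add, map_mul, map_mul]
      have hX0 : Ideal.Quotient.mk J X = 0 :=
        Ideal.Quotient.eq_zero_iff_mem.mpr (Ideal.mem_span_singleton_self X)
      rw [hX0, mul_zero, zero_add]
      exact Ideal.mul_mem_left _ _ (Ideal.mem_span_singleton_self _)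
    · rw [Ideal.span_singleton_le_iff_mem, mem_maximalIdeal, mem_nonunits_iff]
      intro hu
      have hYm : Y ∈ maximalIdeal S := by
        rw [hm]
        exact Ideal.subset_span (by simp)
      -- `Y` would be a unit modulo `X`, so `1 ∈ (X, Y) = 𝔪`
      obtain ⟨z, hz⟩ := hu.exists_right_inv
      obtain ⟨s, rfl⟩ := Ideal.Quotient.mk_surjective z
      rw [← map_mul, ← map_one (Ideal.Quotient.mk J), Ideal.Quotient.eq, hJ,
        Ideal.mem_span_singleton] at hz
      obtain ⟨c, hc⟩ := hz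
      have h1 : (1 : S) ∈ maximalIdeal S := by
        have : (1 : S) = Y * s - X * c := by rw [← hc]; ring
        rw [this]
        exact Ideal.sub_mem _ (Ideal.mul_mem_right _ _ hYm) (Ideal.mul_mem_right _ _ hXm)
      exact (mem_maximalIdeal (1 : S)).1 h1 isUnit_one
  rcases rtk6d_ideal_of_principal_max (Ideal.Quotient.mk J Y) hmq (𝔮.map (Ideal.Quotient.mk J))
    with h0 | ⟨k, hk⟩
  · -- `𝔮 ⊆ (X)`, hence `𝔮 = X 𝔮`, hence `𝔮 = 0`
    refine ⟨0, 𝔮.zero_mem, ?_⟩
    have hle : (𝔮 : Submodule S S) ≤ ⊥ ⊔ maximalIdeal S • (𝔮 : Submodule S S) := by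
      intro b hb
      have hb0 : Ideal.Quotient.mk J b = 0 := by
        have : Ideal.Quotient.mk J b ∈ 𝔮.map (Ideal.Quotient.mk J) := Ideal.mem_map_of_mem _ hb
        rw [h0] at this
        exact this
      rw [Ideal.Quotient.eq_zero_iff_mem, hJ, Ideal.mem_span_singleton] at hb0
      obtain ⟨a, rfl⟩ := hb0
      have ha : a ∈ 𝔮 := (h𝔮.mem_or_mem hb).resolve_left hX
      rw [bot_sup_eq]
      exact Submodule.smul_mem_smul hXm ha
    have := Submodule.le_of_le_smul_of_le_jacobson_bot hfg hjac hle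
    rw [Ideal.span_singleton_eq_bot.mpr rfl]
    exact le_bot_iff.mp this
  · -- a generator `g ∈ 𝔮` lifting `Ȳ ^ k`
    have hYk : Ideal.Quotient.mk J Y ^ k ∈ 𝔮.map (Ideal.Quotient.mk J) := by
      rw [hk]
      exact Ideal.mem_span_singleton_self _
    rw [Ideal.mem_map_iff_of_surjective _ Ideal.Quotient.mk_surjective] at hYk
    obtain ⟨g, hg, hgY⟩ := hYk
    refine ⟨g, hg, le_antisymm ?_ ((Ideal.span_singleton_le_iff_mem _).mpr hg)⟩
    have hle : (𝔮 : Submodule S S) ≤ (Ideal.span {g} : Ideal S) ⊔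
        maximalIdeal S • (𝔮 : Submodule S S) := by
      intro b hb
      have hbm : Ideal.Quotient.mk J b ∈ Ideal.span {Ideal.Quotient.mk J Y ^ k} := by
        rw [← hk]
        exact Ideal.mem_map_of_mem _ hb
      rw [← hgY, Ideal.mem_span_singleton] at hbm
      obtain ⟨z, hz⟩ := hbm
      obtain ⟨c, rfl⟩ := Ideal.Quotient.mk_surjective z
      rw [← map_mul, Ideal.Quotient.eq, hJ, Ideal.mem_span_singleton] at hz
      obtain ⟨a, ha⟩ := hz
      have hXa : X * a ∈ 𝔮 := by
        rw [← ha]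
        exact 𝔮.sub_mem hb (𝔮.mul_mem_right _ hg)
      have haq : a ∈ 𝔮 := (h𝔮.mem_or_mem hXa).resolve_left hX
      have hb' : b = g * c + X * a := by rw [← ha]; ring
      rw [hb']
      exact Submodule.add_mem_sup (Ideal.mul_mem_right _ _ (Ideal.mem_span_singleton_self g))
        (Submodule.smul_mem_smul hXm haq)
    exact Submodule.le_of_le_smul_of_le_jacobson_bot hfg hjac hle

end Node

section Chart

variable {R : Type*} [CommRing R] [IsNoetherianRing R]

/-- **D-UFD, element form.**  `𝔫` a prime of a noetherian ring `R`, locally generated by `X`,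
`Y`; a prime `𝔮 ≤ 𝔫` with `X ∉ 𝔮` is locally (at `𝔫`) generated by one element `f`. -/
theorem rtk6d_locGen_of_node (𝔫 : Ideal R) [h𝔫 : 𝔫.IsPrime] (X Y : R) (hX𝔫 : X ∈ 𝔫)
    (hY𝔫 : Y ∈ 𝔫) (hgen : ∀ b ∈ 𝔫, ∃ u : R, u ∉ 𝔫 ∧ u * b ∈ Ideal.span {X, Y})
    (𝔮 : Ideal R) [h𝔮 : 𝔮.IsPrime] (hle : 𝔮 ≤ 𝔫) (hX : X ∉ 𝔮) :
    ∃ f ∈ 𝔮, ∀ b ∈ 𝔮, ∃ u : R, u ∉ 𝔫 ∧ ∃ c : R, u * b = c * f := by
  set S := Localization.AtPrime 𝔫 with hS
  have hdisj : Disjoint (𝔫.primeCompl : Set R) (𝔮 : Set R) := by
    rw [Set.disjoint_left]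
    intro x hx hxq
    exact hx (hle hxq)
  have hunit : ∀ u : R, u ∉ 𝔫 → IsUnit (algebraMap R S u) := fun u hu =>
    IsLocalization.map_units S (⟨u, hu⟩ : 𝔫.primeCompl)
  -- the maximal ideal of `S`
  have hm : maximalIdeal S = Ideal.span {algebraMap R S X, algebraMap R S Y} := by
    rw [← Localization.AtPrime.map_eq_maximalIdeal]
    apply le_antisymm
    · rw [Ideal.map_le_iff_le_comap]
      intro b hb
      obtain ⟨u, hu, hub⟩ := hgen b hb
      rw [Ideal.mem_span_pair] at hub
      obtain ⟨α, β, hαβ⟩ := hub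
      rw [Ideal.mem_comap]
      obtain ⟨v, hv⟩ := hunit u hu
      have e : algebraMap R S b = (↑v⁻¹ : S) * (algebraMap R S α * algebraMap R S X +
          algebraMap R S β * algebraMap R S Y) := by
        rw [← map_mul, ← map_mul, ← map_add, hαβ, map_mul, ← hv, ← mul_assoc, Units.inv_mul,
          one_mul]
      rw [e]
      refine Ideal.mul_mem_left _ _ (Ideal.add_mem _ ?_ ?_)
      · exact Ideal.mul_mem_left _ _ (Ideal.subset_span (by simp))
      · exact Ideal.mul_mem_left _ _ (Ideal.subset_span (by simp))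
    · rw [Ideal.span_le]
      intro z hz
      rcases hz with rfl | rfl
      · exact Ideal.mem_map_of_mem _ hX𝔫
      · exact Ideal.mem_map_of_mem _ hY𝔫
  -- the prime `𝔮 S`
  haveI h𝔮' : (𝔮.map (algebraMap R S)).IsPrime :=
    IsLocalization.isPrime_of_isPrime_disjoint 𝔫.primeCompl S 𝔮 h𝔮 hdisj
  have hcomap : (𝔮.map (algebraMap R S)).comap (algebraMap R S) = 𝔮 :=
    IsLocalization.comap_map_of_isPrime_disjoint 𝔫.primeCompl S h𝔮 hdisj
  have hX' : algebraMap R S X ∉ 𝔮.map (algebraMap R S) := by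
    intro h
    apply hX
    rw [← hcomap]
    exact h
  obtain ⟨g, hg, hgen'⟩ := rtk6d_principal_of_node (algebraMap R S X) (algebraMap R S Y) hm
    (𝔮.map (algebraMap R S)) hX'
  -- `g = f / s`
  obtain ⟨⟨f, s⟩, hfs⟩ := IsLocalization.surj 𝔫.primeCompl g
  have hfs' : g * algebraMap R S (s : R) = algebraMap R S f := hfs
  have hf : f ∈ 𝔮 := by
    rw [← hcomap, Ideal.mem_comap, ← hfs']
    exact Ideal.mul_mem_right _ _ hg
  refine ⟨f, hf, fun b hb => ?_⟩
  have hb' : algebraMap R S b ∈ Ideal.span {g} := by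
    rw [← hgen']
    exact Ideal.mem_map_of_mem _ hb
  rw [Ideal.mem_span_singleton] at hb'
  obtain ⟨z, hz⟩ := hb'
  obtain ⟨⟨c, t⟩, hct⟩ := IsLocalization.surj 𝔫.primeCompl z
  have hct' : z * algebraMap R S (t : R) = algebraMap R S c := hct
  -- `(s t) b = c f` in `S`
  have e : algebraMap R S ((s : R) * (t : R) * b) = algebraMap R S (c * f) := by
    rw [map_mul, map_mul, map_mul, hz, ← hfs', ← hct']
    ring
  obtain ⟨v, hv⟩ := (IsLocalization.eq_iff_exists 𝔫.primeCompl S).mp e
  refine ⟨(v : R) * ((s : R) * (t : R)), ?_, (v : R) * c, ?_⟩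
  · intro h
    rcases h𝔫.mem_or_mem h with h1 | h1
    · exact v.2 h1
    · rcases h𝔫.mem_or_mem h1 with h2 | h2
      · exact s.2 h2
      · exact t.2 h2
  · rw [mul_assoc, mul_assoc (v : R) c f]
    exact hv

end Chart

end Fermat.Agent.RT.K6
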