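/-
K-machine, piece K6, v5 (M3)/(M4) (helper79): LOCAL UNIQUENESS of the components through a
crossing point, and D-STAB (an automorphism fixing the point and the branch preserves the
component).

Pure algebra (Mathlib + `DUfd.lean`).  `O` a noetherian local domain, `F = Frac O`,
`𝔪_O = (X, Y)` (the local ring of the chart at a crossing point).  `W` a valuation ring of `F`
containing `O`.

* `rtk6glu_centre`  : if `X ∈ 𝔪(W)` and `Y ∉ 𝔪(W)` then `𝔪(W) ∩ O = X O`;
* `rtk6glu_le`, `rtk6glu_unique` : two valuation rings `W, W' ⊇ O` with `X ∈ 𝔪(W) ∩ 𝔪(W')`,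
  `Y ∉ 𝔪(W) ∪ 𝔪(W')` are EQUAL (both are `O_(X)`);
* `rtk6glu_dich`    : if `u π = X Y` with `u` a unit of `W`, `π ∈ 𝔪(W)` a uniformizer of `W`
  (`x ∈ 𝔪(W) → x / π ∈ W`), then exactly one of `X`, `Y` lies in `𝔪(W)`;
* `rtk6glu_cross`   : LOCAL UNIQUENESS: `V c ∋ X`, `V c' ∋ Y` (in the maximal ideals), then every
  `W ⊇ O` with uniformizer `π` is `V c` or `V c'`;
* `rtk6glu_stab`    : D-STAB: a ring automorphism `g` of `F` with `g⁻¹ O ⊆ O`,
  `g⁻¹ X ∈ O X`, `g⁻¹ Y ∈ O^× Y` preserves `W`.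
-/
import Mathlib
import Fermat.Agent.RT.K6.DUfd

set_option autoImplicit false
set_option linter.style.haveILetI false
set_option linter.unusedSectionVars false

namespace Fermat.Agent.RT.K6

open IsLocalRing

section Val

variable {F : Type*} [Field F]

theorem rtk6glu_inv_mem (W : ValuationSubring F) {x : F} (hx : x ∈ W) (h : x ∉ W.nonunits) :
    x⁻¹ ∈ W := by
  have h1 : ¬ W.valuation x < 1 := fun h' => h ((ValuationSubring.mem_nonunits_iff W).mpr h')
  have h2 : W.valuation x ≤ 1 := (ValuationSubring.valuation_le_one_iff W x).mpr hx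
  have h3 : W.valuation x = 1 := le_antisymm h2 (not_lt.mp h1)
  rw [← ValuationSubring.valuation_le_one_iff, map_inv₀, h3, inv_one]

theorem rtk6glu_mul_mem_nonunits (W : ValuationSubring F) {a x : F} (ha : a ∈ W)
    (hx : x ∈ W.nonunits) : a * x ∈ W.nonunits := by
  rw [ValuationSubring.mem_nonunits_iff] at hx ⊢
  rw [map_mul]
  have h1 : W.valuation a ≤ 1 := (ValuationSubring.valuation_le_one_iff W a).mpr ha
  calc W.valuation a * W.valuation x ≤ 1 * W.valuation x := by gcongr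
    _ = W.valuation x := one_mul _
    _ < 1 := hx

theorem rtk6glu_one_not_mem (W : ValuationSubring F) : (1 : F) ∉ W.nonunits := by
  rw [ValuationSubring.mem_nonunits_iff, map_one]
  exact lt_irrefl _

theorem rtk6glu_pow_mem_nonunits (W : ValuationSubring F) {x : F} (hx : x ∈ W.nonunits) {n : ℕ}
    (hn : n ≠ 0) : x ^ n ∈ W.nonunits := by
  obtain ⟨m, rfl⟩ := Nat.exists_eq_succ_of_ne_zero hn
  have hxW : x ∈ W := ValuationSubring.nonunits_le hx
  rw [pow_succ]
  exact rtk6glu_mul_mem_nonunits W (pow_mem hxW m) hx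

/-- `𝔪(W)` is prime -/
theorem rtk6glu_mem_or_mem (W : ValuationSubring F) {x y : F} (hx : x ∈ W) (hy : y ∈ W)
    (h : x * y ∈ W.nonunits) : x ∈ W.nonunits ∨ y ∈ W.nonunits := by
  by_contra hcon
  push Not at hcon
  have h1 := rtk6glu_inv_mem W hx hcon.1
  have h2 := rtk6glu_inv_mem W hy hcon.2
  have hx0 : x ≠ 0 := fun h0 => hcon.1 (h0 ▸ W.nonunits.zero_mem)
  have hy0 : y ≠ 0 := fun h0 => hcon.2 (h0 ▸ W.nonunits.zero_mem)
  have h3 : x⁻¹ * y⁻¹ * (x * y) ∈ W.nonunits :=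
    rtk6glu_mul_mem_nonunits W (W.mul_mem _ _ h1 h2) h
  have e : x⁻¹ * y⁻¹ * (x * y) = 1 := by field_simp
  rw [e] at h3
  exact rtk6glu_one_not_mem W h3

end Val

section Centre

variable {O F : Type*} [CommRing O] [IsDomain O] [IsLocalRing O] [IsNoetherianRing O]
  [Field F] [Algebra O F] [IsFractionRing O F]

/-- the centre of `W` on `O` -/
def rtk6gluCentre (W : ValuationSubring F) (hOW : ∀ a : O, algebraMap O F a ∈ W) : Ideal O where
  carrier := {a | algebraMap O F a ∈ W.nonunits}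
  zero_mem' := by
    show algebraMap O F 0 ∈ W.nonunits
    rw [map_zero]
    exact W.nonunits.zero_mem
  add_mem' := by
    intro a b ha hb
    show algebraMap O F (a + b) ∈ W.nonunits
    rw [map_add]
    have ha' : algebraMap O F a ∈ W.nonunits := ha
    have hb' : algebraMap O F b ∈ W.nonunits := hb
    rw [ValuationSubring.mem_nonunits_iff] at ha' hb' ⊢
    exact Valuation.map_add_lt _ ha' hb'
  smul_mem' := by
    intro c a ha
    show algebraMap O F (c • a) ∈ W.nonunits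
    rw [smul_eq_mul, map_mul]
    exact rtk6glu_mul_mem_nonunits W (hOW c) ha

theorem mem_rtk6gluCentre (W : ValuationSubring F) (hOW : ∀ a : O, algebraMap O F a ∈ W)
    (a : O) : a ∈ rtk6gluCentre W hOW ↔ algebraMap O F a ∈ W.nonunits := Iff.rfl

/-- the quotient `O / X` is local with maximal ideal `(Ȳ)`; every ideal of `O` containing `X`
and not `Y ^ k` for any `k` is `(X)` -/
theorem rtk6glu_le_span (X Y : O) (hm : maximalIdeal O = Ideal.span {X, Y}) (𝔮 : Ideal O)
    (hX : X ∈ 𝔮) (hY : ∀ k : ℕ, Y ^ k ∉ 𝔮) : 𝔮 ≤ Ideal.span {X} := by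
  have hXm : X ∈ maximalIdeal O := by
    rw [hm]
    exact Ideal.subset_span (by simp)
  have hYm : Y ∈ maximalIdeal O := by
    rw [hm]
    exact Ideal.subset_span (by simp)
  set J : Ideal O := Ideal.span {X} with hJ
  have hJ𝔮 : J ≤ 𝔮 := by
    rw [hJ, Ideal.span_singleton_le_iff_mem]
    exact hX
  have hJne : J ≠ ⊤ := fun h => by
    have h1 : (1 : O) ∈ J := by rw [h]; trivial
    rw [hJ, Ideal.mem_span_singleton] at h1
    exact (mem_maximalIdeal X).1 hXm (isUnit_of_dvd_one h1)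
  haveI : Nontrivial (O ⧸ J) := Ideal.Quotient.nontrivial_iff.mpr hJne
  haveI : IsLocalRing (O ⧸ J) :=
    IsLocalRing.of_surjective' (Ideal.Quotient.mk J) Ideal.Quotient.mk_surjective
  have hmq : maximalIdeal (O ⧸ J) = Ideal.span {Ideal.Quotient.mk J Y} := by
    apply le_antisymm
    · intro z hz
      obtain ⟨s, rfl⟩ := Ideal.Quotient.mk_surjective z
      have hs : s ∈ maximalIdeal O := by
        rw [mem_maximalIdeal, mem_nonunits_iff] at hz ⊢
        exact fun hu => hz (hu.map _)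
      rw [hm, Ideal.mem_span_pair] at hs
      obtain ⟨a, b, rfl⟩ := hs
      rw [map_add, map_mul, map_mul]
      have hX0 : Ideal.Quotient.mk J X = 0 :=
        Ideal.Quotient.eq_zero_iff_mem.mpr (Ideal.mem_span_singleton_self X)
      rw [hX0, mul_zero, zero_add]
      exact Ideal.mul_mem_left _ _ (Ideal.mem_span_singleton_self _)
    · rw [Ideal.span_singleton_le_iff_mem, mem_maximalIdeal, mem_nonunits_iff]
      intro hu
      obtain ⟨z, hz⟩ := hu.exists_right_inv
      obtain ⟨s, rfl⟩ := Ideal.Quotient.mk_surjective z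
      rw [← map_mul, ← map_one (Ideal.Quotient.mk J), Ideal.Quotient.eq, hJ,
        Ideal.mem_span_singleton] at hz
      obtain ⟨c, hc⟩ := hz
      have h1 : (1 : O) ∈ maximalIdeal O := by
        have : (1 : O) = Y * s - X * c := by rw [← hc]; ring
        rw [this]
        exact Ideal.sub_mem _ (Ideal.mul_mem_right _ _ hYm) (Ideal.mul_mem_right _ _ hXm)
      exact (mem_maximalIdeal (1 : O)).1 h1 isUnit_one
  rcases rtk6d_ideal_of_principal_max (Ideal.Quotient.mk J Y) hmq (𝔮.map (Ideal.Quotient.mk J))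
    with h0 | ⟨k, hk⟩
  · intro a ha
    have : Ideal.Quotient.mk J a ∈ 𝔮.map (Ideal.Quotient.mk J) := Ideal.mem_map_of_mem _ ha
    rw [h0] at this
    exact Ideal.Quotient.eq_zero_iff_mem.mp this
  · exfalso
    have h1 : Ideal.Quotient.mk J (Y ^ k) ∈ 𝔮.map (Ideal.Quotient.mk J) := by
      rw [hk, map_pow]
      exact Ideal.mem_span_singleton_self _
    rw [Ideal.mem_map_iff_of_surjective _ Ideal.Quotient.mk_surjective] at h1
    obtain ⟨q, hq, hqY⟩ := h1
    have h2 : q - Y ^ k ∈ J := by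
      rw [← Ideal.Quotient.eq]
      exact hqY
    have h3 : Y ^ k = q - (q - Y ^ k) := by ring
    apply hY k
    rw [h3]
    exact 𝔮.sub_mem hq (hJ𝔮 h2)

/-- **The centre of `W` is `X O`.** -/
theorem rtk6glu_centre (X Y : O) (hm : maximalIdeal O = Ideal.span {X, Y})
    (W : ValuationSubring F) (hOW : ∀ a : O, algebraMap O F a ∈ W)
    (hXW : algebraMap O F X ∈ W.nonunits) (hYW : algebraMap O F Y ∉ W.nonunits) (a : O)
    (ha : algebraMap O F a ∈ W.nonunits) : X ∣ a := by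
  have h := rtk6glu_le_span X Y hm (rtk6gluCentre W hOW) hXW (fun k hk => by
    have hk' : algebraMap O F (Y ^ k) ∈ W.nonunits := hk
    rw [map_pow] at hk'
    -- `Y` is a unit of `W`
    have hYinv := rtk6glu_inv_mem W (hOW Y) hYW
    have hY0 : algebraMap O F Y ≠ 0 := fun h0 => hYW (h0 ▸ W.nonunits.zero_mem)
    have h1 : (algebraMap O F Y)⁻¹ ^ k * algebraMap O F Y ^ k ∈ W.nonunits :=
      rtk6glu_mul_mem_nonunits W (pow_mem hYinv k) hk'
    have e : (algebraMap O F Y)⁻¹ ^ k * algebraMap O F Y ^ k = 1 := by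
      rw [← mul_pow, inv_mul_cancel₀ hY0, one_pow]
    rw [e] at h1
    exact rtk6glu_one_not_mem W h1) ha
  exact Ideal.mem_span_singleton.mp h

/-- **`W ≤ W'`** for two valuation rings with centre `X O`. -/
theorem rtk6glu_le (X Y : O) (hm : maximalIdeal O = Ideal.span {X, Y})
    (W W' : ValuationSubring F) (hOW : ∀ a : O, algebraMap O F a ∈ W)
    (hOW' : ∀ a : O, algebraMap O F a ∈ W')
    (hXW : algebraMap O F X ∈ W.nonunits) (hYW : algebraMap O F Y ∉ W.nonunits)
    (hXW' : algebraMap O F X ∈ W'.nonunits) (hYW' : algebraMap O F Y ∉ W'.nonunits) :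
    ∀ x : F, x ∈ W → x ∈ W' := by
  haveI : WfDvdMonoid O := IsNoetherianRing.wfDvdMonoid
  have hinj : Function.Injective (algebraMap O F) := IsFractionRing.injective O F
  have hXu : ¬ IsUnit X := by
    intro hu
    have h1 : IsUnit (algebraMap O F X) := hu.map _
    obtain ⟨v, hv⟩ := h1
    have h2 : algebraMap O F ↑(hu.unit⁻¹) * algebraMap O F X ∈ W.nonunits :=
      rtk6glu_mul_mem_nonunits W (hOW _) hXW
    rw [← map_mul, IsUnit.val_inv_mul, map_one] at h2
    exact rtk6glu_one_not_mem W h2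
  intro x hx
  rcases eq_or_ne x 0 with rfl | hx0
  · exact W'.zero_mem
  obtain ⟨a, b, hb, hab⟩ := IsFractionRing.div_surjective (A := O) x
  have hb0 : b ≠ 0 := nonZeroDivisors.ne_zero hb
  have ha0 : a ≠ 0 := by
    rintro rfl
    rw [map_zero, zero_div] at hab
    exact hx0 hab.symm
  obtain ⟨a', ha', hXa'⟩ := (FiniteMultiplicity.of_not_isUnit hXu ha0).exists_eq_pow_mul_and_not_dvd
  obtain ⟨b', hb', hXb'⟩ := (FiniteMultiplicity.of_not_isUnit hXu hb0).exists_eq_pow_mul_and_not_dvd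
  set m := multiplicity X a with hm'
  set n := multiplicity X b with hn'
  -- `a'`, `b'` are units of `W` and of `W'`
  have hua : algebraMap O F a' ∉ W.nonunits := fun h =>
    hXa' (rtk6glu_centre X Y hm W hOW hXW hYW a' h)
  have hub : algebraMap O F b' ∉ W.nonunits := fun h =>
    hXb' (rtk6glu_centre X Y hm W hOW hXW hYW b' h)
  have hua' : algebraMap O F a' ∉ W'.nonunits := fun h =>
    hXa' (rtk6glu_centre X Y hm W' hOW' hXW' hYW' a' h)
  have hub' : algebraMap O F b' ∉ W'.nonunits := fun h =>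
    hXb' (rtk6glu_centre X Y hm W' hOW' hXW' hYW' b' h)
  have hAa : algebraMap O F a = algebraMap O F X ^ m * algebraMap O F a' := by
    conv_lhs => rw [ha']
    rw [map_mul, map_pow]
  have hAb : algebraMap O F b = algebraMap O F X ^ n * algebraMap O F b' := by
    conv_lhs => rw [hb']
    rw [map_mul, map_pow]
  have hAa0 : algebraMap O F a ≠ 0 := fun h0 => ha0 (hinj (by rw [h0, map_zero]))
  have hAb0 : algebraMap O F b ≠ 0 := fun h0 => hb0 (hinj (by rw [h0, map_zero]))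
  have hXm0 : algebraMap O F X ^ m ≠ 0 := fun h0 => hAa0 (by rw [hAa, h0, zero_mul])
  have hXn0 : algebraMap O F X ^ n ≠ 0 := fun h0 => hAb0 (by rw [hAb, h0, zero_mul])
  have ha'0 : algebraMap O F a' ≠ 0 := fun h0 => hAa0 (by rw [hAa, h0, mul_zero])
  have hb'0 : algebraMap O F b' ≠ 0 := fun h0 => hAb0 (by rw [hAb, h0, mul_zero])
  rcases le_or_gt n m with hnm | hnm
  · obtain ⟨k, hk⟩ := Nat.exists_eq_add_of_le hnm
    have e : x = algebraMap O F X ^ k * algebraMap O F a' * (algebraMap O F b')⁻¹ := by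
      rw [← hab, hAa, hAb, hk, pow_add]
      field_simp
    rw [e]
    exact W'.mul_mem _ _ (W'.mul_mem _ _ (pow_mem (hOW' X) k) (hOW' a'))
      (rtk6glu_inv_mem W' (hOW' b') hub')
  · exfalso
    obtain ⟨k, hk⟩ := Nat.exists_eq_add_of_lt hnm
    have e : x⁻¹ = algebraMap O F b' * (algebraMap O F a')⁻¹ * algebraMap O F X ^ (k + 1) := by
      rw [← hab, hAa, hAb, hk, inv_div, add_assoc, pow_add]
      field_simp
    have h1 : x⁻¹ ∈ W.nonunits := by
      rw [e]
      exact rtk6glu_mul_mem_nonunits W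
        (W.mul_mem _ _ (hOW b') (rtk6glu_inv_mem W (hOW a') hua))
        (rtk6glu_pow_mem_nonunits W hXW (Nat.succ_ne_zero k))
    have h2 : x * x⁻¹ ∈ W.nonunits := rtk6glu_mul_mem_nonunits W hx h1
    rw [mul_inv_cancel₀ hx0] at h2
    exact rtk6glu_one_not_mem W h2

/-- **Two valuation rings with centre `X O` are equal.** -/
theorem rtk6glu_unique (X Y : O) (hm : maximalIdeal O = Ideal.span {X, Y})
    (W W' : ValuationSubring F) (hOW : ∀ a : O, algebraMap O F a ∈ W)
    (hOW' : ∀ a : O, algebraMap O F a ∈ W')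
    (hXW : algebraMap O F X ∈ W.nonunits) (hYW : algebraMap O F Y ∉ W.nonunits)
    (hXW' : algebraMap O F X ∈ W'.nonunits) (hYW' : algebraMap O F Y ∉ W'.nonunits) :
    W = W' := by
  ext x
  exact ⟨rtk6glu_le X Y hm W W' hOW hOW' hXW hYW hXW' hYW' x,
    rtk6glu_le X Y hm W' W hOW' hOW hXW' hYW' hXW hYW x⟩

/-- **Dichotomy.**  `u π = X Y`, `u` a unit of `O`, `π ≠ 0` a uniformizer of `W`: exactly one of
`X`, `Y` lies in `𝔪(W)`. -/
theorem rtk6glu_dich (W : ValuationSubring F) (hOW : ∀ a : O, algebraMap O F a ∈ W)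
    {π : F} (hπ0 : π ≠ 0) (hπW : π ∈ W.nonunits)
    (hU : ∀ x ∈ W.nonunits, ∃ z ∈ W, x = π * z) {u X Y : O} (hu : IsUnit u)
    (hXY : algebraMap O F u * π = algebraMap O F X * algebraMap O F Y) :
    (algebraMap O F X ∈ W.nonunits ∧ algebraMap O F Y ∉ W.nonunits) ∨
      (algebraMap O F Y ∈ W.nonunits ∧ algebraMap O F X ∉ W.nonunits) := by
  have huW : algebraMap O F u ∉ W.nonunits := by
    intro h
    have h2 : algebraMap O F ↑(hu.unit⁻¹) * algebraMap O F u ∈ W.nonunits :=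
      rtk6glu_mul_mem_nonunits W (hOW _) h
    rw [← map_mul, IsUnit.val_inv_mul, map_one] at h2
    exact rtk6glu_one_not_mem W h2
  have hprod : algebraMap O F X * algebraMap O F Y ∈ W.nonunits := by
    rw [← hXY]
    exact rtk6glu_mul_mem_nonunits W (hOW u) hπW
  have hnot : ¬ (algebraMap O F X ∈ W.nonunits ∧ algebraMap O F Y ∈ W.nonunits) := by
    rintro ⟨hX, hY⟩
    obtain ⟨z₁, hz₁, e₁⟩ := hU _ hX
    obtain ⟨z₂, hz₂, e₂⟩ := hU _ hY
    apply huW
    have e : algebraMap O F u = (z₁ * z₂) * π := by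
      have h1 : algebraMap O F u * π = (z₁ * z₂ * π) * π := by
        rw [hXY, e₁, e₂]
        ring
      exact mul_right_cancel₀ hπ0 h1
    rw [e]
    exact rtk6glu_mul_mem_nonunits W (W.mul_mem _ _ hz₁ hz₂) hπW
  rcases rtk6glu_mem_or_mem W (hOW X) (hOW Y) hprod with hX | hY
  · exact Or.inl ⟨hX, fun hY => hnot ⟨hX, hY⟩⟩
  · exact Or.inr ⟨hY, fun hX => hnot ⟨hX, hY⟩⟩

/-- **LOCAL UNIQUENESS at a crossing point.**  `W₁ ∋ X`, `W₂ ∋ Y` (in the maximal ideals): every
valuation ring `W ⊇ O` with uniformizer `π` is `W₁` or `W₂`. -/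
theorem rtk6glu_cross (X Y : O) (hm : maximalIdeal O = Ideal.span {X, Y})
    {π : F} (hπ0 : π ≠ 0) {u : O} (hu : IsUnit u)
    (hXY : algebraMap O F u * π = algebraMap O F X * algebraMap O F Y)
    (W₁ W₂ W : ValuationSubring F)
    (hOW₁ : ∀ a : O, algebraMap O F a ∈ W₁) (hπW₁ : π ∈ W₁.nonunits)
    (hU₁ : ∀ x ∈ W₁.nonunits, ∃ z ∈ W₁, x = π * z)
    (hOW₂ : ∀ a : O, algebraMap O F a ∈ W₂) (hπW₂ : π ∈ W₂.nonunits)
    (hU₂ : ∀ x ∈ W₂.nonunits, ∃ z ∈ W₂, x = π * z)
    (hOW : ∀ a : O, algebraMap O F a ∈ W) (hπW : π ∈ W.nonunits)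
    (hU : ∀ x ∈ W.nonunits, ∃ z ∈ W, x = π * z)
    (hX₁ : algebraMap O F X ∈ W₁.nonunits) (hY₂ : algebraMap O F Y ∈ W₂.nonunits) :
    W = W₁ ∨ W = W₂ := by
  have hY₁ : algebraMap O F Y ∉ W₁.nonunits := by
    rcases rtk6glu_dich W₁ hOW₁ hπ0 hπW₁ hU₁ hu hXY with h | h
    · exact h.2
    · exact absurd hX₁ h.2
  have hX₂ : algebraMap O F X ∉ W₂.nonunits := by
    rcases rtk6glu_dich W₂ hOW₂ hπ0 hπW₂ hU₂ hu hXY with h | h
    · exact absurd hY₂ h.2
    · exact h.2
  have hm' : maximalIdeal O = Ideal.span {Y, X} := by rw [hm, Set.pair_comm]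
  rcases rtk6glu_dich W hOW hπ0 hπW hU hu hXY with h | h
  · exact Or.inl (rtk6glu_unique X Y hm W W₁ hOW hOW₁ h.1 h.2 hX₁ hY₁)
  · exact Or.inr (rtk6glu_unique Y X hm' W W₂ hOW hOW₂ h.1 h.2 hY₂ hX₂)

omit [IsDomain O] [IsLocalRing O] [IsNoetherianRing O] [IsFractionRing O F] [Algebra O F]
  [CommRing O] in
/-- the maximal ideal of a valuation ring, elementwise -/
theorem rtk6glu_mem_nonunits_iff (W : ValuationSubring F) (x : F) :
    x ∈ W.nonunits ↔ x ∈ W ∧ (x = 0 ∨ x⁻¹ ∉ W) := by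
  constructor
  · intro hx
    refine ⟨ValuationSubring.nonunits_le hx, ?_⟩
    by_cases hx0 : x = 0
    · exact Or.inl hx0
    · right
      intro hinv
      have h := rtk6glu_mul_mem_nonunits W hinv hx
      rw [inv_mul_cancel₀ hx0] at h
      exact rtk6glu_one_not_mem W h
  · rintro ⟨hx, h0 | hinv⟩
    · rw [h0]
      exact W.nonunits.zero_mem
    · by_contra hcon
      exact hinv (rtk6glu_inv_mem W hx hcon)

omit [IsDomain O] [IsLocalRing O] [IsNoetherianRing O] [IsFractionRing O F] [Algebra O F]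
  [CommRing O] in
/-- the maximal ideal of `g W` -/
theorem rtk6glu_mem_comap_nonunits (W : ValuationSubring F) (f : F →+* F) (x : F) :
    x ∈ (W.comap f).nonunits ↔ f x ∈ W.nonunits := by
  rw [rtk6glu_mem_nonunits_iff, rtk6glu_mem_nonunits_iff, ValuationSubring.mem_comap,
    ValuationSubring.mem_comap, map_inv₀, map_eq_zero]

/-- **D-STAB.**  A ring automorphism `g` of `F` with `g⁻¹ O ⊆ O`, `g⁻¹ X ∈ O X`,
`g⁻¹ Y ∈ O^× Y` preserves the component `W` (`X ∈ 𝔪(W)`, `Y ∉ 𝔪(W)`): `g W = W`. -/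
theorem rtk6glu_stab (X Y : O) (hm : maximalIdeal O = Ideal.span {X, Y})
    (W : ValuationSubring F) (hOW : ∀ a : O, algebraMap O F a ∈ W)
    (hXW : algebraMap O F X ∈ W.nonunits) (hYW : algebraMap O F Y ∉ W.nonunits)
    (g : F ≃+* F) (hgO : ∀ a : O, ∃ a' : O, g.symm (algebraMap O F a) = algebraMap O F a')
    (hgX : ∃ a : O, g.symm (algebraMap O F X) = algebraMap O F a * algebraMap O F X)
    (hgY : ∃ b : O, IsUnit b ∧ g.symm (algebraMap O F Y) = algebraMap O F b * algebraMap O F Y) :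
    W.comap (g.symm : F →+* F) = W := by
  refine rtk6glu_unique X Y hm _ W ?_ hOW ?_ ?_ hXW hYW
  · intro a
    obtain ⟨a', ha'⟩ := hgO a
    rw [ValuationSubring.mem_comap]
    show g.symm (algebraMap O F a) ∈ W
    rw [ha']
    exact hOW a'
  · rw [rtk6glu_mem_comap_nonunits]
    obtain ⟨a, ha⟩ := hgX
    show g.symm (algebraMap O F X) ∈ W.nonunits
    rw [ha]
    exact rtk6glu_mul_mem_nonunits W (hOW a) hXW
  · rw [rtk6glu_mem_comap_nonunits]
    obtain ⟨b, hb, hbY⟩ := hgY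
    show g.symm (algebraMap O F Y) ∉ W.nonunits
    rw [hbY]
    intro h
    apply hYW
    have h2 : algebraMap O F ↑(hb.unit⁻¹) * (algebraMap O F b * algebraMap O F Y) ∈ W.nonunits :=
      rtk6glu_mul_mem_nonunits W (hOW _) h
    rwa [← mul_assoc, ← map_mul, IsUnit.val_inv_mul, map_one, one_mul] at h2

/-- **D-STAB, pointwise form**: `x ∈ W ↔ g x ∈ W`, and the same for the maximal ideals. -/
theorem rtk6glu_stab_mem (X Y : O) (hm : maximalIdeal O = Ideal.span {X, Y})
    (W : ValuationSubring F) (hOW : ∀ a : O, algebraMap O F a ∈ W)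
    (hXW : algebraMap O F X ∈ W.nonunits) (hYW : algebraMap O F Y ∉ W.nonunits)
    (g : F ≃+* F) (hgO : ∀ a : O, ∃ a' : O, g.symm (algebraMap O F a) = algebraMap O F a')
    (hgX : ∃ a : O, g.symm (algebraMap O F X) = algebraMap O F a * algebraMap O F X)
    (hgY : ∃ b : O, IsUnit b ∧ g.symm (algebraMap O F Y) = algebraMap O F b * algebraMap O F Y)
    (x : F) : (g x ∈ W ↔ x ∈ W) ∧ (g x ∈ W.nonunits ↔ x ∈ W.nonunits) := by
  have h := rtk6glu_stab X Y hm W hOW hXW hYW g hgO hgX hgY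
  constructor
  · have h1 : g x ∈ W.comap (g.symm : F →+* F) ↔ x ∈ W := by
      rw [ValuationSubring.mem_comap]
      show g.symm (g x) ∈ W ↔ x ∈ W
      rw [RingEquiv.symm_apply_apply]
    rwa [h] at h1
  · have h1 : g x ∈ (W.comap (g.symm : F →+* F)).nonunits ↔ x ∈ W.nonunits := by
      rw [rtk6glu_mem_comap_nonunits]
      show g.symm (g x) ∈ W.nonunits ↔ x ∈ W.nonunits
      rw [RingEquiv.symm_apply_apply]
    rwa [h] at h1

end Centre

end Fermat.Agent.RT.K6
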