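/-
K-machine, piece K6, piece C4 (helper94), part 2: **the abstract crossing point, ÉTALE FIRST**.

Setting (all types in one universe, as in `DEtMulti.lean`):
 `R₀` the base chart (UNIP's chart of the `Γ₀`-field over the unramified base), `K = Frac R₀`,
 `F ⊇ K` the top field (`fieldC E₁ L M H`), `B` the top chart (`j : R₀ →+* B`, `ι : B →+* F`),
 `𝔫` a maximal ideal of `B`, `𝔫₀ = 𝔫 ∩ R₀` a THIN crossing point of `R₀`
 (`NodesLocGen 𝔫₀ {p, X₀, Y₀}`, `w p = X₀ Y₀`, `w ∉ 𝔫₀`);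
 `S` the étale Kummer generators (`b t ^ d = a`, `a, b ∈ R₀ ∖ 𝔫₀`), `K′ = K(S)`, `R₀′` its chart;
 `ϖ₁ ^ d = p`, `y` the ramified Kummer generator with (LF) `e₂ y ^ d = e₁ Y₀ ^ n₀ γ ^ d`
 (`e_i ∈ R₀ ∖ 𝔫₀`, `γ ∈ Kˣ`), `a n₀ − b d = 1`, `F = K[S, ϖ₁, y]`;
 `σ, δ ∈ Aut(F / K)` fixing `S`, `σ ϖ₁ = ζ ϖ₁`, `σ y = y`, `δ ϖ₁ = ϖ₁`, `δ y = ζ ^ n₀ y`.

`Rtk6c4Cross` bundles these hypotheses (a `Prop`-valued structure).
-/
import Fermat.Agent.RT.K6.C4Pre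
import Fermat.Agent.RT.K6.DGLLs
import Fermat.Agent.RT.K6.DGLFixLs
import Fermat.Agent.RT.K6.DGen
import Fermat.Agent.RT.K6.DEtMulti
import Fermat.Agent.RT.K6.DGLStab
import Fermat.Agent.RT.K6.DLFPt

set_option autoImplicit false
set_option linter.style.haveILetI false
set_option linter.unusedSectionVars false
set_option linter.unusedVariables false

namespace Fermat.Agent.RT.K6

open Fermat.Agent.UNIP Fermat.Agent.STB Fermat.Agent.S36 IntermediateField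

section Abs

universe u

variable {K F R₀ B : Type u} [Field K] [Field F] [Algebra K F]
  [CommRing R₀] [Algebra R₀ K] [Algebra R₀ F] [IsScalarTower R₀ K F] [CommRing B]

/-- **The data at a crossing point of the top chart `B` over a thin crossing point of the base
chart `R₀`** (C4, étale first). -/
structure Rtk6c4Cross (j : R₀ →+* B) (ι : B →+* F) (𝔫 : Ideal B) (d : ℕ) (ζ : R₀)
    (p X₀ Y₀ w : R₀) (S : Set F) (ϖ₁ y : F) (γ : K) (e₁ e₂ : R₀) (n₀ a b : ℤ)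
    (σ δ : F ≃ₐ[K] F) : Prop where
  /-- the chart `B` is the integral closure of `R₀` in `F` -/
  hι : Function.Injective ι
  hjι : ∀ r, ι (j r) = algebraMap R₀ F r
  hint : ∀ b : B, IsIntegral R₀ (ι b)
  hcl : ∀ x : F, IsIntegral R₀ x → ∃ b, ι b = x
  /-- `d` is prime to the residue characteristic, `ζ` a primitive `d`-th root of unity -/
  hd : j (d : R₀) ∉ 𝔫
  hζ : IsPrimitiveRoot ζ d
  /-- the thin node of the base chart at `𝔫 ∩ R₀` -/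
  hw : j w ∉ 𝔫
  hXY : w * p = X₀ * Y₀
  hX₀ : j X₀ ∈ 𝔫
  hY₀ : j Y₀ ∈ 𝔫
  hgen₀ : NodesLocGen (𝔫.comap j) {p, X₀, Y₀}
  /-- the étale generators -/
  hS : S.Finite
  hSet : ∀ t ∈ S, ∃ a b : R₀, j a ∉ 𝔫 ∧ j b ∉ 𝔫 ∧
    algebraMap R₀ F b * t ^ d = algebraMap R₀ F a
  /-- the ramified generators, (LF) -/
  hϖ : ϖ₁ ^ d = algebraMap R₀ F p
  hγ : γ ≠ 0
  he₁ : j e₁ ∉ 𝔫
  he₂ : j e₂ ∉ 𝔫
  hy : algebraMap R₀ F e₂ * y ^ d =
    algebraMap R₀ F e₁ * algebraMap R₀ F Y₀ ^ n₀ * algebraMap K F γ ^ d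
  hab : a * n₀ - b * d = 1
  hgen : Algebra.adjoin K (S ∪ {ϖ₁, y}) = ⊤
  /-- the automorphisms -/
  hσS : ∀ t ∈ S, σ t = t
  hσϖ : σ ϖ₁ = algebraMap R₀ F ζ * ϖ₁
  hσy : σ y = y
  hδS : ∀ t ∈ S, δ t = t
  hδϖ : δ ϖ₁ = ϖ₁
  hδy : δ y = algebraMap R₀ F ζ ^ n₀ * y

/-- **The data at a crossing point, with TWO exponents**: the étale generators satisfy
`b t ^ dS = a` (`dS` prime to the residue characteristic), the ramified generators have exponent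
`d` (`ϖ₁ ^ d = p`, `e₂ y ^ d = e₁ Y₀ ^ n₀ γ ^ d`).  `Rtk6c4Cross` is the case `dS = d`. -/
structure Rtk6c4CrossE (j : R₀ →+* B) (ι : B →+* F) (𝔫 : Ideal B) (d dS : ℕ) (ζ : R₀)
    (p X₀ Y₀ w : R₀) (S : Set F) (ϖ₁ y : F) (γ : K) (e₁ e₂ : R₀) (n₀ a b : ℤ)
    (σ δ : F ≃ₐ[K] F) : Prop where
  /-- the chart `B` is the integral closure of `R₀` in `F` -/
  hι : Function.Injective ι
  hjι : ∀ r, ι (j r) = algebraMap R₀ F r
  hint : ∀ b : B, IsIntegral R₀ (ι b)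
  hcl : ∀ x : F, IsIntegral R₀ x → ∃ b, ι b = x
  /-- `d`, `dS` are prime to the residue characteristic, `ζ` a primitive `d`-th root of unity -/
  hd : j (d : R₀) ∉ 𝔫
  hdS : j (dS : R₀) ∉ 𝔫
  hζ : IsPrimitiveRoot ζ d
  /-- the thin node of the base chart at `𝔫 ∩ R₀` -/
  hw : j w ∉ 𝔫
  hXY : w * p = X₀ * Y₀
  hX₀ : j X₀ ∈ 𝔫
  hY₀ : j Y₀ ∈ 𝔫
  hgen₀ : NodesLocGen (𝔫.comap j) {p, X₀, Y₀}
  /-- the étale generators (exponent `dS`) -/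
  hS : S.Finite
  hSet : ∀ t ∈ S, ∃ a b : R₀, j a ∉ 𝔫 ∧ j b ∉ 𝔫 ∧
    algebraMap R₀ F b * t ^ dS = algebraMap R₀ F a
  /-- the ramified generators, (LF) -/
  hϖ : ϖ₁ ^ d = algebraMap R₀ F p
  hγ : γ ≠ 0
  he₁ : j e₁ ∉ 𝔫
  he₂ : j e₂ ∉ 𝔫
  hy : algebraMap R₀ F e₂ * y ^ d =
    algebraMap R₀ F e₁ * algebraMap R₀ F Y₀ ^ n₀ * algebraMap K F γ ^ d
  hab : a * n₀ - b * d = 1
  hgen : Algebra.adjoin K (S ∪ {ϖ₁, y}) = ⊤
  /-- the automorphisms -/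
  hσS : ∀ t ∈ S, σ t = t
  hσϖ : σ ϖ₁ = algebraMap R₀ F ζ * ϖ₁
  hσy : σ y = y
  hδS : ∀ t ∈ S, δ t = t
  hδϖ : δ ϖ₁ = ϖ₁
  hδy : δ y = algebraMap R₀ F ζ ^ n₀ * y

/-- the one-exponent datum is a two-exponent datum with `dS = d` -/
theorem Rtk6c4Cross.toE {j : R₀ →+* B} {ι : B →+* F} {𝔫 : Ideal B} {d : ℕ} {ζ : R₀}
    {p X₀ Y₀ w : R₀} {S : Set F} {ϖ₁ y : F} {γ : K} {e₁ e₂ : R₀} {n₀ a b : ℤ}
    {σ δ : F ≃ₐ[K] F} (h : Rtk6c4Cross j ι 𝔫 d ζ p X₀ Y₀ w S ϖ₁ y γ e₁ e₂ n₀ a b σ δ) :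
    Rtk6c4CrossE j ι 𝔫 d d ζ p X₀ Y₀ w S ϖ₁ y γ e₁ e₂ n₀ a b σ δ :=
  { hι := h.hι, hjι := h.hjι, hint := h.hint, hcl := h.hcl, hd := h.hd, hdS := h.hd,
    hζ := h.hζ, hw := h.hw, hXY := h.hXY, hX₀ := h.hX₀, hY₀ := h.hY₀, hgen₀ := h.hgen₀,
    hS := h.hS, hSet := h.hSet, hϖ := h.hϖ, hγ := h.hγ, he₁ := h.he₁, he₂ := h.he₂,
    hy := h.hy, hab := h.hab, hgen := h.hgen, hσS := h.hσS, hσϖ := h.hσϖ, hσy := h.hσy,
    hδS := h.hδS, hδϖ := h.hδϖ, hδy := h.hδy }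

end Abs

section Val

variable {K' F : Type*} [Field K'] [Field F]

/-- the maximal ideal of the restriction of a valuation ring -/
theorem rtk6c4_mem_comap_nonunits (W : ValuationSubring F) (f : K' →+* F) (x : K') :
    x ∈ (W.comap f).nonunits ↔ f x ∈ W.nonunits := by
  rw [rtk6glu_mem_nonunits_iff, rtk6glu_mem_nonunits_iff, ValuationSubring.mem_comap,
    ValuationSubring.mem_comap, map_inv₀, map_eq_zero]

/-- a root of an element of `𝔪(W)` lies in `𝔪(W)` -/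
theorem rtk6c4_mem_nonunits_of_pow (W : ValuationSubring F) {x : F} {d : ℕ}
    (h : x ^ d ∈ W.nonunits) : x ∈ W.nonunits := by
  rw [ValuationSubring.mem_nonunits_iff] at h ⊢
  rw [map_pow] at h
  by_contra hx
  rw [not_lt] at hx
  exact absurd h (not_lt.2 (one_le_pow₀ hx))

/-- a ring endomorphism fixing `K` and `S` pointwise fixes `K(S)` pointwise -/
theorem rtk6c4_fix_adjoin_hom {K : Type*} [Field K] [Algebra K F] (S : Set F) (Φ : F →+* F)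
    (hΦK : ∀ k : K, Φ (algebraMap K F k) = algebraMap K F k) (hΦS : ∀ t ∈ S, Φ t = t) :
    ∀ x ∈ IntermediateField.adjoin K S, Φ x = x := by
  intro x hx
  induction hx using IntermediateField.adjoin_induction with
  | mem x hx => exact hΦS x hx
  | algebraMap k => exact hΦK k
  | add x y _ _ hx hy => rw [map_add, hx, hy]
  | inv x _ hx => rw [map_inv₀, hx]
  | mul x y _ _ hx hy => rw [map_mul, hx, hy]

end Val

end Fermat.Agent.RT.K6
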