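/-
K-machine, piece K6, piece C4 (helper94), part 3: **the abstract crossing point, ÉTALE FIRST**.

From `Rtk6c4Cross` (`C4Abs.lean`) and two components `W₁ ∋ X₀`, `W₂ ∋ Y₀` through `𝔫`:
`𝔫 = (ϖ, X, Y)` locally, `w′ ϖ = X Y`, `w′ ∉ 𝔫`, `X ∈ 𝔪(W₁)`, `Y ∈ 𝔪(W₂)`
(`rtk6c4_cross`), and every ring endomorphism `Φ` of `F` preserving the chart, fixing `K` and the
étale generators and multiplying `ϖ₁`, `y` by units of `R₀` multiplies `X`, `Y` by units and is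
the identity modulo `𝔫` (C4+).
-/
import Fermat.Agent.RT.K6.C4Abs

set_option autoImplicit false
set_option linter.style.haveILetI false
set_option linter.unusedSectionVars false
set_option linter.unusedVariables false

namespace Fermat.Agent.RT.K6

open Fermat.Agent.UNIP Fermat.Agent.STB Fermat.Agent.S36 IntermediateField

section Cross

universe u

variable {K F R₀ B : Type u} [Field K] [Field F] [Algebra K F]
  [CommRing R₀] [IsDomain R₀] [Algebra R₀ K] [IsFractionRing R₀ K] [Algebra R₀ F]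
  [IsScalarTower R₀ K F] [CommRing B]
  {j : R₀ →+* B} {ι : B →+* F} {𝔫 : Ideal B} {d dS : ℕ} {ζ : R₀}
  {p X₀ Y₀ w : R₀} {S : Set F} {ϖ₁ y : F} {γ : K} {e₁ e₂ : R₀} {n₀ a b : ℤ} {σ δ : F ≃ₐ[K] F}

namespace Rtk6c4CrossE

variable (h : Rtk6c4CrossE j ι 𝔫 d dS ζ p X₀ Y₀ w S ϖ₁ y γ e₁ e₂ n₀ a b σ δ)

include h

theorem d_ne_zero : d ≠ 0 := by
  rintro rfl
  apply h.hd
  rw [Nat.cast_zero, map_zero]
  exact 𝔫.zero_mem

theorem dS_ne_zero : dS ≠ 0 := by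
  rintro rfl
  apply h.hdS
  rw [Nat.cast_zero, map_zero]
  exact 𝔫.zero_mem

theorem ne_zero_of_not_mem {r : R₀} (hr : j r ∉ 𝔫) : r ≠ 0 := by
  rintro rfl
  apply hr
  rw [map_zero]
  exact 𝔫.zero_mem

theorem algebraMap_injective : Function.Injective (algebraMap R₀ F) := by
  have e : algebraMap R₀ F = (algebraMap K F).comp (algebraMap R₀ K) :=
    IsScalarTower.algebraMap_eq R₀ K F
  rw [e]
  exact (algebraMap K F).injective.comp (IsFractionRing.injective R₀ K)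

theorem algebraMap_ne_zero {r : R₀} (hr : j r ∉ 𝔫) : algebraMap R₀ F r ≠ 0 := fun h0 =>
  h.ne_zero_of_not_mem hr (h.algebraMap_injective (by rw [h0, map_zero]))

/-- the étale generators are integral over `K` -/
theorem isIntegral_S : ∀ t ∈ S, IsIntegral K t := by
  intro t ht
  obtain ⟨a', b', ha', hb', hab'⟩ := h.hSet t ht
  have hb0 : algebraMap R₀ F b' ≠ 0 := h.algebraMap_ne_zero hb'
  apply IsIntegral.of_pow (Nat.pos_of_ne_zero h.dS_ne_zero)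
  have e : t ^ dS = algebraMap K F (algebraMap R₀ K a' / algebraMap R₀ K b') := by
    rw [map_div₀, ← IsScalarTower.algebraMap_apply R₀ K F,
      ← IsScalarTower.algebraMap_apply R₀ K F, eq_div_iff hb0, mul_comm]
    exact hab'
  rw [e]
  exact isIntegral_algebraMap

theorem finiteDimensional : FiniteDimensional K (rtk6c4K K S) := by
  haveI : Finite S := h.hS.to_subtype
  exact IntermediateField.finiteDimensional_adjoin h.isIntegral_S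

/-- `j` is integral -/
theorem j_isIntegral : j.IsIntegral := by
  intro b'
  obtain ⟨P, hP, hPb⟩ := h.hint b'
  refine ⟨P, hP, h.hι ?_⟩
  rw [Polynomial.hom_eval₂, map_zero]
  have e : ι.comp j = algebraMap R₀ F := by
    ext r
    exact h.hjι r
  rw [e]
  exact hPb

/-- `ϖ₁` lies in the chart -/
theorem exists_unif : ∃ ϖ : B, ι ϖ = ϖ₁ := by
  apply h.hcl
  apply IsIntegral.of_pow (Nat.pos_of_ne_zero h.d_ne_zero)
  rw [h.hϖ]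
  exact isIntegral_algebraMap

end Rtk6c4CrossE

omit [IsDomain R₀] [IsFractionRing R₀ K] [IsScalarTower R₀ K F] [Algebra K F] [Algebra R₀ K] in
/-- integral powers of a unit, under a ring homomorphism to a field -/
theorem rtk6c4_unit_zpow {α : R₀} (hα : IsUnit α) (n : ℤ) :
    algebraMap R₀ F (((hα.unit ^ n : R₀ˣ) : R₀)) = algebraMap R₀ F α ^ n := by
  have h1 := map_zpow (Units.map (algebraMap R₀ F : R₀ →* F)) hα.unit n
  have h2 := congrArg (fun z : Fˣ => (z : F)) h1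
  simp only [Units.coe_map, MonoidHom.coe_coe, Units.val_zpow_eq_zpow_val,
    IsUnit.unit_spec] at h2
  exact h2

variable [CharZero K] [IsIntegrallyClosed R₀] [IsNoetherianRing R₀]

set_option maxHeartbeats 1600000 in
/-- **C4-X, abstract: the crossing point of the top chart.** -/
theorem rtk6c4_crossE_ex (h : Rtk6c4CrossE j ι 𝔫 d dS ζ p X₀ Y₀ w S ϖ₁ y γ e₁ e₂ n₀ a b σ δ)
    [h𝔫 : 𝔫.IsMaximal]
    (W₁ W₂ : ValuationSubring F) (hBW₁ : ∀ z, ι z ∈ W₁) (hBW₂ : ∀ z, ι z ∈ W₂)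
    (hthr₁ : ∀ z : B, ι z ∈ W₁.nonunits → z ∈ 𝔫) (hthr₂ : ∀ z : B, ι z ∈ W₂.nonunits → z ∈ 𝔫)
    (hX₁ : ι (j X₀) ∈ W₁.nonunits) (hY₁ : ι (j Y₀) ∉ W₁.nonunits)
    (hY₂ : ι (j Y₀) ∈ W₂.nonunits) (hX₂ : ι (j X₀) ∉ W₂.nonunits) :
    ∃ (X Y w' ϖ : B), ι ϖ = ϖ₁ ∧ w' ∉ 𝔫 ∧ w' * ϖ = X * Y ∧ ι X ∈ W₁.nonunits ∧
      ι Y ∈ W₂.nonunits ∧ X ∈ 𝔫 ∧ Y ∈ 𝔫 ∧ NodesLocGen 𝔫 {ϖ, X, Y} ∧
      ∀ Φ : F →+* F, (∀ z : B, ∃ z' : B, Φ (ι z) = ι z') →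
        (∀ k : K, Φ (algebraMap K F k) = algebraMap K F k) → (∀ t ∈ S, Φ t = t) →
        ∀ (α β : R₀) (hα : IsUnit α) (hβ : IsUnit β), Φ ϖ₁ = algebraMap R₀ F α * ϖ₁ →
          Φ y = algebraMap R₀ F β * y →
          (Φ (ι X) = ι (j ((hα.unit * hβ.unit ^ (-a) : R₀ˣ) : R₀)) * ι X ∧
            Φ (ι Y) = ι (j ((hβ.unit ^ a : R₀ˣ) : R₀)) * ι Y) ∧
          ∀ z : B, ∃ c ∈ 𝔫, Φ (ι z) = ι z + ι c := by
  classical
  have hd0 : d ≠ 0 := h.d_ne_zero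
  have hdpos : 0 < d := Nat.pos_of_ne_zero hd0
  -- the étale stage
  haveI hfd : FiniteDimensional K (rtk6c4K K S) := h.finiteDimensional
  haveI : IsIntegrallyClosed (rtk6c4R R₀ K S) :=
    integralClosure.isIntegrallyClosedOfFiniteExtension K
  haveI : IsFractionRing (rtk6c4R R₀ K S) (rtk6c4K K S) :=
    integralClosure.isFractionRing_of_finite_extension K (rtk6c4K K S)
  haveI : IsNoetherianRing (rtk6c4R R₀ K S) :=
    IsIntegralClosure.isNoetherianRing R₀ K (rtk6c4K K S) (rtk6c4R R₀ K S)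
  set j' : rtk6c4R R₀ K S →+* B := rtk6c4J (K := K) ι h.hι h.hcl S with hj'
  have hj'ι : ∀ x : rtk6c4R R₀ K S, ι (j' x) = ((x : rtk6c4K K S) : F) :=
    rtk6c4J_spec (K := K) ι h.hι h.hcl S
  have hj'j : ∀ r : R₀, j' (algebraMap R₀ (rtk6c4R R₀ K S) r) = j r :=
    rtk6c4J_algebraMap (K := K) ι h.hι h.hcl S j h.hjι
  have hcoe : ∀ r : R₀, ((algebraMap R₀ (rtk6c4K K S) r : rtk6c4K K S) : F) = algebraMap R₀ F r :=
    fun r => (IsScalarTower.algebraMap_apply R₀ (rtk6c4K K S) F r).symm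
  set 𝔫' : Ideal (rtk6c4R R₀ K S) := 𝔫.comap j' with h𝔫'
  haveI h𝔫'p : 𝔫'.IsPrime := Ideal.comap_isPrime _ _
  haveI h𝔫₀ : (𝔫.comap j).IsMaximal :=
    Ideal.isMaximal_comap_of_isIntegral_of_isMaximal' j h.j_isIntegral 𝔫
  have hlie0 : 𝔫'.comap (algebraMap R₀ (rtk6c4R R₀ K S)) = 𝔫.comap j := by
    ext r
    rw [Ideal.mem_comap, Ideal.mem_comap, Ideal.mem_comap, hj'j]
  have hmem' : ∀ r : R₀, algebraMap R₀ (rtk6c4R R₀ K S) r ∈ 𝔫' ↔ j r ∈ 𝔫 := fun r => by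
    rw [h𝔫', Ideal.mem_comap, hj'j]
  -- ET-multi
  have hET := rtk6etm_locGen_of_span (R := R₀) (K := K) (L := rtk6c4K K S)
    (B := rtk6c4R R₀ K S) (𝔫.comap j) dS h.hdS {z : rtk6c4K K S | (z : F) ∈ S}
    (rtk6c4_finite_lift S h.hS)
    (by
      intro t ht
      obtain ⟨a', b', ha', hb', hab'⟩ := h.hSet (t : F) ht
      refine ⟨a', b', ha', hb', Subtype.ext ?_⟩
      show ((algebraMap R₀ (rtk6c4K K S) b' : rtk6c4K K S) : F) * (t : F) ^ dS =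
        ((algebraMap R₀ (rtk6c4K K S) a' : rtk6c4K K S) : F)
      rw [hcoe, hcoe]
      exact hab')
    (rtk6c4_adjoin_lift S h.isIntegral_S) 𝔫' hlie0 {p, X₀, Y₀} h.hgen₀
  set p' : rtk6c4R R₀ K S := algebraMap R₀ (rtk6c4R R₀ K S) p with hp'
  set X' : rtk6c4R R₀ K S := algebraMap R₀ (rtk6c4R R₀ K S) X₀ with hX'
  set Y' : rtk6c4R R₀ K S := algebraMap R₀ (rtk6c4R R₀ K S) Y₀ with hY'
  set w₀ : rtk6c4R R₀ K S := algebraMap R₀ (rtk6c4R R₀ K S) w with hw₀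
  have hgen' : NodesLocGen 𝔫' {p', X', Y'} := by
    intro x hx
    obtain ⟨u, hu, hux⟩ := hET x hx
    refine ⟨u, hu, ?_⟩
    rw [Set.image_insert_eq, Set.image_insert_eq, Set.image_singleton] at hux
    exact hux
  have hw' : w₀ ∉ 𝔫' := fun hh => h.hw ((hmem' w).1 hh)
  have hXY' : w₀ * p' = X' * Y' := by
    rw [hw₀, hp', hX', hY', ← map_mul, ← map_mul, h.hXY]
  have hX'm : X' ∈ 𝔫' := (hmem' X₀).2 h.hX₀
  have hY'm : Y' ∈ 𝔫' := (hmem' Y₀).2 h.hY₀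
  -- the local ring `O′`
  have hinj' : Function.Injective (algebraMap (rtk6c4R R₀ K S) (rtk6c4K K S)) :=
    Subtype.val_injective
  haveI : IsLocalRing (ls_localSubring (F := rtk6c4K K S) 𝔫') :=
    ls_localSubring_isLocalRing hinj' 𝔫'
  haveI : IsNoetherianRing (ls_localSubring (F := rtk6c4K K S) 𝔫') :=
    s36n2p_isNoetherianRing hinj' 𝔫'
  haveI : IsFractionRing (ls_localSubring (F := rtk6c4K K S) 𝔫') (rtk6c4K K S) :=
    rtk6gls_isFractionRing (K := rtk6c4K K S) 𝔫'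
  have hm := rtk6lfp_cross_max hinj' 𝔫' p' hw' hXY' hX'm hY'm hgen'
  -- the two components on `K′`
  set V₁ : ValuationSubring (rtk6c4K K S) := W₁.comap (algebraMap (rtk6c4K K S) F) with hV₁
  set V₂ : ValuationSubring (rtk6c4K K S) := W₂.comap (algebraMap (rtk6c4K K S) F) with hV₂
  have hιj' : ∀ r : R₀, ι (j r) = ((algebraMap R₀ (rtk6c4R R₀ K S) r : rtk6c4K K S) : F) :=
    fun r => by rw [← hj'j, hj'ι]
  have hBV₁ : ∀ z : rtk6c4R R₀ K S,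
      algebraMap (rtk6c4R R₀ K S) (rtk6c4K K S) z ∈ V₁ := fun z => by
    show ((z : rtk6c4K K S) : F) ∈ W₁
    rw [← hj'ι]
    exact hBW₁ _
  have hBV₂ : ∀ z : rtk6c4R R₀ K S,
      algebraMap (rtk6c4R R₀ K S) (rtk6c4K K S) z ∈ V₂ := fun z => by
    show ((z : rtk6c4K K S) : F) ∈ W₂
    rw [← hj'ι]
    exact hBW₂ _
  have hthrV₁ : ∀ z : rtk6c4R R₀ K S,
      algebraMap (rtk6c4R R₀ K S) (rtk6c4K K S) z ∈ V₁.nonunits → z ∈ 𝔫' := fun z hz => by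
    rw [hV₁, rtk6c4_mem_comap_nonunits] at hz
    refine hthr₁ _ ?_
    rw [hj'ι]
    exact hz
  have hthrV₂ : ∀ z : rtk6c4R R₀ K S,
      algebraMap (rtk6c4R R₀ K S) (rtk6c4K K S) z ∈ V₂.nonunits → z ∈ 𝔫' := fun z hz => by
    rw [hV₂, rtk6c4_mem_comap_nonunits] at hz
    refine hthr₂ _ ?_
    rw [hj'ι]
    exact hz
  have hOV₁ : ∀ o : ls_localSubring (F := rtk6c4K K S) 𝔫',
      algebraMap (ls_localSubring (F := rtk6c4K K S) 𝔫') (rtk6c4K K S) o ∈ V₁ := fun o =>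
    stb_gc_le 𝔫' V₁ hBV₁ hthrV₁ o o.2
  have hOV₂ : ∀ o : ls_localSubring (F := rtk6c4K K S) 𝔫',
      algebraMap (ls_localSubring (F := rtk6c4K K S) 𝔫') (rtk6c4K K S) o ∈ V₂ := fun o =>
    stb_gc_le 𝔫' V₂ hBV₂ hthrV₂ o o.2
  set X₁ : ls_localSubring (F := rtk6c4K K S) 𝔫' := s36n2pToLoc (F := rtk6c4K K S) 𝔫' X'
    with hX₁def
  set Y₁ : ls_localSubring (F := rtk6c4K K S) 𝔫' := s36n2pToLoc (F := rtk6c4K K S) 𝔫' Y'
    with hY₁def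
  have hX₁F : (((X₁ : rtk6c4K K S)) : F) = ι (j X₀) := (hιj' X₀).symm
  have hY₁F : (((Y₁ : rtk6c4K K S)) : F) = ι (j Y₀) := (hιj' Y₀).symm
  have hX₁V₁ : ((X₁ : rtk6c4K K S)) ∈ V₁.nonunits := by
    rw [hV₁, rtk6c4_mem_comap_nonunits]
    show (((X₁ : rtk6c4K K S)) : F) ∈ W₁.nonunits
    rw [hX₁F]
    exact hX₁
  have hY₁V₁ : ((Y₁ : rtk6c4K K S)) ∉ V₁.nonunits := by
    rw [hV₁, rtk6c4_mem_comap_nonunits]
    show (((Y₁ : rtk6c4K K S)) : F) ∉ W₁.nonunits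
    rw [hY₁F]
    exact hY₁
  have hY₁V₂ : ((Y₁ : rtk6c4K K S)) ∈ V₂.nonunits := by
    rw [hV₂, rtk6c4_mem_comap_nonunits]
    show (((Y₁ : rtk6c4K K S)) : F) ∈ W₂.nonunits
    rw [hY₁F]
    exact hY₂
  have hX₁V₂ : ((X₁ : rtk6c4K K S)) ∉ V₂.nonunits := by
    rw [hV₂, rtk6c4_mem_comap_nonunits]
    show (((X₁ : rtk6c4K K S)) : F) ∉ W₂.nonunits
    rw [hX₁F]
    exact hX₂
  have hX₁ne : X₁ ≠ 0 := by
    intro h0
    apply hX₁V₂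
    rw [h0]
    exact V₂.nonunits.zero_mem
  have hY₁ne : Y₁ ≠ 0 := by
    intro h0
    apply hY₁V₁
    rw [h0]
    exact V₁.nonunits.zero_mem
  have hm' : IsLocalRing.maximalIdeal (ls_localSubring (F := rtk6c4K K S) 𝔫') =
      Ideal.span {Y₁, X₁} := by
    rw [hm, Set.pair_comm]
  have hX₁prime : Prime X₁ :=
    s36n2p_prime hinj' 𝔫' V₁ hBV₁ hthrV₁ X₁ hX₁ne hX₁V₁
      (fun o ho => rtk6glu_centre X₁ Y₁ hm V₁ hOV₁ hX₁V₁ hY₁V₁ o ho)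
  have hY₁prime : Prime Y₁ :=
    s36n2p_prime hinj' 𝔫' V₂ hBV₂ hthrV₂ Y₁ hY₁ne hY₁V₂
      (fun o ho => rtk6glu_centre Y₁ X₁ hm' V₂ hOV₂ hY₁V₂ hX₁V₂ o ho)
  have hYX : ¬ Y₁ ∣ X₁ := by
    rintro ⟨c, hc⟩
    apply hX₁V₂
    rw [hc]
    have := rtk6glu_mul_mem_nonunits V₂ (hOV₂ c) hY₁V₂
    rw [mul_comm] at this
    exact this
  -- (GEN) over `O′`
  have hinjRK : Function.Injective (algebraMap (rtk6c4R R₀ K S) (rtk6c4K K S)) := hinj'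
  set w₁ : ls_localSubring (F := rtk6c4K K S) 𝔫' := s36n2pToLoc (F := rtk6c4K K S) 𝔫' w₀
    with hw₁def
  set p₁ : ls_localSubring (F := rtk6c4K K S) 𝔫' := s36n2pToLoc (F := rtk6c4K K S) 𝔫' p'
    with hp₁def
  have hw₁u : IsUnit w₁ := rtk6gls_isUnit (K := rtk6c4K K S) hinjRK 𝔫' hw'
  have hXY₁ : w₁ * p₁ = X₁ * Y₁ := by
    have := congrArg (s36n2pToLoc (F := rtk6c4K K S) 𝔫') hXY'
    rwa [map_mul, map_mul] at this
  have he₁' : algebraMap R₀ (rtk6c4R R₀ K S) e₁ ∉ 𝔫' := fun hh => h.he₁ ((hmem' e₁).1 hh)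
  have he₂' : algebraMap R₀ (rtk6c4R R₀ K S) e₂ ∉ 𝔫' := fun hh => h.he₂ ((hmem' e₂).1 hh)
  have he₂K : algebraMap R₀ (rtk6c4K K S) e₂ ≠ 0 := by
    intro h0
    apply h.algebraMap_ne_zero h.he₂
    rw [← hcoe, h0]
    rfl
  have hεmem : algebraMap R₀ (rtk6c4K K S) e₁ / algebraMap R₀ (rtk6c4K K S) e₂ ∈
      ls_localSubring (F := rtk6c4K K S) 𝔫' := by
    refine ⟨algebraMap R₀ (rtk6c4R R₀ K S) e₁, algebraMap R₀ (rtk6c4R R₀ K S) e₂, he₂', ?_⟩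
    rw [← IsScalarTower.algebraMap_apply R₀ (rtk6c4R R₀ K S) (rtk6c4K K S),
      ← IsScalarTower.algebraMap_apply R₀ (rtk6c4R R₀ K S) (rtk6c4K K S)]
    field_simp
  set ε : ls_localSubring (F := rtk6c4K K S) 𝔫' :=
    ⟨algebraMap R₀ (rtk6c4K K S) e₁ / algebraMap R₀ (rtk6c4K K S) e₂, hεmem⟩ with hεdef
  have hεu : IsUnit ε := by
    refine ls_isUnit_of_not_mem hinj' 𝔫' ε (b := algebraMap R₀ (rtk6c4R R₀ K S) e₁)
      (s := algebraMap R₀ (rtk6c4R R₀ K S) e₂) he₁' he₂' ?_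
    rw [← IsScalarTower.algebraMap_apply R₀ (rtk6c4R R₀ K S) (rtk6c4K K S),
      ← IsScalarTower.algebraMap_apply R₀ (rtk6c4R R₀ K S) (rtk6c4K K S)]
    show algebraMap R₀ (rtk6c4K K S) e₂ *
      (algebraMap R₀ (rtk6c4K K S) e₁ / algebraMap R₀ (rtk6c4K K S) e₂) = _
    field_simp
  set ζ' : rtk6c4K K S := algebraMap (rtk6c4R R₀ K S) (rtk6c4K K S)
    (algebraMap R₀ (rtk6c4R R₀ K S) ζ) with hζ'def
  have hζ'F : ((ζ' : rtk6c4K K S) : F) = algebraMap R₀ F ζ := by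
    rw [hζ'def, ← IsScalarTower.algebraMap_apply R₀ (rtk6c4R R₀ K S) (rtk6c4K K S), hcoe]
  have hζ'd : ζ' ^ d = 1 := by
    rw [hζ'def, ← map_pow, ← map_pow, h.hζ.pow_eq_one, map_one, map_one]
  set γ' : rtk6c4K K S := algebraMap K (rtk6c4K K S) γ with hγ'def
  have hγ'0 : γ' ≠ 0 := (map_ne_zero _).2 h.hγ
  have hϖ' : ϖ₁ ^ d = algebraMap (rtk6c4K K S) F
      (((1 * p₁ : ls_localSubring (F := rtk6c4K K S) 𝔫') : rtk6c4K K S)) := by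
    rw [one_mul, h.hϖ]
    show algebraMap R₀ F p = ((algebraMap R₀ (rtk6c4R R₀ K S) p : rtk6c4K K S) : F)
    rw [← hιj', h.hjι]
  have hyF : y ^ d = algebraMap (rtk6c4K K S) F
      ((ε : rtk6c4K K S) * (Y₁ : rtk6c4K K S) ^ n₀ * γ' ^ d) := by
    have he₂F : algebraMap R₀ F e₂ ≠ 0 := h.algebraMap_ne_zero h.he₂
    have h1 : algebraMap (rtk6c4K K S) F (ε : rtk6c4K K S) =
        algebraMap R₀ F e₁ / algebraMap R₀ F e₂ := by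
      show algebraMap (rtk6c4K K S) F
        (algebraMap R₀ (rtk6c4K K S) e₁ / algebraMap R₀ (rtk6c4K K S) e₂) = _
      rw [map_div₀, ← IsScalarTower.algebraMap_apply R₀ (rtk6c4K K S) F,
        ← IsScalarTower.algebraMap_apply R₀ (rtk6c4K K S) F]
    have h2 : algebraMap (rtk6c4K K S) F (Y₁ : rtk6c4K K S) = algebraMap R₀ F Y₀ := by
      show (((Y₁ : rtk6c4K K S)) : F) = _
      rw [hY₁F, h.hjι]
    have h3 : algebraMap (rtk6c4K K S) F γ' = algebraMap K F γ := rfl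
    rw [map_mul, map_mul, map_zpow₀, map_pow, h1, h2, h3, div_mul_eq_mul_div, div_mul_eq_mul_div,
      eq_div_iff he₂F, mul_comm]
    exact h.hy
  obtain ⟨ε₁, ε₂, x₂, y₂, s₁, s₂, hε₁, hε₂, hx, hy, hxy, hy₂def, hydef, h11, h12, h21, h22,
      hgen₂⟩ :=
    rtk6gen_cross (K := rtk6c4K K S) (L := F) (ls_localSubring (F := rtk6c4K K S) 𝔫') hdpos
      hζ'd hw₁u isUnit_one hεu hXY₁ hY₁ne hϖ' hγ'0 hyF h.hab
      (rtk6c4Lift S σ h.hσS) (rtk6c4Lift S δ h.hδS)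
      (by
        rw [rtk6c4Lift_apply, h.hσϖ, Algebra.smul_def]
        show _ = ((ζ' : rtk6c4K K S) : F) * ϖ₁
        rw [hζ'F])
      (by rw [rtk6c4Lift_apply, h.hσy])
      (by rw [rtk6c4Lift_apply, h.hδϖ])
      (by
        rw [rtk6c4Lift_apply, h.hδy, Algebra.smul_def, map_zpow₀]
        show _ = ((ζ' : rtk6c4K K S) : F) ^ n₀ * y
        rw [hζ'F])
      (rtk6c4_adjoin_top S {ϖ₁, y} h.hgen)
  -- TKC over `O′`
  have hd' : ((d : ℕ) : rtk6c4R R₀ K S) ∉ 𝔫' := by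
    intro hh
    apply h.hd
    rw [← hmem', map_natCast]
    exact hh
  have hζ'' : IsPrimitiveRoot (algebraMap R₀ (rtk6c4R R₀ K S) ζ) d :=
    h.hζ.map_of_injective (fun r r' hrr' => h.algebraMap_injective (by
      rw [← hcoe, ← hcoe]
      exact congrArg (fun z : rtk6c4R R₀ K S => ((z : rtk6c4K K S) : F)) hrr'))
  obtain ⟨u₁, u₂, X, Y, hu₁, hu₂, hXι, hYι, hXm, hYm, hgenXY, -⟩ :=
    rtk6gls_cross (K := rtk6c4K K S) (L := F) (R := rtk6c4R R₀ K S) (B := B) 𝔫' hd' hζ''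
      (Or.inl hX₁prime) (Or.inl ⟨hY₁prime, hYX⟩) hm hε₁ hε₂ hx hy s₁ s₂ h11 h12 h21 h22 hgen₂
      j' ι h.hι (rtk6c4J_hjι (K := K) ι h.hι h.hcl S) 𝔫 (fun u => Iff.rfl)
      (rtk6c4_isIntegralElem (K := K) ι h.hι h.hcl S h.hint)
      (rtk6c4_hcl (K := K) ι h.hι h.hcl S)
  obtain ⟨ϖ, hϖι⟩ := h.exists_unif
  have hx₂W : x₂ ∈ W₁.nonunits := by
    apply rtk6c4_mem_nonunits_of_pow W₁ (d := d)
    rw [hx]
    show (((ε₁ * X₁ : ls_localSubring (F := rtk6c4K K S) 𝔫') : rtk6c4K K S) : F) ∈ W₁.nonunits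
    rw [Subring.coe_mul]
    show ((ε₁ : rtk6c4K K S) : F) * ((X₁ : rtk6c4K K S) : F) ∈ W₁.nonunits
    refine rtk6glu_mul_mem_nonunits W₁ (hOV₁ ε₁) ?_
    rw [hX₁F]
    exact hX₁
  have hy₂W : y₂ ∈ W₂.nonunits := by
    apply rtk6c4_mem_nonunits_of_pow W₂ (d := d)
    rw [hy]
    show (((ε₂ * Y₁ : ls_localSubring (F := rtk6c4K K S) 𝔫') : rtk6c4K K S) : F) ∈ W₂.nonunits
    rw [Subring.coe_mul]
    show ((ε₂ : rtk6c4K K S) : F) * ((Y₁ : rtk6c4K K S) : F) ∈ W₂.nonunits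
    refine rtk6glu_mul_mem_nonunits W₂ (hOV₂ ε₂) ?_
    rw [hY₁F]
    exact hY₂
  refine ⟨X, Y, j' (u₁ * u₂), ϖ, hϖι, ?_, ?_, ?_, ?_, hXm, hYm, ?_, ?_⟩
  · rw [map_mul]
    exact fun hh => (h𝔫.isPrime.mem_or_mem hh).elim hu₁ hu₂
  · apply h.hι
    simp only [map_mul]
    rw [hXι, hYι, hϖι, ← hxy]
    ring
  · rw [hXι]
    exact rtk6glu_mul_mem_nonunits W₁ (hBW₁ _) hx₂W
  · rw [hYι]
    exact rtk6glu_mul_mem_nonunits W₂ (hBW₂ _) hy₂W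
  · exact hgenXY.mono (Set.subset_insert _ _)
  · -- C4+
    intro Φ hΦB hΦK hΦS α β hα hβ hΦϖ hΦy
    have hΦK' : ∀ x : rtk6c4K K S, Φ ((x : F)) = (x : F) := fun x =>
      rtk6c4_fix_adjoin_hom S Φ hΦK hΦS (x : F) x.2
    have hΦR : ∀ r : rtk6c4R R₀ K S, Φ (ι (j' r)) = ι (j' r) := fun r => by
      rw [hj'ι]
      exact hΦK' _
    have hy₂0 : y₂ ≠ 0 := by
      intro h0
      have h1 : algebraMap (rtk6c4K K S) F
          (((ε₂ * Y₁ : ls_localSubring (F := rtk6c4K K S) 𝔫') : rtk6c4K K S)) = 0 := by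
        rw [← hy, h0, zero_pow hd0]
      have h2 : ((ε₂ * Y₁ : ls_localSubring (F := rtk6c4K K S) 𝔫') : rtk6c4K K S) = 0 :=
        (map_eq_zero _).1 h1
      have h3 : ε₂ * Y₁ = 0 := Subtype.ext h2
      rcases mul_eq_zero.1 h3 with h4 | h4
      · exact hε₂.ne_zero h4
      · exact hY₁ne h4
    have hβ0 : algebraMap R₀ F β ≠ 0 := by
      intro h0
      have : β = 0 := h.algebraMap_injective (by rw [h0, map_zero])
      exact hβ.ne_zero this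
    have hΦy₂ : Φ y₂ = algebraMap R₀ F β ^ a * y₂ := by
      rw [hy₂def, map_div₀, map_zpow₀, map_zpow₀, map_div₀, hΦy]
      have e1 : Φ (algebraMap (rtk6c4K K S) F γ') = algebraMap (rtk6c4K K S) F γ' := hΦK' γ'
      have e2 : Φ (algebraMap (rtk6c4K K S) F (Y₁ : rtk6c4K K S)) =
          algebraMap (rtk6c4K K S) F (Y₁ : rtk6c4K K S) := hΦK' _
      rw [e1, e2, mul_div_assoc, mul_zpow, mul_div_assoc]
    have hx₂eq : x₂ = ϖ₁ / y₂ := by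
      rw [← hxy]
      field_simp
    have hΦx₂ : Φ x₂ = algebraMap R₀ F α * (algebraMap R₀ F β ^ a)⁻¹ * x₂ := by
      rw [hx₂eq, map_div₀, hΦϖ, hΦy₂]
      have : algebraMap R₀ F β ^ a ≠ 0 := zpow_ne_zero _ hβ0
      field_simp
    set a' : R₀ := ((hα.unit * hβ.unit ^ (-a) : R₀ˣ) : R₀) with ha'def
    set b' : R₀ := ((hβ.unit ^ a : R₀ˣ) : R₀) with hb'def
    have ha'F : algebraMap R₀ F a' = algebraMap R₀ F α * (algebraMap R₀ F β ^ a)⁻¹ := by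
      rw [ha'def, Units.val_mul, map_mul, rtk6c4_unit_zpow hβ (-a), zpow_neg, IsUnit.unit_spec]
    have hb'F : algebraMap R₀ F b' = algebraMap R₀ F β ^ a := rtk6c4_unit_zpow hβ a
    have hcoeR : ∀ r : R₀, algebraMap (rtk6c4K K S) F
        (algebraMap (rtk6c4R R₀ K S) (rtk6c4K K S) (algebraMap R₀ (rtk6c4R R₀ K S) r)) =
        algebraMap R₀ F r := fun r => hcoe r
    have hΦx₂' : Φ x₂ = algebraMap (rtk6c4K K S) F
        (algebraMap (rtk6c4R R₀ K S) (rtk6c4K K S) (algebraMap R₀ (rtk6c4R R₀ K S) a')) * x₂ := by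
      rw [hcoeR, ha'F]
      exact hΦx₂
    have hΦy₂' : Φ y₂ = algebraMap (rtk6c4K K S) F
        (algebraMap (rtk6c4R R₀ K S) (rtk6c4K K S) (algebraMap R₀ (rtk6c4R R₀ K S) b')) * y₂ := by
      rw [hcoeR, hb'F]
      exact hΦy₂
    refine ⟨⟨?_, ?_⟩, fun z => ?_⟩
    · rw [hXι, map_mul, hΦR, hΦx₂, h.hjι, ha'F]
      ring
    · rw [hYι, map_mul, hΦR, hΦy₂, h.hjι, hb'F]
      ring
    · exact rtk6gf_ls_cong (K := rtk6c4K K S) (L := F) (R := rtk6c4R R₀ K S) (B := B) 𝔫' hd' hζ''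
        (Or.inl hX₁prime) (Or.inl ⟨hY₁prime, hYX⟩) hm hε₁ hε₂ hx hy s₁ s₂ h11 h12 h21 h22 hgen₂
        j' ι h.hι (rtk6c4J_hjι (K := K) ι h.hι h.hcl S) 𝔫 (fun u => Iff.rfl)
        (rtk6c4_isIntegralElem (K := K) ι h.hι h.hcl S h.hint)
        (rtk6c4_hcl (K := K) ι h.hι h.hcl S) Φ hΦB hΦR
        (rtk6gf_ls_integral (K := rtk6c4K K S) (L := F) 𝔫' (algebraMap R₀ (rtk6c4R R₀ K S) a'))
        (rtk6gf_ls_integral (K := rtk6c4K K S) (L := F) 𝔫' (algebraMap R₀ (rtk6c4R R₀ K S) b'))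
        hΦx₂' hΦy₂' z

/-- **C4-X, abstract: the crossing point of the top chart** (two exponents; the multipliers of
`X`, `Y` as units of `R₀`, without their explicit form). -/
theorem rtk6c4_crossE (h : Rtk6c4CrossE j ι 𝔫 d dS ζ p X₀ Y₀ w S ϖ₁ y γ e₁ e₂ n₀ a b σ δ)
    [h𝔫 : 𝔫.IsMaximal]
    (W₁ W₂ : ValuationSubring F) (hBW₁ : ∀ z, ι z ∈ W₁) (hBW₂ : ∀ z, ι z ∈ W₂)
    (hthr₁ : ∀ z : B, ι z ∈ W₁.nonunits → z ∈ 𝔫) (hthr₂ : ∀ z : B, ι z ∈ W₂.nonunits → z ∈ 𝔫)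
    (hX₁ : ι (j X₀) ∈ W₁.nonunits) (hY₁ : ι (j Y₀) ∉ W₁.nonunits)
    (hY₂ : ι (j Y₀) ∈ W₂.nonunits) (hX₂ : ι (j X₀) ∉ W₂.nonunits) :
    ∃ (X Y w' ϖ : B), ι ϖ = ϖ₁ ∧ w' ∉ 𝔫 ∧ w' * ϖ = X * Y ∧ ι X ∈ W₁.nonunits ∧
      ι Y ∈ W₂.nonunits ∧ X ∈ 𝔫 ∧ Y ∈ 𝔫 ∧ NodesLocGen 𝔫 {ϖ, X, Y} ∧
      ∀ Φ : F →+* F, (∀ z : B, ∃ z' : B, Φ (ι z) = ι z') →
        (∀ k : K, Φ (algebraMap K F k) = algebraMap K F k) → (∀ t ∈ S, Φ t = t) →
        ∀ α β : R₀, IsUnit α → IsUnit β → Φ ϖ₁ = algebraMap R₀ F α * ϖ₁ →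
          Φ y = algebraMap R₀ F β * y →
          (∃ a' b' : R₀, IsUnit a' ∧ IsUnit b' ∧ Φ (ι X) = ι (j a') * ι X ∧
            Φ (ι Y) = ι (j b') * ι Y) ∧
          ∀ z : B, ∃ c ∈ 𝔫, Φ (ι z) = ι z + ι c := by
  obtain ⟨X, Y, w', ϖ, hϖ, hw', hXY, hXW, hYW, hXm, hYm, hgen, hC⟩ :=
    rtk6c4_crossE_ex h W₁ W₂ hBW₁ hBW₂ hthr₁ hthr₂ hX₁ hY₁ hY₂ hX₂
  refine ⟨X, Y, w', ϖ, hϖ, hw', hXY, hXW, hYW, hXm, hYm, hgen, ?_⟩
  intro Φ hΦB hΦK hΦS α β hα hβ hΦϖ hΦy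
  obtain ⟨⟨hX', hY'⟩, hcong⟩ := hC Φ hΦB hΦK hΦS α β hα hβ hΦϖ hΦy
  exact ⟨⟨_, _, Units.isUnit _, Units.isUnit _, hX', hY'⟩, hcong⟩

/-! ### the case of ONE exponent (`dS = d`) -/

namespace Rtk6c4Cross

variable (h : Rtk6c4Cross j ι 𝔫 d ζ p X₀ Y₀ w S ϖ₁ y γ e₁ e₂ n₀ a b σ δ)

include h

omit [CharZero K] [IsIntegrallyClosed R₀] [IsNoetherianRing R₀] in
theorem d_ne_zero : d ≠ 0 := h.toE.d_ne_zero

omit [CharZero K] [IsIntegrallyClosed R₀] [IsNoetherianRing R₀] in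
theorem ne_zero_of_not_mem {r : R₀} (hr : j r ∉ 𝔫) : r ≠ 0 := h.toE.ne_zero_of_not_mem hr

omit [CharZero K] [IsIntegrallyClosed R₀] [IsNoetherianRing R₀] in
theorem algebraMap_injective : Function.Injective (algebraMap R₀ F) :=
  h.toE.algebraMap_injective

omit [CharZero K] [IsIntegrallyClosed R₀] [IsNoetherianRing R₀] in
theorem algebraMap_ne_zero {r : R₀} (hr : j r ∉ 𝔫) : algebraMap R₀ F r ≠ 0 :=
  h.toE.algebraMap_ne_zero hr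

omit [CharZero K] [IsIntegrallyClosed R₀] [IsNoetherianRing R₀] in
theorem isIntegral_S : ∀ t ∈ S, IsIntegral K t := h.toE.isIntegral_S

omit [CharZero K] [IsIntegrallyClosed R₀] [IsNoetherianRing R₀] in
theorem finiteDimensional : FiniteDimensional K (rtk6c4K K S) := h.toE.finiteDimensional

omit [CharZero K] [IsIntegrallyClosed R₀] [IsNoetherianRing R₀] in
theorem j_isIntegral : j.IsIntegral := h.toE.j_isIntegral

omit [CharZero K] [IsIntegrallyClosed R₀] [IsNoetherianRing R₀] in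
theorem exists_unif : ∃ ϖ : B, ι ϖ = ϖ₁ := h.toE.exists_unif

end Rtk6c4Cross

/-- **C4-X, abstract: the crossing point of the top chart** (one exponent). -/
theorem rtk6c4_cross (h : Rtk6c4Cross j ι 𝔫 d ζ p X₀ Y₀ w S ϖ₁ y γ e₁ e₂ n₀ a b σ δ)
    [h𝔫 : 𝔫.IsMaximal]
    (W₁ W₂ : ValuationSubring F) (hBW₁ : ∀ z, ι z ∈ W₁) (hBW₂ : ∀ z, ι z ∈ W₂)
    (hthr₁ : ∀ z : B, ι z ∈ W₁.nonunits → z ∈ 𝔫) (hthr₂ : ∀ z : B, ι z ∈ W₂.nonunits → z ∈ 𝔫)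
    (hX₁ : ι (j X₀) ∈ W₁.nonunits) (hY₁ : ι (j Y₀) ∉ W₁.nonunits)
    (hY₂ : ι (j Y₀) ∈ W₂.nonunits) (hX₂ : ι (j X₀) ∉ W₂.nonunits) :
    ∃ (X Y w' ϖ : B), ι ϖ = ϖ₁ ∧ w' ∉ 𝔫 ∧ w' * ϖ = X * Y ∧ ι X ∈ W₁.nonunits ∧
      ι Y ∈ W₂.nonunits ∧ X ∈ 𝔫 ∧ Y ∈ 𝔫 ∧ NodesLocGen 𝔫 {ϖ, X, Y} ∧
      ∀ Φ : F →+* F, (∀ z : B, ∃ z' : B, Φ (ι z) = ι z') →
        (∀ k : K, Φ (algebraMap K F k) = algebraMap K F k) → (∀ t ∈ S, Φ t = t) →
        ∀ α β : R₀, IsUnit α → IsUnit β → Φ ϖ₁ = algebraMap R₀ F α * ϖ₁ →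
          Φ y = algebraMap R₀ F β * y →
          (∃ a' b' : R₀, IsUnit a' ∧ IsUnit b' ∧ Φ (ι X) = ι (j a') * ι X ∧
            Φ (ι Y) = ι (j b') * ι Y) ∧
          ∀ z : B, ∃ c ∈ 𝔫, Φ (ι z) = ι z + ι c :=
  rtk6c4_crossE h.toE W₁ W₂ hBW₁ hBW₂ hthr₁ hthr₂ hX₁ hY₁ hY₂ hX₂

end Cross

end Fermat.Agent.RT.K6
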