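/-
K-machine, piece K6, piece D-GL(c) (helper94), part 2: `Rtk6ewFix g 𝔫` and `Rtk6ewCong Φ 1 𝔫`
(`EWCross.lean`, the hypotheses `hfix`, `hcong` of `rtk6ew_main_two`) at the crossing points.

The chart is `B = zchClosure {u} ⊆ F`, `𝔫 : AtPt π u` a closed point of its special fibre, and
the local data are those of `rtk6gl_cross_tkc` (TKC on the chart): `O` the (normal, local) local
ring of the base chart `R` at `𝔫 ∩ R`, `𝔪 = (X₀, Y₀)`, `F = K(x₂, y₂)`, `x₂ ^ d = ε₁ X₀`,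
`y₂ ^ d = ε₂ Y₀`.  A semilinear automorphism `g` of `F` with `g • u = u`, preserving `A₀`, which is
the identity on `O` and multiplies `x₂`, `y₂` by units of `O` fixes `𝔫` and is the identity on
its residue field:

* `rtk6gf_ew_cong`     : `Rtk6ewCong Φ' 1 𝔫` (`Φ' x = g • x`);
* `rtk6gf_ew_fix`      : `Rtk6ewFix g 𝔫`;
* `rtk6gf_ew_crossFrob`: `StbCrossFrob g 1 𝔫`.
Generic forms (any `ι`, hypotheses on `g` and `g⁻¹` separately): `rtk6gf_ew_cong_gen`,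
`rtk6gf_ew_fix_gen`.

The same at `O = ls_localSubring 𝔫₀ = R_𝔫₀` (the setting of `rtk6gls_cross`, only chart-level
hypotheses; `g` fixes the base chart `R` and multiplies `x₂`, `y₂` by elements of `R ∖ 𝔫₀`):
`rtk6gf_ew_ls_cong`, `rtk6gf_ew_ls_fix`, `rtk6gf_ew_ls_crossFrob`.
-/
import Fermat.Agent.RT.K6.DGLFix
import Fermat.Agent.RT.K6.DGLFixLs
import Fermat.Agent.RT.K6.EWCross

set_option autoImplicit false
set_option linter.style.haveILetI false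
set_option linter.unusedSectionVars false
set_option linter.unusedVariables false

namespace Fermat.Agent.RT.K6

open Polynomial IntermediateField Fermat.Agent.INJ AlgebraicCurve Fermat.Agent.UNIP
  Fermat.Agent.STB

section EW

variable {A₀ E F : Type*} [CommRing A₀] [IsDomain A₀] [IsDiscreteValuationRing A₀]
  [Field E] [Algebra A₀ E] [IsFractionRing A₀ E] [CharZero E]
  [Field F] [Algebra E F] [Algebra A₀ F] [IsScalarTower A₀ E F]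
  {π : A₀}

/-- a semilinear automorphism fixing `u` and preserving `A₀` preserves the chart `B_u` -/
theorem rtk6gf_ew_preserves (g : SemilinearAut E F) {u : F} (hgu : g • u = u)
    (hgA : ∀ α : A₀, ∃ α' : A₀, g • algebraMap A₀ F α = algebraMap A₀ F α')
    (b : ↥(zchClosure (A₀ := A₀) ({u} : Set F))) :
    ∃ b' : ↥(zchClosure (A₀ := A₀) ({u} : Set F)), g • (b : F) = (b' : F) :=
  ⟨⟨g • (b : F), mem_zchClosure.mpr (stb_mt_isIntegral_smul g hgu hgA (mem_zchClosure.mp b.2))⟩,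
    rfl⟩

/-- `g • u = u` ⇒ `g⁻¹ • u = u` -/
theorem rtk6gf_inv_smul_of_smul (g : SemilinearAut E F) {u : F} (hgu : g • u = u) :
    g⁻¹ • u = u := by
  conv_lhs => rw [← hgu]
  rw [inv_smul_smul]

/-- `g • x = a x`, `g • a = a`, `a ≠ 0` ⇒ `g⁻¹ • x = a⁻¹ x` -/
theorem rtk6gf_inv_smul_of_mul (g : SemilinearAut E F) {a x : F} (hga : g • a = a)
    (hgx : g • x = a * x) (ha : a ≠ 0) : g⁻¹ • x = a⁻¹ * x := by
  have h1 : g⁻¹ • (a * x) = x := by rw [← hgx, inv_smul_smul]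
  rw [smul_mul', rtk6gf_inv_smul_of_smul g hga] at h1
  have h2 : g⁻¹ • x = a⁻¹ * (a * g⁻¹ • x) := by
    rw [← mul_assoc, inv_mul_cancel₀ ha, one_mul]
  rw [h2, h1]

/-- **`Rtk6ewCong Φ' 1 𝔫` at a crossing point**, generic form. -/
theorem rtk6gf_ew_cong_gen {O K R : Type*} [CommRing O] [IsDomain O] [IsIntegrallyClosed O]
    [Field K] [Algebra O K] [IsFractionRing O K] [Algebra K F] [Algebra O F]
    [IsScalarTower O K F] [IsLocalRing O] [CommRing R]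
    {d : ℕ} (hd : IsUnit (d : O)) {ζ : O}
    (hζ : IsPrimitiveRoot ζ d)
    {X₀ Y₀ : O} (hX : Prime X₀ ∨ IsUnit X₀) (hY : (Prime Y₀ ∧ ¬ Y₀ ∣ X₀) ∨ IsUnit Y₀)
    (hm : IsLocalRing.maximalIdeal O = Ideal.span {X₀, Y₀})
    {ε₁ ε₂ : O} (hε₁ : IsUnit ε₁) (hε₂ : IsUnit ε₂) {x₂ y₂ : F}
    (hx : x₂ ^ d = algebraMap O F (ε₁ * X₀)) (hy : y₂ ^ d = algebraMap O F (ε₂ * Y₀))
    (s₁ s₂ : F ≃ₐ[K] F) (h11 : s₁ x₂ = algebraMap O K ζ • x₂) (h12 : s₁ y₂ = y₂)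
    (h21 : s₂ x₂ = x₂) (h22 : s₂ y₂ = algebraMap O K ζ • y₂)
    (hgen : Algebra.adjoin K ({x₂, y₂} : Set F) = ⊤)
    {u : F} (𝔫 : AtPt (F := F) π u)
    (j : R →+* ↥(zchClosure (A₀ := A₀) ({u} : Set F)))
    (ι : ↥(zchClosure (A₀ := A₀) ({u} : Set F)) →+* F) (hιv : ∀ b, ι b = (b : F))
    (φ : R →+* O) (hφ : ∀ r, algebraMap O F (φ r) = ι (j r))
    (hO2 : ∀ o : O, ∃ u r : R, j u ∉ 𝔫.1 ∧ φ u * o = φ r)
    (hO3 : ∀ u : R, j u ∉ 𝔫.1 → IsUnit (φ u))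
    (hint : ∀ b : ↥(zchClosure (A₀ := A₀) ({u} : Set F)), j.IsIntegralElem b)
    (hcl : ∀ x : F, (ι.comp j).IsIntegralElem x → ∃ b, ι b = x)
    (Φ : F →+* F)
    (hΦB : ∀ b : ↥(zchClosure (A₀ := A₀) ({u} : Set F)),
      ∃ b' : ↥(zchClosure (A₀ := A₀) ({u} : Set F)), Φ (b : F) = (b' : F))
    (hΦO : ∀ o : O, rtk6gfIn O x₂ y₂ (Φ (algebraMap O F o) - algebraMap O F o))
    {a b : F} (ha : IsIntegral O a) (hb : IsIntegral O b) (hΦx : Φ x₂ = a * x₂)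
    (hΦy : Φ y₂ = b * y₂) :
    Rtk6ewCong Φ 1 𝔫 := by
  haveI : 𝔫.1.IsMaximal := 𝔫.2.1
  have hι : Function.Injective ι := by
    intro b b' h
    rw [hιv, hιv] at h
    exact Subtype.ext h
  intro z
  obtain ⟨c, hc, h⟩ := rtk6gf_cong_tkc (K := K) hd hζ hX hY hm hε₁ hε₂ hx hy s₁ s₂ h11 h12 h21
    h22 hgen j ι hι 𝔫.1 φ hφ hO2 hO3 hint hcl Φ
    (fun b => by
      obtain ⟨b', hb'⟩ := hΦB b
      exact ⟨b', by rw [hιv, hιv, hb']⟩)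
    hΦO ha hb hΦx hΦy z
  refine ⟨c, hc, ?_⟩
  rw [hιv, hιv] at h
  rw [h, pow_one]

/-- **`Φ 𝔫 ⊆ 𝔫` at a crossing point**, generic form. -/
theorem rtk6gf_ew_fix_gen {O K R : Type*} [CommRing O] [IsDomain O] [IsIntegrallyClosed O]
    [Field K] [Algebra O K] [IsFractionRing O K] [Algebra K F] [Algebra O F]
    [IsScalarTower O K F] [IsLocalRing O] [CommRing R]
    {d : ℕ} (hd : IsUnit (d : O)) {ζ : O}
    (hζ : IsPrimitiveRoot ζ d)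
    {X₀ Y₀ : O} (hX : Prime X₀ ∨ IsUnit X₀) (hY : (Prime Y₀ ∧ ¬ Y₀ ∣ X₀) ∨ IsUnit Y₀)
    (hm : IsLocalRing.maximalIdeal O = Ideal.span {X₀, Y₀})
    {ε₁ ε₂ : O} (hε₁ : IsUnit ε₁) (hε₂ : IsUnit ε₂) {x₂ y₂ : F}
    (hx : x₂ ^ d = algebraMap O F (ε₁ * X₀)) (hy : y₂ ^ d = algebraMap O F (ε₂ * Y₀))
    (s₁ s₂ : F ≃ₐ[K] F) (h11 : s₁ x₂ = algebraMap O K ζ • x₂) (h12 : s₁ y₂ = y₂)
    (h21 : s₂ x₂ = x₂) (h22 : s₂ y₂ = algebraMap O K ζ • y₂)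
    (hgen : Algebra.adjoin K ({x₂, y₂} : Set F) = ⊤)
    {u : F} (𝔫 : AtPt (F := F) π u)
    (j : R →+* ↥(zchClosure (A₀ := A₀) ({u} : Set F)))
    (ι : ↥(zchClosure (A₀ := A₀) ({u} : Set F)) →+* F) (hιv : ∀ b, ι b = (b : F))
    (φ : R →+* O) (hφ : ∀ r, algebraMap O F (φ r) = ι (j r))
    (hO2 : ∀ o : O, ∃ u r : R, j u ∉ 𝔫.1 ∧ φ u * o = φ r)
    (hO3 : ∀ u : R, j u ∉ 𝔫.1 → IsUnit (φ u))
    (hint : ∀ b : ↥(zchClosure (A₀ := A₀) ({u} : Set F)), j.IsIntegralElem b)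
    (hcl : ∀ x : F, (ι.comp j).IsIntegralElem x → ∃ b, ι b = x)
    (Φ : F →+* F)
    (hΦB : ∀ b : ↥(zchClosure (A₀ := A₀) ({u} : Set F)),
      ∃ b' : ↥(zchClosure (A₀ := A₀) ({u} : Set F)), Φ (b : F) = (b' : F))
    (hΦO : ∀ o : O, rtk6gfIn O x₂ y₂ (Φ (algebraMap O F o) - algebraMap O F o))
    {a b : F} (ha : IsIntegral O a) (hb : IsIntegral O b) (hΦx : Φ x₂ = a * x₂)
    (hΦy : Φ y₂ = b * y₂)
    (z : ↥(zchClosure (A₀ := A₀) ({u} : Set F))) (hz : z ∈ 𝔫.1) :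
    ∃ z' : ↥(zchClosure (A₀ := A₀) ({u} : Set F)), z' ∈ 𝔫.1 ∧ Φ (z : F) = (z' : F) := by
  obtain ⟨c, hc, h⟩ := rtk6gf_ew_cong_gen (K := K) hd hζ hX hY hm hε₁ hε₂ hx hy s₁ s₂ h11 h12
    h21 h22 hgen 𝔫 j ι hιv φ hφ hO2 hO3 hint hcl Φ hΦB hΦO ha hb hΦx hΦy z
  refine ⟨z + c, 𝔫.1.add_mem hz hc, ?_⟩
  rw [h, pow_one]
  rfl

/-- **`Rtk6ewCong Φ' 1 𝔫` at a crossing point** for a semilinear automorphism `g` of `F` with
`g • u = u`, preserving `A₀`, which is the identity on `O` and multiplies `x₂`, `y₂` by elements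
of `O`. -/
theorem rtk6gf_ew_cong {O K R : Type*} [CommRing O] [IsDomain O] [IsIntegrallyClosed O]
    [Field K] [Algebra O K] [IsFractionRing O K] [Algebra K F] [Algebra O F]
    [IsScalarTower O K F] [IsLocalRing O] [CommRing R]
    {d : ℕ} (hd : IsUnit (d : O)) {ζ : O}
    (hζ : IsPrimitiveRoot ζ d)
    {X₀ Y₀ : O} (hX : Prime X₀ ∨ IsUnit X₀) (hY : (Prime Y₀ ∧ ¬ Y₀ ∣ X₀) ∨ IsUnit Y₀)
    (hm : IsLocalRing.maximalIdeal O = Ideal.span {X₀, Y₀})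
    {ε₁ ε₂ : O} (hε₁ : IsUnit ε₁) (hε₂ : IsUnit ε₂) {x₂ y₂ : F}
    (hx : x₂ ^ d = algebraMap O F (ε₁ * X₀)) (hy : y₂ ^ d = algebraMap O F (ε₂ * Y₀))
    (s₁ s₂ : F ≃ₐ[K] F) (h11 : s₁ x₂ = algebraMap O K ζ • x₂) (h12 : s₁ y₂ = y₂)
    (h21 : s₂ x₂ = x₂) (h22 : s₂ y₂ = algebraMap O K ζ • y₂)
    (hgen : Algebra.adjoin K ({x₂, y₂} : Set F) = ⊤)
    {u : F} (𝔫 : AtPt (F := F) π u)
    (j : R →+* ↥(zchClosure (A₀ := A₀) ({u} : Set F)))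
    (ι : ↥(zchClosure (A₀ := A₀) ({u} : Set F)) →+* F) (hιv : ∀ b, ι b = (b : F))
    (φ : R →+* O) (hφ : ∀ r, algebraMap O F (φ r) = ι (j r))
    (hO2 : ∀ o : O, ∃ u r : R, j u ∉ 𝔫.1 ∧ φ u * o = φ r)
    (hO3 : ∀ u : R, j u ∉ 𝔫.1 → IsUnit (φ u))
    (hint : ∀ b : ↥(zchClosure (A₀ := A₀) ({u} : Set F)), j.IsIntegralElem b)
    (hcl : ∀ x : F, (ι.comp j).IsIntegralElem x → ∃ b, ι b = x)
    (g : SemilinearAut E F) (hgu : g • u = u)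
    (hgA : ∀ α : A₀, ∃ α' : A₀, g • algebraMap A₀ F α = algebraMap A₀ F α')
    (hgO : ∀ o : O, g • algebraMap O F o = algebraMap O F o)
    {α β : O} (hgx : g • x₂ = algebraMap O F α * x₂) (hgy : g • y₂ = algebraMap O F β * y₂)
    (Φ' : F →+* F) (hΦ' : ∀ x : F, Φ' x = g • x) :
    Rtk6ewCong Φ' 1 𝔫 :=
  rtk6gf_ew_cong_gen (K := K) hd hζ hX hY hm hε₁ hε₂ hx hy s₁ s₂ h11 h12 h21 h22 hgen 𝔫 j ι hιv
    φ hφ hO2 hO3 hint hcl Φ'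
    (fun b => by
      obtain ⟨b', hb'⟩ := rtk6gf_ew_preserves g hgu hgA b
      exact ⟨b', by rw [hΦ', hb']⟩)
    (fun o => by
      rw [hΦ', hgO o, sub_self]
      exact rtk6gfIn_zero)
    (isIntegral_algebraMap (x := α)) (isIntegral_algebraMap (x := β))
    (by rw [hΦ', hgx]) (by rw [hΦ', hgy])

/-- **`Rtk6ewFix g 𝔫` at a crossing point** for a semilinear automorphism `g` of `F` with
`g • u = u`, `g` and `g⁻¹` preserving `A₀`, which is the identity on `O` and multiplies `x₂`,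
`y₂` by units of `O`. -/
theorem rtk6gf_ew_fix {O K R : Type*} [CommRing O] [IsDomain O] [IsIntegrallyClosed O]
    [Field K] [Algebra O K] [IsFractionRing O K] [Algebra K F] [Algebra O F]
    [IsScalarTower O K F] [IsLocalRing O] [CommRing R]
    {d : ℕ} (hd : IsUnit (d : O)) {ζ : O}
    (hζ : IsPrimitiveRoot ζ d)
    {X₀ Y₀ : O} (hX : Prime X₀ ∨ IsUnit X₀) (hY : (Prime Y₀ ∧ ¬ Y₀ ∣ X₀) ∨ IsUnit Y₀)
    (hm : IsLocalRing.maximalIdeal O = Ideal.span {X₀, Y₀})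
    {ε₁ ε₂ : O} (hε₁ : IsUnit ε₁) (hε₂ : IsUnit ε₂) {x₂ y₂ : F}
    (hx : x₂ ^ d = algebraMap O F (ε₁ * X₀)) (hy : y₂ ^ d = algebraMap O F (ε₂ * Y₀))
    (s₁ s₂ : F ≃ₐ[K] F) (h11 : s₁ x₂ = algebraMap O K ζ • x₂) (h12 : s₁ y₂ = y₂)
    (h21 : s₂ x₂ = x₂) (h22 : s₂ y₂ = algebraMap O K ζ • y₂)
    (hgen : Algebra.adjoin K ({x₂, y₂} : Set F) = ⊤)
    {u : F} (𝔫 : AtPt (F := F) π u)
    (j : R →+* ↥(zchClosure (A₀ := A₀) ({u} : Set F)))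
    (ι : ↥(zchClosure (A₀ := A₀) ({u} : Set F)) →+* F) (hιv : ∀ b, ι b = (b : F))
    (φ : R →+* O) (hφ : ∀ r, algebraMap O F (φ r) = ι (j r))
    (hO2 : ∀ o : O, ∃ u r : R, j u ∉ 𝔫.1 ∧ φ u * o = φ r)
    (hO3 : ∀ u : R, j u ∉ 𝔫.1 → IsUnit (φ u))
    (hint : ∀ b : ↥(zchClosure (A₀ := A₀) ({u} : Set F)), j.IsIntegralElem b)
    (hcl : ∀ x : F, (ι.comp j).IsIntegralElem x → ∃ b, ι b = x)
    (g : SemilinearAut E F) (hgu : g • u = u)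
    (hgA : ∀ α : A₀, ∃ α' : A₀, g • algebraMap A₀ F α = algebraMap A₀ F α')
    (hgA' : ∀ α : A₀, ∃ α' : A₀, g⁻¹ • algebraMap A₀ F α = algebraMap A₀ F α')
    (hgO : ∀ o : O, g • algebraMap O F o = algebraMap O F o)
    {α β : O} (hα : IsUnit α) (hβ : IsUnit β)
    (hgx : g • x₂ = algebraMap O F α * x₂) (hgy : g • y₂ = algebraMap O F β * y₂) :
    Rtk6ewFix g 𝔫 := by
  have hgO' : ∀ o : O, g⁻¹ • algebraMap O F o = algebraMap O F o := fun o =>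
    rtk6gf_inv_smul_of_smul g (hgO o)
  have hne : ∀ {γ : O}, IsUnit γ → algebraMap O F γ ≠ 0 := fun hγ =>
    (hγ.map (algebraMap O F)).ne_zero
  have hinv : ∀ {γ : O} (hγ : IsUnit γ),
      (algebraMap O F γ)⁻¹ = algebraMap O F (↑(hγ.unit⁻¹) : O) := by
    intro γ hγ
    have h1 : algebraMap O F γ * algebraMap O F (↑(hγ.unit⁻¹) : O) = 1 := by
      rw [← map_mul, IsUnit.mul_val_inv, map_one]
    exact inv_eq_of_mul_eq_one_right h1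
  have hgx' : g⁻¹ • x₂ = algebraMap O F (↑(hα.unit⁻¹) : O) * x₂ := by
    rw [← hinv hα]
    exact rtk6gf_inv_smul_of_mul g (hgO α) hgx (hne hα)
  have hgy' : g⁻¹ • y₂ = algebraMap O F (↑(hβ.unit⁻¹) : O) * y₂ := by
    rw [← hinv hβ]
    exact rtk6gf_inv_smul_of_mul g (hgO β) hgy (hne hβ)
  refine ⟨fun z hz => ?_, fun z hz => ?_⟩
  · exact rtk6gf_ew_fix_gen (K := K) hd hζ hX hY hm hε₁ hε₂ hx hy s₁ s₂ h11 h12 h21 h22 hgen 𝔫 j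
      ι hιv φ hφ hO2 hO3 hint hcl (SemilinearAut.toRingAut g : F ≃+* F).toRingHom
      (fun b => rtk6gf_ew_preserves g hgu hgA b)
      (fun o => by
        show rtk6gfIn O x₂ y₂ (g • algebraMap O F o - algebraMap O F o)
        rw [hgO o, sub_self]
        exact rtk6gfIn_zero)
      (isIntegral_algebraMap (x := α)) (isIntegral_algebraMap (x := β)) hgx hgy z hz
  · exact rtk6gf_ew_fix_gen (K := K) hd hζ hX hY hm hε₁ hε₂ hx hy s₁ s₂ h11 h12 h21 h22 hgen 𝔫 j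
      ι hιv φ hφ hO2 hO3 hint hcl (SemilinearAut.toRingAut g⁻¹ : F ≃+* F).toRingHom
      (fun b => rtk6gf_ew_preserves g⁻¹ (rtk6gf_inv_smul_of_smul g hgu) hgA' b)
      (fun o => by
        show rtk6gfIn O x₂ y₂ (g⁻¹ • algebraMap O F o - algebraMap O F o)
        rw [hgO' o, sub_self]
        exact rtk6gfIn_zero)
      (isIntegral_algebraMap (x := (↑(hα.unit⁻¹) : O)))
      (isIntegral_algebraMap (x := (↑(hβ.unit⁻¹) : O))) hgx' hgy' z hz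

/-- **`StbCrossFrob g 1 𝔫` at a crossing point.** -/
theorem rtk6gf_ew_crossFrob {O K R : Type*} [CommRing O] [IsDomain O] [IsIntegrallyClosed O]
    [Field K] [Algebra O K] [IsFractionRing O K] [Algebra K F] [Algebra O F]
    [IsScalarTower O K F] [IsLocalRing O] [CommRing R]
    {d : ℕ} (hd : IsUnit (d : O)) {ζ : O}
    (hζ : IsPrimitiveRoot ζ d)
    {X₀ Y₀ : O} (hX : Prime X₀ ∨ IsUnit X₀) (hY : (Prime Y₀ ∧ ¬ Y₀ ∣ X₀) ∨ IsUnit Y₀)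
    (hm : IsLocalRing.maximalIdeal O = Ideal.span {X₀, Y₀})
    {ε₁ ε₂ : O} (hε₁ : IsUnit ε₁) (hε₂ : IsUnit ε₂) {x₂ y₂ : F}
    (hx : x₂ ^ d = algebraMap O F (ε₁ * X₀)) (hy : y₂ ^ d = algebraMap O F (ε₂ * Y₀))
    (s₁ s₂ : F ≃ₐ[K] F) (h11 : s₁ x₂ = algebraMap O K ζ • x₂) (h12 : s₁ y₂ = y₂)
    (h21 : s₂ x₂ = x₂) (h22 : s₂ y₂ = algebraMap O K ζ • y₂)
    (hgen : Algebra.adjoin K ({x₂, y₂} : Set F) = ⊤)
    {u : F} (𝔫 : AtPt (F := F) π u)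
    (j : R →+* ↥(zchClosure (A₀ := A₀) ({u} : Set F)))
    (ι : ↥(zchClosure (A₀ := A₀) ({u} : Set F)) →+* F) (hιv : ∀ b, ι b = (b : F))
    (φ : R →+* O) (hφ : ∀ r, algebraMap O F (φ r) = ι (j r))
    (hO2 : ∀ o : O, ∃ u r : R, j u ∉ 𝔫.1 ∧ φ u * o = φ r)
    (hO3 : ∀ u : R, j u ∉ 𝔫.1 → IsUnit (φ u))
    (hint : ∀ b : ↥(zchClosure (A₀ := A₀) ({u} : Set F)), j.IsIntegralElem b)
    (hcl : ∀ x : F, (ι.comp j).IsIntegralElem x → ∃ b, ι b = x)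
    (g : SemilinearAut E F) (hgu : g • u = u)
    (hgA : ∀ α : A₀, ∃ α' : A₀, g • algebraMap A₀ F α = algebraMap A₀ F α')
    (hgA' : ∀ α : A₀, ∃ α' : A₀, g⁻¹ • algebraMap A₀ F α = algebraMap A₀ F α')
    (hgO : ∀ o : O, g • algebraMap O F o = algebraMap O F o)
    {α β : O} (hα : IsUnit α) (hβ : IsUnit β)
    (hgx : g • x₂ = algebraMap O F α * x₂) (hgy : g • y₂ = algebraMap O F β * y₂) :
    StbCrossFrob g 1 𝔫 :=
  (rtk6ew_crossFrob_iff g 1 𝔫).mpr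
    ⟨rtk6gf_ew_fix (K := K) hd hζ hX hY hm hε₁ hε₂ hx hy s₁ s₂ h11 h12 h21 h22 hgen 𝔫 j ι hιv
        φ hφ hO2 hO3 hint hcl g hgu hgA hgA' hgO hα hβ hgx hgy,
      rtk6gf_ew_cong (K := K) hd hζ hX hY hm hε₁ hε₂ hx hy s₁ s₂ h11 h12 h21 h22 hgen 𝔫 j ι hιv
        φ hφ hO2 hO3 hint hcl g hgu hgA hgO hgx hgy _ (fun _ => rfl)⟩

end EW

section EWLs

open Fermat.Agent.S36

variable {A₀ E F : Type*} [CommRing A₀] [IsDomain A₀] [IsDiscreteValuationRing A₀]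
  [Field E] [Algebra A₀ E] [IsFractionRing A₀ E] [CharZero E]
  [Field F] [Algebra E F] [Algebra A₀ F] [IsScalarTower A₀ E F]
  {π : A₀}

/-- **`Rtk6ewCong Φ' 1 𝔫` at a crossing point, at `O = R_𝔫₀`** (hypotheses of `rtk6gls_cross`):
`g` fixes `u` and the base chart `R`, preserves `A₀` and multiplies `x₂`, `y₂` by elements of
`R`. -/
theorem rtk6gf_ew_ls_cong {K R : Type*} [Field K] [Algebra K F] [CommRing R] [IsDomain R]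
    [IsIntegrallyClosed R] [Algebra R K] [IsFractionRing R K]
    (𝔫₀ : Ideal R) [h𝔫₀ : 𝔫₀.IsPrime]
    [IsLocalRing (ls_localSubring (F := K) 𝔫₀)]
    {d : ℕ} (hd : (d : R) ∉ 𝔫₀) {ζ : R} (hζ : IsPrimitiveRoot ζ d)
    {X₀ Y₀ : ls_localSubring (F := K) 𝔫₀} (hX : Prime X₀ ∨ IsUnit X₀)
    (hY : (Prime Y₀ ∧ ¬ Y₀ ∣ X₀) ∨ IsUnit Y₀)
    (hm : IsLocalRing.maximalIdeal (ls_localSubring (F := K) 𝔫₀) = Ideal.span {X₀, Y₀})
    {ε₁ ε₂ : ls_localSubring (F := K) 𝔫₀} (hε₁ : IsUnit ε₁) (hε₂ : IsUnit ε₂) {x₂ y₂ : F}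
    (hx : x₂ ^ d = algebraMap K F ((ε₁ * X₀ : ls_localSubring (F := K) 𝔫₀) : K))
    (hy : y₂ ^ d = algebraMap K F ((ε₂ * Y₀ : ls_localSubring (F := K) 𝔫₀) : K))
    (s₁ s₂ : F ≃ₐ[K] F) (h11 : s₁ x₂ = algebraMap R K ζ • x₂) (h12 : s₁ y₂ = y₂)
    (h21 : s₂ x₂ = x₂) (h22 : s₂ y₂ = algebraMap R K ζ • y₂)
    (hgen : Algebra.adjoin K ({x₂, y₂} : Set F) = ⊤)
    {u : F} (𝔫 : AtPt (F := F) π u)
    (j : R →+* ↥(zchClosure (A₀ := A₀) ({u} : Set F)))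
    (ι : ↥(zchClosure (A₀ := A₀) ({u} : Set F)) →+* F) (hιv : ∀ b, ι b = (b : F))
    (hjι : ∀ r, ι (j r) = algebraMap K F (algebraMap R K r))
    (hlie : ∀ r : R, j r ∈ 𝔫.1 ↔ r ∈ 𝔫₀)
    (hint : ∀ b : ↥(zchClosure (A₀ := A₀) ({u} : Set F)), j.IsIntegralElem b)
    (hcl : ∀ x : F, (ι.comp j).IsIntegralElem x → ∃ b, ι b = x)
    (g : SemilinearAut E F) (hgu : g • u = u)
    (hgA : ∀ α : A₀, ∃ α' : A₀, g • algebraMap A₀ F α = algebraMap A₀ F α')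
    (hgR : ∀ r : R, g • algebraMap K F (algebraMap R K r) = algebraMap K F (algebraMap R K r))
    {α β : R} (hgx : g • x₂ = algebraMap K F (algebraMap R K α) * x₂)
    (hgy : g • y₂ = algebraMap K F (algebraMap R K β) * y₂)
    (Φ' : F →+* F) (hΦ' : ∀ x : F, Φ' x = g • x) :
    Rtk6ewCong Φ' 1 𝔫 := by
  haveI : 𝔫.1.IsMaximal := 𝔫.2.1
  have hι : Function.Injective ι := by
    intro b b' h
    rw [hιv, hιv] at h
    exact Subtype.ext h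
  intro z
  obtain ⟨c, hc, h⟩ := rtk6gf_ls_cong (K := K) 𝔫₀ hd hζ hX hY hm hε₁ hε₂ hx hy s₁ s₂ h11 h12 h21
    h22 hgen j ι hι hjι 𝔫.1 hlie hint hcl Φ'
    (fun b => by
      obtain ⟨b', hb'⟩ := rtk6gf_ew_preserves g hgu hgA b
      exact ⟨b', by rw [hιv, hιv, hΦ', hb']⟩)
    (fun r => by rw [hjι, hΦ', hgR r])
    (rtk6gf_ls_integral (K := K) (L := F) 𝔫₀ α) (rtk6gf_ls_integral (K := K) (L := F) 𝔫₀ β)
    (by rw [hΦ', hgx]) (by rw [hΦ', hgy]) z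
  refine ⟨c, hc, ?_⟩
  rw [hιv, hιv] at h
  rw [h, pow_one]

/-- **`Rtk6ewFix g 𝔫` at a crossing point, at `O = R_𝔫₀`** (hypotheses of `rtk6gls_cross`):
`g` fixes `u` and the base chart `R`, `g` and `g⁻¹` preserve `A₀`, and `g` multiplies `x₂`, `y₂`
by elements of `R ∖ 𝔫₀`. -/
theorem rtk6gf_ew_ls_fix {K R : Type*} [Field K] [Algebra K F] [CommRing R] [IsDomain R]
    [IsIntegrallyClosed R] [Algebra R K] [IsFractionRing R K]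
    (𝔫₀ : Ideal R) [h𝔫₀ : 𝔫₀.IsPrime]
    [IsLocalRing (ls_localSubring (F := K) 𝔫₀)]
    {d : ℕ} (hd : (d : R) ∉ 𝔫₀) {ζ : R} (hζ : IsPrimitiveRoot ζ d)
    {X₀ Y₀ : ls_localSubring (F := K) 𝔫₀} (hX : Prime X₀ ∨ IsUnit X₀)
    (hY : (Prime Y₀ ∧ ¬ Y₀ ∣ X₀) ∨ IsUnit Y₀)
    (hm : IsLocalRing.maximalIdeal (ls_localSubring (F := K) 𝔫₀) = Ideal.span {X₀, Y₀})
    {ε₁ ε₂ : ls_localSubring (F := K) 𝔫₀} (hε₁ : IsUnit ε₁) (hε₂ : IsUnit ε₂) {x₂ y₂ : F}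
    (hx : x₂ ^ d = algebraMap K F ((ε₁ * X₀ : ls_localSubring (F := K) 𝔫₀) : K))
    (hy : y₂ ^ d = algebraMap K F ((ε₂ * Y₀ : ls_localSubring (F := K) 𝔫₀) : K))
    (s₁ s₂ : F ≃ₐ[K] F) (h11 : s₁ x₂ = algebraMap R K ζ • x₂) (h12 : s₁ y₂ = y₂)
    (h21 : s₂ x₂ = x₂) (h22 : s₂ y₂ = algebraMap R K ζ • y₂)
    (hgen : Algebra.adjoin K ({x₂, y₂} : Set F) = ⊤)
    {u : F} (𝔫 : AtPt (F := F) π u)
    (j : R →+* ↥(zchClosure (A₀ := A₀) ({u} : Set F)))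
    (ι : ↥(zchClosure (A₀ := A₀) ({u} : Set F)) →+* F) (hιv : ∀ b, ι b = (b : F))
    (hjι : ∀ r, ι (j r) = algebraMap K F (algebraMap R K r))
    (hlie : ∀ r : R, j r ∈ 𝔫.1 ↔ r ∈ 𝔫₀)
    (hint : ∀ b : ↥(zchClosure (A₀ := A₀) ({u} : Set F)), j.IsIntegralElem b)
    (hcl : ∀ x : F, (ι.comp j).IsIntegralElem x → ∃ b, ι b = x)
    (g : SemilinearAut E F) (hgu : g • u = u)
    (hgA : ∀ α : A₀, ∃ α' : A₀, g • algebraMap A₀ F α = algebraMap A₀ F α')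
    (hgA' : ∀ α : A₀, ∃ α' : A₀, g⁻¹ • algebraMap A₀ F α = algebraMap A₀ F α')
    (hgR : ∀ r : R, g • algebraMap K F (algebraMap R K r) = algebraMap K F (algebraMap R K r))
    {α β : R} (hα : α ∉ 𝔫₀) (hβ : β ∉ 𝔫₀)
    (hgx : g • x₂ = algebraMap K F (algebraMap R K α) * x₂)
    (hgy : g • y₂ = algebraMap K F (algebraMap R K β) * y₂) :
    Rtk6ewFix g 𝔫 := by
  haveI : 𝔫.1.IsMaximal := 𝔫.2.1
  have hι : Function.Injective ι := by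
    intro b b' h
    rw [hιv, hιv] at h
    exact Subtype.ext h
  have hgR' : ∀ r : R,
      g⁻¹ • algebraMap K F (algebraMap R K r) = algebraMap K F (algebraMap R K r) := fun r =>
    rtk6gf_inv_smul_of_smul g (hgR r)
  have hne : ∀ {γ : R}, γ ∉ 𝔫₀ → algebraMap K F (algebraMap R K γ) ≠ 0 := by
    intro γ hγ h0
    have h1 : algebraMap R K γ = 0 := (algebraMap K F).injective (by rw [h0, map_zero])
    have h2 : γ = 0 := IsFractionRing.injective R K (by rw [h1, map_zero])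
    exact hγ (h2 ▸ 𝔫₀.zero_mem)
  have hgx' : g⁻¹ • x₂ = (algebraMap K F (algebraMap R K α))⁻¹ * x₂ :=
    rtk6gf_inv_smul_of_mul g (hgR α) hgx (hne hα)
  have hgy' : g⁻¹ • y₂ = (algebraMap K F (algebraMap R K β))⁻¹ * y₂ :=
    rtk6gf_inv_smul_of_mul g (hgR β) hgy (hne hβ)
  refine ⟨fun z hz => ?_, fun z hz => ?_⟩
  · obtain ⟨z', hz', h⟩ := rtk6gf_ls_fix (K := K) 𝔫₀ hd hζ hX hY hm hε₁ hε₂ hx hy s₁ s₂ h11 h12
      h21 h22 hgen j ι hι hjι 𝔫.1 hlie hint hcl (SemilinearAut.toRingAut g : F ≃+* F).toRingHom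
      (fun b => by
        obtain ⟨b', hb'⟩ := rtk6gf_ew_preserves g hgu hgA b
        exact ⟨b', by rw [hιv, hιv]; exact hb'⟩)
      (fun r => by rw [hjι]; exact hgR r)
      (rtk6gf_ls_integral (K := K) (L := F) 𝔫₀ α) (rtk6gf_ls_integral (K := K) (L := F) 𝔫₀ β)
      hgx hgy hz
    refine ⟨z', hz', ?_⟩
    rw [hιv, hιv] at h
    exact h
  · obtain ⟨z', hz', h⟩ := rtk6gf_ls_fix (K := K) 𝔫₀ hd hζ hX hY hm hε₁ hε₂ hx hy s₁ s₂ h11 h12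
      h21 h22 hgen j ι hι hjι 𝔫.1 hlie hint hcl (SemilinearAut.toRingAut g⁻¹ : F ≃+* F).toRingHom
      (fun b => by
        obtain ⟨b', hb'⟩ := rtk6gf_ew_preserves g⁻¹ (rtk6gf_inv_smul_of_smul g hgu) hgA' b
        exact ⟨b', by rw [hιv, hιv]; exact hb'⟩)
      (fun r => by rw [hjι]; exact hgR' r)
      (rtk6gf_ls_integral_inv (K := K) (L := F) 𝔫₀ hα)
      (rtk6gf_ls_integral_inv (K := K) (L := F) 𝔫₀ hβ)
      hgx' hgy' hz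
    refine ⟨z', hz', ?_⟩
    rw [hιv, hιv] at h
    exact h

/-- **`StbCrossFrob g 1 𝔫` at a crossing point, at `O = R_𝔫₀`.** -/
theorem rtk6gf_ew_ls_crossFrob {K R : Type*} [Field K] [Algebra K F] [CommRing R] [IsDomain R]
    [IsIntegrallyClosed R] [Algebra R K] [IsFractionRing R K]
    (𝔫₀ : Ideal R) [h𝔫₀ : 𝔫₀.IsPrime]
    [IsLocalRing (ls_localSubring (F := K) 𝔫₀)]
    {d : ℕ} (hd : (d : R) ∉ 𝔫₀) {ζ : R} (hζ : IsPrimitiveRoot ζ d)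
    {X₀ Y₀ : ls_localSubring (F := K) 𝔫₀} (hX : Prime X₀ ∨ IsUnit X₀)
    (hY : (Prime Y₀ ∧ ¬ Y₀ ∣ X₀) ∨ IsUnit Y₀)
    (hm : IsLocalRing.maximalIdeal (ls_localSubring (F := K) 𝔫₀) = Ideal.span {X₀, Y₀})
    {ε₁ ε₂ : ls_localSubring (F := K) 𝔫₀} (hε₁ : IsUnit ε₁) (hε₂ : IsUnit ε₂) {x₂ y₂ : F}
    (hx : x₂ ^ d = algebraMap K F ((ε₁ * X₀ : ls_localSubring (F := K) 𝔫₀) : K))
    (hy : y₂ ^ d = algebraMap K F ((ε₂ * Y₀ : ls_localSubring (F := K) 𝔫₀) : K))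
    (s₁ s₂ : F ≃ₐ[K] F) (h11 : s₁ x₂ = algebraMap R K ζ • x₂) (h12 : s₁ y₂ = y₂)
    (h21 : s₂ x₂ = x₂) (h22 : s₂ y₂ = algebraMap R K ζ • y₂)
    (hgen : Algebra.adjoin K ({x₂, y₂} : Set F) = ⊤)
    {u : F} (𝔫 : AtPt (F := F) π u)
    (j : R →+* ↥(zchClosure (A₀ := A₀) ({u} : Set F)))
    (ι : ↥(zchClosure (A₀ := A₀) ({u} : Set F)) →+* F) (hιv : ∀ b, ι b = (b : F))
    (hjι : ∀ r, ι (j r) = algebraMap K F (algebraMap R K r))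
    (hlie : ∀ r : R, j r ∈ 𝔫.1 ↔ r ∈ 𝔫₀)
    (hint : ∀ b : ↥(zchClosure (A₀ := A₀) ({u} : Set F)), j.IsIntegralElem b)
    (hcl : ∀ x : F, (ι.comp j).IsIntegralElem x → ∃ b, ι b = x)
    (g : SemilinearAut E F) (hgu : g • u = u)
    (hgA : ∀ α : A₀, ∃ α' : A₀, g • algebraMap A₀ F α = algebraMap A₀ F α')
    (hgA' : ∀ α : A₀, ∃ α' : A₀, g⁻¹ • algebraMap A₀ F α = algebraMap A₀ F α')
    (hgR : ∀ r : R, g • algebraMap K F (algebraMap R K r) = algebraMap K F (algebraMap R K r))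
    {α β : R} (hα : α ∉ 𝔫₀) (hβ : β ∉ 𝔫₀)
    (hgx : g • x₂ = algebraMap K F (algebraMap R K α) * x₂)
    (hgy : g • y₂ = algebraMap K F (algebraMap R K β) * y₂) :
    StbCrossFrob g 1 𝔫 :=
  (rtk6ew_crossFrob_iff g 1 𝔫).mpr
    ⟨rtk6gf_ew_ls_fix (K := K) 𝔫₀ hd hζ hX hY hm hε₁ hε₂ hx hy s₁ s₂ h11 h12 h21 h22 hgen 𝔫 j ι
        hιv hjι hlie hint hcl g hgu hgA hgA' hgR hα hβ hgx hgy,
      rtk6gf_ew_ls_cong (K := K) 𝔫₀ hd hζ hX hY hm hε₁ hε₂ hx hy s₁ s₂ h11 h12 h21 h22 hgen 𝔫 j ι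
        hιv hjι hlie hint hcl g hgu hgA hgR hgx hgy _ (fun _ => rfl)⟩

end EWLs

end Fermat.Agent.RT.K6
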