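/-
K-machine, piece K6, piece C4-X (helper94), part 4: **the crossing point on a chart
`B = zchClosure {u}`** (typed form of `rtk6c4_cross`, `C4Cross.lean`).

`A₀` the (thin, ramified) base with uniformizer `π` (`= ϖ₁`), `F` the top field, `B_u` its chart,
`𝔫 : AtPt π u` a closed point over a thin crossing point of the base chart `R₀` (of the
`Γ₀`-field `K` over the UNRAMIFIED base): `Rtk6c4Cross j ι 𝔫 … (algebraMap A₀ F π) …`.

* `rtk6c4x_crossAt` : `Rtk6ewmCrossAt W₁ W₂ 𝔫 (RingHom.id _) π X Y w′` (the crossing alternative of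
  `Rtk6ewmNodeAt`, `EWMulti.lean`) together with C4+: for every semilinear automorphism `g` with
  `g • u = u`, preserving `A₀`, fixing `K` and the étale generators, `g • π = α π`, `g • y = β y`
  (`α, β` units of `R₀`):  `Rtk6ewFix g 𝔫`, `Rtk6ewCong g 1 𝔫`, `g • X = a′ X`, `g • Y = b′ Y`.
-/
import Fermat.Agent.RT.K6.C4Cross
import Fermat.Agent.RT.K6.EWMulti
import Fermat.Agent.RT.K6.DGLFixEW

set_option autoImplicit false
set_option linter.style.haveILetI false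
set_option linter.unusedSectionVars false
set_option linter.unusedVariables false

namespace Fermat.Agent.RT.K6

open Polynomial IntermediateField Fermat.Agent.INJ AlgebraicCurve Fermat.Agent.UNIP
  Fermat.Agent.STB

section C4X

universe u

variable {A₀ E : Type*} {F : Type u} [CommRing A₀] [IsDomain A₀] [IsDiscreteValuationRing A₀]
  [Field E] [Algebra A₀ E] [IsFractionRing A₀ E] [CharZero E]
  [Field F] [Algebra E F] [Algebra A₀ F] [IsScalarTower A₀ E F]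
  {π : A₀}
  {K R₀ : Type u} [Field K] [CharZero K] [Algebra K F] [CommRing R₀] [IsDomain R₀]
  [IsIntegrallyClosed R₀] [IsNoetherianRing R₀] [Algebra R₀ K] [IsFractionRing R₀ K]
  [Algebra R₀ F] [IsScalarTower R₀ K F]

omit [CharZero K] [IsDomain R₀] [IsIntegrallyClosed R₀] [IsNoetherianRing R₀]
  [IsFractionRing R₀ K] in
/-- a semilinear automorphism fixing `K` fixes the image of `R₀` -/
theorem rtk6c4x_fix_R (g : SemilinearAut E F)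
    (hgK : ∀ k : K, g • algebraMap K F k = algebraMap K F k) (r : R₀) :
    g • algebraMap R₀ F r = algebraMap R₀ F r := by
  rw [IsScalarTower.algebraMap_apply R₀ K F]
  exact hgK _

/-- **C4-X on the chart** (two exponents, explicit multipliers of `X`, `Y`). -/
theorem rtk6c4x_crossAtE_ex {u : F} (𝔫 : AtPt (F := F) π u)
    (j : R₀ →+* ↥(zchClosure (A₀ := A₀) ({u} : Set F)))
    (ι : ↥(zchClosure (A₀ := A₀) ({u} : Set F)) →+* F) (hιv : ∀ b, ι b = (b : F))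
    {d dS : ℕ} {ζ p X₀ Y₀ w : R₀} {S : Set F} {y : F} {γ : K} {e₁ e₂ : R₀} {n₀ a b : ℤ}
    {σ δ : F ≃ₐ[K] F}
    (h : Rtk6c4CrossE j ι 𝔫.1 d dS ζ p X₀ Y₀ w S (algebraMap A₀ F π) y γ e₁ e₂ n₀ a b σ δ)
    (W₁ W₂ : ValuationSubring F)
    (hBW₁ : ∀ z : F, IsIntegral ↥(Algebra.adjoin A₀ {u}) z → z ∈ W₁)
    (hBW₂ : ∀ z : F, IsIntegral ↥(Algebra.adjoin A₀ {u}) z → z ∈ W₂)
    (hthr₁ : atThrough 𝔫 W₁) (hthr₂ : atThrough 𝔫 W₂)
    (hX₁ : ((j X₀ : ↥(zchClosure (A₀ := A₀) ({u} : Set F))) : F) ∈ W₁.nonunits)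
    (hY₁ : ((j Y₀ : ↥(zchClosure (A₀ := A₀) ({u} : Set F))) : F) ∉ W₁.nonunits)
    (hY₂ : ((j Y₀ : ↥(zchClosure (A₀ := A₀) ({u} : Set F))) : F) ∈ W₂.nonunits)
    (hX₂ : ((j X₀ : ↥(zchClosure (A₀ := A₀) ({u} : Set F))) : F) ∉ W₂.nonunits) :
    ∃ X Y w' : ↥(zchClosure (A₀ := A₀) ({u} : Set F)),
      Rtk6ewmCrossAt W₁ W₂ 𝔫 (RingHom.id _)
        (algebraMap A₀ ↥(zchClosure (A₀ := A₀) ({u} : Set F)) π) X Y w' ∧
      ∀ g : SemilinearAut E F, g • u = u →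
        (∀ α : A₀, ∃ α' : A₀, g • algebraMap A₀ F α = algebraMap A₀ F α') →
        (∀ α : A₀, ∃ α' : A₀, g⁻¹ • algebraMap A₀ F α = algebraMap A₀ F α') →
        (∀ k : K, g • algebraMap K F k = algebraMap K F k) → (∀ t ∈ S, g • t = t) →
        ∀ (α β : R₀) (hα : IsUnit α) (hβ : IsUnit β),
          g • algebraMap A₀ F π = algebraMap R₀ F α * algebraMap A₀ F π →
          g • y = algebraMap R₀ F β * y →
          Rtk6ewFix g 𝔫 ∧ Rtk6ewCong (SemilinearAut.toRingAut g : F ≃+* F).toRingHom 1 𝔫 ∧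
            g • (X : F) = ((j ((hα.unit * hβ.unit ^ (-a) : R₀ˣ) : R₀) :
              ↥(zchClosure (A₀ := A₀) ({u} : Set F))) : F) * (X : F) ∧
            g • (Y : F) = ((j ((hβ.unit ^ a : R₀ˣ) : R₀) :
              ↥(zchClosure (A₀ := A₀) ({u} : Set F))) : F) * (Y : F) := by
  haveI : 𝔫.1.IsMaximal := 𝔫.2.1
  obtain ⟨X, Y, w', ϖ, hϖ, hw', hXY, hXW, hYW, hXm, hYm, hgen, hC⟩ :=
    rtk6c4_crossE_ex h W₁ W₂ (fun z => by rw [hιv]; exact hBW₁ _ z.2)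
      (fun z => by rw [hιv]; exact hBW₂ _ z.2)
      (fun z hz => hthr₁ z (by rw [← hιv]; exact hz))
      (fun z hz => hthr₂ z (by rw [← hιv]; exact hz))
      (by rw [hιv]; exact hX₁) (by rw [hιv]; exact hY₁) (by rw [hιv]; exact hY₂)
      (by rw [hιv]; exact hX₂)
  have hϖeq : ϖ = algebraMap A₀ ↥(zchClosure (A₀ := A₀) ({u} : Set F)) π := by
    apply Subtype.ext
    rw [← hιv, hϖ]
    rfl
  subst hϖeq
  refine ⟨X, Y, w', ⟨fun x hx => hthr₁ x hx, fun x hx => hthr₂ x hx, ?_, ?_, hw', ?_, ?_⟩, ?_⟩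
  · show ((X : ↥(zchClosure (A₀ := A₀) ({u} : Set F))) : F) ∈ W₁.nonunits
    rw [← hιv]
    exact hXW
  · show ((Y : ↥(zchClosure (A₀ := A₀) ({u} : Set F))) : F) ∈ W₂.nonunits
    rw [← hιv]
    exact hYW
  · exact hXY
  · rw [Ideal.comap_id]
    exact hgen
  · intro g hgu hgA hgA' hgK hgS α β hα hβ hgϖ hgy
    have hαF : algebraMap R₀ F α ≠ 0 := fun h0 =>
      hα.ne_zero (h.algebraMap_injective (by rw [h0, map_zero]))
    have hβF : algebraMap R₀ F β ≠ 0 := fun h0 =>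
      hβ.ne_zero (h.algebraMap_injective (by rw [h0, map_zero]))
    have hinvα : algebraMap R₀ F ((hα.unit⁻¹ : R₀ˣ) : R₀) = (algebraMap R₀ F α)⁻¹ := by
      have := rtk6c4_unit_zpow (F := F) hα (-1)
      rwa [zpow_neg, zpow_one, zpow_neg, zpow_one] at this
    have hinvβ : algebraMap R₀ F ((hβ.unit⁻¹ : R₀ˣ) : R₀) = (algebraMap R₀ F β)⁻¹ := by
      have := rtk6c4_unit_zpow (F := F) hβ (-1)
      rwa [zpow_neg, zpow_one, zpow_neg, zpow_one] at this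
    -- `g`
    obtain ⟨⟨hgX, hgY⟩, hcong⟩ :=
      hC (SemilinearAut.toRingAut g : F ≃+* F).toRingHom
        (fun z => by
          obtain ⟨z', hz'⟩ := rtk6gf_ew_preserves g hgu hgA z
          exact ⟨z', by rw [hιv, hιv]; exact hz'⟩)
        hgK hgS α β hα hβ hgϖ hgy
    -- `g⁻¹`
    obtain ⟨-, hcong'⟩ :=
      hC (SemilinearAut.toRingAut g⁻¹ : F ≃+* F).toRingHom
        (fun z => by
          obtain ⟨z', hz'⟩ := rtk6gf_ew_preserves g⁻¹ (rtk6gf_inv_smul_of_smul g hgu) hgA' z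
          exact ⟨z', by rw [hιv, hιv]; exact hz'⟩)
        (fun k => rtk6gf_inv_smul_of_smul g (hgK k))
        (fun t ht => rtk6gf_inv_smul_of_smul g (hgS t ht))
        ((hα.unit⁻¹ : R₀ˣ) : R₀) ((hβ.unit⁻¹ : R₀ˣ) : R₀) (Units.isUnit _) (Units.isUnit _)
        (by
          rw [hinvα]
          exact rtk6gf_inv_smul_of_mul g (rtk6c4x_fix_R g hgK α) hgϖ hαF)
        (by
          rw [hinvβ]
          exact rtk6gf_inv_smul_of_mul g (rtk6c4x_fix_R g hgK β) hgy hβF)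
    refine ⟨⟨fun z hz => ?_, fun z hz => ?_⟩, fun z => ?_, ?_, ?_⟩
    · obtain ⟨c, hc, hzc⟩ := hcong z
      refine ⟨z + c, 𝔫.1.add_mem hz hc, ?_⟩
      rw [hιv, hιv] at hzc
      exact hzc
    · obtain ⟨c, hc, hzc⟩ := hcong' z
      refine ⟨z + c, 𝔫.1.add_mem hz hc, ?_⟩
      rw [hιv, hιv] at hzc
      exact hzc
    · obtain ⟨c, hc, hzc⟩ := hcong z
      refine ⟨c, hc, ?_⟩
      rw [hιv, hιv] at hzc
      rw [pow_one]
      exact hzc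
    · rw [hιv, hιv] at hgX
      exact hgX
    · rw [hιv, hιv] at hgY
      exact hgY

/-- **C4-X on the chart** (two exponents). -/
theorem rtk6c4x_crossAtE {u : F} (𝔫 : AtPt (F := F) π u)
    (j : R₀ →+* ↥(zchClosure (A₀ := A₀) ({u} : Set F)))
    (ι : ↥(zchClosure (A₀ := A₀) ({u} : Set F)) →+* F) (hιv : ∀ b, ι b = (b : F))
    {d dS : ℕ} {ζ p X₀ Y₀ w : R₀} {S : Set F} {y : F} {γ : K} {e₁ e₂ : R₀} {n₀ a b : ℤ}
    {σ δ : F ≃ₐ[K] F}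
    (h : Rtk6c4CrossE j ι 𝔫.1 d dS ζ p X₀ Y₀ w S (algebraMap A₀ F π) y γ e₁ e₂ n₀ a b σ δ)
    (W₁ W₂ : ValuationSubring F)
    (hBW₁ : ∀ z : F, IsIntegral ↥(Algebra.adjoin A₀ {u}) z → z ∈ W₁)
    (hBW₂ : ∀ z : F, IsIntegral ↥(Algebra.adjoin A₀ {u}) z → z ∈ W₂)
    (hthr₁ : atThrough 𝔫 W₁) (hthr₂ : atThrough 𝔫 W₂)
    (hX₁ : ((j X₀ : ↥(zchClosure (A₀ := A₀) ({u} : Set F))) : F) ∈ W₁.nonunits)
    (hY₁ : ((j Y₀ : ↥(zchClosure (A₀ := A₀) ({u} : Set F))) : F) ∉ W₁.nonunits)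
    (hY₂ : ((j Y₀ : ↥(zchClosure (A₀ := A₀) ({u} : Set F))) : F) ∈ W₂.nonunits)
    (hX₂ : ((j X₀ : ↥(zchClosure (A₀ := A₀) ({u} : Set F))) : F) ∉ W₂.nonunits) :
    ∃ X Y w' : ↥(zchClosure (A₀ := A₀) ({u} : Set F)),
      Rtk6ewmCrossAt W₁ W₂ 𝔫 (RingHom.id _)
        (algebraMap A₀ ↥(zchClosure (A₀ := A₀) ({u} : Set F)) π) X Y w' ∧
      ∀ g : SemilinearAut E F, g • u = u →
        (∀ α : A₀, ∃ α' : A₀, g • algebraMap A₀ F α = algebraMap A₀ F α') →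
        (∀ α : A₀, ∃ α' : A₀, g⁻¹ • algebraMap A₀ F α = algebraMap A₀ F α') →
        (∀ k : K, g • algebraMap K F k = algebraMap K F k) → (∀ t ∈ S, g • t = t) →
        ∀ α β : R₀, IsUnit α → IsUnit β →
          g • algebraMap A₀ F π = algebraMap R₀ F α * algebraMap A₀ F π →
          g • y = algebraMap R₀ F β * y →
          Rtk6ewFix g 𝔫 ∧ Rtk6ewCong (SemilinearAut.toRingAut g : F ≃+* F).toRingHom 1 𝔫 ∧
          ∃ a' b' : R₀, IsUnit a' ∧ IsUnit b' ∧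
            g • (X : F) = ((j a' : ↥(zchClosure (A₀ := A₀) ({u} : Set F))) : F) * (X : F) ∧
            g • (Y : F) = ((j b' : ↥(zchClosure (A₀ := A₀) ({u} : Set F))) : F) * (Y : F) := by
  obtain ⟨X, Y, w', hcr, hC⟩ := rtk6c4x_crossAtE_ex (E := E) 𝔫 j ι hιv h W₁ W₂ hBW₁ hBW₂ hthr₁
    hthr₂ hX₁ hY₁ hY₂ hX₂
  refine ⟨X, Y, w', hcr, fun g hgu hgA hgA' hgK hgS α β hα hβ hgϖ hgy => ?_⟩
  obtain ⟨hfix, hcong, hgX, hgY⟩ := hC g hgu hgA hgA' hgK hgS α β hα hβ hgϖ hgy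
  exact ⟨hfix, hcong, _, _, Units.isUnit _, Units.isUnit _, hgX, hgY⟩

/-- **C4-X on the chart** (one exponent). -/
theorem rtk6c4x_crossAt {u : F} (𝔫 : AtPt (F := F) π u)
    (j : R₀ →+* ↥(zchClosure (A₀ := A₀) ({u} : Set F)))
    (ι : ↥(zchClosure (A₀ := A₀) ({u} : Set F)) →+* F) (hιv : ∀ b, ι b = (b : F))
    {d : ℕ} {ζ p X₀ Y₀ w : R₀} {S : Set F} {y : F} {γ : K} {e₁ e₂ : R₀} {n₀ a b : ℤ}
    {σ δ : F ≃ₐ[K] F}
    (h : Rtk6c4Cross j ι 𝔫.1 d ζ p X₀ Y₀ w S (algebraMap A₀ F π) y γ e₁ e₂ n₀ a b σ δ)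
    (W₁ W₂ : ValuationSubring F)
    (hBW₁ : ∀ z : F, IsIntegral ↥(Algebra.adjoin A₀ {u}) z → z ∈ W₁)
    (hBW₂ : ∀ z : F, IsIntegral ↥(Algebra.adjoin A₀ {u}) z → z ∈ W₂)
    (hthr₁ : atThrough 𝔫 W₁) (hthr₂ : atThrough 𝔫 W₂)
    (hX₁ : ((j X₀ : ↥(zchClosure (A₀ := A₀) ({u} : Set F))) : F) ∈ W₁.nonunits)
    (hY₁ : ((j Y₀ : ↥(zchClosure (A₀ := A₀) ({u} : Set F))) : F) ∉ W₁.nonunits)
    (hY₂ : ((j Y₀ : ↥(zchClosure (A₀ := A₀) ({u} : Set F))) : F) ∈ W₂.nonunits)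
    (hX₂ : ((j X₀ : ↥(zchClosure (A₀ := A₀) ({u} : Set F))) : F) ∉ W₂.nonunits) :
    ∃ X Y w' : ↥(zchClosure (A₀ := A₀) ({u} : Set F)),
      Rtk6ewmCrossAt W₁ W₂ 𝔫 (RingHom.id _)
        (algebraMap A₀ ↥(zchClosure (A₀ := A₀) ({u} : Set F)) π) X Y w' ∧
      ∀ g : SemilinearAut E F, g • u = u →
        (∀ α : A₀, ∃ α' : A₀, g • algebraMap A₀ F α = algebraMap A₀ F α') →
        (∀ α : A₀, ∃ α' : A₀, g⁻¹ • algebraMap A₀ F α = algebraMap A₀ F α') →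
        (∀ k : K, g • algebraMap K F k = algebraMap K F k) → (∀ t ∈ S, g • t = t) →
        ∀ α β : R₀, IsUnit α → IsUnit β →
          g • algebraMap A₀ F π = algebraMap R₀ F α * algebraMap A₀ F π →
          g • y = algebraMap R₀ F β * y →
          Rtk6ewFix g 𝔫 ∧ Rtk6ewCong (SemilinearAut.toRingAut g : F ≃+* F).toRingHom 1 𝔫 ∧
          ∃ a' b' : R₀, IsUnit a' ∧ IsUnit b' ∧
            g • (X : F) = ((j a' : ↥(zchClosure (A₀ := A₀) ({u} : Set F))) : F) * (X : F) ∧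
            g • (Y : F) = ((j b' : ↥(zchClosure (A₀ := A₀) ({u} : Set F))) : F) * (Y : F) :=
  rtk6c4x_crossAtE 𝔫 j ι hιv h.toE W₁ W₂ hBW₁ hBW₂ hthr₁ hthr₂ hX₁ hY₁ hY₂ hX₂

end C4X

end Fermat.Agent.RT.K6
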