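/-
K-machine, piece K6, piece C4-χ-ASM (helper94), abstract part: **the dichotomy with C4+ at a
closed point of the top chart** over the thin ramified base.

`A₀` the (thin, ramified) base with uniformizer `π` (`= ϖ₁`), `F` the top field, `B_u` its chart,
`V : κ → ValuationSubring F` the family of the vertical valuation rings, `𝒢` a set of semilinear
automorphisms of `F` (the coefficientwise action of the inertia group and the diamonds at `r`).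

* `Rtk6c4aPlusAt V 𝒢 𝔫` : the closed point `𝔫` is a smooth point `(π, s)`, or a THIN crossing point
  `(π, X, Y)`, `w π = X Y`, of two components `V c₁ ∋ X`, `V c₂ ∋ Y`, and every `g ∈ 𝒢` fixes `𝔫`,
  is the identity modulo `𝔫` and multiplies `X`, `Y` by units of the chart (C4+);
* `Rtk6c4aPlusAt.nodeAt` : `Rtk6ewmNodeAt V 𝔫 (RingHom.id _) π` (`EWMulti.lean`);
* `Rtk6c4aPlusAt.mono`   : monotonicity in `𝒢`;
* `rtk6c4a_smooth`       : the smooth alternative;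
* `rtk6c4a_cross`        : the crossing alternative from `Rtk6c4CrossE` (`C4Abs.lean`), the
  positions of `X₀`, `Y₀` with respect to two valuation rings `Vb₁`, `Vb₂` of the base field `K`,
  two components `c₁`, `c₂` through `𝔫` restricting to `Vb₁`, `Vb₂` (C4-THR), and the conditions on
  the elements of `𝒢`.
-/
import Fermat.Agent.RT.K6.C4X

set_option autoImplicit false
set_option linter.style.haveILetI false
set_option linter.unusedSectionVars false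
set_option linter.unusedVariables false

namespace Fermat.Agent.RT.K6

open Polynomial IntermediateField Fermat.Agent.INJ AlgebraicCurve Fermat.Agent.UNIP
  Fermat.Agent.STB

section C4Asm

universe u

variable {A₀ E : Type*} {F : Type u} [CommRing A₀] [IsDomain A₀] [IsDiscreteValuationRing A₀]
  [Field E] [Algebra A₀ E] [IsFractionRing A₀ E] [CharZero E]
  [Field F] [Algebra E F] [Algebra A₀ F] [IsScalarTower A₀ E F]
  {π : A₀} {κ : Type*}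

/-- **The dichotomy with C4+** at the closed point `𝔫` of the chart `u`: smooth point, or thin
crossing point of two components of the family on which every `g ∈ 𝒢` acts as in C4+
(FIX, CONG, EIGEN). -/
def Rtk6c4aPlusAt (V : κ → ValuationSubring F) (𝒢 : Set (SemilinearAut E F)) {u : F}
    (𝔫 : AtPt (F := F) π u) : Prop :=
  (∃ s : ↥(zchClosure (A₀ := A₀) ({u} : Set F)),
    (RingHom.id ↥(zchClosure (A₀ := A₀) ({u} : Set F))) s ∈ 𝔫.1 ∧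
    NodesLocGen (𝔫.1.comap (RingHom.id ↥(zchClosure (A₀ := A₀) ({u} : Set F))))
      {algebraMap A₀ ↥(zchClosure (A₀ := A₀) ({u} : Set F)) π, s}) ∨
  ∃ (c₁ c₂ : κ) (X Y w : ↥(zchClosure (A₀ := A₀) ({u} : Set F))),
    Rtk6ewmCrossAt (V c₁) (V c₂) 𝔫 (RingHom.id _)
      (algebraMap A₀ ↥(zchClosure (A₀ := A₀) ({u} : Set F)) π) X Y w ∧
    ∀ g ∈ 𝒢, Rtk6ewFix g 𝔫 ∧
      Rtk6ewCong (SemilinearAut.toRingAut g : F ≃+* F).toRingHom 1 𝔫 ∧
      ∃ a' b' : ↥(zchClosure (A₀ := A₀) ({u} : Set F)), IsUnit a' ∧ IsUnit b' ∧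
        g • (X : F) = (a' : F) * (X : F) ∧ g • (Y : F) = (b' : F) * (Y : F)

/-- C4+ contains the dichotomy (M3) -/
theorem Rtk6c4aPlusAt.nodeAt {V : κ → ValuationSubring F} {𝒢 : Set (SemilinearAut E F)} {u : F}
    {𝔫 : AtPt (F := F) π u} (h : Rtk6c4aPlusAt V 𝒢 𝔫) :
    Rtk6ewmNodeAt V 𝔫 (RingHom.id ↥(zchClosure (A₀ := A₀) ({u} : Set F)))
      (algebraMap A₀ ↥(zchClosure (A₀ := A₀) ({u} : Set F)) π) := by
  rcases h with h | ⟨c₁, c₂, X, Y, w, h, -⟩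
  · exact Or.inl h
  · exact Or.inr ⟨c₁, c₂, X, Y, w, h⟩

/-- monotonicity in the set of automorphisms -/
theorem Rtk6c4aPlusAt.mono {V : κ → ValuationSubring F} {𝒢 𝒢' : Set (SemilinearAut E F)}
    (h𝒢 : 𝒢' ⊆ 𝒢) {u : F} {𝔫 : AtPt (F := F) π u} (h : Rtk6c4aPlusAt V 𝒢 𝔫) :
    Rtk6c4aPlusAt V 𝒢' 𝔫 := by
  rcases h with h | ⟨c₁, c₂, X, Y, w, h, hg⟩
  · exact Or.inl h
  · exact Or.inr ⟨c₁, c₂, X, Y, w, h, fun g hgm => hg g (h𝒢 hgm)⟩

/-- the dichotomy for the empty set of automorphisms is the dichotomy (M3) -/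
theorem rtk6c4a_plusAt_empty_iff {V : κ → ValuationSubring F} {u : F}
    {𝔫 : AtPt (F := F) π u} :
    Rtk6c4aPlusAt V (∅ : Set (SemilinearAut E F)) 𝔫 ↔
      Rtk6ewmNodeAt V 𝔫 (RingHom.id ↥(zchClosure (A₀ := A₀) ({u} : Set F)))
        (algebraMap A₀ ↥(zchClosure (A₀ := A₀) ({u} : Set F)) π) := by
  constructor
  · exact fun h => h.nodeAt
  · rintro (h | ⟨c₁, c₂, X, Y, w, h⟩)
    · exact Or.inl h
    · exact Or.inr ⟨c₁, c₂, X, Y, w, h, fun g hgm => absurd hgm (Set.notMem_empty g)⟩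

/-- **The smooth alternative.** -/
theorem rtk6c4a_smooth (V : κ → ValuationSubring F) (𝒢 : Set (SemilinearAut E F)) {u : F}
    (𝔫 : AtPt (F := F) π u)
    (h : ∃ s : ↥(zchClosure (A₀ := A₀) ({u} : Set F)), s ∈ 𝔫.1 ∧
      NodesLocGen 𝔫.1 {algebraMap A₀ ↥(zchClosure (A₀ := A₀) ({u} : Set F)) π, s}) :
    Rtk6c4aPlusAt V 𝒢 𝔫 := by
  obtain ⟨s, hs, hgen⟩ := h
  refine Or.inl ⟨s, hs, ?_⟩
  rw [Ideal.comap_id]
  exact hgen

/-- the smooth alternative, from the dichotomy (M3) with the crossing alternative excluded -/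
theorem rtk6c4a_of_nodeAt_smooth (V : κ → ValuationSubring F) (𝒢 : Set (SemilinearAut E F))
    {u : F} (𝔫 : AtPt (F := F) π u)
    (h : ∃ s : ↥(zchClosure (A₀ := A₀) ({u} : Set F)),
      (RingHom.id ↥(zchClosure (A₀ := A₀) ({u} : Set F))) s ∈ 𝔫.1 ∧
      NodesLocGen (𝔫.1.comap (RingHom.id ↥(zchClosure (A₀ := A₀) ({u} : Set F))))
        {algebraMap A₀ ↥(zchClosure (A₀ := A₀) ({u} : Set F)) π, s}) :
    Rtk6c4aPlusAt V 𝒢 𝔫 := Or.inl h

/-- **FIX-X, thin half** (the hypothesis `hthin` of `RT/K6/FixX.lean`): smooth point, or `g`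
fixes `𝔫` and is the identity modulo `𝔫`. -/
theorem Rtk6c4aPlusAt.fixCong {V : κ → ValuationSubring F} {𝒢 : Set (SemilinearAut E F)} {u : F}
    {𝔫 : AtPt (F := F) π u} (h : Rtk6c4aPlusAt V 𝒢 𝔫) {g : SemilinearAut E F} (hg : g ∈ 𝒢) :
    (∃ s : ↥(zchClosure (A₀ := A₀) ({u} : Set F)), s ∈ 𝔫.1 ∧
      NodesLocGen 𝔫.1 {algebraMap A₀ ↥(zchClosure (A₀ := A₀) ({u} : Set F)) π, s}) ∨
    (Rtk6ewFix g 𝔫 ∧ Rtk6ewCong (SemilinearAut.toRingAut g : F ≃+* F).toRingHom 1 𝔫) := by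
  rcases h with ⟨s, hs, hgen⟩ | ⟨c₁, c₂, X, Y, w, -, hC⟩
  · refine Or.inl ⟨s, hs, ?_⟩
    rw [Ideal.comap_id] at hgen
    exact hgen
  · exact Or.inr ⟨(hC g hg).1, (hC g hg).2.1⟩

/-- **HSTAB, thin EIGEN** (the shape of `Rtk6hsThinAt`, `RT/K6/HStabThin.lean`, on the chart
itself): smooth point, or thin crossing datum `(π, X, Y)` on which every `g ∈ 𝒢` acts by
multiplication by elements of the chart. -/
theorem Rtk6c4aPlusAt.eigen {V : κ → ValuationSubring F} {𝒢 : Set (SemilinearAut E F)} {u : F}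
    {𝔫 : AtPt (F := F) π u} (h : Rtk6c4aPlusAt V 𝒢 𝔫) :
    (∃ s : ↥(zchClosure (A₀ := A₀) ({u} : Set F)), s ∈ 𝔫.1 ∧
      NodesLocGen 𝔫.1 {algebraMap A₀ ↥(zchClosure (A₀ := A₀) ({u} : Set F)) π, s}) ∨
    ∃ X Y w : ↥(zchClosure (A₀ := A₀) ({u} : Set F)), w ∉ 𝔫.1 ∧
      w * algebraMap A₀ ↥(zchClosure (A₀ := A₀) ({u} : Set F)) π = X * Y ∧ X ∈ 𝔫.1 ∧ Y ∈ 𝔫.1 ∧
      NodesLocGen 𝔫.1 {algebraMap A₀ ↥(zchClosure (A₀ := A₀) ({u} : Set F)) π, X, Y} ∧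
      ∀ g ∈ 𝒢, (∃ a' : ↥(zchClosure (A₀ := A₀) ({u} : Set F)),
          g • (X : F) = (a' : F) * (X : F)) ∧
        ∃ b' : ↥(zchClosure (A₀ := A₀) ({u} : Set F)), g • (Y : F) = (b' : F) * (Y : F) := by
  rcases h with ⟨s, hs, hgen⟩ | ⟨c₁, c₂, X, Y, w, hcr, hC⟩
  · refine Or.inl ⟨s, hs, ?_⟩
    rw [Ideal.comap_id] at hgen
    exact hgen
  · obtain ⟨h₁, h₂, hX, hY, hw, hXY, hgen⟩ := hcr
    rw [Ideal.comap_id] at hgen
    refine Or.inr ⟨X, Y, w, hw, hXY, h₁ X hX, h₂ Y hY, hgen, fun g hg => ?_⟩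
    obtain ⟨-, -, a', b', -, -, hgX, hgY⟩ := hC g hg
    exact ⟨⟨a', hgX⟩, ⟨b', hgY⟩⟩

variable {K R₀ : Type u} [Field K] [CharZero K] [Algebra K F] [CommRing R₀] [IsDomain R₀]
  [IsIntegrallyClosed R₀] [IsNoetherianRing R₀] [Algebra R₀ K] [IsFractionRing R₀ K]
  [Algebra R₀ F] [IsScalarTower R₀ K F]

/-- **The conditions on an automorphism `g`** for C4+ at a crossing point with étale generators
`S` and ramified generator `y`: `g` fixes the coordinate, preserves the base, fixes `K` and `S`,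
and multiplies the uniformizer and `y` by units of `R₀`. -/
def Rtk6c4aAut (R₀ K : Type u) [Field K] [Algebra K F] [CommRing R₀] [Algebra R₀ F]
    (π : A₀) (u : F) (S : Set F) (y : F) (g : SemilinearAut E F) : Prop :=
  g • u = u ∧
  (∀ α : A₀, ∃ α' : A₀, g • algebraMap A₀ F α = algebraMap A₀ F α') ∧
  (∀ α : A₀, ∃ α' : A₀, g⁻¹ • algebraMap A₀ F α = algebraMap A₀ F α') ∧
  (∀ k : K, g • algebraMap K F k = algebraMap K F k) ∧ (∀ t ∈ S, g • t = t) ∧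
  ∃ α β : R₀, IsUnit α ∧ IsUnit β ∧
    g • algebraMap A₀ F π = algebraMap R₀ F α * algebraMap A₀ F π ∧
    g • y = algebraMap R₀ F β * y

omit [CharZero K] [IsDomain R₀] [IsIntegrallyClosed R₀] [IsNoetherianRing R₀] [Algebra R₀ K]
  [IsFractionRing R₀ K] [IsScalarTower R₀ K F] in
/-- the conditions on `g` are invariant under rescaling of the generators by elements of `K`:
if `g` satisfies them for `S₀`, `y₀`, then also for `y = k_y y₀` and every `S` whose elements are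
`K`-multiples of elements of `S₀`. -/
theorem Rtk6c4aAut.rescale {u : F} {S₀ S : Set F} {y₀ y : F} {g : SemilinearAut E F}
    (h : Rtk6c4aAut R₀ K π u S₀ y₀ g) (ky : K) (hy : y = algebraMap K F ky * y₀)
    (hS : ∀ t ∈ S, ∃ k : K, ∃ t₀ ∈ S₀, t = algebraMap K F k * t₀) :
    Rtk6c4aAut R₀ K π u S y g := by
  obtain ⟨hgu, hgA, hgA', hgK, hgS, α, β, hα, hβ, hgϖ, hgy⟩ := h
  refine ⟨hgu, hgA, hgA', hgK, fun t ht => ?_, α, β, hα, hβ, hgϖ, ?_⟩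
  · obtain ⟨k, t₀, ht₀, rfl⟩ := hS t ht
    rw [smul_mul', hgK, hgS t₀ ht₀]
  · rw [hy, smul_mul', hgK, hgy]
    ring

/-- **The crossing alternative, with C4+.** -/
theorem rtk6c4a_cross {u : F} (𝔫 : AtPt (F := F) π u)
    (j : R₀ →+* ↥(zchClosure (A₀ := A₀) ({u} : Set F)))
    (ι : ↥(zchClosure (A₀ := A₀) ({u} : Set F)) →+* F) (hιv : ∀ b, ι b = (b : F))
    {d dS : ℕ} {ζ p X₀ Y₀ w : R₀} {S : Set F} {y : F} {γ : K} {e₁ e₂ : R₀} {n₀ a b : ℤ}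
    {σ δ : F ≃ₐ[K] F}
    (h : Rtk6c4CrossE j ι 𝔫.1 d dS ζ p X₀ Y₀ w S (algebraMap A₀ F π) y γ e₁ e₂ n₀ a b σ δ)
    (V : κ → ValuationSubring F)
    (hBV : ∀ c (z : F), IsIntegral ↥(Algebra.adjoin A₀ {u}) z → z ∈ V c)
    (Vb₁ Vb₂ : ValuationSubring K)
    (hX₁ : algebraMap R₀ K X₀ ∈ Vb₁.nonunits) (hY₁ : algebraMap R₀ K Y₀ ∉ Vb₁.nonunits)
    (hY₂ : algebraMap R₀ K Y₀ ∈ Vb₂.nonunits) (hX₂ : algebraMap R₀ K X₀ ∉ Vb₂.nonunits)
    (c₁ c₂ : κ) (hthr₁ : atThrough 𝔫 (V c₁)) (hthr₂ : atThrough 𝔫 (V c₂))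
    (hc₁ : ∀ x : K, algebraMap K F x ∈ (V c₁).nonunits ↔ x ∈ Vb₁.nonunits)
    (hc₂ : ∀ x : K, algebraMap K F x ∈ (V c₂).nonunits ↔ x ∈ Vb₂.nonunits)
    (𝒢 : Set (SemilinearAut E F)) (h𝒢 : ∀ g ∈ 𝒢, Rtk6c4aAut R₀ K π u S y g) :
    Rtk6c4aPlusAt V 𝒢 𝔫 := by
  have hjF : ∀ x : R₀, ((j x : ↥(zchClosure (A₀ := A₀) ({u} : Set F))) : F) =
      algebraMap K F (algebraMap R₀ K x) := fun x => by
    rw [← hιv, h.hjι, IsScalarTower.algebraMap_apply R₀ K F]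
  obtain ⟨X, Y, w', hcr, hC⟩ := rtk6c4x_crossAtE (E := E) 𝔫 j ι hιv h (V c₁) (V c₂) (hBV c₁)
    (hBV c₂)
    hthr₁ hthr₂
    (by rw [hjF]; exact (hc₁ _).2 hX₁)
    (by rw [hjF]; exact fun hh => hY₁ ((hc₁ _).1 hh))
    (by rw [hjF]; exact (hc₂ _).2 hY₂)
    (by rw [hjF]; exact fun hh => hX₂ ((hc₂ _).1 hh))
  refine Or.inr ⟨c₁, c₂, X, Y, w', hcr, fun g hg => ?_⟩
  obtain ⟨hgu, hgA, hgA', hgK, hgS, α, β, hα, hβ, hgϖ, hgy⟩ := h𝒢 g hg
  obtain ⟨hfix, hcong, a', b', ha', hb', hgX, hgY⟩ :=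
    hC g hgu hgA hgA' hgK hgS α β hα hβ hgϖ hgy
  exact ⟨hfix, hcong, j a', j b', ha'.map j, hb'.map j, hgX, hgY⟩

end C4Asm

end Fermat.Agent.RT.K6
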