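/-
RT-K6, piece C4-F, half (F3) + (F4) (helper36; (F1) + (F2) = helper70, `RT/K6/C4FSetup.lean`).

Setting: `f : E₀ →+* E₁` fields of characteristic `0`, algebraic over `ℚ`; `M ∣ L`; `ψ : (ℤ/M)ˣ →* E₀ˣ`
a character; `F₁ = fieldC E₁ L M H`, `ι = coeffHom f ∘ incl : FullC E₀ L →+* F₁`, `K = range ι`;
`y_ψ = rtk6d0Y E₁ M H ⊤ (f ∘ ψ) ∈ F₁` (= the coefficientwise image of the resolvent over `E₀`).

* `rtk6c4fd_coeffMap_Y`   : `coeffMap f (y over E₀) = y over E₁`;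
* (F4) `rtk6c4fd_pow_mem` : `ψ ^ d = 1 ⇒ y_ψ ^ d ∈ range ι`;  `rtk6c4fd_Y_ne_zero`;
* (F3) `rtk6c4fd_diamond_iota`, `rtk6c4fd_diamond_const`, `rtk6c4fd_diamond_Y` : a diamond `δ_c` of `F₁`
  fixes `range ι` pointwise and the constants, and `δ_c y_ψ = f (ψ c) • y_ψ`;
  `rtk6c4fd_diamond_comm` : it commutes with the coefficientwise action of `σ ∈ G_ℚ` stabilising `E₁`.
-/
import Fermat.Agent.RT.K6.D0Gal
import Fermat.Agent.RT.K6.DISetup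
import Fermat.Agent.RT.K6.DIWRel

set_option autoImplicit false
set_option linter.style.haveILetI false
set_option linter.unusedSectionVars false
set_option linter.unusedVariables false

noncomputable section

namespace Fermat.Agent.RT.K6

open HahnSeries ModularCurve AlgebraicCurve IntermediateField
open Fermat.Agent.ES Fermat.Agent.ES.G2 Fermat.Agent.INJ Fermat.Agent.UNIP Fermat.Agent.ES1
  Fermat.Agent.ES1.G2

section Generic

variable {E₀ E₁ : Type} [Field E₀] [Field E₁] (f : E₀ →+* E₁)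
  (L M : ℕ) [NeZero M] (H D : Subgroup (ZMod M)ˣ) (ψ : (ZMod M)ˣ →* E₀ˣ)

/-- the character `f ∘ ψ` -/
def rtk6c4fdPsi : (ZMod M)ˣ →* E₁ˣ := (Units.map (f : E₀ →* E₁)).comp ψ

@[simp]
theorem rtk6c4fdPsi_apply (c : (ZMod M)ˣ) :
    ((rtk6c4fdPsi f M ψ c : E₁ˣ) : E₁) = f ((ψ c : E₀ˣ) : E₀) := rfl

theorem rtk6c4fdPsi_inv_apply (c : (ZMod M)ˣ) :
    (((rtk6c4fdPsi f M ψ c)⁻¹ : E₁ˣ) : E₁) = f (((ψ c)⁻¹ : E₀ˣ) : E₀) := by
  have h : (rtk6c4fdPsi f M ψ c)⁻¹ = Units.map (f : E₀ →* E₁) ((ψ c)⁻¹) :=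
    (map_inv (Units.map (f : E₀ →* E₁)) (ψ c)).symm
  rw [h]
  rfl

theorem rtk6c4fdPsi_pow {d : ℕ} (hd : ∀ c, ψ c ^ d = 1) (c : (ZMod M)ˣ) :
    rtk6c4fdPsi f M ψ c ^ d = 1 := by
  show Units.map (f : E₀ →* E₁) (ψ c) ^ d = 1
  rw [← map_pow (Units.map (f : E₀ →* E₁)) (ψ c) d, hd c, map_one]

theorem rtk6c4fdPsi_H (hψH : ∀ h ∈ H, ψ h = 1) : ∀ h ∈ H, rtk6c4fdPsi f M ψ h = 1 := by
  intro h hh
  show Units.map (f : E₀ →* E₁) (ψ h) = 1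
  rw [hψH h hh, map_one]

theorem rtk6c4fdPsi_neg (hψ1 : ψ (-1) = 1) : rtk6c4fdPsi f M ψ (-1) = 1 := by
  show Units.map (f : E₀ →* E₁) (ψ (-1)) = 1
  rw [hψ1, map_one]

/-- **base change of the resolvent** -/
theorem rtk6c4fd_coeffMap_Y :
    coeffMap f (rtk6d0Y E₀ M H D ψ) = rtk6d0Y E₁ M H D (rtk6c4fdPsi f M ψ) := by
  unfold rtk6d0Y
  rw [map_sum]
  refine Finset.sum_congr rfl fun c _ => ?_
  rw [map_mul, es1f_coeffMap_sS, rtk6c4fdPsi_inv_apply]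
  congr 1
  rw [← LaurentSeries.algebraMap_apply, ← LaurentSeries.algebraMap_apply]
  exact nf_coeffMap_algebraMap f _

/-- the map `ι : FullC E₀ L →+* fieldC E₁ L M H` (coefficient extension of the `Γ₀(L)`-field) -/
def rtk6c4fdIota : modularFunctionFieldFullC E₀ L →+* fieldC E₁ L M H :=
  (rtk6diCoeffHom L M H f).comp (rtk6diIncl L M H)

@[simp]
theorem rtk6c4fdIota_coe (z : modularFunctionFieldFullC E₀ L) :
    ((rtk6c4fdIota f L M H z : fieldC E₁ L M H) : LaurentSeries E₁)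
      = coeffMap f (z : LaurentSeries E₀) := by
  show ((rtk6diCoeffHom L M H f (rtk6diIncl L M H z) : fieldC E₁ L M H) : LaurentSeries E₁) = _
  rw [rtk6diCoeffHom_coe, rtk6diIncl_coe]

/-- the image of `ι` lies in the `Γ₀(L)`-field over `E₁` -/
theorem rtk6c4fdIota_mem_full (z : modularFunctionFieldFullC E₀ L) :
    ((rtk6c4fdIota f L M H z : fieldC E₁ L M H) : LaurentSeries E₁)
      ∈ modularFunctionFieldFullC E₁ L := by
  rw [rtk6c4fdIota_coe]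
  exact nf_coeffMap_mem_fullC f L z.2

theorem rtk6c4fdIota_algebraMap (a : E₀) :
    rtk6c4fdIota f L M H (algebraMap E₀ (modularFunctionFieldFullC E₀ L) a)
      = algebraMap E₁ (fieldC E₁ L M H) (f a) := by
  show rtk6diCoeffHom L M H f (rtk6diIncl L M H _) = _
  rw [rtk6diIncl_algebraMap, rtk6diCoeffHom_algebraMap]

/-- the resolvent `y_ψ ∈ fieldC E₁ L M H` -/
def rtk6c4fdY (hML : M ∣ L) : fieldC E₁ L M H :=
  ⟨rtk6d0Y E₁ M H ⊤ (rtk6c4fdPsi f M ψ), rtk6d0Y_mem E₁ M H ⊤ _ hML⟩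

@[simp]
theorem rtk6c4fdY_coe (hML : M ∣ L) :
    ((rtk6c4fdY f L M H ψ hML : fieldC E₁ L M H) : LaurentSeries E₁)
      = rtk6d0Y E₁ M H ⊤ (rtk6c4fdPsi f M ψ) := rfl

/-- `y_ψ` is the coefficientwise image of the resolvent over `E₀` -/
theorem rtk6c4fdY_eq (hML : M ∣ L) :
    rtk6c4fdY f L M H ψ hML
      = rtk6diCoeffHom L M H f ⟨rtk6d0Y E₀ M H ⊤ ψ, rtk6d0Y_mem E₀ M H ⊤ ψ hML⟩ := by
  apply Subtype.ext
  rw [rtk6c4fdY_coe, rtk6diCoeffHom_coe]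
  exact (rtk6c4fd_coeffMap_Y f M H ⊤ ψ).symm

/-- **(F4)** `y_ψ ≠ 0` -/
theorem rtk6c4fdY_ne_zero [CharZero E₁] (hML : M ∣ L) (hM : 3 ≤ M) (hψH : ∀ h ∈ H, ψ h = 1)
    (hψ1 : ψ (-1) = 1) : rtk6c4fdY f L M H ψ hML ≠ 0 := by
  intro h0
  have h1 := congrArg Subtype.val h0
  exact rtk6d0Y_ne_zero E₁ ⊤ (rtk6c4fdPsi f M ψ) hM (rtk6c4fdPsi_H f M H ψ hψH)
    (rtk6c4fdPsi_neg f M ψ hψ1) h1

/-- **(F4)** `y_ψ ^ d ∈ range ι` if `ψ ^ d = 1` -/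
theorem rtk6c4fd_pow_mem [CharZero E₀] [Algebra.IsAlgebraic ℚ E₀] (hL : L ≠ 0) (hML : M ∣ L)
    {d : ℕ} (hd : ∀ c, ψ c ^ d = 1) :
    ∃ z : modularFunctionFieldFullC E₀ L,
      rtk6c4fdIota f L M H z = rtk6c4fdY f L M H ψ hML ^ d := by
  have h := rtk6d0_pow_mem_full E₀ H ψ hL hML hd
  refine ⟨⟨_, h⟩, ?_⟩
  apply Subtype.ext
  rw [rtk6c4fdIota_coe]
  show coeffMap f (rtk6d0Y E₀ M H ⊤ ψ ^ d) = ((rtk6c4fdY f L M H ψ hML ^ d : fieldC E₁ L M H) :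
    LaurentSeries E₁)
  rw [map_pow, rtk6c4fd_coeffMap_Y]
  rfl

/-! ### (F3): the diamonds -/

variable {f L M H ψ}

/-- **(F3)** a diamond fixes `range ι` pointwise -/
theorem rtk6c4fd_diamond_iota {c : (ZMod M)ˣ}
    {δ : fieldC E₁ L M H ≃ₐ[E₁] fieldC E₁ L M H} (hδ : IsDiamondC E₁ L M H c δ)
    (z : modularFunctionFieldFullC E₀ L) :
    δ (rtk6c4fdIota f L M H z) = rtk6c4fdIota f L M H z :=
  hδ.fix _ (rtk6c4fdIota_mem_full f L M H z)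

/-- **(F3)** a diamond fixes the constants -/
theorem rtk6c4fd_diamond_const (δ : fieldC E₁ L M H ≃ₐ[E₁] fieldC E₁ L M H) (a : E₁) :
    δ (algebraMap E₁ (fieldC E₁ L M H) a) = algebraMap E₁ (fieldC E₁ L M H) a :=
  δ.commutes a

/-- **(F3)** `δ_c y_ψ = ψ(c) · y_ψ` -/
theorem rtk6c4fd_diamond_Y [CharZero E₁] [Algebra.IsAlgebraic ℚ E₁] (hML : M ∣ L)
    {c : (ZMod M)ˣ} {δ : fieldC E₁ L M H ≃ₐ[E₁] fieldC E₁ L M H}
    (hδ : IsDiamondC E₁ L M H c δ) :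
    δ (rtk6c4fdY f L M H ψ hML)
      = algebraMap E₁ (fieldC E₁ L M H) (f ((ψ c : E₀ˣ) : E₀)) * rtk6c4fdY f L M H ψ hML := by
  apply Subtype.ext
  have h := rtk6d0_diamond_Y (rtk6c4fdPsi f M ψ) hML hδ
  rw [show (δ (rtk6c4fdY f L M H ψ hML) : fieldC E₁ L M H)
    = δ ⟨rtk6d0Y E₁ M H ⊤ (rtk6c4fdPsi f M ψ), rtk6d0Y_mem E₁ M H ⊤ _ hML⟩ from rfl, h,
    MulMemClass.coe_mul, rtk6c4fdY_coe, rtk6c4fdPsi_apply, ← LaurentSeries.algebraMap_apply]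
  rfl

/-! ### The diamonds as automorphisms over `K = FullC E₀ L` (algebra structure `= ι`) -/

/-- **(F3)** a diamond of `fieldC E₁ L M H`, as an automorphism over the `Γ₀(L)`-field over `E₀`,
for ANY algebra structure whose `algebraMap` is `ι` (e.g. `ι.toAlgebra`). -/
def rtk6c4fdDiamK [Algebra (modularFunctionFieldFullC E₀ L) (fieldC E₁ L M H)]
    (halg : ∀ z : modularFunctionFieldFullC E₀ L,
      algebraMap (modularFunctionFieldFullC E₀ L) (fieldC E₁ L M H) z = rtk6c4fdIota f L M H z)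
    {c : (ZMod M)ˣ} {δ : fieldC E₁ L M H ≃ₐ[E₁] fieldC E₁ L M H}
    (hδ : IsDiamondC E₁ L M H c δ) :
    fieldC E₁ L M H ≃ₐ[modularFunctionFieldFullC E₀ L] fieldC E₁ L M H :=
  AlgEquiv.ofRingEquiv (f := δ.toRingEquiv) (fun z => by
    rw [halg]
    exact rtk6c4fd_diamond_iota hδ z)

@[simp]
theorem rtk6c4fdDiamK_apply [Algebra (modularFunctionFieldFullC E₀ L) (fieldC E₁ L M H)]
    (halg : ∀ z : modularFunctionFieldFullC E₀ L,
      algebraMap (modularFunctionFieldFullC E₀ L) (fieldC E₁ L M H) z = rtk6c4fdIota f L M H z)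
    {c : (ZMod M)ˣ} {δ : fieldC E₁ L M H ≃ₐ[E₁] fieldC E₁ L M H}
    (hδ : IsDiamondC E₁ L M H c δ) (x : fieldC E₁ L M H) :
    rtk6c4fdDiamK halg hδ x = δ x := rfl

/-- `δ_K` fixes the constants of `E₁` (e.g. `ϖ₁`) -/
theorem rtk6c4fdDiamK_const [Algebra (modularFunctionFieldFullC E₀ L) (fieldC E₁ L M H)]
    (halg : ∀ z : modularFunctionFieldFullC E₀ L,
      algebraMap (modularFunctionFieldFullC E₀ L) (fieldC E₁ L M H) z = rtk6c4fdIota f L M H z)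
    {c : (ZMod M)ˣ} {δ : fieldC E₁ L M H ≃ₐ[E₁] fieldC E₁ L M H}
    (hδ : IsDiamondC E₁ L M H c δ) (a : E₁) :
    rtk6c4fdDiamK halg hδ (algebraMap E₁ (fieldC E₁ L M H) a)
      = algebraMap E₁ (fieldC E₁ L M H) a :=
  δ.commutes a

/-- `δ_K y_ψ = ι(ψ c) · y_ψ` (the factor is the constant `ψ c ∈ E₀ ⊆ K`) -/
theorem rtk6c4fdDiamK_Y [CharZero E₁] [Algebra.IsAlgebraic ℚ E₁]
    [Algebra (modularFunctionFieldFullC E₀ L) (fieldC E₁ L M H)]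
    (halg : ∀ z : modularFunctionFieldFullC E₀ L,
      algebraMap (modularFunctionFieldFullC E₀ L) (fieldC E₁ L M H) z = rtk6c4fdIota f L M H z)
    (hML : M ∣ L) {c : (ZMod M)ˣ} {δ : fieldC E₁ L M H ≃ₐ[E₁] fieldC E₁ L M H}
    (hδ : IsDiamondC E₁ L M H c δ) :
    rtk6c4fdDiamK halg hδ (rtk6c4fdY f L M H ψ hML)
      = algebraMap (modularFunctionFieldFullC E₀ L) (fieldC E₁ L M H)
          (algebraMap E₀ (modularFunctionFieldFullC E₀ L) ((ψ c : E₀ˣ) : E₀))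
        * rtk6c4fdY f L M H ψ hML := by
  rw [rtk6c4fdDiamK_apply, rtk6c4fd_diamond_Y hML hδ, halg, rtk6c4fdIota_algebraMap]

/-- `y_ψ ^ d ∈ K` in the algebra form -/
theorem rtk6c4fd_pow_mem_K [CharZero E₀] [Algebra.IsAlgebraic ℚ E₀]
    [Algebra (modularFunctionFieldFullC E₀ L) (fieldC E₁ L M H)]
    (halg : ∀ z : modularFunctionFieldFullC E₀ L,
      algebraMap (modularFunctionFieldFullC E₀ L) (fieldC E₁ L M H) z = rtk6c4fdIota f L M H z)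
    (hL : L ≠ 0) (hML : M ∣ L) {d : ℕ} (hd : ∀ c, ψ c ^ d = 1) :
    ∃ z : modularFunctionFieldFullC E₀ L,
      algebraMap (modularFunctionFieldFullC E₀ L) (fieldC E₁ L M H) z
        = rtk6c4fdY f L M H ψ hML ^ d := by
  obtain ⟨z, hz⟩ := rtk6c4fd_pow_mem f L M H ψ hL hML hd
  exact ⟨z, by rw [halg, hz]⟩

/-- two diamonds commute on `y_ψ`, and the composite of diamonds is the diamond of the product:
`δ_c δ_{c'} y_ψ = ψ(c c') y_ψ` -/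
theorem rtk6c4fd_diamond_diamond_Y [CharZero E₁] [Algebra.IsAlgebraic ℚ E₁] (hML : M ∣ L)
    {c c' : (ZMod M)ˣ} {δ δ' : fieldC E₁ L M H ≃ₐ[E₁] fieldC E₁ L M H}
    (hδ : IsDiamondC E₁ L M H c δ) (hδ' : IsDiamondC E₁ L M H c' δ') :
    δ (δ' (rtk6c4fdY f L M H ψ hML))
      = algebraMap E₁ (fieldC E₁ L M H) (f ((ψ (c * c') : E₀ˣ) : E₀))
        * rtk6c4fdY f L M H ψ hML := by
  rw [rtk6c4fd_diamond_Y hML hδ', map_mul, rtk6c4fd_diamond_const, rtk6c4fd_diamond_Y hML hδ,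
    ← mul_assoc, ← map_mul, ← map_mul, ← Units.val_mul, ← map_mul, mul_comm c' c]

end Generic

/-! ### Commutation with the coefficientwise Galois action (concrete fields `⊆ ℚ̄`) -/

section Concrete

variable {K₁ : IntermediateField ℚ Qb} {L M : ℕ} {H : Subgroup (ZMod M)ˣ}

/-- **(F3)** a diamond of `fieldC K₁ L M H` commutes with the coefficientwise action of every
`σ ∈ G_ℚ` stabilising `K₁` (in particular with `s₁`).  (= helper96's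
`rtk6diw_diamond_coeffHom`.) -/
theorem rtk6c4fd_diamond_comm (hL : L ≠ 0) (hML : M ∣ L) {c : (ZMod M)ˣ}
    {δ : fieldC K₁ L M H ≃ₐ[K₁] fieldC K₁ L M H} (hδ : IsDiamondC ↥K₁ L M H c δ)
    (σ : Qb ≃ₐ[ℚ] Qb) (hσ : ∀ x ∈ K₁, σ x ∈ K₁) (x : fieldC K₁ L M H) :
    δ (rtk6diCoeffHom L M H (mgRestrict K₁ σ hσ) x)
      = rtk6diCoeffHom L M H (mgRestrict K₁ σ hσ) (δ x) :=
  rtk6diw_diamond_coeffHom hL hML hδ σ hσ x

/-- the coefficientwise action of `σ` fixes `y_ψ` if `σ` fixes the values of `ψ` -/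
theorem rtk6c4fd_coeffHom_Y [NeZero M] {E₀ : Type} [Field E₀] (f : E₀ →+* K₁)
    (ψ : (ZMod M)ˣ →* E₀ˣ) (hML : M ∣ L) (σ : Qb ≃ₐ[ℚ] Qb) (hσ : ∀ x ∈ K₁, σ x ∈ K₁)
    (hfix : ∀ a : E₀, σ (f a : Qb) = (f a : Qb)) :
    rtk6diCoeffHom L M H (mgRestrict K₁ σ hσ) (rtk6c4fdY f L M H ψ hML)
      = rtk6c4fdY f L M H ψ hML := by
  rw [rtk6c4fdY_eq, rtk6diCoeffHom_comp]
  apply rtk6diCoeffHom_congr
  intro a
  apply Subtype.ext
  exact hfix a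

/-- the coefficientwise action of `σ` fixes `range ι` if `σ` fixes `f E₀` -/
theorem rtk6c4fd_coeffHom_iota [NeZero M] {E₀ : Type} [Field E₀] (f : E₀ →+* K₁)
    (σ : Qb ≃ₐ[ℚ] Qb) (hσ : ∀ x ∈ K₁, σ x ∈ K₁)
    (hfix : ∀ a : E₀, σ (f a : Qb) = (f a : Qb)) (z : modularFunctionFieldFullC E₀ L) :
    rtk6diCoeffHom L M H (mgRestrict K₁ σ hσ) (rtk6c4fdIota f L M H z)
      = rtk6c4fdIota f L M H z := by
  show rtk6diCoeffHom L M H (mgRestrict K₁ σ hσ)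
    (rtk6diCoeffHom L M H f (rtk6diIncl L M H z)) = rtk6diCoeffHom L M H f (rtk6diIncl L M H z)
  rw [rtk6diCoeffHom_comp]
  apply rtk6diCoeffHom_congr
  intro a
  apply Subtype.ext
  exact hfix a

/-- the coefficientwise action of `σ` on a constant -/
theorem rtk6c4fd_coeffHom_const (σ : Qb ≃ₐ[ℚ] Qb) (hσ : ∀ x ∈ K₁, σ x ∈ K₁) (a : K₁) :
    rtk6diCoeffHom L M H (mgRestrict K₁ σ hσ) (algebraMap K₁ (fieldC K₁ L M H) a)
      = algebraMap K₁ (fieldC K₁ L M H) (mgRestrict K₁ σ hσ a) :=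
  rtk6diCoeffHom_algebraMap L M H _ a

end Concrete

end Fermat.Agent.RT.K6
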