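/-
RT-K6, piece C4-F, part (F2) (helper70): the automorphism `s₁` of `F₁ = fieldC E₁ L M H`.

* `rtk6c4fa_not_pow`, `rtk6c4fa_irreducible` : `X ^ d − r` is irreducible over `E₀ = ℚ̄^I`
  (`d` odd; the value group of `E₀` is generated by `v(r)`);
* `rtk6c4fa_exists_inertia` : the inertia group permutes the roots of `X ^ d − r` transitively:
  `ϖ ^ d = r = ϖ' ^ d ⇒ ∃ σ ∈ I, σ ϖ = ϖ'`;  `rtk6c4fa_exists_zeta` : `∃ σ ∈ I, σ ϖ = ζ ϖ`;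
* `rtk6c4faS1 halg σ hσ hfix : F₁ ≃ₐ[K] F₁` : the coefficientwise action of `σ` (stabilising `E₁`,
  fixing `f E₀`) as an automorphism over `K = FullC E₀ L` (algebra structure `= ι`);
  `rtk6c4faS1_apply`, `_const`, `_Y`, `_iota`, `_diamond`;
* `rtk6c4fa_main` : the concrete statement at `E₀ = ℚ̄^I`, `E₁ = mgcE A K₁`.
-/
import Fermat.Agent.RT.K6.C4FDiam
import Fermat.Agent.UNIP.Beta0Ext
import Fermat.Agent.UNIP.Beta0Tot

set_option autoImplicit false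
set_option linter.style.haveILetI false
set_option linter.unusedSectionVars false
set_option linter.unusedVariables false

noncomputable section

namespace Fermat.Agent.RT.K6

open ModularCurve AlgebraicCurve IntermediateField
open Fermat.Agent.ES Fermat.Agent.ES.G2 Fermat.Agent.INJ Fermat.Agent.UNIP Fermat.Agent.ES1
  Fermat.Agent.ES1.G2

/-! ### The inertia group permutes the roots of `X ^ d − r` transitively -/

section Inertia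

variable {A : ValuationSubring Qb} {r d : ℕ}

/-- `r` is not a `p`-th power in `E₀ = ℚ̄^I` -/
theorem rtk6c4fa_not_pow (hr : r.Prime) (hA : A.LiesOverPrime r) {p : ℕ} (hp : p.Prime)
    (b : ↥(beta0Field A)) : b ^ p ≠ ((r : ℕ) : ↥(beta0Field A)) := by
  intro hb
  have hr0 : ((r : ℕ) : Qb) ≠ 0 := Nat.cast_ne_zero.mpr hr.ne_zero
  have hbQ : (b : Qb) ^ p = ((r : ℕ) : Qb) := by
    have := congrArg (fun z : ↥(beta0Field A) => (z : Qb)) hb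
    simpa using this
  have hb0 : (b : Qb) ≠ 0 := by
    intro h0
    rw [h0, zero_pow hp.ne_zero] at hbQ
    exact hr0 hbQ.symm
  obtain ⟨k, hk⟩ := beta0_valuation_eq_zpow hr hA b.2 hb0
  have hv1 : A.valuation ((r : ℕ) : Qb) < 1 := (ValuationSubring.mem_nonunits_iff A).mp hA
  have hv0 : 0 < A.valuation ((r : ℕ) : Qb) :=
    zero_lt_iff.mpr ((Valuation.ne_zero_iff _).mpr hr0)
  have h1 : A.valuation ((r : ℕ) : Qb) ^ (k * (p : ℤ)) = A.valuation ((r : ℕ) : Qb) ^ (1 : ℤ) := by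
    rw [zpow_mul, ← hk, zpow_natCast, ← map_pow, hbQ, zpow_one]
  have h2 : k * (p : ℤ) = 1 := zpow_right_injective₀ hv0 hv1.ne h1
  have h3 : ((p : ℤ)) ∣ 1 := ⟨k, by rw [mul_comm]; exact h2.symm⟩
  have h4 : (p : ℤ) = 1 ∨ (p : ℤ) = -1 := Int.isUnit_iff.mp (isUnit_of_dvd_one h3)
  have hp2 := hp.two_le
  omega

/-- `X ^ d − r` is irreducible over `E₀ = ℚ̄^I` (`d` odd) -/
theorem rtk6c4fa_irreducible (hr : r.Prime) (hA : A.LiesOverPrime r) (hd : Odd d) :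
    Irreducible (Polynomial.X ^ d - Polynomial.C (((r : ℕ) : ↥(beta0Field A))) : Polynomial ↥(beta0Field A)) :=
  X_pow_sub_C_irreducible_of_odd hd (fun p hp _ b => rtk6c4fa_not_pow hr hA hp b)

/-- **The inertia group permutes the roots of `X ^ d − r` transitively.** -/
theorem rtk6c4fa_exists_inertia (hr : r.Prime) (hA : A.LiesOverPrime r) (hd : Odd d)
    {ϖ ϖ' : Qb} (hϖ : ϖ ^ d = ((r : ℕ) : Qb)) (hϖ' : ϖ' ^ d = ((r : ℕ) : Qb)) :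
    ∃ σ ∈ A.inertiaSubgroupIn ℚ, σ ϖ = ϖ' := by
  have hd0 : d ≠ 0 := hd.pos.ne'
  have hirr := rtk6c4fa_irreducible hr hA hd
  have hmonic : (Polynomial.X ^ d - Polynomial.C (((r : ℕ) : ↥(beta0Field A))) : Polynomial ↥(beta0Field A)).Monic :=
    Polynomial.monic_X_pow_sub_C _ hd0
  have hev : ∀ x : Qb, x ^ d = ((r : ℕ) : Qb) →
      Polynomial.aeval x (Polynomial.X ^ d - Polynomial.C (((r : ℕ) : ↥(beta0Field A))) : Polynomial ↥(beta0Field A)) = 0 := by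
    intro x hx
    rw [map_sub, map_pow, Polynomial.aeval_X, Polynomial.aeval_C, hx, map_natCast, sub_self]
  have hmin : minpoly ↥(beta0Field A) ϖ
      = (Polynomial.X ^ d - Polynomial.C (((r : ℕ) : ↥(beta0Field A))) : Polynomial ↥(beta0Field A)) :=
    (minpoly.eq_of_irreducible_of_monic hirr (hev ϖ hϖ) hmonic).symm
  haveI hnormQ : Normal ℚ Qb := by
    have h1 : @Normal ℚ (AlgebraicClosure ℚ) _ _ (AlgebraicClosure.instAlgebra ℚ) := inferInstance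
    convert h1
    exact Subsingleton.elim _ _
  haveI hnorm : Normal ↥(beta0Field A) Qb := Normal.tower_top_of_normal ℚ ↥(beta0Field A) Qb
  have halg : IsAlgebraic ↥(beta0Field A) ϖ := hnorm.isAlgebraic ϖ
  have hroot : Polynomial.aeval ϖ' (minpoly ↥(beta0Field A) ϖ) = 0 := by
    rw [hmin]
    exact hev ϖ' hϖ'
  obtain ⟨σ₀, hσ₀⟩ := minpoly.exists_algEquiv_of_root' halg hroot
  refine ⟨σ₀.restrictScalars ℚ, ?_, hσ₀⟩
  refine beta0_mem_inertia_of_fixes hr hA _ (fun x hx => ?_)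
  exact σ₀.commutes ⟨x, hx⟩

/-- `∃ σ ∈ I, σ ϖ = ζ ϖ` for every `d`-th root of unity `ζ` -/
theorem rtk6c4fa_exists_zeta (hr : r.Prime) (hA : A.LiesOverPrime r) (hd : Odd d)
    {ϖ ζ : Qb} (hϖ : ϖ ^ d = ((r : ℕ) : Qb)) (hζ : ζ ^ d = 1) :
    ∃ σ ∈ A.inertiaSubgroupIn ℚ, σ ϖ = ζ * ϖ :=
  rtk6c4fa_exists_inertia hr hA hd hϖ (by rw [mul_pow, hζ, one_mul, hϖ])

end Inertia

/-! ### `s₁` as an automorphism over `K = FullC E₀ L` -/

section S1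

variable {K₁ : IntermediateField ℚ Qb} {L M : ℕ} [NeZero M] {H : Subgroup (ZMod M)ˣ}
  {E₀ : Type} [Field E₀] {f : E₀ →+* K₁}

/-- **(F2)** the coefficientwise action of `σ` (stabilising `E₁ = K₁`, fixing `f E₀`) as an
automorphism of `fieldC K₁ L M H` over the `Γ₀(L)`-field over `E₀`, for ANY algebra structure
whose `algebraMap` is `ι`. -/
def rtk6c4faS1 [Algebra (modularFunctionFieldFullC E₀ L) (fieldC K₁ L M H)]
    (halg : ∀ z : modularFunctionFieldFullC E₀ L,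
      algebraMap (modularFunctionFieldFullC E₀ L) (fieldC K₁ L M H) z = rtk6c4fdIota f L M H z)
    (σ : Qb ≃ₐ[ℚ] Qb) (hσ : ∀ x ∈ K₁, σ x ∈ K₁)
    (hfix : ∀ a : E₀, σ (f a : Qb) = (f a : Qb)) :
    fieldC K₁ L M H ≃ₐ[modularFunctionFieldFullC E₀ L] fieldC K₁ L M H :=
  AlgEquiv.ofRingEquiv (f := rtk6diRingAut L M H (mgaRestrictEquiv K₁ σ hσ)) (fun z => by
    rw [halg]
    exact rtk6c4fd_coeffHom_iota f σ hσ hfix z)

variable [Algebra (modularFunctionFieldFullC E₀ L) (fieldC K₁ L M H)]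
  (halg : ∀ z : modularFunctionFieldFullC E₀ L,
    algebraMap (modularFunctionFieldFullC E₀ L) (fieldC K₁ L M H) z = rtk6c4fdIota f L M H z)
  (σ : Qb ≃ₐ[ℚ] Qb) (hσ : ∀ x ∈ K₁, σ x ∈ K₁) (hfix : ∀ a : E₀, σ (f a : Qb) = (f a : Qb))

theorem rtk6c4faS1_apply (x : fieldC K₁ L M H) :
    rtk6c4faS1 halg σ hσ hfix x = rtk6diCoeffHom L M H (mgRestrict K₁ σ hσ) x := rfl

/-- `s₁ x = σ̂ • x` (the semilinear action `rtk6diGalGen`) -/
theorem rtk6c4faS1_eq_smul (x : fieldC K₁ L M H) :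
    rtk6c4faS1 halg σ hσ hfix x = rtk6diGalGen L M H (mgaRestrictEquiv K₁ σ hσ) • x := rfl

/-- `s₁` on the constants: `s₁ (C a) = C (σ a)` -/
theorem rtk6c4faS1_const (a : K₁) :
    rtk6c4faS1 halg σ hσ hfix (algebraMap K₁ (fieldC K₁ L M H) a)
      = algebraMap K₁ (fieldC K₁ L M H) (mgRestrict K₁ σ hσ a) :=
  rtk6c4fd_coeffHom_const σ hσ a

/-- `s₁ (C ϖ₁) = C ζ · C ϖ₁` if `σ ϖ₁ = ζ ϖ₁` -/
theorem rtk6c4faS1_varpi {ϖ₁ ζ : K₁} (hϖ : σ (ϖ₁ : Qb) = (ζ : Qb) * (ϖ₁ : Qb)) :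
    rtk6c4faS1 halg σ hσ hfix (algebraMap K₁ (fieldC K₁ L M H) ϖ₁)
      = algebraMap K₁ (fieldC K₁ L M H) ζ * algebraMap K₁ (fieldC K₁ L M H) ϖ₁ := by
  rw [rtk6c4faS1_const, ← map_mul]
  congr 1
  apply Subtype.ext
  rw [mgRestrict_coe, hϖ]
  rfl

/-- the same with the factor in `K`: `s₁ (C ϖ₁) = ι (C ζ₀) · C ϖ₁`, `ζ₀ ∈ E₀` -/
theorem rtk6c4faS1_varpi_K {ϖ₁ : K₁} {ζ₀ : E₀}
    (hϖ : σ (ϖ₁ : Qb) = ((f ζ₀ : K₁) : Qb) * (ϖ₁ : Qb)) :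
    rtk6c4faS1 halg σ hσ hfix (algebraMap K₁ (fieldC K₁ L M H) ϖ₁)
      = algebraMap (modularFunctionFieldFullC E₀ L) (fieldC K₁ L M H)
          (algebraMap E₀ (modularFunctionFieldFullC E₀ L) ζ₀)
        * algebraMap K₁ (fieldC K₁ L M H) ϖ₁ := by
  rw [rtk6c4faS1_varpi halg σ hσ hfix hϖ, halg, rtk6c4fdIota_algebraMap]

/-- `s₁ y_ψ = y_ψ` -/
theorem rtk6c4faS1_Y (ψ : (ZMod M)ˣ →* E₀ˣ) (hML : M ∣ L) :
    rtk6c4faS1 halg σ hσ hfix (rtk6c4fdY f L M H ψ hML) = rtk6c4fdY f L M H ψ hML :=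
  rtk6c4fd_coeffHom_Y f ψ hML σ hσ hfix

/-- `s₁` fixes `range ι` -/
theorem rtk6c4faS1_iota (z : modularFunctionFieldFullC E₀ L) :
    rtk6c4faS1 halg σ hσ hfix (rtk6c4fdIota f L M H z) = rtk6c4fdIota f L M H z :=
  rtk6c4fd_coeffHom_iota f σ hσ hfix z

/-- `s₁` commutes with the diamonds -/
theorem rtk6c4faS1_diamond (hL : L ≠ 0) (hML : M ∣ L) {c : (ZMod M)ˣ}
    {δ : fieldC K₁ L M H ≃ₐ[K₁] fieldC K₁ L M H} (hδ : IsDiamondC ↥K₁ L M H c δ)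
    (x : fieldC K₁ L M H) :
    δ (rtk6c4faS1 halg σ hσ hfix x) = rtk6c4faS1 halg σ hσ hfix (δ x) :=
  rtk6c4fd_diamond_comm hL hML hδ σ hσ x

/-- `s₁` commutes with the diamonds over `K` -/
theorem rtk6c4faS1_diamK (hL : L ≠ 0) (hML : M ∣ L) {c : (ZMod M)ˣ}
    {δ : fieldC K₁ L M H ≃ₐ[K₁] fieldC K₁ L M H} (hδ : IsDiamondC ↥K₁ L M H c δ)
    (x : fieldC K₁ L M H) :
    rtk6c4fdDiamK halg hδ (rtk6c4faS1 halg σ hσ hfix x)
      = rtk6c4faS1 halg σ hσ hfix (rtk6c4fdDiamK halg hδ x) :=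
  rtk6c4fd_diamond_comm hL hML hδ σ hσ x

end S1

/-! ### The concrete statement at `E₀ = ℚ̄^I`, `E₁ = mgcE A K₁′` -/

section Main

variable {A : ValuationSubring Qb} {r d : ℕ} {L M : ℕ} [NeZero M] {H : Subgroup (ZMod M)ˣ}

/-- **(F2), concrete form.**  `E₀ = ℚ̄^I`, `E₁ = mgcE A K₁′` (`K₁′` a Galois number field),
`ϖ₁ ∈ E₁` with `ϖ₁ ^ d = r` (`d` odd), `ζ₀ ∈ E₀` with `ζ₀ ^ d = 1`: there are `σ` in the inertia
group and the automorphism `s₁ = σ̂` of `F₁ = fieldC E₁ L M H` over `K = FullC E₀ L` with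
`s₁ (C ϖ₁) = ζ₀ · C ϖ₁`, `s₁ y_ψ = y_ψ`, `s₁` fixes `K`, and `s₁` commutes with the diamonds. -/
theorem rtk6c4fa_main (hr : r.Prime) (hA : A.LiesOverPrime r) (hd : Odd d)
    (K₁' : IntermediateField ℚ Qb) [NumberField ↥K₁'] [IsGalois ℚ ↥K₁']
    (f : ↥(beta0Field A) →+* ↥(mgcE A K₁'))
    (hf : ∀ a : ↥(beta0Field A), ((f a : ↥(mgcE A K₁')) : Qb) = (a : Qb))
    [Algebra (modularFunctionFieldFullC ↥(beta0Field A) L) (fieldC ↥(mgcE A K₁') L M H)]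
    (halg : ∀ z : modularFunctionFieldFullC ↥(beta0Field A) L,
      algebraMap (modularFunctionFieldFullC ↥(beta0Field A) L) (fieldC ↥(mgcE A K₁') L M H) z
        = rtk6c4fdIota f L M H z)
    (ϖ₁ : ↥(mgcE A K₁')) (hϖ : ϖ₁ ^ d = ((r : ℕ) : ↥(mgcE A K₁')))
    (ζ₀ : ↥(beta0Field A)) (hζ : ζ₀ ^ d = 1) :
    ∃ (σ : Qb ≃ₐ[ℚ] Qb) (_ : σ ∈ A.inertiaSubgroupIn ℚ)
      (hσE : ∀ x ∈ mgcE A K₁', σ x ∈ mgcE A K₁')
      (s₁ : fieldC ↥(mgcE A K₁') L M H ≃ₐ[modularFunctionFieldFullC ↥(beta0Field A) L]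
        fieldC ↥(mgcE A K₁') L M H),
      σ (ϖ₁ : Qb) = (ζ₀ : Qb) * (ϖ₁ : Qb) ∧
      (∀ x, s₁ x = rtk6diGal L M H σ hσE • x) ∧
      s₁ (algebraMap ↥(mgcE A K₁') (fieldC ↥(mgcE A K₁') L M H) ϖ₁)
        = algebraMap (modularFunctionFieldFullC ↥(beta0Field A) L) (fieldC ↥(mgcE A K₁') L M H)
            (algebraMap ↥(beta0Field A) (modularFunctionFieldFullC ↥(beta0Field A) L) ζ₀)
          * algebraMap ↥(mgcE A K₁') (fieldC ↥(mgcE A K₁') L M H) ϖ₁ ∧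
      (∀ (ψ : (ZMod M)ˣ →* (↥(beta0Field A))ˣ) (hML : M ∣ L),
        s₁ (rtk6c4fdY f L M H ψ hML) = rtk6c4fdY f L M H ψ hML) ∧
      (∀ z, s₁ (rtk6c4fdIota f L M H z) = rtk6c4fdIota f L M H z) ∧
      (L ≠ 0 → M ∣ L → ∀ (c : (ZMod M)ˣ)
        (δ : fieldC ↥(mgcE A K₁') L M H ≃ₐ[↥(mgcE A K₁')] fieldC ↥(mgcE A K₁') L M H),
        IsDiamondC ↥(mgcE A K₁') L M H c δ → ∀ x, δ (s₁ x) = s₁ (δ x)) := by
  have hϖQ : (ϖ₁ : Qb) ^ d = ((r : ℕ) : Qb) := by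
    have := congrArg (fun z : ↥(mgcE A K₁') => (z : Qb)) hϖ
    simpa using this
  have hζQ : (ζ₀ : Qb) ^ d = 1 := by
    have := congrArg (fun z : ↥(beta0Field A) => (z : Qb)) hζ
    simpa using this
  obtain ⟨σ, hσI, hσϖ⟩ := rtk6c4fa_exists_zeta hr hA hd hϖQ hζQ
  have hσE : ∀ x ∈ mgcE A K₁', σ x ∈ mgcE A K₁' := fun x hx =>
    beta0_sup_apply_mem K₁' hσI hx
  have hfix : ∀ a : ↥(beta0Field A), σ ((f a : ↥(mgcE A K₁')) : Qb) = ((f a : ↥(mgcE A K₁')) : Qb) :=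
    fun a => by rw [hf a]; exact mem_beta0Field.mp a.2 σ hσI
  refine ⟨σ, hσI, hσE, rtk6c4faS1 halg σ hσE hfix, hσϖ, fun x => rfl, ?_,
    fun ψ hML => rtk6c4faS1_Y halg σ hσE hfix ψ hML,
    fun z => rtk6c4faS1_iota halg σ hσE hfix z,
    fun hL hML c δ hδ x => rtk6c4faS1_diamond halg σ hσE hfix hL hML hδ x⟩
  refine rtk6c4faS1_varpi_K halg σ hσE hfix ?_
  rw [hf ζ₀]
  exact hσϖ

end Main

end Fermat.Agent.RT.K6

end
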