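/-
RT-K6, piece C4-χ-WIRE (helper70): **the NON-POINTWISE fields of `Rtk6c4Cross` / `Rtk6c4CrossE`**
(helper94, `C4Abs.lean`) in the concrete shape of helper54's `rtk6gxi_cross`
(`GenCrossInst.lean`), from PSI (helper5, `Psi.lean`), C4-F (F2) (`C4FAut.lean`),
(F3) (helper36, `C4FDiam.lean`) and the coprimality of `n₀` (helper6, N0).

Setting: `E₀ = ℚ̄^I = beta0Field A`, `E₁ = mgcE A K₁`, `K = FullC E₀ L`, `F = rtk6diF A K₁ L M H`,
`R₀ = zchClosure {bgJ E₀ L}` (the base chart `j`), `ϖ : A₁ = mgcA A K₁` with `ϖ ^ d = r`,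
`ψ_r` with `orderOf (ψ_r c₀) = d` for a diamond `c₀` at `r`, `ψ′_i` trivial on the diamonds at `r`,
`y = y_{ψ_r}`, `S = {y_{ψ′_i}}`, `n₀` prime to `d`.

* `rtk6c4w_bezout`     : `a n₀ − b d = 1`;
* `rtk6c4w_isAtR_zpow` : the diamonds at `r` form a group;
* `rtk6c4w_primitive`  : `ζ₀ = ψ_r (c₀)` is a primitive `d`-th root of unity;
* `rtk6c4wZeta`        : `ζ₀` as an element of a chart `R₀` (any `A₀`-subalgebra of `K`);
* `rtk6c4w_auts`       : `σ = s₁` (coefficientwise action of an inertia element with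
  `σ ϖ = ζ₀ ϖ`) and `δ = δ_{c₀ ^ n₀}` with all their values, factors in `K`;
* `rtk6c4w_fields`     : **the fields `hζ hab hS hgen hσS hσϖ hσy hδS hδϖ hδy`** in the shape of
  `rtk6gxi_cross` (for any chart `R₀`), `hgen` from any generating set `T ⊆ S ∪ {ϖ, y}` ((F1)).
-/
import Fermat.Agent.RT.K6.C4FAut
import Fermat.Agent.RT.K6.Psi

set_option autoImplicit false
set_option linter.style.haveILetI false
set_option linter.unusedSectionVars false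
set_option linter.unusedVariables false
set_option linter.style.longLine false
set_option synthInstance.maxHeartbeats 400000
set_option maxHeartbeats 4000000

noncomputable section

namespace Fermat.Agent.RT.K6

open ModularCurve AlgebraicCurve IntermediateField
open Fermat.Agent.ES Fermat.Agent.ES.G2 Fermat.Agent.INJ Fermat.Agent.UNIP Fermat.Agent.ES1
  Fermat.Agent.ES1.G2

/-! ### Arithmetic -/

section Arith

/-- Bezout in the shape of the field `hab` -/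
theorem rtk6c4w_bezout {n₀ : ℤ} {d : ℕ} (h : Nat.Coprime n₀.natAbs d) :
    ∃ a b : ℤ, a * n₀ - b * (d : ℤ) = 1 := by
  have h1 : IsCoprime n₀ (d : ℤ) := by
    rw [Int.isCoprime_iff_gcd_eq_one]
    simpa [Int.gcd] using h
  obtain ⟨a, b, hab⟩ := h1
  exact ⟨a, -b, by linarith⟩

variable {M r : ℕ}

/-- the diamonds at `r` are closed under integer powers -/
theorem rtk6c4w_isAtR_zpow [NeZero M] (hrM : r ∣ M) {c : (ZMod M)ˣ} (hc : IsAtR M r c) (n : ℤ) :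
    IsAtR M r (c ^ n) :=
  (rtk6psi_mem_A hrM _).1 (Subgroup.zpow_mem _ ((rtk6psi_mem_A hrM c).2 hc) n)

/-- a unit of exact order `d` is a primitive `d`-th root of unity -/
theorem rtk6c4w_primitive {E₀ : Type*} [Field E₀] {u : E₀ˣ} {d : ℕ} (h : orderOf u = d) :
    IsPrimitiveRoot (u : E₀) d := by
  rw [IsPrimitiveRoot.coe_units_iff]
  exact h ▸ IsPrimitiveRoot.orderOf u

end Arith

/-! ### `ζ` in a chart -/

section Zeta

variable {K₀ : Type} [Field K₀] (A₀ : ValuationSubring K₀)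
  {K : Type} [Field K] [Algebra K₀ K] (R₀ : Subalgebra ↥A₀ K)

/-- a root of unity of `K₀`, as an element of the chart `R₀` -/
def rtk6c4wZeta (u : K₀ˣ) {d : ℕ} (hd0 : d ≠ 0) (hu : u ^ d = 1) : ↥R₀ :=
  algebraMap ↥A₀ ↥R₀ ⟨(u : K₀), rtk6d0_unit_mem K₀ A₀ u hd0 hu⟩

theorem rtk6c4wZeta_coe (u : K₀ˣ) {d : ℕ} (hd0 : d ≠ 0) (hu : u ^ d = 1) :
    ((rtk6c4wZeta A₀ R₀ u hd0 hu : ↥R₀) : K) = algebraMap K₀ K (u : K₀) := rfl

theorem rtk6c4wZeta_isPrimitiveRoot (u : K₀ˣ) {d : ℕ} (hd0 : d ≠ 0) (hu : u ^ d = 1)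
    (hord : orderOf u = d) : IsPrimitiveRoot (rtk6c4wZeta A₀ R₀ u hd0 hu) d := by
  have h1 : IsPrimitiveRoot (algebraMap K₀ K (u : K₀)) d :=
    (rtk6c4w_primitive hord).map_of_injective (algebraMap K₀ K).injective
  have h2 : IsPrimitiveRoot (R₀.val (rtk6c4wZeta A₀ R₀ u hd0 hu)) d := h1
  exact IsPrimitiveRoot.of_map_of_injective h2 Subtype.val_injective

end Zeta

/-! ### The automorphisms `σ`, `δ` -/

section Auts

variable {A : ValuationSubring Qb} {r d : ℕ} {L M : ℕ} [NeZero M] {H : Subgroup (ZMod M)ˣ}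

/-- **`σ` and `δ`.**  `σ = s₁` is the coefficientwise action of an inertia element with
`σ ϖ = ζ₀ ϖ`, `ζ₀ = ψ_r (c₀)`; `δ` is the diamond of `c₀ ^ n₀` (a diamond at `r`).
All factors are constants of `E₀ ⊆ K`. -/
theorem rtk6c4w_auts (hr : r.Prime) (hA : A.LiesOverPrime r) (hrM : r ∣ M) (hd : Odd d)
    (K₁ : IntermediateField ℚ Qb) [NumberField ↥K₁] [IsGalois ℚ ↥K₁]
    (f : ↥(beta0Field A) →+* ↥(mgcE A K₁))
    (hf : ∀ a : ↥(beta0Field A), ((f a : ↥(mgcE A K₁)) : Qb) = (a : Qb))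
    [Algebra ↥(modularFunctionFieldFullC ↥(beta0Field A) L) ↥(rtk6diF A K₁ L M H)]
    (halg : ∀ z : ↥(modularFunctionFieldFullC ↥(beta0Field A) L),
      algebraMap ↥(modularFunctionFieldFullC ↥(beta0Field A) L) ↥(rtk6diF A K₁ L M H) z
        = rtk6c4fdIota f L M H z)
    (hL : L ≠ 0) (hML : M ∣ L)
    {ϖ : ↥(mgcA A K₁)} (hϖ : ϖ ^ d = ((r : ℕ) : ↥(mgcA A K₁)))
    (ψr : (ZMod M)ˣ →* (↥(beta0Field A))ˣ) {c₀ : (ZMod M)ˣ} (hc₀ : IsAtR M r c₀)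
    (hord : orderOf (ψr c₀) = d) (n₀ : ℤ) :
    ∃ (σ δ : ↥(rtk6diF A K₁ L M H) ≃ₐ[↥(modularFunctionFieldFullC ↥(beta0Field A) L)]
        ↥(rtk6diF A K₁ L M H)),
      -- `σ`
      σ (algebraMap ↥(mgcA A K₁) ↥(rtk6diF A K₁ L M H) ϖ)
        = algebraMap ↥(modularFunctionFieldFullC ↥(beta0Field A) L) ↥(rtk6diF A K₁ L M H)
            (algebraMap ↥(beta0Field A) ↥(modularFunctionFieldFullC ↥(beta0Field A) L)
              ((ψr c₀ : (↥(beta0Field A))ˣ) : ↥(beta0Field A)))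
          * algebraMap ↥(mgcA A K₁) ↥(rtk6diF A K₁ L M H) ϖ ∧
      (∀ ψ : (ZMod M)ˣ →* (↥(beta0Field A))ˣ,
        σ (rtk6c4fdY f L M H ψ hML) = rtk6c4fdY f L M H ψ hML) ∧
      -- `δ`
      δ (algebraMap ↥(mgcA A K₁) ↥(rtk6diF A K₁ L M H) ϖ)
        = algebraMap ↥(mgcA A K₁) ↥(rtk6diF A K₁ L M H) ϖ ∧
      δ (rtk6c4fdY f L M H ψr hML)
        = algebraMap ↥(modularFunctionFieldFullC ↥(beta0Field A) L) ↥(rtk6diF A K₁ L M H)
            (algebraMap ↥(beta0Field A) ↥(modularFunctionFieldFullC ↥(beta0Field A) L)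
              ((ψr c₀ : (↥(beta0Field A))ˣ) : ↥(beta0Field A))) ^ n₀
          * rtk6c4fdY f L M H ψr hML ∧
      (∀ ψ : (ZMod M)ˣ →* (↥(beta0Field A))ˣ, (∀ c, IsAtR M r c → ψ c = 1) →
        δ (rtk6c4fdY f L M H ψ hML) = rtk6c4fdY f L M H ψ hML) ∧
      -- provenance
      (∃ (σ₀ : Qb ≃ₐ[ℚ] Qb) (_ : σ₀ ∈ A.inertiaSubgroupIn ℚ)
          (hσE : ∀ x ∈ mgcE A K₁, σ₀ x ∈ mgcE A K₁),
        ∀ x, σ x = rtk6diGal L M H σ₀ hσE • x) ∧
      (∃ (c : (ZMod M)ˣ) (δ₀ : ↥(rtk6diF A K₁ L M H) ≃ₐ[↥(mgcE A K₁)] ↥(rtk6diF A K₁ L M H)),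
        IsAtR M r c ∧ IsDiamondC ↥(mgcE A K₁) L M H c δ₀ ∧ ∀ x, δ x = δ₀ x) := by
  have hd0 : d ≠ 0 := hd.pos.ne'
  haveI : Algebra.IsAlgebraic ℚ Qb := AlgebraicClosure.isAlgebraic ℚ
  haveI : Algebra.IsAlgebraic ℚ ↥(mgcE A K₁) :=
    Algebra.IsAlgebraic.of_injective (mgcE A K₁).val Subtype.val_injective
  have hζd : ((ψr c₀ : (↥(beta0Field A))ˣ) : ↥(beta0Field A)) ^ d = 1 := by
    rw [← Units.val_pow_eq_pow_val, ← hord, pow_orderOf_eq_one, Units.val_one]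
  have hϖE : ((ϖ : ↥(mgcA A K₁)) : ↥(mgcE A K₁)) ^ d = ((r : ℕ) : ↥(mgcE A K₁)) := by
    have := congrArg (fun z : ↥(mgcA A K₁) => (z : ↥(mgcE A K₁))) hϖ
    simpa using this
  obtain ⟨σ₀, hσI, hσE, s₁, -, hs₁, hs₁ϖ, hs₁Y, -, -⟩ :=
    rtk6c4fa_main (L := L) (M := M) (H := H) hr hA hd K₁ f hf halg
      ((ϖ : ↥(mgcA A K₁)) : ↥(mgcE A K₁)) hϖE
      ((ψr c₀ : (↥(beta0Field A))ˣ) : ↥(beta0Field A)) hζd
  obtain ⟨δ₀, hδ₀⟩ := rtk6d0_exists_diamond ↥(mgcE A K₁) H hL hML (c₀ ^ n₀)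
  have hcn : IsAtR M r (c₀ ^ n₀) := rtk6c4w_isAtR_zpow hrM hc₀ n₀
  refine ⟨s₁, rtk6c4fdDiamK halg hδ₀, hs₁ϖ, fun ψ => hs₁Y ψ hML,
    rtk6c4fdDiamK_const halg hδ₀ _, ?_, fun ψ hψ => ?_, ⟨σ₀, hσI, hσE, hs₁⟩,
    ⟨c₀ ^ n₀, δ₀, hcn, hδ₀, fun x => rfl⟩⟩
  · rw [rtk6c4fdDiamK_Y halg hML hδ₀, map_zpow, Units.val_zpow_eq_zpow_val, map_zpow₀,
      map_zpow₀]
  · rw [rtk6c4fdDiamK_Y halg hML hδ₀, hψ _ hcn, Units.val_one, map_one, map_one, one_mul]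

end Auts

/-! ### The fields, in the shape of `rtk6gxi_cross` -/

section Fields

variable {A : ValuationSubring Qb} {r d : ℕ} {L M : ℕ} [NeZero M] {H : Subgroup (ZMod M)ˣ}

/-- rescaling a generating set by nonzero factors of the base field -/
theorem rtk6c4w_adjoin_scaled {K F : Type*} [Field K] [Field F] [Algebra K F] {ι : Type*}
    (v : ι → F) (k : ι → K) (hk : ∀ i, k i ≠ 0) (ϖ y : F) (ky : K) (hky : ky ≠ 0)
    {T : Set F} (hT : Algebra.adjoin K T = ⊤) (hTS : T ⊆ Set.range v ∪ {ϖ, y}) :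
    Algebra.adjoin K ((Set.range fun i => algebraMap K F (k i) * v i) ∪
      {ϖ, algebraMap K F ky * y}) = ⊤ := by
  rw [eq_top_iff, ← hT]
  refine Algebra.adjoin_le fun t ht => ?_
  rcases hTS ht with ⟨i, rfl⟩ | ht'
  · have h1 : algebraMap K F (k i) * v i ∈ Algebra.adjoin K
        ((Set.range fun i => algebraMap K F (k i) * v i) ∪ {ϖ, algebraMap K F ky * y}) :=
      Algebra.subset_adjoin (Or.inl ⟨i, rfl⟩)
    have h2 : v i = algebraMap K F (k i)⁻¹ * (algebraMap K F (k i) * v i) := by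
      rw [← mul_assoc, ← map_mul, inv_mul_cancel₀ (hk i), map_one, one_mul]
    rw [SetLike.mem_coe, h2]
    exact Subalgebra.mul_mem _ (Subalgebra.algebraMap_mem _ _) h1
  · rcases ht' with rfl | ht''
    · exact Algebra.subset_adjoin (Or.inr (Or.inl rfl))
    · rw [Set.mem_singleton_iff] at ht''
      subst ht''
      have h1 : algebraMap K F ky * t ∈ Algebra.adjoin K
          ((Set.range fun i => algebraMap K F (k i) * v i) ∪ {ϖ, algebraMap K F ky * t}) :=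
        Algebra.subset_adjoin (Or.inr (Or.inr rfl))
      have h2 : algebraMap K F ky⁻¹ * (algebraMap K F ky * t) = t := by
        rw [← mul_assoc, ← map_mul, inv_mul_cancel₀ hky, map_one, one_mul]
      have h3 := Subalgebra.mul_mem _ (Subalgebra.algebraMap_mem _ ky⁻¹) h1
      rw [h2] at h3
      exact h3

/-- **C4-χ-WIRE: the non-pointwise fields of `Rtk6c4Cross`** for
`y = k_y · y_{ψ_r}`, `S = {k_i · y_{ψ′_i}}` (`k_y, k_i ∈ Kˣ` ARBITRARY rescalings, e.g. the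
normalisation `1 / n` or the pointwise factors `1 / (n γ Y₀ ^ m)`), in the shape of the
hypotheses of `rtk6gxi_cross` (`R₀` any `A₀`-subalgebra of `K`, e.g. the chart
`zchClosure {bgJ}`). -/
theorem rtk6c4w_fields (hr : r.Prime) (hA : A.LiesOverPrime r) (hrM : r ∣ M) (hd : Odd d)
    (K₁ : IntermediateField ℚ Qb) [NumberField ↥K₁] [IsGalois ℚ ↥K₁]
    (f : ↥(beta0Field A) →+* ↥(mgcE A K₁))
    (hf : ∀ a : ↥(beta0Field A), ((f a : ↥(mgcE A K₁)) : Qb) = (a : Qb))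
    [Algebra ↥(modularFunctionFieldFullC ↥(beta0Field A) L) ↥(rtk6diF A K₁ L M H)]
    (halg : ∀ z : ↥(modularFunctionFieldFullC ↥(beta0Field A) L),
      algebraMap ↥(modularFunctionFieldFullC ↥(beta0Field A) L) ↥(rtk6diF A K₁ L M H) z
        = rtk6c4fdIota f L M H z)
    (hL : L ≠ 0) (hML : M ∣ L)
    (R₀ : Subalgebra ↥(beta0Ring A (beta0Field A))
      ↥(modularFunctionFieldFullC ↥(beta0Field A) L))
    {ϖ : ↥(mgcA A K₁)} (hϖ : ϖ ^ d = ((r : ℕ) : ↥(mgcA A K₁)))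
    (ψr : (ZMod M)ˣ →* (↥(beta0Field A))ˣ) {c₀ : (ZMod M)ˣ} (hc₀ : IsAtR M r c₀)
    (hord : orderOf (ψr c₀) = d)
    {ι : Type*} [Finite ι] (ψ' : ι → ((ZMod M)ˣ →* (↥(beta0Field A))ˣ))
    (hψ' : ∀ i c, IsAtR M r c → ψ' i c = 1)
    {T : Set ↥(rtk6diF A K₁ L M H)}
    (hT : Algebra.adjoin ↥(modularFunctionFieldFullC ↥(beta0Field A) L) T = ⊤)
    (hTS : T ⊆ (Set.range fun i => rtk6c4fdY f L M H (ψ' i) hML) ∪
      {algebraMap ↥(mgcA A K₁) ↥(rtk6diF A K₁ L M H) ϖ, rtk6c4fdY f L M H ψr hML})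
    (k : ι → ↥(modularFunctionFieldFullC ↥(beta0Field A) L)) (hk : ∀ i, k i ≠ 0)
    (ky : ↥(modularFunctionFieldFullC ↥(beta0Field A) L)) (hky : ky ≠ 0)
    {n₀ : ℤ} (hn₀ : Nat.Coprime n₀.natAbs d) :
    ∃ (ζ : ↥R₀) (a b : ℤ)
      (σ δ : ↥(rtk6diF A K₁ L M H) ≃ₐ[↥(modularFunctionFieldFullC ↥(beta0Field A) L)]
        ↥(rtk6diF A K₁ L M H)),
      IsPrimitiveRoot ζ d ∧
      ((ζ : ↥R₀) : ↥(modularFunctionFieldFullC ↥(beta0Field A) L))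
        = algebraMap ↥(beta0Field A) ↥(modularFunctionFieldFullC ↥(beta0Field A) L)
            ((ψr c₀ : (↥(beta0Field A))ˣ) : ↥(beta0Field A)) ∧
      a * n₀ - b * (d : ℤ) = 1 ∧
      (Set.range fun i => algebraMap ↥(modularFunctionFieldFullC ↥(beta0Field A) L)
        ↥(rtk6diF A K₁ L M H) (k i) * rtk6c4fdY f L M H (ψ' i) hML).Finite ∧
      Algebra.adjoin ↥(modularFunctionFieldFullC ↥(beta0Field A) L)
        ((Set.range fun i => algebraMap ↥(modularFunctionFieldFullC ↥(beta0Field A) L)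
            ↥(rtk6diF A K₁ L M H) (k i) * rtk6c4fdY f L M H (ψ' i) hML) ∪
          {algebraMap ↥(mgcA A K₁) ↥(rtk6diF A K₁ L M H) ϖ,
            algebraMap ↥(modularFunctionFieldFullC ↥(beta0Field A) L)
              ↥(rtk6diF A K₁ L M H) ky * rtk6c4fdY f L M H ψr hML}) = ⊤ ∧
      (∀ t ∈ Set.range fun i => algebraMap ↥(modularFunctionFieldFullC ↥(beta0Field A) L)
        ↥(rtk6diF A K₁ L M H) (k i) * rtk6c4fdY f L M H (ψ' i) hML, σ t = t) ∧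
      σ (algebraMap ↥(mgcA A K₁) ↥(rtk6diF A K₁ L M H) ϖ)
        = algebraMap ↥R₀ ↥(rtk6diF A K₁ L M H) ζ
          * algebraMap ↥(mgcA A K₁) ↥(rtk6diF A K₁ L M H) ϖ ∧
      σ (algebraMap ↥(modularFunctionFieldFullC ↥(beta0Field A) L)
          ↥(rtk6diF A K₁ L M H) ky * rtk6c4fdY f L M H ψr hML)
        = algebraMap ↥(modularFunctionFieldFullC ↥(beta0Field A) L)
          ↥(rtk6diF A K₁ L M H) ky * rtk6c4fdY f L M H ψr hML ∧
      (∀ t ∈ Set.range fun i => algebraMap ↥(modularFunctionFieldFullC ↥(beta0Field A) L)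
        ↥(rtk6diF A K₁ L M H) (k i) * rtk6c4fdY f L M H (ψ' i) hML, δ t = t) ∧
      δ (algebraMap ↥(mgcA A K₁) ↥(rtk6diF A K₁ L M H) ϖ)
        = algebraMap ↥(mgcA A K₁) ↥(rtk6diF A K₁ L M H) ϖ ∧
      δ (algebraMap ↥(modularFunctionFieldFullC ↥(beta0Field A) L)
          ↥(rtk6diF A K₁ L M H) ky * rtk6c4fdY f L M H ψr hML)
        = algebraMap ↥R₀ ↥(rtk6diF A K₁ L M H) ζ ^ n₀ *
          (algebraMap ↥(modularFunctionFieldFullC ↥(beta0Field A) L)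
            ↥(rtk6diF A K₁ L M H) ky * rtk6c4fdY f L M H ψr hML) ∧
      -- provenance
      (∃ (σ₀ : Qb ≃ₐ[ℚ] Qb) (_ : σ₀ ∈ A.inertiaSubgroupIn ℚ)
          (hσE : ∀ x ∈ mgcE A K₁, σ₀ x ∈ mgcE A K₁),
        ∀ x, σ x = rtk6diGal L M H σ₀ hσE • x) ∧
      (∃ (c : (ZMod M)ˣ) (δ₀ : ↥(rtk6diF A K₁ L M H) ≃ₐ[↥(mgcE A K₁)] ↥(rtk6diF A K₁ L M H)),
        IsAtR M r c ∧ IsDiamondC ↥(mgcE A K₁) L M H c δ₀ ∧ ∀ x, δ x = δ₀ x) := by
  have hd0 : d ≠ 0 := hd.pos.ne'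
  have hu : ψr c₀ ^ d = 1 := by rw [← hord, pow_orderOf_eq_one]
  obtain ⟨a, b, hab⟩ := rtk6c4w_bezout hn₀
  obtain ⟨σ, δ, hσϖ, hσY, hδϖ, hδy, hδY, hσprov, hδprov⟩ :=
    rtk6c4w_auts (L := L) (M := M) (H := H) hr hA hrM hd K₁ f hf halg hL hML hϖ ψr hc₀ hord n₀
  refine ⟨rtk6c4wZeta (beta0Ring A (beta0Field A)) R₀ (ψr c₀) hd0 hu, a, b, σ, δ,
    rtk6c4wZeta_isPrimitiveRoot _ R₀ _ hd0 hu hord, rfl, hab, Set.finite_range _,
    rtk6c4w_adjoin_scaled _ k hk _ _ ky hky hT hTS, ?_, hσϖ, ?_, ?_, hδϖ, ?_, hσprov, hδprov⟩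
  · rintro t ⟨i, rfl⟩
    rw [map_mul, AlgEquiv.commutes, hσY (ψ' i)]
  · rw [map_mul, AlgEquiv.commutes, hσY ψr]
  · rintro t ⟨i, rfl⟩
    rw [map_mul, AlgEquiv.commutes, hδY (ψ' i) (hψ' i)]
  · rw [map_mul, AlgEquiv.commutes, hδy]
    exact mul_left_comm _ _ _

end Fields

end Fermat.Agent.RT.K6

end
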