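/-
RT-K6, piece C4-F, part (F1): GENERATION (helper36; (F2) = helper70, `C4FAut.lean`).

Setting (as in `C4FDiam.lean`): fields `E₀`, `E₁`, a ring hom `f : E₀ →+* E₁`,
`K = FullC E₀ L` (the `Γ₀(L)`-field over `E₀`), `F₁ = fieldC E₁ L M H`,
`ι = rtk6c4fdIota f : K →+* F₁`; `ψ i : (ℤ/M)ˣ →* E₀ˣ` a family of characters,
trivial on `±H` and jointly faithful on `(ℤ/M)ˣ/±H`; `y_i = rtk6c4fdY f … (ψ i)` the resolvents;
`ϖ ∈ E₁` with `E₁ = (f E₀)(ϖ)`.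

* `rtk6c4fg_subfield_eq_top_of_const` : a subfield of `F₁` containing `ι K`, the constants `E₁`
  and the `y_i` is everything;
* `rtk6c4fg_subfield_eq_top` : the same with `ϖ` instead of all constants
  (`Subfield.closure (range f ∪ {ϖ}) = ⊤`);
* `rtk6c4fg_adjoin_eq_top`   : `IntermediateField.adjoin K ({C ϖ} ∪ {y_i}) = ⊤`
  (for ANY algebra structure `K → F₁` with `algebraMap = ι`);
* `rtk6c4fg_algebra_adjoin_eq_top` : `Algebra.adjoin K ({C ϖ} ∪ {y_i}) = ⊤` if moreover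
  `ϖ ^ d ∈ f E₀`, `ψ i ^ d = 1` (`0 < d`)  —  the field `hgen` of helper94's `Rtk6c4Cross`;
* `rtk6c4fg_closure_of_adjoin` : `Algebra.adjoin E₀ {ϖ} = ⊤ ⇒ Subfield.closure (…) = ⊤`
  (`f = algebraMap`).
-/
import Fermat.Agent.RT.K6.C4FDiam
import Fermat.Agent.UNIP.MGChartsField

set_option autoImplicit false
set_option linter.style.haveILetI false
set_option linter.unusedSectionVars false
set_option linter.unusedVariables false

noncomputable section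

namespace Fermat.Agent.RT.K6

open HahnSeries ModularCurve AlgebraicCurve IntermediateField
open Fermat.Agent.ES Fermat.Agent.ES.G2 Fermat.Agent.INJ Fermat.Agent.UNIP Fermat.Agent.ES1
  Fermat.Agent.ES1.G2

section Gen

variable {E₀ E₁ : Type} [Field E₀] [Field E₁] (f : E₀ →+* E₁)
  {L M : ℕ} [NeZero M] (H : Subgroup (ZMod M)ˣ)

/-- (A) the constants of `E₁` lie in `Ω`, if `E₁` is generated (as a field) by `f E₀` and `ϖ` -/
theorem rtk6c4fg_const_mem {ϖ : E₁} (hϖ : Subfield.closure (Set.range f ∪ {ϖ}) = ⊤)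
    (Ω : Subfield (fieldC E₁ L M H))
    (hK : ∀ z : modularFunctionFieldFullC E₀ L, rtk6c4fdIota f L M H z ∈ Ω)
    (hϖΩ : algebraMap E₁ (fieldC E₁ L M H) ϖ ∈ Ω) (c : E₁) :
    algebraMap E₁ (fieldC E₁ L M H) c ∈ Ω := by
  have hc : c ∈ Subfield.closure (Set.range f ∪ {ϖ}) := by rw [hϖ]; exact Subfield.mem_top c
  induction hc using Subfield.closure_induction with
  | mem x hx =>
    rcases hx with ⟨a, rfl⟩ | hx
    · rw [← rtk6c4fdIota_algebraMap f L M H a]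
      exact hK _
    · rw [Set.mem_singleton_iff] at hx
      rw [hx]
      exact hϖΩ
  | one =>
    rw [map_one]
    exact Ω.one_mem
  | add x y hx hy ihx ihy =>
    rw [map_add]
    exact Ω.add_mem ihx ihy
  | neg x hx ihx =>
    rw [map_neg]
    exact Ω.neg_mem ihx
  | inv x hx ihx =>
    rw [map_inv₀]
    exact Ω.inv_mem ihx
  | mul x y hx hy ihx ihy =>
    rw [map_mul]
    exact Ω.mul_mem ihx ihy

/-- (B) the `Γ₀(L)`-field over `E₁` lies in `Ω` -/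
theorem rtk6c4fg_full_mem (Ω : Subfield (fieldC E₁ L M H))
    (hK : ∀ z : modularFunctionFieldFullC E₀ L, rtk6c4fdIota f L M H z ∈ Ω)
    (hconst : ∀ c : E₁, algebraMap E₁ (fieldC E₁ L M H) c ∈ Ω)
    (z : LaurentSeries E₁) (hz : z ∈ modularFunctionFieldFullC E₁ L) :
    ∃ w : fieldC E₁ L M H, w ∈ Ω ∧ ((w : fieldC E₁ L M H) : LaurentSeries E₁) = z := by
  unfold modularFunctionFieldFullC at hz
  induction hz using IntermediateField.adjoin_induction with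
  | mem x hx =>
    obtain ⟨d, hd, hdN, rfl⟩ := hx
    refine ⟨rtk6c4fdIota f L M H ⟨qExpand E₀ d (jqModC E₀), jqModCd_mem_full E₀ L hdN⟩,
      hK _, ?_⟩
    rw [rtk6c4fdIota_coe]
    exact coeffMap_jqNModC f d
  | algebraMap c =>
    exact ⟨algebraMap E₁ (fieldC E₁ L M H) c, hconst c,
      IntermediateField.coe_algebraMap_apply _ c⟩
  | add x y hx hy ihx ihy =>
    obtain ⟨w₁, hw₁, e₁⟩ := ihx
    obtain ⟨w₂, hw₂, e₂⟩ := ihy
    exact ⟨w₁ + w₂, Ω.add_mem hw₁ hw₂, by rw [AddMemClass.coe_add, e₁, e₂]⟩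
  | inv x hx ihx =>
    obtain ⟨w₁, hw₁, e₁⟩ := ihx
    exact ⟨w₁⁻¹, Ω.inv_mem hw₁, by rw [IntermediateField.coe_inv, e₁]⟩
  | mul x y hx hy ihx ihy =>
    obtain ⟨w₁, hw₁, e₁⟩ := ihx
    obtain ⟨w₂, hw₂, e₂⟩ := ihy
    exact ⟨w₁ * w₂, Ω.mul_mem hw₁ hw₂, by rw [MulMemClass.coe_mul, e₁, e₂]⟩

/-- (C1) everything in `E₁(FullC E₁ L, y_i)` lies in `Ω` -/
theorem rtk6c4fg_adjoin_mem {ι : Type*} (ψ : ι → ((ZMod M)ˣ →* E₀ˣ)) (hML : M ∣ L)
    (Ω : Subfield (fieldC E₁ L M H))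
    (hK : ∀ z : modularFunctionFieldFullC E₀ L, rtk6c4fdIota f L M H z ∈ Ω)
    (hconst : ∀ c : E₁, algebraMap E₁ (fieldC E₁ L M H) c ∈ Ω)
    (hy : ∀ i, rtk6c4fdY f L M H (ψ i) hML ∈ Ω)
    (z : LaurentSeries E₁) (hz : z ∈ IntermediateField.adjoin E₁
      ((modularFunctionFieldFullC E₁ L : Set (LaurentSeries E₁)) ∪
        Set.range fun i => rtk6d0Y E₁ M H ⊤ (rtk6c4fdPsi f M (ψ i)))) :
    ∃ w : fieldC E₁ L M H, w ∈ Ω ∧ ((w : fieldC E₁ L M H) : LaurentSeries E₁) = z := by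
  induction hz using IntermediateField.adjoin_induction with
  | mem x hx =>
    rcases hx with hx | ⟨i, rfl⟩
    · exact rtk6c4fg_full_mem f H Ω hK hconst x hx
    · exact ⟨rtk6c4fdY f L M H (ψ i) hML, hy i, rtk6c4fdY_coe f L M H _ hML⟩
  | algebraMap c =>
    exact ⟨algebraMap E₁ (fieldC E₁ L M H) c, hconst c,
      IntermediateField.coe_algebraMap_apply _ c⟩
  | add x y hx hy ihx ihy =>
    obtain ⟨w₁, hw₁, e₁⟩ := ihx
    obtain ⟨w₂, hw₂, e₂⟩ := ihy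
    exact ⟨w₁ + w₂, Ω.add_mem hw₁ hw₂, by rw [AddMemClass.coe_add, e₁, e₂]⟩
  | inv x hx ihx =>
    obtain ⟨w₁, hw₁, e₁⟩ := ihx
    exact ⟨w₁⁻¹, Ω.inv_mem hw₁, by rw [IntermediateField.coe_inv, e₁]⟩
  | mul x y hx hy ihx ihy =>
    obtain ⟨w₁, hw₁, e₁⟩ := ihx
    obtain ⟨w₂, hw₂, e₂⟩ := ihy
    exact ⟨w₁ * w₂, Ω.mul_mem hw₁ hw₂, by rw [MulMemClass.coe_mul, e₁, e₂]⟩

/-- faithfulness transfers along the injective `f` -/
theorem rtk6c4fg_faith {ι : Type*} (ψ : ι → ((ZMod M)ˣ →* E₀ˣ))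
    (hfaith : ∀ c : (ZMod M)ˣ, (∀ i, ψ i c = 1) → InPM H 1 (c : ZMod M))
    (c : (ZMod M)ˣ) (hc : ∀ i, rtk6c4fdPsi f M (ψ i) c = 1) : InPM H 1 (c : ZMod M) := by
  refine hfaith c fun i => ?_
  have h2 := congrArg Units.val (hc i)
  rw [rtk6c4fdPsi_apply, Units.val_one] at h2
  apply Units.ext
  rw [Units.val_one]
  exact f.injective (by rw [h2, map_one])

/-- **(F1), subfield form (core)**: a subfield of `F₁` containing `ι K`, the constants and the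
resolvents `y_i` is everything. -/
theorem rtk6c4fg_subfield_eq_top_of_const [CharZero E₁] [Algebra.IsAlgebraic ℚ E₁]
    {ι : Type*} (ψ : ι → ((ZMod M)ˣ →* E₀ˣ)) (hL : L ≠ 0)
    (hML : M ∣ L) (hM : 3 ≤ M) (hψH : ∀ i, ∀ h ∈ H, ψ i h = 1) (hψ1 : ∀ i, ψ i (-1) = 1)
    (hfaith : ∀ c : (ZMod M)ˣ, (∀ i, ψ i c = 1) → InPM H 1 (c : ZMod M))
    (Ω : Subfield (fieldC E₁ L M H))
    (hK : ∀ z : modularFunctionFieldFullC E₀ L, rtk6c4fdIota f L M H z ∈ Ω)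
    (hconst : ∀ c : E₁, algebraMap E₁ (fieldC E₁ L M H) c ∈ Ω)
    (hy : ∀ i, rtk6c4fdY f L M H (ψ i) hML ∈ Ω) : Ω = ⊤ := by
  have hgen := rtk6d0_gen E₁ H (fun i => rtk6c4fdPsi f M (ψ i)) hL hML hM
    (fun i => rtk6c4fdPsi_H f M H (ψ i) (hψH i)) (fun i => rtk6c4fdPsi_neg f M (ψ i) (hψ1 i))
    (rtk6c4fg_faith f H ψ hfaith)
  rw [eq_top_iff]
  rintro x -
  obtain ⟨w, hw, hwx⟩ := rtk6c4fg_adjoin_mem f H ψ hML Ω hK hconst hy x.1 (hgen x.2)
  have : w = x := Subtype.ext hwx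
  rw [← this]
  exact hw

/-- **(F1), subfield form**: a subfield of `F₁` containing `ι K`, `C ϖ` and the `y_i` is
everything (`E₁ = (f E₀)(ϖ)`). -/
theorem rtk6c4fg_subfield_eq_top [CharZero E₁] [Algebra.IsAlgebraic ℚ E₁]
    {ι : Type*} (ψ : ι → ((ZMod M)ˣ →* E₀ˣ)) (hL : L ≠ 0)
    (hML : M ∣ L) (hM : 3 ≤ M) (hψH : ∀ i, ∀ h ∈ H, ψ i h = 1) (hψ1 : ∀ i, ψ i (-1) = 1)
    (hfaith : ∀ c : (ZMod M)ˣ, (∀ i, ψ i c = 1) → InPM H 1 (c : ZMod M))
    {ϖ : E₁} (hϖ : Subfield.closure (Set.range f ∪ {ϖ}) = ⊤)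
    (Ω : Subfield (fieldC E₁ L M H))
    (hK : ∀ z : modularFunctionFieldFullC E₀ L, rtk6c4fdIota f L M H z ∈ Ω)
    (hϖΩ : algebraMap E₁ (fieldC E₁ L M H) ϖ ∈ Ω)
    (hy : ∀ i, rtk6c4fdY f L M H (ψ i) hML ∈ Ω) : Ω = ⊤ :=
  rtk6c4fg_subfield_eq_top_of_const f H ψ hL hML hM hψH hψ1 hfaith Ω hK
    (rtk6c4fg_const_mem f H hϖ Ω hK hϖΩ) hy

variable [Algebra (modularFunctionFieldFullC E₀ L) (fieldC E₁ L M H)]

/-- **(F1), field form**: `F₁ = K(C ϖ, y_i)`, for any algebra structure with `algebraMap = ι`. -/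
theorem rtk6c4fg_adjoin_eq_top [CharZero E₁] [Algebra.IsAlgebraic ℚ E₁]
    (halg : ∀ z : modularFunctionFieldFullC E₀ L,
      algebraMap (modularFunctionFieldFullC E₀ L) (fieldC E₁ L M H) z
        = rtk6c4fdIota f L M H z)
    {ι : Type*} (ψ : ι → ((ZMod M)ˣ →* E₀ˣ)) (hL : L ≠ 0)
    (hML : M ∣ L) (hM : 3 ≤ M) (hψH : ∀ i, ∀ h ∈ H, ψ i h = 1) (hψ1 : ∀ i, ψ i (-1) = 1)
    (hfaith : ∀ c : (ZMod M)ˣ, (∀ i, ψ i c = 1) → InPM H 1 (c : ZMod M))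
    {ϖ : E₁} (hϖ : Subfield.closure (Set.range f ∪ {ϖ}) = ⊤) :
    IntermediateField.adjoin (modularFunctionFieldFullC E₀ L)
      (({algebraMap E₁ (fieldC E₁ L M H) ϖ} : Set (fieldC E₁ L M H)) ∪
        Set.range fun i => rtk6c4fdY f L M H (ψ i) hML) = ⊤ := by
  have h := rtk6c4fg_subfield_eq_top f H ψ hL hML hM hψH hψ1 hfaith hϖ
    (IntermediateField.adjoin (modularFunctionFieldFullC E₀ L)
      (({algebraMap E₁ (fieldC E₁ L M H) ϖ} : Set (fieldC E₁ L M H)) ∪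
        Set.range fun i => rtk6c4fdY f L M H (ψ i) hML)).toSubfield
    (fun z => by
      rw [← halg]
      exact IntermediateField.algebraMap_mem _ z)
    (IntermediateField.subset_adjoin _ _ (Or.inl rfl))
    (fun i => IntermediateField.subset_adjoin _ _ (Or.inr ⟨i, rfl⟩))
  rw [eq_top_iff]
  rintro x -
  have hx : x ∈ (IntermediateField.adjoin (modularFunctionFieldFullC E₀ L)
      (({algebraMap E₁ (fieldC E₁ L M H) ϖ} : Set (fieldC E₁ L M H)) ∪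
        Set.range fun i => rtk6c4fdY f L M H (ψ i) hML)).toSubfield := by
    rw [h]
    exact Subfield.mem_top x
  exact (IntermediateField.mem_toSubfield _ _).1 hx

/-- the generators are algebraic over `K` -/
theorem rtk6c4fg_isAlgebraic [CharZero E₀] [Algebra.IsAlgebraic ℚ E₀]
    (halg : ∀ z : modularFunctionFieldFullC E₀ L,
      algebraMap (modularFunctionFieldFullC E₀ L) (fieldC E₁ L M H) z
        = rtk6c4fdIota f L M H z)
    {ι : Type*} (ψ : ι → ((ZMod M)ˣ →* E₀ˣ)) (hL : L ≠ 0) (hML : M ∣ L)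
    {ϖ : E₁} {d : ℕ} (hd : 0 < d) (hϖd : ∃ a : E₀, ϖ ^ d = f a)
    (hψd : ∀ i c, ψ i c ^ d = 1) :
    ∀ x ∈ (({algebraMap E₁ (fieldC E₁ L M H) ϖ} : Set (fieldC E₁ L M H)) ∪
      Set.range fun i => rtk6c4fdY f L M H (ψ i) hML),
      IsAlgebraic (modularFunctionFieldFullC E₀ L) x := by
  rintro x (hx | ⟨i, rfl⟩)
  · rw [Set.mem_singleton_iff] at hx
    subst hx
    obtain ⟨a, ha⟩ := hϖd
    apply IsIntegral.isAlgebraic
    apply IsIntegral.of_pow hd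
    have h1 : algebraMap E₁ (fieldC E₁ L M H) ϖ ^ d
        = algebraMap (modularFunctionFieldFullC E₀ L) (fieldC E₁ L M H)
            (algebraMap E₀ (modularFunctionFieldFullC E₀ L) a) := by
      rw [halg, rtk6c4fdIota_algebraMap, ← ha, map_pow]
    rw [h1]
    exact isIntegral_algebraMap
  · obtain ⟨z, hz⟩ := rtk6c4fd_pow_mem_K (ψ := ψ i) halg hL hML (hψd i)
    apply IsIntegral.isAlgebraic
    apply IsIntegral.of_pow hd
    rw [← hz]
    exact isIntegral_algebraMap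

/-- **(F1), algebra form** (`hgen` of `Rtk6c4Cross`): `F₁ = K[C ϖ, y_i]`. -/
theorem rtk6c4fg_algebra_adjoin_eq_top [CharZero E₀] [Algebra.IsAlgebraic ℚ E₀]
    [CharZero E₁] [Algebra.IsAlgebraic ℚ E₁]
    (halg : ∀ z : modularFunctionFieldFullC E₀ L,
      algebraMap (modularFunctionFieldFullC E₀ L) (fieldC E₁ L M H) z
        = rtk6c4fdIota f L M H z)
    {ι : Type*} (ψ : ι → ((ZMod M)ˣ →* E₀ˣ)) (hL : L ≠ 0)
    (hML : M ∣ L) (hM : 3 ≤ M) (hψH : ∀ i, ∀ h ∈ H, ψ i h = 1) (hψ1 : ∀ i, ψ i (-1) = 1)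
    (hfaith : ∀ c : (ZMod M)ˣ, (∀ i, ψ i c = 1) → InPM H 1 (c : ZMod M))
    {ϖ : E₁} (hϖ : Subfield.closure (Set.range f ∪ {ϖ}) = ⊤)
    {d : ℕ} (hd : 0 < d) (hϖd : ∃ a : E₀, ϖ ^ d = f a)
    (hψd : ∀ i c, ψ i c ^ d = 1) :
    Algebra.adjoin (modularFunctionFieldFullC E₀ L)
      (({algebraMap E₁ (fieldC E₁ L M H) ϖ} : Set (fieldC E₁ L M H)) ∪
        Set.range fun i => rtk6c4fdY f L M H (ψ i) hML) = ⊤ := by
  have h1 := IntermediateField.adjoin_toSubalgebra_of_isAlgebraic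
    (rtk6c4fg_isAlgebraic f H halg ψ hL hML hd hϖd hψd)
  rw [← h1, rtk6c4fg_adjoin_eq_top f H halg ψ hL hML hM hψH hψ1 hfaith hϖ,
    IntermediateField.top_toSubalgebra]

end Gen

section Closure

variable {E₀ E₁ : Type} [Field E₀] [Field E₁] [Algebra E₀ E₁]

/-- `E₁ = E₀[ϖ]` gives the generation hypothesis of this file for `f = algebraMap E₀ E₁` -/
theorem rtk6c4fg_closure_of_adjoin {ϖ : E₁} (hϖ : Algebra.adjoin E₀ ({ϖ} : Set E₁) = ⊤) :
    Subfield.closure (Set.range (algebraMap E₀ E₁) ∪ {ϖ}) = ⊤ := by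
  rw [eq_top_iff]
  rintro c -
  have hc : c ∈ Algebra.adjoin E₀ ({ϖ} : Set E₁) := by rw [hϖ]; exact Algebra.mem_top
  induction hc using Algebra.adjoin_induction with
  | mem x hx => exact Subfield.subset_closure (Or.inr hx)
  | algebraMap a => exact Subfield.subset_closure (Or.inl ⟨a, rfl⟩)
  | add x y hx hy ihx ihy => exact Subfield.add_mem _ ihx ihy
  | mul x y hx hy ihx ihy => exact Subfield.mul_mem _ ihx ihy

/-- `E₁ = E₀(ϖ)` (field adjunction) gives the generation hypothesis of this file -/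
theorem rtk6c4fg_closure_of_field_adjoin {ϖ : E₁}
    (hϖ : IntermediateField.adjoin E₀ ({ϖ} : Set E₁) = ⊤) :
    Subfield.closure (Set.range (algebraMap E₀ E₁) ∪ {ϖ}) = ⊤ := by
  have h := congrArg IntermediateField.toSubfield hϖ
  rw [IntermediateField.adjoin_toSubfield] at h
  rw [h]
  rfl

end Closure

end Fermat.Agent.RT.K6
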