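/-
K-machine, piece K6 (helper6): the NORMALISED Kummer generator in the top field — the twin of
helper36's `C4FDiam.lean` for `y′ = y_ψ / n₀`, `n₀ = #(±H) = rtk6d0N M H ⊤`.

WHY: `v_∞(y_ψ ^ d) = 1` is false if the residue characteristic divides `#(±H)`; the normalised
Kummer element `u′ = (y_ψ / n₀) ^ d = ⟨rtk6n0Y E₀ M H ψ ^ d, _⟩` satisfies (N1′), (N2′), (N3′) of
`N0Norm.lean` without any hypothesis.  Feed helper54's `rtk6gxi_cross` with `z := u′`, `y := y′`.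

Setting of `C4FDiam.lean`: `f : E₀ →+* E₁`, `F₁ = fieldC E₁ L M H`, `ι = rtk6c4fdIota f L M H`.

* `rtk6n0fY f L M H ψ hML : fieldC E₁ L M H` — `y′ = f(n₀⁻¹) · y_ψ`; `rtk6n0fY_coe`,
  `rtk6n0fY_mul`, `rtk6n0fY_ne_zero`;
* `rtk6n0f_iota_pow` : `ι ⟨rtk6n0Y E₀ M H ψ ^ d, _⟩ = y′ ^ d`; `rtk6n0f_pow_mem`,
  `rtk6n0f_pow_mem_K`;
* `rtk6n0f_diamond_Y`, `rtk6n0fDiamK_Y` : `δ_c y′ = ψ(c) · y′`; `rtk6n0f_coeffHom_Y` : `σ̂ y′ = y′`;
* `rtk6n0fY_eq_K` : `y′ = (constant of K) · y_ψ`; `rtk6n0f_adjoin_eq` : the generated algebras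
  agree.
-/
import Fermat.Agent.RT.K6.C4FDiam
import Fermat.Agent.RT.K6.N0Norm

set_option autoImplicit false
set_option linter.style.haveILetI false
set_option linter.unusedSectionVars false
set_option linter.unusedVariables false

noncomputable section

namespace Fermat.Agent.RT.K6

open HahnSeries ModularCurve AlgebraicCurve IntermediateField
open Fermat.Agent.ES Fermat.Agent.ES.G2 Fermat.Agent.INJ Fermat.Agent.UNIP Fermat.Agent.ES1
  Fermat.Agent.ES1.G2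

section Adjoin

variable {K F : Type*} [Field K] [Field F] [Algebra K F]

/-- replacing a generator by a nonzero `K`-multiple does not change the generated algebra -/
theorem rtk6n0f_adjoin_eq (T : Set F) (ϖ y : F) {k : K} (hk : k ≠ 0) :
    Algebra.adjoin K (T ∪ {ϖ, algebraMap K F k * y}) = Algebra.adjoin K (T ∪ {ϖ, y}) := by
  apply le_antisymm
  · refine Algebra.adjoin_le ?_
    rintro x (hx | hx | hx)
    · exact Algebra.subset_adjoin (Or.inl hx)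
    · exact Algebra.subset_adjoin (Or.inr (Or.inl hx))
    · rw [Set.mem_singleton_iff] at hx
      rw [hx]
      exact mul_mem (Subalgebra.algebraMap_mem _ k)
        (Algebra.subset_adjoin (Or.inr (Or.inr rfl)))
  · refine Algebra.adjoin_le ?_
    rintro x (hx | hx | hx)
    · exact Algebra.subset_adjoin (Or.inl hx)
    · exact Algebra.subset_adjoin (Or.inr (Or.inl hx))
    · rw [Set.mem_singleton_iff] at hx
      have h1 : x = algebraMap K F k⁻¹ * (algebraMap K F k * y) := by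
        rw [← mul_assoc, ← map_mul, inv_mul_cancel₀ hk, map_one, one_mul, hx]
      rw [h1]
      exact mul_mem (Subalgebra.algebraMap_mem _ k⁻¹)
        (Algebra.subset_adjoin (Or.inr (Or.inr rfl)))

end Adjoin

section Generic

variable {E₀ E₁ : Type} [Field E₀] [Field E₁] (f : E₀ →+* E₁)
  (L M : ℕ) [NeZero M] (H : Subgroup (ZMod M)ˣ) (ψ : (ZMod M)ˣ →* E₀ˣ)

/-- **the normalised Kummer generator** `y′ = y_ψ / #(±H)` of `fieldC E₁ L M H` -/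
def rtk6n0fY (hML : M ∣ L) : fieldC E₁ L M H :=
  algebraMap E₁ (fieldC E₁ L M H) (f (((rtk6d0N M H ⊤ : ℕ) : E₀)⁻¹)) * rtk6c4fdY f L M H ψ hML

theorem rtk6n0f_map_inv : f (((rtk6d0N M H ⊤ : ℕ) : E₀)⁻¹) = (((rtk6d0N M H ⊤ : ℕ) : E₁))⁻¹ := by
  rw [map_inv₀, map_natCast]

theorem rtk6n0fY_coe (hML : M ∣ L) :
    ((rtk6n0fY f L M H ψ hML : fieldC E₁ L M H) : LaurentSeries E₁)
      = rtk6n0Y E₁ M H (rtk6c4fdPsi f M ψ) := by
  unfold rtk6n0fY rtk6n0Y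
  rw [MulMemClass.coe_mul, rtk6c4fdY_coe, rtk6n0f_map_inv, ← LaurentSeries.algebraMap_apply]
  rfl

/-- `y′` is the coefficientwise image of the normalised generator over `E₀` -/
theorem rtk6n0f_coeffMap_Y :
    coeffMap f (rtk6n0Y E₀ M H ψ) = rtk6n0Y E₁ M H (rtk6c4fdPsi f M ψ) := by
  unfold rtk6n0Y
  rw [map_mul, rtk6c4fd_coeffMap_Y, ← rtk6n0f_map_inv f M H]
  congr 1
  show coeffMap f (HahnSeries.single 0 _) = HahnSeries.single 0 _
  rw [coeffMap_single]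

/-- `y_ψ = n₀ · y′` -/
theorem rtk6n0fY_mul [CharZero E₁] (hML : M ∣ L) :
    algebraMap E₁ (fieldC E₁ L M H) (((rtk6d0N M H ⊤ : ℕ) : E₁)) * rtk6n0fY f L M H ψ hML
      = rtk6c4fdY f L M H ψ hML := by
  unfold rtk6n0fY
  rw [← mul_assoc, ← map_mul, rtk6n0f_map_inv, mul_inv_cancel₀ rtk6n0_N_ne_zero, map_one,
    one_mul]

theorem rtk6n0fY_ne_zero [CharZero E₁] (hML : M ∣ L) (hM : 3 ≤ M) (hψH : ∀ h ∈ H, ψ h = 1)
    (hψ1 : ψ (-1) = 1) : rtk6n0fY f L M H ψ hML ≠ 0 := by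
  intro h0
  apply rtk6c4fdY_ne_zero f L M H ψ hML hM hψH hψ1
  rw [← rtk6n0fY_mul, h0, mul_zero]

/-- **`ι u′ = y′ ^ d`** for the normalised Kummer element `u′ = ⟨rtk6n0Y E₀ M H ψ ^ d, _⟩` -/
theorem rtk6n0f_iota_pow (hML : M ∣ L) {d : ℕ}
    (hmem : rtk6n0Y E₀ M H ψ ^ d ∈ modularFunctionFieldFullC E₀ L) :
    rtk6c4fdIota f L M H ⟨rtk6n0Y E₀ M H ψ ^ d, hmem⟩ = rtk6n0fY f L M H ψ hML ^ d := by
  apply Subtype.ext
  rw [rtk6c4fdIota_coe, SubmonoidClass.coe_pow, rtk6n0fY_coe]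
  show coeffMap f (rtk6n0Y E₀ M H ψ ^ d) = _
  rw [map_pow, rtk6n0f_coeffMap_Y]

/-- **(F4′)** the normalised Kummer element lies in the `Γ₀(L)`-field over `E₀` -/
theorem rtk6n0f_mem [CharZero E₀] [Algebra.IsAlgebraic ℚ E₀] (hL : L ≠ 0) (hML : M ∣ L)
    {d : ℕ} (hd : ∀ c, ψ c ^ d = 1) :
    rtk6n0Y E₀ M H ψ ^ d ∈ modularFunctionFieldFullC E₀ L :=
  rtk6n0Y_pow_mem _ (rtk6d0_pow_mem_full E₀ H ψ hL hML hd)

/-- **(F4′)** `y′ ^ d ∈ range ι` if `ψ ^ d = 1` -/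
theorem rtk6n0f_pow_mem [CharZero E₀] [Algebra.IsAlgebraic ℚ E₀] (hL : L ≠ 0) (hML : M ∣ L)
    {d : ℕ} (hd : ∀ c, ψ c ^ d = 1) :
    rtk6c4fdIota f L M H ⟨rtk6n0Y E₀ M H ψ ^ d, rtk6n0f_mem L M H ψ hL hML hd⟩
      = rtk6n0fY f L M H ψ hML ^ d :=
  rtk6n0f_iota_pow f L M H ψ hML _

variable {f L M H ψ}

/-- **(F3′)** `δ_c y′ = ψ(c) · y′` -/
theorem rtk6n0f_diamond_Y [CharZero E₁] [Algebra.IsAlgebraic ℚ E₁] (hML : M ∣ L)
    {c : (ZMod M)ˣ} {δ : fieldC E₁ L M H ≃ₐ[E₁] fieldC E₁ L M H}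
    (hδ : IsDiamondC E₁ L M H c δ) :
    δ (rtk6n0fY f L M H ψ hML)
      = algebraMap E₁ (fieldC E₁ L M H) (f ((ψ c : E₀ˣ) : E₀)) * rtk6n0fY f L M H ψ hML := by
  unfold rtk6n0fY
  rw [map_mul, rtk6c4fd_diamond_const, rtk6c4fd_diamond_Y hML hδ, mul_left_comm]

/-- `y′ = (constant of K) · y_ψ`, for ANY algebra structure with `algebraMap = ι` -/
theorem rtk6n0fY_eq_K [Algebra (modularFunctionFieldFullC E₀ L) (fieldC E₁ L M H)]
    (halg : ∀ z : modularFunctionFieldFullC E₀ L,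
      algebraMap (modularFunctionFieldFullC E₀ L) (fieldC E₁ L M H) z = rtk6c4fdIota f L M H z)
    (hML : M ∣ L) :
    rtk6n0fY f L M H ψ hML
      = algebraMap (modularFunctionFieldFullC E₀ L) (fieldC E₁ L M H)
          (algebraMap E₀ (modularFunctionFieldFullC E₀ L) (((rtk6d0N M H ⊤ : ℕ) : E₀)⁻¹))
        * rtk6c4fdY f L M H ψ hML := by
  rw [halg, rtk6c4fdIota_algebraMap]
  rfl

/-- the constant `n₀⁻¹` of `K` is nonzero -/
theorem rtk6n0f_const_ne_zero [CharZero E₀] :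
    algebraMap E₀ (modularFunctionFieldFullC E₀ L) (((rtk6d0N M H ⊤ : ℕ) : E₀)⁻¹) ≠ 0 := by
  rw [Ne, map_eq_zero_iff _ (algebraMap E₀ (modularFunctionFieldFullC E₀ L)).injective]
  exact inv_ne_zero rtk6n0_N_ne_zero

/-- `δ_K y′ = ι(ψ c) · y′` -/
theorem rtk6n0fDiamK_Y [CharZero E₁] [Algebra.IsAlgebraic ℚ E₁]
    [Algebra (modularFunctionFieldFullC E₀ L) (fieldC E₁ L M H)]
    (halg : ∀ z : modularFunctionFieldFullC E₀ L,
      algebraMap (modularFunctionFieldFullC E₀ L) (fieldC E₁ L M H) z = rtk6c4fdIota f L M H z)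
    (hML : M ∣ L) {c : (ZMod M)ˣ} {δ : fieldC E₁ L M H ≃ₐ[E₁] fieldC E₁ L M H}
    (hδ : IsDiamondC E₁ L M H c δ) :
    rtk6c4fdDiamK halg hδ (rtk6n0fY f L M H ψ hML)
      = algebraMap (modularFunctionFieldFullC E₀ L) (fieldC E₁ L M H)
          (algebraMap E₀ (modularFunctionFieldFullC E₀ L) ((ψ c : E₀ˣ) : E₀))
        * rtk6n0fY f L M H ψ hML := by
  rw [rtk6c4fdDiamK_apply, rtk6n0f_diamond_Y hML hδ, halg, rtk6c4fdIota_algebraMap]

/-- the generated algebras agree: `K[S, ϖ, y′] = K[S, ϖ, y_ψ]` -/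
theorem rtk6n0f_adjoin [CharZero E₀]
    [Algebra (modularFunctionFieldFullC E₀ L) (fieldC E₁ L M H)]
    (halg : ∀ z : modularFunctionFieldFullC E₀ L,
      algebraMap (modularFunctionFieldFullC E₀ L) (fieldC E₁ L M H) z = rtk6c4fdIota f L M H z)
    (hML : M ∣ L) (S : Set (fieldC E₁ L M H)) (ϖ : fieldC E₁ L M H) :
    Algebra.adjoin (modularFunctionFieldFullC E₀ L) (S ∪ {ϖ, rtk6n0fY f L M H ψ hML})
      = Algebra.adjoin (modularFunctionFieldFullC E₀ L) (S ∪ {ϖ, rtk6c4fdY f L M H ψ hML}) := by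
  rw [rtk6n0fY_eq_K halg hML]
  exact rtk6n0f_adjoin_eq S ϖ _ rtk6n0f_const_ne_zero

end Generic

section Concrete

variable {K₁ : IntermediateField ℚ Qb} {L M : ℕ} {H : Subgroup (ZMod M)ˣ}

/-- the coefficientwise action of `σ` fixes `y′` if `σ` fixes the values of `f` -/
theorem rtk6n0f_coeffHom_Y [NeZero M] {E₀ : Type} [Field E₀] (f : E₀ →+* K₁)
    (ψ : (ZMod M)ˣ →* E₀ˣ) (hML : M ∣ L) (σ : Qb ≃ₐ[ℚ] Qb) (hσ : ∀ x ∈ K₁, σ x ∈ K₁)
    (hfix : ∀ a : E₀, σ (f a : Qb) = (f a : Qb)) :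
    rtk6diCoeffHom L M H (mgRestrict K₁ σ hσ) (rtk6n0fY f L M H ψ hML)
      = rtk6n0fY f L M H ψ hML := by
  unfold rtk6n0fY
  rw [map_mul, rtk6c4fd_coeffHom_const, rtk6c4fd_coeffHom_Y f ψ hML σ hσ hfix]
  congr 2
  apply Subtype.ext
  exact hfix _

end Concrete

end Fermat.Agent.RT.K6

end
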