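/-
RT-K6, piece C4-χ-WIRE, part 2 (helper70): **`hgen` discharged** at the thin level
`K₁′ = rtk6ebK r d` and the wiring of PSI into the fields of `Rtk6c4Cross(E)`.

* `rtk6c4w_closure`    : `E₁ = mgcE A (rtk6ebK r d)` is generated, as a field, by `ℚ̄^I` and `ϖ`
  (`ϖ ^ d = r`)  — the hypothesis `hϖ` of helper36's (F1) (`C4FGen.lean`);
* `rtk6c4w_hgen_base`  : `K[y_{ψ′_i}, C ϖ, y_{ψ_r}] = F₁` for `ψ_r`, `ψ′_i` of PSI;
* `rtk6c4w_wireS`      : **all non-pointwise fields** for an ABSTRACT `S` (helper98's interface: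
  `hSfix`, `hSadj`) and `y = k_y · y_{ψ_r}`;
* `rtk6c4w_wire`       : the same for `S = {k_i · y_{ψ′_i}}`;
* `rtk6c4w_wireN`      : the same for the NORMALISED `y′ = rtk6n0fY` (helper6, `C4FNorm.lean`).
-/
import Fermat.Agent.RT.K6.C4ChiWire
import Fermat.Agent.RT.K6.C4FGen
import Fermat.Agent.RT.K6.C4FNorm
import Fermat.Agent.RT.K6.EBaseVarpi

set_option autoImplicit false
set_option linter.style.haveILetI false
set_option linter.unusedSectionVars false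
set_option linter.unusedVariables false
set_option linter.style.longLine false
set_option synthInstance.maxHeartbeats 400000
set_option maxHeartbeats 4000000

noncomputable section

namespace Fermat.Agent.RT.K6

open ModularCurve AlgebraicCurve IntermediateField
open Fermat.Agent.ES Fermat.Agent.ES.G2 Fermat.Agent.INJ Fermat.Agent.UNIP Fermat.Agent.ES1
  Fermat.Agent.ES1.G2

/-! ### `E₁ = E₀(ϖ)` at the thin level -/

section Closure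

variable {A : ValuationSubring Qb} {r d : ℕ}

/-- **`E₁ = ℚ̄^I(ϖ)`**: the hypothesis `hϖ` of (F1) at the thin level `K₁′ = rtk6ebK r d`. -/
theorem rtk6c4w_closure (hr : r.Prime) (hA : A.LiesOverPrime r) (hd0 : d ≠ 0) (hdr : ¬ r ∣ d)
    (f : ↥(beta0Field A) →+* ↥(mgcE A (rtk6ebK r d)))
    (hf : ∀ a : ↥(beta0Field A), ((f a : ↥(mgcE A (rtk6ebK r d))) : Qb) = (a : Qb))
    {ϖ : ↥(mgcE A (rtk6ebK r d))} (hϖ : ϖ ^ d = ((r : ℕ) : ↥(mgcE A (rtk6ebK r d)))) :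
    Subfield.closure (Set.range f ∪ {ϖ}) = ⊤ := by
  rw [eq_top_iff]
  rintro x -
  have hϖQ : (ϖ : Qb) ^ d = ((r : ℕ) : Qb) := by
    have := congrArg (fun z : ↥(mgcE A (rtk6ebK r d)) => (z : Qb)) hϖ
    simpa using this
  obtain ⟨c, hc, hx⟩ := rtk6eb_exists_coeff hr hA hd0 hdr hϖQ x.2
  have hx' : x = ∑ i, f ⟨c i, hc i⟩ * ϖ ^ (i : ℕ) := by
    apply Subtype.ext
    rw [hx]
    have h1 : ((∑ i, f ⟨c i, hc i⟩ * ϖ ^ (i : ℕ) : ↥(mgcE A (rtk6ebK r d))) : Qb)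
        = ∑ i, ((f ⟨c i, hc i⟩ * ϖ ^ (i : ℕ) : ↥(mgcE A (rtk6ebK r d))) : Qb) :=
      map_sum (mgcE A (rtk6ebK r d)).val _ _
    rw [h1]
    refine Finset.sum_congr rfl fun i _ => ?_
    rw [MulMemClass.coe_mul, SubmonoidClass.coe_pow, hf]
  rw [hx']
  refine sum_mem fun i _ => mul_mem ?_ (pow_mem ?_ _)
  · exact Subfield.subset_closure (Or.inl ⟨_, rfl⟩)
  · exact Subfield.subset_closure (Or.inr rfl)

end Closure

/-! ### `hgen` for the characters of PSI -/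

section Gen

variable {A : ValuationSubring Qb} {r : ℕ} {L M : ℕ} [NeZero M] {H : Subgroup (ZMod M)ˣ}

/-- the family `ψ_r, ψ′_i` -/
def rtk6c4wFam {E₀ : Type} [Field E₀] {ι : Type*} (ψr : (ZMod M)ˣ →* E₀ˣ)
    (ψ' : ι → ((ZMod M)ˣ →* E₀ˣ)) : Option ι → ((ZMod M)ˣ →* E₀ˣ) :=
  fun o => o.elim ψr ψ'

/-- **(F1) for PSI at the thin level**: `F₁ = K[y_{ψ′_i}, C ϖ, y_{ψ_r}]`. -/
theorem rtk6c4w_hgen_base (hr : r.Prime) (hA : A.LiesOverPrime r) (hrM : r ∣ M)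
    (hr2 : ¬ r ^ 2 ∣ M)
    (f : ↥(beta0Field A) →+* ↥(mgcE A (rtk6ebK r (rtk6psiDr M r H))))
    (hf : ∀ a : ↥(beta0Field A),
      ((f a : ↥(mgcE A (rtk6ebK r (rtk6psiDr M r H)))) : Qb) = (a : Qb))
    [Algebra ↥(modularFunctionFieldFullC ↥(beta0Field A) L)
      ↥(rtk6diF A (rtk6ebK r (rtk6psiDr M r H)) L M H)]
    (halg : ∀ z : ↥(modularFunctionFieldFullC ↥(beta0Field A) L),
      algebraMap ↥(modularFunctionFieldFullC ↥(beta0Field A) L)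
        ↥(rtk6diF A (rtk6ebK r (rtk6psiDr M r H)) L M H) z = rtk6c4fdIota f L M H z)
    (hL : L ≠ 0) (hML : M ∣ L) (hM : 3 ≤ M)
    {ϖ : ↥(mgcA A (rtk6ebK r (rtk6psiDr M r H)))}
    (hϖ : ϖ ^ rtk6psiDr M r H = ((r : ℕ) : ↥(mgcA A (rtk6ebK r (rtk6psiDr M r H)))))
    {ψr : (ZMod M)ˣ →* (↥(beta0Field A))ˣ} (hψr : Rtk6psiIsR ↥(beta0Field A) M r H ψr)
    {ι : Type*} {dS : ℕ} {ψ' : ι → ((ZMod M)ˣ →* (↥(beta0Field A))ˣ)}
    (hfam : Rtk6psiIsFam ↥(beta0Field A) M r dS H ψ')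
    (hdS0 : dS ≠ 0) (hdS : rtk6psiDr M r H ∣ dS) :
    Algebra.adjoin ↥(modularFunctionFieldFullC ↥(beta0Field A) L)
      ((Set.range fun i => rtk6c4fdY f L M H (ψ' i) hML) ∪
        {algebraMap ↥(mgcA A (rtk6ebK r (rtk6psiDr M r H)))
            ↥(rtk6diF A (rtk6ebK r (rtk6psiDr M r H)) L M H) ϖ,
          rtk6c4fdY f L M H ψr hML}) = ⊤ := by
  haveI : Algebra.IsAlgebraic ℚ Qb := AlgebraicClosure.isAlgebraic ℚ
  haveI : Algebra.IsAlgebraic ℚ ↥(mgcE A (rtk6ebK r (rtk6psiDr M r H))) :=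
    Algebra.IsAlgebraic.of_injective (mgcE A (rtk6ebK r (rtk6psiDr M r H))).val
      Subtype.val_injective
  haveI : Algebra.IsAlgebraic ℚ ↥(beta0Field A) :=
    Algebra.IsAlgebraic.of_injective (beta0Field A).val Subtype.val_injective
  have hd0 : rtk6psiDr M r H ≠ 0 := (rtk6psiDr_pos (M := M) (r := r) (H := H)).ne'
  have hdr : ¬ r ∣ rtk6psiDr M r H := rtk6psiDr_not_dvd hr hrM hr2
  have hϖE : ((ϖ : ↥(mgcA A (rtk6ebK r (rtk6psiDr M r H)))) :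
      ↥(mgcE A (rtk6ebK r (rtk6psiDr M r H)))) ^ rtk6psiDr M r H
      = ((r : ℕ) : ↥(mgcE A (rtk6ebK r (rtk6psiDr M r H)))) := by
    have := congrArg (fun z : ↥(mgcA A (rtk6ebK r (rtk6psiDr M r H))) =>
      (z : ↥(mgcE A (rtk6ebK r (rtk6psiDr M r H))))) hϖ
    simpa using this
  have hcl := rtk6c4w_closure hr hA hd0 hdr f hf hϖE
  obtain ⟨e, he⟩ := hdS
  have hϖd : ∃ a : ↥(beta0Field A),
      ((ϖ : ↥(mgcA A (rtk6ebK r (rtk6psiDr M r H)))) :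
        ↥(mgcE A (rtk6ebK r (rtk6psiDr M r H)))) ^ dS = f a := by
    refine ⟨((r : ℕ) : ↥(beta0Field A)) ^ e, ?_⟩
    rw [he, pow_mul, hϖE, map_pow, map_natCast]
  have hψd : ∀ (i : Option ι) (c : (ZMod M)ˣ), rtk6c4wFam ψr ψ' i c ^ dS = 1 := by
    rintro (_ | i) c
    · show ψr c ^ dS = 1
      rw [he, pow_mul, hψr.pow_dr c, one_pow]
    · exact hfam.pow_d i c
  have hψH : ∀ (i : Option ι), ∀ h ∈ H, rtk6c4wFam ψr ψ' i h = 1 := by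
    rintro (_ | i) h hh
    · exact hψr.map_H h hh
    · exact hfam.map_H i h hh
  have hψ1 : ∀ (i : Option ι), rtk6c4wFam ψr ψ' i (-1) = 1 := by
    rintro (_ | i)
    · exact hψr.map_neg_one
    · exact hfam.map_neg_one i
  have hfaith : ∀ c : (ZMod M)ˣ, (∀ i, rtk6c4wFam ψr ψ' i c = 1) → InPM H 1 (c : ZMod M) :=
    fun c hc => es1rc_mem_pmH_iff.1
      (hfam.faithful_psiR hψr (hc none) (fun i => hc (some i)))
  have h := rtk6c4fg_algebra_adjoin_eq_top f H halg (rtk6c4wFam ψr ψ') hL hML hM hψH hψ1 hfaith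
    hcl (Nat.pos_of_ne_zero hdS0) hϖd hψd
  rw [eq_top_iff, ← h]
  refine Algebra.adjoin_mono ?_
  rintro t (ht | ⟨o, rfl⟩)
  · rw [Set.mem_singleton_iff] at ht
    subst ht
    exact Or.inr (Or.inl rfl)
  · rcases o with _ | i
    · exact Or.inr (Or.inr rfl)
    · exact Or.inl ⟨i, rfl⟩

end Gen

/-! ### The wiring -/

section Wire

variable {A : ValuationSubring Qb} {r : ℕ} {L M : ℕ} [NeZero M] {H : Subgroup (ZMod M)ˣ}

/-- **C4-χ-WIRE, abstract `S`.**  All non-pointwise fields of `Rtk6c4Cross(E)` at the thin level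
`K₁′ = rtk6ebK r d_r`, in the shape of `rtk6gxi_cross(E)`, for `y = k_y · y_{ψ_r}` and ANY set `S`
with: every `K`-automorphism fixing the `y_{ψ′_i}` fixes `S` (`hSfix`), and
`K[S, T] = K[y_{ψ′_i}, T]` for all `T` (`hSadj`). -/
theorem rtk6c4w_wireS (hr : r.Prime) (hA : A.LiesOverPrime r) (hrM : r ∣ M)
    (hr2 : ¬ r ^ 2 ∣ M) (hodd : Odd (rtk6psiDr M r H))
    (f : ↥(beta0Field A) →+* ↥(mgcE A (rtk6ebK r (rtk6psiDr M r H))))
    (hf : ∀ a : ↥(beta0Field A),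
      ((f a : ↥(mgcE A (rtk6ebK r (rtk6psiDr M r H)))) : Qb) = (a : Qb))
    [Algebra ↥(modularFunctionFieldFullC ↥(beta0Field A) L)
      ↥(rtk6diF A (rtk6ebK r (rtk6psiDr M r H)) L M H)]
    (halg : ∀ z : ↥(modularFunctionFieldFullC ↥(beta0Field A) L),
      algebraMap ↥(modularFunctionFieldFullC ↥(beta0Field A) L)
        ↥(rtk6diF A (rtk6ebK r (rtk6psiDr M r H)) L M H) z = rtk6c4fdIota f L M H z)
    (hL : L ≠ 0) (hML : M ∣ L) (hM : 3 ≤ M)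
    (R₀ : Subalgebra ↥(beta0Ring A (beta0Field A))
      ↥(modularFunctionFieldFullC ↥(beta0Field A) L))
    {ϖ : ↥(mgcA A (rtk6ebK r (rtk6psiDr M r H)))}
    (hϖ : ϖ ^ rtk6psiDr M r H = ((r : ℕ) : ↥(mgcA A (rtk6ebK r (rtk6psiDr M r H)))))
    {ψr : (ZMod M)ˣ →* (↥(beta0Field A))ˣ} (hψr : Rtk6psiIsR ↥(beta0Field A) M r H ψr)
    {ι : Type*} {dS : ℕ} {ψ' : ι → ((ZMod M)ˣ →* (↥(beta0Field A))ˣ)}
    (hfam : Rtk6psiIsFam ↥(beta0Field A) M r dS H ψ')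
    (hdS0 : dS ≠ 0) (hdS : rtk6psiDr M r H ∣ dS)
    (S : Set ↥(rtk6diF A (rtk6ebK r (rtk6psiDr M r H)) L M H))
    (hSfix : ∀ φ : ↥(rtk6diF A (rtk6ebK r (rtk6psiDr M r H)) L M H)
        ≃ₐ[↥(modularFunctionFieldFullC ↥(beta0Field A) L)]
        ↥(rtk6diF A (rtk6ebK r (rtk6psiDr M r H)) L M H),
      (∀ i, φ (rtk6c4fdY f L M H (ψ' i) hML) = rtk6c4fdY f L M H (ψ' i) hML) →
        ∀ t ∈ S, φ t = t)
    (hSadj : ∀ T : Set ↥(rtk6diF A (rtk6ebK r (rtk6psiDr M r H)) L M H),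
      Algebra.adjoin ↥(modularFunctionFieldFullC ↥(beta0Field A) L) (S ∪ T)
        = Algebra.adjoin ↥(modularFunctionFieldFullC ↥(beta0Field A) L)
          ((Set.range fun i => rtk6c4fdY f L M H (ψ' i) hML) ∪ T))
    (ky : ↥(modularFunctionFieldFullC ↥(beta0Field A) L)) (hky : ky ≠ 0)
    {n₀ : ℤ} (hn₀ : Nat.Coprime n₀.natAbs (rtk6psiDr M r H)) :
    ∃ (ζ : ↥R₀) (a b : ℤ)
      (σ δ : ↥(rtk6diF A (rtk6ebK r (rtk6psiDr M r H)) L M H)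
        ≃ₐ[↥(modularFunctionFieldFullC ↥(beta0Field A) L)]
        ↥(rtk6diF A (rtk6ebK r (rtk6psiDr M r H)) L M H)),
      IsPrimitiveRoot ζ (rtk6psiDr M r H) ∧
      a * n₀ - b * (rtk6psiDr M r H : ℤ) = 1 ∧
      Algebra.adjoin ↥(modularFunctionFieldFullC ↥(beta0Field A) L)
        (S ∪ {algebraMap ↥(mgcA A (rtk6ebK r (rtk6psiDr M r H)))
            ↥(rtk6diF A (rtk6ebK r (rtk6psiDr M r H)) L M H) ϖ,
          algebraMap ↥(modularFunctionFieldFullC ↥(beta0Field A) L)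
            ↥(rtk6diF A (rtk6ebK r (rtk6psiDr M r H)) L M H) ky
              * rtk6c4fdY f L M H ψr hML}) = ⊤ ∧
      (∀ t ∈ S, σ t = t) ∧
      σ (algebraMap ↥(mgcA A (rtk6ebK r (rtk6psiDr M r H)))
          ↥(rtk6diF A (rtk6ebK r (rtk6psiDr M r H)) L M H) ϖ)
        = algebraMap ↥R₀ ↥(rtk6diF A (rtk6ebK r (rtk6psiDr M r H)) L M H) ζ
          * algebraMap ↥(mgcA A (rtk6ebK r (rtk6psiDr M r H)))
            ↥(rtk6diF A (rtk6ebK r (rtk6psiDr M r H)) L M H) ϖ ∧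
      σ (algebraMap ↥(modularFunctionFieldFullC ↥(beta0Field A) L)
          ↥(rtk6diF A (rtk6ebK r (rtk6psiDr M r H)) L M H) ky * rtk6c4fdY f L M H ψr hML)
        = algebraMap ↥(modularFunctionFieldFullC ↥(beta0Field A) L)
          ↥(rtk6diF A (rtk6ebK r (rtk6psiDr M r H)) L M H) ky * rtk6c4fdY f L M H ψr hML ∧
      (∀ t ∈ S, δ t = t) ∧
      δ (algebraMap ↥(mgcA A (rtk6ebK r (rtk6psiDr M r H)))
          ↥(rtk6diF A (rtk6ebK r (rtk6psiDr M r H)) L M H) ϖ)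
        = algebraMap ↥(mgcA A (rtk6ebK r (rtk6psiDr M r H)))
          ↥(rtk6diF A (rtk6ebK r (rtk6psiDr M r H)) L M H) ϖ ∧
      δ (algebraMap ↥(modularFunctionFieldFullC ↥(beta0Field A) L)
          ↥(rtk6diF A (rtk6ebK r (rtk6psiDr M r H)) L M H) ky * rtk6c4fdY f L M H ψr hML)
        = algebraMap ↥R₀ ↥(rtk6diF A (rtk6ebK r (rtk6psiDr M r H)) L M H) ζ ^ n₀ *
          (algebraMap ↥(modularFunctionFieldFullC ↥(beta0Field A) L)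
            ↥(rtk6diF A (rtk6ebK r (rtk6psiDr M r H)) L M H) ky
              * rtk6c4fdY f L M H ψr hML) ∧
      -- provenance
      (∃ (σ₀ : Qb ≃ₐ[ℚ] Qb) (_ : σ₀ ∈ A.inertiaSubgroupIn ℚ)
          (hσE : ∀ x ∈ mgcE A (rtk6ebK r (rtk6psiDr M r H)),
            σ₀ x ∈ mgcE A (rtk6ebK r (rtk6psiDr M r H))),
        ∀ x, σ x = rtk6diGal L M H σ₀ hσE • x) ∧
      (∃ (c : (ZMod M)ˣ) (δ₀ : ↥(rtk6diF A (rtk6ebK r (rtk6psiDr M r H)) L M H)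
          ≃ₐ[↥(mgcE A (rtk6ebK r (rtk6psiDr M r H)))]
          ↥(rtk6diF A (rtk6ebK r (rtk6psiDr M r H)) L M H)),
        IsAtR M r c ∧ IsDiamondC ↥(mgcE A (rtk6ebK r (rtk6psiDr M r H))) L M H c δ₀ ∧
          ∀ x, δ x = δ₀ x) := by
  have hd0 : rtk6psiDr M r H ≠ 0 := hodd.pos.ne'
  obtain ⟨c₀, hc₀, hord⟩ := hψr.exists_orderOf hr hrM hr2
  have hu : ψr c₀ ^ rtk6psiDr M r H = 1 := hψr.pow_dr c₀
  obtain ⟨a, b, hab⟩ := rtk6c4w_bezout hn₀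
  obtain ⟨σ, δ, hσϖ, hσY, hδϖ, hδy, hδY, hσprov, hδprov⟩ :=
    rtk6c4w_auts (L := L) (M := M) (H := H) hr hA hrM hodd (rtk6ebK r (rtk6psiDr M r H)) f hf
      halg hL hML hϖ ψr hc₀ hord n₀
  have hbase := rtk6c4w_hgen_base hr hA hrM hr2 f hf halg hL hML hM hϖ hψr hfam hdS0 hdS
  refine ⟨rtk6c4wZeta (beta0Ring A (beta0Field A)) R₀ (ψr c₀) hd0 hu, a, b, σ, δ,
    rtk6c4wZeta_isPrimitiveRoot _ R₀ _ hd0 hu hord, hab, ?_,
    hSfix σ (fun i => hσY (ψ' i)), hσϖ, ?_,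
    hSfix δ (fun i => hδY (ψ' i) (hfam.map_atR i)), hδϖ, ?_, hσprov, hδprov⟩
  · rw [hSadj, rtk6n0f_adjoin_eq _ _ _ hky]
    exact hbase
  · rw [map_mul, AlgEquiv.commutes, hσY ψr]
  · rw [map_mul, AlgEquiv.commutes, hδy]
    exact mul_left_comm _ _ _

/-- **C4-χ-WIRE, NORMALISED generators** (the form for helper74's `rtk6gi_cross_pack` and
helper54's `rtk6gxi_cross(E)` with `z := u′`, `y := y′`): `y′_ψ = rtk6n0fY f L M H ψ hML`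
(helper6, `C4FNorm.lean`).  Output: `ζ a b σ δ` with `hζ`, `hab`,
(F1) `K[y′_{ψ′_i}, C ϖ, y′_{ψ_r}] = F₁`, the values of `σ`, `δ` on `C ϖ` and on ALL `y′_ψ`
(`hσϖ hσy hδϖ hδy`; `hσS hδS` through `rtk6gi_cross_pack`), and the provenance of `σ`, `δ`. -/
theorem rtk6c4w_wireN (hr : r.Prime) (hA : A.LiesOverPrime r) (hrM : r ∣ M)
    (hr2 : ¬ r ^ 2 ∣ M) (hodd : Odd (rtk6psiDr M r H))
    (f : ↥(beta0Field A) →+* ↥(mgcE A (rtk6ebK r (rtk6psiDr M r H))))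
    (hf : ∀ a : ↥(beta0Field A),
      ((f a : ↥(mgcE A (rtk6ebK r (rtk6psiDr M r H)))) : Qb) = (a : Qb))
    [Algebra ↥(modularFunctionFieldFullC ↥(beta0Field A) L)
      ↥(rtk6diF A (rtk6ebK r (rtk6psiDr M r H)) L M H)]
    (halg : ∀ z : ↥(modularFunctionFieldFullC ↥(beta0Field A) L),
      algebraMap ↥(modularFunctionFieldFullC ↥(beta0Field A) L)
        ↥(rtk6diF A (rtk6ebK r (rtk6psiDr M r H)) L M H) z = rtk6c4fdIota f L M H z)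
    (hL : L ≠ 0) (hML : M ∣ L) (hM : 3 ≤ M)
    (R₀ : Subalgebra ↥(beta0Ring A (beta0Field A))
      ↥(modularFunctionFieldFullC ↥(beta0Field A) L))
    {ϖ : ↥(mgcA A (rtk6ebK r (rtk6psiDr M r H)))}
    (hϖ : ϖ ^ rtk6psiDr M r H = ((r : ℕ) : ↥(mgcA A (rtk6ebK r (rtk6psiDr M r H)))))
    {ψr : (ZMod M)ˣ →* (↥(beta0Field A))ˣ} (hψr : Rtk6psiIsR ↥(beta0Field A) M r H ψr)
    {ι : Type*} {dS : ℕ} {ψ' : ι → ((ZMod M)ˣ →* (↥(beta0Field A))ˣ)}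
    (hfam : Rtk6psiIsFam ↥(beta0Field A) M r dS H ψ')
    (hdS0 : dS ≠ 0) (hdS : rtk6psiDr M r H ∣ dS)
    {n₀ : ℤ} (hn₀ : Nat.Coprime n₀.natAbs (rtk6psiDr M r H)) :
    ∃ (ζ : ↥R₀) (a b : ℤ)
      (σ δ : ↥(rtk6diF A (rtk6ebK r (rtk6psiDr M r H)) L M H)
        ≃ₐ[↥(modularFunctionFieldFullC ↥(beta0Field A) L)]
        ↥(rtk6diF A (rtk6ebK r (rtk6psiDr M r H)) L M H)),
      IsPrimitiveRoot ζ (rtk6psiDr M r H) ∧
      a * n₀ - b * (rtk6psiDr M r H : ℤ) = 1 ∧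
      -- (F1), normalised generators
      Algebra.adjoin ↥(modularFunctionFieldFullC ↥(beta0Field A) L)
        ((Set.range fun i => rtk6n0fY f L M H (ψ' i) hML) ∪
          {algebraMap ↥(mgcA A (rtk6ebK r (rtk6psiDr M r H)))
              ↥(rtk6diF A (rtk6ebK r (rtk6psiDr M r H)) L M H) ϖ,
            rtk6n0fY f L M H ψr hML}) = ⊤ ∧
      -- `σ`
      (∀ ψ : (ZMod M)ˣ →* (↥(beta0Field A))ˣ,
        σ (rtk6n0fY f L M H ψ hML) = rtk6n0fY f L M H ψ hML) ∧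
      (∀ ψ : (ZMod M)ˣ →* (↥(beta0Field A))ˣ,
        σ (rtk6c4fdY f L M H ψ hML) = rtk6c4fdY f L M H ψ hML) ∧
      σ (algebraMap ↥(mgcA A (rtk6ebK r (rtk6psiDr M r H)))
          ↥(rtk6diF A (rtk6ebK r (rtk6psiDr M r H)) L M H) ϖ)
        = algebraMap ↥R₀ ↥(rtk6diF A (rtk6ebK r (rtk6psiDr M r H)) L M H) ζ
          * algebraMap ↥(mgcA A (rtk6ebK r (rtk6psiDr M r H)))
            ↥(rtk6diF A (rtk6ebK r (rtk6psiDr M r H)) L M H) ϖ ∧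
      -- `δ`
      (∀ ψ : (ZMod M)ˣ →* (↥(beta0Field A))ˣ, (∀ c, IsAtR M r c → ψ c = 1) →
        δ (rtk6n0fY f L M H ψ hML) = rtk6n0fY f L M H ψ hML) ∧
      (∀ ψ : (ZMod M)ˣ →* (↥(beta0Field A))ˣ, (∀ c, IsAtR M r c → ψ c = 1) →
        δ (rtk6c4fdY f L M H ψ hML) = rtk6c4fdY f L M H ψ hML) ∧
      δ (algebraMap ↥(mgcA A (rtk6ebK r (rtk6psiDr M r H)))
          ↥(rtk6diF A (rtk6ebK r (rtk6psiDr M r H)) L M H) ϖ)
        = algebraMap ↥(mgcA A (rtk6ebK r (rtk6psiDr M r H)))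
          ↥(rtk6diF A (rtk6ebK r (rtk6psiDr M r H)) L M H) ϖ ∧
      δ (rtk6n0fY f L M H ψr hML)
        = algebraMap ↥R₀ ↥(rtk6diF A (rtk6ebK r (rtk6psiDr M r H)) L M H) ζ ^ n₀ *
          rtk6n0fY f L M H ψr hML ∧
      δ (rtk6c4fdY f L M H ψr hML)
        = algebraMap ↥R₀ ↥(rtk6diF A (rtk6ebK r (rtk6psiDr M r H)) L M H) ζ ^ n₀ *
          rtk6c4fdY f L M H ψr hML ∧
      -- provenance
      (∃ (σ₀ : Qb ≃ₐ[ℚ] Qb) (_ : σ₀ ∈ A.inertiaSubgroupIn ℚ)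
          (hσE : ∀ x ∈ mgcE A (rtk6ebK r (rtk6psiDr M r H)),
            σ₀ x ∈ mgcE A (rtk6ebK r (rtk6psiDr M r H))),
        ∀ x, σ x = rtk6diGal L M H σ₀ hσE • x) ∧
      (∃ (c : (ZMod M)ˣ) (δ₀ : ↥(rtk6diF A (rtk6ebK r (rtk6psiDr M r H)) L M H)
          ≃ₐ[↥(mgcE A (rtk6ebK r (rtk6psiDr M r H)))]
          ↥(rtk6diF A (rtk6ebK r (rtk6psiDr M r H)) L M H)),
        IsAtR M r c ∧ IsDiamondC ↥(mgcE A (rtk6ebK r (rtk6psiDr M r H))) L M H c δ₀ ∧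
          ∀ x, δ x = δ₀ x) := by
  have hd0 : rtk6psiDr M r H ≠ 0 := hodd.pos.ne'
  obtain ⟨c₀, hc₀, hord⟩ := hψr.exists_orderOf hr hrM hr2
  have hu : ψr c₀ ^ rtk6psiDr M r H = 1 := hψr.pow_dr c₀
  obtain ⟨a, b, hab⟩ := rtk6c4w_bezout hn₀
  obtain ⟨σ, δ, hσϖ, hσY, hδϖ, hδy, hδY, hσprov, hδprov⟩ :=
    rtk6c4w_auts (L := L) (M := M) (H := H) hr hA hrM hodd (rtk6ebK r (rtk6psiDr M r H)) f hf
      halg hL hML hϖ ψr hc₀ hord n₀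
  have hbase := rtk6c4w_hgen_base hr hA hrM hr2 f hf halg hL hML hM hϖ hψr hfam hdS0 hdS
  have hN := rtk6c4w_adjoin_scaled (fun i => rtk6c4fdY f L M H (ψ' i) hML)
    (fun _ => algebraMap ↥(beta0Field A) ↥(modularFunctionFieldFullC ↥(beta0Field A) L)
      (((rtk6d0N M H ⊤ : ℕ) : ↥(beta0Field A))⁻¹))
    (fun _ => rtk6n0f_const_ne_zero)
    (algebraMap ↥(mgcA A (rtk6ebK r (rtk6psiDr M r H)))
      ↥(rtk6diF A (rtk6ebK r (rtk6psiDr M r H)) L M H) ϖ)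
    (rtk6c4fdY f L M H ψr hML)
    (algebraMap ↥(beta0Field A) ↥(modularFunctionFieldFullC ↥(beta0Field A) L)
      (((rtk6d0N M H ⊤ : ℕ) : ↥(beta0Field A))⁻¹))
    rtk6n0f_const_ne_zero hbase (le_refl _)
  have e : (fun i => algebraMap ↥(modularFunctionFieldFullC ↥(beta0Field A) L)
      ↥(rtk6diF A (rtk6ebK r (rtk6psiDr M r H)) L M H)
      (algebraMap ↥(beta0Field A) ↥(modularFunctionFieldFullC ↥(beta0Field A) L)
        (((rtk6d0N M H ⊤ : ℕ) : ↥(beta0Field A))⁻¹)) * rtk6c4fdY f L M H (ψ' i) hML)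
      = fun i => rtk6n0fY f L M H (ψ' i) hML :=
    funext fun i => (rtk6n0fY_eq_K halg hML).symm
  rw [e, ← rtk6n0fY_eq_K halg hML] at hN
  have hσN : ∀ ψ : (ZMod M)ˣ →* (↥(beta0Field A))ˣ,
      σ (rtk6n0fY f L M H ψ hML) = rtk6n0fY f L M H ψ hML := fun ψ => by
    rw [rtk6n0fY_eq_K halg hML, map_mul, AlgEquiv.commutes, hσY ψ]
  have hδN : ∀ ψ : (ZMod M)ˣ →* (↥(beta0Field A))ˣ, (∀ c, IsAtR M r c → ψ c = 1) →
      δ (rtk6n0fY f L M H ψ hML) = rtk6n0fY f L M H ψ hML := fun ψ hψ => by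
    rw [rtk6n0fY_eq_K halg hML, map_mul, AlgEquiv.commutes, hδY ψ hψ]
  refine ⟨rtk6c4wZeta (beta0Ring A (beta0Field A)) R₀ (ψr c₀) hd0 hu, a, b, σ, δ,
    rtk6c4wZeta_isPrimitiveRoot _ R₀ _ hd0 hu hord, hab, hN, hσN, hσY, hσϖ, hδN, hδY, hδϖ,
    ?_, hδy, hσprov, hδprov⟩
  rw [rtk6n0fY_eq_K halg hML, map_mul, AlgEquiv.commutes, hδy]
  exact mul_left_comm _ _ _

end Wire

end Fermat.Agent.RT.K6

end
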