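/-
K-machine, piece K6, GEN-inst, half (G-cross), part 1 (helper54): **the `R₀`-level data of a
crossing point of the base chart `j`**, in the shape of the fields of helper94's `Rtk6c4Cross`
(`C4Abs.lean`): thin node `w π = X₀ Y₀`, `𝔫₀ = (π, X₀, Y₀)` locally, the positions of `X₀`, `Y₀`
with respect to `V_∞`, `V_0`, and (LF) in the form `e₂ · u = e₁ · Y₀ ^ n₀ · γ ^ m` with
`e₁, e₂ ∈ R₀ ∖ 𝔫₀`.

* `rtk6gx_unit_frac` : a unit of `atLoc 𝔫` is a quotient `e₁ / e₂`, `e₁, e₂ ∈ B_u ∖ 𝔫`;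
* `rtk6gx_cross_pos` : at a thin crossing point `X ∈ 𝔫`, `Y ∈ 𝔫`, `Y ∉ 𝔪(V_∞)`, `X ∉ 𝔪(V_0)`;
* `rtk6gx_cross_J` : **chart `j` of `F_{Mq}(ℚ̄^I)`, rigid level**: at a closed point through which
  both `V_∞` and `V_0` pass, for `u ≠ 0` with `m ∣ ord_P u` at all horizontal places,
  `v_∞(u) = 1`, `v_0(u) = v_0(π) ^ n₀`.
-/
import Fermat.Agent.RT.K6.DLFConc

set_option autoImplicit false
set_option linter.style.haveILetI false
set_option linter.unusedSectionVars false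
set_option linter.unusedVariables false
set_option linter.style.longLine false
set_option synthInstance.maxHeartbeats 400000
set_option maxHeartbeats 4000000

noncomputable section

namespace Fermat.Agent.RT.K6

open ModularCurve Polynomial IntermediateField Fermat.Agent.INJ Fermat.Agent.AL AlgebraicCurve
open Fermat.Agent.ES Fermat.Agent.ES.G2 Fermat.Agent.STB Fermat.Agent.UNIP Fermat.Agent.S36
open Fermat.Agent.RIB.MP

section Abs

variable {A₀ E F : Type*} [CommRing A₀] [IsDomain A₀] [IsDiscreteValuationRing A₀]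
  [Field E] [Algebra A₀ E] [IsFractionRing A₀ E] [CharZero E]
  [Field F] [Algebra E F] [Algebra A₀ F] [IsScalarTower A₀ E F]
  {π : A₀}

/-- a unit of `atLoc 𝔫` is a quotient `e₁ / e₂` with `e₁, e₂ ∈ B_u ∖ 𝔫` -/
theorem rtk6gx_unit_frac {u : F} (𝔫 : AtPt (F := F) π u) {ε : ↥(atLoc 𝔫)} (hε : IsUnit ε) :
    ∃ e₁ e₂ : ↥(zchClosure (A₀ := A₀) ({u} : Set F)), e₁ ∉ 𝔫.1 ∧ e₂ ∉ 𝔫.1 ∧
      (e₂ : F) * (ε : F) = (e₁ : F) := by
  haveI := 𝔫.2.1.isPrime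
  obtain ⟨ε', hεε'⟩ := hε.exists_right_inv
  obtain ⟨b, s, hs, hbs⟩ := ε.2
  obtain ⟨b', s', hs', hbs'⟩ := ε'.2
  have h1 : (ε : F) * (ε' : F) = 1 := by
    have := congrArg (fun z : ↥(atLoc 𝔫) => (z : F)) hεε'
    simpa using this
  refine ⟨b, s, fun hb => ?_, hs, hbs⟩
  -- `b b' = s s' ∉ 𝔫`
  have h2 : algebraMap ↥(zchClosure (A₀ := A₀) ({u} : Set F)) F (b * b') =
      algebraMap ↥(zchClosure (A₀ := A₀) ({u} : Set F)) F (s * s') := by
    rw [map_mul, map_mul, ← hbs, ← hbs']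
    calc algebraMap ↥(zchClosure (A₀ := A₀) ({u} : Set F)) F s * (ε : F) *
          (algebraMap ↥(zchClosure (A₀ := A₀) ({u} : Set F)) F s' * (ε' : F))
        = algebraMap ↥(zchClosure (A₀ := A₀) ({u} : Set F)) F s *
          algebraMap ↥(zchClosure (A₀ := A₀) ({u} : Set F)) F s' * ((ε : F) * (ε' : F)) := by
          ring
      _ = _ := by rw [h1, mul_one]
  have h3 : b * b' = s * s' := Subtype.ext h2
  have h4 : s * s' ∈ 𝔫.1 := h3 ▸ 𝔫.1.mul_mem_right b' hb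
  rcases 𝔫.2.1.isPrime.mem_or_mem h4 with h | h
  · exact hs h
  · exact hs' h

end Abs

/-! ### `K₀ = ℚ̄^I`, the chart `j` -/

section Base

variable {A : ValuationSubring Qb} {q M : ℕ} [NeZero q] [NeZero M] [NeZero (M * q)]
  [IsDiscreteValuationRing ↥(beta0Ring A (beta0Field A))]
  {π : ↥(beta0Ring A (beta0Field A))} (hπ : Irreducible π)
  (ιC : ↥(beta0Field A) →+* ℂ) (hq : q.Prime) (hqM : ¬ q ∣ M)

include hπ ιC hq hqM in
/-- the positions of the coordinates of a thin crossing point with respect to `V_∞`, `V_0` -/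
theorem rtk6gx_cross_pos
    (𝔫 : AtPt (F := ↥(modularFunctionFieldFullC ↥(beta0Field A) (M * q))) π
      (bgJ ↥(beta0Field A) (M * q)))
    {X Y : ↥(zchClosure (A₀ := ↥(beta0Ring A (beta0Field A)))
      ({bgJ ↥(beta0Field A) (M * q)} :
        Set ↥(modularFunctionFieldFullC ↥(beta0Field A) (M * q))))}
    (h : Rtk6lfCrossAt (mgvV hπ ιC hq hqM true) (mgvV hπ ιC hq hqM false) 𝔫 X Y) :
    X ∈ 𝔫.1 ∧ Y ∈ 𝔫.1 ∧
      (Y : ↥(modularFunctionFieldFullC ↥(beta0Field A) (M * q))) ∉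
        (mgvV hπ ιC hq hqM true).nonunits ∧
      (X : ↥(modularFunctionFieldFullC ↥(beta0Field A) (M * q))) ∉
        (mgvV hπ ιC hq hqM false).nonunits := by
  haveI := 𝔫.2.1.isPrime
  obtain ⟨h₁, h₂, hX, hY, ⟨w, hw, hXY⟩, hgen⟩ := h
  refine ⟨h₁ X hX, h₂ Y hY, ?_, ?_⟩
  · exact rtk6lfp_not_mem_nonunits _
      (rtk6lfp_cross_val (B := ↥(zchClosure (A₀ := ↥(beta0Ring A (beta0Field A)))
        ({bgJ ↥(beta0Field A) (M * q)} :
          Set ↥(modularFunctionFieldFullC ↥(beta0Field A) (M * q))))) 𝔫.1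
        (mgvV hπ ιC hq hqM true) (fun b => mgv_hBV₁ hπ ιC hq hqM true _ (mem_zchClosure.mp b.2))
        (algebraMap ↥(beta0Ring A (beta0Field A)) _ π)
        (ribmp_fc_hU hπ ιC hq hqM true) (ribmp_fc_hπ0 hπ) h₁ hw hXY hX).1
  · have hYX : w * algebraMap ↥(beta0Ring A (beta0Field A)) _ π = Y * X :=
      hXY.trans (mul_comm X Y)
    exact rtk6lfp_not_mem_nonunits _
      (rtk6lfp_cross_val (B := ↥(zchClosure (A₀ := ↥(beta0Ring A (beta0Field A)))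
        ({bgJ ↥(beta0Field A) (M * q)} :
          Set ↥(modularFunctionFieldFullC ↥(beta0Field A) (M * q))))) 𝔫.1
        (mgvV hπ ιC hq hqM false) (fun b => mgv_hBV₁ hπ ιC hq hqM false _ (mem_zchClosure.mp b.2))
        (algebraMap ↥(beta0Ring A (beta0Field A)) _ π)
        (ribmp_fc_hU hπ ιC hq hqM false) (ribmp_fc_hπ0 hπ) h₂ hw hYX hY).1

include hπ ιC hq hqM in
/-- **(G-cross), `R₀`-level data at a crossing point of the chart `j`** of `F_{Mq}(ℚ̄^I)`, rigid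
level: the thin node `w π = X Y`, `𝔫 = (π, X, Y)` locally, `X ∈ 𝔪(V_∞) ∖ 𝔪(V_0)`,
`Y ∈ 𝔪(V_0) ∖ 𝔪(V_∞)`, and (LF) `e₂ · u = e₁ · Y ^ n₀ · γ ^ m` with `e₁, e₂ ∈ R₀ ∖ 𝔫`. -/
theorem rtk6gx_cross_J (hA : A.LiesOverPrime q)
    (rigid : (q ≠ 2 → 4 ∣ M) ∧ (q = 2 → 9 ∣ M))
    (m : ℕ) {y : ↥(modularFunctionFieldFullC ↥(beta0Field A) (M * q))} (hy : y ≠ 0)
    (hhor : ∀ P : Place ↥(beta0Field A) ↥(modularFunctionFieldFullC ↥(beta0Field A) (M * q)),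
      (m : ℤ) ∣ P.ord y)
    (hy₁ : (mgvV hπ ιC hq hqM true).valuation y = 1) {n₀ : ℤ}
    (hn₀ : (mgvV hπ ιC hq hqM false).valuation y = (mgvV hπ ιC hq hqM false).valuation
      (algebraMap ↥(beta0Ring A (beta0Field A))
        ↥(modularFunctionFieldFullC ↥(beta0Field A) (M * q)) π) ^ n₀)
    (𝔫 : AtPt (F := ↥(modularFunctionFieldFullC ↥(beta0Field A) (M * q))) π
      (bgJ ↥(beta0Field A) (M * q)))
    (h₁ : atThrough 𝔫 (mgvV hπ ιC hq hqM true)) (h₂ : atThrough 𝔫 (mgvV hπ ιC hq hqM false)) :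
    ∃ (X Y w e₁ e₂ : ↥(zchClosure (A₀ := ↥(beta0Ring A (beta0Field A)))
        ({bgJ ↥(beta0Field A) (M * q)} :
          Set ↥(modularFunctionFieldFullC ↥(beta0Field A) (M * q)))))
      (γ : ↥(modularFunctionFieldFullC ↥(beta0Field A) (M * q))),
      w ∉ 𝔫.1 ∧
      w * algebraMap ↥(beta0Ring A (beta0Field A))
        ↥(zchClosure (A₀ := ↥(beta0Ring A (beta0Field A)))
          ({bgJ ↥(beta0Field A) (M * q)} :
            Set ↥(modularFunctionFieldFullC ↥(beta0Field A) (M * q)))) π = X * Y ∧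
      X ∈ 𝔫.1 ∧ Y ∈ 𝔫.1 ∧
      NodesLocGen 𝔫.1 {algebraMap ↥(beta0Ring A (beta0Field A))
        ↥(zchClosure (A₀ := ↥(beta0Ring A (beta0Field A)))
          ({bgJ ↥(beta0Field A) (M * q)} :
            Set ↥(modularFunctionFieldFullC ↥(beta0Field A) (M * q)))) π, X, Y} ∧
      (X : ↥(modularFunctionFieldFullC ↥(beta0Field A) (M * q))) ∈
        (mgvV hπ ιC hq hqM true).nonunits ∧
      (Y : ↥(modularFunctionFieldFullC ↥(beta0Field A) (M * q))) ∉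
        (mgvV hπ ιC hq hqM true).nonunits ∧
      (Y : ↥(modularFunctionFieldFullC ↥(beta0Field A) (M * q))) ∈
        (mgvV hπ ιC hq hqM false).nonunits ∧
      (X : ↥(modularFunctionFieldFullC ↥(beta0Field A) (M * q))) ∉
        (mgvV hπ ιC hq hqM false).nonunits ∧
      e₁ ∉ 𝔫.1 ∧ e₂ ∉ 𝔫.1 ∧ γ ≠ 0 ∧
      (e₂ : ↥(modularFunctionFieldFullC ↥(beta0Field A) (M * q))) * y =
        (e₁ : ↥(modularFunctionFieldFullC ↥(beta0Field A) (M * q))) *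
          (Y : ↥(modularFunctionFieldFullC ↥(beta0Field A) (M * q))) ^ n₀ * γ ^ m ∧
      (mgvV hπ ιC hq hqM true).valuation γ = 1 ∧
      (mgvV hπ ιC hq hqM false).valuation γ = 1 := by
  rcases rtk6lfb0_LF_J hπ ιC hq hqM hA rigid m hy hhor hy₁ hn₀ 𝔫 with
    ⟨X, Y, hc, γ, ε, hε, hyε, hγ, hγ₁, hγ₂⟩ | ⟨-, hno, -⟩ | ⟨-, hno, -⟩
  · obtain ⟨hXn, hYn, hYV, hXV⟩ := rtk6gx_cross_pos hπ ιC hq hqM 𝔫 hc
    obtain ⟨e₁, e₂, he₁, he₂, hee⟩ := rtk6gx_unit_frac 𝔫 hε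
    obtain ⟨-, -, hX, hY, ⟨w, hw, hXY⟩, hgen⟩ := hc
    refine ⟨X, Y, w, e₁, e₂, γ, hw, hXY, hXn, hYn, hgen, hX, hYV, hY, hXV, he₁, he₂, hγ, ?_,
      hγ₁, hγ₂⟩
    rw [hyε, ← hee]
    ring
  · exact absurd h₁ hno
  · exact absurd h₂ hno

end Base

end Fermat.Agent.RT.K6
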