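/-
K-machine, piece K6, GEN-inst, half (G-cross), part 2a (helper54): **abstract chart transfer** for
the instance of helper94's `Rtk6c4Cross` (`C4Abs.lean`).

`g : A₀ →+* A₁` an integral ring homomorphism (the unramified base → the thin ramified base),
`K`, `F` fields, `[Algebra A₀ K] [Algebra A₁ F] [Algebra K F]` compatible
(`algebraMap K F (algebraMap A₀ K a) = algebraMap A₁ F (g a)`), `u₀ : K`,
`R₀ = zchClosure (A₀ := A₀) {u₀} ⊆ K` (the base chart), `B = zchClosure (A₀ := A₁) {u} ⊆ F`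
(the top chart, `u = algebraMap K F u₀`).

* `rtk6gxa_mem`    : `x ∈ R₀ → algebraMap K F x ∈ B`;
* `rtk6gxaJ`       : `j : R₀ →+* B`;  `rtk6gxaJ_coe`;
* `rtk6gxa_hint`   : every element of `B` is integral over `R₀`;
* `rtk6gxa_hcl`    : every element of `F` integral over `R₀` lies in `B`;
* `rtk6gxaPt`      : the closed point `𝔫 ∩ R₀ : AtPt π u₀` under a closed point `𝔫 : AtPt ϖ u`
  (`ϖ ^ d = g π`);
* `rtk6gxa_crossE` : the same for the two-exponent structure `Rtk6c4CrossE`;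
* `rtk6gxa_cross`  : **the structure `Rtk6c4Cross`** from the `R₀`-level data of the crossing point
  `𝔫 ∩ R₀` (the output of `rtk6gx_cross_J`, `GenCross.lean`) and the field-theoretic inputs
  ((G-et), (F1)–(F4)) in the shape of the fields of the structure.
-/
import Fermat.Agent.RT.K6.C4Abs
import Fermat.Agent.UNIP.AbstractT

set_option autoImplicit false
set_option linter.style.haveILetI false
set_option linter.unusedSectionVars false
set_option linter.unusedVariables false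

noncomputable section

namespace Fermat.Agent.RT.K6

open Polynomial Fermat.Agent.INJ Fermat.Agent.UNIP Fermat.Agent.STB

section Gen

/-- integrality along a ring homomorphism of the bases -/
theorem rtk6gxa_isIntegral_of_hom {R S T : Type*} [CommRing R] [CommRing S] [CommRing T]
    [Algebra R T] [Algebra S T] (h : R →+* S)
    (hh : ∀ r, algebraMap S T (h r) = algebraMap R T r) {x : T} (hx : IsIntegral R x) :
    IsIntegral S x := by
  obtain ⟨P, hP, hPx⟩ := hx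
  refine ⟨P.map h, hP.map h, ?_⟩
  rw [eval₂_map]
  have e : (algebraMap S T).comp h = algebraMap R T := RingHom.ext hh
  rw [e]
  exact hPx

/-- integrality along a ring homomorphism of the bases and of the tops -/
theorem rtk6gxa_isIntegral_map {R S T T' : Type*} [CommRing R] [CommRing S] [CommRing T]
    [CommRing T'] [Algebra R T] [Algebra S T'] (h : R →+* S) (φ : T →+* T')
    (hh : ∀ r, algebraMap S T' (h r) = φ (algebraMap R T r)) {x : T} (hx : IsIntegral R x) :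
    IsIntegral S (φ x) := by
  obtain ⟨P, hP, hPx⟩ := hx
  refine ⟨P.map h, hP.map h, ?_⟩
  rw [eval₂_map]
  have e : (algebraMap S T').comp h = φ.comp (algebraMap R T) := RingHom.ext hh
  rw [e, ← hom_eval₂, hPx, map_zero]

end Gen

section Chart

variable {A₀ A₁ : Type*} [CommRing A₀] [CommRing A₁]
  {K F : Type*} [Field K] [Field F] [Algebra A₀ K] [Algebra A₁ F] [Algebra K F]
  (g : A₀ →+* A₁)
  (hgφ : ∀ a, algebraMap K F (algebraMap A₀ K a) = algebraMap A₁ F (g a))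
  {u₀ : K} {u : F} (hu : algebraMap K F u₀ = u)

include hgφ hu in
/-- `A₀[u₀]` maps into `A₁[u]` -/
theorem rtk6gxa_adjoin_mem {y : K} (hy : y ∈ Algebra.adjoin A₀ ({u₀} : Set K)) :
    algebraMap K F y ∈ Algebra.adjoin A₁ ({u} : Set F) := by
  induction hy using Algebra.adjoin_induction with
  | mem s hs =>
    rw [Set.mem_singleton_iff.1 hs, hu]
    exact Algebra.subset_adjoin (Set.mem_singleton _)
  | algebraMap a =>
    rw [hgφ]
    exact Subalgebra.algebraMap_mem _ _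
  | add s t _ _ hs ht =>
    rw [map_add]
    exact Subalgebra.add_mem _ hs ht
  | mul s t _ _ hs ht =>
    rw [map_mul]
    exact Subalgebra.mul_mem _ hs ht

/-- the restriction `A₀[u₀] → A₁[u]` -/
def rtk6gxaRes : ↥(Algebra.adjoin A₀ ({u₀} : Set K)) →+* ↥(Algebra.adjoin A₁ ({u} : Set F)) where
  toFun y := ⟨algebraMap K F (y : K), rtk6gxa_adjoin_mem g hgφ hu y.2⟩
  map_one' := Subtype.ext (map_one _)
  map_mul' _ _ := Subtype.ext (map_mul _ _ _)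
  map_zero' := Subtype.ext (map_zero _)
  map_add' _ _ := Subtype.ext (map_add _ _ _)

include hgφ hu in
/-- the base chart maps into the top chart -/
theorem rtk6gxa_mem {x : K} (hx : x ∈ zchClosure (A₀ := A₀) ({u₀} : Set K)) :
    algebraMap K F x ∈ zchClosure (A₀ := A₁) ({u} : Set F) := by
  have hx' : IsIntegral ↥(Algebra.adjoin A₀ ({u₀} : Set K)) x := hx
  show IsIntegral ↥(Algebra.adjoin A₁ ({u} : Set F)) (algebraMap K F x)
  exact rtk6gxa_isIntegral_map (rtk6gxaRes g hgφ hu) (algebraMap K F) (fun r => rfl) hx'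

/-- **`j : R₀ →+* B`** -/
def rtk6gxaJ : ↥(zchClosure (A₀ := A₀) ({u₀} : Set K)) →+*
    ↥(zchClosure (A₀ := A₁) ({u} : Set F)) where
  toFun x := ⟨algebraMap K F (x : K), rtk6gxa_mem g hgφ hu x.2⟩
  map_one' := Subtype.ext (map_one _)
  map_mul' _ _ := Subtype.ext (map_mul _ _ _)
  map_zero' := Subtype.ext (map_zero _)
  map_add' _ _ := Subtype.ext (map_add _ _ _)

theorem rtk6gxaJ_coe (x : ↥(zchClosure (A₀ := A₀) ({u₀} : Set K))) :
    ((rtk6gxaJ g hgφ hu x : ↥(zchClosure (A₀ := A₁) ({u} : Set F))) : F) =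
      algebraMap K F (x : K) := rfl

theorem rtk6gxaJ_algebraMap (a : A₀) :
    rtk6gxaJ g hgφ hu (algebraMap A₀ ↥(zchClosure (A₀ := A₀) ({u₀} : Set K)) a) =
      algebraMap A₁ ↥(zchClosure (A₀ := A₁) ({u} : Set F)) (g a) :=
  Subtype.ext (hgφ a)

omit [Algebra A₁ F] in
theorem rtk6gxa_algebraMap_R (x : ↥(zchClosure (A₀ := A₀) ({u₀} : Set K))) :
    algebraMap ↥(zchClosure (A₀ := A₀) ({u₀} : Set K)) F x = algebraMap K F (x : K) := rfl

variable (u₀) in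
/-- `u₀` as an element of the base chart -/
def rtk6gxaU : ↥(zchClosure (A₀ := A₀) ({u₀} : Set K)) :=
  ⟨u₀, isIntegral_algebraMap (R := ↥(Algebra.adjoin A₀ ({u₀} : Set K)))
    (x := ⟨u₀, Algebra.subset_adjoin (Set.mem_singleton _)⟩)⟩

include hgφ hu in
/-- the elements of `A₁[u]` are integral over `R₀` -/
theorem rtk6gxa_adjoin_isIntegral (hg : g.IsIntegral) {y : F}
    (hy : y ∈ Algebra.adjoin A₁ ({u} : Set F)) :
    IsIntegral ↥(zchClosure (A₀ := A₀) ({u₀} : Set K)) y := by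
  induction hy using Algebra.adjoin_induction with
  | mem s hs =>
    rw [Set.mem_singleton_iff.1 hs, ← hu]
    exact isIntegral_algebraMap (R := ↥(zchClosure (A₀ := A₀) ({u₀} : Set K)))
      (x := rtk6gxaU (A₀ := A₀) u₀)
  | algebraMap a =>
    obtain ⟨P, hP, hPa⟩ := hg a
    refine ⟨P.map (algebraMap A₀ ↥(zchClosure (A₀ := A₀) ({u₀} : Set K))), hP.map _, ?_⟩
    rw [eval₂_map]
    have e : (algebraMap ↥(zchClosure (A₀ := A₀) ({u₀} : Set K)) F).comp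
        (algebraMap A₀ ↥(zchClosure (A₀ := A₀) ({u₀} : Set K))) = (algebraMap A₁ F).comp g :=
      RingHom.ext fun a => hgφ a
    rw [e, ← hom_eval₂, hPa, map_zero]
  | add s t _ _ hs ht => exact hs.add ht
  | mul s t _ _ hs ht => exact hs.mul ht

include hgφ hu in
/-- **hint**: every element of the top chart is integral over the base chart -/
theorem rtk6gxa_hint (hg : g.IsIntegral)
    (b : ↥(zchClosure (A₀ := A₁) ({u} : Set F))) :
    IsIntegral ↥(zchClosure (A₀ := A₀) ({u₀} : Set K)) (b : F) := by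
  have hb : IsIntegral ↥(Algebra.adjoin A₁ ({u} : Set F)) (b : F) := b.2
  -- the coefficients lie in the integral closure of `R₀`
  let h : ↥(Algebra.adjoin A₁ ({u} : Set F)) →+*
      ↥(integralClosure ↥(zchClosure (A₀ := A₀) ({u₀} : Set K)) F) :=
    { toFun := fun y => ⟨(y : F), rtk6gxa_adjoin_isIntegral g hgφ hu hg y.2⟩
      map_one' := rfl
      map_mul' := fun _ _ => rfl
      map_zero' := rfl
      map_add' := fun _ _ => rfl }
  have h1 : IsIntegral ↥(integralClosure ↥(zchClosure (A₀ := A₀) ({u₀} : Set K)) F) (b : F) :=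
    rtk6gxa_isIntegral_of_hom h (fun r => rfl) hb
  exact isIntegral_trans (b : F) h1

include hgφ hu in
/-- **hcl**: every element of `F` integral over the base chart lies in the top chart -/
theorem rtk6gxa_hcl {x : F} (hx : IsIntegral ↥(zchClosure (A₀ := A₀) ({u₀} : Set K)) x) :
    x ∈ zchClosure (A₀ := A₁) ({u} : Set F) := by
  let h : ↥(zchClosure (A₀ := A₀) ({u₀} : Set K)) →+*
      ↥(integralClosure ↥(Algebra.adjoin A₁ ({u} : Set F)) F) :=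
    { toFun := fun y => ⟨algebraMap K F (y : K), rtk6gxa_mem g hgφ hu y.2⟩
      map_one' := Subtype.ext (map_one _)
      map_mul' := fun _ _ => Subtype.ext (map_mul _ _ _)
      map_zero' := Subtype.ext (map_zero _)
      map_add' := fun _ _ => Subtype.ext (map_add _ _ _) }
  have h1 : IsIntegral ↥(integralClosure ↥(Algebra.adjoin A₁ ({u} : Set F)) F) x :=
    rtk6gxa_isIntegral_of_hom h (fun r => rfl) hx
  show IsIntegral ↥(Algebra.adjoin A₁ ({u} : Set F)) x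
  exact isIntegral_trans x h1

include hgφ hu in
/-- `j` is integral -/
theorem rtk6gxaJ_isIntegral (hg : g.IsIntegral) : (rtk6gxaJ g hgφ hu).IsIntegral := by
  intro b
  obtain ⟨P, hP, hPb⟩ := rtk6gxa_hint g hgφ hu hg b
  refine ⟨P, hP, Subtype.ext ?_⟩
  have e : (algebraMap ↥(zchClosure (A₀ := A₀) ({u₀} : Set K)) F) =
      (algebraMap ↥(zchClosure (A₀ := A₁) ({u} : Set F)) F).comp (rtk6gxaJ g hgφ hu) :=
    RingHom.ext fun x => rfl
  rw [e, ← eval₂_map] at hPb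
  have h2 := hom_eval₂ (P.map (rtk6gxaJ g hgφ hu)) (RingHom.id _)
    (algebraMap ↥(zchClosure (A₀ := A₁) ({u} : Set F)) F) b
  rw [RingHom.comp_id, eval₂_id] at h2
  rw [← Polynomial.eval_map]
  exact h2.trans hPb

end Chart

section Cross

universe v

variable {A₀ A₁ : Type*} [CommRing A₀] [CommRing A₁]
  {K F : Type v} [Field K] [Field F] [Algebra A₀ K] [Algebra A₁ F] [Algebra K F]
  (g : A₀ →+* A₁)
  (hgφ : ∀ a, algebraMap K F (algebraMap A₀ K a) = algebraMap A₁ F (g a))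
  {u₀ : K} {u : F} (hu : algebraMap K F u₀ = u)
  {π : A₀} {ϖ : A₁} {d : ℕ}

/-- **the closed point `𝔫 ∩ R₀`** of the base chart under a closed point `𝔫` of the top chart -/
def rtk6gxaPt (hg : g.IsIntegral) (hd0 : d ≠ 0) (hϖd : ϖ ^ d = g π)
    (𝔫 : AtPt (F := F) ϖ u) : AtPt (F := K) π u₀ :=
  ⟨𝔫.1.comap (rtk6gxaJ g hgφ hu), by
    haveI := 𝔫.2.1
    exact Ideal.isMaximal_comap_of_isIntegral_of_isMaximal' _ (rtk6gxaJ_isIntegral g hgφ hu hg) 𝔫.1,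
    by
      rw [Ideal.mem_comap, rtk6gxaJ_algebraMap, ← hϖd, map_pow]
      exact Ideal.pow_mem_of_mem _ 𝔫.2.2 d (Nat.pos_of_ne_zero hd0)⟩

theorem rtk6gxaPt_val (hg : g.IsIntegral) (hd0 : d ≠ 0) (hϖd : ϖ ^ d = g π)
    (𝔫 : AtPt (F := F) ϖ u) :
    (rtk6gxaPt g hgφ hu hg hd0 hϖd 𝔫).1 = 𝔫.1.comap (rtk6gxaJ g hgφ hu) := rfl

theorem rtk6gxa_mem_pt (hg : g.IsIntegral) (hd0 : d ≠ 0) (hϖd : ϖ ^ d = g π)
    (𝔫 : AtPt (F := F) ϖ u) (x : ↥(zchClosure (A₀ := A₀) ({u₀} : Set K))) :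
    x ∈ (rtk6gxaPt g hgφ hu hg hd0 hϖd 𝔫).1 ↔ rtk6gxaJ g hgφ hu x ∈ 𝔫.1 := Iff.rfl

/-- **(G-cross), abstract: the structure `Rtk6c4Cross`** at a closed point `𝔫` of the top chart
over a thin crossing point `𝔫 ∩ R₀` of the base chart. -/
theorem rtk6gxa_cross (hg : g.IsIntegral) (hd0 : d ≠ 0) (hϖd : ϖ ^ d = g π)
    (𝔫 : AtPt (F := F) ϖ u)
    (hdn : ((d : ℕ) : ↥(zchClosure (A₀ := A₁) ({u} : Set F))) ∉ 𝔫.1)
    {ζ : ↥(zchClosure (A₀ := A₀) ({u₀} : Set K))} (hζ : IsPrimitiveRoot ζ d)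
    -- the `R₀`-level data of the crossing point (`rtk6gx_cross_J`)
    {X Y w e₁ e₂ : ↥(zchClosure (A₀ := A₀) ({u₀} : Set K))} {γ z : K} {n₀ : ℤ}
    (hw : w ∉ (rtk6gxaPt g hgφ hu hg hd0 hϖd 𝔫).1)
    (hXY : w * algebraMap A₀ ↥(zchClosure (A₀ := A₀) ({u₀} : Set K)) π = X * Y)
    (hX : X ∈ (rtk6gxaPt g hgφ hu hg hd0 hϖd 𝔫).1)
    (hY : Y ∈ (rtk6gxaPt g hgφ hu hg hd0 hϖd 𝔫).1)
    (hgen₀ : NodesLocGen (rtk6gxaPt g hgφ hu hg hd0 hϖd 𝔫).1
      {algebraMap A₀ ↥(zchClosure (A₀ := A₀) ({u₀} : Set K)) π, X, Y})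
    (he₁ : e₁ ∉ (rtk6gxaPt g hgφ hu hg hd0 hϖd 𝔫).1)
    (he₂ : e₂ ∉ (rtk6gxaPt g hgφ hu hg hd0 hϖd 𝔫).1) (hγ : γ ≠ 0)
    (hLF : (e₂ : K) * z = (e₁ : K) * (Y : K) ^ n₀ * γ ^ d)
    -- the field-theoretic data
    {y : F} (hzy : algebraMap K F z = y ^ d) {a b : ℤ} (hab : a * n₀ - b * d = 1)
    {S : Set F} (hS : S.Finite)
    (hSet : ∀ t ∈ S, ∃ a b : ↥(zchClosure (A₀ := A₀) ({u₀} : Set K)),
      rtk6gxaJ g hgφ hu a ∉ 𝔫.1 ∧ rtk6gxaJ g hgφ hu b ∉ 𝔫.1 ∧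
      algebraMap ↥(zchClosure (A₀ := A₀) ({u₀} : Set K)) F b * t ^ d =
        algebraMap ↥(zchClosure (A₀ := A₀) ({u₀} : Set K)) F a)
    (hgen : Algebra.adjoin K (S ∪ {algebraMap A₁ F ϖ, y}) = ⊤)
    {σ δ : F ≃ₐ[K] F} (hσS : ∀ t ∈ S, σ t = t)
    (hσϖ : σ (algebraMap A₁ F ϖ) =
      algebraMap ↥(zchClosure (A₀ := A₀) ({u₀} : Set K)) F ζ * algebraMap A₁ F ϖ)
    (hσy : σ y = y) (hδS : ∀ t ∈ S, δ t = t)
    (hδϖ : δ (algebraMap A₁ F ϖ) = algebraMap A₁ F ϖ)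
    (hδy : δ y = algebraMap ↥(zchClosure (A₀ := A₀) ({u₀} : Set K)) F ζ ^ n₀ * y) :
    Rtk6c4Cross (rtk6gxaJ g hgφ hu)
      (algebraMap ↥(zchClosure (A₀ := A₁) ({u} : Set F)) F) 𝔫.1 d ζ
      (algebraMap A₀ ↥(zchClosure (A₀ := A₀) ({u₀} : Set K)) π) X Y w S
      (algebraMap A₁ F ϖ) y γ e₁ e₂ n₀ a b σ δ where
  hι := Subtype.val_injective
  hjι := fun r => rfl
  hint := fun b => rtk6gxa_hint g hgφ hu hg b
  hcl := fun x hx => ⟨⟨x, rtk6gxa_hcl g hgφ hu hx⟩, rfl⟩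
  hd := by
    rw [map_natCast]
    exact hdn
  hζ := hζ
  hw := hw
  hXY := hXY
  hX₀ := hX
  hY₀ := hY
  hgen₀ := hgen₀
  hS := hS
  hSet := hSet
  hϖ := by
    rw [← map_pow, hϖd, ← hgφ]
    rfl
  hγ := hγ
  he₁ := he₁
  he₂ := he₂
  hy := by
    have h := congrArg (algebraMap K F) hLF
    rw [map_mul, map_mul, map_mul, map_zpow₀, map_pow, hzy] at h
    exact h
  hab := hab
  hgen := hgen
  hσS := hσS
  hσϖ := hσϖ
  hσy := hσy
  hδS := hδS
  hδϖ := hδϖ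
  hδy := hδy

/-- **(G-cross), abstract, two exponents: the structure `Rtk6c4CrossE`** at a closed point `𝔫` of
the top chart over a thin crossing point `𝔫 ∩ R₀` of the base chart (`dS` the exponent of the
étale generators). -/
theorem rtk6gxa_crossE {dS : ℕ} (hg : g.IsIntegral) (hd0 : d ≠ 0) (hϖd : ϖ ^ d = g π)
    (𝔫 : AtPt (F := F) ϖ u)
    (hdn : ((d : ℕ) : ↥(zchClosure (A₀ := A₁) ({u} : Set F))) ∉ 𝔫.1)
    (hdSn : ((dS : ℕ) : ↥(zchClosure (A₀ := A₁) ({u} : Set F))) ∉ 𝔫.1)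
    {ζ : ↥(zchClosure (A₀ := A₀) ({u₀} : Set K))} (hζ : IsPrimitiveRoot ζ d)
    -- the `R₀`-level data of the crossing point (`rtk6gx_cross_J`)
    {X Y w e₁ e₂ : ↥(zchClosure (A₀ := A₀) ({u₀} : Set K))} {γ z : K} {n₀ : ℤ}
    (hw : w ∉ (rtk6gxaPt g hgφ hu hg hd0 hϖd 𝔫).1)
    (hXY : w * algebraMap A₀ ↥(zchClosure (A₀ := A₀) ({u₀} : Set K)) π = X * Y)
    (hX : X ∈ (rtk6gxaPt g hgφ hu hg hd0 hϖd 𝔫).1)
    (hY : Y ∈ (rtk6gxaPt g hgφ hu hg hd0 hϖd 𝔫).1)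
    (hgen₀ : NodesLocGen (rtk6gxaPt g hgφ hu hg hd0 hϖd 𝔫).1
      {algebraMap A₀ ↥(zchClosure (A₀ := A₀) ({u₀} : Set K)) π, X, Y})
    (he₁ : e₁ ∉ (rtk6gxaPt g hgφ hu hg hd0 hϖd 𝔫).1)
    (he₂ : e₂ ∉ (rtk6gxaPt g hgφ hu hg hd0 hϖd 𝔫).1) (hγ : γ ≠ 0)
    (hLF : (e₂ : K) * z = (e₁ : K) * (Y : K) ^ n₀ * γ ^ d)
    -- the field-theoretic data
    {y : F} (hzy : algebraMap K F z = y ^ d) {a b : ℤ} (hab : a * n₀ - b * d = 1)
    {S : Set F} (hS : S.Finite)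
    (hSet : ∀ t ∈ S, ∃ a b : ↥(zchClosure (A₀ := A₀) ({u₀} : Set K)),
      rtk6gxaJ g hgφ hu a ∉ 𝔫.1 ∧ rtk6gxaJ g hgφ hu b ∉ 𝔫.1 ∧
      algebraMap ↥(zchClosure (A₀ := A₀) ({u₀} : Set K)) F b * t ^ dS =
        algebraMap ↥(zchClosure (A₀ := A₀) ({u₀} : Set K)) F a)
    (hgen : Algebra.adjoin K (S ∪ {algebraMap A₁ F ϖ, y}) = ⊤)
    {σ δ : F ≃ₐ[K] F} (hσS : ∀ t ∈ S, σ t = t)
    (hσϖ : σ (algebraMap A₁ F ϖ) =
      algebraMap ↥(zchClosure (A₀ := A₀) ({u₀} : Set K)) F ζ * algebraMap A₁ F ϖ)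
    (hσy : σ y = y) (hδS : ∀ t ∈ S, δ t = t)
    (hδϖ : δ (algebraMap A₁ F ϖ) = algebraMap A₁ F ϖ)
    (hδy : δ y = algebraMap ↥(zchClosure (A₀ := A₀) ({u₀} : Set K)) F ζ ^ n₀ * y) :
    Rtk6c4CrossE (rtk6gxaJ g hgφ hu)
      (algebraMap ↥(zchClosure (A₀ := A₁) ({u} : Set F)) F) 𝔫.1 d dS ζ
      (algebraMap A₀ ↥(zchClosure (A₀ := A₀) ({u₀} : Set K)) π) X Y w S
      (algebraMap A₁ F ϖ) y γ e₁ e₂ n₀ a b σ δ where
  hι := Subtype.val_injective
  hjι := fun r => rfl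
  hint := fun b => rtk6gxa_hint g hgφ hu hg b
  hcl := fun x hx => ⟨⟨x, rtk6gxa_hcl g hgφ hu hx⟩, rfl⟩
  hd := by
    rw [map_natCast]
    exact hdn
  hdS := by
    rw [map_natCast]
    exact hdSn
  hζ := hζ
  hw := hw
  hXY := hXY
  hX₀ := hX
  hY₀ := hY
  hgen₀ := hgen₀
  hS := hS
  hSet := hSet
  hϖ := by
    rw [← map_pow, hϖd, ← hgφ]
    rfl
  hγ := hγ
  he₁ := he₁
  he₂ := he₂
  hy := by
    have h := congrArg (algebraMap K F) hLF
    rw [map_mul, map_mul, map_mul, map_zpow₀, map_pow, hzy] at h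
    exact h
  hab := hab
  hgen := hgen
  hσS := hσS
  hσϖ := hσϖ
  hσy := hσy
  hδS := hδS
  hδϖ := hδϖ
  hδy := hδy

end Cross

end Fermat.Agent.RT.K6
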