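/-
K-machine, piece K6, GEN-inst, half (G-cross), part 2b (helper54): **the CONCRETE structure
`Rtk6c4Cross`** (helper94, `C4Abs.lean`) at a closed point of the chart `j` of
`F = rtk6diF A K₁ (M₁ q) M H` (over `A₁ = mgcA A K₁`, uniformizer `ϖ`, `ϖ ^ d = π`) lying over a
crossing point of the chart `j` of the `Γ₀`-field `K = F_{M₁ q}(ℚ̄^I)` (over the unramified base
`A₀ = A ∩ ℚ̄^I`, uniformizer `π`), rigid level.

`[Algebra K F]` is ANY algebra structure with `algebraMap K F z = rtk6c4fdIota f (M₁ q) M H z`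
(helper36's convention, `C4FDiam.lean`), `f : ℚ̄^I →+* E₁` the inclusion.

* `rtk6gxiJ`      : `j : R₀ →+* B`, `R₀ = zchClosure {bgJ}`, `B = zchClosure {rtk6diT}`;
* `rtk6gxiPt`     : the closed point `𝔫 ∩ R₀ : AtPt π bgJ`;
* `rtk6gxi_crossE`: the same for the two-exponent structure `Rtk6c4CrossE` (étale exponent `dS`);
* `rtk6gxi_cross` : **`Rtk6c4Cross`** + the positions of `X₀`, `Y₀` with respect to `V_∞`, `V_0`.
  PROVED here: `hι hjι hint hcl hd hϖ` + thin node (`hw hXY hX₀ hY₀ hgen₀`) + (LF)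
  (`hγ he₁ he₂ hy`, from `u = y ^ d ∈ K` with `d ∣ ord_P u`, `v_∞(u) = 1`,
  `v_0(u) = v_0(π) ^ n₀`).  HYPOTHESES (in the shape of the fields): `hζ`, `hab`, `S hS hSet`
  ((G-et)), `hgen` ((F1)), `σ δ` + `hσ* hδ*` ((F2), (F3)).
-/
import Fermat.Agent.RT.K6.GenCross
import Fermat.Agent.RT.K6.GenCrossAbs
import Fermat.Agent.RT.K6.C4FDiam

set_option autoImplicit false
set_option linter.style.haveILetI false
set_option linter.unusedSectionVars false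
set_option linter.unusedVariables false
set_option linter.style.longLine false
set_option synthInstance.maxHeartbeats 400000
set_option maxHeartbeats 4000000

noncomputable section

namespace Fermat.Agent.RT.K6

open ModularCurve Polynomial IntermediateField Fermat.Agent.INJ Fermat.Agent.AL AlgebraicCurve
open Fermat.Agent.ES Fermat.Agent.ES.G2 Fermat.Agent.STB Fermat.Agent.UNIP Fermat.Agent.S36
open Fermat.Agent.RIB.MP Fermat.Agent.ES1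

section Prime

/-- a natural number prime to `q ∈ 𝔫` is not in the prime ideal `𝔫` -/
theorem rtk6gxi_natCast_not_mem {B : Type*} [CommRing B] (𝔫 : Ideal B) (h𝔫 : 𝔫 ≠ ⊤) {q d : ℕ}
    (hq : ((q : ℕ) : B) ∈ 𝔫) (hcop : Nat.Coprime d q) : ((d : ℕ) : B) ∉ 𝔫 := by
  intro hd
  apply h𝔫
  rw [Ideal.eq_top_iff_one]
  have h1 : ((d.gcd q : ℕ) : ℤ) = d * d.gcdA q + q * d.gcdB q := Nat.gcd_eq_gcd_ab d q
  rw [hcop.gcd_eq_one] at h1
  have h2 : (1 : B) = (d : B) * ((d.gcdA q : ℤ) : B) + (q : B) * ((d.gcdB q : ℤ) : B) := by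
    have := congrArg (fun z : ℤ => (z : B)) h1
    simpa using this
  rw [h2]
  exact 𝔫.add_mem (𝔫.mul_mem_right _ hd) (𝔫.mul_mem_right _ hq)

end Prime

section Inst

variable {A : ValuationSubring Qb} {q M₁ : ℕ} [NeZero q] [NeZero M₁] [NeZero (M₁ * q)]
  (K₁ : IntermediateField ℚ Qb) (M : ℕ) [NeZero M] (H : Subgroup (ZMod M)ˣ)
  (f : ↥(beta0Field A) →+* ↥(mgcE A K₁))
  (hf : ∀ a : ↥(beta0Field A), ((f a : ↥(mgcE A K₁)) : Qb) = (a : Qb))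
  [Algebra ↥(modularFunctionFieldFullC ↥(beta0Field A) (M₁ * q))
    ↥(rtk6diF A K₁ (M₁ * q) M H)]
  (halg : ∀ z : ↥(modularFunctionFieldFullC ↥(beta0Field A) (M₁ * q)),
    algebraMap ↥(modularFunctionFieldFullC ↥(beta0Field A) (M₁ * q))
      ↥(rtk6diF A K₁ (M₁ * q) M H) z = rtk6c4fdIota f (M₁ * q) M H z)

include hf halg in
/-- compatibility of the bases -/
theorem rtk6gxi_hgφ (a : ↥(beta0Ring A (beta0Field A))) :
    algebraMap ↥(modularFunctionFieldFullC ↥(beta0Field A) (M₁ * q))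
        ↥(rtk6diF A K₁ (M₁ * q) M H)
      (algebraMap ↥(beta0Ring A (beta0Field A))
        ↥(modularFunctionFieldFullC ↥(beta0Field A) (M₁ * q)) a) =
    algebraMap ↥(mgcA A K₁) ↥(rtk6diF A K₁ (M₁ * q) M H)
      (beta0RingIncl (A := A) (le_sup_left : beta0Field A ≤ beta0Field A ⊔ K₁) a) := by
  rw [halg]
  have h1 : algebraMap ↥(beta0Ring A (beta0Field A))
      ↥(modularFunctionFieldFullC ↥(beta0Field A) (M₁ * q)) a =
      algebraMap ↥(beta0Field A) ↥(modularFunctionFieldFullC ↥(beta0Field A) (M₁ * q))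
        (a : ↥(beta0Field A)) := rfl
  rw [h1, rtk6c4fdIota_algebraMap]
  have h2 : f (a : ↥(beta0Field A)) =
      ((beta0RingIncl (A := A) (le_sup_left : beta0Field A ≤ beta0Field A ⊔ K₁) a :
        ↥(mgcA A K₁)) : ↥(mgcE A K₁)) := Subtype.ext (hf _)
  rw [h2]
  rfl

include halg in
/-- the coordinate `j` of `K` maps to the coordinate `j` of `F` -/
theorem rtk6gxi_hu :
    algebraMap ↥(modularFunctionFieldFullC ↥(beta0Field A) (M₁ * q))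
        ↥(rtk6diF A K₁ (M₁ * q) M H) (bgJ ↥(beta0Field A) (M₁ * q)) =
      rtk6diT A K₁ (M₁ * q) M H := by
  rw [halg]
  exact rtk6diCoeffHom_J ↥(beta0Field A) (M₁ * q) M H f

/-- **`j : R₀ →+* B`** (the base chart `j` over `A ∩ ℚ̄^I` → the top chart `j` over `A₁`) -/
def rtk6gxiJ : ↥(zchClosure (A₀ := ↥(beta0Ring A (beta0Field A)))
      ({bgJ ↥(beta0Field A) (M₁ * q)} :
        Set ↥(modularFunctionFieldFullC ↥(beta0Field A) (M₁ * q)))) →+*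
    ↥(zchClosure (A₀ := ↥(mgcA A K₁))
      ({rtk6diT A K₁ (M₁ * q) M H} : Set ↥(rtk6diF A K₁ (M₁ * q) M H))) :=
  rtk6gxaJ (beta0RingIncl (A := A) (le_sup_left : beta0Field A ≤ beta0Field A ⊔ K₁))
    (rtk6gxi_hgφ K₁ M H f hf halg) (rtk6gxi_hu K₁ M H f halg)

theorem rtk6gxiJ_coe (x : ↥(zchClosure (A₀ := ↥(beta0Ring A (beta0Field A)))
      ({bgJ ↥(beta0Field A) (M₁ * q)} :
        Set ↥(modularFunctionFieldFullC ↥(beta0Field A) (M₁ * q))))) :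
    ((rtk6gxiJ K₁ M H f hf halg x : ↥(zchClosure (A₀ := ↥(mgcA A K₁))
      ({rtk6diT A K₁ (M₁ * q) M H} : Set ↥(rtk6diF A K₁ (M₁ * q) M H)))) :
        ↥(rtk6diF A K₁ (M₁ * q) M H)) =
      algebraMap ↥(modularFunctionFieldFullC ↥(beta0Field A) (M₁ * q))
        ↥(rtk6diF A K₁ (M₁ * q) M H)
        (x : ↥(modularFunctionFieldFullC ↥(beta0Field A) (M₁ * q))) := rfl

/-- the inclusion `A ∩ ℚ̄^I → A₁` is integral -/
theorem rtk6gxi_hg [NumberField ↥K₁] [IsGalois ℚ ↥K₁] (hq : q.Prime)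
    (hA : A.LiesOverPrime q) :
    (beta0RingIncl (A := A) (le_sup_left : beta0Field A ≤ beta0Field A ⊔ K₁)).IsIntegral := by
  letI := beta0InstAlgebra A K₁
  have h := beta0Inst_isIntegral (A := A) K₁ hq hA
  exact fun x => h.isIntegral x

end Inst

section Cross

variable {A : ValuationSubring Qb} {q M₁ : ℕ} [NeZero q] [NeZero M₁] [NeZero (M₁ * q)]
  [IsDiscreteValuationRing ↥(beta0Ring A (beta0Field A))]
  {π : ↥(beta0Ring A (beta0Field A))} (hπ : Irreducible π)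
  (ιC : ↥(beta0Field A) →+* ℂ) (hq : q.Prime) (hqM : ¬ q ∣ M₁)
  (K₁ : IntermediateField ℚ Qb) [NumberField ↥K₁] [IsGalois ℚ ↥K₁]
  (M : ℕ) [NeZero M] (H : Subgroup (ZMod M)ˣ)
  (f : ↥(beta0Field A) →+* ↥(mgcE A K₁))
  (hf : ∀ a : ↥(beta0Field A), ((f a : ↥(mgcE A K₁)) : Qb) = (a : Qb))
  [Algebra ↥(modularFunctionFieldFullC ↥(beta0Field A) (M₁ * q))
    ↥(rtk6diF A K₁ (M₁ * q) M H)]
  (halg : ∀ z : ↥(modularFunctionFieldFullC ↥(beta0Field A) (M₁ * q)),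
    algebraMap ↥(modularFunctionFieldFullC ↥(beta0Field A) (M₁ * q))
      ↥(rtk6diF A K₁ (M₁ * q) M H) z = rtk6c4fdIota f (M₁ * q) M H z)
  (hA : A.LiesOverPrime q) {d : ℕ} (hd0 : d ≠ 0) {ϖ : ↥(mgcA A K₁)}
  (hϖd : ϖ ^ d =
    beta0RingIncl (A := A) (le_sup_left : beta0Field A ≤ beta0Field A ⊔ K₁) π)

/-- **the closed point `𝔫 ∩ R₀`** of the base chart `j` -/
def rtk6gxiPt (𝔫 : AtPt (F := ↥(rtk6diF A K₁ (M₁ * q) M H)) ϖ (rtk6diT A K₁ (M₁ * q) M H)) :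
    AtPt (F := ↥(modularFunctionFieldFullC ↥(beta0Field A) (M₁ * q))) π
      (bgJ ↥(beta0Field A) (M₁ * q)) :=
  rtk6gxaPt (beta0RingIncl (A := A) (le_sup_left : beta0Field A ≤ beta0Field A ⊔ K₁))
    (rtk6gxi_hgφ K₁ M H f hf halg) (rtk6gxi_hu K₁ M H f halg) (rtk6gxi_hg K₁ hq hA) hd0 hϖd 𝔫

theorem rtk6gxi_mem_pt
    (𝔫 : AtPt (F := ↥(rtk6diF A K₁ (M₁ * q) M H)) ϖ (rtk6diT A K₁ (M₁ * q) M H))
    (x : ↥(zchClosure (A₀ := ↥(beta0Ring A (beta0Field A)))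
      ({bgJ ↥(beta0Field A) (M₁ * q)} :
        Set ↥(modularFunctionFieldFullC ↥(beta0Field A) (M₁ * q))))) :
    x ∈ (rtk6gxiPt hq K₁ M H f hf halg hA hd0 hϖd 𝔫).1 ↔ rtk6gxiJ K₁ M H f hf halg x ∈ 𝔫.1 :=
  Iff.rfl

include hπ hq hA hd0 hϖd in
/-- `q ∈ 𝔫` -/
theorem rtk6gxi_q_mem
    (𝔫 : AtPt (F := ↥(rtk6diF A K₁ (M₁ * q) M H)) ϖ (rtk6diT A K₁ (M₁ * q) M H)) :
    ((q : ℕ) : ↥(zchClosure (A₀ := ↥(mgcA A K₁))
      ({rtk6diT A K₁ (M₁ * q) M H} : Set ↥(rtk6diF A K₁ (M₁ * q) M H)))) ∈ 𝔫.1 := by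
  obtain ⟨v, hv⟩ := (rtk6lfb0_hqπ hπ hq hA).symm
  -- `q = π v`
  have h1 : ((q : ℕ) : ↥(mgcA A K₁)) =
      beta0RingIncl (A := A) (le_sup_left : beta0Field A ≤ beta0Field A ⊔ K₁) π *
        beta0RingIncl (A := A) (le_sup_left : beta0Field A ≤ beta0Field A ⊔ K₁)
          (v : ↥(beta0Ring A (beta0Field A))) := by
    rw [← map_mul, hv, map_natCast]
  have h2 : ((q : ℕ) : ↥(zchClosure (A₀ := ↥(mgcA A K₁))
      ({rtk6diT A K₁ (M₁ * q) M H} : Set ↥(rtk6diF A K₁ (M₁ * q) M H)))) =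
      algebraMap ↥(mgcA A K₁) _ ((q : ℕ) : ↥(mgcA A K₁)) := (map_natCast _ q).symm
  rw [h2, h1, ← hϖd, map_mul, map_pow]
  exact 𝔫.1.mul_mem_right _ (Ideal.pow_mem_of_mem _ 𝔫.2.2 d (Nat.pos_of_ne_zero hd0))

include hπ ιC hqM in
/-- **(G-cross): the concrete structure `Rtk6c4Cross`** at a closed point `𝔫` of the chart `j` of
`F` over a crossing point of the chart `j` of `K`. -/
theorem rtk6gxi_cross (rigid : (q ≠ 2 → 4 ∣ M₁) ∧ (q = 2 → 9 ∣ M₁)) (hqd : ¬ q ∣ d)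
    (𝔫 : AtPt (F := ↥(rtk6diF A K₁ (M₁ * q) M H)) ϖ (rtk6diT A K₁ (M₁ * q) M H))
    (h₁ : atThrough (rtk6gxiPt hq K₁ M H f hf halg hA hd0 hϖd 𝔫) (mgvV hπ ιC hq hqM true))
    (h₂ : atThrough (rtk6gxiPt hq K₁ M H f hf halg hA hd0 hϖd 𝔫) (mgvV hπ ιC hq hqM false))
    {ζ : ↥(zchClosure (A₀ := ↥(beta0Ring A (beta0Field A)))
      ({bgJ ↥(beta0Field A) (M₁ * q)} :
        Set ↥(modularFunctionFieldFullC ↥(beta0Field A) (M₁ * q))))}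
    (hζ : IsPrimitiveRoot ζ d)
    -- the Kummer element `u = y ^ d ∈ K`
    {z : ↥(modularFunctionFieldFullC ↥(beta0Field A) (M₁ * q))} (hz0 : z ≠ 0)
    (hhor : ∀ P : Place ↥(beta0Field A) ↥(modularFunctionFieldFullC ↥(beta0Field A) (M₁ * q)),
      (d : ℤ) ∣ P.ord z)
    (hz₁ : (mgvV hπ ιC hq hqM true).valuation z = 1) {n₀ : ℤ}
    (hn₀ : (mgvV hπ ιC hq hqM false).valuation z = (mgvV hπ ιC hq hqM false).valuation
      (algebraMap ↥(beta0Ring A (beta0Field A))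
        ↥(modularFunctionFieldFullC ↥(beta0Field A) (M₁ * q)) π) ^ n₀)
    {y : ↥(rtk6diF A K₁ (M₁ * q) M H)}
    (hzy : algebraMap ↥(modularFunctionFieldFullC ↥(beta0Field A) (M₁ * q))
      ↥(rtk6diF A K₁ (M₁ * q) M H) z = y ^ d)
    {a b : ℤ} (hab : a * n₀ - b * d = 1)
    -- the field-theoretic data
    {S : Set ↥(rtk6diF A K₁ (M₁ * q) M H)} (hS : S.Finite)
    (hSet : ∀ t ∈ S, ∃ a b : ↥(zchClosure (A₀ := ↥(beta0Ring A (beta0Field A)))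
        ({bgJ ↥(beta0Field A) (M₁ * q)} :
          Set ↥(modularFunctionFieldFullC ↥(beta0Field A) (M₁ * q)))),
      rtk6gxiJ K₁ M H f hf halg a ∉ 𝔫.1 ∧ rtk6gxiJ K₁ M H f hf halg b ∉ 𝔫.1 ∧
      algebraMap ↥(zchClosure (A₀ := ↥(beta0Ring A (beta0Field A)))
        ({bgJ ↥(beta0Field A) (M₁ * q)} :
          Set ↥(modularFunctionFieldFullC ↥(beta0Field A) (M₁ * q))))
        ↥(rtk6diF A K₁ (M₁ * q) M H) b * t ^ d =
      algebraMap ↥(zchClosure (A₀ := ↥(beta0Ring A (beta0Field A)))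
        ({bgJ ↥(beta0Field A) (M₁ * q)} :
          Set ↥(modularFunctionFieldFullC ↥(beta0Field A) (M₁ * q))))
        ↥(rtk6diF A K₁ (M₁ * q) M H) a)
    (hgen : Algebra.adjoin ↥(modularFunctionFieldFullC ↥(beta0Field A) (M₁ * q))
      (S ∪ {algebraMap ↥(mgcA A K₁) ↥(rtk6diF A K₁ (M₁ * q) M H) ϖ, y}) = ⊤)
    {σ δ : ↥(rtk6diF A K₁ (M₁ * q) M H) ≃ₐ[↥(modularFunctionFieldFullC ↥(beta0Field A) (M₁ * q))]
      ↥(rtk6diF A K₁ (M₁ * q) M H)}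
    (hσS : ∀ t ∈ S, σ t = t)
    (hσϖ : σ (algebraMap ↥(mgcA A K₁) ↥(rtk6diF A K₁ (M₁ * q) M H) ϖ) =
      algebraMap ↥(zchClosure (A₀ := ↥(beta0Ring A (beta0Field A)))
        ({bgJ ↥(beta0Field A) (M₁ * q)} :
          Set ↥(modularFunctionFieldFullC ↥(beta0Field A) (M₁ * q))))
        ↥(rtk6diF A K₁ (M₁ * q) M H) ζ *
      algebraMap ↥(mgcA A K₁) ↥(rtk6diF A K₁ (M₁ * q) M H) ϖ)
    (hσy : σ y = y) (hδS : ∀ t ∈ S, δ t = t)
    (hδϖ : δ (algebraMap ↥(mgcA A K₁) ↥(rtk6diF A K₁ (M₁ * q) M H) ϖ) =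
      algebraMap ↥(mgcA A K₁) ↥(rtk6diF A K₁ (M₁ * q) M H) ϖ)
    (hδy : δ y = algebraMap ↥(zchClosure (A₀ := ↥(beta0Ring A (beta0Field A)))
        ({bgJ ↥(beta0Field A) (M₁ * q)} :
          Set ↥(modularFunctionFieldFullC ↥(beta0Field A) (M₁ * q))))
        ↥(rtk6diF A K₁ (M₁ * q) M H) ζ ^ n₀ * y) :
    ∃ (X Y w e₁ e₂ : ↥(zchClosure (A₀ := ↥(beta0Ring A (beta0Field A)))
        ({bgJ ↥(beta0Field A) (M₁ * q)} :
          Set ↥(modularFunctionFieldFullC ↥(beta0Field A) (M₁ * q)))))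
      (γ : ↥(modularFunctionFieldFullC ↥(beta0Field A) (M₁ * q))),
      Rtk6c4Cross (rtk6gxiJ K₁ M H f hf halg)
        (algebraMap ↥(zchClosure (A₀ := ↥(mgcA A K₁))
          ({rtk6diT A K₁ (M₁ * q) M H} : Set ↥(rtk6diF A K₁ (M₁ * q) M H)))
          ↥(rtk6diF A K₁ (M₁ * q) M H)) 𝔫.1 d ζ
        (algebraMap ↥(beta0Ring A (beta0Field A))
          ↥(zchClosure (A₀ := ↥(beta0Ring A (beta0Field A)))
            ({bgJ ↥(beta0Field A) (M₁ * q)} :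
              Set ↥(modularFunctionFieldFullC ↥(beta0Field A) (M₁ * q)))) π) X Y w S
        (algebraMap ↥(mgcA A K₁) ↥(rtk6diF A K₁ (M₁ * q) M H) ϖ) y γ e₁ e₂ n₀ a b σ δ ∧
      (X : ↥(modularFunctionFieldFullC ↥(beta0Field A) (M₁ * q))) ∈
        (mgvV hπ ιC hq hqM true).nonunits ∧
      (Y : ↥(modularFunctionFieldFullC ↥(beta0Field A) (M₁ * q))) ∉
        (mgvV hπ ιC hq hqM true).nonunits ∧
      (Y : ↥(modularFunctionFieldFullC ↥(beta0Field A) (M₁ * q))) ∈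
        (mgvV hπ ιC hq hqM false).nonunits ∧
      (X : ↥(modularFunctionFieldFullC ↥(beta0Field A) (M₁ * q))) ∉
        (mgvV hπ ιC hq hqM false).nonunits := by
  obtain ⟨X, Y, w, e₁, e₂, γ, hw, hXY, hX, hY, hgen₀, hXV, hYV, hYV', hXV', he₁, he₂, hγ, hLF,
    -, -⟩ := rtk6gx_cross_J hπ ιC hq hqM hA rigid d hz0 hhor hz₁ hn₀
      (rtk6gxiPt hq K₁ M H f hf halg hA hd0 hϖd 𝔫) h₁ h₂
  have hdn : ((d : ℕ) : ↥(zchClosure (A₀ := ↥(mgcA A K₁))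
      ({rtk6diT A K₁ (M₁ * q) M H} : Set ↥(rtk6diF A K₁ (M₁ * q) M H)))) ∉ 𝔫.1 :=
    rtk6gxi_natCast_not_mem 𝔫.1 𝔫.2.1.ne_top (rtk6gxi_q_mem hπ hq K₁ M H hA hd0 hϖd 𝔫)
      ((Nat.coprime_comm.1 ((Nat.Prime.coprime_iff_not_dvd hq).2 hqd)))
  exact ⟨X, Y, w, e₁, e₂, γ,
    rtk6gxa_cross (beta0RingIncl (A := A) (le_sup_left : beta0Field A ≤ beta0Field A ⊔ K₁))
      (rtk6gxi_hgφ K₁ M H f hf halg) (rtk6gxi_hu K₁ M H f halg) (rtk6gxi_hg K₁ hq hA) hd0 hϖd 𝔫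
      hdn hζ hw hXY hX hY hgen₀ he₁ he₂ hγ hLF hzy hab hS hSet hgen hσS hσϖ hσy hδS hδϖ hδy,
    hXV, hYV, hYV', hXV'⟩

include hπ ιC hqM in
/-- **(G-cross), two exponents: the concrete structure `Rtk6c4CrossE`** at a closed point `𝔫` of
the chart `j` of `F` over a crossing point of the chart `j` of `K` (`dS` the exponent of the étale
generators, prime to `q`). -/
theorem rtk6gxi_crossE {dS : ℕ} (hqdS : ¬ q ∣ dS) (rigid : (q ≠ 2 → 4 ∣ M₁) ∧ (q = 2 → 9 ∣ M₁)) (hqd : ¬ q ∣ d)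
    (𝔫 : AtPt (F := ↥(rtk6diF A K₁ (M₁ * q) M H)) ϖ (rtk6diT A K₁ (M₁ * q) M H))
    (h₁ : atThrough (rtk6gxiPt hq K₁ M H f hf halg hA hd0 hϖd 𝔫) (mgvV hπ ιC hq hqM true))
    (h₂ : atThrough (rtk6gxiPt hq K₁ M H f hf halg hA hd0 hϖd 𝔫) (mgvV hπ ιC hq hqM false))
    {ζ : ↥(zchClosure (A₀ := ↥(beta0Ring A (beta0Field A)))
      ({bgJ ↥(beta0Field A) (M₁ * q)} :
        Set ↥(modularFunctionFieldFullC ↥(beta0Field A) (M₁ * q))))}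
    (hζ : IsPrimitiveRoot ζ d)
    -- the Kummer element `u = y ^ d ∈ K`
    {z : ↥(modularFunctionFieldFullC ↥(beta0Field A) (M₁ * q))} (hz0 : z ≠ 0)
    (hhor : ∀ P : Place ↥(beta0Field A) ↥(modularFunctionFieldFullC ↥(beta0Field A) (M₁ * q)),
      (d : ℤ) ∣ P.ord z)
    (hz₁ : (mgvV hπ ιC hq hqM true).valuation z = 1) {n₀ : ℤ}
    (hn₀ : (mgvV hπ ιC hq hqM false).valuation z = (mgvV hπ ιC hq hqM false).valuation
      (algebraMap ↥(beta0Ring A (beta0Field A))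
        ↥(modularFunctionFieldFullC ↥(beta0Field A) (M₁ * q)) π) ^ n₀)
    {y : ↥(rtk6diF A K₁ (M₁ * q) M H)}
    (hzy : algebraMap ↥(modularFunctionFieldFullC ↥(beta0Field A) (M₁ * q))
      ↥(rtk6diF A K₁ (M₁ * q) M H) z = y ^ d)
    {a b : ℤ} (hab : a * n₀ - b * d = 1)
    -- the field-theoretic data
    {S : Set ↥(rtk6diF A K₁ (M₁ * q) M H)} (hS : S.Finite)
    (hSet : ∀ t ∈ S, ∃ a b : ↥(zchClosure (A₀ := ↥(beta0Ring A (beta0Field A)))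
        ({bgJ ↥(beta0Field A) (M₁ * q)} :
          Set ↥(modularFunctionFieldFullC ↥(beta0Field A) (M₁ * q)))),
      rtk6gxiJ K₁ M H f hf halg a ∉ 𝔫.1 ∧ rtk6gxiJ K₁ M H f hf halg b ∉ 𝔫.1 ∧
      algebraMap ↥(zchClosure (A₀ := ↥(beta0Ring A (beta0Field A)))
        ({bgJ ↥(beta0Field A) (M₁ * q)} :
          Set ↥(modularFunctionFieldFullC ↥(beta0Field A) (M₁ * q))))
        ↥(rtk6diF A K₁ (M₁ * q) M H) b * t ^ dS =
      algebraMap ↥(zchClosure (A₀ := ↥(beta0Ring A (beta0Field A)))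
        ({bgJ ↥(beta0Field A) (M₁ * q)} :
          Set ↥(modularFunctionFieldFullC ↥(beta0Field A) (M₁ * q))))
        ↥(rtk6diF A K₁ (M₁ * q) M H) a)
    (hgen : Algebra.adjoin ↥(modularFunctionFieldFullC ↥(beta0Field A) (M₁ * q))
      (S ∪ {algebraMap ↥(mgcA A K₁) ↥(rtk6diF A K₁ (M₁ * q) M H) ϖ, y}) = ⊤)
    {σ δ : ↥(rtk6diF A K₁ (M₁ * q) M H) ≃ₐ[↥(modularFunctionFieldFullC ↥(beta0Field A) (M₁ * q))]
      ↥(rtk6diF A K₁ (M₁ * q) M H)}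
    (hσS : ∀ t ∈ S, σ t = t)
    (hσϖ : σ (algebraMap ↥(mgcA A K₁) ↥(rtk6diF A K₁ (M₁ * q) M H) ϖ) =
      algebraMap ↥(zchClosure (A₀ := ↥(beta0Ring A (beta0Field A)))
        ({bgJ ↥(beta0Field A) (M₁ * q)} :
          Set ↥(modularFunctionFieldFullC ↥(beta0Field A) (M₁ * q))))
        ↥(rtk6diF A K₁ (M₁ * q) M H) ζ *
      algebraMap ↥(mgcA A K₁) ↥(rtk6diF A K₁ (M₁ * q) M H) ϖ)
    (hσy : σ y = y) (hδS : ∀ t ∈ S, δ t = t)
    (hδϖ : δ (algebraMap ↥(mgcA A K₁) ↥(rtk6diF A K₁ (M₁ * q) M H) ϖ) =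
      algebraMap ↥(mgcA A K₁) ↥(rtk6diF A K₁ (M₁ * q) M H) ϖ)
    (hδy : δ y = algebraMap ↥(zchClosure (A₀ := ↥(beta0Ring A (beta0Field A)))
        ({bgJ ↥(beta0Field A) (M₁ * q)} :
          Set ↥(modularFunctionFieldFullC ↥(beta0Field A) (M₁ * q))))
        ↥(rtk6diF A K₁ (M₁ * q) M H) ζ ^ n₀ * y) :
    ∃ (X Y w e₁ e₂ : ↥(zchClosure (A₀ := ↥(beta0Ring A (beta0Field A)))
        ({bgJ ↥(beta0Field A) (M₁ * q)} :
          Set ↥(modularFunctionFieldFullC ↥(beta0Field A) (M₁ * q)))))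
      (γ : ↥(modularFunctionFieldFullC ↥(beta0Field A) (M₁ * q))),
      Rtk6c4CrossE (rtk6gxiJ K₁ M H f hf halg)
        (algebraMap ↥(zchClosure (A₀ := ↥(mgcA A K₁))
          ({rtk6diT A K₁ (M₁ * q) M H} : Set ↥(rtk6diF A K₁ (M₁ * q) M H)))
          ↥(rtk6diF A K₁ (M₁ * q) M H)) 𝔫.1 d dS ζ
        (algebraMap ↥(beta0Ring A (beta0Field A))
          ↥(zchClosure (A₀ := ↥(beta0Ring A (beta0Field A)))
            ({bgJ ↥(beta0Field A) (M₁ * q)} :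
              Set ↥(modularFunctionFieldFullC ↥(beta0Field A) (M₁ * q)))) π) X Y w S
        (algebraMap ↥(mgcA A K₁) ↥(rtk6diF A K₁ (M₁ * q) M H) ϖ) y γ e₁ e₂ n₀ a b σ δ ∧
      (X : ↥(modularFunctionFieldFullC ↥(beta0Field A) (M₁ * q))) ∈
        (mgvV hπ ιC hq hqM true).nonunits ∧
      (Y : ↥(modularFunctionFieldFullC ↥(beta0Field A) (M₁ * q))) ∉
        (mgvV hπ ιC hq hqM true).nonunits ∧
      (Y : ↥(modularFunctionFieldFullC ↥(beta0Field A) (M₁ * q))) ∈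
        (mgvV hπ ιC hq hqM false).nonunits ∧
      (X : ↥(modularFunctionFieldFullC ↥(beta0Field A) (M₁ * q))) ∉
        (mgvV hπ ιC hq hqM false).nonunits := by
  obtain ⟨X, Y, w, e₁, e₂, γ, hw, hXY, hX, hY, hgen₀, hXV, hYV, hYV', hXV', he₁, he₂, hγ, hLF,
    -, -⟩ := rtk6gx_cross_J hπ ιC hq hqM hA rigid d hz0 hhor hz₁ hn₀
      (rtk6gxiPt hq K₁ M H f hf halg hA hd0 hϖd 𝔫) h₁ h₂
  have hdn : ((d : ℕ) : ↥(zchClosure (A₀ := ↥(mgcA A K₁))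
      ({rtk6diT A K₁ (M₁ * q) M H} : Set ↥(rtk6diF A K₁ (M₁ * q) M H)))) ∉ 𝔫.1 :=
    rtk6gxi_natCast_not_mem 𝔫.1 𝔫.2.1.ne_top (rtk6gxi_q_mem hπ hq K₁ M H hA hd0 hϖd 𝔫)
      ((Nat.coprime_comm.1 ((Nat.Prime.coprime_iff_not_dvd hq).2 hqd)))
  have hdSn : ((dS : ℕ) : ↥(zchClosure (A₀ := ↥(mgcA A K₁))
      ({rtk6diT A K₁ (M₁ * q) M H} : Set ↥(rtk6diF A K₁ (M₁ * q) M H)))) ∉ 𝔫.1 :=
    rtk6gxi_natCast_not_mem 𝔫.1 𝔫.2.1.ne_top (rtk6gxi_q_mem hπ hq K₁ M H hA hd0 hϖd 𝔫)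
      ((Nat.coprime_comm.1 ((Nat.Prime.coprime_iff_not_dvd hq).2 hqdS)))
  exact ⟨X, Y, w, e₁, e₂, γ,
    rtk6gxa_crossE (beta0RingIncl (A := A) (le_sup_left : beta0Field A ≤ beta0Field A ⊔ K₁))
      (rtk6gxi_hgφ K₁ M H f hf halg) (rtk6gxi_hu K₁ M H f halg) (rtk6gxi_hg K₁ hq hA) hd0 hϖd 𝔫
      hdn hdSn hζ hw hXY hX hY hgen₀ he₁ he₂ hγ hLF hzy hab hS hSet hgen hσS hσϖ hσy hδS hδϖ hδy,
    hXV, hYV, hYV', hXV'⟩

end Cross

end Fermat.Agent.RT.K6
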