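/-
K-machine, piece K6, piece GEN-inst (helper74), part 3: **(G-et) and (G-sm)** on the chart `j`,
`F`-level, in the shapes `hSet` of `Rtk6c4Cross` (C4Abs.lean) and `hl` of `rtk6c4sm_smooth_of_gen`
(C4Sm.lean).

`K = FullC E₀ (Mq)` the `Γ₀(Mq)`-field over `E₀ = ℚ̄^I`, `R₀ = zchClosure {j}`, `𝔫` a closed point
of the special fibre of `R₀`; `F` ANY field with a ring homomorphism `φ : K →+* F` (in the
application `F = fieldC E₁ L M H`, `φ = rtk6c4fdIota`); `y ∈ F` a Kummer generator,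
`y ^ d = φ u`, `u ∈ K` with divisor divisible by `d`, unit at `V_∞`, `v_0(u) = v_0(π) ^ n₀`
(N0-inst, helper6).

* `rtk6gi_et_JF`     : **(G-et)** `d ∣ n₀` ⇒ `t = y / φ γ'`, `φ e₂ · t ^ d = φ e₁`, `e₁, e₂ ∈ R₀ ∖ 𝔫`.
* `rtk6gi_et_family` : the same for a finite family: the set `S` of the `t_i`, with `hS`, `hSet`,
                       and `y_i = φ c_i · t_i` (for `hσS`, `hδS`, `hgen`).
* `rtk6gi_sm_JF`     : **(G-sm)** at a point which is not a crossing point, `a n₀ − b d = 1`,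
                       `ϖ₁ ^ d = φ π`: on `Σ_∞` `t = y / φ γ`, on `Σ_0`
                       `t = (y / φ γ) ^ a / (φ π ^ b ϖ₁)`; `φ b' · t ^ d = φ a'`, `a', b' ∈ R₀ ∖ 𝔫`,
                       and `y = φ c · t` resp. `y = φ c · (t ϖ₁) ^ n₀`.
-/
import Fermat.Agent.RT.K6.GenInst
import Fermat.Agent.RT.K6.GenInstAbs

set_option autoImplicit false
set_option linter.style.haveILetI false
set_option linter.unusedSectionVars false
set_option linter.unusedVariables false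
set_option linter.style.longLine false
set_option synthInstance.maxHeartbeats 400000
set_option maxHeartbeats 4000000

noncomputable section

namespace Fermat.Agent.RT.K6

open ModularCurve Polynomial IntermediateField Fermat.Agent.INJ Fermat.Agent.AL AlgebraicCurve
open Fermat.Agent.ES Fermat.Agent.ES.G2 Fermat.Agent.STB Fermat.Agent.UNIP Fermat.Agent.S36
open Fermat.Agent.RIB.MP

section Base

variable {A : ValuationSubring Qb} {q M : ℕ} [NeZero q] [NeZero M] [NeZero (M * q)]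
  [IsDiscreteValuationRing ↥(beta0Ring A (beta0Field A))]
  {π : ↥(beta0Ring A (beta0Field A))} (hπ : Irreducible π)
  (ιC : ↥(beta0Field A) →+* ℂ) (hq : q.Prime) (hqM : ¬ q ∣ M)

variable {F : Type*} [Field F] (φ : ↥(modularFunctionFieldFullC ↥(beta0Field A) (M * q)) →+* F)

include hπ ιC hq hqM in
/-- **(G-et)**, one generator: `t = y / φ γ'` with `φ e₂ · t ^ m = φ e₁`, `e₁, e₂ ∈ R₀ ∖ 𝔫`. -/
theorem rtk6gi_et_JF (hA : A.LiesOverPrime q)
    (rigid : (q ≠ 2 → 4 ∣ M) ∧ (q = 2 → 9 ∣ M))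
    (m : ℕ) {y : F} {u : ↥(modularFunctionFieldFullC ↥(beta0Field A) (M * q))} (hyu : y ^ m = φ u) (hu : u ≠ 0)
    (hhor : ∀ P : Place ↥(beta0Field A) ↥(modularFunctionFieldFullC ↥(beta0Field A) (M * q)), (m : ℤ) ∣ P.ord u)
    (hy₁ : (mgvV hπ ιC hq hqM true).valuation u = 1) {n₀ : ℤ}
    (hn₀ : (mgvV hπ ιC hq hqM false).valuation u = (mgvV hπ ιC hq hqM false).valuation
      (algebraMap ↥(beta0Ring A (beta0Field A)) ↥(modularFunctionFieldFullC ↥(beta0Field A) (M * q)) π) ^ n₀)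
    (hdvd : (m : ℤ) ∣ n₀)
    (𝔫 : AtPt (F := ↥(modularFunctionFieldFullC ↥(beta0Field A) (M * q))) π (bgJ ↥(beta0Field A) (M * q))) :
    ∃ (γ' : ↥(modularFunctionFieldFullC ↥(beta0Field A) (M * q))) (e₁ e₂ : ↥(zchClosure (A₀ := ↥(beta0Ring A (beta0Field A))) ({bgJ ↥(beta0Field A) (M * q)} : Set ↥(modularFunctionFieldFullC ↥(beta0Field A) (M * q))))), γ' ≠ 0 ∧ e₁ ∉ 𝔫.1 ∧ e₂ ∉ 𝔫.1 ∧
      φ (e₂ : ↥(modularFunctionFieldFullC ↥(beta0Field A) (M * q))) * (y / φ γ') ^ m = φ (e₁ : ↥(modularFunctionFieldFullC ↥(beta0Field A) (M * q))) ∧ y = φ γ' * (y / φ γ') := by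
  obtain ⟨γ', e₁, e₂, hγ', he₁, he₂, h⟩ :=
    rtk6gi_et_J hπ ιC hq hqM hA rigid m hu hhor hy₁ hn₀ hdvd 𝔫
  refine ⟨γ', e₁, e₂, hγ', he₁, he₂, rtk6gi_t_pow_hom φ hyu hγ' h, ?_⟩
  rw [mul_div_cancel₀ _ ((map_ne_zero φ).2 hγ')]

include hπ ιC hq hqM in
/-- **(G-et)**, finite family: the set `S` of the étale generators at the point `𝔫`, with the
fields `hS`, `hSet` of `Rtk6c4Cross` and the relation to the `y_i`. -/
theorem rtk6gi_et_family (hA : A.LiesOverPrime q)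
    (rigid : (q ≠ 2 → 4 ∣ M) ∧ (q = 2 → 9 ∣ M))
    (m : ℕ) {ι : Type*} [Finite ι] (y : ι → F) (u : ι → ↥(modularFunctionFieldFullC ↥(beta0Field A) (M * q))) (n₀ : ι → ℤ)
    (hyu : ∀ i, y i ^ m = φ (u i)) (hu : ∀ i, u i ≠ 0)
    (hhor : ∀ i, ∀ P : Place ↥(beta0Field A) ↥(modularFunctionFieldFullC ↥(beta0Field A) (M * q)), (m : ℤ) ∣ P.ord (u i))
    (hy₁ : ∀ i, (mgvV hπ ιC hq hqM true).valuation (u i) = 1)
    (hn₀ : ∀ i, (mgvV hπ ιC hq hqM false).valuation (u i) =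
      (mgvV hπ ιC hq hqM false).valuation
        (algebraMap ↥(beta0Ring A (beta0Field A)) ↥(modularFunctionFieldFullC ↥(beta0Field A) (M * q)) π) ^ n₀ i)
    (hdvd : ∀ i, (m : ℤ) ∣ n₀ i)
    (𝔫 : AtPt (F := ↥(modularFunctionFieldFullC ↥(beta0Field A) (M * q))) π (bgJ ↥(beta0Field A) (M * q))) :
    ∃ S : Set F, S.Finite ∧
      (∀ t ∈ S, ∃ a b : ↥(zchClosure (A₀ := ↥(beta0Ring A (beta0Field A))) ({bgJ ↥(beta0Field A) (M * q)} : Set ↥(modularFunctionFieldFullC ↥(beta0Field A) (M * q)))), a ∉ 𝔫.1 ∧ b ∉ 𝔫.1 ∧ φ (b : ↥(modularFunctionFieldFullC ↥(beta0Field A) (M * q))) * t ^ m = φ (a : ↥(modularFunctionFieldFullC ↥(beta0Field A) (M * q)))) ∧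
      (∀ t ∈ S, ∃ i, ∃ c : ↥(modularFunctionFieldFullC ↥(beta0Field A) (M * q)), c ≠ 0 ∧ t = y i / φ c) ∧
      (∀ i, ∃ t ∈ S, ∃ c : ↥(modularFunctionFieldFullC ↥(beta0Field A) (M * q)), c ≠ 0 ∧ y i = φ c * t) := by
  have key := fun i => rtk6gi_et_JF hπ ιC hq hqM φ hA rigid m (hyu i) (hu i) (hhor i) (hy₁ i)
    (hn₀ i) (hdvd i) 𝔫
  choose γ' e₁ e₂ hγ' he₁ he₂ hpow hy using key
  refine ⟨Set.range fun i => y i / φ (γ' i), Set.finite_range _, ?_, ?_, ?_⟩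
  · rintro t ⟨i, rfl⟩
    exact ⟨e₁ i, e₂ i, he₁ i, he₂ i, hpow i⟩
  · rintro t ⟨i, rfl⟩
    exact ⟨i, γ' i, hγ' i, rfl⟩
  · intro i
    exact ⟨y i / φ (γ' i), ⟨i, rfl⟩, γ' i, hγ' i, hy i⟩

include hπ ιC hq hqM in
/-- **(G-sm)**: the generator for `ψ_r` at a closed point `𝔫` which is NOT a crossing point. -/
theorem rtk6gi_sm_JF (hA : A.LiesOverPrime q)
    (rigid : (q ≠ 2 → 4 ∣ M) ∧ (q = 2 → 9 ∣ M))
    (m : ℕ) {y ϖ₁ : F} {u : ↥(modularFunctionFieldFullC ↥(beta0Field A) (M * q))} (hyu : y ^ m = φ u) (hu : u ≠ 0)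
    (hhor : ∀ P : Place ↥(beta0Field A) ↥(modularFunctionFieldFullC ↥(beta0Field A) (M * q)), (m : ℤ) ∣ P.ord u)
    (hy₁ : (mgvV hπ ιC hq hqM true).valuation u = 1) {n₀ : ℤ}
    (hn₀ : (mgvV hπ ιC hq hqM false).valuation u = (mgvV hπ ιC hq hqM false).valuation
      (algebraMap ↥(beta0Ring A (beta0Field A)) ↥(modularFunctionFieldFullC ↥(beta0Field A) (M * q)) π) ^ n₀)
    {a b : ℤ} (hab : a * n₀ - b * m = 1)
    (hϖ : ϖ₁ ^ m = φ (algebraMap ↥(beta0Ring A (beta0Field A)) ↥(modularFunctionFieldFullC ↥(beta0Field A) (M * q)) π))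
    (𝔫 : AtPt (F := ↥(modularFunctionFieldFullC ↥(beta0Field A) (M * q))) π (bgJ ↥(beta0Field A) (M * q)))
    (hnc : ¬ (atThrough 𝔫 (mgvV hπ ιC hq hqM true) ∧ atThrough 𝔫 (mgvV hπ ιC hq hqM false))) :
    ∃ (t : F) (a' b' : ↥(zchClosure (A₀ := ↥(beta0Ring A (beta0Field A))) ({bgJ ↥(beta0Field A) (M * q)} : Set ↥(modularFunctionFieldFullC ↥(beta0Field A) (M * q))))) (c : ↥(modularFunctionFieldFullC ↥(beta0Field A) (M * q))), a' ∉ 𝔫.1 ∧ b' ∉ 𝔫.1 ∧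
      φ (b' : ↥(modularFunctionFieldFullC ↥(beta0Field A) (M * q))) * t ^ m = φ (a' : ↥(modularFunctionFieldFullC ↥(beta0Field A) (M * q))) ∧ c ≠ 0 ∧
      ((atThrough 𝔫 (mgvV hπ ιC hq hqM true) ∧ y = φ c * t) ∨
        (atThrough 𝔫 (mgvV hπ ιC hq hqM false) ∧ y = φ c * (t * ϖ₁) ^ n₀)) := by
  haveI := 𝔫.2.1.isPrime
  have hπ0 : algebraMap ↥(beta0Ring A (beta0Field A)) ↥(modularFunctionFieldFullC ↥(beta0Field A) (M * q)) π ≠ 0 := ribmp_fc_hπ0 hπ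
  have hne : ∀ e : ↥(zchClosure (A₀ := ↥(beta0Ring A (beta0Field A))) ({bgJ ↥(beta0Field A) (M * q)} : Set ↥(modularFunctionFieldFullC ↥(beta0Field A) (M * q)))), e ∉ 𝔫.1 → (e : ↥(modularFunctionFieldFullC ↥(beta0Field A) (M * q))) ≠ 0 := fun e he h0 =>
    he ((Subtype.ext h0 : e = 0) ▸ 𝔫.1.zero_mem)
  rcases rtk6gi_LF_J hπ ιC hq hqM hA rigid m hu hhor hy₁ hn₀ 𝔫 with
    ⟨X, Y, h, -⟩ | ⟨h1, h2, hs, γ, e₁, e₂, hγ, he₁, he₂, h⟩ |
    ⟨h1, h2, hs, γ, e₁, e₂, hγ, he₁, he₂, h⟩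
  · exact absurd ⟨h.1, h.2.1⟩ hnc
  · -- `Σ_0`
    have hpow := rtk6gi_sm_zero_pow_hom φ hyu hγ hπ0 (hne e₂ he₂) hϖ hab h
    have hγF : φ γ ≠ 0 := (map_ne_zero φ).2 hγ
    have hπF : φ (algebraMap ↥(beta0Ring A (beta0Field A)) ↥(modularFunctionFieldFullC ↥(beta0Field A) (M * q)) π) ≠ 0 :=
      (map_ne_zero φ).2 hπ0
    have he₁F : φ (e₁ : ↥(modularFunctionFieldFullC ↥(beta0Field A) (M * q))) ≠ 0 := (map_ne_zero φ).2 (hne e₁ he₁)
    have he₂F : φ (e₂ : ↥(modularFunctionFieldFullC ↥(beta0Field A) (M * q))) ≠ 0 := (map_ne_zero φ).2 (hne e₂ he₂)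
    have hm : 0 < m := by
      rcases Nat.eq_zero_or_pos m with hm | hm
      · exfalso
        subst hm
        rw [pow_zero] at hϖ
        have h1 : algebraMap ↥(beta0Ring A (beta0Field A)) ↥(modularFunctionFieldFullC ↥(beta0Field A) (M * q)) π = 1 :=
          φ.injective (by rw [← hϖ, map_one])
        have h3 := mgv_hπV hπ ιC hq hqM false
        rw [h1, ValuationSubring.mem_nonunits_iff, map_one] at h3
        exact lt_irrefl _ h3
      · exact hm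
    have hϖ0 : ϖ₁ ≠ 0 := by
      intro h0
      rw [h0, zero_pow hm.ne'] at hϖ
      exact hπF hϖ.symm
    -- the fraction form of `t ^ m = (e₁ / e₂) ^ a`
    obtain ⟨a', b', ha', hb', hab'⟩ : ∃ a' b' : ↥(zchClosure (A₀ := ↥(beta0Ring A (beta0Field A))) ({bgJ ↥(beta0Field A) (M * q)} : Set ↥(modularFunctionFieldFullC ↥(beta0Field A) (M * q)))), a' ∉ 𝔫.1 ∧ b' ∉ 𝔫.1 ∧
        φ (b' : ↥(modularFunctionFieldFullC ↥(beta0Field A) (M * q))) * (φ (e₁ : ↥(modularFunctionFieldFullC ↥(beta0Field A) (M * q))) / φ (e₂ : ↥(modularFunctionFieldFullC ↥(beta0Field A) (M * q)))) ^ a = φ (a' : ↥(modularFunctionFieldFullC ↥(beta0Field A) (M * q))) := by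
      rcases le_total 0 a with ha | ha
      · obtain ⟨n, rfl⟩ := Int.eq_ofNat_of_zero_le ha
        refine ⟨e₁ ^ n, e₂ ^ n, fun h => he₁ (‹𝔫.1.IsPrime›.mem_of_pow_mem n h),
          fun h => he₂ (‹𝔫.1.IsPrime›.mem_of_pow_mem n h), ?_⟩
        rw [zpow_natCast, div_pow]
        push_cast
        rw [map_pow, map_pow, mul_div_assoc', mul_comm, mul_div_assoc,
          div_self (pow_ne_zero _ he₂F), mul_one]
      · obtain ⟨n, rfl⟩ := Int.exists_eq_neg_ofNat ha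
        refine ⟨e₂ ^ n, e₁ ^ n, fun h => he₂ (‹𝔫.1.IsPrime›.mem_of_pow_mem n h),
          fun h => he₁ (‹𝔫.1.IsPrime›.mem_of_pow_mem n h), ?_⟩
        rw [zpow_neg, zpow_natCast, ← inv_pow, inv_div, div_pow]
        push_cast
        rw [map_pow, map_pow, mul_div_assoc', mul_comm, mul_div_assoc,
          div_self (pow_ne_zero _ he₁F), mul_one]
    refine ⟨(y / φ γ) ^ a / (φ (algebraMap ↥(beta0Ring A (beta0Field A)) ↥(modularFunctionFieldFullC ↥(beta0Field A) (M * q)) π) ^ b * ϖ₁),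
      a', b', γ * (((e₁ : ↥(modularFunctionFieldFullC ↥(beta0Field A) (M * q))) / (e₂ : ↥(modularFunctionFieldFullC ↥(beta0Field A) (M * q)))) ^ b)⁻¹, ha', hb', ?_,
      mul_ne_zero hγ (inv_ne_zero (zpow_ne_zero _ (div_ne_zero (hne e₁ he₁) (hne e₂ he₂)))),
      Or.inr ⟨h1, ?_⟩⟩
    · rw [hpow]
      exact hab'
    · -- `y = γ ε^{-b} (t ϖ₁)^{n₀}`
      have hF := rtk6gi_LF_lift_hom φ hyu h
      have hyΓ : (y / φ γ) ^ m = φ (e₁ : ↥(modularFunctionFieldFullC ↥(beta0Field A) (M * q))) / φ (e₂ : ↥(modularFunctionFieldFullC ↥(beta0Field A) (M * q))) *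
          φ (algebraMap ↥(beta0Ring A (beta0Field A)) ↥(modularFunctionFieldFullC ↥(beta0Field A) (M * q)) π) ^ n₀ := by
        rw [div_pow, div_eq_iff (pow_ne_zero _ hγF), div_mul_eq_mul_div, div_mul_eq_mul_div,
          eq_div_iff he₂F, mul_comm]
        exact hF
      have hy0 : y / φ γ ≠ 0 := by
        intro h0
        rw [h0, zero_pow hm.ne'] at hyΓ
        exact mul_ne_zero (div_ne_zero he₁F he₂F) (zpow_ne_zero _ hπF) hyΓ.symm
      have hrel := rtk6gi_sm_zero_rel (T := y / φ γ)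
        (P := φ (algebraMap ↥(beta0Ring A (beta0Field A))
          ↥(modularFunctionFieldFullC ↥(beta0Field A) (M * q)) π))
        (E := φ (e₁ : ↥(modularFunctionFieldFullC ↥(beta0Field A) (M * q))) /
          φ (e₂ : ↥(modularFunctionFieldFullC ↥(beta0Field A) (M * q))))
        (ϖ₁ := ϖ₁) (d := m) (n₀ := n₀) (a := a) (b := b) hy0 hπF hϖ0 hab hyΓ
      have hE0 : (φ (e₁ : ↥(modularFunctionFieldFullC ↥(beta0Field A) (M * q))) /
          φ (e₂ : ↥(modularFunctionFieldFullC ↥(beta0Field A) (M * q)))) ^ b ≠ 0 :=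
        zpow_ne_zero _ (div_ne_zero he₁F he₂F)
      rw [hrel, map_mul, map_inv₀, map_zpow₀, map_div₀, mul_assoc, mul_comm (y / φ γ),
        ← mul_assoc _ _ (y / φ γ), inv_mul_cancel₀ hE0, one_mul,
        mul_div_cancel₀ _ hγF]
  · -- `Σ_∞`
    refine ⟨y / φ γ, e₁, e₂, γ, he₁, he₂, rtk6gi_t_pow_hom φ hyu hγ h, hγ, Or.inl ⟨h1, ?_⟩⟩
    rw [mul_div_cancel₀ _ ((map_ne_zero φ).2 hγ)]

end Base

end Fermat.Agent.RT.K6

end
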