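/-
K-machine, piece K6, C4-χ-WIRE, the `S`-part (helper98): **the concrete Kummer families** — the
instances of the hypotheses `hyu hu hhor hy₁ hn₀ hdvd` of helper74's `rtk6gi_et_family`,
`rtk6gi_cross_pack`, `rtk6gi_sm_pack` (`GenInstEt.lean`, `GenInstGen.lean`) and of the hypotheses
`hz0 hhor hz₁ hn₀ hzy` (+ coprimality of `n₀`) of helper54's `rtk6gxi_crossE`
(`GenCrossInst.lean`), for the NORMALISED resolvents `y′_ψ = y_ψ / #(±H)` of helper6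
(`N0Norm.lean`, `C4FNorm.lean`); and the rescalings `k_i ∈ Kˣ` for which `S = {k_i · y_{ψ′_i}}`
satisfies the field `hSet` (exponent `dS`) of helper94's `Rtk6c4CrossE` (`C4Abs.lean`), with `S` in
the shape of helper70's `rtk6c4w_fields` (`C4ChiWire.lean`: `hS`, `hgen`, `hσS`, `hδS` for
ARBITRARY `k_i`).

Setting of `GenCrossInst.lean`: `E₀ = ℚ̄^I = beta0Field A`, `K = FullC E₀ (M₁ q)` the `Γ₀`-field,
`R₀ = zchClosure {j}` its chart over `A ∩ ℚ̄^I`, `F = fieldC E₁ (M₁ q) M H` (`E₁` ANY field with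
`f : E₀ →+* E₁`; in the application `E₁ = mgcE A K₁`, `F = rtk6diF A K₁ (M₁ q) M H`),
`[Algebra K F]` with `algebraMap = rtk6c4fdIota f` (helper36's convention).
`w` is the Atkin–Lehner automorphism of piece B (`IsWAt`).

* `rtk6c4wsU ψ hML hψd` : the normalised Kummer element `u′_ψ = (y_ψ / n₀) ^ dS ∈ K`;
* `rtk6c4ws_hyu`, `rtk6c4ws_hu`, `rtk6c4ws_hhor`, `rtk6c4ws_hy₁` : `y′ ^ dS = u′`, `u′ ≠ 0`,
  `dS ∣ ord_P u′`, `v_∞(u′) = 1`;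
* `rtk6c4ws_et`   : `ψ` trivial on the diamonds at `q` ⇒ `∃ n₀`, `dS ∣ n₀`, `v_0(u′) = v_0(π) ^ n₀`;
* `rtk6c4ws_ram`  : `ψ(c₀)` of order `d` for a diamond `c₀` at `q` ⇒ `∃ n₀` prime to `d`,
  `v_0(u′) = v_0(π) ^ n₀`;
* **`rtk6c4ws_family`** : the étale family `(y′_i, u′_i, n₀ i)` with all six hypotheses;
* `rtk6c4ws_one`  : one character: `∃ k ≠ 0, ∃ a b ∈ R₀ ∖ 𝔫₀`, `b (k y_ψ) ^ dS = a`;
* **`rtk6c4ws_hSet`** : at a closed point `𝔫` of the TOP chart: `∃ k`, `k i ≠ 0` ∧ `hSet` for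
  `S = range (k_i · y_i)` (shape of `rtk6gxi_crossE`);  `rtk6c4ws_hdS` : `j (dS : R₀) ∉ 𝔫`.
-/
import Fermat.Agent.RT.K6.GenCrossInst
import Fermat.Agent.RT.K6.GenInstEt
import Fermat.Agent.RT.K6.N0Norm
import Fermat.Agent.RT.K6.C4FNorm
import Fermat.Agent.RT.K6.DUnr
import Fermat.Agent.RT.K6.Psi

set_option autoImplicit false
set_option linter.style.haveILetI false
set_option linter.unusedSectionVars false
set_option linter.unusedVariables false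
set_option linter.style.longLine false
set_option synthInstance.maxHeartbeats 400000
set_option maxHeartbeats 4000000

noncomputable section

namespace Fermat.Agent.RT.K6

open ModularCurve Polynomial IntermediateField Fermat.Agent.INJ Fermat.Agent.AL AlgebraicCurve
open Fermat.Agent.ES Fermat.Agent.ES.G2 Fermat.Agent.STB Fermat.Agent.UNIP Fermat.Agent.S36
open Fermat.Agent.RIB.MP Fermat.Agent.ES1

/-- `gcd (d, 6 L) = 1`, `q ∣ L` ⇒ `q ∤ d` -/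
theorem rtk6c4ws_not_dvd {q L d : ℕ} (hq : q.Prime) (hqL : q ∣ L) (hd : Nat.Coprime d (6 * L)) :
    ¬ q ∣ d := by
  intro h
  have h1 : q ∣ 6 * L := Dvd.dvd.mul_left hqL 6
  have h2 := Nat.dvd_gcd h h1
  rw [Nat.Coprime] at hd
  rw [hd] at h2
  exact hq.one_lt.ne' (Nat.dvd_one.1 h2)

section Base

variable {A : ValuationSubring Qb} {q M₁ : ℕ} [NeZero q] [NeZero M₁] [NeZero (M₁ * q)]
  {M : ℕ} [NeZero M] {H : Subgroup (ZMod M)ˣ}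

/-- the normalised Kummer element `u′_ψ = (y_ψ / #(±H)) ^ dS` of the `Γ₀`-field `K` -/
def rtk6c4wsU (ψ : (ZMod M)ˣ →* (↥(beta0Field A))ˣ) (hML : M ∣ M₁ * q) {dS : ℕ}
    (hψd : ∀ c, ψ c ^ dS = 1) : ↥(modularFunctionFieldFullC ↥(beta0Field A) (M₁ * q)) :=
  haveI : Algebra.IsAlgebraic ℚ Qb := AlgebraicClosure.isAlgebraic ℚ
  haveI : Algebra.IsAlgebraic ℚ ↥(beta0Field A) :=
    Algebra.IsAlgebraic.of_injective (beta0Field A).val Subtype.val_injective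
  ⟨rtk6n0Y ↥(beta0Field A) M H ψ ^ dS,
    rtk6n0f_mem (M₁ * q) M H ψ (NeZero.ne (M₁ * q)) hML hψd⟩

theorem rtk6c4wsU_coe (ψ : (ZMod M)ˣ →* (↥(beta0Field A))ˣ) (hML : M ∣ M₁ * q) {dS : ℕ}
    (hψd : ∀ c, ψ c ^ dS = 1) :
    ((rtk6c4wsU (M₁ := M₁) (H := H) ψ hML hψd :
        ↥(modularFunctionFieldFullC ↥(beta0Field A) (M₁ * q))) :
      LaurentSeries ↥(beta0Field A)) = rtk6n0Y ↥(beta0Field A) M H ψ ^ dS := rfl

/-- `u′_ψ ≠ 0` -/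
theorem rtk6c4ws_hu (ψ : (ZMod M)ˣ →* (↥(beta0Field A))ˣ) (hML : M ∣ M₁ * q) (hM3 : 3 ≤ M)
    (hψH : ∀ h ∈ H, ψ h = 1) (hψ1 : ψ (-1) = 1) {dS : ℕ} (hψd : ∀ c, ψ c ^ dS = 1) :
    rtk6c4wsU (M₁ := M₁) (H := H) ψ hML hψd ≠ 0 := by
  intro h
  have h1 : rtk6n0Y ↥(beta0Field A) M H ψ ^ dS = 0 :=
    congrArg (fun z : ↥(modularFunctionFieldFullC ↥(beta0Field A) (M₁ * q)) =>
      (z : LaurentSeries ↥(beta0Field A))) h
  exact rtk6n0Y_ne_zero hM3 hψH hψ1 (eq_zero_of_pow_eq_zero h1)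

/-- **D-unr**: `dS ∣ ord_P u′_ψ` at every place of the `Γ₀`-field -/
theorem rtk6c4ws_hhor (ψ : (ZMod M)ˣ →* (↥(beta0Field A))ˣ) (hML : M ∣ M₁ * q) {dS : ℕ}
    (hdS : Nat.Coprime dS (6 * (M₁ * q))) (hψd : ∀ c, ψ c ^ dS = 1)
    (P : Place ↥(beta0Field A) ↥(modularFunctionFieldFullC ↥(beta0Field A) (M₁ * q))) :
    (dS : ℤ) ∣ P.ord (rtk6c4wsU (M₁ := M₁) (H := H) ψ hML hψd) :=
  rtk6unr_nf (beta0Field A) (M₁ * q) M H (NeZero.ne (M₁ * q)) hML dS hdS _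
    (rtk6n0Y ↥(beta0Field A) M H ψ) (rtk6n0Y_mem hML) rfl P

variable {E₁ : Type} [Field E₁] (f : ↥(beta0Field A) →+* E₁)
  [Algebra ↥(modularFunctionFieldFullC ↥(beta0Field A) (M₁ * q)) ↥(fieldC E₁ (M₁ * q) M H)]
  (halg : ∀ z : ↥(modularFunctionFieldFullC ↥(beta0Field A) (M₁ * q)),
    algebraMap ↥(modularFunctionFieldFullC ↥(beta0Field A) (M₁ * q))
      ↥(fieldC E₁ (M₁ * q) M H) z = rtk6c4fdIota f (M₁ * q) M H z)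

include halg in
/-- `y′_ψ ^ dS = u′_ψ` in `F` -/
theorem rtk6c4ws_hyu (ψ : (ZMod M)ˣ →* (↥(beta0Field A))ˣ) (hML : M ∣ M₁ * q) {dS : ℕ}
    (hψd : ∀ c, ψ c ^ dS = 1) :
    rtk6n0fY f (M₁ * q) M H ψ hML ^ dS =
      algebraMap ↥(modularFunctionFieldFullC ↥(beta0Field A) (M₁ * q))
        ↥(fieldC E₁ (M₁ * q) M H) (rtk6c4wsU (M₁ := M₁) (H := H) ψ hML hψd) := by
  rw [halg]
  exact (rtk6n0f_iota_pow f (M₁ * q) M H ψ hML _).symm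

variable [IsDiscreteValuationRing ↥(beta0Ring A (beta0Field A))]
  {π : ↥(beta0Ring A (beta0Field A))} (hπ : Irreducible π)
  (ιC : ↥(beta0Field A) →+* ℂ) (hq : q.Prime) (hqM : ¬ q ∣ M₁)

/-- **(N1′)**: `v_∞(u′_ψ) = 1` -/
theorem rtk6c4ws_hy₁ (ψ : (ZMod M)ˣ →* (↥(beta0Field A))ˣ) (hML : M ∣ M₁ * q) (hM3 : 3 ≤ M)
    (hψH : ∀ h ∈ H, ψ h = 1) (hψ1 : ψ (-1) = 1) {dS : ℕ} (hψd : ∀ c, ψ c ^ dS = 1) :
    (mgvV hπ ιC hq hqM true).valuation (rtk6c4wsU (M₁ := M₁) (H := H) ψ hML hψd) = 1 :=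
  rtk6n0_norm_inf hπ ιC hq hqM ψ hM3 hψH hψ1 dS _

/-- **(N3′)**: `ψ` trivial on the diamonds at `q` ⇒ `v_0(u′_ψ) = v_0(π) ^ n₀` with `dS ∣ n₀` -/
theorem rtk6c4ws_et (hA : A.LiesOverPrime q) (hML : M ∣ M₁ * q) (hqN : q ∣ M) (hM3 : 3 ≤ M)
    {w : fieldBar (M₁ * q) M H ≃ₐ[Qb] fieldBar (M₁ * q) M H} (hw : IsWAt (M₁ * q) M H q w)
    (ψ : (ZMod M)ˣ →* (↥(beta0Field A))ˣ)
    (hψH : ∀ h ∈ H, ψ h = 1) (hψ1 : ψ (-1) = 1) {dS : ℕ} (hqd : ¬ q ∣ dS)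
    (hψd : ∀ c, ψ c ^ dS = 1) (hψr : ∀ c : (ZMod M)ˣ, IsAtR M q c → ψ c = 1) :
    ∃ n₀ : ℤ, (dS : ℤ) ∣ n₀ ∧
      (mgvV hπ ιC hq hqM false).valuation (rtk6c4wsU (M₁ := M₁) (H := H) ψ hML hψd)
        = (mgvV hπ ιC hq hqM false).valuation
          (algebraMap ↥(beta0Ring A (beta0Field A))
            ↥(modularFunctionFieldFullC ↥(beta0Field A) (M₁ * q)) π) ^ n₀ :=
  rtk6n0_norm_zero_dvd hπ ιC hq hqM ψ hA (rtk6n0_base_assoc hπ hq hA) hML hqN hM3 hw hψH hψ1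
    hqd hψd hψr _

/-- **(N2′)**: `ψ(c₀)` of order `d` for a diamond `c₀` at `q` ⇒ `v_0(u′_ψ) = v_0(π) ^ n₀` with
`gcd (n₀, d) = 1` -/
theorem rtk6c4ws_ram (hA : A.LiesOverPrime q) (hML : M ∣ M₁ * q) (hqN : q ∣ M) (hM3 : 3 ≤ M)
    {w : fieldBar (M₁ * q) M H ≃ₐ[Qb] fieldBar (M₁ * q) M H} (hw : IsWAt (M₁ * q) M H q w)
    (ψ : (ZMod M)ˣ →* (↥(beta0Field A))ˣ)
    (hψH : ∀ h ∈ H, ψ h = 1) (hψ1 : ψ (-1) = 1) {d : ℕ} (hqd : ¬ q ∣ d)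
    (hψd : ∀ c, ψ c ^ d = 1) {c₀ : (ZMod M)ˣ} (hc₀ : IsAtR M q c₀)
    (hord : orderOf (ψ c₀) = d) :
    ∃ n₀ : ℤ,
      (mgvV hπ ιC hq hqM false).valuation (rtk6c4wsU (M₁ := M₁) (H := H) ψ hML hψd)
        = (mgvV hπ ιC hq hqM false).valuation
          (algebraMap ↥(beta0Ring A (beta0Field A))
            ↥(modularFunctionFieldFullC ↥(beta0Field A) (M₁ * q)) π) ^ n₀ ∧
      Nat.Coprime n₀.natAbs d :=
  rtk6n0_norm_zero_coprime hπ ιC hq hqM ψ hA (rtk6n0_base_assoc hπ hq hA) hML hqN hM3 hw hψH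
    hψ1 hqd hψd hc₀ hord _

include halg in
/-- **the concrete étale family**: all the hypotheses of helper74's `rtk6gi_et_family`,
`rtk6gi_cross_pack`, `rtk6gi_sm_pack` for `y i := rtk6n0fY f (M₁ q) M H (ψ′ i) hML`,
`u i := rtk6c4wsU (ψ′ i) hML _`, `m := dS`. -/
theorem rtk6c4ws_family (hA : A.LiesOverPrime q) (hML : M ∣ M₁ * q) (hqN : q ∣ M)
    (hM3 : 3 ≤ M)
    {w : fieldBar (M₁ * q) M H ≃ₐ[Qb] fieldBar (M₁ * q) M H} (hw : IsWAt (M₁ * q) M H q w)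
    {dS : ℕ} (hdS : Nat.Coprime dS (6 * (M₁ * q)))
    {ι : Type*} (ψ' : ι → ((ZMod M)ˣ →* (↥(beta0Field A))ˣ))
    (hψH : ∀ i, ∀ h ∈ H, ψ' i h = 1) (hψ1 : ∀ i, ψ' i (-1) = 1)
    (hψd : ∀ i, ∀ c, ψ' i c ^ dS = 1)
    (hψr : ∀ i, ∀ c : (ZMod M)ˣ, IsAtR M q c → ψ' i c = 1) :
    ∃ n₀ : ι → ℤ,
      (∀ i, rtk6n0fY f (M₁ * q) M H (ψ' i) hML ^ dS =
        algebraMap ↥(modularFunctionFieldFullC ↥(beta0Field A) (M₁ * q))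
          ↥(fieldC E₁ (M₁ * q) M H) (rtk6c4wsU (M₁ := M₁) (H := H) (ψ' i) hML (hψd i))) ∧
      (∀ i, rtk6c4wsU (M₁ := M₁) (H := H) (ψ' i) hML (hψd i) ≠ 0) ∧
      (∀ i, ∀ P : Place ↥(beta0Field A)
          ↥(modularFunctionFieldFullC ↥(beta0Field A) (M₁ * q)),
        (dS : ℤ) ∣ P.ord (rtk6c4wsU (M₁ := M₁) (H := H) (ψ' i) hML (hψd i))) ∧
      (∀ i, (mgvV hπ ιC hq hqM true).valuation
        (rtk6c4wsU (M₁ := M₁) (H := H) (ψ' i) hML (hψd i)) = 1) ∧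
      (∀ i, (mgvV hπ ιC hq hqM false).valuation
          (rtk6c4wsU (M₁ := M₁) (H := H) (ψ' i) hML (hψd i))
        = (mgvV hπ ιC hq hqM false).valuation
          (algebraMap ↥(beta0Ring A (beta0Field A))
            ↥(modularFunctionFieldFullC ↥(beta0Field A) (M₁ * q)) π) ^ n₀ i) ∧
      (∀ i, (dS : ℤ) ∣ n₀ i) := by
  have hqd : ¬ q ∣ dS := rtk6c4ws_not_dvd hq (Dvd.intro_left M₁ rfl) hdS
  have key := fun i => rtk6c4ws_et hπ ιC hq hqM hA hML hqN hM3 hw (ψ' i) (hψH i) (hψ1 i) hqd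
    (hψd i) (hψr i)
  choose n₀ hdvd hn₀ using key
  exact ⟨n₀, fun i => rtk6c4ws_hyu f halg (ψ' i) hML (hψd i),
    fun i => rtk6c4ws_hu (ψ' i) hML hM3 (hψH i) (hψ1 i) (hψd i),
    fun i P => rtk6c4ws_hhor (ψ' i) hML hdS (hψd i) P,
    fun i => rtk6c4ws_hy₁ hπ ιC hq hqM (ψ' i) hML hM3 (hψH i) (hψ1 i) (hψd i), hn₀, hdvd⟩

include hπ ιC hq hqM halg in
/-- **(G-et) for one character, with the normalisation**: at a closed point `𝔫₀` of the base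
chart there is `k ∈ Kˣ` with `b · (k y_ψ) ^ dS = a`, `a, b ∈ R₀ ∖ 𝔫₀`. -/
theorem rtk6c4ws_one (hA : A.LiesOverPrime q)
    (rigid : (q ≠ 2 → 4 ∣ M₁) ∧ (q = 2 → 9 ∣ M₁))
    (hML : M ∣ M₁ * q) (hqN : q ∣ M) (hM3 : 3 ≤ M)
    {w : fieldBar (M₁ * q) M H ≃ₐ[Qb] fieldBar (M₁ * q) M H} (hw : IsWAt (M₁ * q) M H q w)
    {dS : ℕ} (hdS : Nat.Coprime dS (6 * (M₁ * q)))
    (ψ : (ZMod M)ˣ →* (↥(beta0Field A))ˣ)
    (hψH : ∀ h ∈ H, ψ h = 1) (hψ1 : ψ (-1) = 1) (hψd : ∀ c, ψ c ^ dS = 1)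
    (hψr : ∀ c : (ZMod M)ˣ, IsAtR M q c → ψ c = 1)
    (𝔫₀ : AtPt (F := ↥(modularFunctionFieldFullC ↥(beta0Field A) (M₁ * q))) π
      (bgJ ↥(beta0Field A) (M₁ * q))) :
    ∃ (k : ↥(modularFunctionFieldFullC ↥(beta0Field A) (M₁ * q)))
      (a b : ↥(zchClosure (A₀ := ↥(beta0Ring A (beta0Field A)))
        ({bgJ ↥(beta0Field A) (M₁ * q)} :
          Set ↥(modularFunctionFieldFullC ↥(beta0Field A) (M₁ * q))))),
      k ≠ 0 ∧ a ∉ 𝔫₀.1 ∧ b ∉ 𝔫₀.1 ∧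
      algebraMap ↥(modularFunctionFieldFullC ↥(beta0Field A) (M₁ * q))
          ↥(fieldC E₁ (M₁ * q) M H)
          (b : ↥(modularFunctionFieldFullC ↥(beta0Field A) (M₁ * q))) *
        (algebraMap ↥(modularFunctionFieldFullC ↥(beta0Field A) (M₁ * q))
          ↥(fieldC E₁ (M₁ * q) M H) k * rtk6c4fdY f (M₁ * q) M H ψ hML) ^ dS =
      algebraMap ↥(modularFunctionFieldFullC ↥(beta0Field A) (M₁ * q))
          ↥(fieldC E₁ (M₁ * q) M H)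
          (a : ↥(modularFunctionFieldFullC ↥(beta0Field A) (M₁ * q))) := by
  have hqd : ¬ q ∣ dS := rtk6c4ws_not_dvd hq (Dvd.intro_left M₁ rfl) hdS
  obtain ⟨n₀, hdvd, hn₀⟩ := rtk6c4ws_et hπ ιC hq hqM hA hML hqN hM3 hw ψ hψH hψ1 hqd hψd hψr
  obtain ⟨γ', e₁, e₂, hγ', he₁, he₂, hpow, -⟩ :=
    rtk6gi_et_JF hπ ιC hq hqM
      (algebraMap ↥(modularFunctionFieldFullC ↥(beta0Field A) (M₁ * q))
        ↥(fieldC E₁ (M₁ * q) M H)) hA rigid dS (rtk6c4ws_hyu f halg ψ hML hψd)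
      (rtk6c4ws_hu ψ hML hM3 hψH hψ1 hψd) (fun P => rtk6c4ws_hhor ψ hML hdS hψd P)
      (rtk6c4ws_hy₁ hπ ιC hq hqM ψ hML hM3 hψH hψ1 hψd) hn₀ hdvd 𝔫₀
  refine ⟨algebraMap ↥(beta0Field A) ↥(modularFunctionFieldFullC ↥(beta0Field A) (M₁ * q))
      (((rtk6d0N M H ⊤ : ℕ) : ↥(beta0Field A))⁻¹) * γ'⁻¹, e₁, e₂,
    mul_ne_zero rtk6n0f_const_ne_zero (inv_ne_zero hγ'), he₁, he₂, ?_⟩
  have hk : algebraMap ↥(modularFunctionFieldFullC ↥(beta0Field A) (M₁ * q))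
        ↥(fieldC E₁ (M₁ * q) M H)
        (algebraMap ↥(beta0Field A) ↥(modularFunctionFieldFullC ↥(beta0Field A) (M₁ * q))
          (((rtk6d0N M H ⊤ : ℕ) : ↥(beta0Field A))⁻¹) * γ'⁻¹) *
        rtk6c4fdY f (M₁ * q) M H ψ hML =
      rtk6n0fY f (M₁ * q) M H ψ hML /
        algebraMap ↥(modularFunctionFieldFullC ↥(beta0Field A) (M₁ * q))
          ↥(fieldC E₁ (M₁ * q) M H) γ' := by
    rw [rtk6n0fY_eq_K halg hML, map_mul, map_inv₀ _ γ', div_eq_mul_inv]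
    ring
  rw [hk]
  exact hpow

include hπ ιC hq hqM halg in
/-- **the ramified generator**: the hypotheses `hz0 hhor hz₁ hn₀ hzy` of helper54's
`rtk6gxi_crossE` for `z := rtk6c4wsU ψ_r hML _`, `y := rtk6n0fY f (M₁ q) M H ψ_r hML`, with `n₀`
prime to `d` (so that `a n₀ − b d = 1` is solvable: `rtk6c4w_bezout`). -/
theorem rtk6c4ws_ram_data (hA : A.LiesOverPrime q) (hML : M ∣ M₁ * q) (hqN : q ∣ M)
    (hM3 : 3 ≤ M)
    {w : fieldBar (M₁ * q) M H ≃ₐ[Qb] fieldBar (M₁ * q) M H} (hw : IsWAt (M₁ * q) M H q w)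
    {d : ℕ} (hd : Nat.Coprime d (6 * (M₁ * q)))
    (ψ : (ZMod M)ˣ →* (↥(beta0Field A))ˣ)
    (hψH : ∀ h ∈ H, ψ h = 1) (hψ1 : ψ (-1) = 1) (hψd : ∀ c, ψ c ^ d = 1)
    {c₀ : (ZMod M)ˣ} (hc₀ : IsAtR M q c₀) (hord : orderOf (ψ c₀) = d) :
    ∃ n₀ : ℤ, Nat.Coprime n₀.natAbs d ∧
      rtk6c4wsU (M₁ := M₁) (H := H) ψ hML hψd ≠ 0 ∧
      (∀ P : Place ↥(beta0Field A) ↥(modularFunctionFieldFullC ↥(beta0Field A) (M₁ * q)),
        (d : ℤ) ∣ P.ord (rtk6c4wsU (M₁ := M₁) (H := H) ψ hML hψd)) ∧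
      (mgvV hπ ιC hq hqM true).valuation (rtk6c4wsU (M₁ := M₁) (H := H) ψ hML hψd) = 1 ∧
      (mgvV hπ ιC hq hqM false).valuation (rtk6c4wsU (M₁ := M₁) (H := H) ψ hML hψd)
        = (mgvV hπ ιC hq hqM false).valuation
          (algebraMap ↥(beta0Ring A (beta0Field A))
            ↥(modularFunctionFieldFullC ↥(beta0Field A) (M₁ * q)) π) ^ n₀ ∧
      algebraMap ↥(modularFunctionFieldFullC ↥(beta0Field A) (M₁ * q))
        ↥(fieldC E₁ (M₁ * q) M H) (rtk6c4wsU (M₁ := M₁) (H := H) ψ hML hψd)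
        = rtk6n0fY f (M₁ * q) M H ψ hML ^ d := by
  have hqd : ¬ q ∣ d := rtk6c4ws_not_dvd hq (Dvd.intro_left M₁ rfl) hd
  obtain ⟨n₀, hn₀, hcop⟩ := rtk6c4ws_ram hπ ιC hq hqM hA hML hqN hM3 hw ψ hψH hψ1 hqd hψd
    hc₀ hord
  exact ⟨n₀, hcop, rtk6c4ws_hu ψ hML hM3 hψH hψ1 hψd, fun P => rtk6c4ws_hhor ψ hML hd hψd P,
    rtk6c4ws_hy₁ hπ ιC hq hqM ψ hML hM3 hψH hψ1 hψd, hn₀,
    (rtk6c4ws_hyu f halg ψ hML hψd).symm⟩

end Base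

/-! ### at a closed point of the top chart -/

section Top

variable {A : ValuationSubring Qb} {q M₁ : ℕ} [NeZero q] [NeZero M₁] [NeZero (M₁ * q)]
  [IsDiscreteValuationRing ↥(beta0Ring A (beta0Field A))]
  {π : ↥(beta0Ring A (beta0Field A))} (hπ : Irreducible π)
  (ιC : ↥(beta0Field A) →+* ℂ) (hq : q.Prime) (hqM : ¬ q ∣ M₁)
  (K₁ : IntermediateField ℚ Qb) [NumberField ↥K₁] [IsGalois ℚ ↥K₁]
  (M : ℕ) [NeZero M] (H : Subgroup (ZMod M)ˣ)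
  (f : ↥(beta0Field A) →+* ↥(mgcE A K₁))
  (hf : ∀ a : ↥(beta0Field A), ((f a : ↥(mgcE A K₁)) : Qb) = (a : Qb))
  [Algebra ↥(modularFunctionFieldFullC ↥(beta0Field A) (M₁ * q))
    ↥(rtk6diF A K₁ (M₁ * q) M H)]
  (halg : ∀ z : ↥(modularFunctionFieldFullC ↥(beta0Field A) (M₁ * q)),
    algebraMap ↥(modularFunctionFieldFullC ↥(beta0Field A) (M₁ * q))
      ↥(rtk6diF A K₁ (M₁ * q) M H) z = rtk6c4fdIota f (M₁ * q) M H z)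
  (hA : A.LiesOverPrime q) {d : ℕ} (hd0 : d ≠ 0) {ϖ : ↥(mgcA A K₁)}
  (hϖd : ϖ ^ d =
    beta0RingIncl (A := A) (le_sup_left : beta0Field A ≤ beta0Field A ⊔ K₁) π)

include hπ ιC hq hqM hA hd0 hϖd in
/-- **C4-χ-WIRE, the field `hSet`** (exponent `dS`) at a closed point `𝔫` of the top chart, in
the shape of helper54's `rtk6gxi_crossE`, for `S = {k_i · y_{ψ′_i}}` (the shape of helper70's
`rtk6c4w_fields`, which gives `hS`, `hgen`, `hσS`, `hδS` for these `k_i`). -/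
theorem rtk6c4ws_hSet (rigid : (q ≠ 2 → 4 ∣ M₁) ∧ (q = 2 → 9 ∣ M₁))
    (hML : M ∣ M₁ * q) (hqN : q ∣ M) (hM3 : 3 ≤ M)
    {w : fieldBar (M₁ * q) M H ≃ₐ[Qb] fieldBar (M₁ * q) M H} (hw : IsWAt (M₁ * q) M H q w)
    {dS : ℕ} (hdS : Nat.Coprime dS (6 * (M₁ * q)))
    {ι : Type*} (ψ' : ι → ((ZMod M)ˣ →* (↥(beta0Field A))ˣ))
    (hψH : ∀ i, ∀ h ∈ H, ψ' i h = 1) (hψ1 : ∀ i, ψ' i (-1) = 1)
    (hψd : ∀ i, ∀ c, ψ' i c ^ dS = 1)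
    (hψr : ∀ i, ∀ c : (ZMod M)ˣ, IsAtR M q c → ψ' i c = 1)
    (𝔫 : AtPt (F := ↥(rtk6diF A K₁ (M₁ * q) M H)) ϖ (rtk6diT A K₁ (M₁ * q) M H)) :
    ∃ k : ι → ↥(modularFunctionFieldFullC ↥(beta0Field A) (M₁ * q)), (∀ i, k i ≠ 0) ∧
      ∀ t ∈ Set.range (fun i =>
          algebraMap ↥(modularFunctionFieldFullC ↥(beta0Field A) (M₁ * q))
            ↥(rtk6diF A K₁ (M₁ * q) M H) (k i) * rtk6c4fdY f (M₁ * q) M H (ψ' i) hML),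
        ∃ a b : ↥(zchClosure (A₀ := ↥(beta0Ring A (beta0Field A)))
            ({bgJ ↥(beta0Field A) (M₁ * q)} :
              Set ↥(modularFunctionFieldFullC ↥(beta0Field A) (M₁ * q)))),
          rtk6gxiJ K₁ M H f hf halg a ∉ 𝔫.1 ∧ rtk6gxiJ K₁ M H f hf halg b ∉ 𝔫.1 ∧
          algebraMap ↥(zchClosure (A₀ := ↥(beta0Ring A (beta0Field A)))
            ({bgJ ↥(beta0Field A) (M₁ * q)} :
              Set ↥(modularFunctionFieldFullC ↥(beta0Field A) (M₁ * q))))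
            ↥(rtk6diF A K₁ (M₁ * q) M H) b * t ^ dS =
          algebraMap ↥(zchClosure (A₀ := ↥(beta0Ring A (beta0Field A)))
            ({bgJ ↥(beta0Field A) (M₁ * q)} :
              Set ↥(modularFunctionFieldFullC ↥(beta0Field A) (M₁ * q))))
            ↥(rtk6diF A K₁ (M₁ * q) M H) a := by
  have key := fun i => rtk6c4ws_one f halg hπ ιC hq hqM hA rigid hML hqN hM3 hw hdS (ψ' i)
    (hψH i) (hψ1 i) (hψd i) (hψr i) (rtk6gxiPt hq K₁ M H f hf halg hA hd0 hϖd 𝔫)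
  choose k a b hk ha hb hpow using key
  refine ⟨k, hk, ?_⟩
  rintro t ⟨i, rfl⟩
  exact ⟨a i, b i, ha i, hb i, hpow i⟩

include hπ ιC hq hqM hA hd0 hϖd in
/-- the same for the family of PSI (`Rtk6psiIsFam`, `Psi.lean`) -/
theorem rtk6c4ws_hSet_fam (rigid : (q ≠ 2 → 4 ∣ M₁) ∧ (q = 2 → 9 ∣ M₁))
    (hML : M ∣ M₁ * q) (hqN : q ∣ M) (hM3 : 3 ≤ M)
    {w : fieldBar (M₁ * q) M H ≃ₐ[Qb] fieldBar (M₁ * q) M H} (hw : IsWAt (M₁ * q) M H q w)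
    {dS : ℕ} (hdS : Nat.Coprime dS (6 * (M₁ * q)))
    {ι : Type*} (ψ' : ι → ((ZMod M)ˣ →* (↥(beta0Field A))ˣ))
    (hfam : Rtk6psiIsFam ↥(beta0Field A) M q dS H ψ')
    (𝔫 : AtPt (F := ↥(rtk6diF A K₁ (M₁ * q) M H)) ϖ (rtk6diT A K₁ (M₁ * q) M H)) :
    ∃ k : ι → ↥(modularFunctionFieldFullC ↥(beta0Field A) (M₁ * q)), (∀ i, k i ≠ 0) ∧
      ∀ t ∈ Set.range (fun i =>
          algebraMap ↥(modularFunctionFieldFullC ↥(beta0Field A) (M₁ * q))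
            ↥(rtk6diF A K₁ (M₁ * q) M H) (k i) * rtk6c4fdY f (M₁ * q) M H (ψ' i) hML),
        ∃ a b : ↥(zchClosure (A₀ := ↥(beta0Ring A (beta0Field A)))
            ({bgJ ↥(beta0Field A) (M₁ * q)} :
              Set ↥(modularFunctionFieldFullC ↥(beta0Field A) (M₁ * q)))),
          rtk6gxiJ K₁ M H f hf halg a ∉ 𝔫.1 ∧ rtk6gxiJ K₁ M H f hf halg b ∉ 𝔫.1 ∧
          algebraMap ↥(zchClosure (A₀ := ↥(beta0Ring A (beta0Field A)))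
            ({bgJ ↥(beta0Field A) (M₁ * q)} :
              Set ↥(modularFunctionFieldFullC ↥(beta0Field A) (M₁ * q))))
            ↥(rtk6diF A K₁ (M₁ * q) M H) b * t ^ dS =
          algebraMap ↥(zchClosure (A₀ := ↥(beta0Ring A (beta0Field A)))
            ({bgJ ↥(beta0Field A) (M₁ * q)} :
              Set ↥(modularFunctionFieldFullC ↥(beta0Field A) (M₁ * q))))
            ↥(rtk6diF A K₁ (M₁ * q) M H) a :=
  rtk6c4ws_hSet hπ ιC hq hqM K₁ M H f hf halg hA hd0 hϖd rigid hML hqN hM3 hw hdS ψ'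
    hfam.map_H hfam.map_neg_one hfam.pow_d hfam.map_atR 𝔫

end Top

end Fermat.Agent.RT.K6

end
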