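/-
K-machine, piece K6, piece GEN-inst (helper74), part 5: the PACKS on the chart `j` — the fields
`hS`, `hSet`, `hgen` (and `hσS`, `hδS`) of `Rtk6c4Cross(E)` (C4Abs.lean) and of `Rtk6c4Sm`
(C4SmR0.lean) at one closed point `𝔫` of the chart `j`, from

* the étale family `y_i ^ m = u_i` (`ψ′_i` trivial at `r`: `m ∣ n₀ i`),
* the ramified generator `y ^ m' = u` (`ψ_r`: `a n₀ − b m' = 1`), `ϖ₁ ^ m' = π`, `m' ∣ m`,
* (F1) `F = K[Y]`, `Y ⊆ {ϖ₁, y} ∪ {y_i}`.

`rtk6gi_cross_pack` : `∃ S`, `S.Finite`, `hSet` (exponent `m`), `K[S ∪ T] = ⊤`, `σ|S = id`.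
`rtk6gi_sm_pack`    : at a point which is not a crossing point: `∃ S`, `S.Finite`, `hSet`
                      (exponent `m`), `K[{ϖ₁} ∪ S] = ⊤`.
-/
import Fermat.Agent.RT.K6.GenInstEt
import Fermat.Agent.RT.K6.GenInstGenAbs

set_option autoImplicit false
set_option linter.style.haveILetI false
set_option linter.unusedSectionVars false
set_option linter.unusedVariables false
set_option linter.style.longLine false
set_option synthInstance.maxHeartbeats 400000
set_option maxHeartbeats 4000000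

noncomputable section

namespace Fermat.Agent.RT.K6

open ModularCurve Polynomial IntermediateField Fermat.Agent.INJ Fermat.Agent.AL AlgebraicCurve
open Fermat.Agent.ES Fermat.Agent.ES.G2 Fermat.Agent.STB Fermat.Agent.UNIP Fermat.Agent.S36
open Fermat.Agent.RIB.MP

section Base

variable {A : ValuationSubring Qb} {q M : ℕ} [NeZero q] [NeZero M] [NeZero (M * q)]
  [IsDiscreteValuationRing ↥(beta0Ring A (beta0Field A))]
  {π : ↥(beta0Ring A (beta0Field A))} (hπ : Irreducible π)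
  (ιC : ↥(beta0Field A) →+* ℂ) (hq : q.Prime) (hqM : ¬ q ∣ M)

variable {F : Type*} [Field F] [Algebra ↥(modularFunctionFieldFullC ↥(beta0Field A) (M * q)) F]

include hπ ιC hq hqM in
/-- **the étale pack at ANY closed point of the chart `j`** (crossing or not): the fields `hS`,
`hSet`, `hgen`, `hσS`/`hδS` of `Rtk6c4Cross(E)`. -/
theorem rtk6gi_cross_pack (hA : A.LiesOverPrime q)
    (rigid : (q ≠ 2 → 4 ∣ M) ∧ (q = 2 → 9 ∣ M))
    (m : ℕ) {ι : Type*} [Finite ι] (y : ι → F)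
    (u : ι → ↥(modularFunctionFieldFullC ↥(beta0Field A) (M * q))) (n₀ : ι → ℤ)
    (hyu : ∀ i, y i ^ m = algebraMap ↥(modularFunctionFieldFullC ↥(beta0Field A) (M * q)) F (u i))
    (hu : ∀ i, u i ≠ 0)
    (hhor : ∀ i, ∀ P : Place ↥(beta0Field A) ↥(modularFunctionFieldFullC ↥(beta0Field A) (M * q)),
      (m : ℤ) ∣ P.ord (u i))
    (hy₁ : ∀ i, (mgvV hπ ιC hq hqM true).valuation (u i) = 1)
    (hn₀ : ∀ i, (mgvV hπ ιC hq hqM false).valuation (u i) =
      (mgvV hπ ιC hq hqM false).valuation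
        (algebraMap ↥(beta0Ring A (beta0Field A))
          ↥(modularFunctionFieldFullC ↥(beta0Field A) (M * q)) π) ^ n₀ i)
    (hdvd : ∀ i, (m : ℤ) ∣ n₀ i)
    (T Y : Set F) (hY : ∀ z ∈ Y, z ∈ T ∨ ∃ i, z = y i)
    (hF1 : Algebra.adjoin ↥(modularFunctionFieldFullC ↥(beta0Field A) (M * q)) Y = ⊤)
    (𝔫 : AtPt (F := ↥(modularFunctionFieldFullC ↥(beta0Field A) (M * q))) π
      (bgJ ↥(beta0Field A) (M * q))) :
    ∃ S : Set F, S.Finite ∧
      (∀ t ∈ S, ∃ a b : ↥(zchClosure (A₀ := ↥(beta0Ring A (beta0Field A)))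
          ({bgJ ↥(beta0Field A) (M * q)} :
            Set ↥(modularFunctionFieldFullC ↥(beta0Field A) (M * q)))),
        a ∉ 𝔫.1 ∧ b ∉ 𝔫.1 ∧
        algebraMap ↥(modularFunctionFieldFullC ↥(beta0Field A) (M * q)) F
            (b : ↥(modularFunctionFieldFullC ↥(beta0Field A) (M * q))) * t ^ m =
          algebraMap ↥(modularFunctionFieldFullC ↥(beta0Field A) (M * q)) F
            (a : ↥(modularFunctionFieldFullC ↥(beta0Field A) (M * q)))) ∧
      Algebra.adjoin ↥(modularFunctionFieldFullC ↥(beta0Field A) (M * q)) (S ∪ T) = ⊤ ∧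
      (∀ σ : F ≃ₐ[↥(modularFunctionFieldFullC ↥(beta0Field A) (M * q))] F,
        (∀ i, σ (y i) = y i) → ∀ t ∈ S, σ t = t) ∧
      (∀ t ∈ S, ∃ i, ∃ c : ↥(modularFunctionFieldFullC ↥(beta0Field A) (M * q)), c ≠ 0 ∧
        t = y i / algebraMap ↥(modularFunctionFieldFullC ↥(beta0Field A) (M * q)) F c) ∧
      (∀ i, ∃ t ∈ S, ∃ c : ↥(modularFunctionFieldFullC ↥(beta0Field A) (M * q)), c ≠ 0 ∧
        y i = algebraMap ↥(modularFunctionFieldFullC ↥(beta0Field A) (M * q)) F c * t) := by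
  obtain ⟨S, hS, hSet, hSy, hyS⟩ := rtk6gi_et_family hπ ιC hq hqM
    (algebraMap ↥(modularFunctionFieldFullC ↥(beta0Field A) (M * q)) F) hA rigid m y u n₀
    hyu hu hhor hy₁ hn₀ hdvd 𝔫
  refine ⟨S, hS, hSet, ?_, ?_, hSy, hyS⟩
  · refine rtk6gi_hgen_cross_abs y S T Y (fun i => ?_) hY hF1
    obtain ⟨t, ht, c, -, hc⟩ := hyS i
    exact ⟨t, ht, c, hc⟩
  · intro σ hσ
    exact rtk6gi_fix_set y S hSy σ hσ

include hπ ιC hq hqM in
/-- **the smooth pack**: at a closed point `𝔫` of the chart `j` which is NOT a crossing point,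
the fields `hS`, `hSet` (exponent `m`), `hgen` of `Rtk6c4Sm`: `F = K[{ϖ₁} ∪ S]`, every
`t ∈ S` with `φ b · t ^ m = φ a`, `a, b ∈ R₀ ∖ 𝔫`.  The étale family has exponent `m`, the
ramified generator `y` and `ϖ₁` have exponent `m' ∣ m`. -/
theorem rtk6gi_sm_pack (hA : A.LiesOverPrime q)
    (rigid : (q ≠ 2 → 4 ∣ M) ∧ (q = 2 → 9 ∣ M))
    (m : ℕ) {ι : Type*} [Finite ι] (y : ι → F)
    (u : ι → ↥(modularFunctionFieldFullC ↥(beta0Field A) (M * q))) (n₀ : ι → ℤ)
    (hyu : ∀ i, y i ^ m = algebraMap ↥(modularFunctionFieldFullC ↥(beta0Field A) (M * q)) F (u i))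
    (hu : ∀ i, u i ≠ 0)
    (hhor : ∀ i, ∀ P : Place ↥(beta0Field A) ↥(modularFunctionFieldFullC ↥(beta0Field A) (M * q)),
      (m : ℤ) ∣ P.ord (u i))
    (hy₁ : ∀ i, (mgvV hπ ιC hq hqM true).valuation (u i) = 1)
    (hn₀ : ∀ i, (mgvV hπ ιC hq hqM false).valuation (u i) =
      (mgvV hπ ιC hq hqM false).valuation
        (algebraMap ↥(beta0Ring A (beta0Field A))
          ↥(modularFunctionFieldFullC ↥(beta0Field A) (M * q)) π) ^ n₀ i)
    (hdvd : ∀ i, (m : ℤ) ∣ n₀ i)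
    -- the ramified generator
    (m' : ℕ) (hm' : m' ∣ m) {yr ϖ₁ : F}
    {ur : ↥(modularFunctionFieldFullC ↥(beta0Field A) (M * q))}
    (hyur : yr ^ m' = algebraMap ↥(modularFunctionFieldFullC ↥(beta0Field A) (M * q)) F ur)
    (hur : ur ≠ 0)
    (hhorr : ∀ P : Place ↥(beta0Field A) ↥(modularFunctionFieldFullC ↥(beta0Field A) (M * q)),
      (m' : ℤ) ∣ P.ord ur)
    (hyr₁ : (mgvV hπ ιC hq hqM true).valuation ur = 1) {nr : ℤ}
    (hnr : (mgvV hπ ιC hq hqM false).valuation ur = (mgvV hπ ιC hq hqM false).valuation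
      (algebraMap ↥(beta0Ring A (beta0Field A))
        ↥(modularFunctionFieldFullC ↥(beta0Field A) (M * q)) π) ^ nr)
    {a b : ℤ} (hab : a * nr - b * m' = 1)
    (hϖ : ϖ₁ ^ m' = algebraMap ↥(modularFunctionFieldFullC ↥(beta0Field A) (M * q)) F
      (algebraMap ↥(beta0Ring A (beta0Field A))
        ↥(modularFunctionFieldFullC ↥(beta0Field A) (M * q)) π))
    -- (F1)
    (Y : Set F) (hY : ∀ z ∈ Y, z = ϖ₁ ∨ z = yr ∨ ∃ i, z = y i)
    (hF1 : Algebra.adjoin ↥(modularFunctionFieldFullC ↥(beta0Field A) (M * q)) Y = ⊤)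
    (𝔫 : AtPt (F := ↥(modularFunctionFieldFullC ↥(beta0Field A) (M * q))) π
      (bgJ ↥(beta0Field A) (M * q)))
    (hnc : ¬ (atThrough 𝔫 (mgvV hπ ιC hq hqM true) ∧ atThrough 𝔫 (mgvV hπ ιC hq hqM false))) :
    ∃ S : Set F, S.Finite ∧
      (∀ t ∈ S, ∃ a b : ↥(zchClosure (A₀ := ↥(beta0Ring A (beta0Field A)))
          ({bgJ ↥(beta0Field A) (M * q)} :
            Set ↥(modularFunctionFieldFullC ↥(beta0Field A) (M * q)))),
        a ∉ 𝔫.1 ∧ b ∉ 𝔫.1 ∧
        algebraMap ↥(modularFunctionFieldFullC ↥(beta0Field A) (M * q)) F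
            (b : ↥(modularFunctionFieldFullC ↥(beta0Field A) (M * q))) * t ^ m =
          algebraMap ↥(modularFunctionFieldFullC ↥(beta0Field A) (M * q)) F
            (a : ↥(modularFunctionFieldFullC ↥(beta0Field A) (M * q)))) ∧
      Algebra.adjoin ↥(modularFunctionFieldFullC ↥(beta0Field A) (M * q)) ({ϖ₁} ∪ S) = ⊤ := by
  haveI := 𝔫.2.1.isPrime
  have hπ0 : algebraMap ↥(beta0Ring A (beta0Field A))
      ↥(modularFunctionFieldFullC ↥(beta0Field A) (M * q)) π ≠ 0 := ribmp_fc_hπ0 hπ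
  have hne : ∀ e : ↥(zchClosure (A₀ := ↥(beta0Ring A (beta0Field A)))
      ({bgJ ↥(beta0Field A) (M * q)} :
        Set ↥(modularFunctionFieldFullC ↥(beta0Field A) (M * q)))), e ∉ 𝔫.1 →
      (e : ↥(modularFunctionFieldFullC ↥(beta0Field A) (M * q))) ≠ 0 := fun e he h0 =>
    he ((Subtype.ext h0 : e = 0) ▸ 𝔫.1.zero_mem)
  obtain ⟨S, hS, hSet, hSy, hyS⟩ := rtk6gi_et_family hπ ιC hq hqM
    (algebraMap ↥(modularFunctionFieldFullC ↥(beta0Field A) (M * q)) F) hA rigid m y u n₀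
    hyu hu hhor hy₁ hn₀ hdvd 𝔫
  obtain ⟨t, a', b', c, ha', hb', ht, hc, hcase⟩ := rtk6gi_sm_JF hπ ιC hq hqM
    (algebraMap ↥(modularFunctionFieldFullC ↥(beta0Field A) (M * q)) F) hA rigid m' hyur hur
    hhorr hyr₁ hnr hab hϖ 𝔫 hnc
  have hm'0 : 0 < m' := by
    rcases Nat.eq_zero_or_pos m' with h0 | h0
    · exfalso
      subst h0
      rw [pow_zero] at hϖ
      have h1 : algebraMap ↥(beta0Ring A (beta0Field A))
          ↥(modularFunctionFieldFullC ↥(beta0Field A) (M * q)) π = 1 :=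
        (algebraMap ↥(modularFunctionFieldFullC ↥(beta0Field A) (M * q)) F).injective
          (by rw [← hϖ, map_one])
      have h3 := mgv_hπV hπ ιC hq hqM false
      rw [h1, ValuationSubring.mem_nonunits_iff, map_one] at h3
      exact lt_irrefl _ h3
    · exact h0
  refine ⟨S ∪ {t}, hS.union (Set.finite_singleton t), ?_, ?_⟩
  · rintro s (hs | hs)
    · exact hSet s hs
    · rw [Set.mem_singleton_iff.1 hs]
      exact rtk6gi_pow_unify
        ((algebraMap ↥(modularFunctionFieldFullC ↥(beta0Field A) (M * q)) F).comp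
          (zchClosure (A₀ := ↥(beta0Ring A (beta0Field A)))
            ({bgJ ↥(beta0Field A) (M * q)} :
              Set ↥(modularFunctionFieldFullC ↥(beta0Field A) (M * q)))).subtype)
        𝔫.1 hm' ha' hb' ht
  · refine rtk6gi_hgen_sm_abs y S Y (fun i => ?_) hY hF1 ?_
    · obtain ⟨s, hs, c', -, hc'⟩ := hyS i
      exact ⟨s, hs, c', hc'⟩
    · rcases hcase with ⟨-, h⟩ | ⟨-, h⟩
      · exact Or.inl ⟨c, h⟩
      · refine Or.inr ⟨c, (a' : ↥(modularFunctionFieldFullC ↥(beta0Field A) (M * q))) /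
          (b' : ↥(modularFunctionFieldFullC ↥(beta0Field A) (M * q))) *
          algebraMap ↥(beta0Ring A (beta0Field A))
            ↥(modularFunctionFieldFullC ↥(beta0Field A) (M * q)) π, nr, m', hm'0,
          mul_ne_zero (div_ne_zero (hne a' ha') (hne b' hb')) hπ0, ?_, h⟩
        have hb'F : algebraMap ↥(modularFunctionFieldFullC ↥(beta0Field A) (M * q)) F
            (b' : ↥(modularFunctionFieldFullC ↥(beta0Field A) (M * q))) ≠ 0 :=
          (_root_.map_ne_zero _).2 (hne b' hb')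
        rw [mul_pow, hϖ, map_mul, map_div₀, ← ht, mul_comm
          (algebraMap ↥(modularFunctionFieldFullC ↥(beta0Field A) (M * q)) F
            (b' : ↥(modularFunctionFieldFullC ↥(beta0Field A) (M * q)))) (t ^ m'),
          mul_div_assoc, div_self hb'F, mul_one]

end Base

end Fermat.Agent.RT.K6

end
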