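/-
K-machine, piece K6, piece C4-χ-ASM, **the discharge of `hcr`** (helper54): at the thin level
`K₁ = rtk6ebK q d_q` (`d_q = rtk6psiDr M q H`, `ϖ ^ d_q = q`) the crossing alternative of
helper94's `rtk6c4aj_plusAt` (`C4AsmJ.lean`), LITERALLY: at a closed point `𝔫` of the chart `j`
of `F₁ = rtk6diF A K₁ (M₁ q) M H` over a crossing point `𝔫₀ = 𝔫 ∩ R₀` of the chart `j` of the
`Γ₀`-field `K`, the datum `Rtk6c4CrossE`, the positions of `X₀`, `Y₀` and the conditions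
`Rtk6c4aAut` on the elements of `𝒢`.

Inputs: PSI (`Psi.lean`, helper5), N0 + D-unr through `C4ChiWireS.lean` (helper98, helper6,
helper74), WIRE (`C4ChiWireGen.lean`, helper70), the packs (`GenInstGen.lean`, helper74),
(G-cross) (`GenCrossInst.lean`).  (T2) is a hypothesis, on the UNNORMALISED generators
`y_ψ = rtk6c4fdY`, and is transported by `Rtk6c4aAut.rescale` (helper94).

* `rtk6c4ac_exists_root` : `ℚ̄^I` contains a primitive `d`-th root of unity, `q ∤ d`;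
* `rtk6c4ac_psi`         : PSI over `E₀ = ℚ̄^I` from `IsTameAt`;
* `rtk6c4ac_hcr_of`      : `hcr` for GIVEN characters `ψ_r`, `ψ′_i`;
* **`rtk6c4ac_hcr`**     : `hcr` from `IsStarStable` + `IsTameAt`, (T2) for all characters.
-/
import Fermat.Agent.RT.K6.C4Asm
import Fermat.Agent.RT.K6.GenCrossInst
import Fermat.Agent.RT.K6.C4ChiWireGen
import Fermat.Agent.RT.K6.C4ChiWireS
import Fermat.Agent.RT.K6.GenInstGen
import Fermat.Agent.RT.K6.N0Final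

set_option autoImplicit false
set_option linter.style.haveILetI false
set_option linter.unusedSectionVars false
set_option linter.unusedVariables false
set_option linter.style.longLine false
set_option synthInstance.maxHeartbeats 400000
set_option maxHeartbeats 4000000

noncomputable section

namespace Fermat.Agent.RT.K6

open ModularCurve Polynomial IntermediateField Fermat.Agent.INJ Fermat.Agent.AL AlgebraicCurve
open Fermat.Agent.ES Fermat.Agent.ES.G2 Fermat.Agent.STB Fermat.Agent.UNIP Fermat.Agent.S36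
open Fermat.Agent.RIB.MP Fermat.Agent.ES1 Fermat.Agent.ES1.G2

section Psi

variable {A : ValuationSubring Qb} {q : ℕ}

/-- `ℚ̄^I` contains a primitive `d`-th root of unity, `q ∤ d` -/
theorem rtk6c4ac_exists_root (hq : q.Prime) (hA : A.LiesOverPrime q) {d : ℕ} (hd0 : d ≠ 0)
    (hqd : ¬ q ∣ d) : ∃ ζ : ↥(beta0Field A), IsPrimitiveRoot ζ d := by
  obtain ⟨ζ, hζ⟩ := beta0Ring_exists_primitiveRoot (A := A) (K₀ := beta0Field A) le_rfl hd0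
    (rtk6n0_nat_unit hq hA hqd)
  exact ⟨(ζ : ↥(beta0Field A)), hζ.map_of_injective
    (f := (beta0Ring A (beta0Field A)).subtype) Subtype.val_injective⟩

/-- **PSI over `E₀ = ℚ̄^I`**, from `IsStarStable` and `IsTameAt`. -/
theorem rtk6c4ac_psi (hq : q.Prime) (hA : A.LiesOverPrime q) {L M : ℕ} [NeZero M]
    {H : Subgroup (ZMod M)ˣ} (hqL : q ∣ L) (hqM : q ∣ M) (hq2 : ¬ q ^ 2 ∣ M)
    (hstar : IsStarStable M q H) (htame : IsTameAt L M q H) :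
    ∃ dS : ℕ, Nat.Coprime dS (6 * L) ∧ dS ≠ 0 ∧ rtk6psiDr M q H ∣ dS ∧
      ∃ (ψr : (ZMod M)ˣ →* (↥(beta0Field A))ˣ) (k : ℕ)
        (ψ' : Fin k → ((ZMod M)ˣ →* (↥(beta0Field A))ˣ)),
        Rtk6psiIsR ↥(beta0Field A) M q H ψr ∧ Rtk6psiIsFam ↥(beta0Field A) M q dS H ψ' := by
  obtain ⟨d, hcop, hd⟩ := htame
  have hd0 : d ≠ 0 := rtk6psi_ne_zero_of_coprime hcop
  have hqd : ¬ q ∣ d := rtk6c4ws_not_dvd hq hqL hcop
  exact ⟨d, hcop, hd0, rtk6psiDr_dvd_of_forall hd,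
    rtk6psi_exists ↥(beta0Field A) hq hqM hq2 hstar hcop hd
      (rtk6c4ac_exists_root hq hA hd0 hqd)⟩

end Psi

section Cr

variable {A : ValuationSubring Qb} {q M₁ : ℕ} [NeZero q] [NeZero M₁] [NeZero (M₁ * q)]
  [IsDiscreteValuationRing ↥(beta0Ring A (beta0Field A))]
  {π : ↥(beta0Ring A (beta0Field A))} (hπ : Irreducible π)
  (ιC : ↥(beta0Field A) →+* ℂ) (hq : q.Prime) (hqM : ¬ q ∣ M₁)
  (M : ℕ) [NeZero M] (H : Subgroup (ZMod M)ˣ)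
  [IsDiscreteValuationRing ↥(mgcA A (rtk6ebK q (rtk6psiDr M q H)))]
  (f : ↥(beta0Field A) →+* ↥(mgcE A (rtk6ebK q (rtk6psiDr M q H))))
  (hf : ∀ a : ↥(beta0Field A),
    ((f a : ↥(mgcE A (rtk6ebK q (rtk6psiDr M q H)))) : Qb) = (a : Qb))
  [Algebra ↥(modularFunctionFieldFullC ↥(beta0Field A) (M₁ * q))
    ↥(rtk6diF A (rtk6ebK q (rtk6psiDr M q H)) (M₁ * q) M H)]
  (halg : ∀ z : ↥(modularFunctionFieldFullC ↥(beta0Field A) (M₁ * q)),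
    algebraMap ↥(modularFunctionFieldFullC ↥(beta0Field A) (M₁ * q))
      ↥(rtk6diF A (rtk6ebK q (rtk6psiDr M q H)) (M₁ * q) M H) z
        = rtk6c4fdIota f (M₁ * q) M H z)
  (hA : A.LiesOverPrime q) (hd0 : rtk6psiDr M q H ≠ 0)
  {ϖ : ↥(mgcA A (rtk6ebK q (rtk6psiDr M q H)))}
  (hϖd : ϖ ^ rtk6psiDr M q H =
    beta0RingIncl (A := A)
      (le_sup_left : beta0Field A ≤ beta0Field A ⊔ rtk6ebK q (rtk6psiDr M q H)) π)

include hπ ιC hqM in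
/-- **the discharge of `hcr`, chart `j`, for given characters `ψ_r`, `ψ′_i`.** -/
theorem rtk6c4ac_hcr_of (rigid : (q ≠ 2 → 4 ∣ M₁) ∧ (q = 2 → 9 ∣ M₁))
    (hϖq : ϖ ^ rtk6psiDr M q H = ((q : ℕ) : ↥(mgcA A (rtk6ebK q (rtk6psiDr M q H)))))
    (hqN : q ∣ M) (hML : M ∣ M₁ * q) (hM3 : 3 ≤ M) (hstar : IsStarStable M q H)
    {dS : ℕ} (hdS : Nat.Coprime dS (6 * (M₁ * q))) (hdS0 : dS ≠ 0)
    (hdr : rtk6psiDr M q H ∣ dS)
    {ψr : (ZMod M)ˣ →* (↥(beta0Field A))ˣ} (hψr : Rtk6psiIsR ↥(beta0Field A) M q H ψr)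
    {k : ℕ} {ψ' : Fin k → ((ZMod M)ˣ →* (↥(beta0Field A))ˣ)}
    (hfam : Rtk6psiIsFam ↥(beta0Field A) M q dS H ψ')
    (𝒢 : Set (SemilinearAut ↥(mgcE A (rtk6ebK q (rtk6psiDr M q H)))
      ↥(rtk6diF A (rtk6ebK q (rtk6psiDr M q H)) (M₁ * q) M H)))
    (hT2 : ∀ g ∈ 𝒢, Rtk6c4aAut
      ↥(zchClosure (A₀ := ↥(beta0Ring A (beta0Field A)))
        ({bgJ ↥(beta0Field A) (M₁ * q)} :
          Set ↥(modularFunctionFieldFullC ↥(beta0Field A) (M₁ * q))))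
      ↥(modularFunctionFieldFullC ↥(beta0Field A) (M₁ * q)) ϖ
      (rtk6diT A (rtk6ebK q (rtk6psiDr M q H)) (M₁ * q) M H)
      (Set.range fun i => rtk6c4fdY f (M₁ * q) M H (ψ' i) hML)
      (rtk6c4fdY f (M₁ * q) M H ψr hML) g)
    (𝔫 : AtPt (F := ↥(rtk6diF A (rtk6ebK q (rtk6psiDr M q H)) (M₁ * q) M H)) ϖ
      (rtk6diT A (rtk6ebK q (rtk6psiDr M q H)) (M₁ * q) M H))
    (h₁ : atThrough (rtk6gxiPt hq (rtk6ebK q (rtk6psiDr M q H)) M H f hf halg hA hd0 hϖd 𝔫)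
      (mgvV hπ ιC hq hqM true))
    (h₂ : atThrough (rtk6gxiPt hq (rtk6ebK q (rtk6psiDr M q H)) M H f hf halg hA hd0 hϖd 𝔫)
      (mgvV hπ ιC hq hqM false)) :
    ∃ (d' dS : ℕ) (ζ X Y w e₁ e₂ : ↥(zchClosure (A₀ := ↥(beta0Ring A (beta0Field A)))
        ({bgJ ↥(beta0Field A) (M₁ * q)} :
          Set ↥(modularFunctionFieldFullC ↥(beta0Field A) (M₁ * q)))))
      (S : Set ↥(rtk6diF A (rtk6ebK q (rtk6psiDr M q H)) (M₁ * q) M H))
      (y : ↥(rtk6diF A (rtk6ebK q (rtk6psiDr M q H)) (M₁ * q) M H))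
      (γ : ↥(modularFunctionFieldFullC ↥(beta0Field A) (M₁ * q))) (n₀ a b : ℤ)
      (σ δ : ↥(rtk6diF A (rtk6ebK q (rtk6psiDr M q H)) (M₁ * q) M H)
        ≃ₐ[↥(modularFunctionFieldFullC ↥(beta0Field A) (M₁ * q))]
        ↥(rtk6diF A (rtk6ebK q (rtk6psiDr M q H)) (M₁ * q) M H)),
      Rtk6c4CrossE (rtk6gxiJ (rtk6ebK q (rtk6psiDr M q H)) M H f hf halg)
        (algebraMap ↥(zchClosure (A₀ := ↥(mgcA A (rtk6ebK q (rtk6psiDr M q H))))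
          ({rtk6diT A (rtk6ebK q (rtk6psiDr M q H)) (M₁ * q) M H} :
            Set ↥(rtk6diF A (rtk6ebK q (rtk6psiDr M q H)) (M₁ * q) M H)))
          ↥(rtk6diF A (rtk6ebK q (rtk6psiDr M q H)) (M₁ * q) M H)) 𝔫.1 d' dS ζ
        (algebraMap ↥(beta0Ring A (beta0Field A))
          ↥(zchClosure (A₀ := ↥(beta0Ring A (beta0Field A)))
            ({bgJ ↥(beta0Field A) (M₁ * q)} :
              Set ↥(modularFunctionFieldFullC ↥(beta0Field A) (M₁ * q)))) π) X Y w S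
        (algebraMap ↥(mgcA A (rtk6ebK q (rtk6psiDr M q H)))
          ↥(rtk6diF A (rtk6ebK q (rtk6psiDr M q H)) (M₁ * q) M H) ϖ) y γ e₁ e₂ n₀ a b σ δ ∧
      (X : ↥(modularFunctionFieldFullC ↥(beta0Field A) (M₁ * q))) ∈
        (mgvV hπ ιC hq hqM true).nonunits ∧
      (Y : ↥(modularFunctionFieldFullC ↥(beta0Field A) (M₁ * q))) ∉
        (mgvV hπ ιC hq hqM true).nonunits ∧
      (Y : ↥(modularFunctionFieldFullC ↥(beta0Field A) (M₁ * q))) ∈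
        (mgvV hπ ιC hq hqM false).nonunits ∧
      (X : ↥(modularFunctionFieldFullC ↥(beta0Field A) (M₁ * q))) ∉
        (mgvV hπ ιC hq hqM false).nonunits ∧
      ∀ g ∈ 𝒢, Rtk6c4aAut
        ↥(zchClosure (A₀ := ↥(beta0Ring A (beta0Field A)))
          ({bgJ ↥(beta0Field A) (M₁ * q)} :
            Set ↥(modularFunctionFieldFullC ↥(beta0Field A) (M₁ * q))))
        ↥(modularFunctionFieldFullC ↥(beta0Field A) (M₁ * q)) ϖ
        (rtk6diT A (rtk6ebK q (rtk6psiDr M q H)) (M₁ * q) M H) S y g := by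
  have hL : M₁ * q ≠ 0 := NeZero.ne (M₁ * q)
  have hqL : q ∣ M₁ * q := Dvd.intro_left M₁ rfl
  have hq2 : ¬ q ^ 2 ∣ M := by
    intro h
    have h1 : q ^ 2 ∣ M₁ * q := h.trans hML
    rw [pow_two] at h1
    exact hqM (Nat.dvd_of_mul_dvd_mul_right hq.pos h1)
  have hqdS : ¬ q ∣ dS := rtk6c4ws_not_dvd hq hqL hdS
  have hcopr : Nat.Coprime (rtk6psiDr M q H) (6 * (M₁ * q)) :=
    Nat.Coprime.coprime_dvd_left hdr hdS
  have hqd : ¬ q ∣ rtk6psiDr M q H := rtk6c4ws_not_dvd hq hqL hcopr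
  have hodd : Odd (rtk6psiDr M q H) := rtk6psi_odd_of_coprime hcopr
  obtain ⟨w, hw⟩ := rtk6n0b_exists_w (H := H) hq hqM hML hqN hstar
  obtain ⟨c₀, hc₀, hord⟩ := hψr.exists_orderOf hq hqN hq2
  -- the ramified generator
  obtain ⟨n₀, hcop, hz0, hhor, hz₁, hn₀, hzy⟩ :=
    rtk6c4ws_ram_data f halg hπ ιC hq hqM hA hML hqN hM3 hw hcopr ψr hψr.map_H
      hψr.map_neg_one hψr.pow_dr hc₀ hord
  -- the étale family
  obtain ⟨nn, hyu, hu, hhor', hy₁', hn₀', hdvd⟩ :=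
    rtk6c4ws_family f halg hπ ιC hq hqM hA hML hqN hM3 hw hdS ψ' hfam.map_H
      hfam.map_neg_one hfam.pow_d hfam.map_atR
  -- WIRE
  obtain ⟨ζ, a, b, σ, δ, hζ, hab, hF1, hσN, hσY, hσϖ, hδN, hδY, hδϖ, hδy, hδy', -, -⟩ :=
    rtk6c4w_wireN hq hA hqN hq2 hodd f hf halg hL hML hM3
      (zchClosure (A₀ := ↥(beta0Ring A (beta0Field A)))
        ({bgJ ↥(beta0Field A) (M₁ * q)} :
          Set ↥(modularFunctionFieldFullC ↥(beta0Field A) (M₁ * q))))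
      hϖq hψr hfam hdS0 hdr hcop
  -- the pack
  obtain ⟨S, hS, hSet, hgen, hfix, hSy, hyS⟩ :=
    rtk6gi_cross_pack hπ ιC hq hqM hA rigid dS
      (fun i => rtk6n0fY f (M₁ * q) M H (ψ' i) hML)
      (fun i => rtk6c4wsU (M₁ := M₁) (H := H) (ψ' i) hML (hfam.pow_d i)) nn hyu hu hhor'
      hy₁' hn₀' hdvd
      ({algebraMap ↥(mgcA A (rtk6ebK q (rtk6psiDr M q H)))
          ↥(rtk6diF A (rtk6ebK q (rtk6psiDr M q H)) (M₁ * q) M H) ϖ,
        rtk6n0fY f (M₁ * q) M H ψr hML} :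
        Set ↥(rtk6diF A (rtk6ebK q (rtk6psiDr M q H)) (M₁ * q) M H))
      ((Set.range fun i => rtk6n0fY f (M₁ * q) M H (ψ' i) hML) ∪
        {algebraMap ↥(mgcA A (rtk6ebK q (rtk6psiDr M q H)))
            ↥(rtk6diF A (rtk6ebK q (rtk6psiDr M q H)) (M₁ * q) M H) ϖ,
          rtk6n0fY f (M₁ * q) M H ψr hML})
      (by
        rintro z (⟨i, rfl⟩ | hz)
        · exact Or.inr ⟨i, rfl⟩
        · exact Or.inl hz)
      hF1 (rtk6gxiPt hq (rtk6ebK q (rtk6psiDr M q H)) M H f hf halg hA hd0 hϖd 𝔫)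
  -- (G-cross)
  obtain ⟨X, Y, w', e₁, e₂, γ, hC, hX₁, hY₁, hY₂, hX₂⟩ :=
    rtk6gxi_crossE hπ ιC hq hqM (rtk6ebK q (rtk6psiDr M q H)) M H f hf halg hA hd0 hϖd
      hqdS rigid hqd 𝔫 h₁ h₂ hζ hz0 hhor hz₁ hn₀ hzy hab hS
      (fun t ht => by
        obtain ⟨a', b', ha', hb', hpow⟩ := hSet t ht
        exact ⟨a', b', ha', hb', hpow⟩)
      hgen (hfix σ (fun i => hσN (ψ' i))) hσϖ (hσN ψr)
      (hfix δ (fun i => hδN (ψ' i) (hfam.map_atR i))) hδϖ hδy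
  refine ⟨rtk6psiDr M q H, dS, ζ, X, Y, w', e₁, e₂, S, rtk6n0fY f (M₁ * q) M H ψr hML, γ, n₀,
    a, b, σ, δ, hC, hX₁, hY₁, hY₂, hX₂, fun g hg => ?_⟩
  refine (hT2 g hg).rescale
    (algebraMap ↥(beta0Field A) ↥(modularFunctionFieldFullC ↥(beta0Field A) (M₁ * q))
      (((rtk6d0N M H ⊤ : ℕ) : ↥(beta0Field A))⁻¹))
    (rtk6n0fY_eq_K halg hML) (fun t ht => ?_)
  obtain ⟨i, c, hc, rfl⟩ := hSy t ht
  refine ⟨algebraMap ↥(beta0Field A) ↥(modularFunctionFieldFullC ↥(beta0Field A) (M₁ * q))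
      (((rtk6d0N M H ⊤ : ℕ) : ↥(beta0Field A))⁻¹) * c⁻¹,
    rtk6c4fdY f (M₁ * q) M H (ψ' i) hML, ⟨i, rfl⟩, ?_⟩
  rw [rtk6n0fY_eq_K halg hML, map_mul, map_inv₀ _ c, div_eq_mul_inv]
  exact mul_right_comm _ _ _

include hπ ιC hqM in
/-- **the discharge of `hcr`, chart `j`**: the crossing alternative of `rtk6c4aj_plusAt` at the
thin level, from `IsStarStable`, `IsTameAt` and (T2) for the unnormalised generators of ALL
characters `ψ_r`, `ψ′_i` of PSI. -/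
theorem rtk6c4ac_hcr (rigid : (q ≠ 2 → 4 ∣ M₁) ∧ (q = 2 → 9 ∣ M₁))
    (hϖq : ϖ ^ rtk6psiDr M q H = ((q : ℕ) : ↥(mgcA A (rtk6ebK q (rtk6psiDr M q H)))))
    (hqN : q ∣ M) (hML : M ∣ M₁ * q) (hM3 : 3 ≤ M) (hstar : IsStarStable M q H)
    (htame : IsTameAt (M₁ * q) M q H)
    (𝒢 : Set (SemilinearAut ↥(mgcE A (rtk6ebK q (rtk6psiDr M q H)))
      ↥(rtk6diF A (rtk6ebK q (rtk6psiDr M q H)) (M₁ * q) M H)))
    (hT2 : ∀ (dS : ℕ) (ψr : (ZMod M)ˣ →* (↥(beta0Field A))ˣ) (k : ℕ)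
      (ψ' : Fin k → ((ZMod M)ˣ →* (↥(beta0Field A))ˣ)),
      Rtk6psiIsR ↥(beta0Field A) M q H ψr → Rtk6psiIsFam ↥(beta0Field A) M q dS H ψ' →
      ∀ g ∈ 𝒢, Rtk6c4aAut
        ↥(zchClosure (A₀ := ↥(beta0Ring A (beta0Field A)))
          ({bgJ ↥(beta0Field A) (M₁ * q)} :
            Set ↥(modularFunctionFieldFullC ↥(beta0Field A) (M₁ * q))))
        ↥(modularFunctionFieldFullC ↥(beta0Field A) (M₁ * q)) ϖ
        (rtk6diT A (rtk6ebK q (rtk6psiDr M q H)) (M₁ * q) M H)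
        (Set.range fun i => rtk6c4fdY f (M₁ * q) M H (ψ' i) hML)
        (rtk6c4fdY f (M₁ * q) M H ψr hML) g)
    (𝔫 : AtPt (F := ↥(rtk6diF A (rtk6ebK q (rtk6psiDr M q H)) (M₁ * q) M H)) ϖ
      (rtk6diT A (rtk6ebK q (rtk6psiDr M q H)) (M₁ * q) M H))
    (h₁ : atThrough (rtk6gxiPt hq (rtk6ebK q (rtk6psiDr M q H)) M H f hf halg hA hd0 hϖd 𝔫)
      (mgvV hπ ιC hq hqM true))
    (h₂ : atThrough (rtk6gxiPt hq (rtk6ebK q (rtk6psiDr M q H)) M H f hf halg hA hd0 hϖd 𝔫)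
      (mgvV hπ ιC hq hqM false)) :
    ∃ (d' dS : ℕ) (ζ X Y w e₁ e₂ : ↥(zchClosure (A₀ := ↥(beta0Ring A (beta0Field A)))
        ({bgJ ↥(beta0Field A) (M₁ * q)} :
          Set ↥(modularFunctionFieldFullC ↥(beta0Field A) (M₁ * q)))))
      (S : Set ↥(rtk6diF A (rtk6ebK q (rtk6psiDr M q H)) (M₁ * q) M H))
      (y : ↥(rtk6diF A (rtk6ebK q (rtk6psiDr M q H)) (M₁ * q) M H))
      (γ : ↥(modularFunctionFieldFullC ↥(beta0Field A) (M₁ * q))) (n₀ a b : ℤ)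
      (σ δ : ↥(rtk6diF A (rtk6ebK q (rtk6psiDr M q H)) (M₁ * q) M H)
        ≃ₐ[↥(modularFunctionFieldFullC ↥(beta0Field A) (M₁ * q))]
        ↥(rtk6diF A (rtk6ebK q (rtk6psiDr M q H)) (M₁ * q) M H)),
      Rtk6c4CrossE (rtk6gxiJ (rtk6ebK q (rtk6psiDr M q H)) M H f hf halg)
        (algebraMap ↥(zchClosure (A₀ := ↥(mgcA A (rtk6ebK q (rtk6psiDr M q H))))
          ({rtk6diT A (rtk6ebK q (rtk6psiDr M q H)) (M₁ * q) M H} :
            Set ↥(rtk6diF A (rtk6ebK q (rtk6psiDr M q H)) (M₁ * q) M H)))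
          ↥(rtk6diF A (rtk6ebK q (rtk6psiDr M q H)) (M₁ * q) M H)) 𝔫.1 d' dS ζ
        (algebraMap ↥(beta0Ring A (beta0Field A))
          ↥(zchClosure (A₀ := ↥(beta0Ring A (beta0Field A)))
            ({bgJ ↥(beta0Field A) (M₁ * q)} :
              Set ↥(modularFunctionFieldFullC ↥(beta0Field A) (M₁ * q)))) π) X Y w S
        (algebraMap ↥(mgcA A (rtk6ebK q (rtk6psiDr M q H)))
          ↥(rtk6diF A (rtk6ebK q (rtk6psiDr M q H)) (M₁ * q) M H) ϖ) y γ e₁ e₂ n₀ a b σ δ ∧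
      (X : ↥(modularFunctionFieldFullC ↥(beta0Field A) (M₁ * q))) ∈
        (mgvV hπ ιC hq hqM true).nonunits ∧
      (Y : ↥(modularFunctionFieldFullC ↥(beta0Field A) (M₁ * q))) ∉
        (mgvV hπ ιC hq hqM true).nonunits ∧
      (Y : ↥(modularFunctionFieldFullC ↥(beta0Field A) (M₁ * q))) ∈
        (mgvV hπ ιC hq hqM false).nonunits ∧
      (X : ↥(modularFunctionFieldFullC ↥(beta0Field A) (M₁ * q))) ∉
        (mgvV hπ ιC hq hqM false).nonunits ∧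
      ∀ g ∈ 𝒢, Rtk6c4aAut
        ↥(zchClosure (A₀ := ↥(beta0Ring A (beta0Field A)))
          ({bgJ ↥(beta0Field A) (M₁ * q)} :
            Set ↥(modularFunctionFieldFullC ↥(beta0Field A) (M₁ * q))))
        ↥(modularFunctionFieldFullC ↥(beta0Field A) (M₁ * q)) ϖ
        (rtk6diT A (rtk6ebK q (rtk6psiDr M q H)) (M₁ * q) M H) S y g := by
  have hq2 : ¬ q ^ 2 ∣ M := by
    intro h
    have h1 : q ^ 2 ∣ M₁ * q := h.trans hML
    rw [pow_two] at h1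
    exact hqM (Nat.dvd_of_mul_dvd_mul_right hq.pos h1)
  obtain ⟨dS, hdS, hdS0, hdr, ψr, k, ψ', hψr, hfam⟩ :=
    rtk6c4ac_psi (A := A) hq hA (Dvd.intro_left M₁ rfl) hqN hq2 hstar htame
  exact rtk6c4ac_hcr_of hπ ιC hq hqM M H f hf halg hA hd0 hϖd rigid hϖq hqN hML hM3 hstar
    hdS hdS0 hdr hψr hfam 𝒢 (hT2 dS ψr k ψ' hψr hfam) 𝔫 h₁ h₂

/-- the level hypotheses of piece E give `rigid`: `4 ∣ M₁ q`, `q ∤ M₁` ⇒ `q ≠ 2` and `4 ∣ M₁` -/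
theorem rtk6c4ac_rigid {q M₁ : ℕ} (hq : q.Prime) (hqM : ¬ q ∣ M₁) (h4 : 4 ∣ M₁ * q) :
    (q ≠ 2 → 4 ∣ M₁) ∧ (q = 2 → 9 ∣ M₁) := by
  have hq2 : q ≠ 2 := by
    rintro rfl
    apply hqM
    have h2 : 2 * 2 ∣ M₁ * 2 := h4
    exact Nat.dvd_of_mul_dvd_mul_right (by norm_num) h2
  refine ⟨fun _ => ?_, fun h => absurd h hq2⟩
  have hcop : Nat.Coprime 4 q := by
    have h2q : Nat.Coprime 2 q := (Nat.coprime_primes Nat.prime_two hq).2 (Ne.symm hq2)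
    exact Nat.Coprime.pow_left 2 h2q
  exact hcop.dvd_of_dvd_mul_right h4

/-- the level hypotheses of piece E give `3 ≤ M`: `q ∣ M`, `q` odd -/
theorem rtk6c4ac_three_le {q M₁ M : ℕ} (hq : q.Prime) (hqM : ¬ q ∣ M₁) (h4 : 4 ∣ M₁ * q)
    (hqN : q ∣ M) (hM0 : M ≠ 0) : 3 ≤ M := by
  have hq2 : q ≠ 2 := by
    rintro rfl
    apply hqM
    have h2 : 2 * 2 ∣ M₁ * 2 := h4
    exact Nat.dvd_of_mul_dvd_mul_right (by norm_num) h2
  have h3 : 3 ≤ q := by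
    have := hq.two_le
    omega
  exact h3.trans (Nat.le_of_dvd (Nat.pos_of_ne_zero hM0) hqN)

end Cr

end Fermat.Agent.RT.K6

end
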