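/-
K-machine, piece K6, piece **FIX-X, THIN half, part (T2)** (helper34): **the conditions
`Rtk6c4aAut`** (helper94, `C4Asm.lean`) **for the two kinds of automorphisms of the thin level**
`F₁ = rtk6diF A K₁ L M H` (`K₁ = K₁′ = rtk6ebK r d`, but ANY `K₁` is allowed here):

* `g = rtk6diGal L M H σ hσE`, `σ` in the inertia group of `A` (coefficientwise action):
  `g` fixes `t = j`, preserves `A₁ = mgcA A K₁`, fixes `K = FullC ℚ̄^I L` and every Kummer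
  generator `y_ψ`, and `g • ϖ = α · ϖ`, `α = ζ₀ ^ k` (`ζ₀ = ψ_r (c₀)` a primitive `d`-th root
  of unity of `ℚ̄^I`, `ϖ ^ d ∈ ℚ̄^I`), `g • y = 1 · y`;
* `g = SemilinearAut.ofAlgAut δ`, `δ` a diamond of `c` (`IsDiamondC`): `g` fixes `t`, the
  constants, `K`, every `y_ψ′` with `ψ′ c = 1`, `g • ϖ = 1 · ϖ` and `g • y_ψ = ψ (c) · y_ψ`.

`R₀` is ANY `A₀`-subalgebra of `K` (`A₀ = beta0Ring A (beta0Field A)`), e.g. the chart
`zchClosure {bgJ}`; the units `α`, `β` are helper70's `rtk6c4wZeta` (`C4ChiWire.lean`).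

* `rtk6fxb_zeta_isUnit`, `rtk6fxb_root_eq_pow`;
* `rtk6fxb_aut_gal`     : `Rtk6c4aAut ↥R₀ K ϖ t S y_ψ (rtk6diGal L M H σ hσE)`;
* `rtk6fxb_aut_diamond` : `Rtk6c4aAut ↥R₀ K ϖ t S y_ψ (SemilinearAut.ofAlgAut δ)`;
* `rtk6fxbG`, `rtk6fxb_aut` : the set `𝒢` of all these automorphisms (`σ` in the inertia group,
  `δ` a diamond at `r`) and the conditions for all its elements
  (`S = range y_ψ′`, `ψ′ i` trivial on the diamonds at `r`);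
* `rtk6fxb_thin_gal`, `rtk6fxb_thin_diamond` : **the hypothesis `hthin` of FIX-X** (helper67,
  `FixX.lean`) from `∀ 𝔫₁, Rtk6c4aPlusAt V₁ (rtk6fxbG …) 𝔫₁` (the output of C4-χ-ASM).
-/
import Fermat.Agent.RT.K6.C4Asm
import Fermat.Agent.RT.K6.C4ChiWire
import Fermat.Agent.RT.K6.FixU

set_option autoImplicit false
set_option linter.style.haveILetI false
set_option linter.unusedSectionVars false
set_option linter.unusedVariables false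
set_option linter.style.longLine false
set_option synthInstance.maxHeartbeats 400000
set_option maxHeartbeats 4000000

noncomputable section

namespace Fermat.Agent.RT.K6

open ModularCurve AlgebraicCurve IntermediateField
open Fermat.Agent.ES Fermat.Agent.ES.G2 Fermat.Agent.INJ Fermat.Agent.UNIP Fermat.Agent.ES1
  Fermat.Agent.ES1.G2 Fermat.Agent.STB

/-! ### Roots of unity -/

section Roots

/-- helper70's `rtk6c4wZeta` is a unit of the chart -/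
theorem rtk6fxb_zeta_isUnit {K₀ : Type} [Field K₀] (A₀ : ValuationSubring K₀)
    {K : Type} [Field K] [Algebra K₀ K] (R₀ : Subalgebra ↥A₀ K)
    (u : K₀ˣ) {d : ℕ} (hd0 : d ≠ 0) (hu : u ^ d = 1) :
    IsUnit (rtk6c4wZeta A₀ R₀ u hd0 hu) := by
  refine IsUnit.of_pow_eq_one (n := d) ?_ hd0
  apply Subtype.ext
  rw [SubmonoidClass.coe_pow, rtk6c4wZeta_coe, ← map_pow, ← Units.val_pow_eq_pow_val, hu,
    Units.val_one, map_one]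
  rfl

/-- every `d`-th root of unity of the big field is the image of a power of a unit of exact
order `d` of the small field -/
theorem rtk6fxb_root_eq_pow {E₀ Ω : Type*} [Field E₀] [Field Ω] (φ : E₀ →+* Ω) {u : E₀ˣ}
    {d : ℕ} (hd0 : d ≠ 0) (hord : orderOf u = d) {ζ : Ω} (hζ : ζ ^ d = 1) :
    ∃ k : ℕ, ζ = φ (((u ^ k : E₀ˣ) : E₀ˣ) : E₀) := by
  have h1 : IsPrimitiveRoot (φ (u : E₀)) d :=
    (rtk6c4w_primitive hord).map_of_injective φ.injective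
  haveI : NeZero d := ⟨hd0⟩
  obtain ⟨k, -, hk⟩ := h1.eq_pow_of_pow_eq_one hζ
  exact ⟨k, by rw [Units.val_pow_eq_pow_val, map_pow, hk]⟩

end Roots

/-! ### The coefficientwise action of the inertia group -/

section Gal

variable {A : ValuationSubring Qb} {d : ℕ} {L M : ℕ} [NeZero M] {H : Subgroup (ZMod M)ˣ}

/-- **(T2), inertia.**  The conditions `Rtk6c4aAut` for `g = rtk6diGal L M H σ hσE`, `σ` in the
inertia group: `α = ζ₀ ^ k`, `β = 1`. -/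
theorem rtk6fxb_aut_gal (K₁ : IntermediateField ℚ Qb) [IsDiscreteValuationRing ↥(mgcA A K₁)]
    (f : ↥(beta0Field A) →+* ↥(mgcE A K₁))
    (hf : ∀ a : ↥(beta0Field A), ((f a : ↥(mgcE A K₁)) : Qb) = (a : Qb))
    [Algebra ↥(modularFunctionFieldFullC ↥(beta0Field A) L) ↥(rtk6diF A K₁ L M H)]
    (halg : ∀ z : ↥(modularFunctionFieldFullC ↥(beta0Field A) L),
      algebraMap ↥(modularFunctionFieldFullC ↥(beta0Field A) L) ↥(rtk6diF A K₁ L M H) z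
        = rtk6c4fdIota f L M H z)
    (hML : M ∣ L)
    (R₀ : Subalgebra ↥(beta0Ring A (beta0Field A))
      ↥(modularFunctionFieldFullC ↥(beta0Field A) L))
    {ϖ : ↥(mgcA A K₁)} (hϖ0 : ϖ ≠ 0)
    (hϖ : (((ϖ : ↥(mgcA A K₁)) : ↥(mgcE A K₁)) : Qb) ^ d ∈ beta0Field A)
    {ζ₀ : (↥(beta0Field A))ˣ} (hd0 : d ≠ 0) (hord : orderOf ζ₀ = d)
    (S : Set ↥(rtk6diF A K₁ L M H))
    (hS : ∀ t ∈ S, ∃ ψ' : (ZMod M)ˣ →* (↥(beta0Field A))ˣ, t = rtk6c4fdY f L M H ψ' hML)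
    (ψ : (ZMod M)ˣ →* (↥(beta0Field A))ˣ)
    {σ : Qb ≃ₐ[ℚ] Qb} (hσI : σ ∈ A.inertiaSubgroupIn ℚ)
    (hσE : ∀ x ∈ mgcE A K₁, σ x ∈ mgcE A K₁) :
    Rtk6c4aAut (A₀ := ↥(mgcA A K₁)) (E := ↥(mgcE A K₁)) (F := ↥(rtk6diF A K₁ L M H)) ↥R₀
      ↥(modularFunctionFieldFullC ↥(beta0Field A) L) ϖ (rtk6diT A K₁ L M H) S
      (rtk6c4fdY f L M H ψ hML) (rtk6diGal L M H σ hσE) := by
  have hσD : σ ∈ A.decompositionSubgroup ℚ := kron_mem_decomposition_of_mem_inertia hσI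
  have hfix : ∀ a : ↥(beta0Field A),
      σ ((f a : ↥(mgcE A K₁)) : Qb) = ((f a : ↥(mgcE A K₁)) : Qb) :=
    fun a => by rw [hf a]; exact mem_beta0Field.mp a.2 σ hσI
  -- the root of unity `σ ϖ / ϖ`
  have hϖQ0 : (((ϖ : ↥(mgcA A K₁)) : ↥(mgcE A K₁)) : Qb) ≠ 0 := by
    intro h0
    apply hϖ0
    apply Subtype.ext
    apply Subtype.ext
    exact h0
  have hζ' : (σ (((ϖ : ↥(mgcA A K₁)) : ↥(mgcE A K₁)) : Qb) /
      (((ϖ : ↥(mgcA A K₁)) : ↥(mgcE A K₁)) : Qb)) ^ d = 1 := by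
    rw [div_pow, ← map_pow, mem_beta0Field.mp hϖ σ hσI, div_self (pow_ne_zero d hϖQ0)]
  obtain ⟨k, hk⟩ := rtk6fxb_root_eq_pow (beta0Field A).val.toRingHom hd0 hord hζ'
  have hu : (ζ₀ ^ k) ^ d = 1 := by
    rw [← pow_mul, mul_comm, pow_mul, ← hord, pow_orderOf_eq_one, one_pow]
  have hσϖ : σ (((ϖ : ↥(mgcA A K₁)) : ↥(mgcE A K₁)) : Qb) =
      ((f (((ζ₀ ^ k : (↥(beta0Field A))ˣ) : (↥(beta0Field A))ˣ) : ↥(beta0Field A)) :
        ↥(mgcE A K₁)) : Qb) * (((ϖ : ↥(mgcA A K₁)) : ↥(mgcE A K₁)) : Qb) := by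
    rw [hf]
    have h1 : ((((ζ₀ ^ k : (↥(beta0Field A))ˣ) : (↥(beta0Field A))ˣ) : ↥(beta0Field A)) : Qb) =
        σ (((ϖ : ↥(mgcA A K₁)) : ↥(mgcE A K₁)) : Qb) /
          (((ϖ : ↥(mgcA A K₁)) : ↥(mgcE A K₁)) : Qb) := hk.symm
    rw [h1, div_mul_cancel₀ _ hϖQ0]
  refine ⟨rtk6di_smul_T L M H σ hσE, rtk6dv_hgA L M H hσD hσE, rtk6dv_hgA_inv L M H hσD hσE,
    fun z => ?_, fun t ht => ?_,
    rtk6c4wZeta (beta0Ring A (beta0Field A)) R₀ (ζ₀ ^ k) hd0 hu, 1,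
    rtk6fxb_zeta_isUnit _ R₀ _ hd0 hu, isUnit_one, ?_, ?_⟩
  · rw [halg]
    exact rtk6c4fd_coeffHom_iota f σ hσE hfix z
  · obtain ⟨ψ', rfl⟩ := hS t ht
    exact rtk6c4fd_coeffHom_Y f ψ' hML σ hσE hfix
  · exact rtk6c4faS1_varpi_K halg σ hσE hfix hσϖ
  · rw [map_one, one_mul]
    exact rtk6c4fd_coeffHom_Y f ψ hML σ hσE hfix

end Gal

/-! ### The diamonds -/

section Diamond

variable {A : ValuationSubring Qb} {L M : ℕ} [NeZero M] {H : Subgroup (ZMod M)ˣ}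

/-- **(T2), diamonds.**  The conditions `Rtk6c4aAut` for `g = ofAlgAut δ`, `δ` a diamond of `c`:
`α = 1`, `β = ψ (c)`; the étale generators are the `y_ψ′` with `ψ′ c = 1`. -/
theorem rtk6fxb_aut_diamond (K₁ : IntermediateField ℚ Qb)
    [IsDiscreteValuationRing ↥(mgcA A K₁)]
    (f : ↥(beta0Field A) →+* ↥(mgcE A K₁))
    [Algebra ↥(modularFunctionFieldFullC ↥(beta0Field A) L) ↥(rtk6diF A K₁ L M H)]
    (halg : ∀ z : ↥(modularFunctionFieldFullC ↥(beta0Field A) L),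
      algebraMap ↥(modularFunctionFieldFullC ↥(beta0Field A) L) ↥(rtk6diF A K₁ L M H) z
        = rtk6c4fdIota f L M H z)
    (hML : M ∣ L)
    (R₀ : Subalgebra ↥(beta0Ring A (beta0Field A))
      ↥(modularFunctionFieldFullC ↥(beta0Field A) L))
    (ϖ : ↥(mgcA A K₁))
    {c : (ZMod M)ˣ}
    {δ : ↥(rtk6diF A K₁ L M H) ≃ₐ[↥(mgcE A K₁)] ↥(rtk6diF A K₁ L M H)}
    (hδ : IsDiamondC ↥(mgcE A K₁) L M H c δ)
    (S : Set ↥(rtk6diF A K₁ L M H))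
    (hS : ∀ t ∈ S, ∃ ψ' : (ZMod M)ˣ →* (↥(beta0Field A))ˣ,
      ψ' c = 1 ∧ t = rtk6c4fdY f L M H ψ' hML)
    (ψ : (ZMod M)ˣ →* (↥(beta0Field A))ˣ) :
    Rtk6c4aAut (A₀ := ↥(mgcA A K₁)) (E := ↥(mgcE A K₁)) (F := ↥(rtk6diF A K₁ L M H)) ↥R₀
      ↥(modularFunctionFieldFullC ↥(beta0Field A) L) ϖ (rtk6diT A K₁ L M H) S
      (rtk6c4fdY f L M H ψ hML) (SemilinearAut.ofAlgAut δ) := by
  haveI : Algebra.IsAlgebraic ℚ Qb := AlgebraicClosure.isAlgebraic ℚ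
  haveI : Algebra.IsAlgebraic ℚ ↥(mgcE A K₁) :=
    Algebra.IsAlgebraic.of_injective (mgcE A K₁).val Subtype.val_injective
  have hc0 : orderOf c ≠ 0 := (orderOf_pos c).ne'
  have hu : ψ c ^ orderOf c = 1 := by rw [← map_pow, pow_orderOf_eq_one, map_one]
  have hK : ∀ z : ↥(modularFunctionFieldFullC ↥(beta0Field A) L),
      SemilinearAut.ofAlgAut δ •
        algebraMap ↥(modularFunctionFieldFullC ↥(beta0Field A) L) ↥(rtk6diF A K₁ L M H) z =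
      algebraMap ↥(modularFunctionFieldFullC ↥(beta0Field A) L) ↥(rtk6diF A K₁ L M H) z := by
    intro z
    rw [SemilinearAut.ofAlgAut_smul, halg]
    exact rtk6c4fd_diamond_iota hδ z
  have hT : algebraMap ↥(modularFunctionFieldFullC ↥(beta0Field A) L)
      ↥(rtk6diF A K₁ L M H) (bgJ ↥(beta0Field A) L) = rtk6diT A K₁ L M H := by
    rw [halg]
    exact rtk6diCoeffHom_J ↥(beta0Field A) L M H f
  have hA : ∀ α : ↥(mgcA A K₁), SemilinearAut.ofAlgAut δ •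
      algebraMap ↥(mgcA A K₁) ↥(rtk6diF A K₁ L M H) α =
        algebraMap ↥(mgcA A K₁) ↥(rtk6diF A K₁ L M H) α := by
    intro α
    rw [SemilinearAut.ofAlgAut_smul,
      IsScalarTower.algebraMap_apply ↥(mgcA A K₁) ↥(mgcE A K₁) ↥(rtk6diF A K₁ L M H)]
    exact δ.commutes _
  refine ⟨?_, fun α => ⟨α, hA α⟩, fun α => ⟨α, rtk6gf_inv_smul_of_smul _ (hA α)⟩, hK,
    fun t ht => ?_, 1, rtk6c4wZeta (beta0Ring A (beta0Field A)) R₀ (ψ c) hc0 hu, isUnit_one,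
    rtk6fxb_zeta_isUnit _ R₀ _ hc0 hu, ?_, ?_⟩
  · rw [← hT]
    exact hK _
  · obtain ⟨ψ', hψ', rfl⟩ := hS t ht
    rw [SemilinearAut.ofAlgAut_smul]
    have h := rtk6c4fdDiamK_Y (ψ := ψ') halg hML hδ
    rw [hψ', Units.val_one, map_one, map_one, one_mul] at h
    exact h
  · rw [map_one, one_mul]
    exact hA ϖ
  · rw [SemilinearAut.ofAlgAut_smul]
    exact rtk6c4fdDiamK_Y (ψ := ψ) halg hML hδ

end Diamond

/-! ### The set `𝒢` -/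

section GSet

/-- **the set `𝒢`** of the automorphisms of FIX-X: the coefficientwise actions of the inertia
group and the diamonds at `r` -/
def rtk6fxbG (A : ValuationSubring Qb) (K₁ : IntermediateField ℚ Qb) (L M : ℕ)
    (H : Subgroup (ZMod M)ˣ) (r : ℕ) :
    Set (SemilinearAut ↥(mgcE A K₁) ↥(rtk6diF A K₁ L M H)) :=
  {g | (∃ (σ : Qb ≃ₐ[ℚ] Qb) (_ : σ ∈ A.inertiaSubgroupIn ℚ)
        (hσE : ∀ x ∈ mgcE A K₁, σ x ∈ mgcE A K₁), g = rtk6diGal L M H σ hσE) ∨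
    ∃ (c : (ZMod M)ˣ)
      (δ : ↥(rtk6diF A K₁ L M H) ≃ₐ[↥(mgcE A K₁)] ↥(rtk6diF A K₁ L M H)),
      IsAtR M r c ∧ IsDiamondC ↥(mgcE A K₁) L M H c δ ∧ g = SemilinearAut.ofAlgAut δ}

variable {A : ValuationSubring Qb} {r d : ℕ} {L M : ℕ} [NeZero M] {H : Subgroup (ZMod M)ˣ}

theorem rtk6fxb_gal_mem {K₁ : IntermediateField ℚ Qb} {σ : Qb ≃ₐ[ℚ] Qb}
    (hσI : σ ∈ A.inertiaSubgroupIn ℚ) (hσE : ∀ x ∈ mgcE A K₁, σ x ∈ mgcE A K₁) :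
    rtk6diGal L M H σ hσE ∈ rtk6fxbG A K₁ L M H r :=
  Or.inl ⟨σ, hσI, hσE, rfl⟩

theorem rtk6fxb_diamond_mem {K₁ : IntermediateField ℚ Qb} {c : (ZMod M)ˣ}
    {δ : ↥(rtk6diF A K₁ L M H) ≃ₐ[↥(mgcE A K₁)] ↥(rtk6diF A K₁ L M H)}
    (hc : IsAtR M r c) (hδ : IsDiamondC ↥(mgcE A K₁) L M H c δ) :
    SemilinearAut.ofAlgAut δ ∈ rtk6fxbG A K₁ L M H r :=
  Or.inr ⟨c, δ, hc, hδ, rfl⟩

/-- **(T2)**: the conditions `Rtk6c4aAut` for every element of `𝒢`, with the unnormalised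
generators `y = y_{ψ_r}`, `S = {y_{ψ′ i}}` (`ψ′ i` trivial on the diamonds at `r`). -/
theorem rtk6fxb_aut (K₁ : IntermediateField ℚ Qb) [IsDiscreteValuationRing ↥(mgcA A K₁)]
    (f : ↥(beta0Field A) →+* ↥(mgcE A K₁))
    (hf : ∀ a : ↥(beta0Field A), ((f a : ↥(mgcE A K₁)) : Qb) = (a : Qb))
    [Algebra ↥(modularFunctionFieldFullC ↥(beta0Field A) L) ↥(rtk6diF A K₁ L M H)]
    (halg : ∀ z : ↥(modularFunctionFieldFullC ↥(beta0Field A) L),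
      algebraMap ↥(modularFunctionFieldFullC ↥(beta0Field A) L) ↥(rtk6diF A K₁ L M H) z
        = rtk6c4fdIota f L M H z)
    (hML : M ∣ L)
    (R₀ : Subalgebra ↥(beta0Ring A (beta0Field A))
      ↥(modularFunctionFieldFullC ↥(beta0Field A) L))
    {ϖ : ↥(mgcA A K₁)} (hϖ0 : ϖ ≠ 0)
    (hϖ : (((ϖ : ↥(mgcA A K₁)) : ↥(mgcE A K₁)) : Qb) ^ d ∈ beta0Field A)
    (ψr : (ZMod M)ˣ →* (↥(beta0Field A))ˣ) {c₀ : (ZMod M)ˣ} (hd0 : d ≠ 0)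
    (hord : orderOf (ψr c₀) = d)
    {ι : Type*} (ψ' : ι → ((ZMod M)ˣ →* (↥(beta0Field A))ˣ))
    (hψ' : ∀ i c, IsAtR M r c → ψ' i c = 1) :
    ∀ g ∈ rtk6fxbG A K₁ L M H r,
      Rtk6c4aAut (A₀ := ↥(mgcA A K₁)) (E := ↥(mgcE A K₁)) (F := ↥(rtk6diF A K₁ L M H)) ↥R₀
        ↥(modularFunctionFieldFullC ↥(beta0Field A) L) ϖ (rtk6diT A K₁ L M H)
        (Set.range fun i => rtk6c4fdY f L M H (ψ' i) hML) (rtk6c4fdY f L M H ψr hML) g := by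
  rintro g (⟨σ, hσI, hσE, rfl⟩ | ⟨c, δ, hc, hδ, rfl⟩)
  · exact rtk6fxb_aut_gal K₁ f hf halg hML R₀ hϖ0 hϖ hd0 hord _
      (fun t ht => by obtain ⟨i, rfl⟩ := ht; exact ⟨ψ' i, rfl⟩) ψr hσI hσE
  · exact rtk6fxb_aut_diamond K₁ f halg hML R₀ ϖ hδ _
      (fun t ht => by obtain ⟨i, rfl⟩ := ht; exact ⟨ψ' i, hψ' i c hc, rfl⟩) ψr

/-- **(T2), rescaled**: the same for `y = k_y · y_{ψ_r}`, `S = {k_i · y_{ψ′ i}}`
(`k_y, k_i ∈ K` arbitrary: the shapes of helper70's `rtk6c4w_fields`). -/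
theorem rtk6fxb_aut_scaled (K₁ : IntermediateField ℚ Qb)
    [IsDiscreteValuationRing ↥(mgcA A K₁)]
    (f : ↥(beta0Field A) →+* ↥(mgcE A K₁))
    (hf : ∀ a : ↥(beta0Field A), ((f a : ↥(mgcE A K₁)) : Qb) = (a : Qb))
    [Algebra ↥(modularFunctionFieldFullC ↥(beta0Field A) L) ↥(rtk6diF A K₁ L M H)]
    (halg : ∀ z : ↥(modularFunctionFieldFullC ↥(beta0Field A) L),
      algebraMap ↥(modularFunctionFieldFullC ↥(beta0Field A) L) ↥(rtk6diF A K₁ L M H) z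
        = rtk6c4fdIota f L M H z)
    (hML : M ∣ L)
    (R₀ : Subalgebra ↥(beta0Ring A (beta0Field A))
      ↥(modularFunctionFieldFullC ↥(beta0Field A) L))
    {ϖ : ↥(mgcA A K₁)} (hϖ0 : ϖ ≠ 0)
    (hϖ : (((ϖ : ↥(mgcA A K₁)) : ↥(mgcE A K₁)) : Qb) ^ d ∈ beta0Field A)
    (ψr : (ZMod M)ˣ →* (↥(beta0Field A))ˣ) {c₀ : (ZMod M)ˣ} (hd0 : d ≠ 0)
    (hord : orderOf (ψr c₀) = d)
    {ι : Type*} (ψ' : ι → ((ZMod M)ˣ →* (↥(beta0Field A))ˣ))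
    (hψ' : ∀ i c, IsAtR M r c → ψ' i c = 1)
    (k : ι → ↥(modularFunctionFieldFullC ↥(beta0Field A) L))
    (ky : ↥(modularFunctionFieldFullC ↥(beta0Field A) L)) :
    ∀ g ∈ rtk6fxbG A K₁ L M H r,
      Rtk6c4aAut (A₀ := ↥(mgcA A K₁)) (E := ↥(mgcE A K₁)) (F := ↥(rtk6diF A K₁ L M H)) ↥R₀
        ↥(modularFunctionFieldFullC ↥(beta0Field A) L) ϖ (rtk6diT A K₁ L M H)
        (Set.range fun i => algebraMap ↥(modularFunctionFieldFullC ↥(beta0Field A) L)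
          ↥(rtk6diF A K₁ L M H) (k i) * rtk6c4fdY f L M H (ψ' i) hML)
        (algebraMap ↥(modularFunctionFieldFullC ↥(beta0Field A) L)
          ↥(rtk6diF A K₁ L M H) ky * rtk6c4fdY f L M H ψr hML) g := by
  intro g hg
  refine (rtk6fxb_aut K₁ f hf halg hML R₀ hϖ0 hϖ ψr hd0 hord ψ' hψ' g hg).rescale ky rfl ?_
  rintro t ⟨i, rfl⟩
  exact ⟨k i, _, ⟨i, rfl⟩, rfl⟩

/-- the hypothesis `hϖ` of `rtk6fxb_aut` from `ϖ ^ d = r` (helper70's convention) -/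
theorem rtk6fxb_hvarpi_of_natCast {K₁ : IntermediateField ℚ Qb} {ϖ : ↥(mgcA A K₁)}
    (hϖ : ϖ ^ d = ((r : ℕ) : ↥(mgcA A K₁))) :
    (((ϖ : ↥(mgcA A K₁)) : ↥(mgcE A K₁)) : Qb) ^ d ∈ beta0Field A := by
  have h1 : (((ϖ : ↥(mgcA A K₁)) : ↥(mgcE A K₁)) : Qb) ^ d = ((r : ℕ) : Qb) := by
    have := congrArg (fun z : ↥(mgcA A K₁) => (((z : ↥(mgcA A K₁)) : ↥(mgcE A K₁)) : Qb)) hϖ
    simpa using this
  rw [h1]
  exact _root_.natCast_mem (beta0Field A) r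

/-- the hypothesis `hϖ` of `rtk6fxb_aut` from `ϖ ^ d = π`, `π ∈ A ∩ ℚ̄^I` (helper54's
convention) -/
theorem rtk6fxb_hvarpi_of_incl {K₁ : IntermediateField ℚ Qb} {ϖ : ↥(mgcA A K₁)}
    {π : ↥(beta0Ring A (beta0Field A))}
    (hϖ : ϖ ^ d =
      beta0RingIncl (A := A) (le_sup_left : beta0Field A ≤ beta0Field A ⊔ K₁) π) :
    (((ϖ : ↥(mgcA A K₁)) : ↥(mgcE A K₁)) : Qb) ^ d ∈ beta0Field A := by
  have h1 : (((ϖ : ↥(mgcA A K₁)) : ↥(mgcE A K₁)) : Qb) ^ d =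
      (((π : ↥(beta0Ring A (beta0Field A))) : ↥(beta0Field A)) : Qb) := by
    have := congrArg (fun z : ↥(mgcA A K₁) => (((z : ↥(mgcA A K₁)) : ↥(mgcE A K₁)) : Qb)) hϖ
    simpa using this
  rw [h1]
  exact (π : ↥(beta0Field A)).2

end GSet

/-! ### The hypothesis `hthin` of FIX-X -/

section Thin

variable {A : ValuationSubring Qb} {r : ℕ} {L M : ℕ} [NeZero M] {H : Subgroup (ZMod M)ˣ}
  {K₁ : IntermediateField ℚ Qb} [IsDiscreteValuationRing ↥(mgcA A K₁)]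

/-- **FIX-X, thin half, `g₁ = σ̂`**: the hypothesis `hthin` of helper67's `FixX.lean` from the
output of C4-χ-ASM with `𝒢 = rtk6fxbG`. -/
theorem rtk6fxb_thin_gal {κ : Type*} (V₁ : κ → ValuationSubring ↥(rtk6diF A K₁ L M H))
    {ϖ : ↥(mgcA A K₁)} {u : ↥(rtk6diF A K₁ L M H)}
    (hplus : ∀ 𝔫₁ : AtPt (F := ↥(rtk6diF A K₁ L M H)) ϖ u,
      Rtk6c4aPlusAt V₁ (rtk6fxbG A K₁ L M H r) 𝔫₁)
    {σ : Qb ≃ₐ[ℚ] Qb} (hσI : σ ∈ A.inertiaSubgroupIn ℚ)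
    (hσE : ∀ x ∈ mgcE A K₁, σ x ∈ mgcE A K₁)
    (𝔫₁ : AtPt (F := ↥(rtk6diF A K₁ L M H)) ϖ u) :
    (∃ s : ↥(zchClosure (A₀ := ↥(mgcA A K₁)) ({u} : Set ↥(rtk6diF A K₁ L M H))), s ∈ 𝔫₁.1 ∧
      NodesLocGen 𝔫₁.1 {algebraMap ↥(mgcA A K₁)
        ↥(zchClosure (A₀ := ↥(mgcA A K₁)) ({u} : Set ↥(rtk6diF A K₁ L M H))) ϖ, s}) ∨
    (Rtk6ewFix (rtk6diGal L M H σ hσE) 𝔫₁ ∧
      Rtk6ewCong (SemilinearAut.toRingAut (rtk6diGal L M H σ hσE) :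
        ↥(rtk6diF A K₁ L M H) ≃+* ↥(rtk6diF A K₁ L M H)).toRingHom 1 𝔫₁) :=
  (hplus 𝔫₁).fixCong (rtk6fxb_gal_mem hσI hσE)

/-- **FIX-X, thin half, `g₁ = δ₁`** (diamond at `r`). -/
theorem rtk6fxb_thin_diamond {κ : Type*} (V₁ : κ → ValuationSubring ↥(rtk6diF A K₁ L M H))
    {ϖ : ↥(mgcA A K₁)} {u : ↥(rtk6diF A K₁ L M H)}
    (hplus : ∀ 𝔫₁ : AtPt (F := ↥(rtk6diF A K₁ L M H)) ϖ u,
      Rtk6c4aPlusAt V₁ (rtk6fxbG A K₁ L M H r) 𝔫₁)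
    {c : (ZMod M)ˣ} {δ : ↥(rtk6diF A K₁ L M H) ≃ₐ[↥(mgcE A K₁)] ↥(rtk6diF A K₁ L M H)}
    (hc : IsAtR M r c) (hδ : IsDiamondC ↥(mgcE A K₁) L M H c δ)
    (𝔫₁ : AtPt (F := ↥(rtk6diF A K₁ L M H)) ϖ u) :
    (∃ s : ↥(zchClosure (A₀ := ↥(mgcA A K₁)) ({u} : Set ↥(rtk6diF A K₁ L M H))), s ∈ 𝔫₁.1 ∧
      NodesLocGen 𝔫₁.1 {algebraMap ↥(mgcA A K₁)
        ↥(zchClosure (A₀ := ↥(mgcA A K₁)) ({u} : Set ↥(rtk6diF A K₁ L M H))) ϖ, s}) ∨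
    (Rtk6ewFix (SemilinearAut.ofAlgAut δ) 𝔫₁ ∧
      Rtk6ewCong (SemilinearAut.toRingAut (SemilinearAut.ofAlgAut δ) :
        ↥(rtk6diF A K₁ L M H) ≃+* ↥(rtk6diF A K₁ L M H)).toRingHom 1 𝔫₁) :=
  (hplus 𝔫₁).fixCong (rtk6fxb_diamond_mem hc hδ)

end Thin

/-! ### The chart `1/j` -/

section InvChart

universe u

variable {A₀ E : Type*} {F : Type u} [CommRing A₀] [IsDomain A₀] [IsDiscreteValuationRing A₀]
  [Field E] [Algebra A₀ E] [IsFractionRing A₀ E] [CharZero E]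
  [Field F] [Algebra E F] [Algebra A₀ F] [IsScalarTower A₀ E F]
  {π : A₀} {K R₀ : Type u} [Field K] [Algebra K F] [CommRing R₀] [Algebra R₀ F]

/-- the conditions `Rtk6c4aAut` do not depend on the chart: `u ↦ u⁻¹` -/
theorem rtk6fxb_aut_inv {u : F} {S : Set F} {y : F} {g : SemilinearAut E F}
    (h : Rtk6c4aAut R₀ K π u S y g) : Rtk6c4aAut R₀ K π u⁻¹ S y g := by
  obtain ⟨hgu, hrest⟩ := h
  refine ⟨?_, hrest⟩
  have h1 : g • u⁻¹ = (g • u)⁻¹ := map_inv₀ (SemilinearAut.toRingAut g) u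
  rw [h1, hgu]

/-- the conditions `Rtk6c4aAut` on either chart -/
theorem rtk6fxb_aut_chart {t u : F} (hu : u = t ∨ u = t⁻¹) {S : Set F} {y : F}
    {g : SemilinearAut E F} (h : Rtk6c4aAut R₀ K π t S y g) : Rtk6c4aAut R₀ K π u S y g := by
  rcases hu with rfl | rfl
  · exact h
  · exact rtk6fxb_aut_inv h

end InvChart

end Fermat.Agent.RT.K6

end
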