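/-
K-machine, piece K6, piece C4-χ-ASM, **the discharge of `hcr`, with (T2) discharged** (helper54):
the crossing alternative of helper94's `rtk6c4aj_plusAt` (`C4AsmJ.lean`) at the thin level
`K₁ = rtk6ebK q d_q` for the set `𝒢 = rtk6fxbG` of helper34 (`FixXB.lean`: the coefficientwise
actions of the inertia group and the diamonds at `q`), with NO hypothesis besides those of the
top level (`hML hqN h4 hstar htame`) and the data of the chart.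

* `rtk6c4ac_hT2`   : the hypothesis `hT2` of `rtk6c4ac_hcr` for `𝒢 = rtk6fxbG` (from `rtk6fxb_aut`);
* **`rtk6c4ac_hcr_G`** : `hcr` of `rtk6c4aj_plusAt` for `𝒢 = rtk6fxbG`, LITERALLY.
-/
import Fermat.Agent.RT.K6.C4AsmCr
import Fermat.Agent.RT.K6.FixXB

set_option autoImplicit false
set_option linter.style.haveILetI false
set_option linter.unusedSectionVars false
set_option linter.unusedVariables false
set_option linter.style.longLine false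
set_option synthInstance.maxHeartbeats 400000
set_option maxHeartbeats 4000000

noncomputable section

namespace Fermat.Agent.RT.K6

open ModularCurve Polynomial IntermediateField Fermat.Agent.INJ Fermat.Agent.AL AlgebraicCurve
open Fermat.Agent.ES Fermat.Agent.ES.G2 Fermat.Agent.STB Fermat.Agent.UNIP Fermat.Agent.S36
open Fermat.Agent.RIB.MP Fermat.Agent.ES1 Fermat.Agent.ES1.G2

section CrG

variable {A : ValuationSubring Qb} {q M₁ : ℕ} [NeZero q] [NeZero M₁] [NeZero (M₁ * q)]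
  [IsDiscreteValuationRing ↥(beta0Ring A (beta0Field A))]
  {π : ↥(beta0Ring A (beta0Field A))} (hπ : Irreducible π)
  (ιC : ↥(beta0Field A) →+* ℂ) (hq : q.Prime) (hqM : ¬ q ∣ M₁)
  (M : ℕ) [NeZero M] (H : Subgroup (ZMod M)ˣ)
  [IsDiscreteValuationRing ↥(mgcA A (rtk6ebK q (rtk6psiDr M q H)))]
  (f : ↥(beta0Field A) →+* ↥(mgcE A (rtk6ebK q (rtk6psiDr M q H))))
  (hf : ∀ a : ↥(beta0Field A),
    ((f a : ↥(mgcE A (rtk6ebK q (rtk6psiDr M q H)))) : Qb) = (a : Qb))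
  [Algebra ↥(modularFunctionFieldFullC ↥(beta0Field A) (M₁ * q))
    ↥(rtk6diF A (rtk6ebK q (rtk6psiDr M q H)) (M₁ * q) M H)]
  (halg : ∀ z : ↥(modularFunctionFieldFullC ↥(beta0Field A) (M₁ * q)),
    algebraMap ↥(modularFunctionFieldFullC ↥(beta0Field A) (M₁ * q))
      ↥(rtk6diF A (rtk6ebK q (rtk6psiDr M q H)) (M₁ * q) M H) z
        = rtk6c4fdIota f (M₁ * q) M H z)
  (hA : A.LiesOverPrime q) (hd0 : rtk6psiDr M q H ≠ 0)
  {ϖ : ↥(mgcA A (rtk6ebK q (rtk6psiDr M q H)))}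
  (hϖd : ϖ ^ rtk6psiDr M q H =
    beta0RingIncl (A := A)
      (le_sup_left : beta0Field A ≤ beta0Field A ⊔ rtk6ebK q (rtk6psiDr M q H)) π)


include hq hqM hf halg hd0 in
/-- **(T2) for `𝒢 = rtk6fxbG`**, in the shape of the hypothesis `hT2` of `rtk6c4ac_hcr`. -/
theorem rtk6c4ac_hT2
    (hϖq : ϖ ^ rtk6psiDr M q H = ((q : ℕ) : ↥(mgcA A (rtk6ebK q (rtk6psiDr M q H)))))
    (hqN : q ∣ M) (hML : M ∣ M₁ * q)
    (dS : ℕ) (ψr : (ZMod M)ˣ →* (↥(beta0Field A))ˣ) (k : ℕ)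
    (ψ' : Fin k → ((ZMod M)ˣ →* (↥(beta0Field A))ˣ))
    (hψr : Rtk6psiIsR ↥(beta0Field A) M q H ψr)
    (hfam : Rtk6psiIsFam ↥(beta0Field A) M q dS H ψ') :
    ∀ g ∈ rtk6fxbG A (rtk6ebK q (rtk6psiDr M q H)) (M₁ * q) M H q, Rtk6c4aAut
      ↥(zchClosure (A₀ := ↥(beta0Ring A (beta0Field A)))
        ({bgJ ↥(beta0Field A) (M₁ * q)} :
          Set ↥(modularFunctionFieldFullC ↥(beta0Field A) (M₁ * q))))
      ↥(modularFunctionFieldFullC ↥(beta0Field A) (M₁ * q)) ϖ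
      (rtk6diT A (rtk6ebK q (rtk6psiDr M q H)) (M₁ * q) M H)
      (Set.range fun i => rtk6c4fdY f (M₁ * q) M H (ψ' i) hML)
      (rtk6c4fdY f (M₁ * q) M H ψr hML) g := by
  have hq2 : ¬ q ^ 2 ∣ M := by
    intro h
    have h1 : q ^ 2 ∣ M₁ * q := h.trans hML
    rw [pow_two] at h1
    exact hqM (Nat.dvd_of_mul_dvd_mul_right hq.pos h1)
  obtain ⟨c₀, hc₀, hord⟩ := hψr.exists_orderOf hq hqN hq2
  have hϖ0 : ϖ ≠ 0 := by
    rintro rfl
    rw [zero_pow hd0] at hϖq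
    have h2 : ((q : ℕ) : ↥(mgcA A (rtk6ebK q (rtk6psiDr M q H)))) ≠ 0 :=
      Nat.cast_ne_zero.2 hq.ne_zero
    exact h2 hϖq.symm
  exact rtk6fxb_aut (rtk6ebK q (rtk6psiDr M q H)) f hf halg hML
    (zchClosure (A₀ := ↥(beta0Ring A (beta0Field A)))
      ({bgJ ↥(beta0Field A) (M₁ * q)} :
        Set ↥(modularFunctionFieldFullC ↥(beta0Field A) (M₁ * q))))
    hϖ0 (rtk6fxb_hvarpi_of_natCast hϖq) ψr hd0 hord ψ' hfam.map_atR

include hπ ιC hqM in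
/-- **the discharge of `hcr`, chart `j`, for `𝒢 = rtk6fxbG`**: NO hypothesis besides those of
the top level and the data of the chart. -/
theorem rtk6c4ac_hcr_G
    (hϖq : ϖ ^ rtk6psiDr M q H = ((q : ℕ) : ↥(mgcA A (rtk6ebK q (rtk6psiDr M q H)))))
    (hML : M ∣ M₁ * q) (hqN : q ∣ M) (h4 : 4 ∣ M₁ * q) (hstar : IsStarStable M q H)
    (htame : IsTameAt (M₁ * q) M q H)
    (𝔫 : AtPt (F := ↥(rtk6diF A (rtk6ebK q (rtk6psiDr M q H)) (M₁ * q) M H)) ϖ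
      (rtk6diT A (rtk6ebK q (rtk6psiDr M q H)) (M₁ * q) M H))
    (h₁ : atThrough (rtk6gxiPt hq (rtk6ebK q (rtk6psiDr M q H)) M H f hf halg hA hd0 hϖd 𝔫)
      (mgvV hπ ιC hq hqM true))
    (h₂ : atThrough (rtk6gxiPt hq (rtk6ebK q (rtk6psiDr M q H)) M H f hf halg hA hd0 hϖd 𝔫)
      (mgvV hπ ιC hq hqM false)) :
    ∃ (d' dS : ℕ) (ζ X Y w e₁ e₂ : ↥(zchClosure (A₀ := ↥(beta0Ring A (beta0Field A)))
        ({bgJ ↥(beta0Field A) (M₁ * q)} :
          Set ↥(modularFunctionFieldFullC ↥(beta0Field A) (M₁ * q)))))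
      (S : Set ↥(rtk6diF A (rtk6ebK q (rtk6psiDr M q H)) (M₁ * q) M H))
      (y : ↥(rtk6diF A (rtk6ebK q (rtk6psiDr M q H)) (M₁ * q) M H))
      (γ : ↥(modularFunctionFieldFullC ↥(beta0Field A) (M₁ * q))) (n₀ a b : ℤ)
      (σ δ : ↥(rtk6diF A (rtk6ebK q (rtk6psiDr M q H)) (M₁ * q) M H)
        ≃ₐ[↥(modularFunctionFieldFullC ↥(beta0Field A) (M₁ * q))]
        ↥(rtk6diF A (rtk6ebK q (rtk6psiDr M q H)) (M₁ * q) M H)),
      Rtk6c4CrossE (rtk6gxiJ (rtk6ebK q (rtk6psiDr M q H)) M H f hf halg)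
        (algebraMap ↥(zchClosure (A₀ := ↥(mgcA A (rtk6ebK q (rtk6psiDr M q H))))
          ({rtk6diT A (rtk6ebK q (rtk6psiDr M q H)) (M₁ * q) M H} :
            Set ↥(rtk6diF A (rtk6ebK q (rtk6psiDr M q H)) (M₁ * q) M H)))
          ↥(rtk6diF A (rtk6ebK q (rtk6psiDr M q H)) (M₁ * q) M H)) 𝔫.1 d' dS ζ
        (algebraMap ↥(beta0Ring A (beta0Field A))
          ↥(zchClosure (A₀ := ↥(beta0Ring A (beta0Field A)))
            ({bgJ ↥(beta0Field A) (M₁ * q)} :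
              Set ↥(modularFunctionFieldFullC ↥(beta0Field A) (M₁ * q)))) π) X Y w S
        (algebraMap ↥(mgcA A (rtk6ebK q (rtk6psiDr M q H)))
          ↥(rtk6diF A (rtk6ebK q (rtk6psiDr M q H)) (M₁ * q) M H) ϖ) y γ e₁ e₂ n₀ a b σ δ ∧
      (X : ↥(modularFunctionFieldFullC ↥(beta0Field A) (M₁ * q))) ∈
        (mgvV hπ ιC hq hqM true).nonunits ∧
      (Y : ↥(modularFunctionFieldFullC ↥(beta0Field A) (M₁ * q))) ∉
        (mgvV hπ ιC hq hqM true).nonunits ∧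
      (Y : ↥(modularFunctionFieldFullC ↥(beta0Field A) (M₁ * q))) ∈
        (mgvV hπ ιC hq hqM false).nonunits ∧
      (X : ↥(modularFunctionFieldFullC ↥(beta0Field A) (M₁ * q))) ∉
        (mgvV hπ ιC hq hqM false).nonunits ∧
      ∀ g ∈ rtk6fxbG A (rtk6ebK q (rtk6psiDr M q H)) (M₁ * q) M H q, Rtk6c4aAut
        ↥(zchClosure (A₀ := ↥(beta0Ring A (beta0Field A)))
          ({bgJ ↥(beta0Field A) (M₁ * q)} :
            Set ↥(modularFunctionFieldFullC ↥(beta0Field A) (M₁ * q))))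
        ↥(modularFunctionFieldFullC ↥(beta0Field A) (M₁ * q)) ϖ
        (rtk6diT A (rtk6ebK q (rtk6psiDr M q H)) (M₁ * q) M H) S y g :=
  rtk6c4ac_hcr hπ ιC hq hqM M H f hf halg hA hd0 hϖd (rtk6c4ac_rigid hq hqM h4) hϖq hqN hML
    (rtk6c4ac_three_le hq hqM h4 hqN (NeZero.ne M)) hstar htame
    (rtk6fxbG A (rtk6ebK q (rtk6psiDr M q H)) (M₁ * q) M H q)
    (fun dS ψr k ψ' hψr hfam =>
      rtk6c4ac_hT2 hq hqM M H f hf halg hd0 hϖq hqN hML dS ψr k ψ' hψr hfam)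
    𝔫 h₁ h₂

end CrG

end Fermat.Agent.RT.K6

end
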