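/-
K-machine, piece K6, GEN-inst, half (G-cross), part 3 (helper54): **the chart `1 / j`** — twins of
`GenCross.lean` / `GenCrossInst.lean` on helper71's (LF) for the chart `1 / j` (`LFInv.lean`).

* `rtk6gx_cross_pos_inv`, `rtk6gx_cross_Jinv` : the `R₀`-level data of a crossing point of the chart
  `1 / j` of `K = F_{M q}(ℚ̄^I)`;
* `rtk6gxiJInv`, `rtk6gxiPtInv` : `j : R₀ →+* B` and `𝔫 ∩ R₀` for the charts `1 / j`;
* `rtk6gxi_crossE_inv` : **the concrete structure `Rtk6c4CrossE`** at a closed point of the chart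
  `1 / j` of `F = rtk6diF A K₁ (M₁ q) M H` over a crossing point of the chart `1 / j` of `K`.
-/
import Fermat.Agent.RT.K6.GenCrossInst
import Fermat.Agent.RT.K6.LFInv

set_option autoImplicit false
set_option linter.style.haveILetI false
set_option linter.unusedSectionVars false
set_option linter.unusedVariables false
set_option linter.style.longLine false
set_option synthInstance.maxHeartbeats 400000
set_option maxHeartbeats 4000000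

noncomputable section

namespace Fermat.Agent.RT.K6

open ModularCurve Polynomial IntermediateField Fermat.Agent.INJ Fermat.Agent.AL AlgebraicCurve
open Fermat.Agent.ES Fermat.Agent.ES.G2 Fermat.Agent.STB Fermat.Agent.UNIP Fermat.Agent.S36
open Fermat.Agent.RIB.MP Fermat.Agent.ES1

/-! ### the base chart `1 / j` -/

section Base

variable {A : ValuationSubring Qb} {q M : ℕ} [NeZero q] [NeZero M] [NeZero (M * q)]
  [IsDiscreteValuationRing ↥(beta0Ring A (beta0Field A))]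
  {π : ↥(beta0Ring A (beta0Field A))} (hπ : Irreducible π)
  (ιC : ↥(beta0Field A) →+* ℂ) (hq : q.Prime) (hqM : ¬ q ∣ M)

include hπ ιC hq hqM in
/-- the positions of the coordinates of a thin crossing point with respect to `V_∞`, `V_0` -/
theorem rtk6gx_cross_pos_inv
    (𝔫 : AtPt (F := ↥(modularFunctionFieldFullC ↥(beta0Field A) (M * q))) π
      (bgJ ↥(beta0Field A) (M * q))⁻¹)
    {X Y : ↥(zchClosure (A₀ := ↥(beta0Ring A (beta0Field A)))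
      ({(bgJ ↥(beta0Field A) (M * q))⁻¹} :
        Set ↥(modularFunctionFieldFullC ↥(beta0Field A) (M * q))))}
    (h : Rtk6lfCrossAt (mgvV hπ ιC hq hqM true) (mgvV hπ ιC hq hqM false) 𝔫 X Y) :
    X ∈ 𝔫.1 ∧ Y ∈ 𝔫.1 ∧
      (Y : ↥(modularFunctionFieldFullC ↥(beta0Field A) (M * q))) ∉
        (mgvV hπ ιC hq hqM true).nonunits ∧
      (X : ↥(modularFunctionFieldFullC ↥(beta0Field A) (M * q))) ∉
        (mgvV hπ ιC hq hqM false).nonunits := by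
  haveI := 𝔫.2.1.isPrime
  obtain ⟨h₁, h₂, hX, hY, ⟨w, hw, hXY⟩, hgen⟩ := h
  refine ⟨h₁ X hX, h₂ Y hY, ?_, ?_⟩
  · exact rtk6lfp_not_mem_nonunits _
      (rtk6lfp_cross_val (B := ↥(zchClosure (A₀ := ↥(beta0Ring A (beta0Field A)))
        ({(bgJ ↥(beta0Field A) (M * q))⁻¹} :
          Set ↥(modularFunctionFieldFullC ↥(beta0Field A) (M * q))))) 𝔫.1
        (mgvV hπ ιC hq hqM true) (fun b => mgv_hBV₂ hπ ιC hq hqM true _ (mem_zchClosure.mp b.2))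
        (algebraMap ↥(beta0Ring A (beta0Field A)) _ π)
        (ribmp_fc_hU hπ ιC hq hqM true) (ribmp_fc_hπ0 hπ) h₁ hw hXY hX).1
  · have hYX : w * algebraMap ↥(beta0Ring A (beta0Field A)) _ π = Y * X :=
      hXY.trans (mul_comm X Y)
    exact rtk6lfp_not_mem_nonunits _
      (rtk6lfp_cross_val (B := ↥(zchClosure (A₀ := ↥(beta0Ring A (beta0Field A)))
        ({(bgJ ↥(beta0Field A) (M * q))⁻¹} :
          Set ↥(modularFunctionFieldFullC ↥(beta0Field A) (M * q))))) 𝔫.1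
        (mgvV hπ ιC hq hqM false) (fun b => mgv_hBV₂ hπ ιC hq hqM false _ (mem_zchClosure.mp b.2))
        (algebraMap ↥(beta0Ring A (beta0Field A)) _ π)
        (ribmp_fc_hU hπ ιC hq hqM false) (ribmp_fc_hπ0 hπ) h₂ hw hYX hY).1

include hπ ιC hq hqM in
/-- **(G-cross), `R₀`-level data at a crossing point of the chart `1 / j`** of `F_{Mq}(ℚ̄^I)`, rigid
level: the thin node `w π = X Y`, `𝔫 = (π, X, Y)` locally, `X ∈ 𝔪(V_∞) ∖ 𝔪(V_0)`,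
`Y ∈ 𝔪(V_0) ∖ 𝔪(V_∞)`, and (LF) `e₂ · u = e₁ · Y ^ n₀ · γ ^ m` with `e₁, e₂ ∈ R₀ ∖ 𝔫`. -/
theorem rtk6gx_cross_Jinv (hA : A.LiesOverPrime q)
    (rigid : (q ≠ 2 → 4 ∣ M) ∧ (q = 2 → 9 ∣ M))
    (m : ℕ) {y : ↥(modularFunctionFieldFullC ↥(beta0Field A) (M * q))} (hy : y ≠ 0)
    (hhor : ∀ P : Place ↥(beta0Field A) ↥(modularFunctionFieldFullC ↥(beta0Field A) (M * q)),
      (m : ℤ) ∣ P.ord y)
    (hy₁ : (mgvV hπ ιC hq hqM true).valuation y = 1) {n₀ : ℤ}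
    (hn₀ : (mgvV hπ ιC hq hqM false).valuation y = (mgvV hπ ιC hq hqM false).valuation
      (algebraMap ↥(beta0Ring A (beta0Field A))
        ↥(modularFunctionFieldFullC ↥(beta0Field A) (M * q)) π) ^ n₀)
    (𝔫 : AtPt (F := ↥(modularFunctionFieldFullC ↥(beta0Field A) (M * q))) π
      (bgJ ↥(beta0Field A) (M * q))⁻¹)
    (h₁ : atThrough 𝔫 (mgvV hπ ιC hq hqM true)) (h₂ : atThrough 𝔫 (mgvV hπ ιC hq hqM false)) :
    ∃ (X Y w e₁ e₂ : ↥(zchClosure (A₀ := ↥(beta0Ring A (beta0Field A)))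
        ({(bgJ ↥(beta0Field A) (M * q))⁻¹} :
          Set ↥(modularFunctionFieldFullC ↥(beta0Field A) (M * q)))))
      (γ : ↥(modularFunctionFieldFullC ↥(beta0Field A) (M * q))),
      w ∉ 𝔫.1 ∧
      w * algebraMap ↥(beta0Ring A (beta0Field A))
        ↥(zchClosure (A₀ := ↥(beta0Ring A (beta0Field A)))
          ({(bgJ ↥(beta0Field A) (M * q))⁻¹} :
            Set ↥(modularFunctionFieldFullC ↥(beta0Field A) (M * q)))) π = X * Y ∧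
      X ∈ 𝔫.1 ∧ Y ∈ 𝔫.1 ∧
      NodesLocGen 𝔫.1 {algebraMap ↥(beta0Ring A (beta0Field A))
        ↥(zchClosure (A₀ := ↥(beta0Ring A (beta0Field A)))
          ({(bgJ ↥(beta0Field A) (M * q))⁻¹} :
            Set ↥(modularFunctionFieldFullC ↥(beta0Field A) (M * q)))) π, X, Y} ∧
      (X : ↥(modularFunctionFieldFullC ↥(beta0Field A) (M * q))) ∈
        (mgvV hπ ιC hq hqM true).nonunits ∧
      (Y : ↥(modularFunctionFieldFullC ↥(beta0Field A) (M * q))) ∉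
        (mgvV hπ ιC hq hqM true).nonunits ∧
      (Y : ↥(modularFunctionFieldFullC ↥(beta0Field A) (M * q))) ∈
        (mgvV hπ ιC hq hqM false).nonunits ∧
      (X : ↥(modularFunctionFieldFullC ↥(beta0Field A) (M * q))) ∉
        (mgvV hπ ιC hq hqM false).nonunits ∧
      e₁ ∉ 𝔫.1 ∧ e₂ ∉ 𝔫.1 ∧ γ ≠ 0 ∧
      (e₂ : ↥(modularFunctionFieldFullC ↥(beta0Field A) (M * q))) * y =
        (e₁ : ↥(modularFunctionFieldFullC ↥(beta0Field A) (M * q))) *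
          (Y : ↥(modularFunctionFieldFullC ↥(beta0Field A) (M * q))) ^ n₀ * γ ^ m ∧
      (mgvV hπ ιC hq hqM true).valuation γ = 1 ∧
      (mgvV hπ ιC hq hqM false).valuation γ = 1 := by
  rcases rtk6lfi0_LF_Jinv hπ ιC hq hqM hA rigid m hy hhor hy₁ hn₀ 𝔫 with
    ⟨X, Y, hc, γ, ε, hε, hyε, hγ, hγ₁, hγ₂⟩ | ⟨-, hno, -⟩ | ⟨-, hno, -⟩
  · obtain ⟨hXn, hYn, hYV, hXV⟩ := rtk6gx_cross_pos_inv hπ ιC hq hqM 𝔫 hc
    obtain ⟨e₁, e₂, he₁, he₂, hee⟩ := rtk6gx_unit_frac 𝔫 hε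
    obtain ⟨-, -, hX, hY, ⟨w, hw, hXY⟩, hgen⟩ := hc
    refine ⟨X, Y, w, e₁, e₂, γ, hw, hXY, hXn, hYn, hgen, hX, hYV, hY, hXV, he₁, he₂, hγ, ?_,
      hγ₁, hγ₂⟩
    rw [hyε, ← hee]
    ring
  · exact absurd h₁ hno
  · exact absurd h₂ hno

end Base

/-! ### the top chart `1 / j` -/

section Inst

variable {A : ValuationSubring Qb} {q M₁ : ℕ} [NeZero q] [NeZero M₁] [NeZero (M₁ * q)]
  (K₁ : IntermediateField ℚ Qb) (M : ℕ) [NeZero M] (H : Subgroup (ZMod M)ˣ)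
  (f : ↥(beta0Field A) →+* ↥(mgcE A K₁))
  (hf : ∀ a : ↥(beta0Field A), ((f a : ↥(mgcE A K₁)) : Qb) = (a : Qb))
  [Algebra ↥(modularFunctionFieldFullC ↥(beta0Field A) (M₁ * q))
    ↥(rtk6diF A K₁ (M₁ * q) M H)]
  (halg : ∀ z : ↥(modularFunctionFieldFullC ↥(beta0Field A) (M₁ * q)),
    algebraMap ↥(modularFunctionFieldFullC ↥(beta0Field A) (M₁ * q))
      ↥(rtk6diF A K₁ (M₁ * q) M H) z = rtk6c4fdIota f (M₁ * q) M H z)

include halg in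
/-- the coordinate `j` of `K` maps to the coordinate `j` of `F` -/
theorem rtk6gxi_hu_inv :
    algebraMap ↥(modularFunctionFieldFullC ↥(beta0Field A) (M₁ * q))
        ↥(rtk6diF A K₁ (M₁ * q) M H) (bgJ ↥(beta0Field A) (M₁ * q))⁻¹ =
      (rtk6diT A K₁ (M₁ * q) M H)⁻¹ := by
  rw [map_inv₀, rtk6gxi_hu K₁ M H f halg]

/-- **`j : R₀ →+* B`** (the base chart `1 / j` over `A ∩ ℚ̄^I` → the top chart `1 / j` over `A₁`) -/
def rtk6gxiJInv : ↥(zchClosure (A₀ := ↥(beta0Ring A (beta0Field A)))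
      ({(bgJ ↥(beta0Field A) (M₁ * q))⁻¹} :
        Set ↥(modularFunctionFieldFullC ↥(beta0Field A) (M₁ * q)))) →+*
    ↥(zchClosure (A₀ := ↥(mgcA A K₁))
      ({(rtk6diT A K₁ (M₁ * q) M H)⁻¹} : Set ↥(rtk6diF A K₁ (M₁ * q) M H))) :=
  rtk6gxaJ (beta0RingIncl (A := A) (le_sup_left : beta0Field A ≤ beta0Field A ⊔ K₁))
    (rtk6gxi_hgφ K₁ M H f hf halg) (rtk6gxi_hu_inv K₁ M H f halg)

theorem rtk6gxiJInv_coe (x : ↥(zchClosure (A₀ := ↥(beta0Ring A (beta0Field A)))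
      ({(bgJ ↥(beta0Field A) (M₁ * q))⁻¹} :
        Set ↥(modularFunctionFieldFullC ↥(beta0Field A) (M₁ * q))))) :
    ((rtk6gxiJInv K₁ M H f hf halg x : ↥(zchClosure (A₀ := ↥(mgcA A K₁))
      ({(rtk6diT A K₁ (M₁ * q) M H)⁻¹} : Set ↥(rtk6diF A K₁ (M₁ * q) M H)))) :
        ↥(rtk6diF A K₁ (M₁ * q) M H)) =
      algebraMap ↥(modularFunctionFieldFullC ↥(beta0Field A) (M₁ * q))
        ↥(rtk6diF A K₁ (M₁ * q) M H)
        (x : ↥(modularFunctionFieldFullC ↥(beta0Field A) (M₁ * q))) := rfl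

end Inst

section Cross

variable {A : ValuationSubring Qb} {q M₁ : ℕ} [NeZero q] [NeZero M₁] [NeZero (M₁ * q)]
  [IsDiscreteValuationRing ↥(beta0Ring A (beta0Field A))]
  {π : ↥(beta0Ring A (beta0Field A))} (hπ : Irreducible π)
  (ιC : ↥(beta0Field A) →+* ℂ) (hq : q.Prime) (hqM : ¬ q ∣ M₁)
  (K₁ : IntermediateField ℚ Qb) [NumberField ↥K₁] [IsGalois ℚ ↥K₁]
  (M : ℕ) [NeZero M] (H : Subgroup (ZMod M)ˣ)
  (f : ↥(beta0Field A) →+* ↥(mgcE A K₁))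
  (hf : ∀ a : ↥(beta0Field A), ((f a : ↥(mgcE A K₁)) : Qb) = (a : Qb))
  [Algebra ↥(modularFunctionFieldFullC ↥(beta0Field A) (M₁ * q))
    ↥(rtk6diF A K₁ (M₁ * q) M H)]
  (halg : ∀ z : ↥(modularFunctionFieldFullC ↥(beta0Field A) (M₁ * q)),
    algebraMap ↥(modularFunctionFieldFullC ↥(beta0Field A) (M₁ * q))
      ↥(rtk6diF A K₁ (M₁ * q) M H) z = rtk6c4fdIota f (M₁ * q) M H z)
  (hA : A.LiesOverPrime q) {d : ℕ} (hd0 : d ≠ 0) {ϖ : ↥(mgcA A K₁)}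
  (hϖd : ϖ ^ d =
    beta0RingIncl (A := A) (le_sup_left : beta0Field A ≤ beta0Field A ⊔ K₁) π)

/-- **the closed point `𝔫 ∩ R₀`** of the base chart `1 / j` -/
def rtk6gxiPtInv (𝔫 : AtPt (F := ↥(rtk6diF A K₁ (M₁ * q) M H)) ϖ (rtk6diT A K₁ (M₁ * q) M H)⁻¹) :
    AtPt (F := ↥(modularFunctionFieldFullC ↥(beta0Field A) (M₁ * q))) π
      (bgJ ↥(beta0Field A) (M₁ * q))⁻¹ :=
  rtk6gxaPt (beta0RingIncl (A := A) (le_sup_left : beta0Field A ≤ beta0Field A ⊔ K₁))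
    (rtk6gxi_hgφ K₁ M H f hf halg) (rtk6gxi_hu_inv K₁ M H f halg) (rtk6gxi_hg K₁ hq hA) hd0 hϖd 𝔫

theorem rtk6gxi_mem_pt_inv
    (𝔫 : AtPt (F := ↥(rtk6diF A K₁ (M₁ * q) M H)) ϖ (rtk6diT A K₁ (M₁ * q) M H)⁻¹)
    (x : ↥(zchClosure (A₀ := ↥(beta0Ring A (beta0Field A)))
      ({(bgJ ↥(beta0Field A) (M₁ * q))⁻¹} :
        Set ↥(modularFunctionFieldFullC ↥(beta0Field A) (M₁ * q))))) :
    x ∈ (rtk6gxiPtInv hq K₁ M H f hf halg hA hd0 hϖd 𝔫).1 ↔ rtk6gxiJInv K₁ M H f hf halg x ∈ 𝔫.1 :=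
  Iff.rfl

include hπ hq hA hd0 hϖd in
/-- `q ∈ 𝔫` -/
theorem rtk6gxi_q_mem_inv
    (𝔫 : AtPt (F := ↥(rtk6diF A K₁ (M₁ * q) M H)) ϖ (rtk6diT A K₁ (M₁ * q) M H)⁻¹) :
    ((q : ℕ) : ↥(zchClosure (A₀ := ↥(mgcA A K₁))
      ({(rtk6diT A K₁ (M₁ * q) M H)⁻¹} : Set ↥(rtk6diF A K₁ (M₁ * q) M H)))) ∈ 𝔫.1 := by
  obtain ⟨v, hv⟩ := (rtk6lfb0_hqπ hπ hq hA).symm
  -- `q = π v`
  have h1 : ((q : ℕ) : ↥(mgcA A K₁)) =
      beta0RingIncl (A := A) (le_sup_left : beta0Field A ≤ beta0Field A ⊔ K₁) π *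
        beta0RingIncl (A := A) (le_sup_left : beta0Field A ≤ beta0Field A ⊔ K₁)
          (v : ↥(beta0Ring A (beta0Field A))) := by
    rw [← map_mul, hv, map_natCast]
  have h2 : ((q : ℕ) : ↥(zchClosure (A₀ := ↥(mgcA A K₁))
      ({(rtk6diT A K₁ (M₁ * q) M H)⁻¹} : Set ↥(rtk6diF A K₁ (M₁ * q) M H)))) =
      algebraMap ↥(mgcA A K₁) _ ((q : ℕ) : ↥(mgcA A K₁)) := (map_natCast _ q).symm
  rw [h2, h1, ← hϖd, map_mul, map_pow]
  exact 𝔫.1.mul_mem_right _ (Ideal.pow_mem_of_mem _ 𝔫.2.2 d (Nat.pos_of_ne_zero hd0))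

include hπ ιC hqM in
/-- **(G-cross), two exponents: the concrete structure `Rtk6c4CrossE`** at a closed point `𝔫` of
the chart `1 / j` of `F` over a crossing point of the chart `1 / j` of `K` (`dS` the exponent of the étale
generators, prime to `q`). -/
theorem rtk6gxi_crossE_inv {dS : ℕ} (hqdS : ¬ q ∣ dS) (rigid : (q ≠ 2 → 4 ∣ M₁) ∧ (q = 2 → 9 ∣ M₁)) (hqd : ¬ q ∣ d)
    (𝔫 : AtPt (F := ↥(rtk6diF A K₁ (M₁ * q) M H)) ϖ (rtk6diT A K₁ (M₁ * q) M H)⁻¹)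
    (h₁ : atThrough (rtk6gxiPtInv hq K₁ M H f hf halg hA hd0 hϖd 𝔫) (mgvV hπ ιC hq hqM true))
    (h₂ : atThrough (rtk6gxiPtInv hq K₁ M H f hf halg hA hd0 hϖd 𝔫) (mgvV hπ ιC hq hqM false))
    {ζ : ↥(zchClosure (A₀ := ↥(beta0Ring A (beta0Field A)))
      ({(bgJ ↥(beta0Field A) (M₁ * q))⁻¹} :
        Set ↥(modularFunctionFieldFullC ↥(beta0Field A) (M₁ * q))))}
    (hζ : IsPrimitiveRoot ζ d)
    -- the Kummer element `u = y ^ d ∈ K`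
    {z : ↥(modularFunctionFieldFullC ↥(beta0Field A) (M₁ * q))} (hz0 : z ≠ 0)
    (hhor : ∀ P : Place ↥(beta0Field A) ↥(modularFunctionFieldFullC ↥(beta0Field A) (M₁ * q)),
      (d : ℤ) ∣ P.ord z)
    (hz₁ : (mgvV hπ ιC hq hqM true).valuation z = 1) {n₀ : ℤ}
    (hn₀ : (mgvV hπ ιC hq hqM false).valuation z = (mgvV hπ ιC hq hqM false).valuation
      (algebraMap ↥(beta0Ring A (beta0Field A))
        ↥(modularFunctionFieldFullC ↥(beta0Field A) (M₁ * q)) π) ^ n₀)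
    {y : ↥(rtk6diF A K₁ (M₁ * q) M H)}
    (hzy : algebraMap ↥(modularFunctionFieldFullC ↥(beta0Field A) (M₁ * q))
      ↥(rtk6diF A K₁ (M₁ * q) M H) z = y ^ d)
    {a b : ℤ} (hab : a * n₀ - b * d = 1)
    -- the field-theoretic data
    {S : Set ↥(rtk6diF A K₁ (M₁ * q) M H)} (hS : S.Finite)
    (hSet : ∀ t ∈ S, ∃ a b : ↥(zchClosure (A₀ := ↥(beta0Ring A (beta0Field A)))
        ({(bgJ ↥(beta0Field A) (M₁ * q))⁻¹} :
          Set ↥(modularFunctionFieldFullC ↥(beta0Field A) (M₁ * q)))),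
      rtk6gxiJInv K₁ M H f hf halg a ∉ 𝔫.1 ∧ rtk6gxiJInv K₁ M H f hf halg b ∉ 𝔫.1 ∧
      algebraMap ↥(zchClosure (A₀ := ↥(beta0Ring A (beta0Field A)))
        ({(bgJ ↥(beta0Field A) (M₁ * q))⁻¹} :
          Set ↥(modularFunctionFieldFullC ↥(beta0Field A) (M₁ * q))))
        ↥(rtk6diF A K₁ (M₁ * q) M H) b * t ^ dS =
      algebraMap ↥(zchClosure (A₀ := ↥(beta0Ring A (beta0Field A)))
        ({(bgJ ↥(beta0Field A) (M₁ * q))⁻¹} :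
          Set ↥(modularFunctionFieldFullC ↥(beta0Field A) (M₁ * q))))
        ↥(rtk6diF A K₁ (M₁ * q) M H) a)
    (hgen : Algebra.adjoin ↥(modularFunctionFieldFullC ↥(beta0Field A) (M₁ * q))
      (S ∪ {algebraMap ↥(mgcA A K₁) ↥(rtk6diF A K₁ (M₁ * q) M H) ϖ, y}) = ⊤)
    {σ δ : ↥(rtk6diF A K₁ (M₁ * q) M H) ≃ₐ[↥(modularFunctionFieldFullC ↥(beta0Field A) (M₁ * q))]
      ↥(rtk6diF A K₁ (M₁ * q) M H)}
    (hσS : ∀ t ∈ S, σ t = t)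
    (hσϖ : σ (algebraMap ↥(mgcA A K₁) ↥(rtk6diF A K₁ (M₁ * q) M H) ϖ) =
      algebraMap ↥(zchClosure (A₀ := ↥(beta0Ring A (beta0Field A)))
        ({(bgJ ↥(beta0Field A) (M₁ * q))⁻¹} :
          Set ↥(modularFunctionFieldFullC ↥(beta0Field A) (M₁ * q))))
        ↥(rtk6diF A K₁ (M₁ * q) M H) ζ *
      algebraMap ↥(mgcA A K₁) ↥(rtk6diF A K₁ (M₁ * q) M H) ϖ)
    (hσy : σ y = y) (hδS : ∀ t ∈ S, δ t = t)
    (hδϖ : δ (algebraMap ↥(mgcA A K₁) ↥(rtk6diF A K₁ (M₁ * q) M H) ϖ) =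
      algebraMap ↥(mgcA A K₁) ↥(rtk6diF A K₁ (M₁ * q) M H) ϖ)
    (hδy : δ y = algebraMap ↥(zchClosure (A₀ := ↥(beta0Ring A (beta0Field A)))
        ({(bgJ ↥(beta0Field A) (M₁ * q))⁻¹} :
          Set ↥(modularFunctionFieldFullC ↥(beta0Field A) (M₁ * q))))
        ↥(rtk6diF A K₁ (M₁ * q) M H) ζ ^ n₀ * y) :
    ∃ (X Y w e₁ e₂ : ↥(zchClosure (A₀ := ↥(beta0Ring A (beta0Field A)))
        ({(bgJ ↥(beta0Field A) (M₁ * q))⁻¹} :
          Set ↥(modularFunctionFieldFullC ↥(beta0Field A) (M₁ * q)))))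
      (γ : ↥(modularFunctionFieldFullC ↥(beta0Field A) (M₁ * q))),
      Rtk6c4CrossE (rtk6gxiJInv K₁ M H f hf halg)
        (algebraMap ↥(zchClosure (A₀ := ↥(mgcA A K₁))
          ({(rtk6diT A K₁ (M₁ * q) M H)⁻¹} : Set ↥(rtk6diF A K₁ (M₁ * q) M H)))
          ↥(rtk6diF A K₁ (M₁ * q) M H)) 𝔫.1 d dS ζ
        (algebraMap ↥(beta0Ring A (beta0Field A))
          ↥(zchClosure (A₀ := ↥(beta0Ring A (beta0Field A)))
            ({(bgJ ↥(beta0Field A) (M₁ * q))⁻¹} :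
              Set ↥(modularFunctionFieldFullC ↥(beta0Field A) (M₁ * q)))) π) X Y w S
        (algebraMap ↥(mgcA A K₁) ↥(rtk6diF A K₁ (M₁ * q) M H) ϖ) y γ e₁ e₂ n₀ a b σ δ ∧
      (X : ↥(modularFunctionFieldFullC ↥(beta0Field A) (M₁ * q))) ∈
        (mgvV hπ ιC hq hqM true).nonunits ∧
      (Y : ↥(modularFunctionFieldFullC ↥(beta0Field A) (M₁ * q))) ∉
        (mgvV hπ ιC hq hqM true).nonunits ∧
      (Y : ↥(modularFunctionFieldFullC ↥(beta0Field A) (M₁ * q))) ∈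
        (mgvV hπ ιC hq hqM false).nonunits ∧
      (X : ↥(modularFunctionFieldFullC ↥(beta0Field A) (M₁ * q))) ∉
        (mgvV hπ ιC hq hqM false).nonunits := by
  obtain ⟨X, Y, w, e₁, e₂, γ, hw, hXY, hX, hY, hgen₀, hXV, hYV, hYV', hXV', he₁, he₂, hγ, hLF,
    -, -⟩ := rtk6gx_cross_Jinv hπ ιC hq hqM hA rigid d hz0 hhor hz₁ hn₀
      (rtk6gxiPtInv hq K₁ M H f hf halg hA hd0 hϖd 𝔫) h₁ h₂
  have hdn : ((d : ℕ) : ↥(zchClosure (A₀ := ↥(mgcA A K₁))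
      ({(rtk6diT A K₁ (M₁ * q) M H)⁻¹} : Set ↥(rtk6diF A K₁ (M₁ * q) M H)))) ∉ 𝔫.1 :=
    rtk6gxi_natCast_not_mem 𝔫.1 𝔫.2.1.ne_top (rtk6gxi_q_mem_inv hπ hq K₁ M H hA hd0 hϖd 𝔫)
      ((Nat.coprime_comm.1 ((Nat.Prime.coprime_iff_not_dvd hq).2 hqd)))
  have hdSn : ((dS : ℕ) : ↥(zchClosure (A₀ := ↥(mgcA A K₁))
      ({(rtk6diT A K₁ (M₁ * q) M H)⁻¹} : Set ↥(rtk6diF A K₁ (M₁ * q) M H)))) ∉ 𝔫.1 :=
    rtk6gxi_natCast_not_mem 𝔫.1 𝔫.2.1.ne_top (rtk6gxi_q_mem_inv hπ hq K₁ M H hA hd0 hϖd 𝔫)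
      ((Nat.coprime_comm.1 ((Nat.Prime.coprime_iff_not_dvd hq).2 hqdS)))
  exact ⟨X, Y, w, e₁, e₂, γ,
    rtk6gxa_crossE (beta0RingIncl (A := A) (le_sup_left : beta0Field A ≤ beta0Field A ⊔ K₁))
      (rtk6gxi_hgφ K₁ M H f hf halg) (rtk6gxi_hu_inv K₁ M H f halg) (rtk6gxi_hg K₁ hq hA) hd0 hϖd 𝔫
      hdn hdSn hζ hw hXY hX hY hgen₀ he₁ he₂ hγ hLF hzy hab hS hSet hgen hσS hσϖ hσy hδS hδϖ hδy,
    hXV, hYV, hYV', hXV'⟩

end Cross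

end Fermat.Agent.RT.K6
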