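/-
K-machine, piece K6, piece C4-χ-ASM (helper94), concrete part, chart `1 / j`:
**the dichotomy with C4+ at every closed point of the chart `1 / j` of
`F₁ = rtk6diF A K₁ (M₁ q) M H`** over the thin ramified base `A₁ = mgcA A K₁`
(uniformizer `ϖ`, `ϖ ^ d = π`).  LITERAL twin of `C4AsmJ.lean` (`rtk6c4aj_plusAt`):
`bgJ ↦ (bgJ)⁻¹`, `rtk6diT ↦ (rtk6diT)⁻¹`, `rtk6gxiJ ↦ rtk6gxiJInv`, `rtk6gxiPt ↦ rtk6gxiPtInv`
(`GenCrossInv.lean`, helper54), thin dichotomy `rtk6lfi0_thinAt_Jinv` (`LFInv.lean`).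

* `rtk6c4aj_plusAt_inv` : `Rtk6c4aPlusAt V 𝒢 𝔫` from `hsm`, `hcr`, `hthr` (same shapes as on the
  chart `j`).
-/
import Fermat.Agent.RT.K6.C4Asm
import Fermat.Agent.RT.K6.GenCrossInv
import Fermat.Agent.RT.K6.LFInv

set_option autoImplicit false
set_option linter.style.haveILetI false
set_option linter.unusedSectionVars false
set_option linter.unusedVariables false
set_option linter.style.longLine false
set_option synthInstance.maxHeartbeats 400000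
set_option maxHeartbeats 4000000

noncomputable section

namespace Fermat.Agent.RT.K6

open ModularCurve Polynomial IntermediateField Fermat.Agent.INJ Fermat.Agent.AL AlgebraicCurve
open Fermat.Agent.ES Fermat.Agent.ES.G2 Fermat.Agent.STB Fermat.Agent.UNIP Fermat.Agent.S36
open Fermat.Agent.RIB.MP Fermat.Agent.ES1

section AsmJInv

variable {A : ValuationSubring Qb} {q M₁ : ℕ} [NeZero q] [NeZero M₁] [NeZero (M₁ * q)]
  [IsDiscreteValuationRing ↥(beta0Ring A (beta0Field A))]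
  {π : ↥(beta0Ring A (beta0Field A))} (hπ : Irreducible π)
  (ιC : ↥(beta0Field A) →+* ℂ) (hq : q.Prime) (hqM : ¬ q ∣ M₁)
  (K₁ : IntermediateField ℚ Qb) [NumberField ↥K₁] [IsGalois ℚ ↥K₁]
  [IsDiscreteValuationRing ↥(mgcA A K₁)]
  (M : ℕ) [NeZero M] (H : Subgroup (ZMod M)ˣ)
  (f : ↥(beta0Field A) →+* ↥(mgcE A K₁))
  (hf : ∀ a : ↥(beta0Field A), ((f a : ↥(mgcE A K₁)) : Qb) = (a : Qb))
  [Algebra ↥(modularFunctionFieldFullC ↥(beta0Field A) (M₁ * q))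
    ↥(rtk6diF A K₁ (M₁ * q) M H)]
  (halg : ∀ z : ↥(modularFunctionFieldFullC ↥(beta0Field A) (M₁ * q)),
    algebraMap ↥(modularFunctionFieldFullC ↥(beta0Field A) (M₁ * q))
      ↥(rtk6diF A K₁ (M₁ * q) M H) z = rtk6c4fdIota f (M₁ * q) M H z)
  (hA : A.LiesOverPrime q) {d : ℕ} (hd0 : d ≠ 0) {ϖ : ↥(mgcA A K₁)}
  (hϖd : ϖ ^ d =
    beta0RingIncl (A := A) (le_sup_left : beta0Field A ≤ beta0Field A ⊔ K₁) π)

include hπ ιC hqM in
/-- **C4-χ-ASM, chart `1 / j`.** -/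
theorem rtk6c4aj_plusAt_inv (rigid : (q ≠ 2 → 4 ∣ M₁) ∧ (q = 2 → 9 ∣ M₁))
    {κ : Type*} (V : κ → ValuationSubring ↥(rtk6diF A K₁ (M₁ * q) M H))
    (hBV : ∀ c (z : ↥(rtk6diF A K₁ (M₁ * q) M H)),
      IsIntegral ↥(Algebra.adjoin ↥(mgcA A K₁)
        ({(rtk6diT A K₁ (M₁ * q) M H)⁻¹} : Set ↥(rtk6diF A K₁ (M₁ * q) M H))) z → z ∈ V c)
    (𝒢 : Set (SemilinearAut ↥(mgcE A K₁) ↥(rtk6diF A K₁ (M₁ * q) M H)))
    (𝔫 : AtPt (F := ↥(rtk6diF A K₁ (M₁ * q) M H)) ϖ ((rtk6diT A K₁ (M₁ * q) M H)⁻¹))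
    -- (SM-inst)
    (hsm : (∃ s₀ : ↥(zchClosure (A₀ := ↥(beta0Ring A (beta0Field A)))
          ({(bgJ ↥(beta0Field A) (M₁ * q))⁻¹} :
            Set ↥(modularFunctionFieldFullC ↥(beta0Field A) (M₁ * q)))),
        s₀ ∈ (rtk6gxiPtInv hq K₁ M H f hf halg hA hd0 hϖd 𝔫).1 ∧
        NodesLocGen (rtk6gxiPtInv hq K₁ M H f hf halg hA hd0 hϖd 𝔫).1
          {algebraMap ↥(beta0Ring A (beta0Field A))
            ↥(zchClosure (A₀ := ↥(beta0Ring A (beta0Field A)))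
              ({(bgJ ↥(beta0Field A) (M₁ * q))⁻¹} :
                Set ↥(modularFunctionFieldFullC ↥(beta0Field A) (M₁ * q)))) π, s₀}) →
      ∃ s : ↥(zchClosure (A₀ := ↥(mgcA A K₁))
          ({(rtk6diT A K₁ (M₁ * q) M H)⁻¹} : Set ↥(rtk6diF A K₁ (M₁ * q) M H))),
        s ∈ 𝔫.1 ∧ NodesLocGen 𝔫.1
          {algebraMap ↥(mgcA A K₁) ↥(zchClosure (A₀ := ↥(mgcA A K₁))
            ({(rtk6diT A K₁ (M₁ * q) M H)⁻¹} : Set ↥(rtk6diF A K₁ (M₁ * q) M H))) ϖ, s})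
    -- (G-cross) + (WIRE) + (T2)
    (hcr : atThrough (rtk6gxiPtInv hq K₁ M H f hf halg hA hd0 hϖd 𝔫) (mgvV hπ ιC hq hqM true) →
      atThrough (rtk6gxiPtInv hq K₁ M H f hf halg hA hd0 hϖd 𝔫) (mgvV hπ ιC hq hqM false) →
      ∃ (d' dS : ℕ) (ζ X Y w e₁ e₂ : ↥(zchClosure (A₀ := ↥(beta0Ring A (beta0Field A)))
          ({(bgJ ↥(beta0Field A) (M₁ * q))⁻¹} :
            Set ↥(modularFunctionFieldFullC ↥(beta0Field A) (M₁ * q)))))
        (S : Set ↥(rtk6diF A K₁ (M₁ * q) M H)) (y : ↥(rtk6diF A K₁ (M₁ * q) M H))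
        (γ : ↥(modularFunctionFieldFullC ↥(beta0Field A) (M₁ * q))) (n₀ a b : ℤ)
        (σ δ : ↥(rtk6diF A K₁ (M₁ * q) M H) ≃ₐ[↥(modularFunctionFieldFullC ↥(beta0Field A)
          (M₁ * q))] ↥(rtk6diF A K₁ (M₁ * q) M H)),
        Rtk6c4CrossE (rtk6gxiJInv K₁ M H f hf halg)
          (algebraMap ↥(zchClosure (A₀ := ↥(mgcA A K₁))
            ({(rtk6diT A K₁ (M₁ * q) M H)⁻¹} : Set ↥(rtk6diF A K₁ (M₁ * q) M H)))
            ↥(rtk6diF A K₁ (M₁ * q) M H)) 𝔫.1 d' dS ζ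
          (algebraMap ↥(beta0Ring A (beta0Field A))
            ↥(zchClosure (A₀ := ↥(beta0Ring A (beta0Field A)))
              ({(bgJ ↥(beta0Field A) (M₁ * q))⁻¹} :
                Set ↥(modularFunctionFieldFullC ↥(beta0Field A) (M₁ * q)))) π) X Y w S
          (algebraMap ↥(mgcA A K₁) ↥(rtk6diF A K₁ (M₁ * q) M H) ϖ) y γ e₁ e₂ n₀ a b σ δ ∧
        (X : ↥(modularFunctionFieldFullC ↥(beta0Field A) (M₁ * q))) ∈
          (mgvV hπ ιC hq hqM true).nonunits ∧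
        (Y : ↥(modularFunctionFieldFullC ↥(beta0Field A) (M₁ * q))) ∉
          (mgvV hπ ιC hq hqM true).nonunits ∧
        (Y : ↥(modularFunctionFieldFullC ↥(beta0Field A) (M₁ * q))) ∈
          (mgvV hπ ιC hq hqM false).nonunits ∧
        (X : ↥(modularFunctionFieldFullC ↥(beta0Field A) (M₁ * q))) ∉
          (mgvV hπ ιC hq hqM false).nonunits ∧
        ∀ g ∈ 𝒢, Rtk6c4aAut
          ↥(zchClosure (A₀ := ↥(beta0Ring A (beta0Field A)))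
            ({(bgJ ↥(beta0Field A) (M₁ * q))⁻¹} :
              Set ↥(modularFunctionFieldFullC ↥(beta0Field A) (M₁ * q))))
          ↥(modularFunctionFieldFullC ↥(beta0Field A) (M₁ * q)) ϖ
          ((rtk6diT A K₁ (M₁ * q) M H)⁻¹) S y g)
    -- (THR-χ)
    (hthr : ∀ b : Bool,
      atThrough (rtk6gxiPtInv hq K₁ M H f hf halg hA hd0 hϖd 𝔫) (mgvV hπ ιC hq hqM b) →
      ∃ c : κ, atThrough 𝔫 (V c) ∧
        ∀ x : ↥(modularFunctionFieldFullC ↥(beta0Field A) (M₁ * q)),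
          algebraMap ↥(modularFunctionFieldFullC ↥(beta0Field A) (M₁ * q))
            ↥(rtk6diF A K₁ (M₁ * q) M H) x ∈ (V c).nonunits ↔
          x ∈ (mgvV hπ ιC hq hqM b).nonunits) :
    Rtk6c4aPlusAt V 𝒢 𝔫 := by
  rcases rtk6lfi0_thinAt_Jinv hπ ιC hq hqM hA rigid
      (rtk6gxiPtInv hq K₁ M H f hf halg hA hd0 hϖd 𝔫) with ⟨s₀, hs₀, hgen₀⟩ | ⟨X', Y', h₁, h₂, -⟩
  · exact rtk6c4a_smooth V 𝒢 𝔫 (hsm ⟨s₀, hs₀, hgen₀⟩)
  · obtain ⟨d', dS, ζ, X, Y, w, e₁, e₂, S, y, γ, n₀, a, b, σ, δ, hC, hX₁, hY₁, hY₂, hX₂, h𝒢⟩ :=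
      hcr h₁ h₂
    obtain ⟨c₁, hthr₁, hc₁⟩ := hthr true h₁
    obtain ⟨c₂, hthr₂, hc₂⟩ := hthr false h₂
    haveI := ribmp_fc_fin_inv (K₀ := beta0Field A) (M₁ * q)
    haveI : IsNoetherianRing ↥(zchClosure (A₀ := ↥(beta0Ring A (beta0Field A)))
        ({(bgJ ↥(beta0Field A) (M₁ * q))⁻¹} :
          Set ↥(modularFunctionFieldFullC ↥(beta0Field A) (M₁ * q)))) := ribmp_fcu_noeth
    haveI : IsFractionRing ↥(zchClosure (A₀ := ↥(beta0Ring A (beta0Field A)))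
        ({(bgJ ↥(beta0Field A) (M₁ * q))⁻¹} :
          Set ↥(modularFunctionFieldFullC ↥(beta0Field A) (M₁ * q))))
        ↥(modularFunctionFieldFullC ↥(beta0Field A) (M₁ * q)) :=
      mgc_chart_isFractionRing (A₀ := ↥(beta0Ring A (beta0Field A))) (E₀ := ↥(beta0Field A))
        ((bgJ ↥(beta0Field A) (M₁ * q))⁻¹)
    haveI : IsIntegrallyClosed ↥(zchClosure (A₀ := ↥(beta0Ring A (beta0Field A)))
        ({(bgJ ↥(beta0Field A) (M₁ * q))⁻¹} :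
          Set ↥(modularFunctionFieldFullC ↥(beta0Field A) (M₁ * q)))) :=
      mgc_chart_isIntegrallyClosed (A₀ := ↥(beta0Ring A (beta0Field A)))
        (E₀ := ↥(beta0Field A)) ((bgJ ↥(beta0Field A) (M₁ * q))⁻¹)
    exact rtk6c4a_cross 𝔫 (rtk6gxiJInv K₁ M H f hf halg) _ (fun _ => rfl) hC V hBV
      (mgvV hπ ιC hq hqM true) (mgvV hπ ιC hq hqM false) hX₁ hY₁ hY₂ hX₂ c₁ c₂ hthr₁ hthr₂
      hc₁ hc₂ 𝒢 h𝒢

end AsmJInv

end Fermat.Agent.RT.K6
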