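/-
K-machine, piece K6, piece C4 (helper94), part 1: preliminaries for the tower
`R₀ ⊆ R₀′ ⊆ B` (ÉTALE FIRST, then TKC), Mathlib only.

`K ⊆ F` fields, `S ⊆ F` the étale Kummer generators, `K′ := K(S)` (`rtk6c4K`),
`R₀′ := integralClosure R₀ K′` (`rtk6c4R`), `B` the chart of `F`
(`ι : B →+* F` injective, `hcl : ∀ x, IsIntegral R₀ x → ∃ b, ι b = x`).

* `rtk6c4_fix_adjoin`, `rtk6c4Lift` : a `K`-automorphism of `F` fixing `S` pointwise is a
  `K(S)`-automorphism;
* `rtk6c4_adjoin_lift` : `K′ = K[S]` inside `K′`;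
* `rtk6c4_adjoin_top`  : `F = K[S ∪ {ϖ₁, y}]` gives `F = K′[ϖ₁, y]`;
* `rtk6c4J`            : the ring homomorphism `R₀′ →+* B`, `ι (rtk6c4J x) = x`;
* `rtk6c4_isIntegralElem`, `rtk6c4_hcl` : `hint`, `hcl` of `rtk6gls_cross` for `R₀′ → B`.
-/
import Mathlib

set_option autoImplicit false
set_option linter.style.haveILetI false
set_option linter.unusedSectionVars false
set_option linter.unusedVariables false

namespace Fermat.Agent.RT.K6

open IntermediateField

section Fields

universe u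

variable {K F : Type u} [Field K] [Field F] [Algebra K F]

/-- the field generated by the étale generators -/
abbrev rtk6c4K (K : Type u) {F : Type u} [Field K] [Field F] [Algebra K F] (S : Set F) :
    IntermediateField K F := IntermediateField.adjoin K S

/-- a `K`-automorphism fixing `S` pointwise fixes `K(S)` pointwise -/
theorem rtk6c4_fix_adjoin (S : Set F) (σ : F ≃ₐ[K] F) (hσ : ∀ t ∈ S, σ t = t) :
    ∀ x ∈ rtk6c4K K S, σ x = x := by
  intro x hx
  induction hx using IntermediateField.adjoin_induction with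
  | mem x hx => exact hσ x hx
  | algebraMap k => exact σ.commutes k
  | add x y _ _ hx hy => rw [map_add, hx, hy]
  | inv x _ hx => rw [map_inv₀, hx]
  | mul x y _ _ hx hy => rw [map_mul, hx, hy]

/-- a `K`-automorphism fixing `S` pointwise, as a `K(S)`-automorphism -/
noncomputable def rtk6c4Lift (S : Set F) (σ : F ≃ₐ[K] F) (hσ : ∀ t ∈ S, σ t = t) :
    F ≃ₐ[rtk6c4K K S] F :=
  { σ.toRingEquiv with
    commutes' := fun k => rtk6c4_fix_adjoin S σ hσ (k : F) k.2 }

theorem rtk6c4Lift_apply (S : Set F) (σ : F ≃ₐ[K] F) (hσ : ∀ t ∈ S, σ t = t) (x : F) :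
    rtk6c4Lift S σ hσ x = σ x := rfl

/-- `K′ = K[S]`, inside `K′` -/
theorem rtk6c4_adjoin_lift (S : Set F) (hS : ∀ t ∈ S, IsIntegral K t) :
    Algebra.adjoin K {z : rtk6c4K K S | (z : F) ∈ S} = ⊤ := by
  have hsub : (rtk6c4K K S).toSubalgebra = Algebra.adjoin K S :=
    IntermediateField.adjoin_toSubalgebra_of_isAlgebraic fun s hs => (hS s hs).isAlgebraic
  rw [eq_top_iff]
  intro z _
  have hz : (z : F) ∈ Algebra.adjoin K S := by
    rw [← hsub]
    exact z.2
  have himg : Algebra.adjoin K S =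
      (Algebra.adjoin K {z : rtk6c4K K S | (z : F) ∈ S}).map (rtk6c4K K S).val := by
    rw [AlgHom.map_adjoin]
    congr 1
    ext s
    constructor
    · intro hs
      exact ⟨⟨s, IntermediateField.subset_adjoin K S hs⟩, hs, rfl⟩
    · rintro ⟨z', hz', rfl⟩
      exact hz'
  rw [himg] at hz
  obtain ⟨z', hz', hzz'⟩ := hz
  have : z' = z := Subtype.ext hzz'
  rwa [this] at hz'

/-- `F = K[S ∪ T]` gives `F = K(S)[T]` -/
theorem rtk6c4_adjoin_top (S T : Set F) (h : Algebra.adjoin K (S ∪ T) = ⊤) :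
    Algebra.adjoin (rtk6c4K K S) T = ⊤ := by
  rw [eq_top_iff]
  intro x hxtop
  clear hxtop
  have hx : x ∈ Algebra.adjoin K (S ∪ T) := by
    rw [h]
    exact Algebra.mem_top
  induction hx using Algebra.adjoin_induction with
  | mem y hy =>
    rcases hy with hy | hy
    · exact (Algebra.adjoin (rtk6c4K K S) T).algebraMap_mem
        (⟨y, IntermediateField.subset_adjoin K S hy⟩ : rtk6c4K K S)
    · exact Algebra.subset_adjoin hy
  | algebraMap k =>
    exact (Algebra.adjoin (rtk6c4K K S) T).algebraMap_mem (algebraMap K (rtk6c4K K S) k)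
  | add y z _ _ hy hz => exact add_mem hy hz
  | mul y z _ _ hy hz => exact mul_mem hy hz

/-- the lifted set of generators is finite -/
theorem rtk6c4_finite_lift (S : Set F) (hS : S.Finite) :
    {z : rtk6c4K K S | (z : F) ∈ S}.Finite := by
  have h : {z : rtk6c4K K S | (z : F) ∈ S} = (fun z : rtk6c4K K S => (z : F)) ⁻¹' S := rfl
  rw [h]
  exact hS.preimage (fun a _ b _ hab => Subtype.ext hab)

end Fields

section Chart

universe u

variable {K F R₀ B : Type u} [Field K] [Field F] [Algebra K F]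
  [CommRing R₀] [Algebra R₀ K] [Algebra R₀ F] [IsScalarTower R₀ K F] [CommRing B]

/-- the chart of `K′ = K(S)`: the integral closure of `R₀` in `K′` -/
abbrev rtk6c4R (R₀ K : Type u) {F : Type u} [Field K] [Field F] [Algebra K F]
    [CommRing R₀] [Algebra R₀ K] [Algebra R₀ F] [IsScalarTower R₀ K F] (S : Set F) :
    Subalgebra R₀ (rtk6c4K K S) := integralClosure R₀ (rtk6c4K K S)

instance rtk6c4_isScalarTower_K (S : Set F) : IsScalarTower R₀ (rtk6c4K K S) F :=
  IsScalarTower.of_algebraMap_eq fun r => by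
    rw [IsScalarTower.algebraMap_apply R₀ K F, IsScalarTower.algebraMap_apply R₀ K (rtk6c4K K S)]
    rfl

instance rtk6c4_isScalarTower_R (S : Set F) : IsScalarTower R₀ (rtk6c4R R₀ K S) F :=
  IsScalarTower.of_algebraMap_eq fun r => by
    rw [IsScalarTower.algebraMap_apply R₀ (rtk6c4K K S) F]
    rfl

/-- the elements of `R₀′` are integral over `R₀`, in `F` -/
theorem rtk6c4_isIntegral_coe (S : Set F) (x : rtk6c4R R₀ K S) :
    IsIntegral R₀ (((x : rtk6c4K K S) : F)) := by
  have := x.2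
  exact this.map (IsScalarTower.toAlgHom R₀ (rtk6c4K K S) F)

variable (ι : B →+* F) (hι : Function.Injective ι)
  (hcl : ∀ x : F, IsIntegral R₀ x → ∃ b, ι b = x)

/-- **the ring homomorphism `R₀′ →+* B`** -/
noncomputable def rtk6c4J (S : Set F) : rtk6c4R R₀ K S →+* B where
  toFun x := (hcl _ (rtk6c4_isIntegral_coe S x)).choose
  map_one' := hι (by
    rw [(hcl _ (rtk6c4_isIntegral_coe S (1 : rtk6c4R R₀ K S))).choose_spec, map_one]
    rfl)
  map_mul' x y := hι (by
    rw [(hcl _ (rtk6c4_isIntegral_coe S (x * y))).choose_spec, map_mul,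
      (hcl _ (rtk6c4_isIntegral_coe S x)).choose_spec,
      (hcl _ (rtk6c4_isIntegral_coe S y)).choose_spec]
    rfl)
  map_zero' := hι (by
    rw [(hcl _ (rtk6c4_isIntegral_coe S (0 : rtk6c4R R₀ K S))).choose_spec, map_zero]
    rfl)
  map_add' x y := hι (by
    rw [(hcl _ (rtk6c4_isIntegral_coe S (x + y))).choose_spec, map_add,
      (hcl _ (rtk6c4_isIntegral_coe S x)).choose_spec,
      (hcl _ (rtk6c4_isIntegral_coe S y)).choose_spec]
    rfl)

theorem rtk6c4J_spec (S : Set F) (x : rtk6c4R R₀ K S) :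
    ι (rtk6c4J ι hι hcl S x) = ((x : rtk6c4K K S) : F) :=
  (hcl _ (rtk6c4_isIntegral_coe S x)).choose_spec

/-- compatibility with `j : R₀ →+* B` -/
theorem rtk6c4J_algebraMap (S : Set F) (j : R₀ →+* B) (hjι : ∀ r, ι (j r) = algebraMap R₀ F r)
    (r : R₀) : rtk6c4J ι hι hcl S (algebraMap R₀ (rtk6c4R R₀ K S) r) = j r := by
  apply hι
  rw [rtk6c4J_spec (K := K) ι hι hcl S, hjι,
    IsScalarTower.algebraMap_apply R₀ (rtk6c4R R₀ K S) F]
  rfl

/-- `hjι` for `R₀′` -/
theorem rtk6c4J_hjι (S : Set F) (x : rtk6c4R R₀ K S) :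
    ι (rtk6c4J ι hι hcl S x) =
      algebraMap (rtk6c4K K S) F (algebraMap (rtk6c4R R₀ K S) (rtk6c4K K S) x) :=
  rtk6c4J_spec ι hι hcl S x

/-- `hint` for `R₀′ → B` -/
theorem rtk6c4_isIntegralElem (S : Set F) (hint : ∀ b : B, IsIntegral R₀ (ι b)) (b : B) :
    (rtk6c4J (K := K) ι hι hcl S).IsIntegralElem b := by
  obtain ⟨P, hP, hPb⟩ := hint b
  refine ⟨P.map (algebraMap R₀ (rtk6c4R R₀ K S)), hP.map _, ?_⟩
  apply hι
  rw [Polynomial.eval₂_map, Polynomial.hom_eval₂, map_zero]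
  have e : (ι.comp ((rtk6c4J (K := K) ι hι hcl S).comp (algebraMap R₀ (rtk6c4R R₀ K S)))) =
      algebraMap R₀ F := by
    ext r
    simp only [RingHom.comp_apply]
    rw [rtk6c4J_spec (K := K) ι hι hcl S, IsScalarTower.algebraMap_apply R₀ (rtk6c4R R₀ K S) F]
    rfl
  rw [e]
  exact hPb

/-- `hcl` for `R₀′ → B` -/
theorem rtk6c4_hcl (S : Set F) (x : F) (hx : (ι.comp (rtk6c4J (K := K) ι hι hcl S)).IsIntegralElem x) :
    ∃ b, ι b = x := by
  apply hcl
  have e : ι.comp (rtk6c4J (K := K) ι hι hcl S) = algebraMap (rtk6c4R R₀ K S) F := by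
    ext r
    simp only [RingHom.comp_apply]
    rw [rtk6c4J_spec (K := K) ι hι hcl S]
    rfl
  rw [e] at hx
  have hx' : IsIntegral (rtk6c4R R₀ K S) x := hx
  exact isIntegral_trans (A := rtk6c4R R₀ K S) x hx'

end Chart

end Fermat.Agent.RT.K6
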