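/-
K-machine, piece K6, piece C4-SM (helper86), part 2: **the smooth points, `R₀`-level form**
(the same base data as `Rtk6c4Cross`, `C4Abs.lean`).

`R₀` the chart of the `Γ₀`-field `K` over the UNRAMIFIED base `A₀` (uniformizer `π₀`,
`p = algebraMap A₀ R₀ π₀`, `R₀ / p` reduced), `F ⊇ K` the top field, `B` the top chart
(`j : R₀ →+* B`, `ι : B →+* F`), `ϖ₁ ∈ F` with `ϖ₁ ^ e = p`, `S ⊆ F` Kummer generators
(`b t ^ d = a`, `a, b ∈ R₀` units at the point), `F = K[ϖ₁, S]`.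

* `rtk6c4sm0_eisenstein` : `X ^ e - C π₀` is Eisenstein at `(π₀)`;
* `rtk6c4sm0_ramified`   : **D-BC, abstract**: the integral closure `R'` of a normal domain `R`
  with `R / π` reduced in `L = K(α)`, `α ^ e = π`, satisfies `MgcRamified (R → R') α π`
  (`UNIP.normalBC`; the twin of `UNIP.mgc_ramified_of_incl` for a general `R`);
* `Rtk6c4Sm` : the data at a smooth point (a `Prop`-valued structure);
* `rtk6c4sm0_smooth` : **C4-SM, `R₀`-level**: `∃ ϖ s : B, ι ϖ = ϖ₁ ∧ s ∈ 𝔫 ∧ NodesLocGen 𝔫 {ϖ, s}`.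
-/
import Fermat.Agent.RT.K6.C4Sm
import Fermat.Agent.RT.K6.C4Pre
import Fermat.Agent.UNIP.NormalBC

set_option autoImplicit false
set_option linter.style.haveILetI false
set_option linter.unusedSectionVars false
set_option linter.unusedVariables false

namespace Fermat.Agent.RT.K6

open Polynomial Fermat.Agent.UNIP IntermediateField

section Eis

variable {A₀ : Type*} [CommRing A₀] [IsDomain A₀]

/-- `X ^ e - C π` is Eisenstein at `(π)`. -/
theorem rtk6c4sm0_eisenstein {π : A₀} (hπ : Irreducible π) {e : ℕ} (he : e ≠ 0) :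
    (X ^ e - C π : A₀[X]).IsEisensteinAt (Ideal.span {π}) := by
  have hfm : (X ^ e - C π : A₀[X]).Monic := monic_X_pow_sub_C π he
  have hdeg : (X ^ e - C π : A₀[X]).natDegree = e := natDegree_X_pow_sub_C
  have hcoeff : ∀ n, n < e → (X ^ e - C π : A₀[X]).coeff n = if n = 0 then -π else 0 := by
    intro n hn
    rw [coeff_sub, coeff_X_pow, coeff_C, if_neg (Nat.ne_of_lt hn)]
    split_ifs <;> simp
  refine hfm.isEisensteinAt_of_mem_of_notMem ?_ ?_ ?_
  · rw [Ne, Ideal.span_singleton_eq_top]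
    exact hπ.not_isUnit
  · intro n hn
    rw [hdeg] at hn
    rw [hcoeff n hn]
    split_ifs
    · exact Ideal.neg_mem_iff _ |>.2 (Ideal.mem_span_singleton_self π)
    · exact Ideal.zero_mem _
  · rw [hcoeff 0 (Nat.pos_of_ne_zero he), if_pos rfl, Ideal.span_singleton_pow,
      Ideal.mem_span_singleton]
    rintro ⟨c, hc⟩
    apply hπ.not_isUnit
    have h1 : π * (1 + π * c) = 0 := by
      have : π ^ 2 * c = π * (π * c) := by ring
      rw [this] at hc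
      linear_combination -hc
    rcases mul_eq_zero.1 h1 with h | h
    · exact absurd h hπ.ne_zero
    · exact isUnit_iff_exists_inv.2 ⟨-c, by linear_combination -h⟩

end Eis

section Ram

variable {A₀ R K L : Type*} [CommRing A₀] [IsDomain A₀] [IsDiscreteValuationRing A₀]
  [CommRing R] [IsDomain R] [IsIntegrallyClosed R] [Algebra A₀ R]
  [Field K] [CharZero K] [Algebra R K] [IsFractionRing R K] [Algebra A₀ K] [IsScalarTower A₀ R K]
  [Field L] [Algebra K L] [Algebra R L] [IsScalarTower R K L] [Algebra A₀ L]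
  [IsScalarTower A₀ K L] [IsScalarTower A₀ R L]

/-- **D-BC, abstract (Kummer form).**  `R` a normal domain over the discrete valuation ring `A₀`
with `R / π` reduced, `L = K(α)` with `α ^ e = π`, `R'` the integral closure of `R` in `L`
(hom form): `R' = j R + α R'`, `α ∣ j π`, `α ∣ j c → π ∣ c`. -/
theorem rtk6c4sm0_ramified {π : A₀} (hπ : Irreducible π)
    (hπ0 : algebraMap A₀ R π ≠ 0) (hπu : ¬ IsUnit (algebraMap A₀ R π))
    (hred : ∀ c : R, algebraMap A₀ R π ∣ c ^ 2 → algebraMap A₀ R π ∣ c)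
    {e : ℕ} (he : e ≠ 0) {α : L} (hα : α ^ e = algebraMap A₀ L π)
    (htop : Algebra.adjoin K ({α} : Set L) = ⊤)
    {R' : Type*} [CommRing R'] (j : R →+* R') (ι' : R' →+* L) (hι' : Function.Injective ι')
    (hjι : ∀ r, ι' (j r) = algebraMap R L r)
    (hint : ∀ x : R', IsIntegral R (ι' x)) (hcl : ∀ x : L, IsIntegral R x → ∃ b, ι' b = x)
    (ϖ : R') (hϖ : ι' ϖ = α) :
    MgcRamified j ϖ (algebraMap A₀ R π) := by
  classical
  have hfm : (X ^ e - C π : A₀[X]).Monic := monic_X_pow_sub_C π he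
  have hfE : (X ^ e - C π : A₀[X]).IsEisensteinAt (Ideal.span {π}) :=
    rtk6c4sm0_eisenstein hπ he
  have hfdeg : 0 < (X ^ e - C π : A₀[X]).natDegree := by
    rw [natDegree_X_pow_sub_C]
    exact Nat.pos_of_ne_zero he
  have hroot : aeval α (X ^ e - C π : A₀[X]) = 0 := by
    rw [map_sub, map_pow, aeval_X, aeval_C, hα, sub_self]
  have hintA : IsIntegral A₀ α := ⟨_, hfm, by simpa [aeval_def] using hroot⟩
  have hintK : IsIntegral K α := hintA.tower_top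
  let B : PowerBasis K L := PowerBasis.ofAdjoinEqTop hintK htop
  have hBgen : B.gen = α := PowerBasis.ofAdjoinEqTop_gen hintK htop
  haveI : Module.Finite K L := B.finite
  haveI : Algebra.IsSeparable K L := inferInstance
  have hrootB : aeval B.gen (X ^ e - C π : A₀[X]) = 0 := by rw [hBgen]; exact hroot
  have hcl' : integralClosure R L = Algebra.adjoin R ({α} : Set L) := by
    rw [← hBgen]
    exact normalBC_integralClosure_eq hπ hπ0 hπu hred B _ hfm hfE hrootB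
  have hmem : ∀ x : R', ι' x ∈ Algebra.adjoin R ({α} : Set L) := fun x => by
    rw [← hcl']
    exact hint x
  have hsurj : ∀ y ∈ Algebra.adjoin R ({α} : Set L), ∃ x : R', ι' x = y := fun y hy =>
    hcl y (by rw [← hcl'] at hy; exact hy)
  refine ⟨?_, ?_, ?_⟩
  · -- `ϖ ∣ j π`
    have hroot' : aeval α ((X ^ e - C π : A₀[X]).map (algebraMap A₀ R)) = 0 := by
      rw [aeval_map_algebraMap]; exact hroot
    obtain ⟨z', hz', hz⟩ := nbc_gen_dvd α hroot'
      (nbc_coeff_zero_eq (R := R) hπ _ hfE hfdeg)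
    obtain ⟨zB, rfl⟩ := hsurj z' hz'
    refine ⟨zB, hι' ?_⟩
    rw [hjι, map_mul, hϖ, ← hz]
  · -- decomposition
    intro x
    obtain ⟨c, z', hz', hxz⟩ := nbc_exists_eq_add_mul α (hmem x)
    obtain ⟨zB, rfl⟩ := hsurj z' hz'
    refine ⟨c, zB, hι' ?_⟩
    rw [hxz, map_add, map_mul, hϖ, hjι]
  · -- cancellation
    rintro c ⟨w, hw⟩
    have h1 : algebraMap R L c = α * ι' w := by
      have := congrArg ι' hw
      rw [hjι, map_mul, hϖ] at this
      exact this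
    have h2 : nbcGen R α ∣ algebraMap R (Algebra.adjoin R ({α} : Set L)) c :=
      (nbcGen_dvd_iff _ _).2 ⟨ι' w, hmem w, h1⟩
    exact (normalBC_gen_dvd_iff K hπ hπ0 hπu hred _ hfm hfE hfdeg hroot c).1 h2

end Ram

section R0

universe u

variable {K F R₀ B : Type u} [Field K] [Field F] [Algebra K F]
  [CommRing R₀] [Algebra R₀ K] [Algebra R₀ F] [IsScalarTower R₀ K F] [CommRing B]

/-- **The data at a smooth point of the top chart `B` over a smooth point of the base chart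
`R₀`** (C4-SM; the same base data as `Rtk6c4Cross`). -/
structure Rtk6c4Sm (j : R₀ →+* B) (ι : B →+* F) (𝔫 : Ideal B) (d e : ℕ) (p s₀ : R₀)
    (S : Set F) (ϖ₁ : F) : Prop where
  /-- the chart `B` is the integral closure of `R₀` in `F` -/
  hι : Function.Injective ι
  hjι : ∀ r, ι (j r) = algebraMap R₀ F r
  hint : ∀ b : B, IsIntegral R₀ (ι b)
  hcl : ∀ x : F, IsIntegral R₀ x → ∃ b, ι b = x
  /-- `d` is prime to the residue characteristic -/
  hd : j (d : R₀) ∉ 𝔫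
  /-- the special fibre of the base chart is reduced -/
  hp0 : p ≠ 0
  hp : j p ∈ 𝔫
  hred : ∀ c : R₀, p ∣ c ^ 2 → p ∣ c
  /-- the smooth point of the base chart at `𝔫 ∩ R₀` -/
  hs₀ : j s₀ ∈ 𝔫
  hgen₀ : NodesLocGen (𝔫.comap j) {p, s₀}
  /-- the ramified generator -/
  he : e ≠ 0
  hϖ : ϖ₁ ^ e = algebraMap R₀ F p
  /-- the Kummer generators, units at the point -/
  hS : S.Finite
  hSet : ∀ t ∈ S, ∃ a b : R₀, j a ∉ 𝔫 ∧ j b ∉ 𝔫 ∧
    algebraMap R₀ F b * t ^ d = algebraMap R₀ F a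
  hgen : Algebra.adjoin K ({ϖ₁} ∪ S) = ⊤

variable {A₀ : Type*} [CommRing A₀] [IsDomain A₀] [IsDiscreteValuationRing A₀] [Algebra A₀ R₀]
  [CharZero K] [IsDomain R₀] [IsIntegrallyClosed R₀] [IsFractionRing R₀ K]
  {j : R₀ →+* B} {ι : B →+* F} {𝔫 : Ideal B} {d e : ℕ} {p s₀ : R₀} {S : Set F} {ϖ₁ : F}

set_option maxHeartbeats 1600000 in
/-- **C4-SM, `R₀`-level.**  At a closed point `𝔫` of the top chart over a smooth point `(p, s₀)`
of the base chart (`p` the image of the uniformizer `π₀` of the unramified base `A₀`):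
`𝔫 = (ϖ, s)` locally, `ϖ` the element of `B` with image `ϖ₁`. -/
theorem rtk6c4sm0_smooth (h : Rtk6c4Sm (K := K) j ι 𝔫 d e p s₀ S ϖ₁) [h𝔫 : 𝔫.IsMaximal]
    {π₀ : A₀} (hπ₀ : Irreducible π₀) (hpπ : algebraMap A₀ R₀ π₀ = p) :
    ∃ ϖ s : B, ι ϖ = ϖ₁ ∧ ϖ ∈ 𝔫 ∧ s ∈ 𝔫 ∧ NodesLocGen 𝔫 {ϖ, s} := by
  classical
  subst hpπ
  haveI := h𝔫.isPrime
  have hepos : 0 < e := Nat.pos_of_ne_zero h.he
  -- the field `K¹ = K(ϖ₁)` and its chart `R₁`
  have hϖint : IsIntegral K ϖ₁ := by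
    apply IsIntegral.of_pow hepos
    rw [h.hϖ, IsScalarTower.algebraMap_apply R₀ K F]
    exact isIntegral_algebraMap
  have hS1 : ∀ t ∈ ({ϖ₁} : Set F), IsIntegral K t := by
    intro t ht
    rw [Set.mem_singleton_iff] at ht
    rw [ht]
    exact hϖint
  haveI hfd : FiniteDimensional K (rtk6c4K K ({ϖ₁} : Set F)) :=
    IntermediateField.finiteDimensional_adjoin hS1
  haveI : IsIntegrallyClosed (rtk6c4R R₀ K ({ϖ₁} : Set F)) :=
    integralClosure.isIntegrallyClosedOfFiniteExtension K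
  haveI : IsFractionRing (rtk6c4R R₀ K ({ϖ₁} : Set F)) (rtk6c4K K ({ϖ₁} : Set F)) :=
    integralClosure.isFractionRing_of_finite_extension K (rtk6c4K K ({ϖ₁} : Set F))
  set j₁ : rtk6c4R R₀ K ({ϖ₁} : Set F) →+* B := rtk6c4J (K := K) ι h.hι h.hcl {ϖ₁} with hj₁
  have hj₁ι : ∀ x : rtk6c4R R₀ K ({ϖ₁} : Set F), ι (j₁ x) = ((x : rtk6c4K K ({ϖ₁} : Set F)) : F) :=
    rtk6c4J_spec (K := K) ι h.hι h.hcl {ϖ₁}
  have hj₁j : ∀ r : R₀, j₁ (algebraMap R₀ (rtk6c4R R₀ K ({ϖ₁} : Set F)) r) = j r :=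
    rtk6c4J_algebraMap (K := K) ι h.hι h.hcl {ϖ₁} j h.hjι
  have hcoe : ∀ r : R₀, ((algebraMap R₀ (rtk6c4K K ({ϖ₁} : Set F)) r :
      rtk6c4K K ({ϖ₁} : Set F)) : F) = algebraMap R₀ F r :=
    fun r => (IsScalarTower.algebraMap_apply R₀ (rtk6c4K K ({ϖ₁} : Set F)) F r).symm
  -- the generator
  set α : rtk6c4K K ({ϖ₁} : Set F) :=
    ⟨ϖ₁, IntermediateField.subset_adjoin K _ (Set.mem_singleton ϖ₁)⟩ with hα
  have hαe : α ^ e = algebraMap R₀ (rtk6c4K K ({ϖ₁} : Set F)) (algebraMap A₀ R₀ π₀) := by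
    apply Subtype.ext
    rw [hcoe, ← h.hϖ]
    rfl
  have hαint : IsIntegral R₀ α := by
    apply IsIntegral.of_pow hepos
    rw [hαe]
    exact isIntegral_algebraMap
  set ϖ : rtk6c4R R₀ K ({ϖ₁} : Set F) := ⟨α, hαint⟩ with hϖdef
  -- the `A₀`-algebra structures
  letI : Algebra A₀ K := ((algebraMap R₀ K).comp (algebraMap A₀ R₀)).toAlgebra
  haveI : IsScalarTower A₀ R₀ K := IsScalarTower.of_algebraMap_eq fun _ => rfl
  letI : Algebra A₀ (rtk6c4K K ({ϖ₁} : Set F)) :=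
    ((algebraMap R₀ (rtk6c4K K ({ϖ₁} : Set F))).comp (algebraMap A₀ R₀)).toAlgebra
  haveI : IsScalarTower A₀ R₀ (rtk6c4K K ({ϖ₁} : Set F)) :=
    IsScalarTower.of_algebraMap_eq fun _ => rfl
  haveI : IsScalarTower A₀ K (rtk6c4K K ({ϖ₁} : Set F)) :=
    IsScalarTower.of_algebraMap_eq fun a =>
      IsScalarTower.algebraMap_apply R₀ K (rtk6c4K K ({ϖ₁} : Set F)) (algebraMap A₀ R₀ a)
  have hπu : ¬ IsUnit (algebraMap A₀ R₀ π₀) := fun hu =>
    h𝔫.ne_top (Ideal.eq_top_of_isUnit_mem _ h.hp (hu.map j))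
  have htop : Algebra.adjoin K ({α} : Set (rtk6c4K K ({ϖ₁} : Set F))) = ⊤ := by
    have h1 := rtk6c4_adjoin_lift (K := K) ({ϖ₁} : Set F) hS1
    have h2 : {z : rtk6c4K K ({ϖ₁} : Set F) | (z : F) ∈ ({ϖ₁} : Set F)} = {α} := by
      ext z
      constructor
      · intro hz
        exact Subtype.ext hz
      · intro hz
        rw [Set.mem_singleton_iff] at hz
        rw [hz]
        rfl
    rw [h2] at h1
    exact h1
  have hram : MgcRamified (algebraMap R₀ (rtk6c4R R₀ K ({ϖ₁} : Set F))) ϖ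
      (algebraMap A₀ R₀ π₀) :=
    rtk6c4sm0_ramified (K := K) (L := rtk6c4K K ({ϖ₁} : Set F)) hπ₀ h.hp0 hπu h.hred h.he
      (α := α) hαe htop (algebraMap R₀ (rtk6c4R R₀ K ({ϖ₁} : Set F)))
      (algebraMap (rtk6c4R R₀ K ({ϖ₁} : Set F)) (rtk6c4K K ({ϖ₁} : Set F)))
      Subtype.val_injective (fun r => rfl) (fun x => x.2) (fun x hx => ⟨⟨x, hx⟩, rfl⟩) ϖ rfl
  -- `ϖ ∈ 𝔫`
  have hϖι : ι (j₁ ϖ) = ϖ₁ := hj₁ι ϖ
  have hϖmem : j₁ ϖ ∈ 𝔫 := by
    apply Ideal.IsPrime.mem_of_pow_mem inferInstance e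
    have e1 : j₁ ϖ ^ e = j (algebraMap A₀ R₀ π₀) := by
      apply h.hι
      rw [map_pow, hϖι, h.hϖ, h.hjι]
    rw [e1]
    exact h.hp
  -- the smooth point
  have hcomap : (𝔫.comap j₁).comap (algebraMap R₀ (rtk6c4R R₀ K ({ϖ₁} : Set F))) = 𝔫.comap j := by
    ext r
    rw [Ideal.mem_comap, Ideal.mem_comap, Ideal.mem_comap, hj₁j]
  have hsm : NodesLocGen ((𝔫.comap j₁).comap (algebraMap R₀ (rtk6c4R R₀ K ({ϖ₁} : Set F))))
      {algebraMap A₀ R₀ π₀, s₀} := by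
    rw [hcomap]
    exact h.hgen₀
  obtain ⟨s, hs, hgen⟩ := rtk6c4sm_smooth_of_gen (K := rtk6c4K K ({ϖ₁} : Set F)) j₁ ι
    (algebraMap R₀ (rtk6c4R R₀ K ({ϖ₁} : Set F))) h.hι
    (rtk6c4J_hjι (K := K) ι h.hι h.hcl {ϖ₁})
    (fun b => by
      obtain ⟨P, hP, hPb⟩ := rtk6c4_isIntegralElem (K := K) ι h.hι h.hcl {ϖ₁} h.hint b
      refine ⟨P, hP, ?_⟩
      rw [← Polynomial.hom_eval₂, hPb, map_zero])
    (rtk6c4_hcl (K := K) ι h.hι h.hcl {ϖ₁})
    𝔫 d (fun hd => h.hd (by rw [map_natCast]; exact hd)) S h.hS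
    (fun t ht => by
      obtain ⟨a, b, ha, hb, hab⟩ := h.hSet t ht
      refine ⟨a, b, by rw [hj₁j]; exact ha, by rw [hj₁j]; exact hb, ?_⟩
      rw [hj₁j, hj₁j, h.hjι, h.hjι]
      exact hab)
    (rtk6c4_adjoin_top (K := K) ({ϖ₁} : Set F) S h.hgen)
    hram hϖmem s₀ (by rw [hj₁j]; exact h.hs₀) hsm
  exact ⟨j₁ ϖ, s, hϖι, hϖmem, hs, hgen⟩

end R0

end Fermat.Agent.RT.K6
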