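/-
K-machine, piece K6, piece C4-SM (helper86), part 3: **the smooth points on a chart
`B = zchClosure {u}`** (typed form of `rtk6c4sm0_smooth`, `C4SmR0.lean`; the twin of helper94's
`rtk6c4x_crossAt`, `C4X.lean`).

`A₁` the (ramified) base with uniformizer `π` (`= ϖ₁`), `F` the top field, `B_u` its chart,
`𝔫 : AtPt π u` a closed point over a SMOOTH point of the base chart `R₀` (of the `Γ₀`-field `K`
over the UNRAMIFIED base `A₀`): `Rtk6c4Sm j ι 𝔫 d e p s₀ S (algebraMap A₁ F π)`.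

* `rtk6c4sm0_smoothAt` : `∃ s ∈ 𝔫, NodesLocGen 𝔫 {π, s}`;
* `rtk6c4sm0_nodeAt`   : `Rtk6ewmNodeAt V 𝔫 (RingHom.id _) π` (the smooth alternative,
  `EWMulti.lean`), for every family `V`.
-/
import Fermat.Agent.RT.K6.C4SmR0
import Fermat.Agent.RT.K6.EWMulti

set_option autoImplicit false
set_option linter.style.haveILetI false
set_option linter.unusedSectionVars false
set_option linter.unusedVariables false

namespace Fermat.Agent.RT.K6

open Polynomial IntermediateField Fermat.Agent.INJ AlgebraicCurve Fermat.Agent.UNIP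
  Fermat.Agent.STB

section C4SmAt

universe u

variable {A₁ E : Type*} {F : Type u} [CommRing A₁] [IsDomain A₁] [IsDiscreteValuationRing A₁]
  [Field E] [Algebra A₁ E] [IsFractionRing A₁ E] [CharZero E]
  [Field F] [Algebra E F] [Algebra A₁ F] [IsScalarTower A₁ E F]
  {π : A₁}
  {K R₀ : Type u} [Field K] [CharZero K] [Algebra K F] [CommRing R₀] [IsDomain R₀]
  [IsIntegrallyClosed R₀] [Algebra R₀ K] [IsFractionRing R₀ K]
  [Algebra R₀ F] [IsScalarTower R₀ K F]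
  {A₀ : Type*} [CommRing A₀] [IsDomain A₀] [IsDiscreteValuationRing A₀] [Algebra A₀ R₀]

/-- **C4-SM on the chart.** -/
theorem rtk6c4sm0_smoothAt {u : F} (𝔫 : AtPt (F := F) π u)
    (j : R₀ →+* ↥(zchClosure (A₀ := A₁) ({u} : Set F)))
    (ι : ↥(zchClosure (A₀ := A₁) ({u} : Set F)) →+* F) (hιv : ∀ b, ι b = (b : F))
    {d e : ℕ} {p s₀ : R₀} {S : Set F}
    (h : Rtk6c4Sm (K := K) j ι 𝔫.1 d e p s₀ S (algebraMap A₁ F π))
    {π₀ : A₀} (hπ₀ : Irreducible π₀) (hpπ : algebraMap A₀ R₀ π₀ = p) :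
    ∃ s : ↥(zchClosure (A₀ := A₁) ({u} : Set F)), s ∈ 𝔫.1 ∧
      NodesLocGen 𝔫.1 {algebraMap A₁ ↥(zchClosure (A₀ := A₁) ({u} : Set F)) π, s} := by
  haveI : 𝔫.1.IsMaximal := 𝔫.2.1
  obtain ⟨ϖ, s, hϖ, -, hs, hgen⟩ := rtk6c4sm0_smooth h hπ₀ hpπ
  have hϖeq : ϖ = algebraMap A₁ ↥(zchClosure (A₀ := A₁) ({u} : Set F)) π := by
    apply Subtype.ext
    rw [← hιv, hϖ]
    rfl
  subst hϖeq
  exact ⟨s, hs, hgen⟩

/-- **C4-SM on the chart, `Rtk6ewmNodeAt` form** (the smooth alternative). -/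
theorem rtk6c4sm0_nodeAt {κ : Type*} (V : κ → ValuationSubring F) {u : F}
    (𝔫 : AtPt (F := F) π u)
    (j : R₀ →+* ↥(zchClosure (A₀ := A₁) ({u} : Set F)))
    (ι : ↥(zchClosure (A₀ := A₁) ({u} : Set F)) →+* F) (hιv : ∀ b, ι b = (b : F))
    {d e : ℕ} {p s₀ : R₀} {S : Set F}
    (h : Rtk6c4Sm (K := K) j ι 𝔫.1 d e p s₀ S (algebraMap A₁ F π))
    {π₀ : A₀} (hπ₀ : Irreducible π₀) (hpπ : algebraMap A₀ R₀ π₀ = p) :
    Rtk6ewmNodeAt V 𝔫 (RingHom.id ↥(zchClosure (A₀ := A₁) ({u} : Set F)))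
      (algebraMap A₁ ↥(zchClosure (A₀ := A₁) ({u} : Set F)) π) := by
  obtain ⟨s, hs, hgen⟩ := rtk6c4sm0_smoothAt 𝔫 j ι hιv h hπ₀ hpπ
  refine Or.inl ⟨s, hs, ?_⟩
  rw [Ideal.comap_id]
  exact hgen

end C4SmAt

end Fermat.Agent.RT.K6
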