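/-
K-machine, piece K6, piece C4-SM (helper86), part 4: **the smooth alternative of the dichotomy on
the top chart, from the smooth alternative of the thin dichotomy on the base chart** (consumer form
for C4-χ-ASM).

Base chart: `A₀` the UNRAMIFIED discrete valuation ring (`π₀`), `E₀ = Frac A₀`, `K` the `Γ₀`-field
over `E₀`, `u₀ ∈ K`, `R₀ = zchClosure {u₀}`, with (SS1) for a family `V0` of valuation rings of `K`
(e.g. `mgvV`, `mgv_hBV₁`, `mgv_hπV`, `ribmp_fc_hSS1`).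
Top chart: `A₁` the ramified base (`π = ϖ₁`, `π ^ e = π₀`), `F ⊇ K` the top field, `u ∈ F`,
`B = zchClosure {u}`, `j : R₀ →+* B` with `B` the integral closure of `R₀` in `F`.
`Algebra R₀ F` is the canonical instance (`Subalgebra.toAlgebra`, through `K`):
`algebraMap R₀ F r = algebraMap K F (r : K)` by `rfl`.

* `rtk6c4smi_hred_of_ss1` : `π₀ ∣ c ^ 2 → π₀ ∣ c` on `R₀`, from (SS1) (the twin of helper45's
  `rtk6hr_hred_of_ss1` for `zchClosure`);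
* `rtk6c4smi_hp0`         : `π₀ ≠ 0` in `R₀`;
* `rtk6c4smi_mk`          : the structure `Rtk6c4Sm` at a closed point `𝔫` of `B` over a smooth
  point `𝔫₀ = (π₀, s₀)` of `R₀`;
* `rtk6c4smi_nodeAt`      : **`Rtk6ewmNodeAt V 𝔫 (RingHom.id _) π`** at such a point.
-/
import Fermat.Agent.RT.K6.C4SmAt
import Fermat.Agent.UNIP.ATSmall
import Fermat.Agent.UNIP.MGChartsMain

set_option autoImplicit false
set_option linter.style.haveILetI false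
set_option linter.unusedSectionVars false
set_option linter.unusedVariables false

namespace Fermat.Agent.RT.K6

open Polynomial IntermediateField Fermat.Agent.INJ AlgebraicCurve Fermat.Agent.UNIP
  Fermat.Agent.STB

section Base

variable {A₀ E₀ K : Type*} [CommRing A₀] [IsDomain A₀] [IsDiscreteValuationRing A₀]
  [Field E₀] [Algebra A₀ E₀] [IsFractionRing A₀ E₀] [CharZero E₀]
  [Field K] [Algebra E₀ K] [Algebra A₀ K] [IsScalarTower A₀ E₀ K]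
  {π₀ : A₀} {κ₀ : Type*}

/-- **`hred`**: the special fibre of the chart `zchClosure {u₀}` is reduced, from (SS1). -/
theorem rtk6c4smi_hred_of_ss1 (u₀ : K) (V : κ₀ → ValuationSubring K)
    (hBV : ∀ c (b : K), IsIntegral ↥(Algebra.adjoin A₀ ({u₀} : Set K)) b → b ∈ V c)
    (hπV : ∀ c, algebraMap A₀ K π₀ ∈ (V c).nonunits)
    (hSS1 : ∀ b : K, IsIntegral ↥(Algebra.adjoin A₀ ({u₀} : Set K)) b →
      (∀ c, b ∈ (V c).nonunits) →
      ∃ b' : K, IsIntegral ↥(Algebra.adjoin A₀ ({u₀} : Set K)) b' ∧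
        b = algebraMap A₀ K π₀ * b')
    (c : ↥(zchClosure (A₀ := A₀) ({u₀} : Set K)))
    (hc : algebraMap A₀ ↥(zchClosure (A₀ := A₀) ({u₀} : Set K)) π₀ ∣ c ^ 2) :
    algebraMap A₀ ↥(zchClosure (A₀ := A₀) ({u₀} : Set K)) π₀ ∣ c := by
  obtain ⟨b, hb⟩ := hc
  have hbF : (c : K) ^ 2 = algebraMap A₀ K π₀ * (b : K) := congrArg Subtype.val hb
  have hcV : ∀ i, (c : K) ∈ (V i).nonunits := by
    intro i
    apply ats_mem_nonunits_of_pow (V i) (n := 2)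
    rw [hbF, mul_comm]
    exact pwi_mul_mem_nonunits (V i) (hBV i _ b.2) (hπV i)
  obtain ⟨b', hb', hcb'⟩ := hSS1 (c : K) c.2 hcV
  exact ⟨⟨b', hb'⟩, Subtype.ext hcb'⟩

include E₀ in
/-- `π₀ ≠ 0` in the chart -/
theorem rtk6c4smi_hp0 (hπ₀ : Irreducible π₀) (u₀ : K) :
    algebraMap A₀ ↥(zchClosure (A₀ := A₀) ({u₀} : Set K)) π₀ ≠ 0 := by
  intro h0
  have h1 : algebraMap A₀ K π₀ = 0 := congrArg Subtype.val h0
  exact ei_algebraMap_ne_zero (E := E₀) hπ₀ h1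

end Base

section Inst

universe u

variable {A₀ E₀ : Type u} {K : Type u} [CommRing A₀] [IsDomain A₀] [IsDiscreteValuationRing A₀]
  [Field E₀] [Algebra A₀ E₀] [IsFractionRing A₀ E₀] [CharZero E₀]
  [Field K] [Algebra E₀ K] [Algebra A₀ K] [IsScalarTower A₀ E₀ K]
  {π₀ : A₀} {κ₀ : Type*}
  {A₁ E₁ : Type*} {F : Type u} [CommRing A₁] [IsDomain A₁] [IsDiscreteValuationRing A₁]
  [Field E₁] [Algebra A₁ E₁] [IsFractionRing A₁ E₁] [CharZero E₁]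
  [Field F] [Algebra E₁ F] [Algebra A₁ F] [IsScalarTower A₁ E₁ F]
  {π : A₁} [Algebra K F]

include E₀ in
/-- **The structure `Rtk6c4Sm` at a closed point of the top chart over a smooth point of the base
chart.** -/
theorem rtk6c4smi_mk (hπ₀ : Irreducible π₀) (u₀ : K)
    (V0 : κ₀ → ValuationSubring K)
    (hBV : ∀ c (b : K), IsIntegral ↥(Algebra.adjoin A₀ ({u₀} : Set K)) b → b ∈ V0 c)
    (hπV : ∀ c, algebraMap A₀ K π₀ ∈ (V0 c).nonunits)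
    (hSS1 : ∀ b : K, IsIntegral ↥(Algebra.adjoin A₀ ({u₀} : Set K)) b →
      (∀ c, b ∈ (V0 c).nonunits) →
      ∃ b' : K, IsIntegral ↥(Algebra.adjoin A₀ ({u₀} : Set K)) b' ∧
        b = algebraMap A₀ K π₀ * b')
    {u : F} (𝔫 : AtPt (F := F) π u)
    (j : ↥(zchClosure (A₀ := A₀) ({u₀} : Set K)) →+* ↥(zchClosure (A₀ := A₁) ({u} : Set F)))
    (ι : ↥(zchClosure (A₀ := A₁) ({u} : Set F)) →+* F) (hιv : ∀ b, ι b = (b : F))
    (hjι : ∀ r, ι (j r) = algebraMap ↥(zchClosure (A₀ := A₀) ({u₀} : Set K)) F r)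
    (hint : ∀ b : ↥(zchClosure (A₀ := A₁) ({u} : Set F)),
      IsIntegral ↥(zchClosure (A₀ := A₀) ({u₀} : Set K)) (ι b))
    (hcl : ∀ x : F, IsIntegral ↥(zchClosure (A₀ := A₀) ({u₀} : Set K)) x → ∃ b, ι b = x)
    {d e : ℕ} (hd : j (d : ↥(zchClosure (A₀ := A₀) ({u₀} : Set K))) ∉ 𝔫.1)
    (𝔫₀ : AtPt (F := K) π₀ u₀) (hlie : 𝔫.1.comap j = 𝔫₀.1)
    {s₀ : ↥(zchClosure (A₀ := A₀) ({u₀} : Set K))} (hs₀ : s₀ ∈ 𝔫₀.1)
    (hgen₀ : NodesLocGen 𝔫₀.1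
      {algebraMap A₀ ↥(zchClosure (A₀ := A₀) ({u₀} : Set K)) π₀, s₀})
    (he : e ≠ 0)
    (hϖ : algebraMap A₁ F π ^ e = algebraMap ↥(zchClosure (A₀ := A₀) ({u₀} : Set K)) F
      (algebraMap A₀ ↥(zchClosure (A₀ := A₀) ({u₀} : Set K)) π₀))
    {S : Set F} (hS : S.Finite)
    (hSet : ∀ t ∈ S, ∃ a b : ↥(zchClosure (A₀ := A₀) ({u₀} : Set K)), j a ∉ 𝔫.1 ∧ j b ∉ 𝔫.1 ∧
      algebraMap ↥(zchClosure (A₀ := A₀) ({u₀} : Set K)) F b * t ^ d =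
        algebraMap ↥(zchClosure (A₀ := A₀) ({u₀} : Set K)) F a)
    (hgen : Algebra.adjoin K ({algebraMap A₁ F π} ∪ S) = ⊤) :
    Rtk6c4Sm (K := K) j ι 𝔫.1 d e
      (algebraMap A₀ ↥(zchClosure (A₀ := A₀) ({u₀} : Set K)) π₀) s₀ S (algebraMap A₁ F π) where
  hι := fun x y hxy => Subtype.ext (by rw [← hιv, ← hιv]; exact hxy)
  hjι := hjι
  hint := hint
  hcl := hcl
  hd := hd
  hp0 := rtk6c4smi_hp0 (E₀ := E₀) hπ₀ u₀
  hp := by
    have : algebraMap A₀ ↥(zchClosure (A₀ := A₀) ({u₀} : Set K)) π₀ ∈ 𝔫.1.comap j := by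
      rw [hlie]
      exact 𝔫₀.2.2
    exact Ideal.mem_comap.1 this
  hred := rtk6c4smi_hred_of_ss1 u₀ V0 hBV hπV hSS1
  hs₀ := by
    have : s₀ ∈ 𝔫.1.comap j := by
      rw [hlie]
      exact hs₀
    exact Ideal.mem_comap.1 this
  hgen₀ := by
    rw [hlie]
    exact hgen₀
  he := he
  hϖ := hϖ
  hS := hS
  hSet := hSet
  hgen := hgen

include E₀ in
/-- **C4-SM, consumer form.**  At a closed point `𝔫` of the top chart over a smooth point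
`𝔫₀ = (π₀, s₀)` of the base chart: the smooth alternative of `Rtk6ewmNodeAt`. -/
theorem rtk6c4smi_nodeAt (hπ₀ : Irreducible π₀) (u₀ : K) [FiniteDimensional E₀⟮u₀⟯ K]
    (V0 : κ₀ → ValuationSubring K)
    (hBV : ∀ c (b : K), IsIntegral ↥(Algebra.adjoin A₀ ({u₀} : Set K)) b → b ∈ V0 c)
    (hπV : ∀ c, algebraMap A₀ K π₀ ∈ (V0 c).nonunits)
    (hSS1 : ∀ b : K, IsIntegral ↥(Algebra.adjoin A₀ ({u₀} : Set K)) b →
      (∀ c, b ∈ (V0 c).nonunits) →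
      ∃ b' : K, IsIntegral ↥(Algebra.adjoin A₀ ({u₀} : Set K)) b' ∧
        b = algebraMap A₀ K π₀ * b')
    {κ : Type*} (V : κ → ValuationSubring F)
    {u : F} (𝔫 : AtPt (F := F) π u)
    (j : ↥(zchClosure (A₀ := A₀) ({u₀} : Set K)) →+* ↥(zchClosure (A₀ := A₁) ({u} : Set F)))
    (ι : ↥(zchClosure (A₀ := A₁) ({u} : Set F)) →+* F) (hιv : ∀ b, ι b = (b : F))
    (hjι : ∀ r, ι (j r) = algebraMap ↥(zchClosure (A₀ := A₀) ({u₀} : Set K)) F r)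
    (hint : ∀ b : ↥(zchClosure (A₀ := A₁) ({u} : Set F)),
      IsIntegral ↥(zchClosure (A₀ := A₀) ({u₀} : Set K)) (ι b))
    (hcl : ∀ x : F, IsIntegral ↥(zchClosure (A₀ := A₀) ({u₀} : Set K)) x → ∃ b, ι b = x)
    {d e : ℕ} (hd : j (d : ↥(zchClosure (A₀ := A₀) ({u₀} : Set K))) ∉ 𝔫.1)
    (𝔫₀ : AtPt (F := K) π₀ u₀) (hlie : 𝔫.1.comap j = 𝔫₀.1)
    (hsm : ∃ s : ↥(zchClosure (A₀ := A₀) ({u₀} : Set K)), s ∈ 𝔫₀.1 ∧ NodesLocGen 𝔫₀.1
      {algebraMap A₀ ↥(zchClosure (A₀ := A₀) ({u₀} : Set K)) π₀, s})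
    (he : e ≠ 0)
    (hϖ : algebraMap A₁ F π ^ e = algebraMap ↥(zchClosure (A₀ := A₀) ({u₀} : Set K)) F
      (algebraMap A₀ ↥(zchClosure (A₀ := A₀) ({u₀} : Set K)) π₀))
    {S : Set F} (hS : S.Finite)
    (hSet : ∀ t ∈ S, ∃ a b : ↥(zchClosure (A₀ := A₀) ({u₀} : Set K)), j a ∉ 𝔫.1 ∧ j b ∉ 𝔫.1 ∧
      algebraMap ↥(zchClosure (A₀ := A₀) ({u₀} : Set K)) F b * t ^ d =
        algebraMap ↥(zchClosure (A₀ := A₀) ({u₀} : Set K)) F a)
    (hgen : Algebra.adjoin K ({algebraMap A₁ F π} ∪ S) = ⊤) :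
    Rtk6ewmNodeAt V 𝔫 (RingHom.id ↥(zchClosure (A₀ := A₁) ({u} : Set F)))
      (algebraMap A₁ ↥(zchClosure (A₀ := A₁) ({u} : Set F)) π) := by
  obtain ⟨s₀, hs₀, hgen₀⟩ := hsm
  haveI : CharZero K := charZero_of_injective_algebraMap (algebraMap E₀ K).injective
  haveI : IsFractionRing ↥(zchClosure (A₀ := A₀) ({u₀} : Set K)) K :=
    mgc_chart_isFractionRing (A₀ := A₀) (E₀ := E₀) u₀
  haveI : IsIntegrallyClosed ↥(zchClosure (A₀ := A₀) ({u₀} : Set K)) :=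
    mgc_chart_isIntegrallyClosed (A₀ := A₀) (E₀ := E₀) u₀
  exact rtk6c4sm0_nodeAt (K := K) V 𝔫 j ι hιv
    (rtk6c4smi_mk (E₀ := E₀) hπ₀ u₀ V0 hBV hπV hSS1 𝔫 j ι hιv hjι hint hcl hd 𝔫₀ hlie hs₀ hgen₀
      he hϖ hS hSet hgen) hπ₀ rfl

end Inst

end Fermat.Agent.RT.K6
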