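/-
K-machine, piece K6, piece C4-SM (helper86), part 5, (SM-inst): **the CONCRETE structure
`Rtk6c4Sm`** (`C4SmR0.lean`) at a closed point of the chart `j` of `F = rtk6diF A K₁ (M₁ q) M H`
(over `A₁ = mgcA A K₁`, uniformizer `ϖ`, `ϖ ^ e = π`) lying over a SMOOTH point of the chart `j` of
the `Γ₀`-field `K = F_{M₁ q}(ℚ̄^I)` (over the unramified base `A₀ = A ∩ ℚ̄^I`, uniformizer `π`),
rigid level.  The concrete twin of helper54's `rtk6gxi_cross` (`GenCrossInst.lean`), in the same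
setting (`rtk6gxiJ`, `rtk6gxiPt`, `[Algebra K F]` with `halg`).

Inputs (global, in the shapes of helper74's `rtk6gi_sm_JF`, `rtk6gi_et_family`):
* the ramified Kummer generator `y` (`y ^ e = z ∈ K`, `e ∣ ord_P z`, `v_∞(z) = 1`,
  `v_0(z) = v_0(π) ^ n₀`, `a n₀ − b e = 1`);
* the étale Kummer generators `yy i` (`yy i ^ m = uu i ∈ K`, `m ∣ ord_P (uu i)`, `v_∞ = 1`,
  `v_0(uu i) = v_0(π) ^ nn i`, `m ∣ nn i`);
* generation `F = K[ϖ, y, yy i]`.

* `rtk6c4smc_not_cross` : a smooth point of the base chart is not a crossing point;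
* `rtk6c4smc_sm`        : **`∃ S, Rtk6c4Sm j ι 𝔫 (m e) e π s₀ S ϖ`**;
* `rtk6c4smc_nodeAt`    : **`Rtk6ewmNodeAt V 𝔫 (RingHom.id _) ϖ`** for every family `V`.
-/
import Fermat.Agent.RT.K6.C4SmInst
import Fermat.Agent.RT.K6.GenCrossInst
import Fermat.Agent.RT.K6.GenInstEt

set_option autoImplicit false
set_option linter.style.haveILetI false
set_option linter.unusedSectionVars false
set_option linter.unusedVariables false
set_option linter.style.longLine false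
set_option synthInstance.maxHeartbeats 400000
set_option maxHeartbeats 4000000

noncomputable section

namespace Fermat.Agent.RT.K6

open ModularCurve Polynomial IntermediateField Fermat.Agent.INJ Fermat.Agent.AL AlgebraicCurve
open Fermat.Agent.ES Fermat.Agent.ES.G2 Fermat.Agent.STB Fermat.Agent.UNIP Fermat.Agent.S36
open Fermat.Agent.RIB.MP Fermat.Agent.ES1

section Alg

variable {K F : Type*} [Field K] [Field F] [Algebra K F]

/-- a subalgebra of a field containing an element algebraic over the base contains its integral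
powers -/
theorem rtk6c4smc_zpow_mem (T : Subalgebra K F) {x : F} (hx : x ∈ T) (hxi : IsIntegral K x)
    (n : ℤ) : x ^ n ∈ T := by
  have hinv : x⁻¹ ∈ T := by
    have := Subalgebra.inv_mem_of_algebraic (A := T) (x := ⟨x, hx⟩) hxi.isAlgebraic
    exact this
  rcases le_total 0 n with hn | hn
  · obtain ⟨k, rfl⟩ := Int.eq_ofNat_of_zero_le hn
    rw [zpow_natCast]
    exact Subalgebra.pow_mem _ hx k
  · obtain ⟨k, rfl⟩ := Int.exists_eq_neg_ofNat hn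
    rw [zpow_neg, zpow_natCast, ← inv_pow]
    exact Subalgebra.pow_mem _ hinv k

end Alg

section Base

variable {A : ValuationSubring Qb} {q M₁ : ℕ} [NeZero q] [NeZero M₁] [NeZero (M₁ * q)]
  [IsDiscreteValuationRing ↥(beta0Ring A (beta0Field A))]
  {π : ↥(beta0Ring A (beta0Field A))} (hπ : Irreducible π)
  (ιC : ↥(beta0Field A) →+* ℂ) (hq : q.Prime) (hqM : ¬ q ∣ M₁)

include hπ ιC hq hqM in
/-- **a smooth point of the base chart `j` is not a crossing point** -/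
theorem rtk6c4smc_not_cross (hA : A.LiesOverPrime q)
    (rigid : (q ≠ 2 → 4 ∣ M₁) ∧ (q = 2 → 9 ∣ M₁))
    (𝔫 : AtPt (F := ↥(modularFunctionFieldFullC ↥(beta0Field A) (M₁ * q))) π
      (bgJ ↥(beta0Field A) (M₁ * q)))
    {s : ↥(zchClosure (A₀ := ↥(beta0Ring A (beta0Field A)))
      ({bgJ ↥(beta0Field A) (M₁ * q)} :
        Set ↥(modularFunctionFieldFullC ↥(beta0Field A) (M₁ * q))))} (hs : s ∈ 𝔫.1)
    (hgen : NodesLocGen 𝔫.1 {algebraMap ↥(beta0Ring A (beta0Field A))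
      ↥(zchClosure (A₀ := ↥(beta0Ring A (beta0Field A)))
        ({bgJ ↥(beta0Field A) (M₁ * q)} :
          Set ↥(modularFunctionFieldFullC ↥(beta0Field A) (M₁ * q)))) π, s}) :
    ¬ (atThrough 𝔫 (mgvV hπ ιC hq hqM true) ∧ atThrough 𝔫 (mgvV hπ ιC hq hqM false)) := by
  rintro ⟨h₁, h₂⟩
  obtain ⟨c, -, hone, -⟩ := rtk6lfb_smooth_LF_J hπ ιC hq hqM hA le_rfl
    (rtk6lfb_rigid_h2 rigid) (rtk6lfb_rigid_h3 rigid) 𝔫 hs hgen 1
    (y := 1) one_ne_zero (fun P _ => one_dvd _)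
  have e1 := hone true h₁
  have e2 := hone false h₂
  rw [← e2] at e1
  exact Bool.noConfusion e1

end Base

section Conc

variable {A : ValuationSubring Qb} {q M₁ : ℕ} [NeZero q] [NeZero M₁] [NeZero (M₁ * q)]
  [IsDiscreteValuationRing ↥(beta0Ring A (beta0Field A))]
  {π : ↥(beta0Ring A (beta0Field A))} (hπ : Irreducible π)
  (ιC : ↥(beta0Field A) →+* ℂ) (hq : q.Prime) (hqM : ¬ q ∣ M₁)
  (K₁ : IntermediateField ℚ Qb) [NumberField ↥K₁] [IsGalois ℚ ↥K₁]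
  [IsDiscreteValuationRing ↥(mgcA A K₁)]
  (M : ℕ) [NeZero M] (H : Subgroup (ZMod M)ˣ)
  (f : ↥(beta0Field A) →+* ↥(mgcE A K₁))
  (hf : ∀ a : ↥(beta0Field A), ((f a : ↥(mgcE A K₁)) : Qb) = (a : Qb))
  [Algebra ↥(modularFunctionFieldFullC ↥(beta0Field A) (M₁ * q))
    ↥(rtk6diF A K₁ (M₁ * q) M H)]
  (halg : ∀ z : ↥(modularFunctionFieldFullC ↥(beta0Field A) (M₁ * q)),
    algebraMap ↥(modularFunctionFieldFullC ↥(beta0Field A) (M₁ * q))
      ↥(rtk6diF A K₁ (M₁ * q) M H) z = rtk6c4fdIota f (M₁ * q) M H z)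
  (hA : A.LiesOverPrime q) {e : ℕ} (he0 : e ≠ 0) {ϖ : ↥(mgcA A K₁)}
  (hϖe : ϖ ^ e =
    beta0RingIncl (A := A) (le_sup_left : beta0Field A ≤ beta0Field A ⊔ K₁) π)

include hπ ιC hqM in
/-- **(SM-inst): the concrete structure `Rtk6c4Sm`** at a closed point `𝔫` of the chart `j` of `F`
over a smooth point `(π, s₀)` of the chart `j` of `K`. -/
theorem rtk6c4smc_sm (rigid : (q ≠ 2 → 4 ∣ M₁) ∧ (q = 2 → 9 ∣ M₁)) (hqe : ¬ q ∣ e)
    {m : ℕ} (hm0 : m ≠ 0) (hqm : ¬ q ∣ m)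
    (𝔫 : AtPt (F := ↥(rtk6diF A K₁ (M₁ * q) M H)) ϖ (rtk6diT A K₁ (M₁ * q) M H))
    {s₀ : ↥(zchClosure (A₀ := ↥(beta0Ring A (beta0Field A)))
      ({bgJ ↥(beta0Field A) (M₁ * q)} :
        Set ↥(modularFunctionFieldFullC ↥(beta0Field A) (M₁ * q))))}
    (hs₀ : s₀ ∈ (rtk6gxiPt hq K₁ M H f hf halg hA he0 hϖe 𝔫).1)
    (hgen₀ : NodesLocGen (rtk6gxiPt hq K₁ M H f hf halg hA he0 hϖe 𝔫).1
      {algebraMap ↥(beta0Ring A (beta0Field A))
        ↥(zchClosure (A₀ := ↥(beta0Ring A (beta0Field A)))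
          ({bgJ ↥(beta0Field A) (M₁ * q)} :
            Set ↥(modularFunctionFieldFullC ↥(beta0Field A) (M₁ * q)))) π, s₀})
    -- the ramified Kummer generator `y`, `y ^ e = z ∈ K`
    {z : ↥(modularFunctionFieldFullC ↥(beta0Field A) (M₁ * q))} (hz0 : z ≠ 0)
    (hhor : ∀ P : Place ↥(beta0Field A) ↥(modularFunctionFieldFullC ↥(beta0Field A) (M₁ * q)),
      (e : ℤ) ∣ P.ord z)
    (hz₁ : (mgvV hπ ιC hq hqM true).valuation z = 1) {n₀ : ℤ}
    (hn₀ : (mgvV hπ ιC hq hqM false).valuation z = (mgvV hπ ιC hq hqM false).valuation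
      (algebraMap ↥(beta0Ring A (beta0Field A))
        ↥(modularFunctionFieldFullC ↥(beta0Field A) (M₁ * q)) π) ^ n₀)
    {y : ↥(rtk6diF A K₁ (M₁ * q) M H)}
    (hzy : algebraMap ↥(modularFunctionFieldFullC ↥(beta0Field A) (M₁ * q))
      ↥(rtk6diF A K₁ (M₁ * q) M H) z = y ^ e)
    {a b : ℤ} (hab : a * n₀ - b * e = 1)
    -- the étale Kummer generators `yy i`, `yy i ^ m = uu i ∈ K`
    {ι : Type*} [Finite ι] (yy : ι → ↥(rtk6diF A K₁ (M₁ * q) M H))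
    (uu : ι → ↥(modularFunctionFieldFullC ↥(beta0Field A) (M₁ * q))) (nn : ι → ℤ)
    (hyu : ∀ i, yy i ^ m = algebraMap ↥(modularFunctionFieldFullC ↥(beta0Field A) (M₁ * q))
      ↥(rtk6diF A K₁ (M₁ * q) M H) (uu i))
    (hu : ∀ i, uu i ≠ 0)
    (hhor' : ∀ i, ∀ P : Place ↥(beta0Field A)
      ↥(modularFunctionFieldFullC ↥(beta0Field A) (M₁ * q)), (m : ℤ) ∣ P.ord (uu i))
    (hy₁' : ∀ i, (mgvV hπ ιC hq hqM true).valuation (uu i) = 1)
    (hn₀' : ∀ i, (mgvV hπ ιC hq hqM false).valuation (uu i) =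
      (mgvV hπ ιC hq hqM false).valuation
        (algebraMap ↥(beta0Ring A (beta0Field A))
          ↥(modularFunctionFieldFullC ↥(beta0Field A) (M₁ * q)) π) ^ nn i)
    (hdvd : ∀ i, (m : ℤ) ∣ nn i)
    -- generation
    (hgen : Algebra.adjoin ↥(modularFunctionFieldFullC ↥(beta0Field A) (M₁ * q))
      (({algebraMap ↥(mgcA A K₁) ↥(rtk6diF A K₁ (M₁ * q) M H) ϖ, y} :
        Set ↥(rtk6diF A K₁ (M₁ * q) M H)) ∪ Set.range yy) = ⊤) :
    ∃ S : Set ↥(rtk6diF A K₁ (M₁ * q) M H),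
      Rtk6c4Sm (K := ↥(modularFunctionFieldFullC ↥(beta0Field A) (M₁ * q)))
        (rtk6gxiJ K₁ M H f hf halg)
        (algebraMap ↥(zchClosure (A₀ := ↥(mgcA A K₁))
          ({rtk6diT A K₁ (M₁ * q) M H} : Set ↥(rtk6diF A K₁ (M₁ * q) M H)))
          ↥(rtk6diF A K₁ (M₁ * q) M H)) 𝔫.1 (m * e) e
        (algebraMap ↥(beta0Ring A (beta0Field A))
          ↥(zchClosure (A₀ := ↥(beta0Ring A (beta0Field A)))
            ({bgJ ↥(beta0Field A) (M₁ * q)} :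
              Set ↥(modularFunctionFieldFullC ↥(beta0Field A) (M₁ * q)))) π) s₀ S
        (algebraMap ↥(mgcA A K₁) ↥(rtk6diF A K₁ (M₁ * q) M H) ϖ) := by
  classical
  haveI h𝔫₀p : (rtk6gxiPt hq K₁ M H f hf halg hA he0 hϖe 𝔫).1.IsPrime :=
    (rtk6gxiPt hq K₁ M H f hf halg hA he0 hϖe 𝔫).2.1.isPrime
  -- abbreviations
  set φ := algebraMap ↥(modularFunctionFieldFullC ↥(beta0Field A) (M₁ * q))
    ↥(rtk6diF A K₁ (M₁ * q) M H) with hφ
  set ϖ₁ := algebraMap ↥(mgcA A K₁) ↥(rtk6diF A K₁ (M₁ * q) M H) ϖ with hϖ₁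
  have hϖpow : ϖ₁ ^ e = φ (algebraMap ↥(beta0Ring A (beta0Field A))
      ↥(modularFunctionFieldFullC ↥(beta0Field A) (M₁ * q)) π) := by
    rw [hϖ₁, ← map_pow, hϖe]
    exact (rtk6gxi_hgφ K₁ M H f hf halg π).symm
  -- the point is not a crossing point
  have hnc := rtk6c4smc_not_cross hπ ιC hq hqM hA rigid
    (rtk6gxiPt hq K₁ M H f hf halg hA he0 hϖe 𝔫) hs₀ hgen₀
  -- (G-et)
  obtain ⟨S₁, hS₁, hSet₁, -, hyS₁⟩ := rtk6gi_et_family hπ ιC hq hqM φ hA rigid m yy uu nn hyu hu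
    hhor' hy₁' hn₀' hdvd (rtk6gxiPt hq K₁ M H f hf halg hA he0 hϖe 𝔫)
  -- (G-sm)
  obtain ⟨t, a', b', c, ha', hb', hpow, hc, hyt⟩ := rtk6gi_sm_JF hπ ιC hq hqM φ hA rigid e
    hzy.symm hz0 hhor hz₁ hn₀ hab hϖpow (rtk6gxiPt hq K₁ M H f hf halg hA he0 hϖe 𝔫) hnc
  -- `d ∉ 𝔫`
  have hcop : Nat.Coprime (m * e) q := by
    apply Nat.Coprime.mul_left
    · exact Nat.coprime_comm.1 ((Nat.Prime.coprime_iff_not_dvd hq).2 hqm)
    · exact Nat.coprime_comm.1 ((Nat.Prime.coprime_iff_not_dvd hq).2 hqe)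
  have hdn : (((m * e : ℕ) : ℕ) : ↥(zchClosure (A₀ := ↥(mgcA A K₁))
      ({rtk6diT A K₁ (M₁ * q) M H} : Set ↥(rtk6diF A K₁ (M₁ * q) M H)))) ∉ 𝔫.1 :=
    rtk6gxi_natCast_not_mem 𝔫.1 𝔫.2.1.ne_top (rtk6gxi_q_mem hπ hq K₁ M H hA he0 hϖe 𝔫) hcop
  -- integrality of `t` and `ϖ₁` over `K`
  have hb'0 : (b' : ↥(modularFunctionFieldFullC ↥(beta0Field A) (M₁ * q))) ≠ 0 := fun h0 =>
    hb' ((Subtype.ext h0 : b' = 0) ▸ Ideal.zero_mem _)
  have hepos : 0 < e := Nat.pos_of_ne_zero he0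
  have htint : IsIntegral ↥(modularFunctionFieldFullC ↥(beta0Field A) (M₁ * q)) t := by
    apply IsIntegral.of_pow hepos
    have h1 : t ^ e = φ ((a' : ↥(modularFunctionFieldFullC ↥(beta0Field A) (M₁ * q))) /
        (b' : ↥(modularFunctionFieldFullC ↥(beta0Field A) (M₁ * q)))) := by
      rw [map_div₀, eq_div_iff ((map_ne_zero φ).2 hb'0), ← hpow]
      exact mul_comm _ _
    rw [h1]
    exact isIntegral_algebraMap
  have hϖint : IsIntegral ↥(modularFunctionFieldFullC ↥(beta0Field A) (M₁ * q)) ϖ₁ := by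
    apply IsIntegral.of_pow hepos
    rw [hϖpow]
    exact isIntegral_algebraMap
  refine ⟨insert t S₁, rtk6c4smi_mk (E₀ := ↥(beta0Field A)) hπ (bgJ ↥(beta0Field A) (M₁ * q))
    (mgvV hπ ιC hq hqM) (mgv_hBV₁ hπ ιC hq hqM) (mgv_hπV hπ ιC hq hqM)
    (ribmp_fc_hSS1 hπ ιC hq hqM hA le_rfl (rtk6lfb_rigid_h2 rigid) (rtk6lfb_rigid_h3 rigid))
    𝔫 (rtk6gxiJ K₁ M H f hf halg) _ (fun _ => rfl) (fun _ => rfl)
    (fun b => rtk6gxa_hint _ (rtk6gxi_hgφ K₁ M H f hf halg) (rtk6gxi_hu K₁ M H f halg)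
      (rtk6gxi_hg K₁ hq hA) b)
    (fun x hx => ⟨⟨x, rtk6gxa_hcl _ (rtk6gxi_hgφ K₁ M H f hf halg)
      (rtk6gxi_hu K₁ M H f halg) hx⟩, rfl⟩)
    (by rw [map_natCast]; exact hdn)
    (rtk6gxiPt hq K₁ M H f hf halg hA he0 hϖe 𝔫) rfl hs₀ hgen₀ he0 hϖpow
    (hS₁.insert t) ?_ ?_⟩
  · -- hSet, exponent `m * e`
    have hkey : ∀ r : ↥(zchClosure (A₀ := ↥(beta0Ring A (beta0Field A)))
        ({bgJ ↥(beta0Field A) (M₁ * q)} :
          Set ↥(modularFunctionFieldFullC ↥(beta0Field A) (M₁ * q)))),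
        algebraMap ↥(zchClosure (A₀ := ↥(beta0Ring A (beta0Field A)))
          ({bgJ ↥(beta0Field A) (M₁ * q)} :
            Set ↥(modularFunctionFieldFullC ↥(beta0Field A) (M₁ * q))))
          ↥(rtk6diF A K₁ (M₁ * q) M H) r =
        φ (r : ↥(modularFunctionFieldFullC ↥(beta0Field A) (M₁ * q))) := fun _ => rfl
    intro x hx
    rcases hx with rfl | hx
    · refine ⟨a' ^ m, b' ^ m, fun h => ha' (h𝔫₀p.mem_of_pow_mem m h),
        fun h => hb' (h𝔫₀p.mem_of_pow_mem m h), ?_⟩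
      rw [hkey, hkey, Subalgebra.coe_pow, Subalgebra.coe_pow, map_pow, map_pow,
        Nat.mul_comm m e, pow_mul, ← mul_pow, hpow]
    · obtain ⟨a₁, b₁, ha₁, hb₁, hab₁⟩ := hSet₁ x hx
      refine ⟨a₁ ^ e, b₁ ^ e, fun h => ha₁ (h𝔫₀p.mem_of_pow_mem e h),
        fun h => hb₁ (h𝔫₀p.mem_of_pow_mem e h), ?_⟩
      rw [hkey, hkey, Subalgebra.coe_pow, Subalgebra.coe_pow, map_pow, map_pow,
        pow_mul, ← mul_pow, hab₁]
  · -- generation
    rw [eq_top_iff, ← hgen]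
    refine Algebra.adjoin_le ?_
    rintro x (hx | ⟨i, rfl⟩)
    · rcases hx with rfl | hx
      · exact Algebra.subset_adjoin (Or.inl rfl)
      · rw [Set.mem_singleton_iff] at hx
        subst hx
        have htm : t ∈ Algebra.adjoin ↥(modularFunctionFieldFullC ↥(beta0Field A) (M₁ * q))
            (({ϖ₁} : Set ↥(rtk6diF A K₁ (M₁ * q) M H)) ∪ insert t S₁) :=
          Algebra.subset_adjoin (Or.inr (Set.mem_insert _ _))
        have hϖm : ϖ₁ ∈ Algebra.adjoin ↥(modularFunctionFieldFullC ↥(beta0Field A) (M₁ * q))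
            (({ϖ₁} : Set ↥(rtk6diF A K₁ (M₁ * q) M H)) ∪ insert t S₁) :=
          Algebra.subset_adjoin (Or.inl rfl)
        rcases hyt with ⟨-, hy⟩ | ⟨-, hy⟩
        · rw [hy]
          exact Subalgebra.mul_mem _ (Subalgebra.algebraMap_mem _ _) htm
        · rw [hy]
          exact Subalgebra.mul_mem _ (Subalgebra.algebraMap_mem _ _)
            (rtk6c4smc_zpow_mem _ (Subalgebra.mul_mem _ htm hϖm) (htint.mul hϖint) n₀)
    · obtain ⟨t₁, ht₁, c₁, -, hyi⟩ := hyS₁ i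
      show yy i ∈ _
      rw [hyi]
      exact Subalgebra.mul_mem _ (Subalgebra.algebraMap_mem _ _)
        (Algebra.subset_adjoin (Or.inr (Set.mem_insert_of_mem _ ht₁)))

include hπ ιC hqM in
/-- **(SM-inst), `Rtk6ewmNodeAt` form**: the smooth alternative of the dichotomy at a closed point
`𝔫` of the chart `j` of `F` over a smooth point of the chart `j` of `K`, for every family `V`. -/
theorem rtk6c4smc_nodeAt (rigid : (q ≠ 2 → 4 ∣ M₁) ∧ (q = 2 → 9 ∣ M₁)) (hqe : ¬ q ∣ e)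
    {m : ℕ} (hm0 : m ≠ 0) (hqm : ¬ q ∣ m)
    {κ : Type*} (V : κ → ValuationSubring ↥(rtk6diF A K₁ (M₁ * q) M H))
    (𝔫 : AtPt (F := ↥(rtk6diF A K₁ (M₁ * q) M H)) ϖ (rtk6diT A K₁ (M₁ * q) M H))
    (hsm : ∃ s₀ : ↥(zchClosure (A₀ := ↥(beta0Ring A (beta0Field A)))
        ({bgJ ↥(beta0Field A) (M₁ * q)} :
          Set ↥(modularFunctionFieldFullC ↥(beta0Field A) (M₁ * q)))),
      s₀ ∈ (rtk6gxiPt hq K₁ M H f hf halg hA he0 hϖe 𝔫).1 ∧
      NodesLocGen (rtk6gxiPt hq K₁ M H f hf halg hA he0 hϖe 𝔫).1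
        {algebraMap ↥(beta0Ring A (beta0Field A))
          ↥(zchClosure (A₀ := ↥(beta0Ring A (beta0Field A)))
            ({bgJ ↥(beta0Field A) (M₁ * q)} :
              Set ↥(modularFunctionFieldFullC ↥(beta0Field A) (M₁ * q)))) π, s₀})
    {z : ↥(modularFunctionFieldFullC ↥(beta0Field A) (M₁ * q))} (hz0 : z ≠ 0)
    (hhor : ∀ P : Place ↥(beta0Field A) ↥(modularFunctionFieldFullC ↥(beta0Field A) (M₁ * q)),
      (e : ℤ) ∣ P.ord z)
    (hz₁ : (mgvV hπ ιC hq hqM true).valuation z = 1) {n₀ : ℤ}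
    (hn₀ : (mgvV hπ ιC hq hqM false).valuation z = (mgvV hπ ιC hq hqM false).valuation
      (algebraMap ↥(beta0Ring A (beta0Field A))
        ↥(modularFunctionFieldFullC ↥(beta0Field A) (M₁ * q)) π) ^ n₀)
    {y : ↥(rtk6diF A K₁ (M₁ * q) M H)}
    (hzy : algebraMap ↥(modularFunctionFieldFullC ↥(beta0Field A) (M₁ * q))
      ↥(rtk6diF A K₁ (M₁ * q) M H) z = y ^ e)
    {a b : ℤ} (hab : a * n₀ - b * e = 1)
    {ι : Type*} [Finite ι] (yy : ι → ↥(rtk6diF A K₁ (M₁ * q) M H))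
    (uu : ι → ↥(modularFunctionFieldFullC ↥(beta0Field A) (M₁ * q))) (nn : ι → ℤ)
    (hyu : ∀ i, yy i ^ m = algebraMap ↥(modularFunctionFieldFullC ↥(beta0Field A) (M₁ * q))
      ↥(rtk6diF A K₁ (M₁ * q) M H) (uu i))
    (hu : ∀ i, uu i ≠ 0)
    (hhor' : ∀ i, ∀ P : Place ↥(beta0Field A)
      ↥(modularFunctionFieldFullC ↥(beta0Field A) (M₁ * q)), (m : ℤ) ∣ P.ord (uu i))
    (hy₁' : ∀ i, (mgvV hπ ιC hq hqM true).valuation (uu i) = 1)
    (hn₀' : ∀ i, (mgvV hπ ιC hq hqM false).valuation (uu i) =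
      (mgvV hπ ιC hq hqM false).valuation
        (algebraMap ↥(beta0Ring A (beta0Field A))
          ↥(modularFunctionFieldFullC ↥(beta0Field A) (M₁ * q)) π) ^ nn i)
    (hdvd : ∀ i, (m : ℤ) ∣ nn i)
    (hgen : Algebra.adjoin ↥(modularFunctionFieldFullC ↥(beta0Field A) (M₁ * q))
      (({algebraMap ↥(mgcA A K₁) ↥(rtk6diF A K₁ (M₁ * q) M H) ϖ, y} :
        Set ↥(rtk6diF A K₁ (M₁ * q) M H)) ∪ Set.range yy) = ⊤) :
    Rtk6ewmNodeAt V 𝔫 (RingHom.id ↥(zchClosure (A₀ := ↥(mgcA A K₁))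
        ({rtk6diT A K₁ (M₁ * q) M H} : Set ↥(rtk6diF A K₁ (M₁ * q) M H))))
      (algebraMap ↥(mgcA A K₁) ↥(zchClosure (A₀ := ↥(mgcA A K₁))
        ({rtk6diT A K₁ (M₁ * q) M H} : Set ↥(rtk6diF A K₁ (M₁ * q) M H))) ϖ) := by
  obtain ⟨s₀, hs₀, hgen₀⟩ := hsm
  obtain ⟨S, hS⟩ := rtk6c4smc_sm hπ ιC hq hqM K₁ M H f hf halg hA he0 hϖe rigid hqe hm0 hqm 𝔫
    hs₀ hgen₀ hz0 hhor hz₁ hn₀ hzy hab yy uu nn hyu hu hhor' hy₁' hn₀' hdvd hgen
  haveI := ribmp_fc_fin (K₀ := beta0Field A) (M₁ * q)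
  haveI : CharZero ↥(modularFunctionFieldFullC ↥(beta0Field A) (M₁ * q)) :=
    charZero_of_injective_algebraMap
      (algebraMap ↥(beta0Field A) ↥(modularFunctionFieldFullC ↥(beta0Field A) (M₁ * q))).injective
  haveI : IsFractionRing ↥(zchClosure (A₀ := ↥(beta0Ring A (beta0Field A)))
      ({bgJ ↥(beta0Field A) (M₁ * q)} :
        Set ↥(modularFunctionFieldFullC ↥(beta0Field A) (M₁ * q))))
      ↥(modularFunctionFieldFullC ↥(beta0Field A) (M₁ * q)) :=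
    mgc_chart_isFractionRing (A₀ := ↥(beta0Ring A (beta0Field A))) (E₀ := ↥(beta0Field A))
      (bgJ ↥(beta0Field A) (M₁ * q))
  haveI : IsIntegrallyClosed ↥(zchClosure (A₀ := ↥(beta0Ring A (beta0Field A)))
      ({bgJ ↥(beta0Field A) (M₁ * q)} :
        Set ↥(modularFunctionFieldFullC ↥(beta0Field A) (M₁ * q)))) :=
    mgc_chart_isIntegrallyClosed (A₀ := ↥(beta0Ring A (beta0Field A))) (E₀ := ↥(beta0Field A))
      (bgJ ↥(beta0Field A) (M₁ * q))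
  exact rtk6c4sm0_nodeAt (K := ↥(modularFunctionFieldFullC ↥(beta0Field A) (M₁ * q))) V 𝔫
    (rtk6gxiJ K₁ M H f hf halg) _ (fun _ => rfl) hS hπ rfl

end Conc

end Fermat.Agent.RT.K6

end
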