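/-
K-machine, piece K6 / N0-inst (helper6), FINAL forms: `K₀ = ℚ̄^I = beta0Field A` (the unramified
base of UNIP / DLFConc), `w` discharged by piece B (`stmtB`, helper96) from `IsStarStable N q H`.

For the NORMALISED Kummer element `u′ = ⟨rtk6n0Y E₀ N H ψ ^ d, hmem⟩` (`N0Norm.lean`) and for
`u = ⟨rtk6d0Y E₀ N H ⊤ ψ ^ d, hmem⟩`:

* `rtk6n0b_exists_w` : `∃ w, IsWAt (M q) N H q w`;
* `rtk6n0b_norm_inf`          : (N1′) `v_∞(u′) = 1`;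
* `rtk6n0b_norm_zero_coprime` : (N2′) `∃ n₀, v_0(u′) = v_0(π) ^ n₀ ∧ gcd(n₀, d) = 1`, and Bézout
  `rtk6n0b_norm_zero_bezout` : `∃ n₀ a b, v_0(u′) = v_0(π) ^ n₀ ∧ a * n₀ - b * d = 1`;
* `rtk6n0b_norm_zero_dvd`     : (N3′) `∃ n₀, d ∣ n₀ ∧ v_0(u′) = v_0(π) ^ n₀`;
* `rtk6n0b_zero_coprime`, `rtk6n0b_zero_dvd` : (N2), (N3) for `u`.
-/
import Fermat.Agent.RT.K6.N0Norm
import Fermat.Agent.RT.K6.BFinal

set_option autoImplicit false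
set_option linter.style.haveILetI false
set_option linter.unusedSectionVars false
set_option linter.unusedVariables false
set_option synthInstance.maxHeartbeats 400000
set_option maxHeartbeats 1000000

noncomputable section

namespace Fermat.Agent.RT.K6

open ModularCurve AlgebraicCurve HahnSeries Fermat.Agent.ES Fermat.Agent.ES.G2 Fermat.Agent.INJ
open Fermat.Agent.UNIP Fermat.Agent.ES1 Fermat.Agent.ES1.G2 IntermediateField Fermat.Agent.AL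

section W

variable {q M N : ℕ} [NeZero (M * q)] {H : Subgroup (ZMod N)ˣ}

/-- piece B at the level `M q`, `q ∤ M` -/
theorem rtk6n0b_exists_w (hq : q.Prime) (hqM : ¬ q ∣ M) (hNL : N ∣ M * q) (hqN : q ∣ N)
    (hstar : IsStarStable N q H) :
    ∃ w : fieldBar (M * q) N H ≃ₐ[Qb] fieldBar (M * q) N H, IsWAt (M * q) N H q w := by
  refine stmtB (M * q) N H q (NeZero.ne (M * q)) hNL hq hqN ?_ hstar
  intro h
  rw [pow_two] at h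
  exact hqM (Nat.dvd_of_mul_dvd_mul_right hq.pos h)

/-- Bézout from coprimality, in the shape `a * n₀ - b * d = 1` -/
theorem rtk6n0b_bezout {n₀ : ℤ} {d : ℕ} (h : Nat.Coprime n₀.natAbs d) :
    ∃ a b : ℤ, a * n₀ - b * d = 1 := by
  have h1 : IsCoprime n₀ (d : ℤ) := by
    rw [Int.isCoprime_iff_gcd_eq_one, Int.gcd_eq_natAbs, Int.natAbs_natCast]
    exact h
  obtain ⟨a, b, hab⟩ := h1
  exact ⟨a, -b, by linear_combination hab⟩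

end W

section Base

variable {A : ValuationSubring Qb} {q M : ℕ} [NeZero q] [NeZero M] [NeZero (M * q)]
  [IsDiscreteValuationRing ↥(beta0Ring A (beta0Field A))]
  {π : ↥(beta0Ring A (beta0Field A))} (hπ : Irreducible π)
  (ιC : ↥(beta0Field A) →+* ℂ) (hq : q.Prime) (hqM : ¬ q ∣ M)
  {N : ℕ} [NeZero N] {H : Subgroup (ZMod N)ˣ} (ψ : (ZMod N)ˣ →* (↥(beta0Field A))ˣ)

/-- **(N1′)** at `K₀ = ℚ̄^I` -/
theorem rtk6n0b_norm_inf (hN3 : 3 ≤ N) (hψH : ∀ h ∈ H, ψ h = 1) (hψ1 : ψ (-1) = 1) (d : ℕ)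
    (hmem : rtk6n0Y ↥(beta0Field A) N H ψ ^ d
      ∈ modularFunctionFieldFullC ↥(beta0Field A) (M * q)) :
    (mgvV hπ ιC hq hqM true).valuation
      (⟨rtk6n0Y ↥(beta0Field A) N H ψ ^ d, hmem⟩ :
        ↥(modularFunctionFieldFullC ↥(beta0Field A) (M * q))) = 1 :=
  rtk6n0_norm_inf hπ ιC hq hqM ψ hN3 hψH hψ1 d hmem

/-- **(N2′)** at `K₀ = ℚ̄^I`, `w` from piece B -/
theorem rtk6n0b_norm_zero_coprime (hA : A.LiesOverPrime q) (hNL : N ∣ M * q) (hqN : q ∣ N)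
    (hN3 : 3 ≤ N) (hstar : IsStarStable N q H)
    (hψH : ∀ h ∈ H, ψ h = 1) (hψ1 : ψ (-1) = 1) {d : ℕ} (hd : ¬ q ∣ d)
    (hψd : ∀ c, ψ c ^ d = 1) {c₀ : (ZMod N)ˣ} (hc₀ : IsAtR N q c₀)
    (hord : orderOf (ψ c₀) = d)
    (hmem : rtk6n0Y ↥(beta0Field A) N H ψ ^ d
      ∈ modularFunctionFieldFullC ↥(beta0Field A) (M * q)) :
    ∃ n₀ : ℤ, (mgvV hπ ιC hq hqM false).valuation
        (⟨rtk6n0Y ↥(beta0Field A) N H ψ ^ d, hmem⟩ :
          ↥(modularFunctionFieldFullC ↥(beta0Field A) (M * q)))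
      = (mgvV hπ ιC hq hqM false).valuation
        (algebraMap ↥(beta0Ring A (beta0Field A))
          ↥(modularFunctionFieldFullC ↥(beta0Field A) (M * q)) π) ^ n₀ ∧
      Nat.Coprime n₀.natAbs d := by
  obtain ⟨w, hw⟩ := rtk6n0b_exists_w (H := H) hq hqM hNL hqN hstar
  exact rtk6n0_norm_zero_coprime hπ ιC hq hqM ψ hA (rtk6n0_base_assoc hπ hq hA) hNL hqN hN3 hw
    hψH hψ1 hd hψd hc₀ hord hmem

/-- **(N2′)** with Bézout coefficients (`hab` of `Rtk6c4Cross`) -/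
theorem rtk6n0b_norm_zero_bezout (hA : A.LiesOverPrime q) (hNL : N ∣ M * q) (hqN : q ∣ N)
    (hN3 : 3 ≤ N) (hstar : IsStarStable N q H)
    (hψH : ∀ h ∈ H, ψ h = 1) (hψ1 : ψ (-1) = 1) {d : ℕ} (hd : ¬ q ∣ d)
    (hψd : ∀ c, ψ c ^ d = 1) {c₀ : (ZMod N)ˣ} (hc₀ : IsAtR N q c₀)
    (hord : orderOf (ψ c₀) = d)
    (hmem : rtk6n0Y ↥(beta0Field A) N H ψ ^ d
      ∈ modularFunctionFieldFullC ↥(beta0Field A) (M * q)) :
    ∃ n₀ a b : ℤ, (mgvV hπ ιC hq hqM false).valuation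
        (⟨rtk6n0Y ↥(beta0Field A) N H ψ ^ d, hmem⟩ :
          ↥(modularFunctionFieldFullC ↥(beta0Field A) (M * q)))
      = (mgvV hπ ιC hq hqM false).valuation
        (algebraMap ↥(beta0Ring A (beta0Field A))
          ↥(modularFunctionFieldFullC ↥(beta0Field A) (M * q)) π) ^ n₀ ∧
      a * n₀ - b * d = 1 := by
  obtain ⟨n₀, hn₀, hcop⟩ := rtk6n0b_norm_zero_coprime hπ ιC hq hqM ψ hA hNL hqN hN3 hstar hψH
    hψ1 hd hψd hc₀ hord hmem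
  obtain ⟨a, b, hab⟩ := rtk6n0b_bezout hcop
  exact ⟨n₀, a, b, hn₀, hab⟩

/-- **(N3′)** at `K₀ = ℚ̄^I`, `w` from piece B -/
theorem rtk6n0b_norm_zero_dvd (hA : A.LiesOverPrime q) (hNL : N ∣ M * q) (hqN : q ∣ N)
    (hN3 : 3 ≤ N) (hstar : IsStarStable N q H)
    (hψH : ∀ h ∈ H, ψ h = 1) (hψ1 : ψ (-1) = 1) {d : ℕ} (hd : ¬ q ∣ d)
    (hψd : ∀ c, ψ c ^ d = 1) (hψr : ∀ c : (ZMod N)ˣ, IsAtR N q c → ψ c = 1)
    (hmem : rtk6n0Y ↥(beta0Field A) N H ψ ^ d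
      ∈ modularFunctionFieldFullC ↥(beta0Field A) (M * q)) :
    ∃ n₀ : ℤ, (d : ℤ) ∣ n₀ ∧
      (mgvV hπ ιC hq hqM false).valuation
        (⟨rtk6n0Y ↥(beta0Field A) N H ψ ^ d, hmem⟩ :
          ↥(modularFunctionFieldFullC ↥(beta0Field A) (M * q)))
      = (mgvV hπ ιC hq hqM false).valuation
        (algebraMap ↥(beta0Ring A (beta0Field A))
          ↥(modularFunctionFieldFullC ↥(beta0Field A) (M * q)) π) ^ n₀ := by
  obtain ⟨w, hw⟩ := rtk6n0b_exists_w (H := H) hq hqM hNL hqN hstar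
  exact rtk6n0_norm_zero_dvd hπ ιC hq hqM ψ hA (rtk6n0_base_assoc hπ hq hA) hNL hqN hN3 hw
    hψH hψ1 hd hψd hψr hmem

/-- **(N2)** for `u = y_ψ ^ d` at `K₀ = ℚ̄^I`, `w` from piece B -/
theorem rtk6n0b_zero_coprime (hA : A.LiesOverPrime q) (hNL : N ∣ M * q) (hqN : q ∣ N)
    (hN3 : 3 ≤ N) (hstar : IsStarStable N q H)
    (hψH : ∀ h ∈ H, ψ h = 1) (hψ1 : ψ (-1) = 1) {d : ℕ} (hd : ¬ q ∣ d)
    (hψd : ∀ c, ψ c ^ d = 1) {c₀ : (ZMod N)ˣ} (hc₀ : IsAtR N q c₀)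
    (hord : orderOf (ψ c₀) = d)
    (hmem : rtk6d0Y ↥(beta0Field A) N H ⊤ ψ ^ d
      ∈ modularFunctionFieldFullC ↥(beta0Field A) (M * q)) :
    ∃ n₀ : ℤ, (mgvV hπ ιC hq hqM false).valuation
        (⟨rtk6d0Y ↥(beta0Field A) N H ⊤ ψ ^ d, hmem⟩ :
          ↥(modularFunctionFieldFullC ↥(beta0Field A) (M * q)))
      = (mgvV hπ ιC hq hqM false).valuation
        (algebraMap ↥(beta0Ring A (beta0Field A))
          ↥(modularFunctionFieldFullC ↥(beta0Field A) (M * q)) π) ^ n₀ ∧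
      Nat.Coprime n₀.natAbs d := by
  obtain ⟨w, hw⟩ := rtk6n0b_exists_w (H := H) hq hqM hNL hqN hstar
  exact rtk6n0_zero_coprime hπ ιC hq hqM ψ hA (rtk6n0_base_assoc hπ hq hA) hNL hqN hN3 hw
    hψH hψ1 hd hψd hc₀ hord hmem

/-- **(N3)** for `u = y_ψ ^ d` at `K₀ = ℚ̄^I`, `w` from piece B -/
theorem rtk6n0b_zero_dvd (hA : A.LiesOverPrime q) (hNL : N ∣ M * q) (hqN : q ∣ N)
    (hN3 : 3 ≤ N) (hstar : IsStarStable N q H)
    (hψH : ∀ h ∈ H, ψ h = 1) (hψ1 : ψ (-1) = 1) {d : ℕ} (hd : ¬ q ∣ d)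
    (hψd : ∀ c, ψ c ^ d = 1) (hψr : ∀ c : (ZMod N)ˣ, IsAtR N q c → ψ c = 1)
    (hmem : rtk6d0Y ↥(beta0Field A) N H ⊤ ψ ^ d
      ∈ modularFunctionFieldFullC ↥(beta0Field A) (M * q)) :
    ∃ n₀ : ℤ, (d : ℤ) ∣ n₀ ∧
      (mgvV hπ ιC hq hqM false).valuation
        (⟨rtk6d0Y ↥(beta0Field A) N H ⊤ ψ ^ d, hmem⟩ :
          ↥(modularFunctionFieldFullC ↥(beta0Field A) (M * q)))
      = (mgvV hπ ιC hq hqM false).valuation
        (algebraMap ↥(beta0Ring A (beta0Field A))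
          ↥(modularFunctionFieldFullC ↥(beta0Field A) (M * q)) π) ^ n₀ := by
  obtain ⟨w, hw⟩ := rtk6n0b_exists_w (H := H) hq hqM hNL hqN hstar
  exact rtk6n0_zero_dvd hπ ιC hq hqM ψ hA (rtk6n0_base_assoc hπ hq hA) hNL hqN hN3 hw
    hψH hψ1 hd hψd hψr hmem

end Base

end Fermat.Agent.RT.K6

end
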