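/-
K-machine, piece K6, piece C4-χ-ASM, **the DISCHARGE of `hsm`** (helper86) at the thin level
`K₁ = rtk6ebK q d_q` (`d_q = rtk6psiDr M q H`), both charts: the twin of helper54's discharge of
`hcr` (`C4AsmCr.lean`).

`hsm` of helper94's `rtk6c4aj_plusAt` (`C4AsmJ.lean`), LITERALLY: at a closed point `𝔫` of the
chart `j` (resp. `1 / j`) of `F₁ = rtk6diF A K₁ (M₁ q) M H` over `A₁ = mgcA A K₁` (uniformizer `ϖ`,
`ϖ ^ d_q = q`), if `𝔫₀ = 𝔫 ∩ R₀` is a SMOOTH point `(π, s₀)` of the chart of the `Γ₀`-field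
`K = F_{M₁ q}(ℚ̄^I)`, then `𝔫` is a smooth point `(ϖ, s)`.

Inputs, all on main:
* PSI (`Psi.lean`): the characters `ψ_q`, `ψ′_i` over `ℚ̄^I` (`rtk6psi_exists`; the roots of unity
  of order prime to `q` lie in `ℚ̄^I`, `rtk6eb_root_mem_beta0`);
* N0 (`N0Final.lean`, helper6): the valuations of the normalised Kummer elements `u′`;
* D-unr (`DUnr.lean`): the horizontal divisibility `d ∣ ord_P u′`;
* WIRE (`C4ChiWireGen.lean`, helper70): (F1) `K[y′_{ψ′_i}, C ϖ, y′_{ψ_q}] = F₁`;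
* (SM-inst) (`C4SmConc.lean`, `C4SmConcInv.lean`): the concrete structure `Rtk6c4Sm`.

* `rtk6c4as_rigid`     : `4 ∣ M₁ q`, `q ∤ M₁` ⇒ the level is rigid;
* `rtk6c4as_root`      : a primitive `d`-th root of unity in `ℚ̄^I`, `q ∤ d`;
* `rtk6c4as_hsm_both`  : `hsm` on the two charts;
* `rtk6c4as_hsm`, `rtk6c4as_hsm_inv` : **`hsm` of `rtk6c4aj_plusAt` and of its `1 / j` twin**.
-/
import Fermat.Agent.RT.K6.C4SmConc
import Fermat.Agent.RT.K6.C4SmConcInv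
import Fermat.Agent.RT.K6.C4ChiWireGen
import Fermat.Agent.RT.K6.N0Final
import Fermat.Agent.RT.K6.Psi
import Fermat.Agent.RT.K6.DUnr

set_option autoImplicit false
set_option linter.style.haveILetI false
set_option linter.unusedSectionVars false
set_option linter.unusedVariables false
set_option linter.style.longLine false
set_option synthInstance.maxHeartbeats 400000
set_option maxHeartbeats 4000000

noncomputable section

namespace Fermat.Agent.RT.K6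

open ModularCurve Polynomial IntermediateField Fermat.Agent.INJ Fermat.Agent.AL AlgebraicCurve
open Fermat.Agent.ES Fermat.Agent.ES.G2 Fermat.Agent.STB Fermat.Agent.UNIP Fermat.Agent.S36
open Fermat.Agent.RIB.MP Fermat.Agent.ES1 Fermat.Agent.ES1.G2

section Arith

/-- `q ≠ 2` at a level `M₁ q` divisible by `4`, `q ∤ M₁` -/
theorem rtk6c4as_ne_two {q M₁ : ℕ} (hqM : ¬ q ∣ M₁) (h4 : 4 ∣ M₁ * q) : q ≠ 2 := by
  rintro rfl
  apply hqM
  omega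

/-- the level `M₁ q` is rigid -/
theorem rtk6c4as_rigid {q M₁ : ℕ} (hq : q.Prime) (hqM : ¬ q ∣ M₁) (h4 : 4 ∣ M₁ * q) :
    (q ≠ 2 → 4 ∣ M₁) ∧ (q = 2 → 9 ∣ M₁) := by
  have hq2 := rtk6c4as_ne_two hqM h4
  refine ⟨fun _ => ?_, fun h => absurd h hq2⟩
  have hodd : Nat.Coprime 4 q := by
    have h2q : Nat.Coprime 2 q := (Nat.coprime_primes Nat.prime_two hq).mpr (Ne.symm hq2)
    exact Nat.Coprime.pow_left 2 h2q
  exact (Nat.Coprime.dvd_mul_right hodd).mp h4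

/-- `3 ≤ M` -/
theorem rtk6c4as_three_le {q M₁ M : ℕ} (hq : q.Prime) (hqN : q ∣ M) (hM0 : M ≠ 0)
    (hqM : ¬ q ∣ M₁) (h4 : 4 ∣ M₁ * q) : 3 ≤ M := by
  have h2 := rtk6c4as_ne_two hqM h4
  have h3 : 3 ≤ q := by
    have := hq.two_le
    omega
  exact h3.trans (Nat.le_of_dvd (Nat.pos_of_ne_zero hM0) hqN)

/-- `q² ∤ M` -/
theorem rtk6c4as_not_sq {q M₁ M : ℕ} (hq : q.Prime) (hqM : ¬ q ∣ M₁) (hML : M ∣ M₁ * q) :
    ¬ q ^ 2 ∣ M := by
  intro h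
  have h1 : q * q ∣ M₁ * q := by
    rw [← pow_two]
    exact h.trans hML
  exact hqM (Nat.dvd_of_mul_dvd_mul_right hq.pos h1)

/-- `q ∤ d` for `d` prime to `6 M₁ q` -/
theorem rtk6c4as_not_dvd {q M₁ d : ℕ} (hq : q.Prime) (hd : Nat.Coprime d (6 * (M₁ * q))) :
    ¬ q ∣ d := by
  intro h
  have h1 : q ∣ Nat.gcd d (6 * (M₁ * q)) :=
    Nat.dvd_gcd h (Dvd.dvd.mul_left (Dvd.intro_left M₁ rfl) 6)
  rw [hd] at h1
  exact hq.one_lt.ne' (Nat.dvd_one.1 h1)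

end Arith

section Root

variable {A : ValuationSubring Qb} {q : ℕ}

/-- **a primitive `d`-th root of unity in `ℚ̄^I`**, `q ∤ d` -/
theorem rtk6c4as_root (hq : q.Prime) (hA : A.LiesOverPrime q) {d : ℕ} (hd0 : d ≠ 0)
    (hqd : ¬ q ∣ d) : ∃ ζ : ↥(beta0Field A), IsPrimitiveRoot ζ d := by
  obtain ⟨ζ, hζ⟩ := rtk6psi_exists_primitiveRoot Qb hd0
  have hmem : ζ ∈ beta0Field A := rtk6eb_root_mem_beta0 hq hA hqd hζ.pow_eq_one
  refine ⟨⟨ζ, hmem⟩, ?_⟩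
  exact IsPrimitiveRoot.of_map_of_injective (f := (beta0Field A).val) hζ
    Subtype.val_injective

end Root

section Data

variable {A : ValuationSubring Qb} {q M₁ : ℕ} [NeZero q] [NeZero M₁] [NeZero (M₁ * q)]
  [IsDiscreteValuationRing ↥(beta0Ring A (beta0Field A))]
  {π : ↥(beta0Ring A (beta0Field A))} (hπ : Irreducible π)
  (ιC : ↥(beta0Field A) →+* ℂ) (hq : q.Prime) (hqM : ¬ q ∣ M₁)
  (M : ℕ) [NeZero M] (H : Subgroup (ZMod M)ˣ)
  [IsDiscreteValuationRing ↥(mgcA A (rtk6ebK q (rtk6psiDr M q H)))]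
  (f : ↥(beta0Field A) →+* ↥(mgcE A (rtk6ebK q (rtk6psiDr M q H))))
  (hf : ∀ a : ↥(beta0Field A),
    ((f a : ↥(mgcE A (rtk6ebK q (rtk6psiDr M q H)))) : Qb) = (a : Qb))
  [Algebra ↥(modularFunctionFieldFullC ↥(beta0Field A) (M₁ * q))
    ↥(rtk6diF A (rtk6ebK q (rtk6psiDr M q H)) (M₁ * q) M H)]
  (halg : ∀ z : ↥(modularFunctionFieldFullC ↥(beta0Field A) (M₁ * q)),
    algebraMap ↥(modularFunctionFieldFullC ↥(beta0Field A) (M₁ * q))
      ↥(rtk6diF A (rtk6ebK q (rtk6psiDr M q H)) (M₁ * q) M H) z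
        = rtk6c4fdIota f (M₁ * q) M H z)
  (hA : A.LiesOverPrime q) (hd0 : rtk6psiDr M q H ≠ 0)
  {ϖ : ↥(mgcA A (rtk6ebK q (rtk6psiDr M q H)))}
  (hϖd : ϖ ^ rtk6psiDr M q H =
    beta0RingIncl (A := A)
      (le_sup_left : beta0Field A ≤ beta0Field A ⊔ rtk6ebK q (rtk6psiDr M q H)) π)

include hπ ιC hqM in
/-- **the discharge of `hsm` on the two charts** at the thin level `K₁ = rtk6ebK q d_q`. -/
theorem rtk6c4as_hsm_both
    (hϖ : ϖ ^ rtk6psiDr M q H = ((q : ℕ) : ↥(mgcA A (rtk6ebK q (rtk6psiDr M q H)))))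
    (hML : M ∣ M₁ * q) (hqN : q ∣ M) (h4 : 4 ∣ M₁ * q) (hstar : IsStarStable M q H)
    (htame : IsTameAt (M₁ * q) M q H) :
    (∀ 𝔫 : AtPt (F := ↥(rtk6diF A (rtk6ebK q (rtk6psiDr M q H)) (M₁ * q) M H)) ϖ
        (rtk6diT A (rtk6ebK q (rtk6psiDr M q H)) (M₁ * q) M H),
      (∃ s₀ : ↥(zchClosure (A₀ := ↥(beta0Ring A (beta0Field A)))
          ({bgJ ↥(beta0Field A) (M₁ * q)} :
            Set ↥(modularFunctionFieldFullC ↥(beta0Field A) (M₁ * q)))),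
        s₀ ∈ (rtk6gxiPt hq (rtk6ebK q (rtk6psiDr M q H)) M H f hf halg hA hd0 hϖd 𝔫).1 ∧
        NodesLocGen (rtk6gxiPt hq (rtk6ebK q (rtk6psiDr M q H)) M H f hf halg hA hd0 hϖd 𝔫).1
          {algebraMap ↥(beta0Ring A (beta0Field A))
            ↥(zchClosure (A₀ := ↥(beta0Ring A (beta0Field A)))
              ({bgJ ↥(beta0Field A) (M₁ * q)} :
                Set ↥(modularFunctionFieldFullC ↥(beta0Field A) (M₁ * q)))) π, s₀}) →
      ∃ s : ↥(zchClosure (A₀ := ↥(mgcA A (rtk6ebK q (rtk6psiDr M q H))))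
          ({rtk6diT A (rtk6ebK q (rtk6psiDr M q H)) (M₁ * q) M H} :
            Set ↥(rtk6diF A (rtk6ebK q (rtk6psiDr M q H)) (M₁ * q) M H))),
        s ∈ 𝔫.1 ∧ NodesLocGen 𝔫.1
          {algebraMap ↥(mgcA A (rtk6ebK q (rtk6psiDr M q H)))
            ↥(zchClosure (A₀ := ↥(mgcA A (rtk6ebK q (rtk6psiDr M q H))))
              ({rtk6diT A (rtk6ebK q (rtk6psiDr M q H)) (M₁ * q) M H} :
                Set ↥(rtk6diF A (rtk6ebK q (rtk6psiDr M q H)) (M₁ * q) M H))) ϖ, s}) ∧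
    (∀ 𝔫 : AtPt (F := ↥(rtk6diF A (rtk6ebK q (rtk6psiDr M q H)) (M₁ * q) M H)) ϖ
        (rtk6diT A (rtk6ebK q (rtk6psiDr M q H)) (M₁ * q) M H)⁻¹,
      (∃ s₀ : ↥(zchClosure (A₀ := ↥(beta0Ring A (beta0Field A)))
          ({(bgJ ↥(beta0Field A) (M₁ * q))⁻¹} :
            Set ↥(modularFunctionFieldFullC ↥(beta0Field A) (M₁ * q)))),
        s₀ ∈ (rtk6gxiPtInv hq (rtk6ebK q (rtk6psiDr M q H)) M H f hf halg hA hd0 hϖd 𝔫).1 ∧
        NodesLocGen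
          (rtk6gxiPtInv hq (rtk6ebK q (rtk6psiDr M q H)) M H f hf halg hA hd0 hϖd 𝔫).1
          {algebraMap ↥(beta0Ring A (beta0Field A))
            ↥(zchClosure (A₀ := ↥(beta0Ring A (beta0Field A)))
              ({(bgJ ↥(beta0Field A) (M₁ * q))⁻¹} :
                Set ↥(modularFunctionFieldFullC ↥(beta0Field A) (M₁ * q)))) π, s₀}) →
      ∃ s : ↥(zchClosure (A₀ := ↥(mgcA A (rtk6ebK q (rtk6psiDr M q H))))
          ({(rtk6diT A (rtk6ebK q (rtk6psiDr M q H)) (M₁ * q) M H)⁻¹} :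
            Set ↥(rtk6diF A (rtk6ebK q (rtk6psiDr M q H)) (M₁ * q) M H))),
        s ∈ 𝔫.1 ∧ NodesLocGen 𝔫.1
          {algebraMap ↥(mgcA A (rtk6ebK q (rtk6psiDr M q H)))
            ↥(zchClosure (A₀ := ↥(mgcA A (rtk6ebK q (rtk6psiDr M q H))))
              ({(rtk6diT A (rtk6ebK q (rtk6psiDr M q H)) (M₁ * q) M H)⁻¹} :
                Set ↥(rtk6diF A (rtk6ebK q (rtk6psiDr M q H)) (M₁ * q) M H))) ϖ, s}) := by
  classical
  -- arithmetic of the level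
  have hL : M₁ * q ≠ 0 := NeZero.ne _
  have hM0 : M ≠ 0 := NeZero.ne M
  have hr2 : ¬ q ^ 2 ∣ M := rtk6c4as_not_sq hq hqM hML
  have hN3 : 3 ≤ M := rtk6c4as_three_le hq hqN hM0 hqM h4
  have rigid := rtk6c4as_rigid hq hqM h4
  have hcopr : Nat.Coprime (rtk6psiDr M q H) (6 * (M₁ * q)) := rtk6psiDr_coprime htame
  have hqe : ¬ q ∣ rtk6psiDr M q H := rtk6psiDr_not_dvd hq hqN hr2
  have hodd : Odd (rtk6psiDr M q H) := rtk6psi_odd_of_coprime hcopr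
  -- PSI over `ℚ̄^I`
  obtain ⟨dS, hcop, hdS⟩ := htame
  have hdS0 : dS ≠ 0 := rtk6psi_ne_zero_of_coprime hcop
  have hqdS : ¬ q ∣ dS := rtk6c4as_not_dvd hq hcop
  have hdvd : rtk6psiDr M q H ∣ dS := rtk6psiDr_dvd_of_forall hdS
  obtain ⟨ψr, k, ψ', hψr, hfam⟩ := rtk6psi_exists (↥(beta0Field A)) hq hqN hr2 hstar hcop hdS
    (rtk6c4as_root hq hA hdS0 hqdS)
  haveI : Algebra.IsAlgebraic ℚ Qb := AlgebraicClosure.isAlgebraic ℚ
  haveI : Algebra.IsAlgebraic ℚ ↥(beta0Field A) :=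
    Algebra.IsAlgebraic.of_injective (beta0Field A).val Subtype.val_injective
  -- WIRE: (F1)
  obtain ⟨-, -, -, -, -, -, -, hgenN, -⟩ := rtk6c4w_wireN (L := M₁ * q) hq hA hqN hr2 hodd f hf
    halg hL hML hN3
    (⊤ : Subalgebra ↥(beta0Ring A (beta0Field A))
      ↥(modularFunctionFieldFullC ↥(beta0Field A) (M₁ * q)))
    hϖ hψr hfam hdS0 hdvd (n₀ := 1) (by simp)
  have hgen : Algebra.adjoin ↥(modularFunctionFieldFullC ↥(beta0Field A) (M₁ * q))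
      (({algebraMap ↥(mgcA A (rtk6ebK q (rtk6psiDr M q H)))
          ↥(rtk6diF A (rtk6ebK q (rtk6psiDr M q H)) (M₁ * q) M H) ϖ,
        rtk6n0fY f (M₁ * q) M H ψr hML} :
          Set ↥(rtk6diF A (rtk6ebK q (rtk6psiDr M q H)) (M₁ * q) M H)) ∪
        Set.range fun i => rtk6n0fY f (M₁ * q) M H (ψ' i) hML) = ⊤ := by
    rw [Set.union_comm]
    exact hgenN
  -- N0 + D-unr for `ψ_q`
  have hmem : rtk6n0Y ↥(beta0Field A) M H ψr ^ rtk6psiDr M q H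
      ∈ modularFunctionFieldFullC ↥(beta0Field A) (M₁ * q) :=
    rtk6n0f_mem (M₁ * q) M H ψr hL hML hψr.pow_dr
  obtain ⟨c₀, hc₀, hord⟩ := hψr.exists_orderOf hq hqN hr2
  obtain ⟨n₀, a, b, hn₀, hab⟩ := rtk6n0b_norm_zero_bezout hπ ιC hq hqM ψr hA hML hqN hN3 hstar
    hψr.map_H hψr.map_neg_one hqe hψr.pow_dr hc₀ hord hmem
  have hz₁ := rtk6n0b_norm_inf hπ ιC hq hqM ψr hN3 hψr.map_H hψr.map_neg_one
    (rtk6psiDr M q H) hmem
  have hz0 : (⟨rtk6n0Y ↥(beta0Field A) M H ψr ^ rtk6psiDr M q H, hmem⟩ :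
      ↥(modularFunctionFieldFullC ↥(beta0Field A) (M₁ * q))) ≠ 0 := by
    intro h
    have h1 : rtk6n0Y ↥(beta0Field A) M H ψr ^ rtk6psiDr M q H = 0 :=
      congrArg (fun z : ↥(modularFunctionFieldFullC ↥(beta0Field A) (M₁ * q)) =>
        (z : LaurentSeries ↥(beta0Field A))) h
    exact rtk6n0Y_ne_zero hN3 hψr.map_H hψr.map_neg_one (eq_zero_of_pow_eq_zero h1)
  have hhor : ∀ P : Place ↥(beta0Field A) ↥(modularFunctionFieldFullC ↥(beta0Field A) (M₁ * q)),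
      ((rtk6psiDr M q H : ℕ) : ℤ) ∣ P.ord (⟨rtk6n0Y ↥(beta0Field A) M H ψr ^ rtk6psiDr M q H,
        hmem⟩ : ↥(modularFunctionFieldFullC ↥(beta0Field A) (M₁ * q))) := fun P =>
    rtk6unr_nf (beta0Field A) (M₁ * q) M H hL hML (rtk6psiDr M q H) hcopr _
      (rtk6n0Y ↥(beta0Field A) M H ψr) (rtk6n0Y_mem hML) rfl P
  have hzy : algebraMap ↥(modularFunctionFieldFullC ↥(beta0Field A) (M₁ * q))
      ↥(rtk6diF A (rtk6ebK q (rtk6psiDr M q H)) (M₁ * q) M H)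
      (⟨rtk6n0Y ↥(beta0Field A) M H ψr ^ rtk6psiDr M q H, hmem⟩ :
        ↥(modularFunctionFieldFullC ↥(beta0Field A) (M₁ * q)))
      = rtk6n0fY f (M₁ * q) M H ψr hML ^ rtk6psiDr M q H := by
    rw [halg]
    exact rtk6n0f_iota_pow f (M₁ * q) M H ψr hML hmem
  -- N0 + D-unr for the `ψ′_i`
  have hmem' : ∀ i, rtk6n0Y ↥(beta0Field A) M H (ψ' i) ^ dS
      ∈ modularFunctionFieldFullC ↥(beta0Field A) (M₁ * q) := fun i =>
    rtk6n0f_mem (M₁ * q) M H (ψ' i) hL hML (hfam.pow_d i)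
  have hzero := fun i => rtk6n0b_norm_zero_dvd hπ ιC hq hqM (ψ' i) hA hML hqN hN3 hstar
    (hfam.map_H i) (hfam.map_neg_one i) hqdS (hfam.pow_d i) (hfam.map_atR i) (hmem' i)
  choose nn hnndvd hnn using hzero
  have hyu : ∀ i, rtk6n0fY f (M₁ * q) M H (ψ' i) hML ^ dS
      = algebraMap ↥(modularFunctionFieldFullC ↥(beta0Field A) (M₁ * q))
        ↥(rtk6diF A (rtk6ebK q (rtk6psiDr M q H)) (M₁ * q) M H)
        (⟨rtk6n0Y ↥(beta0Field A) M H (ψ' i) ^ dS, hmem' i⟩ :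
          ↥(modularFunctionFieldFullC ↥(beta0Field A) (M₁ * q))) := fun i => by
    rw [halg]
    exact (rtk6n0f_iota_pow f (M₁ * q) M H (ψ' i) hML (hmem' i)).symm
  have hu : ∀ i, (⟨rtk6n0Y ↥(beta0Field A) M H (ψ' i) ^ dS, hmem' i⟩ :
      ↥(modularFunctionFieldFullC ↥(beta0Field A) (M₁ * q))) ≠ 0 := fun i h => by
    have h1 : rtk6n0Y ↥(beta0Field A) M H (ψ' i) ^ dS = 0 :=
      congrArg (fun z : ↥(modularFunctionFieldFullC ↥(beta0Field A) (M₁ * q)) =>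
        (z : LaurentSeries ↥(beta0Field A))) h
    exact rtk6n0Y_ne_zero hN3 (hfam.map_H i) (hfam.map_neg_one i) (eq_zero_of_pow_eq_zero h1)
  have hhor' : ∀ i, ∀ P : Place ↥(beta0Field A)
      ↥(modularFunctionFieldFullC ↥(beta0Field A) (M₁ * q)),
      ((dS : ℕ) : ℤ) ∣ P.ord (⟨rtk6n0Y ↥(beta0Field A) M H (ψ' i) ^ dS, hmem' i⟩ :
        ↥(modularFunctionFieldFullC ↥(beta0Field A) (M₁ * q))) := fun i P =>
    rtk6unr_nf (beta0Field A) (M₁ * q) M H hL hML dS hcop _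
      (rtk6n0Y ↥(beta0Field A) M H (ψ' i)) (rtk6n0Y_mem hML) rfl P
  have hy₁' := fun i => rtk6n0b_norm_inf hπ ιC hq hqM (ψ' i) hN3 (hfam.map_H i)
    (hfam.map_neg_one i) dS (hmem' i)
  -- the charts
  haveI : CharZero ↥(modularFunctionFieldFullC ↥(beta0Field A) (M₁ * q)) :=
    charZero_of_injective_algebraMap
      (algebraMap ↥(beta0Field A) ↥(modularFunctionFieldFullC ↥(beta0Field A) (M₁ * q))).injective
  refine ⟨fun 𝔫 hsm => ?_, fun 𝔫 hsm => ?_⟩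
  · obtain ⟨s₀, hs₀, hgen₀⟩ := hsm
    obtain ⟨S, hS⟩ := rtk6c4smc_sm hπ ιC hq hqM (rtk6ebK q (rtk6psiDr M q H)) M H f hf halg hA
      hd0 hϖd rigid hqe hdS0 hqdS 𝔫 hs₀ hgen₀ hz0 hhor hz₁ hn₀ hzy hab
      (fun i => rtk6n0fY f (M₁ * q) M H (ψ' i) hML)
      (fun i => (⟨rtk6n0Y ↥(beta0Field A) M H (ψ' i) ^ dS, hmem' i⟩ :
        ↥(modularFunctionFieldFullC ↥(beta0Field A) (M₁ * q)))) nn hyu hu hhor' hy₁' hnn
      hnndvd hgen
    haveI := ribmp_fc_fin (K₀ := beta0Field A) (M₁ * q)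
    haveI : IsFractionRing ↥(zchClosure (A₀ := ↥(beta0Ring A (beta0Field A)))
        ({bgJ ↥(beta0Field A) (M₁ * q)} :
          Set ↥(modularFunctionFieldFullC ↥(beta0Field A) (M₁ * q))))
        ↥(modularFunctionFieldFullC ↥(beta0Field A) (M₁ * q)) :=
      mgc_chart_isFractionRing (A₀ := ↥(beta0Ring A (beta0Field A))) (E₀ := ↥(beta0Field A))
        (bgJ ↥(beta0Field A) (M₁ * q))
    haveI : IsIntegrallyClosed ↥(zchClosure (A₀ := ↥(beta0Ring A (beta0Field A)))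
        ({bgJ ↥(beta0Field A) (M₁ * q)} :
          Set ↥(modularFunctionFieldFullC ↥(beta0Field A) (M₁ * q)))) :=
      mgc_chart_isIntegrallyClosed (A₀ := ↥(beta0Ring A (beta0Field A))) (E₀ := ↥(beta0Field A))
        (bgJ ↥(beta0Field A) (M₁ * q))
    exact rtk6c4sm0_smoothAt (K := ↥(modularFunctionFieldFullC ↥(beta0Field A) (M₁ * q))) 𝔫
      (rtk6gxiJ (rtk6ebK q (rtk6psiDr M q H)) M H f hf halg) _ (fun _ => rfl) hS hπ rfl
  · obtain ⟨s₀, hs₀, hgen₀⟩ := hsm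
    obtain ⟨S, hS⟩ := rtk6c4smc_sm_inv hπ ιC hq hqM (rtk6ebK q (rtk6psiDr M q H)) M H f hf halg
      hA hd0 hϖd rigid hqe hdS0 hqdS 𝔫 hs₀ hgen₀ hz0 hhor hz₁ hn₀ hzy hab
      (fun i => rtk6n0fY f (M₁ * q) M H (ψ' i) hML)
      (fun i => (⟨rtk6n0Y ↥(beta0Field A) M H (ψ' i) ^ dS, hmem' i⟩ :
        ↥(modularFunctionFieldFullC ↥(beta0Field A) (M₁ * q)))) nn hyu hu hhor' hy₁' hnn
      hnndvd hgen
    haveI := ribmp_fc_fin_inv (K₀ := beta0Field A) (M₁ * q)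
    haveI : IsFractionRing ↥(zchClosure (A₀ := ↥(beta0Ring A (beta0Field A)))
        ({(bgJ ↥(beta0Field A) (M₁ * q))⁻¹} :
          Set ↥(modularFunctionFieldFullC ↥(beta0Field A) (M₁ * q))))
        ↥(modularFunctionFieldFullC ↥(beta0Field A) (M₁ * q)) :=
      mgc_chart_isFractionRing (A₀ := ↥(beta0Ring A (beta0Field A))) (E₀ := ↥(beta0Field A))
        (bgJ ↥(beta0Field A) (M₁ * q))⁻¹
    haveI : IsIntegrallyClosed ↥(zchClosure (A₀ := ↥(beta0Ring A (beta0Field A)))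
        ({(bgJ ↥(beta0Field A) (M₁ * q))⁻¹} :
          Set ↥(modularFunctionFieldFullC ↥(beta0Field A) (M₁ * q)))) :=
      mgc_chart_isIntegrallyClosed (A₀ := ↥(beta0Ring A (beta0Field A))) (E₀ := ↥(beta0Field A))
        (bgJ ↥(beta0Field A) (M₁ * q))⁻¹
    exact rtk6c4sm0_smoothAt (K := ↥(modularFunctionFieldFullC ↥(beta0Field A) (M₁ * q))) 𝔫
      (rtk6gxiJInv (rtk6ebK q (rtk6psiDr M q H)) M H f hf halg) _ (fun _ => rfl) hS hπ rfl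

include hπ ιC hqM in
/-- **`hsm` of `rtk6c4aj_plusAt`** (chart `j`) at the thin level `K₁ = rtk6ebK q d_q`. -/
theorem rtk6c4as_hsm
    (hϖ : ϖ ^ rtk6psiDr M q H = ((q : ℕ) : ↥(mgcA A (rtk6ebK q (rtk6psiDr M q H)))))
    (hML : M ∣ M₁ * q) (hqN : q ∣ M) (h4 : 4 ∣ M₁ * q) (hstar : IsStarStable M q H)
    (htame : IsTameAt (M₁ * q) M q H)
    (𝔫 : AtPt (F := ↥(rtk6diF A (rtk6ebK q (rtk6psiDr M q H)) (M₁ * q) M H)) ϖ
        (rtk6diT A (rtk6ebK q (rtk6psiDr M q H)) (M₁ * q) M H))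
    (hsm : ∃ s₀ : ↥(zchClosure (A₀ := ↥(beta0Ring A (beta0Field A)))
          ({bgJ ↥(beta0Field A) (M₁ * q)} :
            Set ↥(modularFunctionFieldFullC ↥(beta0Field A) (M₁ * q)))),
        s₀ ∈ (rtk6gxiPt hq (rtk6ebK q (rtk6psiDr M q H)) M H f hf halg hA hd0 hϖd 𝔫).1 ∧
        NodesLocGen (rtk6gxiPt hq (rtk6ebK q (rtk6psiDr M q H)) M H f hf halg hA hd0 hϖd 𝔫).1
          {algebraMap ↥(beta0Ring A (beta0Field A))
            ↥(zchClosure (A₀ := ↥(beta0Ring A (beta0Field A)))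
              ({bgJ ↥(beta0Field A) (M₁ * q)} :
                Set ↥(modularFunctionFieldFullC ↥(beta0Field A) (M₁ * q)))) π, s₀}) :
    ∃ s : ↥(zchClosure (A₀ := ↥(mgcA A (rtk6ebK q (rtk6psiDr M q H))))
        ({rtk6diT A (rtk6ebK q (rtk6psiDr M q H)) (M₁ * q) M H} :
          Set ↥(rtk6diF A (rtk6ebK q (rtk6psiDr M q H)) (M₁ * q) M H))),
      s ∈ 𝔫.1 ∧ NodesLocGen 𝔫.1
        {algebraMap ↥(mgcA A (rtk6ebK q (rtk6psiDr M q H)))
          ↥(zchClosure (A₀ := ↥(mgcA A (rtk6ebK q (rtk6psiDr M q H))))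
            ({rtk6diT A (rtk6ebK q (rtk6psiDr M q H)) (M₁ * q) M H} :
              Set ↥(rtk6diF A (rtk6ebK q (rtk6psiDr M q H)) (M₁ * q) M H))) ϖ, s} :=
  (rtk6c4as_hsm_both hπ ιC hq hqM M H f hf halg hA hd0 hϖd hϖ hML hqN h4 hstar htame).1 𝔫 hsm

include hπ ιC hqM in
/-- **`hsm` of the `1 / j` twin of `rtk6c4aj_plusAt`** at the thin level `K₁ = rtk6ebK q d_q`. -/
theorem rtk6c4as_hsm_inv
    (hϖ : ϖ ^ rtk6psiDr M q H = ((q : ℕ) : ↥(mgcA A (rtk6ebK q (rtk6psiDr M q H)))))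
    (hML : M ∣ M₁ * q) (hqN : q ∣ M) (h4 : 4 ∣ M₁ * q) (hstar : IsStarStable M q H)
    (htame : IsTameAt (M₁ * q) M q H)
    (𝔫 : AtPt (F := ↥(rtk6diF A (rtk6ebK q (rtk6psiDr M q H)) (M₁ * q) M H)) ϖ
        (rtk6diT A (rtk6ebK q (rtk6psiDr M q H)) (M₁ * q) M H)⁻¹)
    (hsm : ∃ s₀ : ↥(zchClosure (A₀ := ↥(beta0Ring A (beta0Field A)))
          ({(bgJ ↥(beta0Field A) (M₁ * q))⁻¹} :
            Set ↥(modularFunctionFieldFullC ↥(beta0Field A) (M₁ * q)))),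
        s₀ ∈ (rtk6gxiPtInv hq (rtk6ebK q (rtk6psiDr M q H)) M H f hf halg hA hd0 hϖd 𝔫).1 ∧
        NodesLocGen
          (rtk6gxiPtInv hq (rtk6ebK q (rtk6psiDr M q H)) M H f hf halg hA hd0 hϖd 𝔫).1
          {algebraMap ↥(beta0Ring A (beta0Field A))
            ↥(zchClosure (A₀ := ↥(beta0Ring A (beta0Field A)))
              ({(bgJ ↥(beta0Field A) (M₁ * q))⁻¹} :
                Set ↥(modularFunctionFieldFullC ↥(beta0Field A) (M₁ * q)))) π, s₀}) :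
    ∃ s : ↥(zchClosure (A₀ := ↥(mgcA A (rtk6ebK q (rtk6psiDr M q H))))
        ({(rtk6diT A (rtk6ebK q (rtk6psiDr M q H)) (M₁ * q) M H)⁻¹} :
          Set ↥(rtk6diF A (rtk6ebK q (rtk6psiDr M q H)) (M₁ * q) M H))),
      s ∈ 𝔫.1 ∧ NodesLocGen 𝔫.1
        {algebraMap ↥(mgcA A (rtk6ebK q (rtk6psiDr M q H)))
          ↥(zchClosure (A₀ := ↥(mgcA A (rtk6ebK q (rtk6psiDr M q H))))
            ({(rtk6diT A (rtk6ebK q (rtk6psiDr M q H)) (M₁ * q) M H)⁻¹} :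
              Set ↥(rtk6diF A (rtk6ebK q (rtk6psiDr M q H)) (M₁ * q) M H))) ϖ, s} :=
  (rtk6c4as_hsm_both hπ ιC hq hqM M H f hf halg hA hd0 hϖd hϖ hML hqN h4 hstar htame).2 𝔫 hsm

end Data

end Fermat.Agent.RT.K6

end
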