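/-
K-machine, piece K6 / W1 CORE (helper80): an automorphism `σ` of `ℚ̄` fixing `E₀ = ℚ̄^{I_A}`
(`A` a valuation ring of `ℚ̄` over `r`) and a `d`-th root `ϖ` of `r` (`r ∤ d`) has its
cyclotomic image at `r` in `±H`, as soon as the `d`-th powers of the diamonds at `r` lie in `±H`.

* `rtk6w1b_abs`      : ABSTRACT — `z` a Laurent series over `ℚ̄` with a content, `σ z = ζ z`,
                       `ζ^d = 1`, the content of `z^d` is a power of `r`, `σ ϖ = ϖ` ⇒ `ζ = 1`.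
* `rtk6w1b_content`  : an element of `fieldBar L M H` fixed by `Gal(ℚ̄/E₀)` has a content which is
                       a power of `r` (`r` is a uniformizer of `A ∩ E₀`).
* `rtk6w1b_psi`      : `ψ (c(σ)) = 1` for every character `ψ` trivial on `±H`.
* `rtk6w1b_mem_pmH`  : **the core**, `c(σ) ∈ ±H`.
* `rtk6w1b_core`     : `Rtk6w1Core K₀ M r H` for `K₀ ⊇ E₀(ϖ)`;
  `rtk6w1b_commK`    : `RtkCommK K₀ w` for `K₀ ⊇ E₀(ϖ)`  (= W1).
-/
import Fermat.Agent.RT.K6.W1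
import Fermat.Agent.RT.K6.DEBridge
import Fermat.Agent.RT.K6.DIVert
import Fermat.Agent.UNIP.Beta0Pkg

set_option autoImplicit false
set_option linter.unusedSectionVars false
set_option linter.unusedVariables false
set_option linter.style.haveILetI false

noncomputable section

namespace Fermat.Agent.RT.K6

open ModularCurve AlgebraicCurve HahnSeries Fermat.Agent.ES Fermat.Agent.ES.G2 Fermat.Agent.INJ
open Fermat.Agent.UNIP Fermat.Agent.ES1 Fermat.Agent.ES1.G2 Fermat.Agent.S05 Fermat.Agent.S15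
open IntermediateField

section Abs

variable (A : ValuationSubring QbH)

/-- **abstract core**: `z` with content `c`, `σ z = ζ z` with `ζ ^ d = 1`, the content of `z ^ d`
is `r ^ n₀`, `σ` in the inertia group fixes a `d`-th root of `r`, `r ∤ d` ⇒ `ζ = 1`. -/
theorem rtk6w1b_abs {r d : ℕ} (hr : r.Prime) (hA : A.LiesOverPrime r) (hd : 0 < d)
    (hrd : ¬ r ∣ d) {ϖ : QbH} (hϖ : ϖ ^ d = ((r : ℕ) : QbH))
    {σ : QbH ≃ₐ[ℚ] QbH} (hσ : σ ∈ A.inertiaSubgroupIn ℚ) (hσϖ : σ ϖ = ϖ)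
    {z y₁ y₂ : LaurentSeries QbH} {c ζ : QbH} (hz : z ≠ 0) (hc : c ≠ 0)
    (h1 : KronPrim A y₁) (h2 : KronPrim A y₂) (h : z * y₂ = HahnSeries.C c * y₁)
    (hζd : ζ ^ d = 1)
    (hσz : coeffMap (σ : QbH →+* QbH) z = HahnSeries.C ζ * z)
    {n₀ : ℤ} {e₁ e₂ : LaurentSeries QbH}
    (he1 : KronPrim A e₁) (he2 : KronPrim A e₂)
    (hzd : z ^ d * e₂ = HahnSeries.C (((r : ℕ) : QbH) ^ n₀) * e₁) : ζ = 1 := by
  haveI : Algebra.IsAlgebraic ℚ QbH := isAlgebraic_rat_qbar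
  have hr0 : ((r : ℕ) : QbH) ≠ 0 := Nat.cast_ne_zero.2 hr.ne_zero
  have hϖ0 : ϖ ≠ 0 := by
    rintro rfl
    rw [zero_pow hd.ne'] at hϖ
    exact hr0 hϖ.symm
  have hz0 : ϖ ^ n₀ ≠ 0 := zpow_ne_zero _ hϖ0
  -- the valuation of the content
  have hA1 : z ^ d * y₂ ^ d = HahnSeries.C (c ^ d) * y₁ ^ d := by
    rw [← mul_pow, h, mul_pow, map_pow]
  have hval : A.valuation c ^ d = A.valuation ((r : ℕ) : QbH) ^ n₀ := by
    have := rtk6de_content_unique A (pow_ne_zero d hz) (pow_ne_zero d hc)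
      (zpow_ne_zero _ hr0) (h1.pow d) (h2.pow d) he1 he2 hA1 hzd
    rw [map_pow, map_zpow₀] at this
    exact this
  have hw0 : tameW A (Units.mk0 (ϖ ^ n₀) hz0) = tameW A (Units.mk0 c hc) := by
    have h2' : (tameW A (Units.mk0 (ϖ ^ n₀) hz0) * (tameW A (Units.mk0 c hc))⁻¹) ^ d = 1 := by
      rw [mul_pow, inv_pow, mul_inv_eq_one]
      apply Units.ext
      rw [Units.val_pow_eq_pow_val, tameW_val, Units.val_mk0, Units.val_pow_eq_pow_val, tameW_val,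
        Units.val_mk0, hval, ← hϖ, map_pow, map_zpow₀, ← zpow_natCast, ← zpow_mul,
        ← zpow_natCast (A.valuation ϖ) d, ← zpow_mul, mul_comm]
    exact mul_inv_eq_one.1 (tameW_torsionFree A _ d hd h2')
  have hw1 : tameW A (Units.mk0 c hc) = tameW A (Units.mk0 (ϖ ^ n₀) hz0) ^ (1 : ℤ) := by
    rw [zpow_one]
    exact hw0.symm
  have hTϖ : tameTr A σ (ϖ ^ n₀) := by
    rw [tameTr_iff A σ hz0, map_zpow₀, hσϖ, sub_self, map_zero]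
    exact zero_lt_iff.2 ((Valuation.ne_zero_iff _).2 hz0)
  have hTc : tameTr A σ c := by
    have h3 := tameTr_of_val_zpow A hσ (Units.mk0 c hc) (Units.mk0 (ϖ ^ n₀) hz0) 1 hw1
      (by rw [Units.val_mk0]; exact hTϖ)
    rwa [Units.val_mk0] at h3
  have hζA : ζ ∈ A := by
    rw [← A.valuation_le_one_iff, rtk6de_val_root A hd.ne' hζd]
  have hsym := rtk6de_symbol A hσ hc hζA h1 h2 h hσz
  by_contra hne
  apply rtk6de_root_unit_gen A hr hA hrd hζd hne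
  have e : ζ - 1 = (σ c / c - 1) - (σ c / c - ζ) := by ring
  rw [e, ValuationSubring.mem_nonunits_iff]
  have hT' : A.valuation (σ c / c - 1) < 1 := (ValuationSubring.mem_nonunits_iff A).1 hTc
  have hs' : A.valuation (σ c / c - ζ) < 1 := (ValuationSubring.mem_nonunits_iff A).1 hsym
  exact lt_of_le_of_lt (Valuation.map_sub _ _ _) (max_lt hT' hs')

end Abs

section Content

variable {L M : ℕ} {H : Subgroup (ZMod M)ˣ}

/-- the two compatibilities of the base `A ∩ E₀ → E₀ → ℚ̄` with `A` -/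
theorem rtk6w1b_c1 (A : ValuationSubring QbH) (K₀ : IntermediateField ℚ QbH)
    (a : ↥(beta0Ring A K₀)) :
    algebraMap ↥K₀ QbH (algebraMap ↥(beta0Ring A K₀) ↥K₀ a) ∈ A := a.2

theorem rtk6w1b_c2 (A : ValuationSubring QbH) (K₀ : IntermediateField ℚ QbH)
    (a : ↥(beta0Ring A K₀)) (h : IsLocalRing.residue ↥(beta0Ring A K₀) a ≠ 0) :
    algebraMap ↥K₀ QbH (algebraMap ↥(beta0Ring A K₀) ↥K₀ a) ∉ A.nonunits := fun h0 =>
  h ((IsLocalRing.residue_eq_zero_iff a).2 ((beta0Ring_mem_maximalIdeal_iff a).2 h0))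

/-- **the content of a series defined over `E₀` is a power of `r`**, abstract form: base
`A₀ → E` with `VtBase`, `φ : E → ℚ̄` compatible with `A`. -/
theorem rtk6w1b_content_abs {A₀ E k : Type*} [CommRing A₀] [Field E] [Field k]
    {ι : A₀ →+* E} {ρ : A₀ →+* k} {π : A₀} (hB : VtBase ι ρ π)
    (A : ValuationSubring QbH) (φ : E →+* QbH) (hφA : ∀ a : A₀, φ (ι a) ∈ A)
    (hφu : ∀ a : A₀, ρ a ≠ 0 → φ (ι a) ∉ A.nonunits)
    {x : LaurentSeries E} (hx : x ≠ 0) (hfrac : VtFrac ι x) :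
    ∃ (n₀ : ℤ) (e₁ e₂ : LaurentSeries QbH), KronPrim A e₁ ∧ KronPrim A e₂ ∧
      coeffMap φ x * e₂ = HahnSeries.C (φ (ι π) ^ n₀) * e₁ := by
  obtain ⟨n, u, hu, hxu | hxu⟩ := vt_exists_pow_mul hB hx hfrac
  · have hx' : x = HahnSeries.C ((ι π) ^ n) * u := by rw [hxu, map_pow]
    obtain ⟨e₁, e₂, he1, he2, he⟩ := rtk6de_content_of_pow_mul A φ hφA hφu ((ι π) ^ n) hu hx'
    refine ⟨(n : ℤ), e₁, e₂, he1, he2, ?_⟩
    rw [he, zpow_natCast, map_pow]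
  · have hx' : x = HahnSeries.C (((ι π) ^ n)⁻¹) * u⁻¹ := by
      rw [← inv_inv x, hxu, mul_inv, map_inv₀, map_pow]
    obtain ⟨e₁, e₂, he1, he2, he⟩ := rtk6de_content_of_pow_mul A φ hφA hφu (((ι π) ^ n)⁻¹)
      (hu.inv hB.inj) hx'
    refine ⟨-(n : ℤ), e₁, e₂, he1, he2, ?_⟩
    rw [he, zpow_neg, zpow_natCast, map_inv₀, map_pow]

/-- **the content of an element of `fieldBar L M H` fixed by `Gal(ℚ̄/E₀)` is a power of `r`** -/
theorem rtk6w1b_content {r : ℕ} (hr : r.Prime) (A : ValuationSubring QbH)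
    (hA : A.LiesOverPrime r) (g : fieldBar L M H) (hg : g ≠ 0)
    (hfix : ∀ σ : QbH ≃ₐ[ℚ] QbH, (∀ a ∈ beta0Field A, σ a = a) →
      arithmeticGalois (fieldQ L M H) σ • g = g) :
    ∃ (n₀ : ℤ) (e₁ e₂ : LaurentSeries QbH), KronPrim A e₁ ∧ KronPrim A e₂ ∧
      (g : LaurentSeries QbH) * e₂ = HahnSeries.C (((r : ℕ) : QbH) ^ n₀) * e₁ := by
  obtain ⟨g₀, hg₀⟩ := rtk6diw_exists_of_fixed (beta0Field A) L M H g hfix
  haveI := beta0Ring_isDVR_base hr hA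
  have hπ := beta0Ring_irreducible_q hr hA
  have hB := vtBase_residue (E := ↥(beta0Field A)) hπ
  have hg₀ne : (g₀ : LaurentSeries ↥(beta0Field A)) ≠ 0 := by
    intro h0
    apply hg
    rw [← hg₀]
    have : g₀ = 0 := Subtype.ext h0
    rw [this, map_zero]
  obtain ⟨n₀, e₁, e₂, he1, he2, he⟩ := rtk6w1b_content_abs hB A
    (algebraMap ↥(beta0Field A) QbH) (rtk6w1b_c1 A (beta0Field A))
    (rtk6w1b_c2 A (beta0Field A)) hg₀ne (rtk6dv_frac hB L M H g₀.2)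
  refine ⟨n₀, e₁, e₂, he1, he2, ?_⟩
  have e1 : (g : LaurentSeries QbH) =
      coeffMap (algebraMap ↥(beta0Field A) QbH) (g₀ : LaurentSeries ↥(beta0Field A)) := by
    rw [← hg₀]
    rfl
  rw [e1, he, map_natCast, map_natCast]

end Content

section Inst

variable {L M : ℕ} [NeZero M] {H : Subgroup (ZMod M)ˣ}

/-- **`ψ (c(σ)) = 1`** for every character `ψ` of `(ℤ/M)ˣ`, trivial on `±H`, whose `d`-th power
is trivial on the diamonds at `r`, if `σ` fixes `E₀` and a `d`-th root of `r`. -/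
theorem rtk6w1b_psi (hL : L ≠ 0) (hML : M ∣ L) {r d : ℕ} (hr : r.Prime) (hrM : r ∣ M)
    (hr2 : ¬ r ^ 2 ∣ M) (A : ValuationSubring QbH) (hA : A.LiesOverPrime r) (hd : ¬ r ∣ d)
    (ψ : (ZMod M)ˣ →* QbHˣ) (hψH : ∀ h ∈ H, ψ h = 1) (hψ1 : ψ (-1) = 1)
    (hψd : ∀ c : (ZMod M)ˣ, IsAtR M r c → ψ c ^ d = 1)
    {w : fieldBar L M H ≃ₐ[QbH] fieldBar L M H} (hw : IsWAt L M H r w)
    {ϖ : QbH} (hϖ : ϖ ^ d = ((r : ℕ) : QbH))
    {σ : QbH ≃ₐ[ℚ] QbH} (hσE : ∀ a ∈ beta0Field A, σ a = a) (hσϖ : σ ϖ = ϖ)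
    {c : (ZMod M)ˣ} (hcyc : IsCycAt M r σ c) : ψ c = 1 := by
  by_contra hne
  haveI : Algebra.IsAlgebraic ℚ QbH := isAlgebraic_rat_qbar
  have hM0 : M ≠ 0 := NeZero.ne M
  have hM3 : 3 ≤ M := rtk6de_three_le ψ hM0 hne
  have hd0 : 0 < d := by
    rcases Nat.eq_zero_or_pos d with h | h
    · exact absurd (h ▸ dvd_zero r) hd
    · exact h
  have hψD : ∀ c ∈ rtk6deD M r hrM, ψ c ^ d = 1 := fun c hc =>
    hψd c ((rtk6de_mem_D hrM c).1 hc)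
  have hy : rtk6deY (rtk6deD M r hrM) ψ H hML ≠ 0 :=
    rtk6deY_ne_zero (rtk6deD M r hrM) ψ hM3 hψH hψ1 hML
  have hwy : w (rtk6deY (rtk6deD M r hrM) ψ H hML) ≠ 0 :=
    fun h0 => hy ((map_eq_zero_iff w w.injective).1 h0)
  have hz : ((w (rtk6deY (rtk6deD M r hrM) ψ H hML) : fieldBar L M H) : LaurentSeries QbH)
      ≠ 0 := fun h0 => hwy (Subtype.ext h0)
  have hσI : σ ∈ A.inertiaSubgroupIn ℚ := beta0_mem_inertia_of_fixes hr hA σ hσE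
  have heig : ∀ σ' : QbH ≃ₐ[ℚ] QbH, σ' ∈ A.inertiaSubgroupIn ℚ → ∀ c' : (ZMod M)ˣ,
      IsCycAt M r σ' c' →
      coeffMap (σ' : QbH →+* QbH)
        ((w (rtk6deY (rtk6deD M r hrM) ψ H hML) : fieldBar L M H) : LaurentSeries QbH) =
      HahnSeries.C ((ψ c' : QbHˣ) : QbH) *
        ((w (rtk6deY (rtk6deD M r hrM) ψ H hML) : fieldBar L M H) : LaurentSeries QbH) :=
    fun σ' hσ' c' hc' => rtk6de_eigen (rtk6deD M r hrM) ψ hL hML hr A hA hd hψD hw hσ'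
      ((rtk6de_mem_D hrM c').2 hc'.2) hc'
  have hζ : ∀ c' : (ZMod M)ˣ, IsAtR M r c' → ((ψ c' : QbHˣ) : QbH) ^ d = 1 := fun c' hc' => by
    rw [← Units.val_pow_eq_pow_val, hψd c' hc', Units.val_one]
  -- `(w y)^d` is fixed by `Gal(ℚ̄/E₀)`
  have hfix : ∀ σ' : QbH ≃ₐ[ℚ] QbH, (∀ a ∈ beta0Field A, σ' a = a) →
      arithmeticGalois (fieldQ L M H) σ' • (w (rtk6deY (rtk6deD M r hrM) ψ H hML)) ^ d =
        (w (rtk6deY (rtk6deD M r hrM) ψ H hML)) ^ d := by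
    intro σ' hσ'
    have hσ'I : σ' ∈ A.inertiaSubgroupIn ℚ := beta0_mem_inertia_of_fixes hr hA σ' hσ'
    obtain ⟨c', hc'⟩ := rtk6de0_isCycAt hr hrM hr2 A hA hσ'I
    apply Subtype.ext
    rw [coe_arithmeticGalois_smul]
    show coeffMap (σ' : QbH →+* QbH)
        (((w (rtk6deY (rtk6deD M r hrM) ψ H hML) : fieldBar L M H) : LaurentSeries QbH) ^ d) =
      ((w (rtk6deY (rtk6deD M r hrM) ψ H hML) : fieldBar L M H) : LaurentSeries QbH) ^ d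
    rw [map_pow, heig σ' hσ'I c' hc', mul_pow, ← map_pow, hζ c' hc'.2, map_one, one_mul]
  obtain ⟨n₀, e₁, e₂, he1, he2, he⟩ := rtk6w1b_content hr A hA
    ((w (rtk6deY (rtk6deD M r hrM) ψ H hML)) ^ d) (pow_ne_zero d hwy) hfix
  have he' : ((w (rtk6deY (rtk6deD M r hrM) ψ H hML) : fieldBar L M H) : LaurentSeries QbH) ^ d
      * e₂ = HahnSeries.C (((r : ℕ) : QbH) ^ n₀) * e₁ := he
  obtain ⟨c₁, y₁, y₂, hc₁, -, -, h1, h2, h⟩ := stmtPrimH L M H A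
    (w (rtk6deY (rtk6deD M r hrM) ψ H hML)) hwy
  have h1' := rtk6w1b_abs A hr hA hd0 hd hϖ hσI hσϖ hz hc₁ h1 h2 h (hζ c hcyc.2)
    (heig σ hσI c hcyc) he1 he2 he'
  exact hne (Units.ext h1')

/-- **THE CORE of W1**: if `σ` fixes `E₀ = ℚ̄^{I_A}` and a `d`-th root `ϖ` of `r` (`r ∤ d`), and the
`d`-th powers of the diamonds at `r` lie in `±H`, then the cyclotomic image of `σ` at `r` lies in
`±H`. -/
theorem rtk6w1b_mem_pmH (hL : L ≠ 0) (hML : M ∣ L) {r d : ℕ} (hr : r.Prime) (hrM : r ∣ M)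
    (hr2 : ¬ r ^ 2 ∣ M) (A : ValuationSubring QbH) (hA : A.LiesOverPrime r) (hd : ¬ r ∣ d)
    (htame : ∀ c : (ZMod M)ˣ, IsAtR M r c → c ^ d ∈ pmH H)
    {w : fieldBar L M H ≃ₐ[QbH] fieldBar L M H} (hw : IsWAt L M H r w)
    {ϖ : QbH} (hϖ : ϖ ^ d = ((r : ℕ) : QbH))
    {σ : QbH ≃ₐ[ℚ] QbH} (hσE : ∀ a ∈ beta0Field A, σ a = a) (hσϖ : σ ϖ = ϖ)
    {c : (ZMod M)ˣ} (hcyc : IsCycAt M r σ c) : c ∈ pmH H := by
  by_contra hc
  have hne : (QuotientGroup.mk c : (ZMod M)ˣ ⧸ pmH H) ≠ 1 := by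
    rwa [Ne, QuotientGroup.eq_one_iff]
  haveI : NeZero ((Monoid.exponent ((ZMod M)ˣ ⧸ pmH H) : ℕ) : QbH) :=
    ⟨Nat.cast_ne_zero.mpr (Monoid.exponent_ne_zero_of_finite (G := (ZMod M)ˣ ⧸ pmH H))⟩
  obtain ⟨φ, hφ⟩ := CommGroup.exists_apply_ne_one_of_hasEnoughRootsOfUnity
    ((ZMod M)ˣ ⧸ pmH H) QbH hne
  have hψ : ∀ x ∈ pmH H, (φ.comp (QuotientGroup.mk' (pmH H))) x = 1 := fun x hx => by
    show φ (QuotientGroup.mk x) = 1
    rw [(QuotientGroup.eq_one_iff x).2 hx, map_one]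
  apply hφ
  exact rtk6w1b_psi hL hML hr hrM hr2 A hA hd (φ.comp (QuotientGroup.mk' (pmH H)))
    (fun h hh => hψ h (le_pmH H hh)) (hψ _ (neg_one_mem_pmH H))
    (fun c' hc' => by rw [← map_pow]; exact hψ _ (htame c' hc')) hw hϖ hσE hσϖ hcyc

/-- **`Rtk6w1Core K₀ M r H`** for `K₀ ⊇ E₀(ϖ)`, `ϖ ^ d = r`, `r ∤ d`, `r ∥ M`. -/
theorem rtk6w1b_core (hL : L ≠ 0) (hML : M ∣ L) {r d : ℕ} (hr : r.Prime) (hrM : r ∣ M)
    (hr2 : ¬ r ^ 2 ∣ M) (A : ValuationSubring QbH) (hA : A.LiesOverPrime r) (hd : ¬ r ∣ d)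
    (htame : ∀ c : (ZMod M)ˣ, IsAtR M r c → c ^ d ∈ pmH H)
    {w : fieldBar L M H ≃ₐ[QbH] fieldBar L M H} (hw : IsWAt L M H r w)
    {ϖ : QbH} (hϖ : ϖ ^ d = ((r : ℕ) : QbH))
    {K₀ : IntermediateField ℚ QbH} (hE : beta0Field A ≤ K₀) (hϖK : ϖ ∈ K₀) :
    Rtk6w1Core K₀ M r H :=
  fun σ hσ c hcyc => rtk6w1b_mem_pmH hL hML hr hrM hr2 A hA hd htame hw hϖ
    (fun a ha => hσ a (hE ha)) (hσ ϖ hϖK) hcyc

/-- **W1**: `w` commutes with `Gal(ℚ̄/K₀)` for `K₀ ⊇ E₀(ϖ)`, `ϖ ^ d = r`, `r ∤ d`, `r ∥ M`, if the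
`d`-th powers of the diamonds at `r` lie in `±H`. -/
theorem rtk6w1b_commK (hL : L ≠ 0) (hML : M ∣ L) {r d : ℕ} (hr : r.Prime) (hrM : r ∣ M)
    (hr2 : ¬ r ^ 2 ∣ M) (A : ValuationSubring QbH) (hA : A.LiesOverPrime r) (hd : ¬ r ∣ d)
    (htame : ∀ c : (ZMod M)ˣ, IsAtR M r c → c ^ d ∈ pmH H)
    {w : fieldBar L M H ≃ₐ[QbH] fieldBar L M H} (hw : IsWAt L M H r w)
    {ϖ : QbH} (hϖ : ϖ ^ d = ((r : ℕ) : QbH))
    {K₀ : IntermediateField ℚ QbH} (hE : beta0Field A ≤ K₀) (hϖK : ϖ ∈ K₀) :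
    RtkCommK K₀ w :=
  rtk6w1_commK_of_core hw (NeZero.ne M) hr hrM hr2 A hA hE
    (rtk6w1b_core hL hML hr hrM hr2 A hA hd htame hw hϖ hE hϖK)

end Inst

end Fermat.Agent.RT.K6

end
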