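/-
K-machine, piece K6, piece **C4-χ-inst (B)** (helper76): the provider **`hNode`** of
`rtk6ei_geomChi_of_pieces` (`RT/K6/EInstGlue.lean`), i.e. `Rtk6emNode` at every sufficiently large
level `K₁`, from the dichotomy at ONE thin level `K₁′` (C4-χ-ASM, helper94), by the generic top half
`rtk6c4b_node` (helper81, `RT/K6/C4InstBNode.lean`).

All the other inputs of `rtk6c4b_node` are discharged here:
* (E-BASE) `q′ := rtk6ebQ h ϖ₁`, `q′ ≠ 0`, `π ∣ q′` (helper66);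
* (FAM-res) (R2) `rtk6frf_hR2_E` (helper82);
* (D-BC) `rtk6dbc_chart_t_of_ss1`, `rtk6dbc_chart_tinv_of_ss1` (helper56), from `Rtk6emFam`
  (`rtk6m1_emFam`, helper82) and `Rtk6emSS1` at the thin level ((SS1-inst) generic in `(K₁, w)`,
  `StmtRtk6SS1Gen`, `RT/K6/EInstU.lean`);
* (W1) `rtk6w1_wIncl`, `rtk6w1_commK_mono`, `rtk6w1b_commK` (helper96, helper80).

* `rtk6cxb_node_E`   : `Rtk6emNode` at `K₁` for `w = rtk6diwEquiv w₀ hc₂`, from `Rtk6emFam`,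
                       `Rtk6emSS1` and the dichotomy on the two charts at `K₁′ ≤ K₁`;
* `rtk6cxb_node`     : the same for `w = rtk6diwW w₀ …` (the family of the glue), `Rtk6emFam` and
                       `Rtk6emSS1` discharged;
* `Rtk6cxbThin`      : **the open input**: a thin level `K₁′` (Galois number field, `A ∩ E₁` a
                       DVR), a uniformizer `ϖ₁`, `hc₁ : RtkCommK E₁ w₀`, and the dichotomy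
                       `Rtk6ewmNodeAt V₁ 𝔫₁ id ϖ₁` at every closed point of the two charts
                       `t₁`, `t₁⁻¹` of `F₁` (`V₁ = rtk6dfV hϖ₁ M H (rtk6diwEquiv w₀ hc₁)`);
* `rtk6cxb_ev`       : `Rtk6cxbThin → Rtk6eiEv q A (Rtk6emNode …)`  (`K₀ := K₁′`);
* `rtk6cxb_hNode`    : **the provider `hNode` of `rtk6ei_geomChi_of_pieces`**;
* `rtk6cxb_commK`    : `RtkCommK (mgcE A (rtk6ebK q d)) w₀` at the thin level of the case (χ)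
                       (`d`-th powers of the diamonds at `q` in `±H`, `q ∤ d`);
* `rtk6cxb_tame_exists` : an exponent `d ≠ 0`, `q ∤ d`, with `c ^ d ∈ ±H` for all `c`, from
                       `IsTameAt`;
* `rtk6cxb_thin_chi` : `Rtk6cxbThin` from the dichotomy at `K₁′ = rtk6ebK q d`,
                       `ϖ₁ = rtk6ebVarpi …`.
-/
import Fermat.Agent.RT.K6.C4InstBNode
import Fermat.Agent.RT.K6.FamResFam
import Fermat.Agent.RT.K6.DBCSS1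
import Fermat.Agent.RT.K6.W1Core
import Fermat.Agent.RT.K6.EInstU

set_option autoImplicit false
set_option linter.style.haveILetI false
set_option linter.unusedSectionVars false
set_option linter.unusedVariables false
set_option linter.style.longLine false

noncomputable section

namespace Fermat.Agent.RT.K6

open ModularCurve AlgebraicCurve Fermat.Agent.ES Fermat.Agent.ES.G2 Fermat.Agent.INJ
open Fermat.Agent.UNIP Fermat.Agent.STB Fermat.Agent.ES1 Fermat.Agent.ES1.G2 IntermediateField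

/-! ### `Rtk6emNode` at `K₁` from the thin level -/

section Node

variable {A : ValuationSubring Qb} {K₁' K₁ : IntermediateField ℚ Qb}
  [NumberField ↥K₁'] [IsGalois ℚ ↥K₁'] [NumberField ↥K₁] [IsGalois ℚ ↥K₁]
  [IsDiscreteValuationRing ↥(mgcA A K₁')] [IsDiscreteValuationRing ↥(mgcA A K₁)]
  {q M₁ : ℕ} [NeZero q] [NeZero M₁] [NeZero (M₁ * q)] {M : ℕ} {H : Subgroup (ZMod M)ˣ}

/-- **`Rtk6emNode` at `K₁`** for the family of `w = rtk6diwEquiv w₀ hc₂`, from `Rtk6emFam`,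
`Rtk6emSS1` and the dichotomy on the two charts at a lower level `K₁′ ≤ K₁`
(`w₁ = rtk6diwEquiv w₀ hc₁`). -/
theorem rtk6cxb_node_E (hq : q.Prime) (hA : A.LiesOverPrime q) (h : K₁' ≤ K₁)
    (hML : M ∣ M₁ * q)
    (w₀ : fieldBar (M₁ * q) M H ≃ₐ[Qb] fieldBar (M₁ * q) M H)
    (hc₁ : RtkCommK (mgcE A K₁') w₀) (hc₂ : RtkCommK (mgcE A K₁) w₀)
    {ϖ₁ : ↥(mgcA A K₁')} (hϖ₁ : Irreducible ϖ₁) {π : ↥(mgcA A K₁)} (hπ : Irreducible π)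
    (fam : Rtk6emFam A K₁' (M₁ * q) M H ϖ₁
      (rtk6dfV hϖ₁ M H (rtk6diwEquiv (K₀ := mgcE A K₁') w₀ hc₁)))
    (ss1 : Rtk6emSS1 A K₁' (M₁ * q) M H ϖ₁
      (rtk6dfV hϖ₁ M H (rtk6diwEquiv (K₀ := mgcE A K₁') w₀ hc₁)))
    (hA₁ : ∀ 𝔫₁ : AtPt (F := ↥(rtk6diF A K₁' (M₁ * q) M H)) ϖ₁ (rtk6diT A K₁' (M₁ * q) M H),
      Rtk6ewmNodeAt (rtk6dfV hϖ₁ M H (rtk6diwEquiv (K₀ := mgcE A K₁') w₀ hc₁)) 𝔫₁
        (RingHom.id _)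
        (algebraMap ↥(mgcA A K₁') ↥(zchClosure (A₀ := ↥(mgcA A K₁'))
          ({rtk6diT A K₁' (M₁ * q) M H} : Set ↥(rtk6diF A K₁' (M₁ * q) M H))) ϖ₁))
    (hA₂ : ∀ 𝔫₁ : AtPt (F := ↥(rtk6diF A K₁' (M₁ * q) M H)) ϖ₁
        (rtk6diT A K₁' (M₁ * q) M H)⁻¹,
      Rtk6ewmNodeAt (rtk6dfV hϖ₁ M H (rtk6diwEquiv (K₀ := mgcE A K₁') w₀ hc₁)) 𝔫₁
        (RingHom.id _)
        (algebraMap ↥(mgcA A K₁') ↥(zchClosure (A₀ := ↥(mgcA A K₁'))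
          ({(rtk6diT A K₁' (M₁ * q) M H)⁻¹} : Set ↥(rtk6diF A K₁' (M₁ * q) M H))) ϖ₁)) :
    Rtk6emNode A K₁ (M₁ * q) M H π
      (rtk6dfV hπ M H (rtk6diwEquiv (K₀ := mgcE A K₁) w₀ hc₂)) :=
  rtk6c4b_node hϖ₁ hπ M H (rtk6diwEquiv (K₀ := mgcE A K₁') w₀ hc₁)
    (rtk6diwEquiv (K₀ := mgcE A K₁) w₀ hc₂) (rtk6dbcIncl (A := A) (M₁ * q) M H h)
    (rtk6ebQ_ne_zero h hϖ₁.ne_zero) (rtk6ebQ_dvd_of_irreducible h hπ hϖ₁)
    (rtk6frf_hR2_E hϖ₁ hπ w₀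
      (IntermediateField.inclusion (rtk6eb_mgcE_mono (A := A) h)).toRingHom (fun _ => rfl)
      hc₁ hc₂ hML)
    (rtk6dbc_chart_t_of_ss1 (M₁ * q) M H hq hA h (NeZero.ne (M₁ * q)) hML hϖ₁ hπ fam ss1)
    (rtk6dbc_chart_tinv_of_ss1 (M₁ * q) M H hq hA h (NeZero.ne (M₁ * q)) hML hϖ₁ hπ fam ss1)
    hA₁ hA₂

/-- **`Rtk6emNode` at `K₁`** for the family of the glue (`w = rtk6diwW w₀ …`), from the generic
(SS1-inst) and the dichotomy on the two charts at a lower level `K₁′ ≤ K₁`. -/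
theorem rtk6cxb_node (hS : StmtRtk6SS1Gen) (hq : q.Prime) (hqM' : q ∣ M) (hM0 : M ≠ 0)
    (hqM : ¬ q ∣ M₁) (hML : M ∣ M₁ * q) (htame : IsTameAt (M₁ * q) M q H) (h4 : 4 ∣ M₁ * q)
    (w₀ : fieldBar (M₁ * q) M H ≃ₐ[Qb] fieldBar (M₁ * q) M H)
    (hw₀ : IsWAt (M₁ * q) M H q w₀) (hA : A.LiesOverPrime q) (h : K₁' ≤ K₁)
    (hc₁ : RtkCommK (mgcE A K₁') w₀)
    {ϖ₁ : ↥(mgcA A K₁')} (hϖ₁ : Irreducible ϖ₁)
    (hA₁ : ∀ 𝔫₁ : AtPt (F := ↥(rtk6diF A K₁' (M₁ * q) M H)) ϖ₁ (rtk6diT A K₁' (M₁ * q) M H),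
      Rtk6ewmNodeAt (rtk6dfV hϖ₁ M H (rtk6diwEquiv (K₀ := mgcE A K₁') w₀ hc₁)) 𝔫₁
        (RingHom.id _)
        (algebraMap ↥(mgcA A K₁') ↥(zchClosure (A₀ := ↥(mgcA A K₁'))
          ({rtk6diT A K₁' (M₁ * q) M H} : Set ↥(rtk6diF A K₁' (M₁ * q) M H))) ϖ₁))
    (hA₂ : ∀ 𝔫₁ : AtPt (F := ↥(rtk6diF A K₁' (M₁ * q) M H)) ϖ₁
        (rtk6diT A K₁' (M₁ * q) M H)⁻¹,
      Rtk6ewmNodeAt (rtk6dfV hϖ₁ M H (rtk6diwEquiv (K₀ := mgcE A K₁') w₀ hc₁)) 𝔫₁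
        (RingHom.id _)
        (algebraMap ↥(mgcA A K₁') ↥(zchClosure (A₀ := ↥(mgcA A K₁'))
          ({(rtk6diT A K₁' (M₁ * q) M H)⁻¹} : Set ↥(rtk6diF A K₁' (M₁ * q) M H))) ϖ₁))
    (hζ : ∀ ζ : Qb, ζ ^ q = 1 → ζ ∈ mgcE A K₁) {π : ↥(mgcA A K₁)} (hπ : Irreducible π) :
    Rtk6emNode A K₁ (M₁ * q) M H π
      (rtk6dfV hπ M H (rtk6diwW (K₀ := mgcE A K₁) w₀ hw₀ hM0 hq hqM' hζ)) := by
  have hwI := rtk6w1_wIncl w₀ hw₀ hc₁ hq (mgdIota (mgcE A K₁')) hqM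
  have fam := rtk6m1_emFam hϖ₁ (mgdIota (mgcE A K₁')) hq hqM hwI hA hML
  have ss1 := hS q M₁ M H hq hqM hML htame h4 A hA K₁' hϖ₁ (mgdIota (mgcE A K₁')) _ hwI
  have hc₂ : RtkCommK (mgcE A K₁) w₀ :=
    rtk6w1_commK_mono (rtk6eb_mgcE_mono (A := A) h) hc₁
  exact rtk6cxb_node_E hq hA h hML w₀ hc₁ hc₂ hϖ₁ hπ fam ss1 hA₁ hA₂

end Node

/-! ### The open input and the provider -/

section Ev

variable {q M₁ : ℕ} [NeZero q] [NeZero M₁] [NeZero (M₁ * q)] {M : ℕ} {H : Subgroup (ZMod M)ˣ}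

/-- **The open input (C4-χ-ASM at ONE thin level)**: a Galois number field `K₁′` with
`A₁ = A ∩ E₁` a discrete valuation ring, a uniformizer `ϖ₁` of `A₁`, the commutation
`hc₁ : RtkCommK E₁ w₀` (W1), and the dichotomy "smooth point or thin crossing point of two
components of `V₁ = rtk6dfV hϖ₁ M H (rtk6diwEquiv w₀ hc₁)`" at every closed point of the special
fibre of the two charts `zchClosure {t₁}`, `zchClosure {t₁⁻¹}` of `F₁` over `A₁`. -/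
def Rtk6cxbThin (A : ValuationSubring Qb)
    (w₀ : fieldBar (M₁ * q) M H ≃ₐ[Qb] fieldBar (M₁ * q) M H) : Prop :=
  ∃ (K₁' : IntermediateField ℚ Qb) (_ : NumberField ↥K₁') (_ : IsGalois ℚ ↥K₁')
    (_ : IsDiscreteValuationRing ↥(mgcA A K₁')) (ϖ₁ : ↥(mgcA A K₁')) (hϖ₁ : Irreducible ϖ₁)
    (hc₁ : RtkCommK (mgcE A K₁') w₀),
    (∀ 𝔫₁ : AtPt (F := ↥(rtk6diF A K₁' (M₁ * q) M H)) ϖ₁ (rtk6diT A K₁' (M₁ * q) M H),
      Rtk6ewmNodeAt (rtk6dfV hϖ₁ M H (rtk6diwEquiv (K₀ := mgcE A K₁') w₀ hc₁)) 𝔫₁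
        (RingHom.id _)
        (algebraMap ↥(mgcA A K₁') ↥(zchClosure (A₀ := ↥(mgcA A K₁'))
          ({rtk6diT A K₁' (M₁ * q) M H} : Set ↥(rtk6diF A K₁' (M₁ * q) M H))) ϖ₁)) ∧
    (∀ 𝔫₁ : AtPt (F := ↥(rtk6diF A K₁' (M₁ * q) M H)) ϖ₁
        (rtk6diT A K₁' (M₁ * q) M H)⁻¹,
      Rtk6ewmNodeAt (rtk6dfV hϖ₁ M H (rtk6diwEquiv (K₀ := mgcE A K₁') w₀ hc₁)) 𝔫₁
        (RingHom.id _)
        (algebraMap ↥(mgcA A K₁') ↥(zchClosure (A₀ := ↥(mgcA A K₁'))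
          ({(rtk6diT A K₁' (M₁ * q) M H)⁻¹} : Set ↥(rtk6diF A K₁' (M₁ * q) M H))) ϖ₁))

/-- **`Rtk6emNode` at all sufficiently large `K₁`** (`K₀ := K₁′`) from the open input. -/
theorem rtk6cxb_ev (hS : StmtRtk6SS1Gen) (hq : q.Prime) (hqM' : q ∣ M) (hM0 : M ≠ 0)
    (hqM : ¬ q ∣ M₁) (hML : M ∣ M₁ * q) (htame : IsTameAt (M₁ * q) M q H) (h4 : 4 ∣ M₁ * q)
    (w₀ : fieldBar (M₁ * q) M H ≃ₐ[Qb] fieldBar (M₁ * q) M H)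
    (hw₀ : IsWAt (M₁ * q) M H q w₀) {A : ValuationSubring Qb} (hA : A.LiesOverPrime q)
    (hT : Rtk6cxbThin A w₀) :
    Rtk6eiEv q A (fun K₁ _ hζ π hπ => Rtk6emNode A K₁ (M₁ * q) M H π
      (rtk6dfV hπ M H (rtk6diwW (K₀ := mgcE A K₁) w₀ hw₀ hM0 hq hqM' hζ))) := by
  obtain ⟨K₁', hNF, hGal, hDVR, ϖ₁, hϖ₁, hc₁, hA₁, hA₂⟩ := hT
  haveI := hNF
  haveI := hGal
  haveI := hDVR
  refine ⟨K₁', inferInstance, fun K₁ _ _ _ hK hζ π hπ => ?_⟩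
  exact rtk6cxb_node hS hq hqM' hM0 hqM hML htame h4 w₀ hw₀ hA hK hc₁ hϖ₁ hA₁ hA₂ hζ hπ

end Ev

/-- **The provider `hNode` of `rtk6ei_geomChi_of_pieces`** from the generic (SS1-inst) and the
dichotomy at ONE thin level per level datum (C4-χ-ASM). -/
theorem rtk6cxb_hNode (hS : StmtRtk6SS1Gen)
    (hThin : ∀ (q M₁ : ℕ) [NeZero q] [NeZero M₁] [NeZero (M₁ * q)] (M : ℕ)
      (H : Subgroup (ZMod M)ˣ) (hq : q.Prime) (hqM' : q ∣ M) (hM0 : M ≠ 0), ¬ q ∣ M₁ →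
      M ∣ M₁ * q → IsStarStable M q H → IsTameAt (M₁ * q) M q H → 4 ∣ M₁ * q →
      ∀ (w₀ : fieldBar (M₁ * q) M H ≃ₐ[Qb] fieldBar (M₁ * q) M H)
        (hw₀ : IsWAt (M₁ * q) M H q w₀) (A : ValuationSubring Qb), A.LiesOverPrime q →
        Rtk6cxbThin A w₀) :
    ∀ (q M₁ : ℕ) [NeZero q] [NeZero M₁] [NeZero (M₁ * q)] (M : ℕ)
      (H : Subgroup (ZMod M)ˣ) (hq : q.Prime) (hqM' : q ∣ M) (hM0 : M ≠ 0), ¬ q ∣ M₁ →
      M ∣ M₁ * q → IsStarStable M q H → IsTameAt (M₁ * q) M q H → 4 ∣ M₁ * q →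
      ∀ (w₀ : fieldBar (M₁ * q) M H ≃ₐ[Qb] fieldBar (M₁ * q) M H)
        (hw₀ : IsWAt (M₁ * q) M H q w₀) (A : ValuationSubring Qb), A.LiesOverPrime q →
        Rtk6eiEv q A (fun K₁ _ hζ π hπ => Rtk6emNode A K₁ (M₁ * q) M H π
          (rtk6dfV hπ M H (rtk6diwW (K₀ := mgcE A K₁) w₀ hw₀ hM0 hq hqM' hζ))) := by
  intro q M₁ _ _ _ M H hq hqM' hM0 hqM hML hstar htame h4 w₀ hw₀ A hA
  exact rtk6cxb_ev hS hq hqM' hM0 hqM hML htame h4 w₀ hw₀ hA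
    (hThin q M₁ M H hq hqM' hM0 hqM hML hstar htame h4 w₀ hw₀ A hA)

/-! ### The thin level of the case (χ): `K₁′ = rtk6ebK q d` -/

section Chi

variable {q M₁ : ℕ} [NeZero q] [NeZero M₁] [NeZero (M₁ * q)] {M : ℕ} {H : Subgroup (ZMod M)ˣ}

/-- an exponent `d ≠ 0`, `q ∤ d`, killing `(ℤ/M)ˣ / ±H`, from `IsTameAt` -/
theorem rtk6cxb_tame_exists (hq : q.Prime) (htame : IsTameAt (M₁ * q) M q H) :
    ∃ d : ℕ, d ≠ 0 ∧ ¬ q ∣ d ∧ ∀ c : (ZMod M)ˣ, c ^ d ∈ pmH H := by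
  obtain ⟨d, hd, hc⟩ := htame
  have hdq : ¬ q ∣ d := by
    intro hqd
    have h1 : q ∣ Nat.gcd d (6 * (M₁ * q)) :=
      Nat.dvd_gcd hqd (Dvd.intro_left (6 * M₁) (by ring))
    rw [Nat.Coprime] at hd
    rw [hd] at h1
    exact hq.one_lt.ne' (Nat.dvd_one.mp h1)
  exact ⟨d, fun h0 => hdq (h0 ▸ dvd_zero q), hdq, hc⟩

/-- **W1 at the thin level `K₁′ = rtk6ebK q d`** of the case (χ). -/
theorem rtk6cxb_commK (hq : q.Prime) (hqM' : q ∣ M) (hM0 : M ≠ 0) (hqM : ¬ q ∣ M₁)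
    (hML : M ∣ M₁ * q) {w₀ : fieldBar (M₁ * q) M H ≃ₐ[Qb] fieldBar (M₁ * q) M H}
    (hw₀ : IsWAt (M₁ * q) M H q w₀) (A : ValuationSubring Qb) (hA : A.LiesOverPrime q)
    {d : ℕ} (hd0 : d ≠ 0) (hdq : ¬ q ∣ d)
    (hd : ∀ c : (ZMod M)ˣ, IsAtR M q c → c ^ d ∈ pmH H) :
    RtkCommK (mgcE A (rtk6ebK q d)) w₀ := by
  haveI : NeZero M := ⟨hM0⟩
  obtain ⟨ϖ, hϖ⟩ := IsAlgClosed.exists_pow_nat_eq ((q : ℕ) : Qb) (Nat.pos_of_ne_zero hd0)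
  exact rtk6w1b_commK (NeZero.ne (M₁ * q)) hML hq hqM' (rtk6eiu_not_sq_dvd hq hqM hML) A hA hdq
    hd hw₀ hϖ le_sup_left (rtk6eb_varpi_mem_E hd0 hϖ)

/-- **`Rtk6cxbThin` from the dichotomy at `K₁′ = rtk6ebK q d`**, `ϖ₁` ANY uniformizer of
`A₁ = mgcA A (rtk6ebK q d)` (e.g. `rtk6ebVarpi hA hd0 hϖ`, `ϖ ^ d = q`), `hc₁` ANY proof of the
commutation (e.g. `rtk6cxb_commK`). -/
theorem rtk6cxb_thin_chi (hq : q.Prime) {A : ValuationSubring Qb} (hA : A.LiesOverPrime q)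
    {w₀ : fieldBar (M₁ * q) M H ≃ₐ[Qb] fieldBar (M₁ * q) M H} (d : ℕ)
    [IsDiscreteValuationRing ↥(mgcA A (rtk6ebK q d))]
    {ϖ₁ : ↥(mgcA A (rtk6ebK q d))} (hϖ₁ : Irreducible ϖ₁)
    (hc₁ : RtkCommK (mgcE A (rtk6ebK q d)) w₀)
    (hA₁ : ∀ 𝔫₁ : AtPt (F := ↥(rtk6diF A (rtk6ebK q d) (M₁ * q) M H)) ϖ₁
        (rtk6diT A (rtk6ebK q d) (M₁ * q) M H),
      Rtk6ewmNodeAt (rtk6dfV hϖ₁ M H (rtk6diwEquiv (K₀ := mgcE A (rtk6ebK q d)) w₀ hc₁)) 𝔫₁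
        (RingHom.id _)
        (algebraMap ↥(mgcA A (rtk6ebK q d)) ↥(zchClosure (A₀ := ↥(mgcA A (rtk6ebK q d)))
          ({rtk6diT A (rtk6ebK q d) (M₁ * q) M H} :
            Set ↥(rtk6diF A (rtk6ebK q d) (M₁ * q) M H))) ϖ₁))
    (hA₂ : ∀ 𝔫₁ : AtPt (F := ↥(rtk6diF A (rtk6ebK q d) (M₁ * q) M H)) ϖ₁
        (rtk6diT A (rtk6ebK q d) (M₁ * q) M H)⁻¹,
      Rtk6ewmNodeAt (rtk6dfV hϖ₁ M H (rtk6diwEquiv (K₀ := mgcE A (rtk6ebK q d)) w₀ hc₁)) 𝔫₁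
        (RingHom.id _)
        (algebraMap ↥(mgcA A (rtk6ebK q d)) ↥(zchClosure (A₀ := ↥(mgcA A (rtk6ebK q d)))
          ({(rtk6diT A (rtk6ebK q d) (M₁ * q) M H)⁻¹} :
            Set ↥(rtk6diF A (rtk6ebK q d) (M₁ * q) M H))) ϖ₁)) :
    Rtk6cxbThin A w₀ :=
  ⟨rtk6ebK q d, inferInstance, inferInstance, inferInstance, ϖ₁, hϖ₁, hc₁, hA₁, hA₂⟩

end Chi

end Fermat.Agent.RT.K6
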