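/-
K-machine, piece K6, piece **HSTAB** (helper11), ABSTRACT part.

Setting of `RT/K6/EWMultiAbs.lean`: `A₀` a DVR (uniformizer `π`), `E = Frac A₀`, `F / E(t)`
finite, charts `B_t`, `B_{t⁻¹}`, `V : κ → ValuationSubring F` an injective finite family of
vertical valuation rings with (SS1), `hBV`, `hVloc`, `harch`.

`δ : F →+* F` a ring endomorphism which permutes the family (`∃ c', V c' = (V c₀).comap δ`) and
maps the two charts into themselves.  If at every closed point which is a crossing point the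
coordinates `X`, `Y` of the crossing datum satisfy `δ X ∈ 𝔪(V c₁)`, `δ Y ∈ 𝔪(V c₂)` ("EIGEN":
`δ X = a X`, `a` in the chart) and `δ⁻¹ 𝔫 ⊆ 𝔫` ("FIX"), then `δ` maps EVERY component which meets
another component into itself: `(V c₀).comap δ = V c₀`.

No thinness is used: the crossing datum is the one of `Rtk6ewmNodeAt` (on the unramified chart
`R`, `MgcRamified j π p`), so the node may be thick on the chart of `F`.

* `rtk6hs_exists_edge`   : a connected incidence relation with two different vertices has an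
                           edge at every vertex;
* `rtk6hs_through_comap` : `δ⁻¹ W` passes through `𝔫` if `W` does and `δ⁻¹ 𝔫 ⊆ 𝔫`;
* `rtk6hs_core`          : the semantic core;
* `Rtk6hsCrossPlus`, `Rtk6hsNodeAt` : the crossing datum with (EIGEN) + (FIX) ("C4+");
* `rtk6hs_fix_of_ewFix`, `rtk6hs_fix_of_ewCong`, `rtk6hs_eigen_of_mul` : the inputs from
  `Rtk6ewFix`, `Rtk6ewCong`, `δ X = a X`;
* `rtk6hs_point`         : the statement at one point;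
* `rtk6hs_stab_abs`      : **the abstract theorem**.
-/
import Fermat.Agent.RT.K6.EWMulti
import Fermat.Agent.STB.SmoothOnly
import Fermat.Agent.UNIP.MGVertCompat

set_option autoImplicit false
set_option linter.style.haveILetI false
set_option linter.unusedSectionVars false
set_option linter.unusedVariables false

namespace Fermat.Agent.RT.K6

open Polynomial IntermediateField Fermat.Agent.INJ AlgebraicCurve Fermat.Agent.UNIP
  Fermat.Agent.STB Fermat.Agent.S36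

section Graph

variable {κ ι : Type*}

/-- a connected incidence relation with two different vertices has an edge at every vertex -/
theorem rtk6hs_exists_edge (inc : ι → κ → Prop)
    (hconn : ∀ c c' : κ, Relation.ReflTransGen (fun a b => ∃ i, inc i a ∧ inc i b) c c')
    (c₀ c₁ : κ) (hne : c₁ ≠ c₀) : ∃ i c, c ≠ c₀ ∧ inc i c₀ ∧ inc i c := by
  by_contra hcon
  have key : ∀ c, Relation.ReflTransGen (fun a b => ∃ i, inc i a ∧ inc i b) c₀ c → c = c₀ := by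
    intro c hc
    induction hc with
    | refl => rfl
    | tail _ hbc ih =>
      obtain ⟨i, hib, hic⟩ := hbc
      rw [ih] at hib
      by_contra hne'
      exact hcon ⟨i, _, hne', hib, hic⟩
  exact hne (key c₁ (hconn c₀ c₁))

end Graph

section Abs

variable {A₀ E F : Type*} [CommRing A₀] [IsDomain A₀] [IsDiscreteValuationRing A₀]
  [Field E] [Algebra A₀ E] [IsFractionRing A₀ E] [CharZero E]
  [Field F] [Algebra E F] [Algebra A₀ F] [IsScalarTower A₀ E F]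
  {π : A₀} {κ : Type*}

/-- `δ⁻¹ W` passes through `𝔫` if `W` does, `δ` maps the chart into itself and `δ⁻¹ 𝔫 ⊆ 𝔫` -/
theorem rtk6hs_through_comap (W : ValuationSubring F) (δ : F →+* F) {u : F}
    (𝔫 : AtPt (F := F) π u) (hthr : atThrough 𝔫 W)
    (hδB : ∀ b : F, IsIntegral ↥(Algebra.adjoin A₀ {u}) b →
      IsIntegral ↥(Algebra.adjoin A₀ {u}) (δ b))
    (hfix : ∀ b b' : ↥(zchClosure (A₀ := A₀) ({u} : Set F)), δ (b : F) = (b' : F) →
      b' ∈ 𝔫.1 → b ∈ 𝔫.1) :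
    atThrough 𝔫 (W.comap δ) := by
  intro b hb
  have h1 : δ (b : F) ∈ W.nonunits := (vt_mem_nonunits_comap W δ _).mp hb
  have h2 : δ (b : F) ∈ zchClosure (A₀ := A₀) ({u} : Set F) :=
    mem_zchClosure.mpr (hδB _ (mem_zchClosure.mp b.2))
  exact hfix b ⟨δ (b : F), h2⟩ rfl (hthr ⟨δ (b : F), h2⟩ h1)

/-- **The semantic core.**  `δ` permutes the family, `δ⁻¹ (V c₀)` passes through `𝔫`, and there
is `X` with `δ X ∈ 𝔪(V c₀)` which lies in no `𝔪(V c')`, `c' ≠ c₀` through `𝔫`: then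
`δ⁻¹ (V c₀) = V c₀`. -/
theorem rtk6hs_core (V : κ → ValuationSubring F) (c₀ : κ) (δ : F →+* F)
    (hperm : ∃ c', V c' = (V c₀).comap δ) {u : F} (𝔫 : AtPt (F := F) π u)
    (hthr : atThrough 𝔫 ((V c₀).comap δ))
    {X : F} (hδX : δ X ∈ (V c₀).nonunits)
    (hXc : ∀ c', c' ≠ c₀ → atThrough 𝔫 (V c') → X ∉ (V c').nonunits) :
    (V c₀).comap δ = V c₀ := by
  obtain ⟨c', hc'⟩ := hperm
  by_cases h : c' = c₀
  · rw [← hc', h]
  · exfalso
    refine hXc c' h (by rw [hc']; exact hthr) ?_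
    rw [hc']
    exact (vt_mem_nonunits_comap _ _ _).mpr hδX

/-- **C4+ at a crossing point**: a crossing datum of two components of the family at `𝔫` whose
coordinates satisfy (EIGEN) `δ X ∈ 𝔪(V c₁)`, `δ Y ∈ 𝔪(V c₂)`, and (FIX) `δ⁻¹ 𝔫 ⊆ 𝔫`. -/
def Rtk6hsCrossPlus (V : κ → ValuationSubring F) (δ : F →+* F) {u : F}
    (𝔫 : AtPt (F := F) π u)
    {R : Type*} [CommRing R] (j : R →+* ↥(zchClosure (A₀ := A₀) ({u} : Set F))) (p : R) : Prop :=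
  ∃ (c₁ c₂ : κ) (X Y w : R), Rtk6ewmCrossAt (V c₁) (V c₂) 𝔫 j p X Y w ∧
    δ ((j X : ↥(zchClosure (A₀ := A₀) ({u} : Set F))) : F) ∈ (V c₁).nonunits ∧
    δ ((j Y : ↥(zchClosure (A₀ := A₀) ({u} : Set F))) : F) ∈ (V c₂).nonunits ∧
    ∀ b b' : ↥(zchClosure (A₀ := A₀) ({u} : Set F)), δ (b : F) = (b' : F) →
      b' ∈ 𝔫.1 → b ∈ 𝔫.1

/-- **The dichotomy with C4+** at the closed point `𝔫`: smooth point, or crossing point with
(EIGEN) + (FIX) for `δ`. -/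
def Rtk6hsNodeAt (V : κ → ValuationSubring F) (δ : F →+* F) {u : F} (𝔫 : AtPt (F := F) π u)
    {R : Type*} [CommRing R] (j : R →+* ↥(zchClosure (A₀ := A₀) ({u} : Set F))) (p : R) : Prop :=
  (∃ s : R, j s ∈ 𝔫.1 ∧ NodesLocGen (𝔫.1.comap j) {p, s}) ∨ Rtk6hsCrossPlus V δ 𝔫 j p

/-- the dichotomy with C4+ contains the dichotomy (M3) -/
theorem Rtk6hsNodeAt.nodeAt {V : κ → ValuationSubring F} {δ : F →+* F} {u : F}
    {𝔫 : AtPt (F := F) π u} {R : Type*} [CommRing R]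
    {j : R →+* ↥(zchClosure (A₀ := A₀) ({u} : Set F))} {p : R}
    (h : Rtk6hsNodeAt V δ 𝔫 j p) : Rtk6ewmNodeAt V 𝔫 j p := by
  rcases h with h | ⟨c₁, c₂, X, Y, w, h, -⟩
  · exact Or.inl h
  · exact Or.inr ⟨c₁, c₂, X, Y, w, h⟩

/-- (FIX) from `Rtk6ewFix` -/
theorem rtk6hs_fix_of_ewFix (g : SemilinearAut E F) {u : F} (𝔫 : AtPt (F := F) π u)
    (h : Rtk6ewFix g 𝔫) (δ : F →+* F) (hδ : ∀ x : F, δ x = g • x) :
    ∀ b b' : ↥(zchClosure (A₀ := A₀) ({u} : Set F)), δ (b : F) = (b' : F) →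
      b' ∈ 𝔫.1 → b ∈ 𝔫.1 := by
  intro b b' hbb' hb'
  obtain ⟨b'', hb'', e⟩ := h.2 b' hb'
  have e2 : (b : F) = (b'' : F) := by
    rw [← e, ← hbb', hδ, inv_smul_smul]
  have e3 : b = b'' := Subtype.ext e2
  rw [e3]
  exact hb''

/-- (FIX) from `Rtk6ewCong` with `Q = 1` -/
theorem rtk6hs_fix_of_ewCong (δ : F →+* F) {u : F} (𝔫 : AtPt (F := F) π u)
    (h : Rtk6ewCong δ 1 𝔫) :
    ∀ b b' : ↥(zchClosure (A₀ := A₀) ({u} : Set F)), δ (b : F) = (b' : F) →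
      b' ∈ 𝔫.1 → b ∈ 𝔫.1 := by
  intro b b' hbb' hb'
  obtain ⟨c, hc, e⟩ := h b
  have e2 : b = b' - c := by
    apply Subtype.ext
    show (b : F) = (b' : F) - (c : F)
    rw [← hbb', e, pow_one]
    ring
  rw [e2]
  exact Ideal.sub_mem _ hb' hc

/-- (EIGEN) from `δ X = a X`, `a ∈ W` -/
theorem rtk6hs_eigen_of_mul (W : ValuationSubring F) (δ : F →+* F) {X a : F}
    (hX : X ∈ W.nonunits) (ha : a ∈ W) (h : δ X = a * X) : δ X ∈ W.nonunits := by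
  rw [h, ValuationSubring.mem_nonunits_iff, map_mul]
  have h1 : W.valuation a ≤ 1 := (ValuationSubring.valuation_le_one_iff W a).mpr ha
  have h2 : W.valuation X < 1 := (ValuationSubring.mem_nonunits_iff W).mp hX
  calc W.valuation a * W.valuation X ≤ 1 * W.valuation X := by gcongr
    _ = W.valuation X := one_mul _
    _ < 1 := h2

/-- **The statement at one point** where `V c₀` and another component pass, from the dichotomy
with C4+. -/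
theorem rtk6hs_point (hπ0 : algebraMap A₀ F π ≠ 0) {u : F} [Finite κ]
    [IsNoetherianRing ↥(zchClosure (A₀ := A₀) ({u} : Set F))]
    (V : κ → ValuationSubring F) (hinj : Function.Injective V)
    (hBV : ∀ c (b : F), IsIntegral ↥(Algebra.adjoin A₀ {u}) b → b ∈ V c)
    (hπV : ∀ c, algebraMap A₀ F π ∈ (V c).nonunits)
    (hSS1 : ∀ b : F, IsIntegral ↥(Algebra.adjoin A₀ {u}) b → (∀ c, b ∈ (V c).nonunits) →
      ∃ b' : F, IsIntegral ↥(Algebra.adjoin A₀ {u}) b' ∧ b = algebraMap A₀ F π * b')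
    (harch : ∀ c (a x : F), a ∈ (V c).nonunits → ∃ N : ℕ, a ^ N * x ∈ (V c).nonunits)
    (hVloc : ∀ c (x : F), x ∈ V c → ∃ b s : F, IsIntegral ↥(Algebra.adjoin A₀ {u}) b ∧
      IsIntegral ↥(Algebra.adjoin A₀ {u}) s ∧ s ∉ (V c).nonunits ∧ s * x = b)
    (δ : F →+* F)
    (hδB : ∀ b : F, IsIntegral ↥(Algebra.adjoin A₀ {u}) b →
      IsIntegral ↥(Algebra.adjoin A₀ {u}) (δ b))
    (c₀ : κ) (hperm : ∃ c', V c' = (V c₀).comap δ)
    {R : Type*} [CommRing R] (j : R →+* ↥(zchClosure (A₀ := A₀) ({u} : Set F))) (p : R)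
    (hram : MgcRamified j (algebraMap A₀ ↥(zchClosure (A₀ := A₀) ({u} : Set F)) π) p)
    (hjp0 : j p ≠ 0)
    (𝔫 : AtPt (F := F) π u) (hnode : Rtk6hsNodeAt V δ 𝔫 j p)
    (c : κ) (hc : c ≠ c₀) (h₀ : atThrough 𝔫 (V c₀)) (h₁ : atThrough 𝔫 (V c)) :
    (V c₀).comap δ = V c₀ := by
  have hnle := rtk6ewm_hinc hπ0 V hinj hπV harch
  rcases hnode with ⟨s, hs, hgen⟩ | ⟨c₁, c₂, X, Y, w, hcr, hX, hY, hfix⟩
  · exact absurd (stb_sx_only V hBV hπV hVloc hnle 𝔫 (j s) hs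
      (hram.mgg_locGen_pair 𝔫.2.2 s hgen) c c₀ h₁ h₀) hc
  · have honly := rtk6ewm_cross_only hπ0 V hinj hBV hπV harch hVloc 𝔫 j p hram hcr
    have hX2 := rtk6ewm_cross_not_mem hπ0 V hinj hBV hπV hSS1 harch hVloc 𝔫 j p hram hjp0 hcr
    have hY1 := rtk6ewm_cross_not_mem hπ0 V hinj hBV hπV hSS1 harch hVloc 𝔫 j p hram hjp0
      hcr.symm
    have hthr := rtk6hs_through_comap (V c₀) δ 𝔫 h₀ hδB hfix
    rcases honly c₀ h₀ with h0 | h0
    · subst h0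
      refine rtk6hs_core V _ δ hperm 𝔫 hthr hX fun c' hc' hthr' => ?_
      rcases honly c' hthr' with h' | h'
      · exact absurd h' hc'
      · rw [h']
        exact hX2
    · subst h0
      refine rtk6hs_core V _ δ hperm 𝔫 hthr hY fun c' hc' hthr' => ?_
      rcases honly c' hthr' with h' | h'
      · rw [h']
        exact hY1
      · exact absurd h' hc'

/-- **HSTAB, abstract, semantic form.**  `δ` permutes the family and maps the charts into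
themselves; at every closed point `𝔫` through which `V c₀` and another component pass,
`δ⁻¹ 𝔫 ⊆ 𝔫` and there is `X` with `δ X ∈ 𝔪(V c₀)` lying in no other `𝔪(V c')` through `𝔫`.
If the family has at least two members, `δ⁻¹ (V c₀) = V c₀`. -/
theorem rtk6hs_stab_sem_abs (hπ : Irreducible π) {t : F} (ht : Transcendental E t)
    [FiniteDimensional E⟮t⟯ F]
    (hcl : ∀ x : F, IsAlgebraic E x → x ∈ (algebraMap E F).range)
    [Finite κ] (V : κ → ValuationSubring F) (hinj : Function.Injective V)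
    (hBV₁ : ∀ c (b : F), IsIntegral ↥(Algebra.adjoin A₀ {t}) b → b ∈ V c)
    (hBV₂ : ∀ c (b : F), IsIntegral ↥(Algebra.adjoin A₀ {t⁻¹}) b → b ∈ V c)
    (hπV : ∀ c, algebraMap A₀ F π ∈ (V c).nonunits)
    (hSS1 : ∀ b : F, IsIntegral ↥(Algebra.adjoin A₀ {t}) b → (∀ c, b ∈ (V c).nonunits) →
      ∃ b' : F, IsIntegral ↥(Algebra.adjoin A₀ {t}) b' ∧ b = algebraMap A₀ F π * b')
    (harch : ∀ c (a x : F), a ∈ (V c).nonunits → ∃ N : ℕ, a ^ N * x ∈ (V c).nonunits)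
    (hVloc₁ : ∀ c (x : F), x ∈ V c → ∃ b s : F, IsIntegral ↥(Algebra.adjoin A₀ {t}) b ∧
      IsIntegral ↥(Algebra.adjoin A₀ {t}) s ∧ s ∉ (V c).nonunits ∧ s * x = b)
    (δ : F →+* F)
    (hδB₁ : ∀ b : F, IsIntegral ↥(Algebra.adjoin A₀ {t}) b →
      IsIntegral ↥(Algebra.adjoin A₀ {t}) (δ b))
    (hδB₂ : ∀ b : F, IsIntegral ↥(Algebra.adjoin A₀ {t⁻¹}) b →
      IsIntegral ↥(Algebra.adjoin A₀ {t⁻¹}) (δ b))
    (c₀ c₁ : κ) (hne : c₁ ≠ c₀) (hperm : ∃ c', V c' = (V c₀).comap δ)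
    (hpt₁ : ∀ (𝔫 : AtPt (F := F) π t) (c : κ), c ≠ c₀ → atThrough 𝔫 (V c₀) →
      atThrough 𝔫 (V c) →
      (∀ b b' : ↥(zchClosure (A₀ := A₀) ({t} : Set F)), δ (b : F) = (b' : F) →
        b' ∈ 𝔫.1 → b ∈ 𝔫.1) ∧
      ∃ X : F, δ X ∈ (V c₀).nonunits ∧
        ∀ c', c' ≠ c₀ → atThrough 𝔫 (V c') → X ∉ (V c').nonunits)
    (hpt₂ : ∀ (𝔫 : AtPt (F := F) π t⁻¹) (c : κ), c ≠ c₀ → atThrough 𝔫 (V c₀) →
      atThrough 𝔫 (V c) →
      (∀ b b' : ↥(zchClosure (A₀ := A₀) ({t⁻¹} : Set F)), δ (b : F) = (b' : F) →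
        b' ∈ 𝔫.1 → b ∈ 𝔫.1) ∧
      ∃ X : F, δ X ∈ (V c₀).nonunits ∧
        ∀ c', c' ≠ c₀ → atThrough 𝔫 (V c') → X ∉ (V c').nonunits) :
    (V c₀).comap δ = V c₀ := by
  have hconn := rtk6ewm_hconn hπ ht hcl V hinj hBV₁ hBV₂ hπV hSS1 harch hVloc₁
  obtain ⟨i, c, hc, h₀, h₁⟩ := rtk6hs_exists_edge (atInc π t V) hconn c₀ c₁ hne
  rcases i with 𝔫 | 𝔫
  · obtain ⟨hfix, X, hX, hXc⟩ := hpt₁ 𝔫 c hc h₀ h₁
    exact rtk6hs_core V c₀ δ hperm 𝔫 (rtk6hs_through_comap (V c₀) δ 𝔫 h₀ hδB₁ hfix) hX hXc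
  · obtain ⟨hfix, X, hX, hXc⟩ := hpt₂ 𝔫 c hc h₀ h₁
    exact rtk6hs_core V c₀ δ hperm 𝔫 (rtk6hs_through_comap (V c₀) δ 𝔫 h₀ hδB₂ hfix) hX hXc

/-- **HSTAB, abstract form**, from the dichotomy with C4+ on the two charts. -/
theorem rtk6hs_stab_abs (hπ : Irreducible π) {t : F} (ht : Transcendental E t)
    [FiniteDimensional E⟮t⟯ F]
    (hcl : ∀ x : F, IsAlgebraic E x → x ∈ (algebraMap E F).range)
    [Finite κ]
    [IsNoetherianRing ↥(zchClosure (A₀ := A₀) ({t} : Set F))]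
    [IsNoetherianRing ↥(zchClosure (A₀ := A₀) ({t⁻¹} : Set F))]
    (V : κ → ValuationSubring F) (hinj : Function.Injective V)
    (hBV₁ : ∀ c (b : F), IsIntegral ↥(Algebra.adjoin A₀ {t}) b → b ∈ V c)
    (hBV₂ : ∀ c (b : F), IsIntegral ↥(Algebra.adjoin A₀ {t⁻¹}) b → b ∈ V c)
    (hπV : ∀ c, algebraMap A₀ F π ∈ (V c).nonunits)
    (hSS1 : ∀ b : F, IsIntegral ↥(Algebra.adjoin A₀ {t}) b → (∀ c, b ∈ (V c).nonunits) →
      ∃ b' : F, IsIntegral ↥(Algebra.adjoin A₀ {t}) b' ∧ b = algebraMap A₀ F π * b')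
    (harch : ∀ c (a x : F), a ∈ (V c).nonunits → ∃ N : ℕ, a ^ N * x ∈ (V c).nonunits)
    (hVloc₁ : ∀ c (x : F), x ∈ V c → ∃ b s : F, IsIntegral ↥(Algebra.adjoin A₀ {t}) b ∧
      IsIntegral ↥(Algebra.adjoin A₀ {t}) s ∧ s ∉ (V c).nonunits ∧ s * x = b)
    (hVloc₂ : ∀ c (x : F), x ∈ V c → ∃ b s : F, IsIntegral ↥(Algebra.adjoin A₀ {t⁻¹}) b ∧
      IsIntegral ↥(Algebra.adjoin A₀ {t⁻¹}) s ∧ s ∉ (V c).nonunits ∧ s * x = b)
    (δ : F →+* F)
    (hδB₁ : ∀ b : F, IsIntegral ↥(Algebra.adjoin A₀ {t}) b →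
      IsIntegral ↥(Algebra.adjoin A₀ {t}) (δ b))
    (hδB₂ : ∀ b : F, IsIntegral ↥(Algebra.adjoin A₀ {t⁻¹}) b →
      IsIntegral ↥(Algebra.adjoin A₀ {t⁻¹}) (δ b))
    (c₀ c₁ : κ) (hne : c₁ ≠ c₀) (hperm : ∃ c', V c' = (V c₀).comap δ)
    {R₁ : Type*} [CommRing R₁] (j₁ : R₁ →+* ↥(zchClosure (A₀ := A₀) ({t} : Set F))) (p₁ : R₁)
    (hram₁ : MgcRamified j₁ (algebraMap A₀ ↥(zchClosure (A₀ := A₀) ({t} : Set F)) π) p₁)
    (hjp₁ : j₁ p₁ ≠ 0)
    {R₂ : Type*} [CommRing R₂] (j₂ : R₂ →+* ↥(zchClosure (A₀ := A₀) ({t⁻¹} : Set F))) (p₂ : R₂)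
    (hram₂ : MgcRamified j₂ (algebraMap A₀ ↥(zchClosure (A₀ := A₀) ({t⁻¹} : Set F)) π) p₂)
    (hjp₂ : j₂ p₂ ≠ 0)
    (hnode₁ : ∀ 𝔫 : AtPt (F := F) π t, Rtk6hsNodeAt V δ 𝔫 j₁ p₁)
    (hnode₂ : ∀ 𝔫 : AtPt (F := F) π t⁻¹, Rtk6hsNodeAt V δ 𝔫 j₂ p₂) :
    (V c₀).comap δ = V c₀ := by
  have hπ0 : algebraMap A₀ F π ≠ 0 :=
    (map_ne_zero_iff _ (zch_algebraMap_injective (A₀ := A₀) (E := E) (L := F))).mpr hπ.ne_zero
  have hconn := rtk6ewm_hconn hπ ht hcl V hinj hBV₁ hBV₂ hπV hSS1 harch hVloc₁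
  obtain ⟨i, c, hc, h₀, h₁⟩ := rtk6hs_exists_edge (atInc π t V) hconn c₀ c₁ hne
  rcases i with 𝔫 | 𝔫
  · exact rtk6hs_point hπ0 V hinj hBV₁ hπV hSS1 harch hVloc₁ δ hδB₁ c₀ hperm j₁ p₁ hram₁ hjp₁ 𝔫
      (hnode₁ 𝔫) c hc h₀ h₁
  · exact rtk6hs_point hπ0 V hinj hBV₂ hπV (ats_SS1_inv ht hπ V hBV₁ hSS1) harch hVloc₂ δ hδB₂
      c₀ hperm j₂ p₂ hram₂ hjp₂ 𝔫 (hnode₂ 𝔫) c hc h₀ h₁

end Abs

end Fermat.Agent.RT.K6
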