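/-
K-machine, piece K6, piece **HSTAB** (helper11): `Rtk6m4Stab` (`RT/K6/M4Inst.lean`), i.e.
every diamond AT `q` maps `V_∞` into `V_∞`, from the dichotomy with C4+.

Setting of `RT/K6/M4Inst.lean`, `RT/K6/EMain.lean`: `A′ = mgcA A K₁` a DVR, `π` a uniformizer,
`F′ = rtk6diF A K₁ (M₁ q) M H`, `t = rtk6diT`, the family `κ = rtk6dfK`, `V = rtk6dfV` of all
conjugates of `V_∞`, `V_0`.  NO thinness and NO base change: the crossing datum is the one of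
`Rtk6ewmNodeAt` (M6), on ANY chart `R` with `MgcRamified j π p`.

* `Rtk6hsChartAt π q₀ V δ u` : the chart `u` with the dichotomy with C4+ for `δ`
  (`Rtk6hsNodeAt`, `RT/K6/HStabAbs.lean`) at every closed point; it contains `Rtk6emChartAt`
  (`Rtk6hsChartAt.chartAt`);
* `Rtk6hsPlus π V δ`         : the two charts;
* `Rtk6hsSemAt π V c₀ δ u`   : the SEMANTIC form of C4+ on the chart `u`;
* `rtk6hs_comap_eq`          : `δ⁻¹ V_∞ = V_∞` for ONE `δ ∈ Γ`;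
* **`rtk6hs_stab`**          : `Rtk6m4Stab hπ M H w` from `Rtk6emFam`, `Rtk6emSS1`, `V_∞ ≠ V_0` and
                               `Rtk6hsPlus` for every diamond at `q`;
* **`rtk6hs_stab_sem`**      : the same from the semantic form;
* `rtk6hs_stab_of_wIncl`     : with `V_∞ ≠ V_0` discharged by `rtk6dv_hne`.
-/
import Fermat.Agent.RT.K6.HStabAbs
import Fermat.Agent.RT.K6.EMain
import Fermat.Agent.RT.K6.M4Inst

set_option autoImplicit false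
set_option linter.style.haveILetI false
set_option linter.unusedSectionVars false
set_option linter.unusedVariables false

noncomputable section

namespace Fermat.Agent.RT.K6

open ModularCurve AlgebraicCurve Fermat.Agent.ES Fermat.Agent.ES.G2 Fermat.Agent.INJ
open Fermat.Agent.UNIP Fermat.Agent.STB Fermat.Agent.ES1 Fermat.Agent.ES1.G2 IntermediateField

/-! ### The inputs -/

section Inputs

variable (A : ValuationSubring Qb) (K₁ : IntermediateField ℚ Qb)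
  (L M : ℕ) (H : Subgroup (ZMod M)ˣ) [IsDiscreteValuationRing ↥(mgcA A K₁)]

/-- **C4+ on the chart `zchClosure {u}`** for the endomorphism `δ`: a chart `R`
(`j : R →+* B′_u`, `MgcRamified j π p`, `j p = q₀`) on which every closed point of the special
fibre is a smooth point or a crossing point of two components of the family with (EIGEN) and
(FIX) for `δ`. -/
def Rtk6hsChartAt (π q₀ : ↥(mgcA A K₁)) {κ : Type}
    (V : κ → ValuationSubring ↥(rtk6diF A K₁ L M H))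
    (δ : ↥(rtk6diF A K₁ L M H) →+* ↥(rtk6diF A K₁ L M H)) (u : ↥(rtk6diF A K₁ L M H)) : Prop :=
  ∃ (R : Type) (_ : CommRing R)
    (j : R →+* ↥(zchClosure (A₀ := ↥(mgcA A K₁)) ({u} : Set ↥(rtk6diF A K₁ L M H)))) (p : R),
    MgcRamified j (algebraMap ↥(mgcA A K₁) ↥(zchClosure (A₀ := ↥(mgcA A K₁))
      ({u} : Set ↥(rtk6diF A K₁ L M H))) π) p ∧
    j p = algebraMap ↥(mgcA A K₁) ↥(zchClosure (A₀ := ↥(mgcA A K₁))
      ({u} : Set ↥(rtk6diF A K₁ L M H))) q₀ ∧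
    ∀ 𝔫 : AtPt (F := ↥(rtk6diF A K₁ L M H)) π u, Rtk6hsNodeAt V δ 𝔫 j p

/-- **C4+ for `δ`** on the two charts. -/
def Rtk6hsPlus (π : ↥(mgcA A K₁)) {κ : Type}
    (V : κ → ValuationSubring ↥(rtk6diF A K₁ L M H))
    (δ : ↥(rtk6diF A K₁ L M H) →+* ↥(rtk6diF A K₁ L M H)) : Prop :=
  ∃ q₀ : ↥(mgcA A K₁), q₀ ≠ 0 ∧
    Rtk6hsChartAt A K₁ L M H π q₀ V δ (rtk6diT A K₁ L M H) ∧
    Rtk6hsChartAt A K₁ L M H π q₀ V δ (rtk6diT A K₁ L M H)⁻¹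

/-- **The semantic form of C4+** on the chart `u`, at the component `c₀`: at every closed point
through which `V c₀` and another component pass, `δ⁻¹ 𝔫 ⊆ 𝔫` and there is `X` with
`δ X ∈ 𝔪(V c₀)` which lies in no `𝔪(V c′)`, `c′ ≠ c₀` through `𝔫`. -/
def Rtk6hsSemAt (π : ↥(mgcA A K₁)) {κ : Type}
    (V : κ → ValuationSubring ↥(rtk6diF A K₁ L M H)) (c₀ : κ)
    (δ : ↥(rtk6diF A K₁ L M H) →+* ↥(rtk6diF A K₁ L M H)) (u : ↥(rtk6diF A K₁ L M H)) : Prop :=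
  ∀ (𝔫 : AtPt (F := ↥(rtk6diF A K₁ L M H)) π u) (c : κ), c ≠ c₀ → atThrough 𝔫 (V c₀) →
    atThrough 𝔫 (V c) →
    (∀ b b' : ↥(zchClosure (A₀ := ↥(mgcA A K₁)) ({u} : Set ↥(rtk6diF A K₁ L M H))),
      δ (b : ↥(rtk6diF A K₁ L M H)) = (b' : ↥(rtk6diF A K₁ L M H)) → b' ∈ 𝔫.1 → b ∈ 𝔫.1) ∧
    ∃ X : ↥(rtk6diF A K₁ L M H), δ X ∈ (V c₀).nonunits ∧
      ∀ c', c' ≠ c₀ → atThrough 𝔫 (V c') → X ∉ (V c').nonunits

variable {A K₁ L M H}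

/-- C4+ on a chart contains (D-BC) + (C4) on the chart -/
theorem Rtk6hsChartAt.chartAt {π q₀ : ↥(mgcA A K₁)} {κ : Type}
    {V : κ → ValuationSubring ↥(rtk6diF A K₁ L M H)}
    {δ : ↥(rtk6diF A K₁ L M H) →+* ↥(rtk6diF A K₁ L M H)} {u : ↥(rtk6diF A K₁ L M H)}
    (h : Rtk6hsChartAt A K₁ L M H π q₀ V δ u) : Rtk6emChartAt A K₁ L M H π q₀ V u := by
  obtain ⟨R, _, j, p, hram, hjp, hnode⟩ := h
  exact ⟨R, _, j, p, hram, hjp, fun 𝔫 => (hnode 𝔫).nodeAt⟩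

end Inputs

/-! ### The theorem -/

section Main

variable {A : ValuationSubring Qb} {K₁ : IntermediateField ℚ Qb}
  [IsDiscreteValuationRing ↥(mgcA A K₁)] {π : ↥(mgcA A K₁)} (hπ : Irreducible π)
  {q M₁ : ℕ} [NeZero q] [NeZero M₁] [NeZero (M₁ * q)]
  {M : ℕ} {H : Subgroup (ZMod M)ˣ}
  {w : ↥(rtk6diF A K₁ (M₁ * q) M H) ≃ₐ[↥(mgcE A K₁)] ↥(rtk6diF A K₁ (M₁ * q) M H)}

/-- an element of `Γ` maps the chart `zchClosure {t}` into itself -/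
theorem rtk6hs_gam_isIntegral
    {γ : ↥(rtk6diF A K₁ (M₁ * q) M H) ≃ₐ[↥(mgcE A K₁)] ↥(rtk6diF A K₁ (M₁ * q) M H)}
    (hγ : γ ∈ rtk6dfGam ↥(mgcE A K₁) (M₁ * q) M H) {b : ↥(rtk6diF A K₁ (M₁ * q) M H)}
    (hb : IsIntegral ↥(Algebra.adjoin ↥(mgcA A K₁) {rtk6diT A K₁ (M₁ * q) M H}) b) :
    IsIntegral ↥(Algebra.adjoin ↥(mgcA A K₁) {rtk6diT A K₁ (M₁ * q) M H})
      (γ.toRingEquiv.toRingHom b) := by
  have h := stb_mt_isIntegral_smul (A₀ := ↥(mgcA A K₁)) (SemilinearAut.ofAlgAut γ)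
    (u := rtk6diT A K₁ (M₁ * q) M H) (hγ _) (rtk6em_hΦA (M₁ * q) M H γ) hb
  exact h

/-- an element of `Γ` maps the chart `zchClosure {t⁻¹}` into itself -/
theorem rtk6hs_gam_isIntegral_inv
    {γ : ↥(rtk6diF A K₁ (M₁ * q) M H) ≃ₐ[↥(mgcE A K₁)] ↥(rtk6diF A K₁ (M₁ * q) M H)}
    (hγ : γ ∈ rtk6dfGam ↥(mgcE A K₁) (M₁ * q) M H) {b : ↥(rtk6diF A K₁ (M₁ * q) M H)}
    (hb : IsIntegral ↥(Algebra.adjoin ↥(mgcA A K₁) {(rtk6diT A K₁ (M₁ * q) M H)⁻¹}) b) :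
    IsIntegral ↥(Algebra.adjoin ↥(mgcA A K₁) {(rtk6diT A K₁ (M₁ * q) M H)⁻¹})
      (γ.toRingEquiv.toRingHom b) := by
  have hγt : SemilinearAut.ofAlgAut γ • rtk6diT A K₁ (M₁ * q) M H =
      rtk6diT A K₁ (M₁ * q) M H := hγ _
  have h := stb_mt_isIntegral_smul (A₀ := ↥(mgcA A K₁)) (SemilinearAut.ofAlgAut γ)
    (u := (rtk6diT A K₁ (M₁ * q) M H)⁻¹) (at_smul_inv hγt) (rtk6em_hΦA (M₁ * q) M H γ) hb
  exact h

/-- `V_0 ≠ V_∞` as components -/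
theorem rtk6hs_zero_ne_inf (hne : rtk6dvV hπ M H w true ≠ rtk6dvV hπ M H w false) :
    rtk6dfZero hπ M H w ≠ rtk6dfInf hπ M H w := fun h =>
  hne (by rw [← rtk6dfV_inf, ← rtk6dfV_zero, h])

set_option maxHeartbeats 1600000 in
/-- **`δ⁻¹ V_∞ = V_∞` for ONE `δ ∈ Γ`**, from the dichotomy with C4+ for `δ`. -/
theorem rtk6hs_comap_eq (hML : M ∣ M₁ * q)
    (fam : Rtk6emFam A K₁ (M₁ * q) M H π (rtk6dfV hπ M H w))
    (ss1 : Rtk6emSS1 A K₁ (M₁ * q) M H π (rtk6dfV hπ M H w))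
    (hne : rtk6dvV hπ M H w true ≠ rtk6dvV hπ M H w false)
    {δ : ↥(rtk6diF A K₁ (M₁ * q) M H) ≃ₐ[↥(mgcE A K₁)] ↥(rtk6diF A K₁ (M₁ * q) M H)}
    (hδ : δ ∈ rtk6dfGam ↥(mgcE A K₁) (M₁ * q) M H)
    (hplus : Rtk6hsPlus A K₁ (M₁ * q) M H π (rtk6dfV hπ M H w) δ.toRingEquiv.toRingHom) :
    (rtk6dvV hπ M H w true).comap δ.toRingEquiv.toRingHom = rtk6dvV hπ M H w true := by
  haveI := rtk6di_finiteDimensional A K₁ (M₁ * q) M H (NeZero.ne (M₁ * q)) hML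
  haveI : Finite (rtk6dfK hπ M H w) := fam.hfin
  have ht := rtk6di_transcendental A K₁ (M₁ * q) M H
  have ht' : Transcendental ↥(mgcE A K₁) (rtk6diT A K₁ (M₁ * q) M H)⁻¹ :=
    zch_transcendental_inv ht
  haveI : FiniteDimensional (↥(mgcE A K₁))⟮(rtk6diT A K₁ (M₁ * q) M H)⁻¹⟯
      ↥(rtk6diF A K₁ (M₁ * q) M H) :=
    at_finiteDimensional_inv (rtk6diT A K₁ (M₁ * q) M H)
  haveI : IsNoetherianRing ↥(zchClosure (A₀ := ↥(mgcA A K₁))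
      ({rtk6diT A K₁ (M₁ * q) M H} : Set ↥(rtk6diF A K₁ (M₁ * q) M H))) :=
    chart_closure_isNoetherianRing (A₀ := ↥(mgcA A K₁)) (E := ↥(mgcE A K₁)) ht
  haveI : IsNoetherianRing ↥(zchClosure (A₀ := ↥(mgcA A K₁))
      ({(rtk6diT A K₁ (M₁ * q) M H)⁻¹} : Set ↥(rtk6diF A K₁ (M₁ * q) M H))) :=
    chart_closure_isNoetherianRing (A₀ := ↥(mgcA A K₁)) (E := ↥(mgcE A K₁)) ht'
  obtain ⟨q₀, hq0, ⟨R₁, _, j₁, p₁, hram₁, hjp₁, hnode₁⟩,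
    ⟨R₂, _, j₂, p₂, hram₂, hjp₂, hnode₂⟩⟩ := hplus
  exact rtk6hs_stab_abs hπ ht (rtk6di_hcl A K₁ (M₁ * q) M H) (rtk6dfV hπ M H w)
    fam.hinj fam.hBV₁ fam.hBV₂ fam.hπV ss1 fam.harch fam.hVloc₁ fam.hVloc₂
    δ.toRingEquiv.toRingHom (fun b hb => rtk6hs_gam_isIntegral hδ hb)
    (fun b hb => rtk6hs_gam_isIntegral_inv hδ hb)
    (rtk6dfInf hπ M H w) (rtk6dfZero hπ M H w) (rtk6hs_zero_ne_inf hπ hne)
    ⟨rtk6dfComap (rtk6dvV hπ M H w) δ hδ (rtk6dfInf hπ M H w), rfl⟩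
    j₁ p₁ hram₁ (rtk6ewm_jp_ne_zero (E := ↥(mgcE A K₁)) hπ q₀ hq0 j₁ p₁ hjp₁)
    j₂ p₂ hram₂ (rtk6ewm_jp_ne_zero (E := ↥(mgcE A K₁)) hπ q₀ hq0 j₂ p₂ hjp₂)
    hnode₁ hnode₂

set_option maxHeartbeats 1600000 in
/-- **`δ⁻¹ V_∞ = V_∞` for ONE `δ ∈ Γ`**, from the semantic form of C4+ for `δ`. -/
theorem rtk6hs_comap_eq_sem (hML : M ∣ M₁ * q)
    (fam : Rtk6emFam A K₁ (M₁ * q) M H π (rtk6dfV hπ M H w))
    (ss1 : Rtk6emSS1 A K₁ (M₁ * q) M H π (rtk6dfV hπ M H w))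
    (hne : rtk6dvV hπ M H w true ≠ rtk6dvV hπ M H w false)
    {δ : ↥(rtk6diF A K₁ (M₁ * q) M H) ≃ₐ[↥(mgcE A K₁)] ↥(rtk6diF A K₁ (M₁ * q) M H)}
    (hδ : δ ∈ rtk6dfGam ↥(mgcE A K₁) (M₁ * q) M H)
    (h₁ : Rtk6hsSemAt A K₁ (M₁ * q) M H π (rtk6dfV hπ M H w) (rtk6dfInf hπ M H w)
      δ.toRingEquiv.toRingHom (rtk6diT A K₁ (M₁ * q) M H))
    (h₂ : Rtk6hsSemAt A K₁ (M₁ * q) M H π (rtk6dfV hπ M H w) (rtk6dfInf hπ M H w)
      δ.toRingEquiv.toRingHom (rtk6diT A K₁ (M₁ * q) M H)⁻¹) :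
    (rtk6dvV hπ M H w true).comap δ.toRingEquiv.toRingHom = rtk6dvV hπ M H w true := by
  haveI := rtk6di_finiteDimensional A K₁ (M₁ * q) M H (NeZero.ne (M₁ * q)) hML
  haveI : Finite (rtk6dfK hπ M H w) := fam.hfin
  have ht := rtk6di_transcendental A K₁ (M₁ * q) M H
  exact rtk6hs_stab_sem_abs hπ ht (rtk6di_hcl A K₁ (M₁ * q) M H) (rtk6dfV hπ M H w)
    fam.hinj fam.hBV₁ fam.hBV₂ fam.hπV ss1 fam.harch fam.hVloc₁
    δ.toRingEquiv.toRingHom (fun b hb => rtk6hs_gam_isIntegral hδ hb)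
    (fun b hb => rtk6hs_gam_isIntegral_inv hδ hb)
    (rtk6dfInf hπ M H w) (rtk6dfZero hπ M H w) (rtk6hs_zero_ne_inf hπ hne)
    ⟨rtk6dfComap (rtk6dvV hπ M H w) δ hδ (rtk6dfInf hπ M H w), rfl⟩ h₁ h₂

/-- **HSTAB.**  `Rtk6m4Stab`: every diamond at `q` maps `V_∞` into `V_∞`, from (M1), (SS1-inst),
`V_∞ ≠ V_0` and the dichotomy with C4+ for every diamond at `q`. -/
theorem rtk6hs_stab (hML : M ∣ M₁ * q)
    (fam : Rtk6emFam A K₁ (M₁ * q) M H π (rtk6dfV hπ M H w))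
    (ss1 : Rtk6emSS1 A K₁ (M₁ * q) M H π (rtk6dfV hπ M H w))
    (hne : rtk6dvV hπ M H w true ≠ rtk6dvV hπ M H w false)
    (hplus : ∀ c : (ZMod M)ˣ, IsAtR M q c →
      ∀ δ : ↥(rtk6diF A K₁ (M₁ * q) M H) ≃ₐ[↥(mgcE A K₁)] ↥(rtk6diF A K₁ (M₁ * q) M H),
        IsDiamondC ↥(mgcE A K₁) (M₁ * q) M H c δ →
        Rtk6hsPlus A K₁ (M₁ * q) M H π (rtk6dfV hπ M H w) δ.toRingEquiv.toRingHom) :
    Rtk6m4Stab hπ M H w := by
  intro c hc δ hδ x hx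
  have key := rtk6hs_comap_eq hπ hML fam ss1 hne hδ.mem_gam (hplus c hc δ hδ)
  have hx' : x ∈ (rtk6dvV hπ M H w true).comap δ.toRingEquiv.toRingHom := by
    rw [key]
    exact hx
  exact hx'

/-- **HSTAB, semantic form.** -/
theorem rtk6hs_stab_sem (hML : M ∣ M₁ * q)
    (fam : Rtk6emFam A K₁ (M₁ * q) M H π (rtk6dfV hπ M H w))
    (ss1 : Rtk6emSS1 A K₁ (M₁ * q) M H π (rtk6dfV hπ M H w))
    (hne : rtk6dvV hπ M H w true ≠ rtk6dvV hπ M H w false)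
    (hsem : ∀ c : (ZMod M)ˣ, IsAtR M q c →
      ∀ δ : ↥(rtk6diF A K₁ (M₁ * q) M H) ≃ₐ[↥(mgcE A K₁)] ↥(rtk6diF A K₁ (M₁ * q) M H),
        IsDiamondC ↥(mgcE A K₁) (M₁ * q) M H c δ →
        Rtk6hsSemAt A K₁ (M₁ * q) M H π (rtk6dfV hπ M H w) (rtk6dfInf hπ M H w)
          δ.toRingEquiv.toRingHom (rtk6diT A K₁ (M₁ * q) M H) ∧
        Rtk6hsSemAt A K₁ (M₁ * q) M H π (rtk6dfV hπ M H w) (rtk6dfInf hπ M H w)
          δ.toRingEquiv.toRingHom (rtk6diT A K₁ (M₁ * q) M H)⁻¹) :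
    Rtk6m4Stab hπ M H w := by
  intro c hc δ hδ x hx
  obtain ⟨h₁, h₂⟩ := hsem c hc δ hδ
  have key := rtk6hs_comap_eq_sem hπ hML fam ss1 hne hδ.mem_gam h₁ h₂
  have hx' : x ∈ (rtk6dvV hπ M H w true).comap δ.toRingEquiv.toRingHom := by
    rw [key]
    exact hx
  exact hx'

end Main

/-! ### `V_∞ ≠ V_0` discharged -/

section WIncl

variable {A : ValuationSubring Qb} {K₁ : IntermediateField ℚ Qb}
  [IsDiscreteValuationRing ↥(mgcA A K₁)] {π : ↥(mgcA A K₁)} (hπ : Irreducible π)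
  (ιC : ↥(mgcE A K₁) →+* ℂ) {q M₁ : ℕ} [NeZero q] [NeZero M₁] [NeZero (M₁ * q)]
  (hq : q.Prime) (hqM : ¬ q ∣ M₁) {M : ℕ} {H : Subgroup (ZMod M)ˣ}
  {w : ↥(rtk6diF A K₁ (M₁ * q) M H) ≃ₐ[↥(mgcE A K₁)] ↥(rtk6diF A K₁ (M₁ * q) M H)}

/-- **HSTAB** with `V_∞ ≠ V_0` from `rtk6dv_hne`. -/
theorem rtk6hs_stab_of_wIncl (hw : Rtk6dvWIncl ιC hq hqM M H w) (hA : A.LiesOverPrime q)
    (hML : M ∣ M₁ * q)
    (fam : Rtk6emFam A K₁ (M₁ * q) M H π (rtk6dfV hπ M H w))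
    (ss1 : Rtk6emSS1 A K₁ (M₁ * q) M H π (rtk6dfV hπ M H w))
    (hplus : ∀ c : (ZMod M)ˣ, IsAtR M q c →
      ∀ δ : ↥(rtk6diF A K₁ (M₁ * q) M H) ≃ₐ[↥(mgcE A K₁)] ↥(rtk6diF A K₁ (M₁ * q) M H),
        IsDiamondC ↥(mgcE A K₁) (M₁ * q) M H c δ →
        Rtk6hsPlus A K₁ (M₁ * q) M H π (rtk6dfV hπ M H w) δ.toRingEquiv.toRingHom) :
    Rtk6m4Stab hπ M H w :=
  rtk6hs_stab hπ hML fam ss1 (rtk6dv_hne hπ ιC hq hqM M H w hw hA) hplus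

end WIncl

end Fermat.Agent.RT.K6
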