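/-
K-machine, piece K6, piece **HSTAB-inst** (helper11), ABSTRACT part: the semantic form of C4+
(`Rtk6hsSemAt`, `RT/K6/HStab.lean`) from the THIN datum with (EIGEN) on a chart `(R, j, p)`,
`MgcRamified j π p` — WITHOUT components: no `c₁ c₂`, no `atThrough` hypothesis, hence no
(FAM-res) and no (C4-THR) at the level of `F`.

Setting of `RT/K6/EWMultiAbs.lean` / `RT/K6/HStabAbs.lean`.

* `Rtk6hsThinAt D 𝔫 j p` : at the closed point `𝔫` of the chart `u`: smooth point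
  (`𝔫 ∩ R = (p, s)` locally), or thin crossing point `𝔫 ∩ R = (p, X, Y)` locally, `w p = X Y`,
  `j w ∉ 𝔫`, with (EIGEN) `δ (j X) = a (j X)`, `δ (j Y) = b (j Y)`, `a b` in the chart, for all
  `δ ∈ D`;
* `rtk6hs_mem_or_mem`   : every component contains `j X` or `j Y` in its maximal ideal;
* `rtk6hs_locGen_drop`  : `𝔫 = (π, X, Y)` locally and `d X ∈ (π)`, `d ∉ 𝔫` ⇒ `𝔫 = (π, Y)` locally;
* **`rtk6hs_sem_of_thin`** : the coordinate `X'` of the semantic form at a point through which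
  `V c₀` and another component pass;
* `rtk6hs_point_thin`    : `δ⁻¹ (V c₀) = V c₀` from the thin datum + (FIX) at one such point;
* **`rtk6hs_stab_thin_abs`** : the abstract theorem.
-/
import Fermat.Agent.RT.K6.HStabAbs

set_option autoImplicit false
set_option linter.style.haveILetI false
set_option linter.unusedSectionVars false
set_option linter.unusedVariables false

namespace Fermat.Agent.RT.K6

open Polynomial IntermediateField Fermat.Agent.INJ AlgebraicCurve Fermat.Agent.UNIP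
  Fermat.Agent.STB Fermat.Agent.S36

section Val

variable {F : Type*} [Field F]

/-- `a ∈ W`, `x ∈ 𝔪(W)` ⇒ `a x ∈ 𝔪(W)` -/
theorem rtk6hs_mul_mem_nonunits (W : ValuationSubring F) {a x : F} (ha : a ∈ W)
    (hx : x ∈ W.nonunits) : a * x ∈ W.nonunits := by
  rw [ValuationSubring.mem_nonunits_iff, map_mul]
  have h1 : W.valuation a ≤ 1 := (ValuationSubring.valuation_le_one_iff W a).mpr ha
  have h2 : W.valuation x < 1 := (ValuationSubring.mem_nonunits_iff W).mp hx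
  calc W.valuation a * W.valuation x ≤ 1 * W.valuation x := by gcongr
    _ = W.valuation x := one_mul _
    _ < 1 := h2

/-- `x, y ∈ W`, `x y ∈ 𝔪(W)` ⇒ `x ∈ 𝔪(W)` or `y ∈ 𝔪(W)` -/
theorem rtk6hs_nonunits_or (W : ValuationSubring F) {x y : F} (hx : x ∈ W) (hy : y ∈ W)
    (hxy : x * y ∈ W.nonunits) : x ∈ W.nonunits ∨ y ∈ W.nonunits := by
  by_contra hcon
  rw [not_or] at hcon
  obtain ⟨h1, h2⟩ := hcon
  have e1 : W.valuation x = 1 := by
    refine le_antisymm ((ValuationSubring.valuation_le_one_iff W x).mpr hx) ?_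
    by_contra h
    exact h1 ((ValuationSubring.mem_nonunits_iff W).mpr (not_le.mp h))
  have e2 : W.valuation y = 1 := by
    refine le_antisymm ((ValuationSubring.valuation_le_one_iff W y).mpr hy) ?_
    by_contra h
    exact h2 ((ValuationSubring.mem_nonunits_iff W).mpr (not_le.mp h))
  have h3 := (ValuationSubring.mem_nonunits_iff W).mp hxy
  rw [map_mul, e1, e2, one_mul] at h3
  exact lt_irrefl _ h3

end Val

section Gen

variable {B : Type*} [CommRing B]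

/-- `𝔫 = (ϖ, X, Y)` locally and `d X ∈ (ϖ)` with `d ∉ 𝔫` ⇒ `𝔫 = (ϖ, Y)` locally -/
theorem rtk6hs_locGen_drop (𝔫 : Ideal B) [𝔫.IsPrime] {ϖ X Y d b' : B} (hd : d ∉ 𝔫)
    (hdX : d * X = ϖ * b') (hgen : NodesLocGen 𝔫 {ϖ, X, Y}) : NodesLocGen 𝔫 {ϖ, Y} := by
  intro b hb
  obtain ⟨u, hu, hub⟩ := hgen b hb
  refine ⟨d * u, fun h => ?_, ?_⟩
  · rcases (inferInstance : 𝔫.IsPrime).mem_or_mem h with h | h
    · exact hd h
    · exact hu h
  · obtain ⟨α, z, hz, e⟩ := Ideal.mem_span_insert.mp hub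
    obtain ⟨β, z', hz', e'⟩ := Ideal.mem_span_insert.mp hz
    obtain ⟨γ, rfl⟩ := Ideal.mem_span_singleton'.mp hz'
    have e3 : d * u * b = (d * α + β * b') * ϖ + (d * γ) * Y := by
      calc d * u * b = d * (u * b) := by ring
        _ = d * (α * ϖ + (β * X + γ * Y)) := by rw [e, e']
        _ = d * α * ϖ + β * (d * X) + d * γ * Y := by ring
        _ = (d * α + β * b') * ϖ + (d * γ) * Y := by rw [hdX]; ring
    rw [e3]
    refine Ideal.add_mem _ (Ideal.mul_mem_left _ _ (Ideal.subset_span (Set.mem_insert _ _)))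
      (Ideal.mul_mem_left _ _ (Ideal.subset_span (Set.mem_insert_of_mem _ rfl)))

end Gen

section Abs

variable {A₀ E F : Type*} [CommRing A₀] [IsDomain A₀] [IsDiscreteValuationRing A₀]
  [Field E] [Algebra A₀ E] [IsFractionRing A₀ E] [CharZero E]
  [Field F] [Algebra E F] [Algebra A₀ F] [IsScalarTower A₀ E F]
  {π : A₀} {κ : Type*}

/-- **The thin datum with (EIGEN)** for the endomorphisms `δ ∈ D` at the closed point `𝔫` of the
chart `u`, on the chart `(R, j, p)`: smooth point, or thin crossing point `w p = X Y` with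
`δ (j X) = a (j X)`, `δ (j Y) = b (j Y)`.  NO components of the special fibre are named. -/
def Rtk6hsThinAt (D : Set (F →+* F)) {u : F} (𝔫 : AtPt (F := F) π u)
    {R : Type*} [CommRing R] (j : R →+* ↥(zchClosure (A₀ := A₀) ({u} : Set F))) (p : R) : Prop :=
  (∃ s : R, j s ∈ 𝔫.1 ∧ NodesLocGen (𝔫.1.comap j) {p, s}) ∨
  ∃ X Y w : R, j w ∉ 𝔫.1 ∧ w * p = X * Y ∧ j X ∈ 𝔫.1 ∧ j Y ∈ 𝔫.1 ∧
    NodesLocGen (𝔫.1.comap j) {p, X, Y} ∧
    ∀ δ ∈ D,
      (∃ a : ↥(zchClosure (A₀ := A₀) ({u} : Set F)),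
        δ ((j X : ↥(zchClosure (A₀ := A₀) ({u} : Set F))) : F) =
          (a : F) * ((j X : ↥(zchClosure (A₀ := A₀) ({u} : Set F))) : F)) ∧
      (∃ b : ↥(zchClosure (A₀ := A₀) ({u} : Set F)),
        δ ((j Y : ↥(zchClosure (A₀ := A₀) ({u} : Set F))) : F) =
          (b : F) * ((j Y : ↥(zchClosure (A₀ := A₀) ({u} : Set F))) : F))

/-- monotonicity in `D` -/
theorem Rtk6hsThinAt.mono {D D' : Set (F →+* F)} (hD : D' ⊆ D) {u : F}
    {𝔫 : AtPt (F := F) π u} {R : Type*} [CommRing R]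
    {j : R →+* ↥(zchClosure (A₀ := A₀) ({u} : Set F))} {p : R}
    (h : Rtk6hsThinAt D 𝔫 j p) : Rtk6hsThinAt D' 𝔫 j p := by
  rcases h with h | ⟨X, Y, w, hw, hXY, hX, hY, hgen, heig⟩
  · exact Or.inl h
  · exact Or.inr ⟨X, Y, w, hw, hXY, hX, hY, hgen, fun δ hδ => heig δ (hD hδ)⟩

/-- the thin datum from the crossing datum of two components with (EIGEN) in the strong form -/
theorem rtk6hs_thinAt_of_cross (D : Set (F →+* F)) {u : F} {𝔫 : AtPt (F := F) π u}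
    {R : Type*} [CommRing R] {j : R →+* ↥(zchClosure (A₀ := A₀) ({u} : Set F))} {p : R}
    {W₁ W₂ : ValuationSubring F} {X Y w : R} (h : Rtk6ewmCrossAt W₁ W₂ 𝔫 j p X Y w)
    (heig : ∀ δ ∈ D,
      (∃ a : ↥(zchClosure (A₀ := A₀) ({u} : Set F)),
        δ ((j X : ↥(zchClosure (A₀ := A₀) ({u} : Set F))) : F) =
          (a : F) * ((j X : ↥(zchClosure (A₀ := A₀) ({u} : Set F))) : F)) ∧
      (∃ b : ↥(zchClosure (A₀ := A₀) ({u} : Set F)),
        δ ((j Y : ↥(zchClosure (A₀ := A₀) ({u} : Set F))) : F) =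
          (b : F) * ((j Y : ↥(zchClosure (A₀ := A₀) ({u} : Set F))) : F))) :
    Rtk6hsThinAt D 𝔫 j p := by
  obtain ⟨h1, h2, hX, hY, hw, hXY, hgen⟩ := h
  exact Or.inr ⟨X, Y, w, hw, hXY, h1 X hX, h2 Y hY, hgen, heig⟩

/-- every component contains `j X` or `j Y` in its maximal ideal -/
theorem rtk6hs_mem_or_mem {u : F} (W : ValuationSubring F)
    (hBW : ∀ b : F, IsIntegral ↥(Algebra.adjoin A₀ {u}) b → b ∈ W)
    (hπW : algebraMap A₀ F π ∈ W.nonunits)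
    {R : Type*} [CommRing R] (j : R →+* ↥(zchClosure (A₀ := A₀) ({u} : Set F))) (p : R)
    (hram : MgcRamified j (algebraMap A₀ ↥(zchClosure (A₀ := A₀) ({u} : Set F)) π) p)
    {X Y w : R} (hXY : w * p = X * Y) :
    ((j X : ↥(zchClosure (A₀ := A₀) ({u} : Set F))) : F) ∈ W.nonunits ∨
      ((j Y : ↥(zchClosure (A₀ := A₀) ({u} : Set F))) : F) ∈ W.nonunits := by
  have hmem : ∀ b : ↥(zchClosure (A₀ := A₀) ({u} : Set F)), (b : F) ∈ W := fun b =>
    hBW _ (mem_zchClosure.mp b.2)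
  refine rtk6hs_nonunits_or W (hmem _) (hmem _) ?_
  obtain ⟨z, hz⟩ := hram.dvd
  have e : ((j X : ↥(zchClosure (A₀ := A₀) ({u} : Set F))) : F) *
      ((j Y : ↥(zchClosure (A₀ := A₀) ({u} : Set F))) : F) =
      (((j w * z : ↥(zchClosure (A₀ := A₀) ({u} : Set F))) : F)) * algebraMap A₀ F π := by
    have e1 : j X * j Y = (j w * z) * algebraMap A₀ ↥(zchClosure (A₀ := A₀) ({u} : Set F)) π := by
      rw [← map_mul, ← hXY, map_mul, hz]
      ring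
    have e2 := congrArg (fun b : ↥(zchClosure (A₀ := A₀) ({u} : Set F)) => (b : F)) e1
    exact e2
  rw [e]
  exact rtk6hs_mul_mem_nonunits W (hmem _) hπW

/-- **The coordinate of the semantic form of C4+ from the thin datum.**  At a closed point `𝔫`
through which `V c₀` and another component pass, there is `X'` with `δ X' ∈ 𝔪(V c₀)` lying in no
other `𝔪(V c')`, `c'` through `𝔫`. -/
theorem rtk6hs_sem_of_thin (hπ0 : algebraMap A₀ F π ≠ 0) {u : F} [Finite κ]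
    [IsNoetherianRing ↥(zchClosure (A₀ := A₀) ({u} : Set F))]
    (V : κ → ValuationSubring F) (hinj : Function.Injective V)
    (hBV : ∀ c (b : F), IsIntegral ↥(Algebra.adjoin A₀ {u}) b → b ∈ V c)
    (hπV : ∀ c, algebraMap A₀ F π ∈ (V c).nonunits)
    (hSS1 : ∀ b : F, IsIntegral ↥(Algebra.adjoin A₀ {u}) b → (∀ c, b ∈ (V c).nonunits) →
      ∃ b' : F, IsIntegral ↥(Algebra.adjoin A₀ {u}) b' ∧ b = algebraMap A₀ F π * b')
    (harch : ∀ c (a x : F), a ∈ (V c).nonunits → ∃ N : ℕ, a ^ N * x ∈ (V c).nonunits)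
    (hVloc : ∀ c (x : F), x ∈ V c → ∃ b s : F, IsIntegral ↥(Algebra.adjoin A₀ {u}) b ∧
      IsIntegral ↥(Algebra.adjoin A₀ {u}) s ∧ s ∉ (V c).nonunits ∧ s * x = b)
    (D : Set (F →+* F)) (δ : F →+* F) (hδ : δ ∈ D)
    {R : Type*} [CommRing R] (j : R →+* ↥(zchClosure (A₀ := A₀) ({u} : Set F))) (p : R)
    (hram : MgcRamified j (algebraMap A₀ ↥(zchClosure (A₀ := A₀) ({u} : Set F)) π) p)
    (hjp0 : j p ≠ 0)
    (𝔫 : AtPt (F := F) π u) (hthin : Rtk6hsThinAt D 𝔫 j p)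
    (c₀ c : κ) (hc : c ≠ c₀) (h₀ : atThrough 𝔫 (V c₀)) (h₁ : atThrough 𝔫 (V c)) :
    ∃ X' : F, δ X' ∈ (V c₀).nonunits ∧
      ∀ c', c' ≠ c₀ → atThrough 𝔫 (V c') → X' ∉ (V c').nonunits := by
  haveI := 𝔫.2.1.isPrime
  have hnle := rtk6ewm_hinc hπ0 V hinj hπV harch
  rcases hthin with ⟨s, hs, hgen⟩ | ⟨X, Y, w, hw, hXY, hX𝔫, hY𝔫, hgen, heig⟩
  · exact absurd (stb_sx_only V hBV hπV hVloc hnle 𝔫 (j s) hs
      (hram.mgg_locGen_pair 𝔫.2.2 s hgen) c c₀ h₁ h₀) hc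
  · have hor : ∀ c', ((j X : ↥(zchClosure (A₀ := A₀) ({u} : Set F))) : F) ∈ (V c').nonunits ∨
        ((j Y : ↥(zchClosure (A₀ := A₀) ({u} : Set F))) : F) ∈ (V c').nonunits := fun c' =>
      rtk6hs_mem_or_mem (V c') (hBV c') (hπV c') j p hram hXY
    have hgen3 := hram.mgg_locGen_triple 𝔫.2.2 X Y hgen
    obtain ⟨⟨a, ha⟩, ⟨b, hb⟩⟩ := heig δ hδ
    by_cases hP : ∃ c₁, atThrough 𝔫 (V c₁) ∧
        ((j X : ↥(zchClosure (A₀ := A₀) ({u} : Set F))) : F) ∈ (V c₁).nonunits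
    · by_cases hQ : ∃ c₂, atThrough 𝔫 (V c₂) ∧
          ((j Y : ↥(zchClosure (A₀ := A₀) ({u} : Set F))) : F) ∈ (V c₂).nonunits
      · obtain ⟨c₁, hT₁, hX₁⟩ := hP
        obtain ⟨c₂, hT₂, hY₂⟩ := hQ
        have hcr : Rtk6ewmCrossAt (V c₁) (V c₂) 𝔫 j p X Y w :=
          ⟨fun x hx => hT₁ (j x) hx, fun x hx => hT₂ (j x) hx, hX₁, hY₂, hw, hXY, hgen⟩
        have honly := rtk6ewm_cross_only hπ0 V hinj hBV hπV harch hVloc 𝔫 j p hram hcr
        have hX2 := rtk6ewm_cross_not_mem hπ0 V hinj hBV hπV hSS1 harch hVloc 𝔫 j p hram hjp0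
          hcr
        have hY1 := rtk6ewm_cross_not_mem hπ0 V hinj hBV hπV hSS1 harch hVloc 𝔫 j p hram hjp0
          hcr.symm
        rcases honly c₀ h₀ with h0 | h0
        · subst h0
          refine ⟨_, rtk6hs_eigen_of_mul (V c₀) δ hX₁ (hBV _ _ (mem_zchClosure.mp a.2)) ha,
            fun c' hc' hthr' => ?_⟩
          rcases honly c' hthr' with h' | h'
          · exact absurd h' hc'
          · rw [h']
            exact hX2
        · subst h0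
          refine ⟨_, rtk6hs_eigen_of_mul (V c₀) δ hY₂ (hBV _ _ (mem_zchClosure.mp b.2)) hb,
            fun c' hc' hthr' => ?_⟩
          rcases honly c' hthr' with h' | h'
          · rw [h']
            exact hY1
          · exact absurd h' hc'
      · -- no component through `𝔫` contains `j Y`: the point is smooth with parameter `j Y`
        exfalso
        obtain ⟨d, b', hd, hdb⟩ := rtk6ewm_loc_dvd hπ0 V hBV hSS1 𝔫 (j X) (fun c' hc' => by
          rcases hor c' with h | h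
          · exact h
          · exact absurd ⟨c', hc', h⟩ hQ)
        have hgen2 : NodesLocGen 𝔫.1
            {algebraMap A₀ ↥(zchClosure (A₀ := A₀) ({u} : Set F)) π, j Y} :=
          rtk6hs_locGen_drop 𝔫.1 hd hdb hgen3
        exact hc (stb_sx_only V hBV hπV hVloc hnle 𝔫 (j Y) hY𝔫 hgen2 c c₀ h₁ h₀)
    · -- no component through `𝔫` contains `j X`: the point is smooth with parameter `j X`
      exfalso
      obtain ⟨d, b', hd, hdb⟩ := rtk6ewm_loc_dvd hπ0 V hBV hSS1 𝔫 (j Y) (fun c' hc' => by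
        rcases hor c' with h | h
        · exact absurd ⟨c', hc', h⟩ hP
        · exact h)
      have hgen3' : NodesLocGen 𝔫.1
          {algebraMap A₀ ↥(zchClosure (A₀ := A₀) ({u} : Set F)) π, j Y, j X} := by
        have e : ({algebraMap A₀ ↥(zchClosure (A₀ := A₀) ({u} : Set F)) π, j Y, j X} :
            Set ↥(zchClosure (A₀ := A₀) ({u} : Set F))) =
            {algebraMap A₀ ↥(zchClosure (A₀ := A₀) ({u} : Set F)) π, j X, j Y} := by
          rw [Set.pair_comm (j Y) (j X)]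
        rw [e]
        exact hgen3
      have hgen2 : NodesLocGen 𝔫.1
          {algebraMap A₀ ↥(zchClosure (A₀ := A₀) ({u} : Set F)) π, j X} :=
        rtk6hs_locGen_drop 𝔫.1 hd hdb hgen3'
      exact hc (stb_sx_only V hBV hπV hVloc hnle 𝔫 (j X) hX𝔫 hgen2 c c₀ h₁ h₀)

/-- **HSTAB, abstract form, from the thin datum** on the two charts and (FIX) at the closed
points through which two components pass. -/
theorem rtk6hs_stab_thin_abs (hπ : Irreducible π) {t : F} (ht : Transcendental E t)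
    [FiniteDimensional E⟮t⟯ F]
    (hcl : ∀ x : F, IsAlgebraic E x → x ∈ (algebraMap E F).range)
    [Finite κ]
    [IsNoetherianRing ↥(zchClosure (A₀ := A₀) ({t} : Set F))]
    [IsNoetherianRing ↥(zchClosure (A₀ := A₀) ({t⁻¹} : Set F))]
    (V : κ → ValuationSubring F) (hinj : Function.Injective V)
    (hBV₁ : ∀ c (b : F), IsIntegral ↥(Algebra.adjoin A₀ {t}) b → b ∈ V c)
    (hBV₂ : ∀ c (b : F), IsIntegral ↥(Algebra.adjoin A₀ {t⁻¹}) b → b ∈ V c)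
    (hπV : ∀ c, algebraMap A₀ F π ∈ (V c).nonunits)
    (hSS1 : ∀ b : F, IsIntegral ↥(Algebra.adjoin A₀ {t}) b → (∀ c, b ∈ (V c).nonunits) →
      ∃ b' : F, IsIntegral ↥(Algebra.adjoin A₀ {t}) b' ∧ b = algebraMap A₀ F π * b')
    (harch : ∀ c (a x : F), a ∈ (V c).nonunits → ∃ N : ℕ, a ^ N * x ∈ (V c).nonunits)
    (hVloc₁ : ∀ c (x : F), x ∈ V c → ∃ b s : F, IsIntegral ↥(Algebra.adjoin A₀ {t}) b ∧
      IsIntegral ↥(Algebra.adjoin A₀ {t}) s ∧ s ∉ (V c).nonunits ∧ s * x = b)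
    (hVloc₂ : ∀ c (x : F), x ∈ V c → ∃ b s : F, IsIntegral ↥(Algebra.adjoin A₀ {t⁻¹}) b ∧
      IsIntegral ↥(Algebra.adjoin A₀ {t⁻¹}) s ∧ s ∉ (V c).nonunits ∧ s * x = b)
    (D : Set (F →+* F)) (δ : F →+* F) (hδ : δ ∈ D)
    (hδB₁ : ∀ b : F, IsIntegral ↥(Algebra.adjoin A₀ {t}) b →
      IsIntegral ↥(Algebra.adjoin A₀ {t}) (δ b))
    (hδB₂ : ∀ b : F, IsIntegral ↥(Algebra.adjoin A₀ {t⁻¹}) b →
      IsIntegral ↥(Algebra.adjoin A₀ {t⁻¹}) (δ b))
    (c₀ c₁ : κ) (hne : c₁ ≠ c₀) (hperm : ∃ c', V c' = (V c₀).comap δ)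
    {R₁ : Type*} [CommRing R₁] (j₁ : R₁ →+* ↥(zchClosure (A₀ := A₀) ({t} : Set F))) (p₁ : R₁)
    (hram₁ : MgcRamified j₁ (algebraMap A₀ ↥(zchClosure (A₀ := A₀) ({t} : Set F)) π) p₁)
    (hjp₁ : j₁ p₁ ≠ 0)
    {R₂ : Type*} [CommRing R₂] (j₂ : R₂ →+* ↥(zchClosure (A₀ := A₀) ({t⁻¹} : Set F))) (p₂ : R₂)
    (hram₂ : MgcRamified j₂ (algebraMap A₀ ↥(zchClosure (A₀ := A₀) ({t⁻¹} : Set F)) π) p₂)
    (hjp₂ : j₂ p₂ ≠ 0)
    (hthin₁ : ∀ 𝔫 : AtPt (F := F) π t, Rtk6hsThinAt D 𝔫 j₁ p₁)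
    (hthin₂ : ∀ 𝔫 : AtPt (F := F) π t⁻¹, Rtk6hsThinAt D 𝔫 j₂ p₂)
    (hfix₁ : ∀ (𝔫 : AtPt (F := F) π t) (c c' : κ), c ≠ c' → atThrough 𝔫 (V c) →
      atThrough 𝔫 (V c') → Rtk6ewCong δ 1 𝔫)
    (hfix₂ : ∀ (𝔫 : AtPt (F := F) π t⁻¹) (c c' : κ), c ≠ c' → atThrough 𝔫 (V c) →
      atThrough 𝔫 (V c') → Rtk6ewCong δ 1 𝔫) :
    (V c₀).comap δ = V c₀ := by
  have hπ0 : algebraMap A₀ F π ≠ 0 :=
    (map_ne_zero_iff _ (zch_algebraMap_injective (A₀ := A₀) (E := E) (L := F))).mpr hπ.ne_zero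
  refine rtk6hs_stab_sem_abs hπ ht hcl V hinj hBV₁ hBV₂ hπV hSS1 harch hVloc₁ δ hδB₁ hδB₂
    c₀ c₁ hne hperm ?_ ?_
  · intro 𝔫 c hc h₀ h₁
    exact ⟨rtk6hs_fix_of_ewCong δ 𝔫 (hfix₁ 𝔫 c c₀ hc h₁ h₀),
      rtk6hs_sem_of_thin hπ0 V hinj hBV₁ hπV hSS1 harch hVloc₁ D δ hδ j₁ p₁ hram₁ hjp₁ 𝔫
        (hthin₁ 𝔫) c₀ c hc h₀ h₁⟩
  · intro 𝔫 c hc h₀ h₁
    exact ⟨rtk6hs_fix_of_ewCong δ 𝔫 (hfix₂ 𝔫 c c₀ hc h₁ h₀),
      rtk6hs_sem_of_thin hπ0 V hinj hBV₂ hπV (ats_SS1_inv ht hπ V hBV₁ hSS1) harch hVloc₂ D δ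
        hδ j₂ p₂ hram₂ hjp₂ 𝔫 (hthin₂ 𝔫) c₀ c hc h₀ h₁⟩

end Abs

end Fermat.Agent.RT.K6
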