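/-
K-machine, piece K6, piece **HSTAB-inst** (helper11): the provider `hStab` of the glue
`rtk6ei_geomChi_of_pieces` (`RT/K6/EInstGlue.lean`), i.e. `Rtk6m4Stab hπ M H w′`, from

* the THIN datum with (EIGEN) for the diamonds at `q` on the two charts of `F′`
  (`Rtk6hsThin`): a chart `(R, j, p)` with `MgcRamified j π p` (D-BC) on which every closed point
  is a smooth point or a thin crossing point `w p = X Y` with `δ (j X) = a (j X)`,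
  `δ (j Y) = b (j Y)` — NO components are named (no FAM-res, no C4-THR at the level of `F′`);
* (SS1-inst) and (FIX-X) (`Rtk6emCongAt` for the diamonds at `q`) — the SAME providers as in the
  glue.

* `rtk6hsDiam`          : the set of the diamonds at `q`, as ring endomorphisms of `F′`;
* `Rtk6hsThinChart`, `Rtk6hsThin` : the thin datum on a chart / on the two charts;
* `rtk6hs_comap_eq_thin` : `δ⁻¹ V_∞ = V_∞` for ONE `δ ∈ Γ`;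
* **`rtk6hs_stab_thin`** : `Rtk6m4Stab hπ M H w`;
* `rtk6hs_stab_thin_W`  : the instance `w = rtk6diwW`, (M1) and `V_∞ ≠ V_0` discharged;
* **`rtk6hs_hStab_of_pieces`**  : the provider `hStab` in the shape of the glue;
* **`rtk6hs_geomChi_of_pieces`** : `StmtRtk6GeomChi` from (THIN), (SS1-inst), (C4), (FIX-X).
-/
import Fermat.Agent.RT.K6.HStabThinAbs
import Fermat.Agent.RT.K6.HStab
import Fermat.Agent.RT.K6.M4EMain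
import Fermat.Agent.RT.K6.EInstGlue

set_option autoImplicit false
set_option linter.style.haveILetI false
set_option linter.unusedSectionVars false
set_option linter.unusedVariables false

noncomputable section

namespace Fermat.Agent.RT.K6

open ModularCurve AlgebraicCurve Fermat.Agent.ES Fermat.Agent.ES.G2 Fermat.Agent.INJ
open Fermat.Agent.UNIP Fermat.Agent.STB Fermat.Agent.ES1 Fermat.Agent.ES1.G2 IntermediateField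

/-! ### The inputs -/

section Inputs

variable (A : ValuationSubring Qb) (K₁ : IntermediateField ℚ Qb)
  (L M : ℕ) (H : Subgroup (ZMod M)ˣ) [IsDiscreteValuationRing ↥(mgcA A K₁)]

/-- the diamonds at `r`, as ring endomorphisms of `F′` -/
def rtk6hsDiam (r : ℕ) : Set (↥(rtk6diF A K₁ L M H) →+* ↥(rtk6diF A K₁ L M H)) :=
  {φ | ∃ (c : (ZMod M)ˣ)
    (δ : ↥(rtk6diF A K₁ L M H) ≃ₐ[↥(mgcE A K₁)] ↥(rtk6diF A K₁ L M H)),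
    IsAtR M r c ∧ IsDiamondC ↥(mgcE A K₁) L M H c δ ∧ φ = δ.toRingEquiv.toRingHom}

/-- **The thin datum with (EIGEN) on the chart `zchClosure {u}`** for the endomorphisms in `D`:
a chart `R` (`j : R →+* B′_u`, `MgcRamified j π p`, `j p = q₀`) on which every closed point of
the special fibre is a smooth point or a thin crossing point with (EIGEN)
(`Rtk6hsThinAt`, `RT/K6/HStabThinAbs.lean`). -/
def Rtk6hsThinChart (π q₀ : ↥(mgcA A K₁))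
    (D : Set (↥(rtk6diF A K₁ L M H) →+* ↥(rtk6diF A K₁ L M H)))
    (u : ↥(rtk6diF A K₁ L M H)) : Prop :=
  ∃ (R : Type) (_ : CommRing R)
    (j : R →+* ↥(zchClosure (A₀ := ↥(mgcA A K₁)) ({u} : Set ↥(rtk6diF A K₁ L M H)))) (p : R),
    MgcRamified j (algebraMap ↥(mgcA A K₁) ↥(zchClosure (A₀ := ↥(mgcA A K₁))
      ({u} : Set ↥(rtk6diF A K₁ L M H))) π) p ∧
    j p = algebraMap ↥(mgcA A K₁) ↥(zchClosure (A₀ := ↥(mgcA A K₁))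
      ({u} : Set ↥(rtk6diF A K₁ L M H))) q₀ ∧
    ∀ 𝔫 : AtPt (F := ↥(rtk6diF A K₁ L M H)) π u, Rtk6hsThinAt D 𝔫 j p

/-- **The thin datum with (EIGEN)** on the two charts. -/
def Rtk6hsThin (π : ↥(mgcA A K₁))
    (D : Set (↥(rtk6diF A K₁ L M H) →+* ↥(rtk6diF A K₁ L M H))) : Prop :=
  ∃ q₀ : ↥(mgcA A K₁), q₀ ≠ 0 ∧
    Rtk6hsThinChart A K₁ L M H π q₀ D (rtk6diT A K₁ L M H) ∧
    Rtk6hsThinChart A K₁ L M H π q₀ D (rtk6diT A K₁ L M H)⁻¹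

variable {A K₁ L M H}

/-- the thin datum on a chart from the dichotomy (M3) whose crossing data satisfy (EIGEN) -/
theorem rtk6hs_thinChart_of_node {π q₀ : ↥(mgcA A K₁)} {κ : Type}
    {V : κ → ValuationSubring ↥(rtk6diF A K₁ L M H)}
    {D : Set (↥(rtk6diF A K₁ L M H) →+* ↥(rtk6diF A K₁ L M H))} {u : ↥(rtk6diF A K₁ L M H)}
    {R : Type} [CommRing R]
    (j : R →+* ↥(zchClosure (A₀ := ↥(mgcA A K₁)) ({u} : Set ↥(rtk6diF A K₁ L M H)))) (p : R)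
    (hram : MgcRamified j (algebraMap ↥(mgcA A K₁) ↥(zchClosure (A₀ := ↥(mgcA A K₁))
      ({u} : Set ↥(rtk6diF A K₁ L M H))) π) p)
    (hjp : j p = algebraMap ↥(mgcA A K₁) ↥(zchClosure (A₀ := ↥(mgcA A K₁))
      ({u} : Set ↥(rtk6diF A K₁ L M H))) q₀)
    (hnode : ∀ 𝔫 : AtPt (F := ↥(rtk6diF A K₁ L M H)) π u,
      (∃ s : R, j s ∈ 𝔫.1 ∧ NodesLocGen (𝔫.1.comap j) {p, s}) ∨
      ∃ (c₁ c₂ : κ) (X Y w : R), Rtk6ewmCrossAt (V c₁) (V c₂) 𝔫 j p X Y w ∧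
        ∀ δ ∈ D,
          (∃ a : ↥(zchClosure (A₀ := ↥(mgcA A K₁)) ({u} : Set ↥(rtk6diF A K₁ L M H))),
            δ ((j X : ↥(zchClosure (A₀ := ↥(mgcA A K₁))
              ({u} : Set ↥(rtk6diF A K₁ L M H)))) : ↥(rtk6diF A K₁ L M H)) =
              (a : ↥(rtk6diF A K₁ L M H)) * ((j X : ↥(zchClosure (A₀ := ↥(mgcA A K₁))
                ({u} : Set ↥(rtk6diF A K₁ L M H)))) : ↥(rtk6diF A K₁ L M H))) ∧
          (∃ b : ↥(zchClosure (A₀ := ↥(mgcA A K₁)) ({u} : Set ↥(rtk6diF A K₁ L M H))),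
            δ ((j Y : ↥(zchClosure (A₀ := ↥(mgcA A K₁))
              ({u} : Set ↥(rtk6diF A K₁ L M H)))) : ↥(rtk6diF A K₁ L M H)) =
              (b : ↥(rtk6diF A K₁ L M H)) * ((j Y : ↥(zchClosure (A₀ := ↥(mgcA A K₁))
                ({u} : Set ↥(rtk6diF A K₁ L M H)))) : ↥(rtk6diF A K₁ L M H)))) :
    Rtk6hsThinChart A K₁ L M H π q₀ D u ∧ Rtk6emChartAt A K₁ L M H π q₀ V u := by
  refine ⟨⟨R, _, j, p, hram, hjp, fun 𝔫 => ?_⟩, ⟨R, _, j, p, hram, hjp, fun 𝔫 => ?_⟩⟩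
  · rcases hnode 𝔫 with h | ⟨c₁, c₂, X, Y, w, hcr, heig⟩
    · exact Or.inl h
    · exact rtk6hs_thinAt_of_cross D hcr heig
  · rcases hnode 𝔫 with h | ⟨c₁, c₂, X, Y, w, hcr, heig⟩
    · exact Or.inl h
    · exact Or.inr ⟨c₁, c₂, X, Y, w, hcr⟩

end Inputs

/-! ### The theorem -/

section Main

variable {A : ValuationSubring Qb} {K₁ : IntermediateField ℚ Qb}
  [IsDiscreteValuationRing ↥(mgcA A K₁)] {π : ↥(mgcA A K₁)} (hπ : Irreducible π)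
  {q M₁ : ℕ} [NeZero q] [NeZero M₁] [NeZero (M₁ * q)]
  {M : ℕ} {H : Subgroup (ZMod M)ˣ}
  {w : ↥(rtk6diF A K₁ (M₁ * q) M H) ≃ₐ[↥(mgcE A K₁)] ↥(rtk6diF A K₁ (M₁ * q) M H)}

set_option maxHeartbeats 1600000 in
/-- **`δ⁻¹ V_∞ = V_∞` for ONE `δ ∈ Γ`**, from the thin datum with (EIGEN) for `δ` and (FIX-X)
for `δ`. -/
theorem rtk6hs_comap_eq_thin (hML : M ∣ M₁ * q)
    (fam : Rtk6emFam A K₁ (M₁ * q) M H π (rtk6dfV hπ M H w))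
    (ss1 : Rtk6emSS1 A K₁ (M₁ * q) M H π (rtk6dfV hπ M H w))
    (hne : rtk6dvV hπ M H w true ≠ rtk6dvV hπ M H w false)
    {δ : ↥(rtk6diF A K₁ (M₁ * q) M H) ≃ₐ[↥(mgcE A K₁)] ↥(rtk6diF A K₁ (M₁ * q) M H)}
    (hδ : δ ∈ rtk6dfGam ↥(mgcE A K₁) (M₁ * q) M H)
    (D : Set (↥(rtk6diF A K₁ (M₁ * q) M H) →+* ↥(rtk6diF A K₁ (M₁ * q) M H)))
    (hδD : δ.toRingEquiv.toRingHom ∈ D)
    (hthin : Rtk6hsThin A K₁ (M₁ * q) M H π D)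
    (hcong₁ : Rtk6emCongAt A K₁ (M₁ * q) M H π (rtk6dfV hπ M H w)
      (SemilinearAut.ofAlgAut δ) (rtk6diT A K₁ (M₁ * q) M H))
    (hcong₂ : Rtk6emCongAt A K₁ (M₁ * q) M H π (rtk6dfV hπ M H w)
      (SemilinearAut.ofAlgAut δ) (rtk6diT A K₁ (M₁ * q) M H)⁻¹) :
    (rtk6dvV hπ M H w true).comap δ.toRingEquiv.toRingHom = rtk6dvV hπ M H w true := by
  haveI := rtk6di_finiteDimensional A K₁ (M₁ * q) M H (NeZero.ne (M₁ * q)) hML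
  haveI : Finite (rtk6dfK hπ M H w) := fam.hfin
  have ht := rtk6di_transcendental A K₁ (M₁ * q) M H
  have ht' : Transcendental ↥(mgcE A K₁) (rtk6diT A K₁ (M₁ * q) M H)⁻¹ :=
    zch_transcendental_inv ht
  haveI : FiniteDimensional (↥(mgcE A K₁))⟮(rtk6diT A K₁ (M₁ * q) M H)⁻¹⟯
      ↥(rtk6diF A K₁ (M₁ * q) M H) :=
    at_finiteDimensional_inv (rtk6diT A K₁ (M₁ * q) M H)
  haveI : IsNoetherianRing ↥(zchClosure (A₀ := ↥(mgcA A K₁))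
      ({rtk6diT A K₁ (M₁ * q) M H} : Set ↥(rtk6diF A K₁ (M₁ * q) M H))) :=
    chart_closure_isNoetherianRing (A₀ := ↥(mgcA A K₁)) (E := ↥(mgcE A K₁)) ht
  haveI : IsNoetherianRing ↥(zchClosure (A₀ := ↥(mgcA A K₁))
      ({(rtk6diT A K₁ (M₁ * q) M H)⁻¹} : Set ↥(rtk6diF A K₁ (M₁ * q) M H))) :=
    chart_closure_isNoetherianRing (A₀ := ↥(mgcA A K₁)) (E := ↥(mgcE A K₁)) ht'
  obtain ⟨q₀, hq0, ⟨R₁, _, j₁, p₁, hram₁, hjp₁, hthin₁⟩,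
    ⟨R₂, _, j₂, p₂, hram₂, hjp₂, hthin₂⟩⟩ := hthin
  exact rtk6hs_stab_thin_abs hπ ht (rtk6di_hcl A K₁ (M₁ * q) M H) (rtk6dfV hπ M H w)
    fam.hinj fam.hBV₁ fam.hBV₂ fam.hπV ss1 fam.harch fam.hVloc₁ fam.hVloc₂
    D δ.toRingEquiv.toRingHom hδD (fun b hb => rtk6hs_gam_isIntegral hδ hb)
    (fun b hb => rtk6hs_gam_isIntegral_inv hδ hb)
    (rtk6dfInf hπ M H w) (rtk6dfZero hπ M H w) (rtk6hs_zero_ne_inf hπ hne)
    ⟨rtk6dfComap (rtk6dvV hπ M H w) δ hδ (rtk6dfInf hπ M H w), rfl⟩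
    j₁ p₁ hram₁ (rtk6ewm_jp_ne_zero (E := ↥(mgcE A K₁)) hπ q₀ hq0 j₁ p₁ hjp₁)
    j₂ p₂ hram₂ (rtk6ewm_jp_ne_zero (E := ↥(mgcE A K₁)) hπ q₀ hq0 j₂ p₂ hjp₂)
    hthin₁ hthin₂
    (fun 𝔫 c c' hcc' hc hc' b => hcong₁ 𝔫 c c' hcc' hc hc' b)
    (fun 𝔫 c c' hcc' hc hc' b => hcong₂ 𝔫 c c' hcc' hc hc' b)

/-- **HSTAB from the thin datum.**  `Rtk6m4Stab`: every diamond at `q` maps `V_∞` into `V_∞`,
from (M1), (SS1-inst), `V_∞ ≠ V_0`, the thin datum with (EIGEN) for the diamonds at `q` and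
(FIX-X) for the diamonds at `q`. -/
theorem rtk6hs_stab_thin (hML : M ∣ M₁ * q)
    (fam : Rtk6emFam A K₁ (M₁ * q) M H π (rtk6dfV hπ M H w))
    (ss1 : Rtk6emSS1 A K₁ (M₁ * q) M H π (rtk6dfV hπ M H w))
    (hne : rtk6dvV hπ M H w true ≠ rtk6dvV hπ M H w false)
    (hthin : Rtk6hsThin A K₁ (M₁ * q) M H π (rtk6hsDiam A K₁ (M₁ * q) M H q))
    (hcong : ∀ c : (ZMod M)ˣ, IsAtR M q c →
      ∀ δ : ↥(rtk6diF A K₁ (M₁ * q) M H) ≃ₐ[↥(mgcE A K₁)] ↥(rtk6diF A K₁ (M₁ * q) M H),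
        IsDiamondC ↥(mgcE A K₁) (M₁ * q) M H c δ →
        Rtk6emCongAt A K₁ (M₁ * q) M H π (rtk6dfV hπ M H w)
          (SemilinearAut.ofAlgAut δ) (rtk6diT A K₁ (M₁ * q) M H) ∧
        Rtk6emCongAt A K₁ (M₁ * q) M H π (rtk6dfV hπ M H w)
          (SemilinearAut.ofAlgAut δ) (rtk6diT A K₁ (M₁ * q) M H)⁻¹) :
    Rtk6m4Stab hπ M H w := by
  intro c hc δ hδ x hx
  have key := rtk6hs_comap_eq_thin hπ hML fam ss1 hne hδ.mem_gam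
    (rtk6hsDiam A K₁ (M₁ * q) M H q) ⟨c, δ, hc, hδ, rfl⟩ hthin (hcong c hc δ hδ).1
    (hcong c hc δ hδ).2
  have hx' : x ∈ (rtk6dvV hπ M H w true).comap δ.toRingEquiv.toRingHom := by
    rw [key]
    exact hx
  exact hx'

end Main

/-! ### The instance `w = rtk6diwW` -/

section Inst

variable {A : ValuationSubring Qb} {K₁ : IntermediateField ℚ Qb}
  [IsDiscreteValuationRing ↥(mgcA A K₁)] {π : ↥(mgcA A K₁)} (hπ : Irreducible π)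
  {q M₁ : ℕ} [NeZero q] [NeZero M₁] [NeZero (M₁ * q)]
  {M : ℕ} {H : Subgroup (ZMod M)ˣ}
  (w₀ : fieldBar (M₁ * q) M H ≃ₐ[Qb] fieldBar (M₁ * q) M H) (hw₀ : IsWAt (M₁ * q) M H q w₀)
  (hM0 : M ≠ 0) (hq : q.Prime) (hqM' : q ∣ M)
  (hζ : ∀ ζ : Qb, ζ ^ q = 1 → ζ ∈ mgcE A K₁)

/-- **HSTAB at `w = rtk6diwW`** from (SS1-inst), the thin datum with (EIGEN) and (FIX-X). -/
theorem rtk6hs_stab_thin_W (hqM : ¬ q ∣ M₁) (hA : A.LiesOverPrime q) (hML : M ∣ M₁ * q)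
    (ss1 : Rtk6emSS1 A K₁ (M₁ * q) M H π
      (rtk6dfV hπ M H (rtk6diwW (K₀ := mgcE A K₁) w₀ hw₀ hM0 hq hqM' hζ)))
    (hthin : Rtk6hsThin A K₁ (M₁ * q) M H π (rtk6hsDiam A K₁ (M₁ * q) M H q))
    (hcong : ∀ c : (ZMod M)ˣ, IsAtR M q c →
      ∀ δ : ↥(rtk6diF A K₁ (M₁ * q) M H) ≃ₐ[↥(mgcE A K₁)] ↥(rtk6diF A K₁ (M₁ * q) M H),
        IsDiamondC ↥(mgcE A K₁) (M₁ * q) M H c δ →
        Rtk6emCongAt A K₁ (M₁ * q) M H π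
          (rtk6dfV hπ M H (rtk6diwW (K₀ := mgcE A K₁) w₀ hw₀ hM0 hq hqM' hζ))
          (SemilinearAut.ofAlgAut δ) (rtk6diT A K₁ (M₁ * q) M H) ∧
        Rtk6emCongAt A K₁ (M₁ * q) M H π
          (rtk6dfV hπ M H (rtk6diwW (K₀ := mgcE A K₁) w₀ hw₀ hM0 hq hqM' hζ))
          (SemilinearAut.ofAlgAut δ) (rtk6diT A K₁ (M₁ * q) M H)⁻¹) :
    Rtk6m4Stab hπ M H (rtk6diwW (K₀ := mgcE A K₁) w₀ hw₀ hM0 hq hqM' hζ) :=
  rtk6hs_stab_thin hπ hML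
    (rtk6m1_emFam_W hπ (mgdIota (mgcE A K₁)) w₀ hw₀ hM0 hq hqM' hqM hζ hA hML) ss1
    (rtk6dv_hne hπ (mgdIota (mgcE A K₁)) hq hqM M H _
      (rtk6m1_wIncl (mgdIota (mgcE A K₁)) w₀ hw₀ hM0 hq hqM' hqM hζ) hA)
    hthin hcong

end Inst

/-! ### The provider of the glue -/

/-- **The provider `hStab` of `rtk6ei_geomChi_of_pieces`** from (THIN), (SS1-inst), (FIX-X). -/
theorem rtk6hs_hStab_of_pieces
    (hThin : ∀ (q M₁ : ℕ) [NeZero q] [NeZero M₁] [NeZero (M₁ * q)] (M : ℕ)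
      (H : Subgroup (ZMod M)ˣ) (hq : q.Prime) (hqM' : q ∣ M) (hM0 : M ≠ 0), ¬ q ∣ M₁ →
      M ∣ M₁ * q → IsStarStable M q H → IsTameAt (M₁ * q) M q H → 4 ∣ M₁ * q →
      ∀ (A : ValuationSubring Qb), A.LiesOverPrime q →
        Rtk6eiEv q A (fun K₁ _ hζ π hπ =>
          Rtk6hsThin A K₁ (M₁ * q) M H π (rtk6hsDiam A K₁ (M₁ * q) M H q)))
    (hSS1 : ∀ (q M₁ : ℕ) [NeZero q] [NeZero M₁] [NeZero (M₁ * q)] (M : ℕ)
      (H : Subgroup (ZMod M)ˣ) (hq : q.Prime) (hqM' : q ∣ M) (hM0 : M ≠ 0), ¬ q ∣ M₁ →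
      M ∣ M₁ * q → IsStarStable M q H → IsTameAt (M₁ * q) M q H → 4 ∣ M₁ * q →
      ∀ (w₀ : fieldBar (M₁ * q) M H ≃ₐ[Qb] fieldBar (M₁ * q) M H)
        (hw₀ : IsWAt (M₁ * q) M H q w₀) (A : ValuationSubring Qb), A.LiesOverPrime q →
        Rtk6eiEv q A (fun K₁ _ hζ π hπ => Rtk6emSS1 A K₁ (M₁ * q) M H π
          (rtk6dfV hπ M H (rtk6diwW (K₀ := mgcE A K₁) w₀ hw₀ hM0 hq hqM' hζ))))
    (hFix : ∀ (q M₁ : ℕ) [NeZero q] [NeZero M₁] [NeZero (M₁ * q)] (M : ℕ)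
      (H : Subgroup (ZMod M)ˣ) (hq : q.Prime) (hqM' : q ∣ M) (hM0 : M ≠ 0), ¬ q ∣ M₁ →
      M ∣ M₁ * q → IsStarStable M q H → IsTameAt (M₁ * q) M q H → 4 ∣ M₁ * q →
      ∀ (w₀ : fieldBar (M₁ * q) M H ≃ₐ[Qb] fieldBar (M₁ * q) M H)
        (hw₀ : IsWAt (M₁ * q) M H q w₀) (A : ValuationSubring Qb), A.LiesOverPrime q →
        Rtk6eiEv q A (fun K₁ _ hζ π hπ =>
          ∀ σ ∈ A.inertiaSubgroupIn ℚ, ∀ (hσE : ∀ x ∈ mgcE A K₁, σ x ∈ mgcE A K₁)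
            (c' : (ZMod M)ˣ), IsAtR M q c' →
            ∀ δ₀' : ↥(rtk6diF A K₁ (M₁ * q) M H) ≃ₐ[↥(mgcE A K₁)]
                ↥(rtk6diF A K₁ (M₁ * q) M H),
              IsDiamondC ↥(mgcE A K₁) (M₁ * q) M H c' δ₀' →
              ∀ u : ↥(rtk6diF A K₁ (M₁ * q) M H),
                (u = rtk6diT A K₁ (M₁ * q) M H ∨ u = (rtk6diT A K₁ (M₁ * q) M H)⁻¹) →
                Rtk6emFixAt A K₁ (M₁ * q) M H π
                  (rtk6dfV hπ M H (rtk6diwW (K₀ := mgcE A K₁) w₀ hw₀ hM0 hq hqM' hζ))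
                  (rtk6diGal (M₁ * q) M H σ hσE) u ∧
                Rtk6emCongAt A K₁ (M₁ * q) M H π
                  (rtk6dfV hπ M H (rtk6diwW (K₀ := mgcE A K₁) w₀ hw₀ hM0 hq hqM' hζ))
                  (SemilinearAut.ofAlgAut δ₀') u)) :
    ∀ (q M₁ : ℕ) [NeZero q] [NeZero M₁] [NeZero (M₁ * q)] (M : ℕ)
      (H : Subgroup (ZMod M)ˣ) (hq : q.Prime) (hqM' : q ∣ M) (hM0 : M ≠ 0), ¬ q ∣ M₁ →
      M ∣ M₁ * q → IsStarStable M q H → IsTameAt (M₁ * q) M q H → 4 ∣ M₁ * q →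
      ∀ (w₀ : fieldBar (M₁ * q) M H ≃ₐ[Qb] fieldBar (M₁ * q) M H)
        (hw₀ : IsWAt (M₁ * q) M H q w₀) (A : ValuationSubring Qb), A.LiesOverPrime q →
        Rtk6eiEv q A (fun K₁ _ hζ π hπ =>
          Rtk6m4Stab hπ M H (rtk6diwW (K₀ := mgcE A K₁) w₀ hw₀ hM0 hq hqM' hζ)) := by
  intro q M₁ _ _ _ M H hq hqM' hM0 hqM hML hstar htame h4 w₀ hw₀ A hA
  have h0 := hThin q M₁ M H hq hqM' hM0 hqM hML hstar htame h4 A hA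
  have h1 := hSS1 q M₁ M H hq hqM' hM0 hqM hML hstar htame h4 w₀ hw₀ A hA
  have h3 := hFix q M₁ M H hq hqM' hM0 hqM hML hstar htame h4 w₀ hw₀ A hA
  obtain ⟨K₀, hfin, hK₀⟩ := (h0.and h1).and h3
  refine ⟨K₀, hfin, fun K₁ _ _ _ hK hζ π hπ => ?_⟩
  obtain ⟨⟨hthin, hss1⟩, hfix⟩ := hK₀ K₁ hK hζ hπ
  refine rtk6hs_stab_thin_W hπ w₀ hw₀ hM0 hq hqM' hζ hqM hA hML hss1 hthin
    fun c hc δ hδ => ?_
  have hone : (1 : Qb ≃ₐ[ℚ] Qb) ∈ A.inertiaSubgroupIn ℚ := Subgroup.one_mem _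
  have hσE : ∀ x ∈ mgcE A K₁, (1 : Qb ≃ₐ[ℚ] Qb) x ∈ mgcE A K₁ := fun x hx => hx
  exact ⟨(hfix 1 hone hσE c hc δ hδ _ (Or.inl rfl)).2,
    (hfix 1 hone hσE c hc δ hδ _ (Or.inr rfl)).2⟩

/-- **`StmtRtk6GeomChi` from (THIN), (SS1-inst), (C4), (FIX-X)**: the glue
`rtk6ei_geomChi_of_pieces` with (HSTAB) discharged. -/
theorem rtk6hs_geomChi_of_pieces
    (hThin : ∀ (q M₁ : ℕ) [NeZero q] [NeZero M₁] [NeZero (M₁ * q)] (M : ℕ)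
      (H : Subgroup (ZMod M)ˣ) (hq : q.Prime) (hqM' : q ∣ M) (hM0 : M ≠ 0), ¬ q ∣ M₁ →
      M ∣ M₁ * q → IsStarStable M q H → IsTameAt (M₁ * q) M q H → 4 ∣ M₁ * q →
      ∀ (A : ValuationSubring Qb), A.LiesOverPrime q →
        Rtk6eiEv q A (fun K₁ _ hζ π hπ =>
          Rtk6hsThin A K₁ (M₁ * q) M H π (rtk6hsDiam A K₁ (M₁ * q) M H q)))
    (hSS1 : ∀ (q M₁ : ℕ) [NeZero q] [NeZero M₁] [NeZero (M₁ * q)] (M : ℕ)
      (H : Subgroup (ZMod M)ˣ) (hq : q.Prime) (hqM' : q ∣ M) (hM0 : M ≠ 0), ¬ q ∣ M₁ →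
      M ∣ M₁ * q → IsStarStable M q H → IsTameAt (M₁ * q) M q H → 4 ∣ M₁ * q →
      ∀ (w₀ : fieldBar (M₁ * q) M H ≃ₐ[Qb] fieldBar (M₁ * q) M H)
        (hw₀ : IsWAt (M₁ * q) M H q w₀) (A : ValuationSubring Qb), A.LiesOverPrime q →
        Rtk6eiEv q A (fun K₁ _ hζ π hπ => Rtk6emSS1 A K₁ (M₁ * q) M H π
          (rtk6dfV hπ M H (rtk6diwW (K₀ := mgcE A K₁) w₀ hw₀ hM0 hq hqM' hζ))))
    (hNode : ∀ (q M₁ : ℕ) [NeZero q] [NeZero M₁] [NeZero (M₁ * q)] (M : ℕ)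
      (H : Subgroup (ZMod M)ˣ) (hq : q.Prime) (hqM' : q ∣ M) (hM0 : M ≠ 0), ¬ q ∣ M₁ →
      M ∣ M₁ * q → IsStarStable M q H → IsTameAt (M₁ * q) M q H → 4 ∣ M₁ * q →
      ∀ (w₀ : fieldBar (M₁ * q) M H ≃ₐ[Qb] fieldBar (M₁ * q) M H)
        (hw₀ : IsWAt (M₁ * q) M H q w₀) (A : ValuationSubring Qb), A.LiesOverPrime q →
        Rtk6eiEv q A (fun K₁ _ hζ π hπ => Rtk6emNode A K₁ (M₁ * q) M H π
          (rtk6dfV hπ M H (rtk6diwW (K₀ := mgcE A K₁) w₀ hw₀ hM0 hq hqM' hζ))))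
    (hFix : ∀ (q M₁ : ℕ) [NeZero q] [NeZero M₁] [NeZero (M₁ * q)] (M : ℕ)
      (H : Subgroup (ZMod M)ˣ) (hq : q.Prime) (hqM' : q ∣ M) (hM0 : M ≠ 0), ¬ q ∣ M₁ →
      M ∣ M₁ * q → IsStarStable M q H → IsTameAt (M₁ * q) M q H → 4 ∣ M₁ * q →
      ∀ (w₀ : fieldBar (M₁ * q) M H ≃ₐ[Qb] fieldBar (M₁ * q) M H)
        (hw₀ : IsWAt (M₁ * q) M H q w₀) (A : ValuationSubring Qb), A.LiesOverPrime q →
        Rtk6eiEv q A (fun K₁ _ hζ π hπ =>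
          ∀ σ ∈ A.inertiaSubgroupIn ℚ, ∀ (hσE : ∀ x ∈ mgcE A K₁, σ x ∈ mgcE A K₁)
            (c' : (ZMod M)ˣ), IsAtR M q c' →
            ∀ δ₀' : ↥(rtk6diF A K₁ (M₁ * q) M H) ≃ₐ[↥(mgcE A K₁)]
                ↥(rtk6diF A K₁ (M₁ * q) M H),
              IsDiamondC ↥(mgcE A K₁) (M₁ * q) M H c' δ₀' →
              ∀ u : ↥(rtk6diF A K₁ (M₁ * q) M H),
                (u = rtk6diT A K₁ (M₁ * q) M H ∨ u = (rtk6diT A K₁ (M₁ * q) M H)⁻¹) →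
                Rtk6emFixAt A K₁ (M₁ * q) M H π
                  (rtk6dfV hπ M H (rtk6diwW (K₀ := mgcE A K₁) w₀ hw₀ hM0 hq hqM' hζ))
                  (rtk6diGal (M₁ * q) M H σ hσE) u ∧
                Rtk6emCongAt A K₁ (M₁ * q) M H π
                  (rtk6dfV hπ M H (rtk6diwW (K₀ := mgcE A K₁) w₀ hw₀ hM0 hq hqM' hζ))
                  (SemilinearAut.ofAlgAut δ₀') u)) :
    StmtRtk6GeomChi :=
  rtk6ei_geomChi_of_pieces (rtk6hs_hStab_of_pieces hThin hSS1 hFix) hSS1 hNode hFix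

end Fermat.Agent.RT.K6
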