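/-
K-machine, piece K6, piece **C4-χ-inst (B)** (helper76), part 2: the providers **`hThin`**
(`rtk6hs_hStab_of_pieces`, `RT/K6/HStabThin.lean`, helper11) AND **`hNode`**
(`rtk6ei_geomChi_of_pieces`) from ONE open input, the dichotomy WITH C4+ (`Rtk6c4aPlusAt`,
`RT/K6/C4Asm.lean`, helper94) for the diamonds at `q` at ONE thin level `K₁′`.

The crossing data `X`, `Y`, `w` of the thin level are kept (`R := zchClosure {t₁^{±1}}` over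
`A₁`, `j :=` the (D-BC) map, `p := ϖ₁`); (EIGEN) for a diamond `δ` at `q` of `F′` follows from
(EIGEN) for the diamond `δ₁` of `F₁` of the same class (`rtk6frf_diamond`: `δ ∘ ι = ι ∘ δ₁`):
`δ (j X) = (j a′) (j X)`.

* `rtk6cxbDiam`       : the diamonds at `r`, as semilinear automorphisms of `F₁`;
* `rtk6cxb_thinAt`    : (abstract) `Rtk6c4aPlusAt V₁ 𝒢 (𝔫 ∩ R₁) → Rtk6hsThinAt D 𝔫 j ϖ₁`;
* `rtk6cxb_diam_lift` : every diamond at `r` of `F′` restricts to a diamond at `r` of `F₁`;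
* `rtk6cxb_hsThin_E`  : `Rtk6hsThin A K₁ … π (rtk6hsDiam …)` at `K₁ ⊇ K₁′`;
* `Rtk6cxbThinPlus`   : **the open input** (C4-χ-ASM at ONE thin level, with C4+ for the diamonds
                        at `q`); `Rtk6cxbThinPlus.thin : Rtk6cxbThin A w₀`;
* `rtk6cxb_hThin`     : **the provider `hThin`** of `rtk6hs_hStab_of_pieces` /
                        `rtk6hs_geomChi_of_pieces` (`w₀` from piece B, `stmtB`);
* `rtk6cxb_hNode_plus` : the provider `hNode` from the same input;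
* `rtk6cxb_hSS1`      : the provider `hSS1` of the case (χ) from the generic (SS1-inst);
* **`rtk6cxb_geomChi`** : `StmtRtk6GeomChi` from the generic (SS1-inst), the open input and the
                        provider `hFix` (FIX-X).
-/
import Fermat.Agent.RT.K6.C4ChiInstB
import Fermat.Agent.RT.K6.C4Asm
import Fermat.Agent.RT.K6.HStabThin
import Fermat.Agent.RT.K6.BFinal

set_option autoImplicit false
set_option linter.style.haveILetI false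
set_option linter.unusedSectionVars false
set_option linter.unusedVariables false
set_option linter.style.longLine false

noncomputable section

namespace Fermat.Agent.RT.K6

open ModularCurve AlgebraicCurve Fermat.Agent.ES Fermat.Agent.ES.G2 Fermat.Agent.INJ
open Fermat.Agent.UNIP Fermat.Agent.STB Fermat.Agent.ES1 Fermat.Agent.ES1.G2 IntermediateField

/-! ### Abstract transfer of the thin datum with (EIGEN) -/

section Transfer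

universe v

variable {A₁ E₁ : Type*} {F₁ : Type v} [CommRing A₁] [IsDomain A₁] [IsDiscreteValuationRing A₁]
  [Field E₁] [Algebra A₁ E₁] [IsFractionRing A₁ E₁] [CharZero E₁]
  [Field F₁] [Algebra E₁ F₁] [Algebra A₁ F₁] [IsScalarTower A₁ E₁ F₁]
  {A' E' F' : Type*} [CommRing A'] [IsDomain A'] [IsDiscreteValuationRing A']
  [Field E'] [Algebra A' E'] [IsFractionRing A' E'] [CharZero E']
  [Field F'] [Algebra E' F'] [Algebra A' F'] [IsScalarTower A' E' F']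
  {ϖ₁ : A₁} {π : A'} {u₁ : F₁} {u : F'}
  {κ₁ : Type*} (V₁ : κ₁ → ValuationSubring F₁)
  (ι : F₁ →+* F')
  (j : ↥(zchClosure (A₀ := A₁) ({u₁} : Set F₁)) →+* ↥(zchClosure (A₀ := A') ({u} : Set F')))

/-- **transfer of the thin datum with (EIGEN)** from the chart `R₁` (over `A₁`, dichotomy with
C4+ for `𝒢`) to `(B′, j)`, for a set `D` of endomorphisms of `F′` each of which restricts along
`ι` to an element of `𝒢`. -/
theorem rtk6cxb_thinAt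
    (hj : ∀ b, ((j b : ↥(zchClosure (A₀ := A') ({u} : Set F'))) : F') = ι (b : F₁))
    (hram : MgcRamified j (algebraMap A' ↥(zchClosure (A₀ := A') ({u} : Set F')) π)
      (algebraMap A₁ ↥(zchClosure (A₀ := A₁) ({u₁} : Set F₁)) ϖ₁))
    (𝒢 : Set (SemilinearAut E₁ F₁)) (D : Set (F' →+* F'))
    (hD : ∀ δ ∈ D, ∃ g ∈ 𝒢, ∀ x : F₁, δ (ι x) = ι (g • x))
    (𝔫 : AtPt (F := F') π u)
    (h : Rtk6c4aPlusAt V₁ 𝒢 (rtk6c4bPt j hram 𝔫)) :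
    Rtk6hsThinAt D 𝔫 j (algebraMap A₁ ↥(zchClosure (A₀ := A₁) ({u₁} : Set F₁)) ϖ₁) := by
  rcases h with ⟨s, hs, hgen⟩ | ⟨c₁, c₂, X, Y, w, ⟨h1, h2, hX, hY, hw, hwp, hgen⟩, hg⟩
  · exact Or.inl ⟨s, hs, hgen⟩
  · refine Or.inr ⟨X, Y, w, hw, hwp, h1 X hX, h2 Y hY, hgen, fun δ hδ => ?_⟩
    obtain ⟨g, hg𝒢, hgι⟩ := hD δ hδ
    obtain ⟨-, -, a', b', -, -, hgX, hgY⟩ := hg g hg𝒢
    refine ⟨⟨j a', ?_⟩, ⟨j b', ?_⟩⟩
    · rw [hj X, hgι, hgX, map_mul, hj a']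
    · rw [hj Y, hgι, hgY, map_mul, hj b']

end Transfer

/-! ### The diamonds at `r` -/

section Diam

variable (A : ValuationSubring Qb) (K₁ : IntermediateField ℚ Qb)
  (L M : ℕ) (H : Subgroup (ZMod M)ˣ)

/-- the diamonds at `r`, as semilinear automorphisms of `F₁` -/
def rtk6cxbDiam (r : ℕ) : Set (SemilinearAut ↥(mgcE A K₁) ↥(rtk6diF A K₁ L M H)) :=
  {g | ∃ (c : (ZMod M)ˣ)
    (δ : ↥(rtk6diF A K₁ L M H) ≃ₐ[↥(mgcE A K₁)] ↥(rtk6diF A K₁ L M H)),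
    IsAtR M r c ∧ IsDiamondC ↥(mgcE A K₁) L M H c δ ∧ g = SemilinearAut.ofAlgAut δ}

variable {A} {K₁' : IntermediateField ℚ Qb} {K₁ L M H}

/-- **every diamond at `r` of `F′` restricts to a diamond at `r` of `F₁`** -/
theorem rtk6cxb_diam_lift (h : K₁' ≤ K₁) (hL : L ≠ 0) (hML : M ∣ L) (r : ℕ)
    [IsDiscreteValuationRing ↥(mgcA A K₁)] :
    ∀ δ ∈ rtk6hsDiam A K₁ L M H r, ∃ g ∈ rtk6cxbDiam A K₁' L M H r,
      ∀ x : ↥(rtk6diF A K₁' L M H),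
        δ (rtk6dbcIncl (A := A) L M H h x) = rtk6dbcIncl (A := A) L M H h (g • x) := by
  rintro δ ⟨c, δ', hc, hδ', rfl⟩
  haveI : Algebra.IsAlgebraic ℚ Qb := AlgebraicClosure.isAlgebraic ℚ
  haveI : Algebra.IsAlgebraic ℚ ↥(mgcE A K₁') :=
    Algebra.IsAlgebraic.of_injective (mgcE A K₁').val Subtype.val_injective
  haveI : NeZero M := ⟨fun h0 => hL (Nat.eq_zero_of_zero_dvd (h0 ▸ hML))⟩
  obtain ⟨δ₁, hδ₁⟩ := rtk6d0_exists_diamond ↥(mgcE A K₁') H hL hML c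
  refine ⟨SemilinearAut.ofAlgAut δ₁, ⟨c, δ₁, hc, hδ₁, rfl⟩, fun x => ?_⟩
  exact rtk6frf_diamond L M H
    (IntermediateField.inclusion (rtk6eb_mgcE_mono (A := A) h)).toRingHom (fun _ => rfl)
    hL hML hδ₁ hδ' x

end Diam

/-! ### `Rtk6hsThin` at `K₁` from the thin level -/

section Thin

variable {A : ValuationSubring Qb} {K₁' K₁ : IntermediateField ℚ Qb}
  [NumberField ↥K₁'] [IsGalois ℚ ↥K₁'] [NumberField ↥K₁] [IsGalois ℚ ↥K₁]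
  [IsDiscreteValuationRing ↥(mgcA A K₁')] [IsDiscreteValuationRing ↥(mgcA A K₁)]
  {q M₁ : ℕ} [NeZero q] [NeZero M₁] [NeZero (M₁ * q)] {M : ℕ} {H : Subgroup (ZMod M)ˣ}

/-- **`Rtk6hsThin` at `K₁`** (thin datum with (EIGEN) for the diamonds at `q`) from `Rtk6emFam`,
`Rtk6emSS1` and the dichotomy with C4+ on the two charts at a lower level `K₁′ ≤ K₁`. -/
theorem rtk6cxb_hsThin_E (hq : q.Prime) (hA : A.LiesOverPrime q) (h : K₁' ≤ K₁)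
    (hML : M ∣ M₁ * q)
    {ϖ₁ : ↥(mgcA A K₁')} (hϖ₁ : Irreducible ϖ₁) {π : ↥(mgcA A K₁)} (hπ : Irreducible π)
    {κ₁ : Type} {V₁ : κ₁ → ValuationSubring ↥(rtk6diF A K₁' (M₁ * q) M H)}
    (fam : Rtk6emFam A K₁' (M₁ * q) M H ϖ₁ V₁) (ss1 : Rtk6emSS1 A K₁' (M₁ * q) M H ϖ₁ V₁)
    (hP₁ : ∀ 𝔫₁ : AtPt (F := ↥(rtk6diF A K₁' (M₁ * q) M H)) ϖ₁ (rtk6diT A K₁' (M₁ * q) M H),
      Rtk6c4aPlusAt V₁ (rtk6cxbDiam A K₁' (M₁ * q) M H q) 𝔫₁)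
    (hP₂ : ∀ 𝔫₁ : AtPt (F := ↥(rtk6diF A K₁' (M₁ * q) M H)) ϖ₁
        (rtk6diT A K₁' (M₁ * q) M H)⁻¹,
      Rtk6c4aPlusAt V₁ (rtk6cxbDiam A K₁' (M₁ * q) M H q) 𝔫₁) :
    Rtk6hsThin A K₁ (M₁ * q) M H π (rtk6hsDiam A K₁ (M₁ * q) M H q) := by
  obtain ⟨j₁, hj₁, hram₁, hjp₁⟩ := rtk6dbc_chart_t_of_ss1 (M₁ * q) M H hq hA h
    (NeZero.ne (M₁ * q)) hML hϖ₁ hπ fam ss1
  obtain ⟨j₂, hj₂, hram₂, hjp₂⟩ := rtk6dbc_chart_tinv_of_ss1 (M₁ * q) M H hq hA h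
    (NeZero.ne (M₁ * q)) hML hϖ₁ hπ fam ss1
  have hD := rtk6cxb_diam_lift (A := A) (H := H) h (NeZero.ne (M₁ * q)) hML q
  refine ⟨rtk6ebQ h ϖ₁, rtk6ebQ_ne_zero h hϖ₁.ne_zero,
    ⟨_, inferInstance, j₁, _, hram₁, hjp₁, fun 𝔫 => ?_⟩,
    ⟨_, inferInstance, j₂, _, hram₂, hjp₂, fun 𝔫 => ?_⟩⟩
  · exact rtk6cxb_thinAt V₁ (rtk6dbcIncl (A := A) (M₁ * q) M H h) j₁ hj₁ hram₁ _ _ hD 𝔫
      (hP₁ _)
  · exact rtk6cxb_thinAt V₁ (rtk6dbcIncl (A := A) (M₁ * q) M H h) j₂ hj₂ hram₂ _ _ hD 𝔫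
      (hP₂ _)

end Thin

/-! ### The open input and the providers -/

section Ev

variable {q M₁ : ℕ} [NeZero q] [NeZero M₁] [NeZero (M₁ * q)] {M : ℕ} {H : Subgroup (ZMod M)ˣ}

/-- **The open input (C4-χ-ASM at ONE thin level, with C4+)**: a Galois number field `K₁′` with
`A₁ = A ∩ E₁` a discrete valuation ring, a uniformizer `ϖ₁` of `A₁`, the commutation
`hc₁ : RtkCommK E₁ w₀` (W1), and the dichotomy with C4+ (`Rtk6c4aPlusAt`) for the diamonds at `q`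
at every closed point of the special fibre of the two charts `zchClosure {t₁}`,
`zchClosure {t₁⁻¹}` of `F₁` over `A₁`, for the family
`V₁ = rtk6dfV hϖ₁ M H (rtk6diwEquiv w₀ hc₁)`. -/
def Rtk6cxbThinPlus (A : ValuationSubring Qb)
    (w₀ : fieldBar (M₁ * q) M H ≃ₐ[Qb] fieldBar (M₁ * q) M H) : Prop :=
  ∃ (K₁' : IntermediateField ℚ Qb) (_ : NumberField ↥K₁') (_ : IsGalois ℚ ↥K₁')
    (_ : IsDiscreteValuationRing ↥(mgcA A K₁')) (ϖ₁ : ↥(mgcA A K₁')) (hϖ₁ : Irreducible ϖ₁)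
    (hc₁ : RtkCommK (mgcE A K₁') w₀),
    (∀ 𝔫₁ : AtPt (F := ↥(rtk6diF A K₁' (M₁ * q) M H)) ϖ₁ (rtk6diT A K₁' (M₁ * q) M H),
      Rtk6c4aPlusAt (rtk6dfV hϖ₁ M H (rtk6diwEquiv (K₀ := mgcE A K₁') w₀ hc₁))
        (rtk6cxbDiam A K₁' (M₁ * q) M H q) 𝔫₁) ∧
    (∀ 𝔫₁ : AtPt (F := ↥(rtk6diF A K₁' (M₁ * q) M H)) ϖ₁
        (rtk6diT A K₁' (M₁ * q) M H)⁻¹,
      Rtk6c4aPlusAt (rtk6dfV hϖ₁ M H (rtk6diwEquiv (K₀ := mgcE A K₁') w₀ hc₁))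
        (rtk6cxbDiam A K₁' (M₁ * q) M H q) 𝔫₁)

/-- the input with C4+ contains the input of the dichotomy -/
theorem Rtk6cxbThinPlus.thin {A : ValuationSubring Qb}
    {w₀ : fieldBar (M₁ * q) M H ≃ₐ[Qb] fieldBar (M₁ * q) M H}
    (hT : Rtk6cxbThinPlus A w₀) : Rtk6cxbThin A w₀ := by
  obtain ⟨K₁', hNF, hGal, hDVR, ϖ₁, hϖ₁, hc₁, hP₁, hP₂⟩ := hT
  exact ⟨K₁', hNF, hGal, hDVR, ϖ₁, hϖ₁, hc₁, fun 𝔫₁ => (hP₁ 𝔫₁).nodeAt,
    fun 𝔫₁ => (hP₂ 𝔫₁).nodeAt⟩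

/-- **`Rtk6hsThin` at all sufficiently large `K₁`** (`K₀ := K₁′`) from the open input. -/
theorem rtk6cxb_ev_thin (hS : StmtRtk6SS1Gen) (hq : q.Prime) (hqM : ¬ q ∣ M₁)
    (hML : M ∣ M₁ * q) (htame : IsTameAt (M₁ * q) M q H) (h4 : 4 ∣ M₁ * q)
    (w₀ : fieldBar (M₁ * q) M H ≃ₐ[Qb] fieldBar (M₁ * q) M H)
    (hw₀ : IsWAt (M₁ * q) M H q w₀) {A : ValuationSubring Qb} (hA : A.LiesOverPrime q)
    (hT : Rtk6cxbThinPlus A w₀) :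
    Rtk6eiEv q A (fun K₁ _ hζ π hπ =>
      Rtk6hsThin A K₁ (M₁ * q) M H π (rtk6hsDiam A K₁ (M₁ * q) M H q)) := by
  obtain ⟨K₁', hNF, hGal, hDVR, ϖ₁, hϖ₁, hc₁, hP₁, hP₂⟩ := hT
  haveI := hNF
  haveI := hGal
  haveI := hDVR
  refine ⟨K₁', inferInstance, fun K₁ _ _ _ hK hζ π hπ => ?_⟩
  have hwI := rtk6w1_wIncl w₀ hw₀ hc₁ hq (mgdIota (mgcE A K₁')) hqM
  have fam := rtk6m1_emFam hϖ₁ (mgdIota (mgcE A K₁')) hq hqM hwI hA hML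
  have ss1 := hS q M₁ M H hq hqM hML htame h4 A hA K₁' hϖ₁ (mgdIota (mgcE A K₁')) _ hwI
  exact rtk6cxb_hsThin_E hq hA hK hML hϖ₁ hπ fam ss1 hP₁ hP₂

end Ev

/-- **The provider `hThin` of `rtk6hs_hStab_of_pieces` / `rtk6hs_geomChi_of_pieces`** from the
generic (SS1-inst) and the dichotomy with C4+ at ONE thin level per level datum (C4-χ-ASM);
the Atkin–Lehner automorphism `w₀` is the one of piece B (`stmtB`). -/
theorem rtk6cxb_hThin (hS : StmtRtk6SS1Gen)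
    (hPlus : ∀ (q M₁ : ℕ) [NeZero q] [NeZero M₁] [NeZero (M₁ * q)] (M : ℕ)
      (H : Subgroup (ZMod M)ˣ) (hq : q.Prime) (hqM' : q ∣ M) (hM0 : M ≠ 0), ¬ q ∣ M₁ →
      M ∣ M₁ * q → IsStarStable M q H → IsTameAt (M₁ * q) M q H → 4 ∣ M₁ * q →
      ∀ (w₀ : fieldBar (M₁ * q) M H ≃ₐ[Qb] fieldBar (M₁ * q) M H)
        (hw₀ : IsWAt (M₁ * q) M H q w₀) (A : ValuationSubring Qb), A.LiesOverPrime q →
        Rtk6cxbThinPlus A w₀) :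
    ∀ (q M₁ : ℕ) [NeZero q] [NeZero M₁] [NeZero (M₁ * q)] (M : ℕ)
      (H : Subgroup (ZMod M)ˣ) (hq : q.Prime) (hqM' : q ∣ M) (hM0 : M ≠ 0), ¬ q ∣ M₁ →
      M ∣ M₁ * q → IsStarStable M q H → IsTameAt (M₁ * q) M q H → 4 ∣ M₁ * q →
      ∀ (A : ValuationSubring Qb), A.LiesOverPrime q →
        Rtk6eiEv q A (fun K₁ _ hζ π hπ =>
          Rtk6hsThin A K₁ (M₁ * q) M H π (rtk6hsDiam A K₁ (M₁ * q) M H q)) := by
  intro q M₁ _ _ _ M H hq hqM' hM0 hqM hML hstar htame h4 A hA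
  have hsq : ¬ q ^ 2 ∣ M₁ * q := by
    intro h
    rw [pow_two] at h
    exact hqM (Nat.dvd_of_mul_dvd_mul_right hq.pos h)
  obtain ⟨w₀, hw₀⟩ := stmtB (M₁ * q) M H q (NeZero.ne (M₁ * q)) hML hq hqM' hsq hstar
  exact rtk6cxb_ev_thin hS hq hqM hML htame h4 w₀ hw₀ hA
    (hPlus q M₁ M H hq hqM' hM0 hqM hML hstar htame h4 w₀ hw₀ A hA)

/-- **The provider `hNode` of `rtk6ei_geomChi_of_pieces`** from the same input. -/
theorem rtk6cxb_hNode_plus (hS : StmtRtk6SS1Gen)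
    (hPlus : ∀ (q M₁ : ℕ) [NeZero q] [NeZero M₁] [NeZero (M₁ * q)] (M : ℕ)
      (H : Subgroup (ZMod M)ˣ) (hq : q.Prime) (hqM' : q ∣ M) (hM0 : M ≠ 0), ¬ q ∣ M₁ →
      M ∣ M₁ * q → IsStarStable M q H → IsTameAt (M₁ * q) M q H → 4 ∣ M₁ * q →
      ∀ (w₀ : fieldBar (M₁ * q) M H ≃ₐ[Qb] fieldBar (M₁ * q) M H)
        (hw₀ : IsWAt (M₁ * q) M H q w₀) (A : ValuationSubring Qb), A.LiesOverPrime q →
        Rtk6cxbThinPlus A w₀) :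
    ∀ (q M₁ : ℕ) [NeZero q] [NeZero M₁] [NeZero (M₁ * q)] (M : ℕ)
      (H : Subgroup (ZMod M)ˣ) (hq : q.Prime) (hqM' : q ∣ M) (hM0 : M ≠ 0), ¬ q ∣ M₁ →
      M ∣ M₁ * q → IsStarStable M q H → IsTameAt (M₁ * q) M q H → 4 ∣ M₁ * q →
      ∀ (w₀ : fieldBar (M₁ * q) M H ≃ₐ[Qb] fieldBar (M₁ * q) M H)
        (hw₀ : IsWAt (M₁ * q) M H q w₀) (A : ValuationSubring Qb), A.LiesOverPrime q →
        Rtk6eiEv q A (fun K₁ _ hζ π hπ => Rtk6emNode A K₁ (M₁ * q) M H π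
          (rtk6dfV hπ M H (rtk6diwW (K₀ := mgcE A K₁) w₀ hw₀ hM0 hq hqM' hζ))) :=
  rtk6cxb_hNode hS fun q M₁ _ _ _ M H hq hqM' hM0 hqM hML hstar htame h4 w₀ hw₀ A hA =>
    (hPlus q M₁ M H hq hqM' hM0 hqM hML hstar htame h4 w₀ hw₀ A hA).thin

/-- the provider `hSS1` of `rtk6ei_geomChi_of_pieces` from the generic (SS1-inst) -/
theorem rtk6cxb_hSS1 (hS : StmtRtk6SS1Gen) :
    ∀ (q M₁ : ℕ) [NeZero q] [NeZero M₁] [NeZero (M₁ * q)] (M : ℕ)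
      (H : Subgroup (ZMod M)ˣ) (hq : q.Prime) (hqM' : q ∣ M) (hM0 : M ≠ 0), ¬ q ∣ M₁ →
      M ∣ M₁ * q → IsStarStable M q H → IsTameAt (M₁ * q) M q H → 4 ∣ M₁ * q →
      ∀ (w₀ : fieldBar (M₁ * q) M H ≃ₐ[Qb] fieldBar (M₁ * q) M H)
        (hw₀ : IsWAt (M₁ * q) M H q w₀) (A : ValuationSubring Qb), A.LiesOverPrime q →
        Rtk6eiEv q A (fun K₁ _ hζ π hπ => Rtk6emSS1 A K₁ (M₁ * q) M H π
          (rtk6dfV hπ M H (rtk6diwW (K₀ := mgcE A K₁) w₀ hw₀ hM0 hq hqM' hζ))) := by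
  intro q M₁ _ _ _ M H hq hqM' hM0 hqM hML _ htame h4 w₀ hw₀ A hA
  refine ⟨⊥, inferInstance, fun K₁ _ _ _ _ hζ π hπ => ?_⟩
  exact hS q M₁ M H hq hqM hML htame h4 A hA K₁ hπ (mgdIota (mgcE A K₁)) _
    (rtk6m1_wIncl (mgdIota (mgcE A K₁)) w₀ hw₀ hM0 hq hqM' hqM hζ)

/-- **FINAL wiring, case (χ)**: `StmtRtk6GeomChi` from the generic (SS1-inst), the dichotomy with
C4+ for the diamonds at `q` at ONE thin level per level datum (C4-χ-ASM), and the provider `hFix`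
((FIX-X)). -/
theorem rtk6cxb_geomChi (hS : StmtRtk6SS1Gen)
    (hPlus : ∀ (q M₁ : ℕ) [NeZero q] [NeZero M₁] [NeZero (M₁ * q)] (M : ℕ)
      (H : Subgroup (ZMod M)ˣ) (hq : q.Prime) (hqM' : q ∣ M) (hM0 : M ≠ 0), ¬ q ∣ M₁ →
      M ∣ M₁ * q → IsStarStable M q H → IsTameAt (M₁ * q) M q H → 4 ∣ M₁ * q →
      ∀ (w₀ : fieldBar (M₁ * q) M H ≃ₐ[Qb] fieldBar (M₁ * q) M H)
        (hw₀ : IsWAt (M₁ * q) M H q w₀) (A : ValuationSubring Qb), A.LiesOverPrime q →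
        Rtk6cxbThinPlus A w₀)
    (hFix : ∀ (q M₁ : ℕ) [NeZero q] [NeZero M₁] [NeZero (M₁ * q)] (M : ℕ)
      (H : Subgroup (ZMod M)ˣ) (hq : q.Prime) (hqM' : q ∣ M) (hM0 : M ≠ 0), ¬ q ∣ M₁ →
      M ∣ M₁ * q → IsStarStable M q H → IsTameAt (M₁ * q) M q H → 4 ∣ M₁ * q →
      ∀ (w₀ : fieldBar (M₁ * q) M H ≃ₐ[Qb] fieldBar (M₁ * q) M H)
        (hw₀ : IsWAt (M₁ * q) M H q w₀) (A : ValuationSubring Qb), A.LiesOverPrime q →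
        Rtk6eiEv q A (fun K₁ _ hζ π hπ =>
          ∀ σ ∈ A.inertiaSubgroupIn ℚ, ∀ (hσE : ∀ x ∈ mgcE A K₁, σ x ∈ mgcE A K₁)
            (c' : (ZMod M)ˣ), IsAtR M q c' →
            ∀ δ₀' : ↥(rtk6diF A K₁ (M₁ * q) M H) ≃ₐ[↥(mgcE A K₁)]
                ↥(rtk6diF A K₁ (M₁ * q) M H),
              IsDiamondC ↥(mgcE A K₁) (M₁ * q) M H c' δ₀' →
              ∀ u : ↥(rtk6diF A K₁ (M₁ * q) M H),
                (u = rtk6diT A K₁ (M₁ * q) M H ∨ u = (rtk6diT A K₁ (M₁ * q) M H)⁻¹) →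
                Rtk6emFixAt A K₁ (M₁ * q) M H π
                  (rtk6dfV hπ M H (rtk6diwW (K₀ := mgcE A K₁) w₀ hw₀ hM0 hq hqM' hζ))
                  (rtk6diGal (M₁ * q) M H σ hσE) u ∧
                Rtk6emCongAt A K₁ (M₁ * q) M H π
                  (rtk6dfV hπ M H (rtk6diwW (K₀ := mgcE A K₁) w₀ hw₀ hM0 hq hqM' hζ))
                  (SemilinearAut.ofAlgAut δ₀') u)) :
    StmtRtk6GeomChi :=
  rtk6hs_geomChi_of_pieces (rtk6cxb_hThin hS hPlus) (rtk6cxb_hSS1 hS)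
    (rtk6cxb_hNode_plus hS hPlus) hFix

end Fermat.Agent.RT.K6
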