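/-
K-machine, piece K6, case (χ), **the hPlus final glue** (helper76): the open input `hPlus` of
`rtk6cxb_geomChi` (`RT/K6/C4ChiInstBThin.lean`), i.e. `Rtk6cxbThinPlus A w₀` for every level datum,
at the thin level

  `K₁′ := rtk6ebK q d_q`,  `d_q := rtk6psiDr M q H`  (PSI, helper85 / `RT/K6/Psi.lean`),

with `A₁ = mgcA A K₁′` a discrete valuation ring (`rtk6eb_isDVR`), the uniformizer
`ϖ₁ := rtk6ebVarpi hA hd0 hϖ` (`ϖ ^ d_q = q`, E-BASE, helper66) and the commutation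
`hc₁ := rtk6cxb_commK …` (W1, helper80 / helper96).

The inputs are the conclusions of C4-χ-ASM on the two charts (`rtk6c4aj_plusAt`, helper94, and its
twin on the chart `1/j`), for ANY uniformizer `ϖ₁` with `ϖ₁ ^ d_q = q`, ANY proof `hc₁` of the
commutation and ANY set `𝒢` containing the diamonds at `q`.

* `rtk6cxpD`           : `d_q`; `rtk6cxpD_ne_zero`, `rtk6cxpD_not_dvd`, `rtk6cxpD_pow_mem`;
* `rtk6cxp_not_sq_dvd` : `q² ∤ M`;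
* `rtk6cxp_rigid`      : `(q ≠ 2 → 4 ∣ M₁) ∧ (q = 2 → 9 ∣ M₁)` from `4 ∣ M₁ q`, `q ∤ M₁` (the hypothesis
                         `rigid` of `rtk6c4aj_plusAt`);
* `rtk6cxp_commK`      : `hc₁` at the thin level;
* `rtk6cxp_varpi_pow`  : `ϖ₁ ^ d_q = beta0RingIncl le_sup_left q` (the hypothesis `hϖd` of
                         `rtk6c4aj_plusAt`, `π := q`);
* **`rtk6cxp_thinPlus`** : `Rtk6cxbThinPlus A w₀` from the two charts (one level datum);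
* **`rtk6cxp_hPlus`**    : the provider `hPlus` of `rtk6cxb_geomChi`;
* **`rtk6cxp_geomChi`**  : `StmtRtk6GeomChi` from (SS1-inst) generic, C4-χ-ASM on the two charts at
                         the thin level, and (FIX-X).
-/
import Fermat.Agent.RT.K6.C4ChiInstBThin
import Fermat.Agent.RT.K6.Psi

set_option autoImplicit false
set_option linter.style.haveILetI false
set_option linter.unusedSectionVars false
set_option linter.unusedVariables false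
set_option linter.style.longLine false

noncomputable section

namespace Fermat.Agent.RT.K6

open ModularCurve AlgebraicCurve Fermat.Agent.ES Fermat.Agent.ES.G2 Fermat.Agent.INJ
open Fermat.Agent.UNIP Fermat.Agent.STB Fermat.Agent.ES1 Fermat.Agent.ES1.G2 IntermediateField

/-! ### The exponent `d_q` and the arithmetic of the level -/

section Arith

variable {q M₁ M : ℕ} {H : Subgroup (ZMod M)ˣ}

/-- **`d_q`** := the order of the image of the diamonds at `q` in `(ℤ/M)ˣ / ±H`. -/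
abbrev rtk6cxpD (M q : ℕ) (H : Subgroup (ZMod M)ˣ) : ℕ := rtk6psiDr M q H

/-- `q² ∤ M` at the levels `M ∣ M₁ q`, `q ∤ M₁` -/
theorem rtk6cxp_not_sq_dvd (hq : q.Prime) (hqM : ¬ q ∣ M₁) (hML : M ∣ M₁ * q) :
    ¬ q ^ 2 ∣ M := by
  intro h
  have h1 : q ^ 2 ∣ M₁ * q := h.trans hML
  rw [pow_two] at h1
  exact hqM (Nat.dvd_of_mul_dvd_mul_right hq.pos h1)

theorem rtk6cxpD_ne_zero (hM0 : M ≠ 0) : rtk6cxpD M q H ≠ 0 := by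
  haveI : NeZero M := ⟨hM0⟩
  exact (rtk6psiDr_pos (r := q) (H := H)).ne'

theorem rtk6cxpD_not_dvd (hq : q.Prime) (hqM' : q ∣ M) (hqM : ¬ q ∣ M₁) (hML : M ∣ M₁ * q) :
    ¬ q ∣ rtk6cxpD M q H :=
  rtk6psiDr_not_dvd hq hqM' (rtk6cxp_not_sq_dvd hq hqM hML)

theorem rtk6cxpD_pow_mem (hM0 : M ≠ 0) (c : (ZMod M)ˣ) (hc : IsAtR M q c) :
    c ^ rtk6cxpD M q H ∈ pmH H := by
  haveI : NeZero M := ⟨hM0⟩
  exact rtk6psi_pow_mem hc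

/-- **the rigidity hypothesis of the thin dichotomy** (`rtk6lfb0_thinAt_J`, `rtk6c4aj_plusAt`):
at the levels of the glue (`4 ∣ M₁ q`, `q ∤ M₁`) the prime `q` is odd and `4 ∣ M₁`. -/
theorem rtk6cxp_rigid (hq : q.Prime) (hqM : ¬ q ∣ M₁) (h4 : 4 ∣ M₁ * q) :
    (q ≠ 2 → 4 ∣ M₁) ∧ (q = 2 → 9 ∣ M₁) := by
  have hq2 : q ≠ 2 := by
    rintro rfl
    apply hqM
    have h2 : (2 : ℕ) * 2 ∣ M₁ * 2 := h4
    exact Nat.dvd_of_mul_dvd_mul_right (by norm_num) h2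
  refine ⟨fun _ => ?_, fun h => absurd h hq2⟩
  have hodd : Nat.Coprime 4 q := by
    have h2q : Nat.Coprime 2 q := by
      rw [Nat.coprime_primes Nat.prime_two hq]
      exact fun h => hq2 h.symm
    have : Nat.Coprime (2 ^ 2) q := Nat.Coprime.pow_left 2 h2q
    simpa using this
  exact hodd.dvd_of_dvd_mul_right h4

end Arith

/-! ### The thin level -/

section Thin

variable {q M₁ : ℕ} [NeZero q] [NeZero M₁] [NeZero (M₁ * q)] {M : ℕ} {H : Subgroup (ZMod M)ˣ}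

/-- **W1 at the thin level** `K₁′ = rtk6ebK q d_q`. -/
theorem rtk6cxp_commK (hq : q.Prime) (hqM' : q ∣ M) (hM0 : M ≠ 0) (hqM : ¬ q ∣ M₁)
    (hML : M ∣ M₁ * q) {w₀ : fieldBar (M₁ * q) M H ≃ₐ[Qb] fieldBar (M₁ * q) M H}
    (hw₀ : IsWAt (M₁ * q) M H q w₀) (A : ValuationSubring Qb) (hA : A.LiesOverPrime q) :
    RtkCommK (mgcE A (rtk6ebK q (rtk6cxpD M q H))) w₀ :=
  rtk6cxb_commK hq hqM' hM0 hqM hML hw₀ A hA (rtk6cxpD_ne_zero hM0)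
    (rtk6cxpD_not_dvd hq hqM' hqM hML) (rtk6cxpD_pow_mem hM0)

/-- **`ϖ₁ ^ d = ι q`**: the hypothesis `hϖd` of `rtk6c4aj_plusAt` (`π := q`, the uniformizer of the
unramified base `A ∩ ℚ̄^I`) for a uniformizer with `ϖ₁ ^ d = q`. -/
theorem rtk6cxp_varpi_pow {A : ValuationSubring Qb} {K₁' : IntermediateField ℚ Qb} {d : ℕ}
    {ϖ₁ : ↥(mgcA A K₁')} (hϖd : ϖ₁ ^ d = ((q : ℕ) : ↥(mgcA A K₁'))) :
    ϖ₁ ^ d = beta0RingIncl (A := A) (le_sup_left : beta0Field A ≤ beta0Field A ⊔ K₁')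
      ((q : ℕ) : ↥(beta0Ring A (beta0Field A))) := by
  rw [hϖd, map_natCast]

/-- **`Rtk6cxbThinPlus A w₀` at the thin level `K₁′ = rtk6ebK q d_q`** from C4-χ-ASM on the two
charts (for every uniformizer `ϖ₁` with `ϖ₁ ^ d_q = q` and every proof of the commutation). -/
theorem rtk6cxp_thinPlus (hq : q.Prime) (hqM' : q ∣ M) (hM0 : M ≠ 0) (hqM : ¬ q ∣ M₁)
    (hML : M ∣ M₁ * q) (w₀ : fieldBar (M₁ * q) M H ≃ₐ[Qb] fieldBar (M₁ * q) M H)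
    (hw₀ : IsWAt (M₁ * q) M H q w₀) (A : ValuationSubring Qb) (hA : A.LiesOverPrime q)
    (hJ : ∀ [IsDiscreteValuationRing ↥(mgcA A (rtk6ebK q (rtk6cxpD M q H)))]
      (ϖ₁ : ↥(mgcA A (rtk6ebK q (rtk6cxpD M q H)))) (hϖ₁ : Irreducible ϖ₁)
      (_ : ϖ₁ ^ rtk6cxpD M q H = ((q : ℕ) : ↥(mgcA A (rtk6ebK q (rtk6cxpD M q H)))))
      (hc₁ : RtkCommK (mgcE A (rtk6ebK q (rtk6cxpD M q H))) w₀)
      (𝔫₁ : AtPt (F := ↥(rtk6diF A (rtk6ebK q (rtk6cxpD M q H)) (M₁ * q) M H)) ϖ₁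
        (rtk6diT A (rtk6ebK q (rtk6cxpD M q H)) (M₁ * q) M H)),
      Rtk6c4aPlusAt
        (rtk6dfV hϖ₁ M H (rtk6diwEquiv (K₀ := mgcE A (rtk6ebK q (rtk6cxpD M q H))) w₀ hc₁))
        (rtk6cxbDiam A (rtk6ebK q (rtk6cxpD M q H)) (M₁ * q) M H q) 𝔫₁)
    (hJinv : ∀ [IsDiscreteValuationRing ↥(mgcA A (rtk6ebK q (rtk6cxpD M q H)))]
      (ϖ₁ : ↥(mgcA A (rtk6ebK q (rtk6cxpD M q H)))) (hϖ₁ : Irreducible ϖ₁)
      (_ : ϖ₁ ^ rtk6cxpD M q H = ((q : ℕ) : ↥(mgcA A (rtk6ebK q (rtk6cxpD M q H)))))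
      (hc₁ : RtkCommK (mgcE A (rtk6ebK q (rtk6cxpD M q H))) w₀)
      (𝔫₁ : AtPt (F := ↥(rtk6diF A (rtk6ebK q (rtk6cxpD M q H)) (M₁ * q) M H)) ϖ₁
        (rtk6diT A (rtk6ebK q (rtk6cxpD M q H)) (M₁ * q) M H)⁻¹),
      Rtk6c4aPlusAt
        (rtk6dfV hϖ₁ M H (rtk6diwEquiv (K₀ := mgcE A (rtk6ebK q (rtk6cxpD M q H))) w₀ hc₁))
        (rtk6cxbDiam A (rtk6ebK q (rtk6cxpD M q H)) (M₁ * q) M H q) 𝔫₁) :
    Rtk6cxbThinPlus A w₀ := by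
  have hd0 : rtk6cxpD M q H ≠ 0 := rtk6cxpD_ne_zero hM0
  have hdq : ¬ q ∣ rtk6cxpD M q H := rtk6cxpD_not_dvd hq hqM' hqM hML
  obtain ⟨ϖ, hϖ⟩ := IsAlgClosed.exists_pow_nat_eq ((q : ℕ) : Qb) (Nat.pos_of_ne_zero hd0)
  haveI hDVR : IsDiscreteValuationRing ↥(mgcA A (rtk6ebK q (rtk6cxpD M q H))) :=
    rtk6eb_isDVR hq hA
  have hirr := rtk6ebVarpi_irreducible hq hA hd0 hdq hϖ
  have hpow := rtk6ebVarpi_pow hA hd0 hϖ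
  have hc₁ := rtk6cxp_commK hq hqM' hM0 hqM hML hw₀ A hA
  exact ⟨rtk6ebK q (rtk6cxpD M q H), inferInstance, inferInstance, hDVR,
    rtk6ebVarpi hA hd0 hϖ, hirr, hc₁,
    fun 𝔫₁ => hJ (rtk6ebVarpi hA hd0 hϖ) hirr hpow hc₁ 𝔫₁,
    fun 𝔫₁ => hJinv (rtk6ebVarpi hA hd0 hϖ) hirr hpow hc₁ 𝔫₁⟩

end Thin

/-! ### The providers -/

/-- **The provider `hPlus` of `rtk6cxb_geomChi`** from C4-χ-ASM on the two charts at the thin level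
`K₁′ = rtk6ebK q d_q`. -/
theorem rtk6cxp_hPlus
    (hJ : ∀ (q M₁ : ℕ) [NeZero q] [NeZero M₁] [NeZero (M₁ * q)] (M : ℕ)
      (H : Subgroup (ZMod M)ˣ) (hq : q.Prime) (hqM' : q ∣ M) (hM0 : M ≠ 0), ¬ q ∣ M₁ →
      M ∣ M₁ * q → IsStarStable M q H → IsTameAt (M₁ * q) M q H → 4 ∣ M₁ * q →
      ∀ (w₀ : fieldBar (M₁ * q) M H ≃ₐ[Qb] fieldBar (M₁ * q) M H)
        (hw₀ : IsWAt (M₁ * q) M H q w₀) (A : ValuationSubring Qb), A.LiesOverPrime q →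
      ∀ [IsDiscreteValuationRing ↥(mgcA A (rtk6ebK q (rtk6cxpD M q H)))]
        (ϖ₁ : ↥(mgcA A (rtk6ebK q (rtk6cxpD M q H)))) (hϖ₁ : Irreducible ϖ₁)
        (_ : ϖ₁ ^ rtk6cxpD M q H = ((q : ℕ) : ↥(mgcA A (rtk6ebK q (rtk6cxpD M q H)))))
        (hc₁ : RtkCommK (mgcE A (rtk6ebK q (rtk6cxpD M q H))) w₀)
        (𝔫₁ : AtPt (F := ↥(rtk6diF A (rtk6ebK q (rtk6cxpD M q H)) (M₁ * q) M H)) ϖ₁
          (rtk6diT A (rtk6ebK q (rtk6cxpD M q H)) (M₁ * q) M H)),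
        Rtk6c4aPlusAt
          (rtk6dfV hϖ₁ M H (rtk6diwEquiv (K₀ := mgcE A (rtk6ebK q (rtk6cxpD M q H))) w₀ hc₁))
          (rtk6cxbDiam A (rtk6ebK q (rtk6cxpD M q H)) (M₁ * q) M H q) 𝔫₁)
    (hJinv : ∀ (q M₁ : ℕ) [NeZero q] [NeZero M₁] [NeZero (M₁ * q)] (M : ℕ)
      (H : Subgroup (ZMod M)ˣ) (hq : q.Prime) (hqM' : q ∣ M) (hM0 : M ≠ 0), ¬ q ∣ M₁ →
      M ∣ M₁ * q → IsStarStable M q H → IsTameAt (M₁ * q) M q H → 4 ∣ M₁ * q →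
      ∀ (w₀ : fieldBar (M₁ * q) M H ≃ₐ[Qb] fieldBar (M₁ * q) M H)
        (hw₀ : IsWAt (M₁ * q) M H q w₀) (A : ValuationSubring Qb), A.LiesOverPrime q →
      ∀ [IsDiscreteValuationRing ↥(mgcA A (rtk6ebK q (rtk6cxpD M q H)))]
        (ϖ₁ : ↥(mgcA A (rtk6ebK q (rtk6cxpD M q H)))) (hϖ₁ : Irreducible ϖ₁)
        (_ : ϖ₁ ^ rtk6cxpD M q H = ((q : ℕ) : ↥(mgcA A (rtk6ebK q (rtk6cxpD M q H)))))
        (hc₁ : RtkCommK (mgcE A (rtk6ebK q (rtk6cxpD M q H))) w₀)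
        (𝔫₁ : AtPt (F := ↥(rtk6diF A (rtk6ebK q (rtk6cxpD M q H)) (M₁ * q) M H)) ϖ₁
          (rtk6diT A (rtk6ebK q (rtk6cxpD M q H)) (M₁ * q) M H)⁻¹),
        Rtk6c4aPlusAt
          (rtk6dfV hϖ₁ M H (rtk6diwEquiv (K₀ := mgcE A (rtk6ebK q (rtk6cxpD M q H))) w₀ hc₁))
          (rtk6cxbDiam A (rtk6ebK q (rtk6cxpD M q H)) (M₁ * q) M H q) 𝔫₁) :
    ∀ (q M₁ : ℕ) [NeZero q] [NeZero M₁] [NeZero (M₁ * q)] (M : ℕ)
      (H : Subgroup (ZMod M)ˣ) (hq : q.Prime) (hqM' : q ∣ M) (hM0 : M ≠ 0), ¬ q ∣ M₁ →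
      M ∣ M₁ * q → IsStarStable M q H → IsTameAt (M₁ * q) M q H → 4 ∣ M₁ * q →
      ∀ (w₀ : fieldBar (M₁ * q) M H ≃ₐ[Qb] fieldBar (M₁ * q) M H)
        (hw₀ : IsWAt (M₁ * q) M H q w₀) (A : ValuationSubring Qb), A.LiesOverPrime q →
        Rtk6cxbThinPlus A w₀ := by
  intro q M₁ _ _ _ M H hq hqM' hM0 hqM hML hstar htame h4 w₀ hw₀ A hA
  exact rtk6cxp_thinPlus hq hqM' hM0 hqM hML w₀ hw₀ A hA
    (fun ϖ₁ hϖ₁ hϖd hc₁ 𝔫₁ =>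
      hJ q M₁ M H hq hqM' hM0 hqM hML hstar htame h4 w₀ hw₀ A hA ϖ₁ hϖ₁ hϖd hc₁ 𝔫₁)
    (fun ϖ₁ hϖ₁ hϖd hc₁ 𝔫₁ =>
      hJinv q M₁ M H hq hqM' hM0 hqM hML hstar htame h4 w₀ hw₀ A hA ϖ₁ hϖ₁ hϖd hc₁ 𝔫₁)

/-- **FINAL wiring, case (χ), at the thin level `K₁′ = rtk6ebK q d_q`**: `StmtRtk6GeomChi` from the
generic (SS1-inst), C4-χ-ASM on the two charts, and the provider `hFix` ((FIX-X)). -/
theorem rtk6cxp_geomChi (hS : StmtRtk6SS1Gen)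
    (hJ : ∀ (q M₁ : ℕ) [NeZero q] [NeZero M₁] [NeZero (M₁ * q)] (M : ℕ)
      (H : Subgroup (ZMod M)ˣ) (hq : q.Prime) (hqM' : q ∣ M) (hM0 : M ≠ 0), ¬ q ∣ M₁ →
      M ∣ M₁ * q → IsStarStable M q H → IsTameAt (M₁ * q) M q H → 4 ∣ M₁ * q →
      ∀ (w₀ : fieldBar (M₁ * q) M H ≃ₐ[Qb] fieldBar (M₁ * q) M H)
        (hw₀ : IsWAt (M₁ * q) M H q w₀) (A : ValuationSubring Qb), A.LiesOverPrime q →
      ∀ [IsDiscreteValuationRing ↥(mgcA A (rtk6ebK q (rtk6cxpD M q H)))]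
        (ϖ₁ : ↥(mgcA A (rtk6ebK q (rtk6cxpD M q H)))) (hϖ₁ : Irreducible ϖ₁)
        (_ : ϖ₁ ^ rtk6cxpD M q H = ((q : ℕ) : ↥(mgcA A (rtk6ebK q (rtk6cxpD M q H)))))
        (hc₁ : RtkCommK (mgcE A (rtk6ebK q (rtk6cxpD M q H))) w₀)
        (𝔫₁ : AtPt (F := ↥(rtk6diF A (rtk6ebK q (rtk6cxpD M q H)) (M₁ * q) M H)) ϖ₁
          (rtk6diT A (rtk6ebK q (rtk6cxpD M q H)) (M₁ * q) M H)),
        Rtk6c4aPlusAt
          (rtk6dfV hϖ₁ M H (rtk6diwEquiv (K₀ := mgcE A (rtk6ebK q (rtk6cxpD M q H))) w₀ hc₁))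
          (rtk6cxbDiam A (rtk6ebK q (rtk6cxpD M q H)) (M₁ * q) M H q) 𝔫₁)
    (hJinv : ∀ (q M₁ : ℕ) [NeZero q] [NeZero M₁] [NeZero (M₁ * q)] (M : ℕ)
      (H : Subgroup (ZMod M)ˣ) (hq : q.Prime) (hqM' : q ∣ M) (hM0 : M ≠ 0), ¬ q ∣ M₁ →
      M ∣ M₁ * q → IsStarStable M q H → IsTameAt (M₁ * q) M q H → 4 ∣ M₁ * q →
      ∀ (w₀ : fieldBar (M₁ * q) M H ≃ₐ[Qb] fieldBar (M₁ * q) M H)
        (hw₀ : IsWAt (M₁ * q) M H q w₀) (A : ValuationSubring Qb), A.LiesOverPrime q →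
      ∀ [IsDiscreteValuationRing ↥(mgcA A (rtk6ebK q (rtk6cxpD M q H)))]
        (ϖ₁ : ↥(mgcA A (rtk6ebK q (rtk6cxpD M q H)))) (hϖ₁ : Irreducible ϖ₁)
        (_ : ϖ₁ ^ rtk6cxpD M q H = ((q : ℕ) : ↥(mgcA A (rtk6ebK q (rtk6cxpD M q H)))))
        (hc₁ : RtkCommK (mgcE A (rtk6ebK q (rtk6cxpD M q H))) w₀)
        (𝔫₁ : AtPt (F := ↥(rtk6diF A (rtk6ebK q (rtk6cxpD M q H)) (M₁ * q) M H)) ϖ₁
          (rtk6diT A (rtk6ebK q (rtk6cxpD M q H)) (M₁ * q) M H)⁻¹),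
        Rtk6c4aPlusAt
          (rtk6dfV hϖ₁ M H (rtk6diwEquiv (K₀ := mgcE A (rtk6ebK q (rtk6cxpD M q H))) w₀ hc₁))
          (rtk6cxbDiam A (rtk6ebK q (rtk6cxpD M q H)) (M₁ * q) M H q) 𝔫₁)
    (hFix : ∀ (q M₁ : ℕ) [NeZero q] [NeZero M₁] [NeZero (M₁ * q)] (M : ℕ)
      (H : Subgroup (ZMod M)ˣ) (hq : q.Prime) (hqM' : q ∣ M) (hM0 : M ≠ 0), ¬ q ∣ M₁ →
      M ∣ M₁ * q → IsStarStable M q H → IsTameAt (M₁ * q) M q H → 4 ∣ M₁ * q →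
      ∀ (w₀ : fieldBar (M₁ * q) M H ≃ₐ[Qb] fieldBar (M₁ * q) M H)
        (hw₀ : IsWAt (M₁ * q) M H q w₀) (A : ValuationSubring Qb), A.LiesOverPrime q →
        Rtk6eiEv q A (fun K₁ _ hζ π hπ =>
          ∀ σ ∈ A.inertiaSubgroupIn ℚ, ∀ (hσE : ∀ x ∈ mgcE A K₁, σ x ∈ mgcE A K₁)
            (c' : (ZMod M)ˣ), IsAtR M q c' →
            ∀ δ₀' : ↥(rtk6diF A K₁ (M₁ * q) M H) ≃ₐ[↥(mgcE A K₁)]
                ↥(rtk6diF A K₁ (M₁ * q) M H),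
              IsDiamondC ↥(mgcE A K₁) (M₁ * q) M H c' δ₀' →
              ∀ u : ↥(rtk6diF A K₁ (M₁ * q) M H),
                (u = rtk6diT A K₁ (M₁ * q) M H ∨ u = (rtk6diT A K₁ (M₁ * q) M H)⁻¹) →
                Rtk6emFixAt A K₁ (M₁ * q) M H π
                  (rtk6dfV hπ M H (rtk6diwW (K₀ := mgcE A K₁) w₀ hw₀ hM0 hq hqM' hζ))
                  (rtk6diGal (M₁ * q) M H σ hσE) u ∧
                Rtk6emCongAt A K₁ (M₁ * q) M H π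
                  (rtk6dfV hπ M H (rtk6diwW (K₀ := mgcE A K₁) w₀ hw₀ hM0 hq hqM' hζ))
                  (SemilinearAut.ofAlgAut δ₀') u)) :
    StmtRtk6GeomChi :=
  rtk6cxb_geomChi hS (rtk6cxp_hPlus hJ hJinv) hFix

end Fermat.Agent.RT.K6
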