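/-
K-machine, piece K6, piece **FIX-X** (helper67), abstract part: transfer of `Rtk6ewFix` /
`Rtk6ewCong` (`RT/K6/EWCross.lean`) from the chart over the thin ramified base `A₁` to the chart
over the final base `A′`, along a map `j` with `MgcRamified j π′ p` (`UNIP/MGChartsGen.lean`).

* `rtk6fxx_fix_of_cong`     : `Rtk6ewCong g 1 𝔫` and `Rtk6ewCong g⁻¹ 1 𝔫` give `Rtk6ewFix g 𝔫`;
* `rtk6fxx_smul_unif_mem`   : `g`, `g⁻¹` preserve `A₀` ⇒ `g • π ∈ 𝔫`;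
* `rtk6fxx_cong_of_decomp`  : ONE level: `Φ` preserves the chart `B`, `Φ π ∈ 𝔫`,
                              `Φ (j c) ≡ j c` mod `𝔫` for every `c : R` ⇒ `Rtk6ewCong Φ 1 𝔫`
                              (`B = j R + π B`);
* `rtk6fxx_cong_of_fixed`   : the case (U): `Φ (j c) = j c` for every `c : R`;
* `rtk6fxxPt`               : the closed point `𝔫 ∩ R₁` of the chart of the level `A₁`;
* `rtk6fxx_cong_transfer`   : TWO levels: `Rtk6ewCong Φ₁ 1 (𝔫 ∩ R₁)` ⇒ `Rtk6ewCong Φ 1 𝔫` when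
                              `Φ ∘ ι = ι ∘ Φ₁` on the chart `R₁`;
* `rtk6fxx_fix_transfer`    : the same for `Rtk6ewFix g 𝔫` (from `Rtk6ewCong` for `g₁`, `g₁⁻¹`);
* `rtk6fxx_crossFrob_transfer` : both, from `Rtk6ewFix g₁ _ ∧ Rtk6ewCong g₁ 1 _` … (the output of
                              `rtk6c4x_crossAt`, `RT/K6/C4X.lean`, for `g₁` and `g₁⁻¹`).
-/
import Fermat.Agent.RT.K6.EWCross
import Fermat.Agent.RT.K6.DGLFixEW
import Fermat.Agent.UNIP.MGChartsGen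

set_option autoImplicit false
set_option linter.style.haveILetI false
set_option linter.unusedSectionVars false
set_option linter.unusedVariables false

namespace Fermat.Agent.RT.K6

open Polynomial IntermediateField Fermat.Agent.INJ AlgebraicCurve Fermat.Agent.UNIP
  Fermat.Agent.STB

section OneLevel

variable {A₀ E F : Type*} [CommRing A₀] [IsDomain A₀] [IsDiscreteValuationRing A₀]
  [Field E] [Algebra A₀ E] [IsFractionRing A₀ E] [CharZero E]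
  [Field F] [Algebra E F] [Algebra A₀ F] [IsScalarTower A₀ E F]
  {π : A₀}

/-- `Rtk6ewFix` from `Rtk6ewCong` (with `Q = 1`) for `g` and for `g⁻¹`. -/
theorem rtk6fxx_fix_of_cong (g : SemilinearAut E F) {u : F} (𝔫 : AtPt (F := F) π u)
    (h : Rtk6ewCong (SemilinearAut.toRingAut g : F ≃+* F).toRingHom 1 𝔫)
    (h' : Rtk6ewCong (SemilinearAut.toRingAut g⁻¹ : F ≃+* F).toRingHom 1 𝔫) :
    Rtk6ewFix g 𝔫 := by
  refine ⟨fun b hb => ?_, fun b hb => ?_⟩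
  · obtain ⟨c, hc, hbc⟩ := h b
    refine ⟨b + c, 𝔫.1.add_mem hb hc, ?_⟩
    rw [pow_one] at hbc
    exact hbc
  · obtain ⟨c, hc, hbc⟩ := h' b
    refine ⟨b + c, 𝔫.1.add_mem hb hc, ?_⟩
    rw [pow_one] at hbc
    exact hbc

omit [CharZero E] in
/-- `algebraMap A₀ F` is injective -/
theorem rtk6fxx_algebraMap_injective (E : Type*) [Field E] [Algebra A₀ E] [IsFractionRing A₀ E]
    [Algebra E F] [IsScalarTower A₀ E F] : Function.Injective (algebraMap A₀ F) := by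
  rw [IsScalarTower.algebraMap_eq A₀ E F]
  exact (algebraMap E F).injective.comp (IsFractionRing.injective A₀ E)

/-- a nonunit of `A₀` lies in every closed point of the special fibre (`π ≠ 0`) -/
theorem rtk6fxx_nonunit_mem (hπ0 : π ≠ 0) {u : F} (𝔫 : AtPt (F := F) π u) {α : A₀}
    (hα : ¬ IsUnit α) :
    algebraMap A₀ ↥(zchClosure (A₀ := A₀) ({u} : Set F)) α ∈ 𝔫.1 := by
  haveI : 𝔫.1.IsMaximal := 𝔫.2.1
  have hP : (𝔫.1.comap (algebraMap A₀ ↥(zchClosure (A₀ := A₀) ({u} : Set F)))).IsPrime :=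
    Ideal.IsPrime.comap _
  have hne : 𝔫.1.comap (algebraMap A₀ ↥(zchClosure (A₀ := A₀) ({u} : Set F))) ≠ ⊥ := by
    intro h0
    have : π ∈ 𝔫.1.comap (algebraMap A₀ ↥(zchClosure (A₀ := A₀) ({u} : Set F))) :=
      Ideal.mem_comap.2 𝔫.2.2
    rw [h0, Ideal.mem_bot] at this
    exact hπ0 this
  have hM := hP.isMaximal hne
  have heq := IsLocalRing.eq_maximalIdeal hM
  have : α ∈ 𝔫.1.comap (algebraMap A₀ ↥(zchClosure (A₀ := A₀) ({u} : Set F))) := by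
    rw [heq]
    exact (IsLocalRing.mem_maximalIdeal α).2 hα
  exact Ideal.mem_comap.1 this

/-- `g` and `g⁻¹` preserve `A₀` ⇒ `g • π` is (the image of) a nonunit of `A₀`, hence lies in every
closed point of the special fibre. -/
theorem rtk6fxx_smul_unif_mem (hπ0 : π ≠ 0) (g : SemilinearAut E F) {u : F}
    (𝔫 : AtPt (F := F) π u)
    (hgA : ∀ α : A₀, ∃ α' : A₀, g • algebraMap A₀ F α = algebraMap A₀ F α')
    (hgA' : ∀ α : A₀, ∃ α' : A₀, g⁻¹ • algebraMap A₀ F α = algebraMap A₀ F α') :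
    ∃ z : ↥(zchClosure (A₀ := A₀) ({u} : Set F)), z ∈ 𝔫.1 ∧
      (SemilinearAut.toRingAut g : F ≃+* F).toRingHom (algebraMap A₀ F π) = (z : F) := by
  haveI : 𝔫.1.IsMaximal := 𝔫.2.1
  obtain ⟨α', hα'⟩ := hgA π
  have hnu : ¬ IsUnit α' := by
    intro hu
    obtain ⟨β, hβ⟩ := hu.exists_right_inv
    obtain ⟨β', hβ'⟩ := hgA' β
    have h1 : g⁻¹ • algebraMap A₀ F α' = algebraMap A₀ F π := by
      rw [← hα', inv_smul_smul]
    have h2 : algebraMap A₀ F (π * β') = algebraMap A₀ F 1 := by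
      rw [map_mul, ← h1, ← hβ', ← smul_mul', ← map_mul, hβ, map_one, smul_one]
    have h3 : π * β' = 1 := rtk6fxx_algebraMap_injective E h2
    have h4 : algebraMap A₀ ↥(zchClosure (A₀ := A₀) ({u} : Set F)) π *
        algebraMap A₀ ↥(zchClosure (A₀ := A₀) ({u} : Set F)) β' = 1 := by
      rw [← map_mul, h3, map_one]
    exact 𝔫.2.1.ne_top ((Ideal.eq_top_iff_one _).2 (h4 ▸ 𝔫.1.mul_mem_right _ 𝔫.2.2))
  exact ⟨algebraMap A₀ ↥(zchClosure (A₀ := A₀) ({u} : Set F)) α',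
    rtk6fxx_nonunit_mem hπ0 𝔫 hnu, hα'⟩

/-- **FIX-X, one level.**  `B = j R + π B` (`MgcRamified`), `Φ` preserves `B`, `Φ π ∈ 𝔫` and
`Φ (j c) ≡ j c` modulo `𝔫` for every `c : R` ⇒ `Φ b ≡ b` modulo `𝔫` for every `b : B`. -/
theorem rtk6fxx_cong_of_decomp {R : Type*} [CommRing R] {u : F} (𝔫 : AtPt (F := F) π u)
    (j : R →+* ↥(zchClosure (A₀ := A₀) ({u} : Set F))) {p : R}
    (hram : MgcRamified j (algebraMap A₀ ↥(zchClosure (A₀ := A₀) ({u} : Set F)) π) p)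
    (Φ : F →+* F)
    (hΦB : ∀ b : ↥(zchClosure (A₀ := A₀) ({u} : Set F)),
      ∃ b' : ↥(zchClosure (A₀ := A₀) ({u} : Set F)), Φ (b : F) = (b' : F))
    (hΦπ : ∃ z : ↥(zchClosure (A₀ := A₀) ({u} : Set F)), z ∈ 𝔫.1 ∧
      Φ (algebraMap A₀ F π) = (z : F))
    (hj : ∀ c : R, ∃ c' : ↥(zchClosure (A₀ := A₀) ({u} : Set F)), c' ∈ 𝔫.1 ∧
      Φ ((j c : ↥(zchClosure (A₀ := A₀) ({u} : Set F))) : F) =
        ((j c : ↥(zchClosure (A₀ := A₀) ({u} : Set F))) : F) + (c' : F)) :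
    Rtk6ewCong Φ 1 𝔫 := by
  intro b
  obtain ⟨c, z, rfl⟩ := hram.decomp b
  obtain ⟨c', hc', hΦc⟩ := hj c
  obtain ⟨z', hz'⟩ := hΦB z
  obtain ⟨w, hw, hΦw⟩ := hΦπ
  refine ⟨c' + w * z' - algebraMap A₀ ↥(zchClosure (A₀ := A₀) ({u} : Set F)) π * z,
    𝔫.1.sub_mem (𝔫.1.add_mem hc' (𝔫.1.mul_mem_right _ hw)) (𝔫.1.mul_mem_right _ 𝔫.2.2), ?_⟩
  have e1 : ((j c + algebraMap A₀ ↥(zchClosure (A₀ := A₀) ({u} : Set F)) π * z :
      ↥(zchClosure (A₀ := A₀) ({u} : Set F))) : F) =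
      ((j c : ↥(zchClosure (A₀ := A₀) ({u} : Set F))) : F) + algebraMap A₀ F π * (z : F) := rfl
  have e2 : ((c' + w * z' - algebraMap A₀ ↥(zchClosure (A₀ := A₀) ({u} : Set F)) π * z :
      ↥(zchClosure (A₀ := A₀) ({u} : Set F))) : F) =
      (c' : F) + (w : F) * (z' : F) - algebraMap A₀ F π * (z : F) := rfl
  rw [e1, e2, map_add, map_mul, hΦc, hΦw, hz', pow_one]
  ring

/-- **FIX-U form, one level.**  If `Φ` fixes `j R` pointwise then `Φ b ≡ b` modulo `𝔫`. -/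
theorem rtk6fxx_cong_of_fixed {R : Type*} [CommRing R] {u : F} (𝔫 : AtPt (F := F) π u)
    (j : R →+* ↥(zchClosure (A₀ := A₀) ({u} : Set F))) {p : R}
    (hram : MgcRamified j (algebraMap A₀ ↥(zchClosure (A₀ := A₀) ({u} : Set F)) π) p)
    (Φ : F →+* F)
    (hΦB : ∀ b : ↥(zchClosure (A₀ := A₀) ({u} : Set F)),
      ∃ b' : ↥(zchClosure (A₀ := A₀) ({u} : Set F)), Φ (b : F) = (b' : F))
    (hΦπ : ∃ z : ↥(zchClosure (A₀ := A₀) ({u} : Set F)), z ∈ 𝔫.1 ∧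
      Φ (algebraMap A₀ F π) = (z : F))
    (hj : ∀ c : R, Φ ((j c : ↥(zchClosure (A₀ := A₀) ({u} : Set F))) : F) =
        ((j c : ↥(zchClosure (A₀ := A₀) ({u} : Set F))) : F)) :
    Rtk6ewCong Φ 1 𝔫 :=
  rtk6fxx_cong_of_decomp 𝔫 j hram Φ hΦB hΦπ fun c =>
    ⟨0, 𝔫.1.zero_mem, by rw [hj c]; exact (add_zero _).symm⟩

/-- **FIX-X for a semilinear automorphism, one level**: `Rtk6ewFix g 𝔫 ∧ Rtk6ewCong g 1 𝔫` from
the congruences `g (j c) ≡ j c`, `g⁻¹ (j c) ≡ j c` modulo `𝔫` on `j R`. -/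
theorem rtk6fxx_crossFrob_of_decomp (hπ0 : π ≠ 0) {R : Type*} [CommRing R] {u : F}
    (𝔫 : AtPt (F := F) π u)
    (j : R →+* ↥(zchClosure (A₀ := A₀) ({u} : Set F))) {p : R}
    (hram : MgcRamified j (algebraMap A₀ ↥(zchClosure (A₀ := A₀) ({u} : Set F)) π) p)
    (g : SemilinearAut E F) (hgu : g • u = u)
    (hgA : ∀ α : A₀, ∃ α' : A₀, g • algebraMap A₀ F α = algebraMap A₀ F α')
    (hgA' : ∀ α : A₀, ∃ α' : A₀, g⁻¹ • algebraMap A₀ F α = algebraMap A₀ F α')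
    (hj : ∀ c : R, ∃ c' : ↥(zchClosure (A₀ := A₀) ({u} : Set F)), c' ∈ 𝔫.1 ∧
      g • ((j c : ↥(zchClosure (A₀ := A₀) ({u} : Set F))) : F) =
        ((j c : ↥(zchClosure (A₀ := A₀) ({u} : Set F))) : F) + (c' : F))
    (hj' : ∀ c : R, ∃ c' : ↥(zchClosure (A₀ := A₀) ({u} : Set F)), c' ∈ 𝔫.1 ∧
      g⁻¹ • ((j c : ↥(zchClosure (A₀ := A₀) ({u} : Set F))) : F) =
        ((j c : ↥(zchClosure (A₀ := A₀) ({u} : Set F))) : F) + (c' : F)) :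
    Rtk6ewFix g 𝔫 ∧ Rtk6ewCong (SemilinearAut.toRingAut g : F ≃+* F).toRingHom 1 𝔫 := by
  have h1 : Rtk6ewCong (SemilinearAut.toRingAut g : F ≃+* F).toRingHom 1 𝔫 :=
    rtk6fxx_cong_of_decomp 𝔫 j hram _ (fun b => rtk6gf_ew_preserves g hgu hgA b)
      (rtk6fxx_smul_unif_mem hπ0 g 𝔫 hgA hgA') hj
  have h2 : Rtk6ewCong (SemilinearAut.toRingAut g⁻¹ : F ≃+* F).toRingHom 1 𝔫 :=
    rtk6fxx_cong_of_decomp 𝔫 j hram _
      (fun b => rtk6gf_ew_preserves g⁻¹ (rtk6gf_inv_smul_of_smul g hgu) hgA' b)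
      (rtk6fxx_smul_unif_mem hπ0 g⁻¹ 𝔫 hgA' (by rwa [inv_inv])) hj'
  exact ⟨rtk6fxx_fix_of_cong g 𝔫 h1 h2, h1⟩

end OneLevel

section TwoLevel

variable {A₁ E₁ F₁ : Type*} [CommRing A₁] [IsDomain A₁] [IsDiscreteValuationRing A₁]
  [Field E₁] [Algebra A₁ E₁] [IsFractionRing A₁ E₁] [CharZero E₁]
  [Field F₁] [Algebra E₁ F₁] [Algebra A₁ F₁] [IsScalarTower A₁ E₁ F₁]
  {π₁ : A₁}
  {A' E' F' : Type*} [CommRing A'] [IsDomain A'] [IsDiscreteValuationRing A']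
  [Field E'] [Algebra A' E'] [IsFractionRing A' E'] [CharZero E']
  [Field F'] [Algebra E' F'] [Algebra A' F'] [IsScalarTower A' E' F']
  {π' : A'}

/-- The closed point `𝔫 ∩ R₁` of the chart `R₁ = zchClosure {u₁}` of the level `A₁` under a closed
point `𝔫` of the chart `B′ = zchClosure {u}` of the level `A′`. -/
def rtk6fxxPt {u₁ : F₁} {u : F'}
    (j : ↥(zchClosure (A₀ := A₁) ({u₁} : Set F₁)) →+* ↥(zchClosure (A₀ := A') ({u} : Set F')))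
    (hram : MgcRamified j (algebraMap A' ↥(zchClosure (A₀ := A') ({u} : Set F')) π')
      (algebraMap A₁ ↥(zchClosure (A₀ := A₁) ({u₁} : Set F₁)) π₁))
    (𝔫 : AtPt (F := F') π' u) : AtPt (F := F₁) π₁ u₁ :=
  ⟨𝔫.1.comap j,
    haveI : 𝔫.1.IsMaximal := 𝔫.2.1
    hram.mgg_comap_isMaximal 𝔫.1 𝔫.2.2,
    Ideal.mem_comap.2 (by
      obtain ⟨z, hz⟩ := hram.dvd
      rw [hz]
      exact 𝔫.1.mul_mem_right _ 𝔫.2.2)⟩

theorem rtk6fxx_mem_pt {u₁ : F₁} {u : F'}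
    (j : ↥(zchClosure (A₀ := A₁) ({u₁} : Set F₁)) →+* ↥(zchClosure (A₀ := A') ({u} : Set F')))
    (hram : MgcRamified j (algebraMap A' ↥(zchClosure (A₀ := A') ({u} : Set F')) π')
      (algebraMap A₁ ↥(zchClosure (A₀ := A₁) ({u₁} : Set F₁)) π₁))
    (𝔫 : AtPt (F := F') π' u) (c : ↥(zchClosure (A₀ := A₁) ({u₁} : Set F₁))) :
    c ∈ (rtk6fxxPt j hram 𝔫).1 ↔ j c ∈ 𝔫.1 := Iff.rfl

omit [Algebra E₁ F₁] [Algebra A₁ F₁] [IsScalarTower A₁ E₁ F₁] [Algebra E' F'] [Algebra A' F']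
  [IsScalarTower A' E' F'] [CommRing A₁] [IsDomain A₁] [IsDiscreteValuationRing A₁]
  [Field E₁] [Algebra A₁ E₁] [IsFractionRing A₁ E₁] [CharZero E₁] [CommRing A'] [IsDomain A']
  [IsDiscreteValuationRing A'] [Field E'] [Algebra A' E'] [IsFractionRing A' E'] [CharZero E'] in
/-- the nonunits of the restriction of a valuation ring -/
theorem rtk6fxx_nonunits_comap (ι : F₁ →+* F') (W : ValuationSubring F') {x : F₁} :
    x ∈ (W.comap ι).nonunits ↔ ι x ∈ W.nonunits := by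
  rw [ValuationSubring.mem_nonunits_iff_or, ValuationSubring.mem_nonunits_iff_or,
    ValuationSubring.mem_comap, map_inv₀, map_eq_zero]

/-- a component through `𝔫` restricts to a component through `𝔫 ∩ R₁` -/
theorem rtk6fxx_through_comap {u₁ : F₁} {u : F'} (ι : F₁ →+* F')
    (j : ↥(zchClosure (A₀ := A₁) ({u₁} : Set F₁)) →+* ↥(zchClosure (A₀ := A') ({u} : Set F')))
    (hj : ∀ b, ((j b : ↥(zchClosure (A₀ := A') ({u} : Set F'))) : F') = ι (b : F₁))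
    (hram : MgcRamified j (algebraMap A' ↥(zchClosure (A₀ := A') ({u} : Set F')) π')
      (algebraMap A₁ ↥(zchClosure (A₀ := A₁) ({u₁} : Set F₁)) π₁))
    (𝔫 : AtPt (F := F') π' u) (W : ValuationSubring F') (hW : atThrough 𝔫 W) :
    atThrough (rtk6fxxPt j hram 𝔫) (W.comap ι) := by
  intro b hb
  refine (rtk6fxx_mem_pt j hram 𝔫 b).2 (hW (j b) ?_)
  rw [hj]
  exact (rtk6fxx_nonunits_comap ι W).1 hb

/-- **FIX-X, two levels, ring homomorphisms.**  `Φ ∘ ι = ι ∘ Φ₁` on the chart `R₁`, `Φ` preserves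
the chart `B′`, `Φ π′ ∈ 𝔫`: `Φ₁ ≡ id` modulo `𝔫 ∩ R₁` ⇒ `Φ ≡ id` modulo `𝔫`. -/
theorem rtk6fxx_cong_transfer {u₁ : F₁} {u : F'} (ι : F₁ →+* F')
    (j : ↥(zchClosure (A₀ := A₁) ({u₁} : Set F₁)) →+* ↥(zchClosure (A₀ := A') ({u} : Set F')))
    (hj : ∀ b, ((j b : ↥(zchClosure (A₀ := A') ({u} : Set F'))) : F') = ι (b : F₁))
    (hram : MgcRamified j (algebraMap A' ↥(zchClosure (A₀ := A') ({u} : Set F')) π')
      (algebraMap A₁ ↥(zchClosure (A₀ := A₁) ({u₁} : Set F₁)) π₁))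
    (𝔫 : AtPt (F := F') π' u) (Φ₁ : F₁ →+* F₁) (Φ : F' →+* F')
    (hΦι : ∀ b : ↥(zchClosure (A₀ := A₁) ({u₁} : Set F₁)), Φ (ι (b : F₁)) = ι (Φ₁ (b : F₁)))
    (hΦB : ∀ b : ↥(zchClosure (A₀ := A') ({u} : Set F')),
      ∃ b' : ↥(zchClosure (A₀ := A') ({u} : Set F')), Φ (b : F') = (b' : F'))
    (hΦπ : ∃ z : ↥(zchClosure (A₀ := A') ({u} : Set F')), z ∈ 𝔫.1 ∧
      Φ (algebraMap A' F' π') = (z : F'))
    (h₁ : Rtk6ewCong Φ₁ 1 (rtk6fxxPt j hram 𝔫)) : Rtk6ewCong Φ 1 𝔫 := by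
  refine rtk6fxx_cong_of_decomp 𝔫 j hram Φ hΦB hΦπ fun c => ?_
  obtain ⟨c₁, hc₁, hΦc⟩ := h₁ c
  refine ⟨j c₁, (rtk6fxx_mem_pt j hram 𝔫 c₁).1 hc₁, ?_⟩
  rw [hj, hj, hΦι, hΦc, pow_one, map_add]

/-- `Rtk6ewCong g⁻¹ 1 𝔫` from `Rtk6ewFix g 𝔫` and `Rtk6ewCong g 1 𝔫` -/
theorem rtk6fxx_cong_inv (g : SemilinearAut E₁ F₁) {u₁ : F₁} (𝔫₁ : AtPt (F := F₁) π₁ u₁)
    (hf : Rtk6ewFix g 𝔫₁)
    (hc : Rtk6ewCong (SemilinearAut.toRingAut g : F₁ ≃+* F₁).toRingHom 1 𝔫₁) :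
    Rtk6ewCong (SemilinearAut.toRingAut g⁻¹ : F₁ ≃+* F₁).toRingHom 1 𝔫₁ := by
  intro b
  obtain ⟨c, hc𝔫, hbc⟩ := hc b
  obtain ⟨c', hc', hcc'⟩ := hf.2 c hc𝔫
  refine ⟨-c', 𝔫₁.1.neg_mem hc', ?_⟩
  rw [pow_one] at hbc ⊢
  have h1 : g • (b : F₁) = (b : F₁) + (c : F₁) := hbc
  have h2 : g⁻¹ • ((b : F₁) + (c : F₁)) = (b : F₁) := by rw [← h1, inv_smul_smul]
  rw [smul_add, hcc'] at h2
  show g⁻¹ • (b : F₁) = (b : F₁) + ((-c' : ↥(zchClosure (A₀ := A₁) ({u₁} : Set F₁))) : F₁)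
  have e : ((-c' : ↥(zchClosure (A₀ := A₁) ({u₁} : Set F₁))) : F₁) = -(c' : F₁) := rfl
  rw [e]
  linear_combination h2

/-- **FIX-X, two levels, semilinear automorphisms** (the transfer of `StbCrossFrob g 1 𝔫`):
`g ∘ ι = ι ∘ g₁`, `g • u = u`, `g`, `g⁻¹` preserve `A′`; then
`Rtk6ewFix g₁ (𝔫 ∩ R₁) ∧ Rtk6ewCong g₁ 1 (𝔫 ∩ R₁)` (the output of `rtk6c4x_crossAt`) gives
`Rtk6ewFix g 𝔫 ∧ Rtk6ewCong g 1 𝔫`. -/
theorem rtk6fxx_crossFrob_transfer (hπ0 : π' ≠ 0) {u₁ : F₁} {u : F'} (ι : F₁ →+* F')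
    (j : ↥(zchClosure (A₀ := A₁) ({u₁} : Set F₁)) →+* ↥(zchClosure (A₀ := A') ({u} : Set F')))
    (hj : ∀ b, ((j b : ↥(zchClosure (A₀ := A') ({u} : Set F'))) : F') = ι (b : F₁))
    (hram : MgcRamified j (algebraMap A' ↥(zchClosure (A₀ := A') ({u} : Set F')) π')
      (algebraMap A₁ ↥(zchClosure (A₀ := A₁) ({u₁} : Set F₁)) π₁))
    (𝔫 : AtPt (F := F') π' u) (g₁ : SemilinearAut E₁ F₁) (g : SemilinearAut E' F')
    (hgι : ∀ x : F₁, g • ι x = ι (g₁ • x)) (hgu : g • u = u)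
    (hgA : ∀ α : A', ∃ α' : A', g • algebraMap A' F' α = algebraMap A' F' α')
    (hgA' : ∀ α : A', ∃ α' : A', g⁻¹ • algebraMap A' F' α = algebraMap A' F' α')
    (h₁ : Rtk6ewFix g₁ (rtk6fxxPt j hram 𝔫) ∧
      Rtk6ewCong (SemilinearAut.toRingAut g₁ : F₁ ≃+* F₁).toRingHom 1 (rtk6fxxPt j hram 𝔫)) :
    Rtk6ewFix g 𝔫 ∧ Rtk6ewCong (SemilinearAut.toRingAut g : F' ≃+* F').toRingHom 1 𝔫 := by
  have hgι' : ∀ x : F₁, g⁻¹ • ι x = ι (g₁⁻¹ • x) := by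
    intro x
    have h := hgι (g₁⁻¹ • x)
    rw [smul_inv_smul] at h
    rw [← h, inv_smul_smul]
  have h1 : Rtk6ewCong (SemilinearAut.toRingAut g : F' ≃+* F').toRingHom 1 𝔫 :=
    rtk6fxx_cong_transfer ι j hj hram 𝔫 _ _ (fun b => hgι _)
      (fun b => rtk6gf_ew_preserves g hgu hgA b)
      (rtk6fxx_smul_unif_mem hπ0 g 𝔫 hgA hgA') h₁.2
  have h2 : Rtk6ewCong (SemilinearAut.toRingAut g⁻¹ : F' ≃+* F').toRingHom 1 𝔫 :=
    rtk6fxx_cong_transfer ι j hj hram 𝔫 _ _ (fun b => hgι' _)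
      (fun b => rtk6gf_ew_preserves g⁻¹ (rtk6gf_inv_smul_of_smul g hgu) hgA' b)
      (rtk6fxx_smul_unif_mem hπ0 g⁻¹ 𝔫 hgA' (by rwa [inv_inv]))
      (rtk6fxx_cong_inv g₁ _ h₁.1 h₁.2)
  exact ⟨rtk6fxx_fix_of_cong g 𝔫 h1 h2, h1⟩

/-- **FIX-X, the family form** (abstract `Rtk6emFixAt` / `Rtk6emCongAt`): if two distinct
components of the family `V` through a closed point `𝔫` of the chart `B′` restrict to two
distinct components of the family `V₁` through `𝔫 ∩ R₁` (FAM-res), and `g₁` satisfies (FIX) and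
(CONG) at the crossing points of the chart `R₁` of the level `A₁`, then `g` satisfies (FIX) and
(CONG) at the crossing points of the chart `B′`. -/
theorem rtk6fxx_family_transfer (hπ0 : π' ≠ 0) {u₁ : F₁} {u : F'} (ι : F₁ →+* F')
    (j : ↥(zchClosure (A₀ := A₁) ({u₁} : Set F₁)) →+* ↥(zchClosure (A₀ := A') ({u} : Set F')))
    (hj : ∀ b, ((j b : ↥(zchClosure (A₀ := A') ({u} : Set F'))) : F') = ι (b : F₁))
    (hram : MgcRamified j (algebraMap A' ↥(zchClosure (A₀ := A') ({u} : Set F')) π')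
      (algebraMap A₁ ↥(zchClosure (A₀ := A₁) ({u₁} : Set F₁)) π₁))
    {κ κ₁ : Type*} (V : κ → ValuationSubring F') (V₁ : κ₁ → ValuationSubring F₁)
    (hres : ∀ (𝔫 : AtPt (F := F') π' u) (c₁ c₂ : κ), c₁ ≠ c₂ → atThrough 𝔫 (V c₁) →
      atThrough 𝔫 (V c₂) → ∃ d₁ d₂ : κ₁, d₁ ≠ d₂ ∧ atThrough (rtk6fxxPt j hram 𝔫) (V₁ d₁) ∧
        atThrough (rtk6fxxPt j hram 𝔫) (V₁ d₂))
    (g₁ : SemilinearAut E₁ F₁) (g : SemilinearAut E' F')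
    (hgι : ∀ x : F₁, g • ι x = ι (g₁ • x)) (hgu : g • u = u)
    (hgA : ∀ α : A', ∃ α' : A', g • algebraMap A' F' α = algebraMap A' F' α')
    (hgA' : ∀ α : A', ∃ α' : A', g⁻¹ • algebraMap A' F' α = algebraMap A' F' α')
    (hfix₁ : ∀ (𝔫₁ : AtPt (F := F₁) π₁ u₁) (d₁ d₂ : κ₁), d₁ ≠ d₂ → atThrough 𝔫₁ (V₁ d₁) →
      atThrough 𝔫₁ (V₁ d₂) → Rtk6ewFix g₁ 𝔫₁)
    (hcong₁ : ∀ (𝔫₁ : AtPt (F := F₁) π₁ u₁) (d₁ d₂ : κ₁), d₁ ≠ d₂ → atThrough 𝔫₁ (V₁ d₁) →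
      atThrough 𝔫₁ (V₁ d₂) →
      Rtk6ewCong (SemilinearAut.toRingAut g₁ : F₁ ≃+* F₁).toRingHom 1 𝔫₁) :
    (∀ (𝔫 : AtPt (F := F') π' u) (c₁ c₂ : κ), c₁ ≠ c₂ → atThrough 𝔫 (V c₁) →
      atThrough 𝔫 (V c₂) → Rtk6ewFix g 𝔫) ∧
    (∀ (𝔫 : AtPt (F := F') π' u) (c₁ c₂ : κ), c₁ ≠ c₂ → atThrough 𝔫 (V c₁) →
      atThrough 𝔫 (V c₂) →
      Rtk6ewCong (SemilinearAut.toRingAut g : F' ≃+* F').toRingHom 1 𝔫) := by
  have key : ∀ (𝔫 : AtPt (F := F') π' u) (c₁ c₂ : κ), c₁ ≠ c₂ → atThrough 𝔫 (V c₁) →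
      atThrough 𝔫 (V c₂) →
      Rtk6ewFix g 𝔫 ∧ Rtk6ewCong (SemilinearAut.toRingAut g : F' ≃+* F').toRingHom 1 𝔫 := by
    intro 𝔫 c₁ c₂ hc h1 h2
    obtain ⟨d₁, d₂, hd, hd1, hd2⟩ := hres 𝔫 c₁ c₂ hc h1 h2
    exact rtk6fxx_crossFrob_transfer hπ0 ι j hj hram 𝔫 g₁ g hgι hgu hgA hgA'
      ⟨hfix₁ _ d₁ d₂ hd hd1 hd2, hcong₁ _ d₁ d₂ hd hd1 hd2⟩
  exact ⟨fun 𝔫 c₁ c₂ hc h1 h2 => (key 𝔫 c₁ c₂ hc h1 h2).1,
    fun 𝔫 c₁ c₂ hc h1 h2 => (key 𝔫 c₁ c₂ hc h1 h2).2⟩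

end TwoLevel

end Fermat.Agent.RT.K6
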