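/-
K-machine, piece K6, piece **FIX-X** (helper67), concrete TOP half: the hypotheses `Rtk6emFixAt`,
`Rtk6emCongAt` of E-MAIN (`RT/K6/EMain.lean`) at the level `K₁`, for `g = σ̂ = rtk6diGal σ` and
`Φ = δ′` a diamond, from the corresponding statements at a THIN intermediate level `K₁′ ≤ K₁`.

`A₁ = mgcA A K₁′` (uniformizer `ϖ₁`), `A′ = mgcA A K₁` (uniformizer `π`),
`F₁ = rtk6diF A K₁′ L M H`, `F′ = rtk6diF A K₁ L M H`, `ι : F₁ → F′`,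
`R₁ = zchClosure {u₁}`, `B′ = zchClosure {u}`, `j : R₁ →+* B′` the (D-BC) map
(`MgcRamified j π ϖ₁`, `(j b : F′) = ι b`): the hypothesis `hD` has LITERALLY the shape of
helper81's `rtk6c4b_chartAt` (`RT/K6/C4InstBNode.lean`), the output of helper56's
`rtk6dbc_chart_t`, `rtk6dbc_chart_tinv`.

**The thin hypothesis** (`Rtk6fxxThin g₁ u₁`): at every closed point `𝔫₁` of the special fibre of
`R₁`, either `𝔫₁` is a smooth point, `𝔫₁ = (ϖ₁, s)` locally, or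
`Rtk6ewFix g₁ 𝔫₁ ∧ Rtk6ewCong g₁ 1 𝔫₁` (the second part of helper94's `rtk6c4x_crossAt`).

NO FAM-res is needed: if `𝔫 ∩ R₁` is a smooth point then `𝔫 = (π, j s)` locally
(`mgg_locGen_pair`) and only one component of the family passes through `𝔫` (`stb_sx_only`).

* `rtk6fxx_point`        : abstract, at one closed point `𝔫` of `B′`;
* `Rtk6fxxThin`, `rtk6fxx_thin_of_node` : the thin hypothesis, and its derivation from a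
  dichotomy in the shape of `Rtk6ewmNodeAt … (RingHom.id _) ϖ₁` with C4+ attached;
* `rtk6fxx_fixCongAt`    : `Rtk6emFixAt … g u ∧ Rtk6emCongAt … g u` for general `g`, `g₁`;
* `rtk6fxx_gal_compat`, `rtk6fxx_diamond_compat` : `g ∘ ι = ι ∘ g₁` for `σ̂` and the diamonds;
* `rtk6fxx_fixCongAt_gal`, `rtk6fxx_fixCongAt_diamond` : the two instances;
* `rtk6fxx_provider`     : `Rtk6emFixAt … (rtk6diGal σ) u ∧ Rtk6emCongAt … (ofAlgAut δ′) u`, the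
  body of the provider `hFix` of `rtk6ei_geomChi_of_pieces` (`RT/K6/EInstGlue.lean`).
-/
import Fermat.Agent.RT.K6.FixXAbs
import Fermat.Agent.RT.K6.EMain
import Fermat.Agent.RT.K6.FamResFam
import Fermat.Agent.RT.K6.FixU
import Fermat.Agent.STB.SmoothOnly

set_option autoImplicit false
set_option linter.style.haveILetI false
set_option linter.unusedSectionVars false
set_option linter.unusedVariables false
set_option linter.style.longLine false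

noncomputable section

namespace Fermat.Agent.RT.K6

open ModularCurve AlgebraicCurve Fermat.Agent.ES Fermat.Agent.ES.G2 Fermat.Agent.INJ
open Fermat.Agent.UNIP Fermat.Agent.STB Fermat.Agent.ES1 Fermat.Agent.ES1.G2 IntermediateField

/-! ### Abstract: one closed point -/

section Point

variable {A₁ E₁ F₁ : Type*} [CommRing A₁] [IsDomain A₁] [IsDiscreteValuationRing A₁]
  [Field E₁] [Algebra A₁ E₁] [IsFractionRing A₁ E₁] [CharZero E₁]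
  [Field F₁] [Algebra E₁ F₁] [Algebra A₁ F₁] [IsScalarTower A₁ E₁ F₁]
  {π₁ : A₁}
  {A' E' F' : Type*} [CommRing A'] [IsDomain A'] [IsDiscreteValuationRing A']
  [Field E'] [Algebra A' E'] [IsFractionRing A' E'] [CharZero E']
  [Field F'] [Algebra E' F'] [Algebra A' F'] [IsScalarTower A' E' F']
  {π' : A'} {κ : Type*}

/-- **The thin hypothesis at one point**: smooth point, or (FIX) + (CONG) for `g₁`. -/
def Rtk6fxxThinAt (g₁ : SemilinearAut E₁ F₁) {u₁ : F₁} (𝔫₁ : AtPt (F := F₁) π₁ u₁) : Prop :=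
  (∃ s : ↥(zchClosure (A₀ := A₁) ({u₁} : Set F₁)), s ∈ 𝔫₁.1 ∧
    NodesLocGen 𝔫₁.1 {algebraMap A₁ ↥(zchClosure (A₀ := A₁) ({u₁} : Set F₁)) π₁, s}) ∨
  (Rtk6ewFix g₁ 𝔫₁ ∧ Rtk6ewCong (SemilinearAut.toRingAut g₁ : F₁ ≃+* F₁).toRingHom 1 𝔫₁)

/-- the thin hypothesis from a dichotomy in the shape of `Rtk6ewmNodeAt V₁ 𝔫₁ (RingHom.id _) ϖ₁`
whose crossing alternative carries C4+ -/
theorem rtk6fxx_thinAt_of_node (g₁ : SemilinearAut E₁ F₁) {u₁ : F₁}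
    (𝔫₁ : AtPt (F := F₁) π₁ u₁)
    (h : (∃ s : ↥(zchClosure (A₀ := A₁) ({u₁} : Set F₁)),
        (RingHom.id ↥(zchClosure (A₀ := A₁) ({u₁} : Set F₁))) s ∈ 𝔫₁.1 ∧
        NodesLocGen (𝔫₁.1.comap (RingHom.id ↥(zchClosure (A₀ := A₁) ({u₁} : Set F₁))))
          {algebraMap A₁ ↥(zchClosure (A₀ := A₁) ({u₁} : Set F₁)) π₁, s}) ∨
      (Rtk6ewFix g₁ 𝔫₁ ∧
        Rtk6ewCong (SemilinearAut.toRingAut g₁ : F₁ ≃+* F₁).toRingHom 1 𝔫₁)) :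
    Rtk6fxxThinAt g₁ 𝔫₁ := by
  rcases h with ⟨s, hs, hgen⟩ | h
  · refine Or.inl ⟨s, hs, ?_⟩
    rwa [Ideal.comap_id] at hgen
  · exact Or.inr h

/-- **FIX-X at one closed point `𝔫` of the chart `B′`** through which two distinct components
of the family `V` pass. -/
theorem rtk6fxx_point (hπ0 : π' ≠ 0) {u₁ : F₁} {u : F'}
    [IsNoetherianRing ↥(zchClosure (A₀ := A') ({u} : Set F'))]
    (V : κ → ValuationSubring F') (hinj : Function.Injective V)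
    (hBV : ∀ c (b : F'), IsIntegral ↥(Algebra.adjoin A' {u}) b → b ∈ V c)
    (hπV : ∀ c, algebraMap A' F' π' ∈ (V c).nonunits)
    (harch : ∀ c (a x : F'), a ∈ (V c).nonunits → ∃ N : ℕ, a ^ N * x ∈ (V c).nonunits)
    (hVloc : ∀ c (x : F'), x ∈ V c → ∃ b s : F', IsIntegral ↥(Algebra.adjoin A' {u}) b ∧
      IsIntegral ↥(Algebra.adjoin A' {u}) s ∧ s ∉ (V c).nonunits ∧ s * x = b)
    (ι : F₁ →+* F')
    (j : ↥(zchClosure (A₀ := A₁) ({u₁} : Set F₁)) →+* ↥(zchClosure (A₀ := A') ({u} : Set F')))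
    (hj : ∀ b, ((j b : ↥(zchClosure (A₀ := A') ({u} : Set F'))) : F') = ι (b : F₁))
    (hram : MgcRamified j (algebraMap A' ↥(zchClosure (A₀ := A') ({u} : Set F')) π')
      (algebraMap A₁ ↥(zchClosure (A₀ := A₁) ({u₁} : Set F₁)) π₁))
    (g₁ : SemilinearAut E₁ F₁) (g : SemilinearAut E' F')
    (hgι : ∀ x : F₁, g • ι x = ι (g₁ • x)) (hgu : g • u = u)
    (hgA : ∀ α : A', ∃ α' : A', g • algebraMap A' F' α = algebraMap A' F' α')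
    (hgA' : ∀ α : A', ∃ α' : A', g⁻¹ • algebraMap A' F' α = algebraMap A' F' α')
    (𝔫 : AtPt (F := F') π' u) (hthin : Rtk6fxxThinAt g₁ (rtk6fxxPt j hram 𝔫))
    (c₁ c₂ : κ) (hc : c₁ ≠ c₂) (h₁ : atThrough 𝔫 (V c₁)) (h₂ : atThrough 𝔫 (V c₂)) :
    Rtk6ewFix g 𝔫 ∧ Rtk6ewCong (SemilinearAut.toRingAut g : F' ≃+* F').toRingHom 1 𝔫 := by
  have hπ0' : algebraMap A' F' π' ≠ 0 := fun h0 =>
    hπ0 (rtk6fxx_algebraMap_injective (A₀ := A') (F := F') E' (by rw [h0, map_zero]))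
  rcases hthin with ⟨s, hs, hgen⟩ | h
  · have hnle := rtk6ewm_hinc hπ0' V hinj hπV harch
    exact absurd (stb_sx_only V hBV hπV hVloc hnle 𝔫 (j s)
      ((rtk6fxx_mem_pt j hram 𝔫 s).1 hs) (hram.mgg_locGen_pair 𝔫.2.2 s hgen) c₁ c₂ h₁ h₂) hc
  · exact rtk6fxx_crossFrob_transfer hπ0 ι j hj hram 𝔫 g₁ g hgι hgu hgA hgA' h

end Point

/-! ### Concrete -/

section Conc

variable {A : ValuationSubring Qb} {K₁' K₁ : IntermediateField ℚ Qb}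
  [IsDiscreteValuationRing ↥(mgcA A K₁')] [IsDiscreteValuationRing ↥(mgcA A K₁)]
  {ϖ₁ : ↥(mgcA A K₁')} {π : ↥(mgcA A K₁)} {L M : ℕ} {H : Subgroup (ZMod M)ˣ}
  {κ : Type} (V : κ → ValuationSubring ↥(rtk6diF A K₁ L M H))
  (ι : ↥(rtk6diF A K₁' L M H) →+* ↥(rtk6diF A K₁ L M H))

/-- **The thin hypothesis** on the chart `u₁` of the level `K₁′`, for `g₁`. -/
def Rtk6fxxThin (ϖ₁ : ↥(mgcA A K₁'))
    (g₁ : SemilinearAut ↥(mgcE A K₁') ↥(rtk6diF A K₁' L M H))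
    (u₁ : ↥(rtk6diF A K₁' L M H)) : Prop :=
  ∀ 𝔫₁ : AtPt (F := ↥(rtk6diF A K₁' L M H)) ϖ₁ u₁, Rtk6fxxThinAt g₁ 𝔫₁

/-- **FIX-X, general `g`**: `Rtk6emFixAt` and `Rtk6emCongAt` at `K₁` on the chart `u` (`= t` or
`t⁻¹`) from the thin hypothesis on the chart `u₁` at `K₁′`, the (D-BC) datum and the family. -/
theorem rtk6fxx_fixCongAt (hL : L ≠ 0) (hML : M ∣ L) (hπ : Irreducible π)
    (hfam : Rtk6emFam A K₁ L M H π V)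
    {u₁ : ↥(rtk6diF A K₁' L M H)} {u : ↥(rtk6diF A K₁ L M H)}
    (hu : u = rtk6diT A K₁ L M H ∨ u = (rtk6diT A K₁ L M H)⁻¹)
    (hD : ∃ j : ↥(zchClosure (A₀ := ↥(mgcA A K₁'))
          ({u₁} : Set ↥(rtk6diF A K₁' L M H))) →+*
        ↥(zchClosure (A₀ := ↥(mgcA A K₁)) ({u} : Set ↥(rtk6diF A K₁ L M H))),
      (∀ b, ((j b : ↥(zchClosure (A₀ := ↥(mgcA A K₁))
        ({u} : Set ↥(rtk6diF A K₁ L M H)))) : ↥(rtk6diF A K₁ L M H)) =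
          ι (b : ↥(rtk6diF A K₁' L M H))) ∧
      MgcRamified j
        (algebraMap ↥(mgcA A K₁) ↥(zchClosure (A₀ := ↥(mgcA A K₁))
          ({u} : Set ↥(rtk6diF A K₁ L M H))) π)
        (algebraMap ↥(mgcA A K₁') ↥(zchClosure (A₀ := ↥(mgcA A K₁'))
          ({u₁} : Set ↥(rtk6diF A K₁' L M H))) ϖ₁))
    (g₁ : SemilinearAut ↥(mgcE A K₁') ↥(rtk6diF A K₁' L M H))
    (g : SemilinearAut ↥(mgcE A K₁) ↥(rtk6diF A K₁ L M H))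
    (hgι : ∀ x : ↥(rtk6diF A K₁' L M H), g • ι x = ι (g₁ • x)) (hgu : g • u = u)
    (hgA : ∀ α : ↥(mgcA A K₁), ∃ α' : ↥(mgcA A K₁),
      g • algebraMap ↥(mgcA A K₁) ↥(rtk6diF A K₁ L M H) α =
        algebraMap ↥(mgcA A K₁) ↥(rtk6diF A K₁ L M H) α')
    (hgA' : ∀ α : ↥(mgcA A K₁), ∃ α' : ↥(mgcA A K₁),
      g⁻¹ • algebraMap ↥(mgcA A K₁) ↥(rtk6diF A K₁ L M H) α =
        algebraMap ↥(mgcA A K₁) ↥(rtk6diF A K₁ L M H) α')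
    (hthin : Rtk6fxxThin ϖ₁ g₁ u₁) :
    Rtk6emFixAt A K₁ L M H π V g u ∧ Rtk6emCongAt A K₁ L M H π V g u := by
  obtain ⟨j, hj, hram⟩ := hD
  haveI := rtk6di_finiteDimensional A K₁ L M H hL hML
  have ht := rtk6di_transcendental A K₁ L M H
  have ht' : Transcendental ↥(mgcE A K₁) (rtk6diT A K₁ L M H)⁻¹ := zch_transcendental_inv ht
  haveI : FiniteDimensional (↥(mgcE A K₁))⟮(rtk6diT A K₁ L M H)⁻¹⟯ ↥(rtk6diF A K₁ L M H) :=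
    at_finiteDimensional_inv (rtk6diT A K₁ L M H)
  have key : ∀ (𝔫 : AtPt (F := ↥(rtk6diF A K₁ L M H)) π u) (c₁ c₂ : κ), c₁ ≠ c₂ →
      atThrough 𝔫 (V c₁) → atThrough 𝔫 (V c₂) →
      Rtk6ewFix g 𝔫 ∧ Rtk6ewCong (SemilinearAut.toRingAut g :
        ↥(rtk6diF A K₁ L M H) ≃+* ↥(rtk6diF A K₁ L M H)).toRingHom 1 𝔫 := by
    rcases hu with rfl | rfl
    · haveI : IsNoetherianRing ↥(zchClosure (A₀ := ↥(mgcA A K₁))
          ({rtk6diT A K₁ L M H} : Set ↥(rtk6diF A K₁ L M H))) :=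
        chart_closure_isNoetherianRing (A₀ := ↥(mgcA A K₁)) (E := ↥(mgcE A K₁)) ht
      intro 𝔫 c₁ c₂ hc h₁ h₂
      exact rtk6fxx_point (E₁ := ↥(mgcE A K₁')) (E' := ↥(mgcE A K₁)) hπ.ne_zero V hfam.hinj
        hfam.hBV₁ hfam.hπV hfam.harch hfam.hVloc₁ ι j hj hram g₁ g hgι hgu hgA hgA' 𝔫
        (hthin _) c₁ c₂ hc h₁ h₂
    · haveI : IsNoetherianRing ↥(zchClosure (A₀ := ↥(mgcA A K₁))
          ({(rtk6diT A K₁ L M H)⁻¹} : Set ↥(rtk6diF A K₁ L M H))) :=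
        chart_closure_isNoetherianRing (A₀ := ↥(mgcA A K₁)) (E := ↥(mgcE A K₁)) ht'
      intro 𝔫 c₁ c₂ hc h₁ h₂
      exact rtk6fxx_point (E₁ := ↥(mgcE A K₁')) (E' := ↥(mgcE A K₁)) hπ.ne_zero V hfam.hinj
        hfam.hBV₂ hfam.hπV hfam.harch hfam.hVloc₂ ι j hj hram g₁ g hgι hgu hgA hgA' 𝔫
        (hthin _) c₁ c₂ hc h₁ h₂
  exact ⟨fun 𝔫 c₁ c₂ hc h₁ h₂ => (key 𝔫 c₁ c₂ hc h₁ h₂).1,
    fun 𝔫 c₁ c₂ hc h₁ h₂ => (key 𝔫 c₁ c₂ hc h₁ h₂).2⟩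

end Conc

/-! ### The two instances: `σ̂` and the diamonds -/

section Inst

variable {A : ValuationSubring Qb} {K₁' K₁ : IntermediateField ℚ Qb}
  {L M : ℕ} {H : Subgroup (ZMod M)ˣ}
  (f : ↥(mgcE A K₁') →+* ↥(mgcE A K₁))
  (hf : ∀ a : ↥(mgcE A K₁'), ((f a : ↥(mgcE A K₁)) : Qb) = (a : Qb))

include hf in
/-- `σ̂ ∘ ι = ι ∘ σ̂₁` for the coefficientwise inclusion `ι` -/
theorem rtk6fxx_gal_compat (σ : Qb ≃ₐ[ℚ] Qb) (hσ₁ : ∀ x ∈ mgcE A K₁', σ x ∈ mgcE A K₁')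
    (hσ : ∀ x ∈ mgcE A K₁, σ x ∈ mgcE A K₁) (x : ↥(rtk6diF A K₁' L M H)) :
    rtk6diGal L M H σ hσ • rtk6diCoeffHom L M H f x =
      rtk6diCoeffHom L M H f (rtk6diGal L M H σ hσ₁ • x) := by
  rw [rtk6diGal_smul, rtk6diGal_smul]
  show rtk6diCoeffHom L M H (mgRestrict (mgcE A K₁) σ hσ) (rtk6diCoeffHom L M H f x) =
    rtk6diCoeffHom L M H f (rtk6diCoeffHom L M H (mgRestrict (mgcE A K₁') σ hσ₁) x)
  rw [rtk6diCoeffHom_comp, rtk6diCoeffHom_comp]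
  refine rtk6diCoeffHom_congr L M H (fun a => Subtype.ext ?_) x
  show σ ((f a : ↥(mgcE A K₁)) : Qb) =
    ((f (mgRestrict (mgcE A K₁') σ hσ₁ a) : ↥(mgcE A K₁)) : Qb)
  rw [hf, hf]
  rfl

include hf in
/-- `δ ∘ ι = ι ∘ δ₁` for the diamonds of the same `c` at the two levels -/
theorem rtk6fxx_diamond_compat (hL : L ≠ 0) (hML : M ∣ L) {c : (ZMod M)ˣ}
    {δ₁ : ↥(rtk6diF A K₁' L M H) ≃ₐ[↥(mgcE A K₁')] ↥(rtk6diF A K₁' L M H)}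
    (hδ₁ : IsDiamondC ↥(mgcE A K₁') L M H c δ₁)
    {δ : ↥(rtk6diF A K₁ L M H) ≃ₐ[↥(mgcE A K₁)] ↥(rtk6diF A K₁ L M H)}
    (hδ : IsDiamondC ↥(mgcE A K₁) L M H c δ) (x : ↥(rtk6diF A K₁' L M H)) :
    SemilinearAut.ofAlgAut δ • rtk6diCoeffHom L M H f x =
      rtk6diCoeffHom L M H f (SemilinearAut.ofAlgAut δ₁ • x) :=
  rtk6frf_diamond L M H f hf hL hML hδ₁ hδ x

/-- a diamond fixes `t⁻¹` -/
theorem rtk6fxx_hΦt_inv {c : (ZMod M)ˣ}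
    {δ : ↥(rtk6diF A K₁ L M H) ≃ₐ[↥(mgcE A K₁)] ↥(rtk6diF A K₁ L M H)}
    (hδ : IsDiamondC ↥(mgcE A K₁) L M H c δ) :
    SemilinearAut.ofAlgAut δ • (rtk6diT A K₁ L M H)⁻¹ = (rtk6diT A K₁ L M H)⁻¹ :=
  at_smul_inv (rtk6em_hΦt hδ)

variable [IsDiscreteValuationRing ↥(mgcA A K₁')] [IsDiscreteValuationRing ↥(mgcA A K₁)]
  {ϖ₁ : ↥(mgcA A K₁')} {π : ↥(mgcA A K₁)}
  {κ : Type} (V : κ → ValuationSubring ↥(rtk6diF A K₁ L M H))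

include hf in
/-- **FIX-X for `g = σ̂`**, `σ` in the decomposition group of `A`. -/
theorem rtk6fxx_fixCongAt_gal (hL : L ≠ 0) (hML : M ∣ L) (hπ : Irreducible π)
    (hfam : Rtk6emFam A K₁ L M H π V)
    {u₁ : ↥(rtk6diF A K₁' L M H)} {u : ↥(rtk6diF A K₁ L M H)}
    (hu : u = rtk6diT A K₁ L M H ∨ u = (rtk6diT A K₁ L M H)⁻¹)
    (hD : ∃ j : ↥(zchClosure (A₀ := ↥(mgcA A K₁'))
          ({u₁} : Set ↥(rtk6diF A K₁' L M H))) →+*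
        ↥(zchClosure (A₀ := ↥(mgcA A K₁)) ({u} : Set ↥(rtk6diF A K₁ L M H))),
      (∀ b, ((j b : ↥(zchClosure (A₀ := ↥(mgcA A K₁))
        ({u} : Set ↥(rtk6diF A K₁ L M H)))) : ↥(rtk6diF A K₁ L M H)) =
          rtk6diCoeffHom L M H f (b : ↥(rtk6diF A K₁' L M H))) ∧
      MgcRamified j
        (algebraMap ↥(mgcA A K₁) ↥(zchClosure (A₀ := ↥(mgcA A K₁))
          ({u} : Set ↥(rtk6diF A K₁ L M H))) π)
        (algebraMap ↥(mgcA A K₁') ↥(zchClosure (A₀ := ↥(mgcA A K₁'))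
          ({u₁} : Set ↥(rtk6diF A K₁' L M H))) ϖ₁))
    {σ : Qb ≃ₐ[ℚ] Qb} (hσD : σ ∈ A.decompositionSubgroup ℚ)
    (hσ₁ : ∀ x ∈ mgcE A K₁', σ x ∈ mgcE A K₁') (hσ : ∀ x ∈ mgcE A K₁, σ x ∈ mgcE A K₁)
    (hthin : Rtk6fxxThin ϖ₁ (rtk6diGal L M H σ hσ₁) u₁) :
    Rtk6emFixAt A K₁ L M H π V (rtk6diGal L M H σ hσ) u ∧
      Rtk6emCongAt A K₁ L M H π V (rtk6diGal L M H σ hσ) u := by
  have hgu : rtk6diGal L M H σ hσ • u = u := by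
    rcases hu with rfl | rfl
    · exact rtk6di_smul_T L M H σ hσ
    · exact rtk6fxu_smul_T_inv L M H σ hσ
  exact rtk6fxx_fixCongAt V (rtk6diCoeffHom L M H f) hL hML hπ hfam hu hD
    (rtk6diGal L M H σ hσ₁) (rtk6diGal L M H σ hσ) (rtk6fxx_gal_compat f hf σ hσ₁ hσ) hgu
    (rtk6dv_hgA L M H hσD hσ) (rtk6dv_hgA_inv L M H hσD hσ) hthin

include hf in
/-- **FIX-X for `Φ = δ`**, a diamond. -/
theorem rtk6fxx_fixCongAt_diamond (hL : L ≠ 0) (hML : M ∣ L) (hπ : Irreducible π)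
    (hfam : Rtk6emFam A K₁ L M H π V)
    {u₁ : ↥(rtk6diF A K₁' L M H)} {u : ↥(rtk6diF A K₁ L M H)}
    (hu : u = rtk6diT A K₁ L M H ∨ u = (rtk6diT A K₁ L M H)⁻¹)
    (hD : ∃ j : ↥(zchClosure (A₀ := ↥(mgcA A K₁'))
          ({u₁} : Set ↥(rtk6diF A K₁' L M H))) →+*
        ↥(zchClosure (A₀ := ↥(mgcA A K₁)) ({u} : Set ↥(rtk6diF A K₁ L M H))),
      (∀ b, ((j b : ↥(zchClosure (A₀ := ↥(mgcA A K₁))
        ({u} : Set ↥(rtk6diF A K₁ L M H)))) : ↥(rtk6diF A K₁ L M H)) =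
          rtk6diCoeffHom L M H f (b : ↥(rtk6diF A K₁' L M H))) ∧
      MgcRamified j
        (algebraMap ↥(mgcA A K₁) ↥(zchClosure (A₀ := ↥(mgcA A K₁))
          ({u} : Set ↥(rtk6diF A K₁ L M H))) π)
        (algebraMap ↥(mgcA A K₁') ↥(zchClosure (A₀ := ↥(mgcA A K₁'))
          ({u₁} : Set ↥(rtk6diF A K₁' L M H))) ϖ₁))
    {c : (ZMod M)ˣ}
    {δ₁ : ↥(rtk6diF A K₁' L M H) ≃ₐ[↥(mgcE A K₁')] ↥(rtk6diF A K₁' L M H)}
    (hδ₁ : IsDiamondC ↥(mgcE A K₁') L M H c δ₁)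
    {δ : ↥(rtk6diF A K₁ L M H) ≃ₐ[↥(mgcE A K₁)] ↥(rtk6diF A K₁ L M H)}
    (hδ : IsDiamondC ↥(mgcE A K₁) L M H c δ)
    (hthin : Rtk6fxxThin ϖ₁ (SemilinearAut.ofAlgAut δ₁) u₁) :
    Rtk6emFixAt A K₁ L M H π V (SemilinearAut.ofAlgAut δ) u ∧
      Rtk6emCongAt A K₁ L M H π V (SemilinearAut.ofAlgAut δ) u := by
  have hgu : SemilinearAut.ofAlgAut δ • u = u := by
    rcases hu with rfl | rfl
    · exact rtk6em_hΦt hδ
    · exact rtk6fxx_hΦt_inv hδ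
  exact rtk6fxx_fixCongAt V (rtk6diCoeffHom L M H f) hL hML hπ hfam hu hD
    (SemilinearAut.ofAlgAut δ₁) (SemilinearAut.ofAlgAut δ)
    (rtk6fxx_diamond_compat f hf hL hML hδ₁ hδ) hgu
    (rtk6em_hΦA L M H δ) (rtk6em_hΦA' L M H δ) hthin

include hf in
/-- **FIX-X, the body of the provider `hFix`** of `rtk6ei_geomChi_of_pieces`
(`RT/K6/EInstGlue.lean`): `Rtk6emFixAt` for `σ̂` and `Rtk6emCongAt` for the diamond `δ`. -/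
theorem rtk6fxx_provider (hL : L ≠ 0) (hML : M ∣ L) (hπ : Irreducible π)
    (hfam : Rtk6emFam A K₁ L M H π V)
    {u₁ : ↥(rtk6diF A K₁' L M H)} {u : ↥(rtk6diF A K₁ L M H)}
    (hu : u = rtk6diT A K₁ L M H ∨ u = (rtk6diT A K₁ L M H)⁻¹)
    (hD : ∃ j : ↥(zchClosure (A₀ := ↥(mgcA A K₁'))
          ({u₁} : Set ↥(rtk6diF A K₁' L M H))) →+*
        ↥(zchClosure (A₀ := ↥(mgcA A K₁)) ({u} : Set ↥(rtk6diF A K₁ L M H))),
      (∀ b, ((j b : ↥(zchClosure (A₀ := ↥(mgcA A K₁))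
        ({u} : Set ↥(rtk6diF A K₁ L M H)))) : ↥(rtk6diF A K₁ L M H)) =
          rtk6diCoeffHom L M H f (b : ↥(rtk6diF A K₁' L M H))) ∧
      MgcRamified j
        (algebraMap ↥(mgcA A K₁) ↥(zchClosure (A₀ := ↥(mgcA A K₁))
          ({u} : Set ↥(rtk6diF A K₁ L M H))) π)
        (algebraMap ↥(mgcA A K₁') ↥(zchClosure (A₀ := ↥(mgcA A K₁'))
          ({u₁} : Set ↥(rtk6diF A K₁' L M H))) ϖ₁))
    {σ : Qb ≃ₐ[ℚ] Qb} (hσD : σ ∈ A.decompositionSubgroup ℚ)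
    (hσ₁ : ∀ x ∈ mgcE A K₁', σ x ∈ mgcE A K₁') (hσ : ∀ x ∈ mgcE A K₁, σ x ∈ mgcE A K₁)
    (hthinσ : Rtk6fxxThin ϖ₁ (rtk6diGal L M H σ hσ₁) u₁)
    {c : (ZMod M)ˣ}
    {δ₁ : ↥(rtk6diF A K₁' L M H) ≃ₐ[↥(mgcE A K₁')] ↥(rtk6diF A K₁' L M H)}
    (hδ₁ : IsDiamondC ↥(mgcE A K₁') L M H c δ₁)
    {δ : ↥(rtk6diF A K₁ L M H) ≃ₐ[↥(mgcE A K₁)] ↥(rtk6diF A K₁ L M H)}
    (hδ : IsDiamondC ↥(mgcE A K₁) L M H c δ)
    (hthinδ : Rtk6fxxThin ϖ₁ (SemilinearAut.ofAlgAut δ₁) u₁) :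
    Rtk6emFixAt A K₁ L M H π V (rtk6diGal L M H σ hσ) u ∧
      Rtk6emCongAt A K₁ L M H π V (SemilinearAut.ofAlgAut δ) u :=
  ⟨(rtk6fxx_fixCongAt_gal f hf V hL hML hπ hfam hu hD hσD hσ₁ hσ hthinσ).1,
    (rtk6fxx_fixCongAt_diamond f hf V hL hML hπ hfam hu hD hδ₁ hδ hthinδ).2⟩

end Inst

end Fermat.Agent.RT.K6
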