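/-
K-machine, piece K6, piece **HSTAB-inst** (helper11): the diamonds of the two levels
`K₁′ ≤ K₁` are compatible with the coefficientwise inclusion
`rtk6dbcIncl L M H h : F₁ = rtk6diF A K₁′ L M H →+* F′ = rtk6diF A K₁ L M H` (`RT/K6/DBCConc.lean`).

* `rtk6hs_nfEmbH_incl`     : `nfEmbH E′ ∘ incl = nfEmbH E₁`;
* **`rtk6hs_diamond_incl`** : `δ′ (incl x) = incl (δ₁ x)` for diamonds `δ′`, `δ₁` with the same `c`;
* `rtk6hs_exists_diamond_incl` : every diamond `δ′` of `F′` restricts to a diamond `δ₁` of `F₁`;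
* `rtk6hsDiam_restrict`    : the form needed for `rtk6hs_thinAt_transfer`
  (`RT/K6/HStabThinTr.lean`) with `D = rtk6hsDiam A K₁ …`, `D₁ = rtk6hsDiam A K₁′ …`;
* `rtk6hsDiam_restrict_smul` : the form needed for `rtk6hs_thinAt_of_plusAt_transfer`, for `𝒢`
  containing `SemilinearAut.ofAlgAut δ₁` for the diamonds `δ₁` at `r` of `F₁`.
-/
import Fermat.Agent.RT.K6.HStabThin
import Fermat.Agent.RT.K6.DBCConc
import Fermat.Agent.RT.K6.DIW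

set_option autoImplicit false
set_option linter.style.haveILetI false
set_option linter.unusedSectionVars false
set_option linter.unusedVariables false

noncomputable section

namespace Fermat.Agent.RT.K6

open ModularCurve AlgebraicCurve Fermat.Agent.ES Fermat.Agent.ES.G2 Fermat.Agent.INJ
open Fermat.Agent.UNIP Fermat.Agent.STB Fermat.Agent.ES1 Fermat.Agent.ES1.G2 IntermediateField

section Diam

variable {A : ValuationSubring Qb} {K₁' K₁ : IntermediateField ℚ Qb}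
  {L M : ℕ} {H : Subgroup (ZMod M)ˣ}

/-- `nfEmbH E′ ∘ incl = nfEmbH E₁` -/
theorem rtk6hs_nfEmbH_incl (h : K₁' ≤ K₁) (x : ↥(rtk6diF A K₁' L M H)) :
    nfEmbH (mgcE A K₁) L M H (rtk6dbcIncl (A := A) L M H h x) = nfEmbH (mgcE A K₁') L M H x := by
  apply Subtype.ext
  show coeffMap (algebraMap ↥(mgcE A K₁) Qb)
      (coeffMap (IntermediateField.inclusion (rtk6eb_mgcE_mono (A := A) h)).toRingHom
        (x : LaurentSeries ↥(mgcE A K₁'))) =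
    coeffMap (algebraMap ↥(mgcE A K₁') Qb) (x : LaurentSeries ↥(mgcE A K₁'))
  rw [coeffMap_coeffMap]
  rfl

/-- **The diamonds of the two levels are compatible with the coefficientwise inclusion.** -/
theorem rtk6hs_diamond_incl [NeZero M] (hL : L ≠ 0) (hML : M ∣ L) (h : K₁' ≤ K₁)
    {c : (ZMod M)ˣ}
    {δ' : ↥(rtk6diF A K₁ L M H) ≃ₐ[↥(mgcE A K₁)] ↥(rtk6diF A K₁ L M H)}
    (hδ' : IsDiamondC ↥(mgcE A K₁) L M H c δ')
    {δ₁ : ↥(rtk6diF A K₁' L M H) ≃ₐ[↥(mgcE A K₁')] ↥(rtk6diF A K₁' L M H)}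
    (hδ₁ : IsDiamondC ↥(mgcE A K₁') L M H c δ₁) (x : ↥(rtk6diF A K₁' L M H)) :
    δ' (rtk6dbcIncl (A := A) L M H h x) = rtk6dbcIncl (A := A) L M H h (δ₁ x) := by
  obtain ⟨δ, hδ⟩ := rtk6diw_exists_diamondH (H := H) hL hML c
  apply nfEmbH_injective (mgcE A K₁) L M H
  rw [rtk6diw_diamond_nfEmbH hδ' hδ, rtk6hs_nfEmbH_incl, rtk6hs_nfEmbH_incl,
    rtk6diw_diamond_nfEmbH hδ₁ hδ]

/-- every diamond of `F′` restricts to a diamond of `F₁` -/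
theorem rtk6hs_exists_diamond_incl [NeZero M] (hL : L ≠ 0) (hML : M ∣ L) (h : K₁' ≤ K₁)
    {c : (ZMod M)ˣ}
    {δ' : ↥(rtk6diF A K₁ L M H) ≃ₐ[↥(mgcE A K₁)] ↥(rtk6diF A K₁ L M H)}
    (hδ' : IsDiamondC ↥(mgcE A K₁) L M H c δ') :
    ∃ δ₁ : ↥(rtk6diF A K₁' L M H) ≃ₐ[↥(mgcE A K₁')] ↥(rtk6diF A K₁' L M H),
      IsDiamondC ↥(mgcE A K₁') L M H c δ₁ ∧
      ∀ x, δ' (rtk6dbcIncl (A := A) L M H h x) = rtk6dbcIncl (A := A) L M H h (δ₁ x) := by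
  haveI : Algebra.IsAlgebraic ℚ Qb := AlgebraicClosure.isAlgebraic ℚ
  haveI : Algebra.IsAlgebraic ℚ ↥(mgcE A K₁') :=
    Algebra.IsAlgebraic.of_injective (mgcE A K₁').val Subtype.val_injective
  obtain ⟨δ₁, hδ₁⟩ := rtk6d0_exists_diamond ↥(mgcE A K₁') H hL hML c
  exact ⟨δ₁, hδ₁, rtk6hs_diamond_incl hL hML h hδ' hδ₁⟩

variable [IsDiscreteValuationRing ↥(mgcA A K₁')] [IsDiscreteValuationRing ↥(mgcA A K₁)]

/-- the diamonds at `r` of `F′` restrict to diamonds at `r` of `F₁`: the hypothesis `hD` of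
`rtk6hs_thinAt_transfer` -/
theorem rtk6hsDiam_restrict [NeZero M] (hL : L ≠ 0) (hML : M ∣ L) (h : K₁' ≤ K₁) (r : ℕ) :
    ∀ δ ∈ rtk6hsDiam A K₁ L M H r, ∃ δ₁ ∈ rtk6hsDiam A K₁' L M H r,
      ∀ x : ↥(rtk6diF A K₁' L M H),
        δ (rtk6dbcIncl (A := A) L M H h x) = rtk6dbcIncl (A := A) L M H h (δ₁ x) := by
  rintro _ ⟨c, δ', hc, hδ', rfl⟩
  obtain ⟨δ₁, hδ₁, hcomm⟩ := rtk6hs_exists_diamond_incl hL hML h hδ'
  exact ⟨δ₁.toRingEquiv.toRingHom, ⟨c, δ₁, hc, hδ₁, rfl⟩, hcomm⟩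

/-- the hypothesis `hD` of `rtk6hs_thinAt_of_plusAt_transfer`, for a set `𝒢` of semilinear
automorphisms of `F₁` containing the diamonds at `r` -/
theorem rtk6hsDiam_restrict_smul [NeZero M] (hL : L ≠ 0) (hML : M ∣ L) (h : K₁' ≤ K₁) (r : ℕ)
    (𝒢 : Set (SemilinearAut ↥(mgcE A K₁') ↥(rtk6diF A K₁' L M H)))
    (h𝒢 : ∀ c : (ZMod M)ˣ, IsAtR M r c →
      ∀ δ₁ : ↥(rtk6diF A K₁' L M H) ≃ₐ[↥(mgcE A K₁')] ↥(rtk6diF A K₁' L M H),
        IsDiamondC ↥(mgcE A K₁') L M H c δ₁ → SemilinearAut.ofAlgAut δ₁ ∈ 𝒢) :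
    ∀ δ ∈ rtk6hsDiam A K₁ L M H r, ∃ g ∈ 𝒢,
      ∀ x : ↥(rtk6diF A K₁' L M H),
        δ (rtk6dbcIncl (A := A) L M H h x) = rtk6dbcIncl (A := A) L M H h (g • x) := by
  rintro _ ⟨c, δ', hc, hδ', rfl⟩
  obtain ⟨δ₁, hδ₁, hcomm⟩ := rtk6hs_exists_diamond_incl hL hML h hδ'
  exact ⟨SemilinearAut.ofAlgAut δ₁, h𝒢 c hc δ₁ hδ₁, hcomm⟩

end Diam

end Fermat.Agent.RT.K6
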