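/-
K-machine, piece K6, piece **FIX-X** (helper67), the PROVIDER: the hypothesis `hFix` of
`rtk6ei_geomChi_of_pieces` (`RT/K6/EInstGlue.lean`) / `rtk6cxb_geomChi`
(`RT/K6/C4ChiInstBThin.lean`), VERBATIM, from the generic (SS1-inst) and the dichotomy with C4+
at ONE thin level per level datum, for the set of automorphisms

  `rtk6fxxG A K₁′ L M H q` = `{σ̂ = rtk6diGal σ | σ ∈ I_A} ∪ {diamonds at q}`.

* `rtk6fxxG`, `rtk6fxx_gal_mem_G`, `rtk6fxx_diamond_mem_G`, `rtk6fxx_cxbDiam_subset_G`;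
* `Rtk6fxxThinPlus A w₀` : the open input — LITERALLY helper76's `Rtk6cxbThinPlus A w₀` with
  `rtk6cxbDiam` replaced by the bigger set `rtk6fxxG`; `Rtk6fxxThinPlus.cxb` (monotonicity);
* `rtk6fxx_fixCong_E` : `Rtk6emFixAt … σ̂ u ∧ Rtk6emCongAt … δ′ u` at `K₁ ⊇ K₁′`, both charts;
* `rtk6fxx_ev`        : the same at all sufficiently large `K₁` (`Rtk6eiEv`, `K₀ := K₁′`);
* **`rtk6fxx_hFix`**    : the provider `hFix`, VERBATIM;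
* **`rtk6fxx_geomChi`** : `StmtRtk6SS1Gen → (hPlus with rtk6fxxG) → StmtRtk6GeomChi`.
-/
import Fermat.Agent.RT.K6.FixX
import Fermat.Agent.RT.K6.C4ChiInstBThin
import Fermat.Agent.RT.K6.HStabDiam

set_option autoImplicit false
set_option linter.style.haveILetI false
set_option linter.unusedSectionVars false
set_option linter.unusedVariables false
set_option linter.style.longLine false

noncomputable section

namespace Fermat.Agent.RT.K6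

open ModularCurve AlgebraicCurve Fermat.Agent.ES Fermat.Agent.ES.G2 Fermat.Agent.INJ
open Fermat.Agent.UNIP Fermat.Agent.STB Fermat.Agent.ES1 Fermat.Agent.ES1.G2 IntermediateField

/-! ### The set of automorphisms -/

section G

variable (A : ValuationSubring Qb) (K₁ : IntermediateField ℚ Qb)
  (L M : ℕ) (H : Subgroup (ZMod M)ˣ)

/-- **The automorphisms of FIX-X**: the coefficientwise actions `σ̂` of the elements of the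
inertia group of `A`, and the diamonds at `r`. -/
def rtk6fxxG (r : ℕ) : Set (SemilinearAut ↥(mgcE A K₁) ↥(rtk6diF A K₁ L M H)) :=
  {g | (∃ (σ : Qb ≃ₐ[ℚ] Qb) (hσ : ∀ x ∈ mgcE A K₁, σ x ∈ mgcE A K₁),
      σ ∈ A.inertiaSubgroupIn ℚ ∧ g = rtk6diGal L M H σ hσ) ∨
    g ∈ rtk6cxbDiam A K₁ L M H r}

variable {A K₁ L M H}

theorem rtk6fxx_gal_mem_G (r : ℕ) {σ : Qb ≃ₐ[ℚ] Qb} (hσI : σ ∈ A.inertiaSubgroupIn ℚ)
    (hσ : ∀ x ∈ mgcE A K₁, σ x ∈ mgcE A K₁) :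
    rtk6diGal L M H σ hσ ∈ rtk6fxxG A K₁ L M H r :=
  Or.inl ⟨σ, hσ, hσI, rfl⟩

theorem rtk6fxx_diamond_mem_G {r : ℕ} {c : (ZMod M)ˣ} (hc : IsAtR M r c)
    {δ : ↥(rtk6diF A K₁ L M H) ≃ₐ[↥(mgcE A K₁)] ↥(rtk6diF A K₁ L M H)}
    (hδ : IsDiamondC ↥(mgcE A K₁) L M H c δ) :
    SemilinearAut.ofAlgAut δ ∈ rtk6fxxG A K₁ L M H r :=
  Or.inr ⟨c, δ, hc, hδ, rfl⟩

theorem rtk6fxx_cxbDiam_subset_G (r : ℕ) :
    rtk6cxbDiam A K₁ L M H r ⊆ rtk6fxxG A K₁ L M H r := fun _ hg => Or.inr hg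

end G

/-! ### One pair of levels -/

section Level

variable {A : ValuationSubring Qb} {K₁' K₁ : IntermediateField ℚ Qb}
  [NumberField ↥K₁'] [IsGalois ℚ ↥K₁'] [NumberField ↥K₁] [IsGalois ℚ ↥K₁]
  [IsDiscreteValuationRing ↥(mgcA A K₁')] [IsDiscreteValuationRing ↥(mgcA A K₁)]
  {q M₁ : ℕ} [NeZero q] [NeZero M₁] [NeZero (M₁ * q)] {M : ℕ} {H : Subgroup (ZMod M)ˣ}

/-- the inclusion `E₁ → E′` is the inclusion on the underlying elements of `ℚ̄` -/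
theorem rtk6fxx_hf (h : K₁' ≤ K₁) (a : ↥(mgcE A K₁')) :
    (((IntermediateField.inclusion (rtk6eb_mgcE_mono (A := A) h)).toRingHom a :
      ↥(mgcE A K₁)) : Qb) = (a : Qb) := by
  rw [AlgHom.toRingHom_eq_coe, RingHom.coe_coe, IntermediateField.coe_inclusion]

/-- the (D-BC) datum in the shape of `rtk6fxx_provider` -/
theorem rtk6fxx_hD_of_dbc {L : ℕ} (h : K₁' ≤ K₁)
    {ϖ₁ : ↥(mgcA A K₁')} {π : ↥(mgcA A K₁)} {q' : ↥(mgcA A K₁)}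
    {u₁ : ↥(rtk6diF A K₁' L M H)} {u : ↥(rtk6diF A K₁ L M H)}
    (hD : ∃ j : ↥(zchClosure (A₀ := ↥(mgcA A K₁'))
          ({u₁} : Set ↥(rtk6diF A K₁' L M H))) →+*
        ↥(zchClosure (A₀ := ↥(mgcA A K₁)) ({u} : Set ↥(rtk6diF A K₁ L M H))),
      (∀ b, ((j b : ↥(zchClosure (A₀ := ↥(mgcA A K₁))
        ({u} : Set ↥(rtk6diF A K₁ L M H)))) : ↥(rtk6diF A K₁ L M H)) =
          rtk6dbcIncl (A := A) L M H h (b : ↥(rtk6diF A K₁' L M H))) ∧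
      MgcRamified j
        (algebraMap ↥(mgcA A K₁) ↥(zchClosure (A₀ := ↥(mgcA A K₁))
          ({u} : Set ↥(rtk6diF A K₁ L M H))) π)
        (algebraMap ↥(mgcA A K₁') ↥(zchClosure (A₀ := ↥(mgcA A K₁'))
          ({u₁} : Set ↥(rtk6diF A K₁' L M H))) ϖ₁) ∧
      j (algebraMap ↥(mgcA A K₁') ↥(zchClosure (A₀ := ↥(mgcA A K₁'))
          ({u₁} : Set ↥(rtk6diF A K₁' L M H))) ϖ₁) =
        algebraMap ↥(mgcA A K₁) ↥(zchClosure (A₀ := ↥(mgcA A K₁))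
          ({u} : Set ↥(rtk6diF A K₁ L M H))) q') :
    ∃ j : ↥(zchClosure (A₀ := ↥(mgcA A K₁'))
          ({u₁} : Set ↥(rtk6diF A K₁' L M H))) →+*
        ↥(zchClosure (A₀ := ↥(mgcA A K₁)) ({u} : Set ↥(rtk6diF A K₁ L M H))),
      (∀ b, ((j b : ↥(zchClosure (A₀ := ↥(mgcA A K₁))
        ({u} : Set ↥(rtk6diF A K₁ L M H)))) : ↥(rtk6diF A K₁ L M H)) =
          rtk6diCoeffHom L M H
            (IntermediateField.inclusion (rtk6eb_mgcE_mono (A := A) h)).toRingHom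
            (b : ↥(rtk6diF A K₁' L M H))) ∧
      MgcRamified j
        (algebraMap ↥(mgcA A K₁) ↥(zchClosure (A₀ := ↥(mgcA A K₁))
          ({u} : Set ↥(rtk6diF A K₁ L M H))) π)
        (algebraMap ↥(mgcA A K₁') ↥(zchClosure (A₀ := ↥(mgcA A K₁'))
          ({u₁} : Set ↥(rtk6diF A K₁' L M H))) ϖ₁) := by
  obtain ⟨j, hj, hram, -⟩ := hD
  exact ⟨j, fun b => hj b, hram⟩

set_option maxHeartbeats 1000000 in
/-- **FIX-X at `K₁`**, both charts, from `Rtk6emFam` + `Rtk6emSS1` and the dichotomy with C4+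
for `rtk6fxxG` on the two charts at a lower level `K₁′ ≤ K₁`, and `Rtk6emFam` at `K₁`. -/
theorem rtk6fxx_fixCong_E (hq : q.Prime) (hA : A.LiesOverPrime q) (h : K₁' ≤ K₁)
    (hML : M ∣ M₁ * q)
    {ϖ₁ : ↥(mgcA A K₁')} (hϖ₁ : Irreducible ϖ₁) {π : ↥(mgcA A K₁)} (hπ : Irreducible π)
    {κ₁ : Type} {V₁ : κ₁ → ValuationSubring ↥(rtk6diF A K₁' (M₁ * q) M H)}
    (fam₁ : Rtk6emFam A K₁' (M₁ * q) M H ϖ₁ V₁) (ss1₁ : Rtk6emSS1 A K₁' (M₁ * q) M H ϖ₁ V₁)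
    {κ : Type} {V : κ → ValuationSubring ↥(rtk6diF A K₁ (M₁ * q) M H)}
    (fam : Rtk6emFam A K₁ (M₁ * q) M H π V)
    (hP₁ : ∀ 𝔫₁ : AtPt (F := ↥(rtk6diF A K₁' (M₁ * q) M H)) ϖ₁ (rtk6diT A K₁' (M₁ * q) M H),
      Rtk6c4aPlusAt V₁ (rtk6fxxG A K₁' (M₁ * q) M H q) 𝔫₁)
    (hP₂ : ∀ 𝔫₁ : AtPt (F := ↥(rtk6diF A K₁' (M₁ * q) M H)) ϖ₁
        (rtk6diT A K₁' (M₁ * q) M H)⁻¹,
      Rtk6c4aPlusAt V₁ (rtk6fxxG A K₁' (M₁ * q) M H q) 𝔫₁)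
    {σ : Qb ≃ₐ[ℚ] Qb} (hσI : σ ∈ A.inertiaSubgroupIn ℚ)
    (hσE : ∀ x ∈ mgcE A K₁, σ x ∈ mgcE A K₁)
    {c' : (ZMod M)ˣ} (hc' : IsAtR M q c')
    {δ₀' : ↥(rtk6diF A K₁ (M₁ * q) M H) ≃ₐ[↥(mgcE A K₁)] ↥(rtk6diF A K₁ (M₁ * q) M H)}
    (hδ₀' : IsDiamondC ↥(mgcE A K₁) (M₁ * q) M H c' δ₀')
    {u : ↥(rtk6diF A K₁ (M₁ * q) M H)}
    (hu : u = rtk6diT A K₁ (M₁ * q) M H ∨ u = (rtk6diT A K₁ (M₁ * q) M H)⁻¹) :
    Rtk6emFixAt A K₁ (M₁ * q) M H π V (rtk6diGal (M₁ * q) M H σ hσE) u ∧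
      Rtk6emCongAt A K₁ (M₁ * q) M H π V (SemilinearAut.ofAlgAut δ₀') u := by
  have hL : M₁ * q ≠ 0 := NeZero.ne (M₁ * q)
  haveI : NeZero M := ⟨fun h0 => hL (Nat.eq_zero_of_zero_dvd (h0 ▸ hML))⟩
  have hσD : σ ∈ A.decompositionSubgroup ℚ := kron_mem_decomposition_of_mem_inertia hσI
  have hσ₁ : ∀ x ∈ mgcE A K₁', σ x ∈ mgcE A K₁' := rtk6eb_stable hσI K₁'
  obtain ⟨δ₁, hδ₁, -⟩ := rtk6hs_exists_diamond_incl (K₁' := K₁') hL hML h hδ₀'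
  have hGσ : rtk6diGal (M₁ * q) M H σ hσ₁ ∈ rtk6fxxG A K₁' (M₁ * q) M H q :=
    rtk6fxx_gal_mem_G q hσI hσ₁
  have hGδ : SemilinearAut.ofAlgAut δ₁ ∈ rtk6fxxG A K₁' (M₁ * q) M H q :=
    rtk6fxx_diamond_mem_G hc' hδ₁
  rcases hu with rfl | rfl
  · have hD := rtk6fxx_hD_of_dbc (H := H) h
      (rtk6dbc_chart_t_of_ss1 (M₁ * q) M H hq hA h hL hML hϖ₁ hπ fam₁ ss1₁)
    have hthσ : Rtk6fxxThin ϖ₁ (rtk6diGal (M₁ * q) M H σ hσ₁)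
        (rtk6diT A K₁' (M₁ * q) M H) := fun 𝔫₁ => (hP₁ 𝔫₁).fixCong hGσ
    have hthδ : Rtk6fxxThin ϖ₁ (SemilinearAut.ofAlgAut δ₁)
        (rtk6diT A K₁' (M₁ * q) M H) := fun 𝔫₁ => (hP₁ 𝔫₁).fixCong hGδ
    exact rtk6fxx_provider
      (IntermediateField.inclusion (rtk6eb_mgcE_mono (A := A) h)).toRingHom (rtk6fxx_hf h) V
      hL hML hπ fam (Or.inl rfl) hD hσD hσ₁ hσE hthσ hδ₁ hδ₀' hthδ
  · have hD := rtk6fxx_hD_of_dbc (H := H) h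
      (rtk6dbc_chart_tinv_of_ss1 (M₁ * q) M H hq hA h hL hML hϖ₁ hπ fam₁ ss1₁)
    have hthσ : Rtk6fxxThin ϖ₁ (rtk6diGal (M₁ * q) M H σ hσ₁)
        (rtk6diT A K₁' (M₁ * q) M H)⁻¹ := fun 𝔫₁ => (hP₂ 𝔫₁).fixCong hGσ
    have hthδ : Rtk6fxxThin ϖ₁ (SemilinearAut.ofAlgAut δ₁)
        (rtk6diT A K₁' (M₁ * q) M H)⁻¹ := fun 𝔫₁ => (hP₂ 𝔫₁).fixCong hGδ
    exact rtk6fxx_provider
      (IntermediateField.inclusion (rtk6eb_mgcE_mono (A := A) h)).toRingHom (rtk6fxx_hf h) V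
      hL hML hπ fam (Or.inr rfl) hD hσD hσ₁ hσE hthσ hδ₁ hδ₀' hthδ

end Level

/-! ### The open input and the provider -/

section Ev

variable {q M₁ : ℕ} [NeZero q] [NeZero M₁] [NeZero (M₁ * q)] {M : ℕ} {H : Subgroup (ZMod M)ˣ}

/-- **The open input of FIX-X** (C4-χ-ASM at ONE thin level, with C4+ for the inertia group and
the diamonds at `q`): helper76's `Rtk6cxbThinPlus` with the set `rtk6fxxG`. -/
def Rtk6fxxThinPlus (A : ValuationSubring Qb)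
    (w₀ : fieldBar (M₁ * q) M H ≃ₐ[Qb] fieldBar (M₁ * q) M H) : Prop :=
  ∃ (K₁' : IntermediateField ℚ Qb) (_ : NumberField ↥K₁') (_ : IsGalois ℚ ↥K₁')
    (_ : IsDiscreteValuationRing ↥(mgcA A K₁')) (ϖ₁ : ↥(mgcA A K₁')) (hϖ₁ : Irreducible ϖ₁)
    (hc₁ : RtkCommK (mgcE A K₁') w₀),
    (∀ 𝔫₁ : AtPt (F := ↥(rtk6diF A K₁' (M₁ * q) M H)) ϖ₁ (rtk6diT A K₁' (M₁ * q) M H),
      Rtk6c4aPlusAt (rtk6dfV hϖ₁ M H (rtk6diwEquiv (K₀ := mgcE A K₁') w₀ hc₁))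
        (rtk6fxxG A K₁' (M₁ * q) M H q) 𝔫₁) ∧
    (∀ 𝔫₁ : AtPt (F := ↥(rtk6diF A K₁' (M₁ * q) M H)) ϖ₁
        (rtk6diT A K₁' (M₁ * q) M H)⁻¹,
      Rtk6c4aPlusAt (rtk6dfV hϖ₁ M H (rtk6diwEquiv (K₀ := mgcE A K₁') w₀ hc₁))
        (rtk6fxxG A K₁' (M₁ * q) M H q) 𝔫₁)

/-- the input of FIX-X contains the input of C4-χ-inst (B) -/
theorem Rtk6fxxThinPlus.cxb {A : ValuationSubring Qb}
    {w₀ : fieldBar (M₁ * q) M H ≃ₐ[Qb] fieldBar (M₁ * q) M H}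
    (hT : Rtk6fxxThinPlus A w₀) : Rtk6cxbThinPlus A w₀ := by
  obtain ⟨K₁', hNF, hGal, hDVR, ϖ₁, hϖ₁, hc₁, hP₁, hP₂⟩ := hT
  exact ⟨K₁', hNF, hGal, hDVR, ϖ₁, hϖ₁, hc₁,
    fun 𝔫₁ => (hP₁ 𝔫₁).mono (rtk6fxx_cxbDiam_subset_G q),
    fun 𝔫₁ => (hP₂ 𝔫₁).mono (rtk6fxx_cxbDiam_subset_G q)⟩

/-- **FIX-X at all sufficiently large `K₁`** (`K₀ := K₁′`) from the open input. -/
theorem rtk6fxx_ev (hS : StmtRtk6SS1Gen) (hq : q.Prime) (hqM' : q ∣ M) (hM0 : M ≠ 0)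
    (hqM : ¬ q ∣ M₁) (hML : M ∣ M₁ * q) (htame : IsTameAt (M₁ * q) M q H) (h4 : 4 ∣ M₁ * q)
    (w₀ : fieldBar (M₁ * q) M H ≃ₐ[Qb] fieldBar (M₁ * q) M H)
    (hw₀ : IsWAt (M₁ * q) M H q w₀) {A : ValuationSubring Qb} (hA : A.LiesOverPrime q)
    (hT : Rtk6fxxThinPlus A w₀) :
    Rtk6eiEv q A (fun K₁ _ hζ π hπ =>
      ∀ σ ∈ A.inertiaSubgroupIn ℚ, ∀ (hσE : ∀ x ∈ mgcE A K₁, σ x ∈ mgcE A K₁)
        (c' : (ZMod M)ˣ), IsAtR M q c' →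
        ∀ δ₀' : ↥(rtk6diF A K₁ (M₁ * q) M H) ≃ₐ[↥(mgcE A K₁)]
            ↥(rtk6diF A K₁ (M₁ * q) M H),
          IsDiamondC ↥(mgcE A K₁) (M₁ * q) M H c' δ₀' →
          ∀ u : ↥(rtk6diF A K₁ (M₁ * q) M H),
            (u = rtk6diT A K₁ (M₁ * q) M H ∨ u = (rtk6diT A K₁ (M₁ * q) M H)⁻¹) →
            Rtk6emFixAt A K₁ (M₁ * q) M H π
              (rtk6dfV hπ M H (rtk6diwW (K₀ := mgcE A K₁) w₀ hw₀ hM0 hq hqM' hζ))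
              (rtk6diGal (M₁ * q) M H σ hσE) u ∧
            Rtk6emCongAt A K₁ (M₁ * q) M H π
              (rtk6dfV hπ M H (rtk6diwW (K₀ := mgcE A K₁) w₀ hw₀ hM0 hq hqM' hζ))
              (SemilinearAut.ofAlgAut δ₀') u) := by
  obtain ⟨K₁', hNF, hGal, hDVR, ϖ₁, hϖ₁, hc₁, hP₁, hP₂⟩ := hT
  haveI := hNF
  haveI := hGal
  haveI := hDVR
  refine ⟨K₁', inferInstance, fun K₁ _ _ _ hK hζ π hπ σ hσI hσE c' hc' δ₀' hδ₀' u hu => ?_⟩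
  have hwI := rtk6w1_wIncl w₀ hw₀ hc₁ hq (mgdIota (mgcE A K₁')) hqM
  have fam₁ := rtk6m1_emFam hϖ₁ (mgdIota (mgcE A K₁')) hq hqM hwI hA hML
  have ss1₁ := hS q M₁ M H hq hqM hML htame h4 A hA K₁' hϖ₁ (mgdIota (mgcE A K₁')) _ hwI
  have fam := rtk6m1_emFam_W hπ (mgdIota (mgcE A K₁)) w₀ hw₀ hM0 hq hqM' hqM hζ hA hML
  exact rtk6fxx_fixCong_E hq hA hK hML hϖ₁ hπ fam₁ ss1₁ fam hP₁ hP₂ hσI hσE hc' hδ₀' hu

end Ev

/-- **The provider `hFix` of `rtk6ei_geomChi_of_pieces` / `rtk6cxb_geomChi`**, VERBATIM, from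
the generic (SS1-inst) and the dichotomy with C4+ for `rtk6fxxG` at ONE thin level per level
datum. -/
theorem rtk6fxx_hFix (hS : StmtRtk6SS1Gen)
    (hPlus : ∀ (q M₁ : ℕ) [NeZero q] [NeZero M₁] [NeZero (M₁ * q)] (M : ℕ)
      (H : Subgroup (ZMod M)ˣ) (hq : q.Prime) (hqM' : q ∣ M) (hM0 : M ≠ 0), ¬ q ∣ M₁ →
      M ∣ M₁ * q → IsStarStable M q H → IsTameAt (M₁ * q) M q H → 4 ∣ M₁ * q →
      ∀ (w₀ : fieldBar (M₁ * q) M H ≃ₐ[Qb] fieldBar (M₁ * q) M H)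
        (hw₀ : IsWAt (M₁ * q) M H q w₀) (A : ValuationSubring Qb), A.LiesOverPrime q →
        Rtk6fxxThinPlus A w₀) :
    ∀ (q M₁ : ℕ) [NeZero q] [NeZero M₁] [NeZero (M₁ * q)] (M : ℕ)
      (H : Subgroup (ZMod M)ˣ) (hq : q.Prime) (hqM' : q ∣ M) (hM0 : M ≠ 0), ¬ q ∣ M₁ →
      M ∣ M₁ * q → IsStarStable M q H → IsTameAt (M₁ * q) M q H → 4 ∣ M₁ * q →
      ∀ (w₀ : fieldBar (M₁ * q) M H ≃ₐ[Qb] fieldBar (M₁ * q) M H)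
        (hw₀ : IsWAt (M₁ * q) M H q w₀) (A : ValuationSubring Qb), A.LiesOverPrime q →
        Rtk6eiEv q A (fun K₁ _ hζ π hπ =>
          ∀ σ ∈ A.inertiaSubgroupIn ℚ, ∀ (hσE : ∀ x ∈ mgcE A K₁, σ x ∈ mgcE A K₁)
            (c' : (ZMod M)ˣ), IsAtR M q c' →
            ∀ δ₀' : ↥(rtk6diF A K₁ (M₁ * q) M H) ≃ₐ[↥(mgcE A K₁)]
                ↥(rtk6diF A K₁ (M₁ * q) M H),
              IsDiamondC ↥(mgcE A K₁) (M₁ * q) M H c' δ₀' →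
              ∀ u : ↥(rtk6diF A K₁ (M₁ * q) M H),
                (u = rtk6diT A K₁ (M₁ * q) M H ∨ u = (rtk6diT A K₁ (M₁ * q) M H)⁻¹) →
                Rtk6emFixAt A K₁ (M₁ * q) M H π
                  (rtk6dfV hπ M H (rtk6diwW (K₀ := mgcE A K₁) w₀ hw₀ hM0 hq hqM' hζ))
                  (rtk6diGal (M₁ * q) M H σ hσE) u ∧
                Rtk6emCongAt A K₁ (M₁ * q) M H π
                  (rtk6dfV hπ M H (rtk6diwW (K₀ := mgcE A K₁) w₀ hw₀ hM0 hq hqM' hζ))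
                  (SemilinearAut.ofAlgAut δ₀') u) := by
  intro q M₁ _ _ _ M H hq hqM' hM0 hqM hML hstar htame h4 w₀ hw₀ A hA
  exact rtk6fxx_ev hS hq hqM' hM0 hqM hML htame h4 w₀ hw₀ hA
    (hPlus q M₁ M H hq hqM' hM0 hqM hML hstar htame h4 w₀ hw₀ A hA)

/-- **FINAL wiring, case (χ), ONE open input**: `StmtRtk6GeomChi` from the generic (SS1-inst) and
the dichotomy with C4+ for the inertia group and the diamonds at `q` at ONE thin level per level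
datum (C4-χ-ASM). -/
theorem rtk6fxx_geomChi (hS : StmtRtk6SS1Gen)
    (hPlus : ∀ (q M₁ : ℕ) [NeZero q] [NeZero M₁] [NeZero (M₁ * q)] (M : ℕ)
      (H : Subgroup (ZMod M)ˣ) (hq : q.Prime) (hqM' : q ∣ M) (hM0 : M ≠ 0), ¬ q ∣ M₁ →
      M ∣ M₁ * q → IsStarStable M q H → IsTameAt (M₁ * q) M q H → 4 ∣ M₁ * q →
      ∀ (w₀ : fieldBar (M₁ * q) M H ≃ₐ[Qb] fieldBar (M₁ * q) M H)
        (hw₀ : IsWAt (M₁ * q) M H q w₀) (A : ValuationSubring Qb), A.LiesOverPrime q →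
        Rtk6fxxThinPlus A w₀) :
    StmtRtk6GeomChi :=
  rtk6cxb_geomChi hS
    (fun q M₁ _ _ _ M H hq hqM' hM0 hqM hML hstar htame h4 w₀ hw₀ A hA =>
      (hPlus q M₁ M H hq hqM' hM0 hqM hML hstar htame h4 w₀ hw₀ A hA).cxb)
    (rtk6fxx_hFix hS hPlus)

end Fermat.Agent.RT.K6
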