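/-
K-machine, piece K6, case (χ), **the hPlus final glue, full set of automorphisms** (helper76):
the open input of `rtk6fxx_geomChi` (`RT/K6/FixXInst.lean`, helper67), i.e.
`Rtk6fxxThinPlus A w₀` for every level datum, at the thin level `K₁′ := rtk6ebK q d_q`
(`d_q = rtk6psiDr M q H`), from C4-χ-ASM on the two charts with the set of automorphisms of (T2)

  `rtk6fxbG A K₁′ L M H q` (helper34, `RT/K6/FixXB.lean`)   (`= rtk6fxxG …`, helper67),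

and the CLOSED form of the case (χ) modulo C4-χ-ASM:

* `rtk6cxp_fxxG_subset_fxbG`, `rtk6cxp_fxbG_subset_fxxG` : the two descriptions of `𝒢` agree;
* `rtk6cxp_thinPlusG` : `Rtk6fxxThinPlus A w₀` from the two charts (one level datum);
* `rtk6cxp_hPlusG`    : the provider `hPlus` of `rtk6fxx_geomChi`;
* **`rtk6cxp_geomChiG`** : `StmtRtk6GeomChi` from C4-χ-ASM on the two charts at the thin level
  ((SS1-inst) generic is `rtk6eiu_stmtSS1Gen`, (FIX-X) is `rtk6fxx_hFix`).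
-/
import Fermat.Agent.RT.K6.C4ChiPlus
import Fermat.Agent.RT.K6.FixXInst
import Fermat.Agent.RT.K6.FixXB
import Fermat.Agent.RT.K6.EInstUS

set_option autoImplicit false
set_option linter.style.haveILetI false
set_option linter.unusedSectionVars false
set_option linter.unusedVariables false
set_option linter.style.longLine false

noncomputable section

namespace Fermat.Agent.RT.K6

open ModularCurve AlgebraicCurve Fermat.Agent.ES Fermat.Agent.ES.G2 Fermat.Agent.INJ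
open Fermat.Agent.UNIP Fermat.Agent.STB Fermat.Agent.ES1 Fermat.Agent.ES1.G2 IntermediateField

/-! ### The two descriptions of `𝒢` -/

section G

variable {A : ValuationSubring Qb} {K₁ : IntermediateField ℚ Qb} {L M : ℕ}
  {H : Subgroup (ZMod M)ˣ} {r : ℕ}

theorem rtk6cxp_fxxG_subset_fxbG :
    rtk6fxxG A K₁ L M H r ⊆ rtk6fxbG A K₁ L M H r := by
  rintro g (⟨σ, hσ, hσI, rfl⟩ | ⟨c, δ, hc, hδ, rfl⟩)
  · exact Or.inl ⟨σ, hσI, hσ, rfl⟩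
  · exact Or.inr ⟨c, δ, hc, hδ, rfl⟩

theorem rtk6cxp_fxbG_subset_fxxG :
    rtk6fxbG A K₁ L M H r ⊆ rtk6fxxG A K₁ L M H r := by
  rintro g (⟨σ, hσI, hσ, rfl⟩ | ⟨c, δ, hc, hδ, rfl⟩)
  · exact Or.inl ⟨σ, hσ, hσI, rfl⟩
  · exact Or.inr ⟨c, δ, hc, hδ, rfl⟩

end G

/-! ### The thin level -/

section Thin

variable {q M₁ : ℕ} [NeZero q] [NeZero M₁] [NeZero (M₁ * q)] {M : ℕ} {H : Subgroup (ZMod M)ˣ}

/-- **`Rtk6fxxThinPlus A w₀` at the thin level `K₁′ = rtk6ebK q d_q`** from C4-χ-ASM on the two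
charts, with the set `rtk6fxbG` of (T2) (for every uniformizer `ϖ₁` with `ϖ₁ ^ d_q = q` and every
proof of the commutation). -/
theorem rtk6cxp_thinPlusG (hq : q.Prime) (hqM' : q ∣ M) (hM0 : M ≠ 0) (hqM : ¬ q ∣ M₁)
    (hML : M ∣ M₁ * q) (w₀ : fieldBar (M₁ * q) M H ≃ₐ[Qb] fieldBar (M₁ * q) M H)
    (hw₀ : IsWAt (M₁ * q) M H q w₀) (A : ValuationSubring Qb) (hA : A.LiesOverPrime q)
    (hJ : ∀ [IsDiscreteValuationRing ↥(mgcA A (rtk6ebK q (rtk6cxpD M q H)))]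
      (ϖ₁ : ↥(mgcA A (rtk6ebK q (rtk6cxpD M q H)))) (hϖ₁ : Irreducible ϖ₁)
      (_ : ϖ₁ ^ rtk6cxpD M q H = ((q : ℕ) : ↥(mgcA A (rtk6ebK q (rtk6cxpD M q H)))))
      (hc₁ : RtkCommK (mgcE A (rtk6ebK q (rtk6cxpD M q H))) w₀)
      (𝔫₁ : AtPt (F := ↥(rtk6diF A (rtk6ebK q (rtk6cxpD M q H)) (M₁ * q) M H)) ϖ₁
        (rtk6diT A (rtk6ebK q (rtk6cxpD M q H)) (M₁ * q) M H)),
      Rtk6c4aPlusAt
        (rtk6dfV hϖ₁ M H (rtk6diwEquiv (K₀ := mgcE A (rtk6ebK q (rtk6cxpD M q H))) w₀ hc₁))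
        (rtk6fxbG A (rtk6ebK q (rtk6cxpD M q H)) (M₁ * q) M H q) 𝔫₁)
    (hJinv : ∀ [IsDiscreteValuationRing ↥(mgcA A (rtk6ebK q (rtk6cxpD M q H)))]
      (ϖ₁ : ↥(mgcA A (rtk6ebK q (rtk6cxpD M q H)))) (hϖ₁ : Irreducible ϖ₁)
      (_ : ϖ₁ ^ rtk6cxpD M q H = ((q : ℕ) : ↥(mgcA A (rtk6ebK q (rtk6cxpD M q H)))))
      (hc₁ : RtkCommK (mgcE A (rtk6ebK q (rtk6cxpD M q H))) w₀)
      (𝔫₁ : AtPt (F := ↥(rtk6diF A (rtk6ebK q (rtk6cxpD M q H)) (M₁ * q) M H)) ϖ₁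
        (rtk6diT A (rtk6ebK q (rtk6cxpD M q H)) (M₁ * q) M H)⁻¹),
      Rtk6c4aPlusAt
        (rtk6dfV hϖ₁ M H (rtk6diwEquiv (K₀ := mgcE A (rtk6ebK q (rtk6cxpD M q H))) w₀ hc₁))
        (rtk6fxbG A (rtk6ebK q (rtk6cxpD M q H)) (M₁ * q) M H q) 𝔫₁) :
    Rtk6fxxThinPlus A w₀ := by
  have hd0 : rtk6cxpD M q H ≠ 0 := rtk6cxpD_ne_zero hM0
  have hdq : ¬ q ∣ rtk6cxpD M q H := rtk6cxpD_not_dvd hq hqM' hqM hML
  obtain ⟨ϖ, hϖ⟩ := IsAlgClosed.exists_pow_nat_eq ((q : ℕ) : Qb) (Nat.pos_of_ne_zero hd0)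
  haveI hDVR : IsDiscreteValuationRing ↥(mgcA A (rtk6ebK q (rtk6cxpD M q H))) :=
    rtk6eb_isDVR hq hA
  have hirr := rtk6ebVarpi_irreducible hq hA hd0 hdq hϖ
  have hpow := rtk6ebVarpi_pow hA hd0 hϖ
  have hc₁ := rtk6cxp_commK hq hqM' hM0 hqM hML hw₀ A hA
  exact ⟨rtk6ebK q (rtk6cxpD M q H), inferInstance, inferInstance, hDVR,
    rtk6ebVarpi hA hd0 hϖ, hirr, hc₁,
    fun 𝔫₁ => (hJ (rtk6ebVarpi hA hd0 hϖ) hirr hpow hc₁ 𝔫₁).mono rtk6cxp_fxxG_subset_fxbG,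
    fun 𝔫₁ => (hJinv (rtk6ebVarpi hA hd0 hϖ) hirr hpow hc₁ 𝔫₁).mono rtk6cxp_fxxG_subset_fxbG⟩

end Thin

/-! ### The providers -/

/-- **The provider `hPlus` of `rtk6fxx_geomChi`** from C4-χ-ASM on the two charts at the thin level
`K₁′ = rtk6ebK q d_q`, with the set `rtk6fxbG` of (T2). -/
theorem rtk6cxp_hPlusG
    (hJ : ∀ (q M₁ : ℕ) [NeZero q] [NeZero M₁] [NeZero (M₁ * q)] (M : ℕ)
      (H : Subgroup (ZMod M)ˣ) (hq : q.Prime) (hqM' : q ∣ M) (hM0 : M ≠ 0), ¬ q ∣ M₁ →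
      M ∣ M₁ * q → IsStarStable M q H → IsTameAt (M₁ * q) M q H → 4 ∣ M₁ * q →
      ∀ (w₀ : fieldBar (M₁ * q) M H ≃ₐ[Qb] fieldBar (M₁ * q) M H)
        (hw₀ : IsWAt (M₁ * q) M H q w₀) (A : ValuationSubring Qb), A.LiesOverPrime q →
      ∀ [IsDiscreteValuationRing ↥(mgcA A (rtk6ebK q (rtk6cxpD M q H)))]
        (ϖ₁ : ↥(mgcA A (rtk6ebK q (rtk6cxpD M q H)))) (hϖ₁ : Irreducible ϖ₁)
        (_ : ϖ₁ ^ rtk6cxpD M q H = ((q : ℕ) : ↥(mgcA A (rtk6ebK q (rtk6cxpD M q H)))))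
        (hc₁ : RtkCommK (mgcE A (rtk6ebK q (rtk6cxpD M q H))) w₀)
        (𝔫₁ : AtPt (F := ↥(rtk6diF A (rtk6ebK q (rtk6cxpD M q H)) (M₁ * q) M H)) ϖ₁
          (rtk6diT A (rtk6ebK q (rtk6cxpD M q H)) (M₁ * q) M H)),
        Rtk6c4aPlusAt
          (rtk6dfV hϖ₁ M H (rtk6diwEquiv (K₀ := mgcE A (rtk6ebK q (rtk6cxpD M q H))) w₀ hc₁))
          (rtk6fxbG A (rtk6ebK q (rtk6cxpD M q H)) (M₁ * q) M H q) 𝔫₁)
    (hJinv : ∀ (q M₁ : ℕ) [NeZero q] [NeZero M₁] [NeZero (M₁ * q)] (M : ℕ)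
      (H : Subgroup (ZMod M)ˣ) (hq : q.Prime) (hqM' : q ∣ M) (hM0 : M ≠ 0), ¬ q ∣ M₁ →
      M ∣ M₁ * q → IsStarStable M q H → IsTameAt (M₁ * q) M q H → 4 ∣ M₁ * q →
      ∀ (w₀ : fieldBar (M₁ * q) M H ≃ₐ[Qb] fieldBar (M₁ * q) M H)
        (hw₀ : IsWAt (M₁ * q) M H q w₀) (A : ValuationSubring Qb), A.LiesOverPrime q →
      ∀ [IsDiscreteValuationRing ↥(mgcA A (rtk6ebK q (rtk6cxpD M q H)))]
        (ϖ₁ : ↥(mgcA A (rtk6ebK q (rtk6cxpD M q H)))) (hϖ₁ : Irreducible ϖ₁)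
        (_ : ϖ₁ ^ rtk6cxpD M q H = ((q : ℕ) : ↥(mgcA A (rtk6ebK q (rtk6cxpD M q H)))))
        (hc₁ : RtkCommK (mgcE A (rtk6ebK q (rtk6cxpD M q H))) w₀)
        (𝔫₁ : AtPt (F := ↥(rtk6diF A (rtk6ebK q (rtk6cxpD M q H)) (M₁ * q) M H)) ϖ₁
          (rtk6diT A (rtk6ebK q (rtk6cxpD M q H)) (M₁ * q) M H)⁻¹),
        Rtk6c4aPlusAt
          (rtk6dfV hϖ₁ M H (rtk6diwEquiv (K₀ := mgcE A (rtk6ebK q (rtk6cxpD M q H))) w₀ hc₁))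
          (rtk6fxbG A (rtk6ebK q (rtk6cxpD M q H)) (M₁ * q) M H q) 𝔫₁) :
    ∀ (q M₁ : ℕ) [NeZero q] [NeZero M₁] [NeZero (M₁ * q)] (M : ℕ)
      (H : Subgroup (ZMod M)ˣ) (hq : q.Prime) (hqM' : q ∣ M) (hM0 : M ≠ 0), ¬ q ∣ M₁ →
      M ∣ M₁ * q → IsStarStable M q H → IsTameAt (M₁ * q) M q H → 4 ∣ M₁ * q →
      ∀ (w₀ : fieldBar (M₁ * q) M H ≃ₐ[Qb] fieldBar (M₁ * q) M H)
        (hw₀ : IsWAt (M₁ * q) M H q w₀) (A : ValuationSubring Qb), A.LiesOverPrime q →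
        Rtk6fxxThinPlus A w₀ := by
  intro q M₁ _ _ _ M H hq hqM' hM0 hqM hML hstar htame h4 w₀ hw₀ A hA
  exact rtk6cxp_thinPlusG hq hqM' hM0 hqM hML w₀ hw₀ A hA
    (fun ϖ₁ hϖ₁ hϖd hc₁ 𝔫₁ =>
      hJ q M₁ M H hq hqM' hM0 hqM hML hstar htame h4 w₀ hw₀ A hA ϖ₁ hϖ₁ hϖd hc₁ 𝔫₁)
    (fun ϖ₁ hϖ₁ hϖd hc₁ 𝔫₁ =>
      hJinv q M₁ M H hq hqM' hM0 hqM hML hstar htame h4 w₀ hw₀ A hA ϖ₁ hϖ₁ hϖd hc₁ 𝔫₁)

/-- **CLOSED form of the case (χ) modulo C4-χ-ASM**: `StmtRtk6GeomChi` from the dichotomy with C4+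
for `𝒢 = rtk6fxbG` on the two charts at the thin level `K₁′ = rtk6ebK q d_q`. -/
theorem rtk6cxp_geomChiG
    (hJ : ∀ (q M₁ : ℕ) [NeZero q] [NeZero M₁] [NeZero (M₁ * q)] (M : ℕ)
      (H : Subgroup (ZMod M)ˣ) (hq : q.Prime) (hqM' : q ∣ M) (hM0 : M ≠ 0), ¬ q ∣ M₁ →
      M ∣ M₁ * q → IsStarStable M q H → IsTameAt (M₁ * q) M q H → 4 ∣ M₁ * q →
      ∀ (w₀ : fieldBar (M₁ * q) M H ≃ₐ[Qb] fieldBar (M₁ * q) M H)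
        (hw₀ : IsWAt (M₁ * q) M H q w₀) (A : ValuationSubring Qb), A.LiesOverPrime q →
      ∀ [IsDiscreteValuationRing ↥(mgcA A (rtk6ebK q (rtk6cxpD M q H)))]
        (ϖ₁ : ↥(mgcA A (rtk6ebK q (rtk6cxpD M q H)))) (hϖ₁ : Irreducible ϖ₁)
        (_ : ϖ₁ ^ rtk6cxpD M q H = ((q : ℕ) : ↥(mgcA A (rtk6ebK q (rtk6cxpD M q H)))))
        (hc₁ : RtkCommK (mgcE A (rtk6ebK q (rtk6cxpD M q H))) w₀)
        (𝔫₁ : AtPt (F := ↥(rtk6diF A (rtk6ebK q (rtk6cxpD M q H)) (M₁ * q) M H)) ϖ₁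
          (rtk6diT A (rtk6ebK q (rtk6cxpD M q H)) (M₁ * q) M H)),
        Rtk6c4aPlusAt
          (rtk6dfV hϖ₁ M H (rtk6diwEquiv (K₀ := mgcE A (rtk6ebK q (rtk6cxpD M q H))) w₀ hc₁))
          (rtk6fxbG A (rtk6ebK q (rtk6cxpD M q H)) (M₁ * q) M H q) 𝔫₁)
    (hJinv : ∀ (q M₁ : ℕ) [NeZero q] [NeZero M₁] [NeZero (M₁ * q)] (M : ℕ)
      (H : Subgroup (ZMod M)ˣ) (hq : q.Prime) (hqM' : q ∣ M) (hM0 : M ≠ 0), ¬ q ∣ M₁ →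
      M ∣ M₁ * q → IsStarStable M q H → IsTameAt (M₁ * q) M q H → 4 ∣ M₁ * q →
      ∀ (w₀ : fieldBar (M₁ * q) M H ≃ₐ[Qb] fieldBar (M₁ * q) M H)
        (hw₀ : IsWAt (M₁ * q) M H q w₀) (A : ValuationSubring Qb), A.LiesOverPrime q →
      ∀ [IsDiscreteValuationRing ↥(mgcA A (rtk6ebK q (rtk6cxpD M q H)))]
        (ϖ₁ : ↥(mgcA A (rtk6ebK q (rtk6cxpD M q H)))) (hϖ₁ : Irreducible ϖ₁)
        (_ : ϖ₁ ^ rtk6cxpD M q H = ((q : ℕ) : ↥(mgcA A (rtk6ebK q (rtk6cxpD M q H)))))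
        (hc₁ : RtkCommK (mgcE A (rtk6ebK q (rtk6cxpD M q H))) w₀)
        (𝔫₁ : AtPt (F := ↥(rtk6diF A (rtk6ebK q (rtk6cxpD M q H)) (M₁ * q) M H)) ϖ₁
          (rtk6diT A (rtk6ebK q (rtk6cxpD M q H)) (M₁ * q) M H)⁻¹),
        Rtk6c4aPlusAt
          (rtk6dfV hϖ₁ M H (rtk6diwEquiv (K₀ := mgcE A (rtk6ebK q (rtk6cxpD M q H))) w₀ hc₁))
          (rtk6fxbG A (rtk6ebK q (rtk6cxpD M q H)) (M₁ * q) M H q) 𝔫₁) :
    StmtRtk6GeomChi :=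
  rtk6fxx_geomChi rtk6eiu_stmtSS1Gen (rtk6cxp_hPlusG hJ hJinv)

end Fermat.Agent.RT.K6
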