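/-
K-machine, piece K6, piece **(THR-χ)** (helper66, for helper94's C4-χ-ASM): THE COMPONENTS THROUGH A
CLOSED POINT OF THE TOP CHART, STARTING FROM THE UNRAMIFIED BASE.

Setting of helper54's `GenCrossInst.lean`, section `Cross`: `A₀ = A ∩ ℚ̄^I` (uniformizer `π`),
`K = F_{M₁ q}(ℚ̄^I)` the `Γ₀`-field over the unramified base, `V⁰ b = mgvV hπ ιC hq hqM b`;
`A₁ = mgcA A K₁` (uniformizer `ϖ`), `E₁ = mgcE A K₁`, `F₀′ = mgcF A K₁ (M₁ q)` the `Γ₀`-field over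
`E₁`, `F₁ = rtk6diF A K₁ (M₁ q) M H` the top field, `V₁ = rtk6dfV hϖ M H w` the family of all
conjugates of `V_∞`, `V_0`; `𝔫₁ : AtPt ϖ t₁` a closed point of the top chart `j`,
`𝔫₀ = rtk6gxiPt … 𝔫₁` the closed point `𝔫₁ ∩ R₀` of the base chart `j`.

Two steps:
* LEVEL CHANGE `E₀ → E₁` on the `Γ₀`-field (`rtk6thrx_stage`, `rtk6thrx_modular`,
  `rtk6thrx_decomp`, `rtk6thrx_level`): the chart `R₀′` of `F₀′` over `A₁` is `R₀ + ϖ R₀′`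
  ((D-BC) = MG-4 `UNIP.mgc_isIntegral_iff`, the special fibre of `R₀` being reduced:
  `UNIP.u5c_reduced_J`), hence `V⁰ b` through `𝔫₁ ∩ R₀` ⇒ `mgvV hϖ ιC₁ hq hqM b` through
  `𝔫₁ ∩ R₀′`;
* C4-THR at the level `E₁` (`rtk6thr_J`, `C4Thr.lean`).

**`rtk6thrx_main`** (chart `j`): `atThrough 𝔫₀ (V⁰ b) → ∃ c, atThrough 𝔫₁ (V₁ c) ∧
  ∀ x : K, algebraMap K F₁ x ∈ (V₁ c).nonunits ↔ x ∈ (V⁰ b).nonunits`;
`rtk6thrx_main_inv` (chart `1 / j`), `rtk6thrx_cross` (both components), `rtk6thrx_hthr`,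
`rtk6thrx_hthr_inv` (LITERALLY `hthr` of helper94's `rtk6c4aj_plusAt`, rigid level).
Extra hypotheses w.r.t. helper54's section `Cross`: `[IsDiscreteValuationRing A₁]`,
`hϖ : Irreducible ϖ`, `ιC₁ : E₁ →+* ℂ` (ANY, no compatibility with `ιC` needed),
`w` with `hw : Rtk6dvWIncl ιC₁ hq hqM M H w`, `hML : M ∣ M₁ q`.
-/
import Fermat.Agent.RT.K6.C4Thr
import Fermat.Agent.RT.K6.GenCrossInst
import Fermat.Agent.STB.MGNodeFinal
import Fermat.Agent.UNIP.U5Concrete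

set_option autoImplicit false
set_option linter.style.haveILetI false
set_option linter.unusedSectionVars false
set_option linter.unusedVariables false
set_option linter.style.longLine false

noncomputable section

namespace Fermat.Agent.RT.K6

open ModularCurve AlgebraicCurve Fermat.Agent.ES Fermat.Agent.ES.G2 Fermat.Agent.INJ
open Fermat.Agent.UNIP Fermat.Agent.ES1 Fermat.Agent.ES1.G2 Fermat.Agent.AL IntermediateField
open Fermat.Agent.STB Polynomial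

/-! ### Level change, abstract stage -/

section Stage

universe u v

variable {A₀ E₀ K : Type u} [CommRing A₀] [IsDomain A₀] [IsDiscreteValuationRing A₀]
  [Field E₀] [CharZero E₀] [Algebra A₀ E₀] [IsFractionRing A₀ E₀]
  [Field K] [Algebra E₀ K] [Algebra A₀ K] [IsScalarTower A₀ E₀ K]

variable {A' L : Type v} [CommRing A'] [IsDomain A'] [IsDiscreteValuationRing A']
  [Field L] [Algebra A' L]
  [Algebra A₀ A'] [Algebra K L] [Algebra A₀ L] [IsScalarTower A₀ K L] [IsScalarTower A₀ A' L]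

/-- **(D-BC), elementwise**: the chart over `A'` is `B₀ + ϖ B'`, for ANY uniformizer `ϖ` of
`A'`. -/
theorem rtk6thrx_stage {π : A₀} (hπ : Irreducible π) (τ : K) [FiniteDimensional E₀⟮τ⟯ K]
    (hπu : ¬ IsUnit (algebraMap A₀ (integralClosure (Algebra.adjoin A₀ {τ}) K) π))
    (hred : ∀ c : integralClosure (Algebra.adjoin A₀ {τ}) K,
      algebraMap A₀ (integralClosure (Algebra.adjoin A₀ {τ}) K) π ∣ c ^ 2 →
        algebraMap A₀ (integralClosure (Algebra.adjoin A₀ {τ}) K) π ∣ c)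
    [Algebra.IsIntegral A₀ A']
    {π' : A'} (hπ' : Irreducible π') {e : ℕ}
    (hram : π' ^ e ∣ algebraMap A₀ A' π)
    (g₀ : A₀[X]) (hgm : g₀.Monic) (hroot : aeval π' g₀ = 0) (hdeg : g₀.natDegree ≤ e)
    (htop : Algebra.adjoin K ({algebraMap A' L π'} : Set L) = ⊤)
    {ϖ : A'} (hϖ : Irreducible ϖ) (x : L)
    (hx : IsIntegral (Algebra.adjoin A' ({algebraMap K L τ} : Set L)) x) :
    ∃ c : K, IsIntegral (Algebra.adjoin A₀ ({τ} : Set K)) c ∧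
      ∃ z : L, IsIntegral (Algebra.adjoin A' ({algebraMap K L τ} : Set L)) z ∧
        x = algebraMap K L c + algebraMap A' L ϖ * z := by
  have hiff := mgc_isIntegral_iff (E₀ := E₀) (L := L) hπ τ hπu hred hπ'.ne_zero
    hπ'.not_isUnit hram g₀ hgm hroot hdeg htop
  obtain ⟨c, z', hz', hxz⟩ := nbc_exists_eq_add_mul (algebraMap A' L π') ((hiff x).1 hx)
  obtain ⟨v, hv⟩ := IsDiscreteValuationRing.associated_of_irreducible A' hϖ hπ'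
  refine ⟨c.1, c.2, algebraMap A' L (v : A') * z', ?_, ?_⟩
  · have h1 : IsIntegral (Algebra.adjoin A' ({algebraMap K L τ} : Set L))
        (algebraMap A' L (v : A')) :=
      isIntegral_algebraMap (R := Algebra.adjoin A' ({algebraMap K L τ} : Set L))
        (x := ⟨algebraMap A' L (v : A'), Subalgebra.algebraMap_mem _ _⟩)
    exact h1.mul ((hiff z').2 hz')
  · rw [hxz, ← hv, map_mul, mul_assoc]
    rfl

end Stage

/-! ### Level change, modular layer -/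

section Modular

universe u v

variable {A₀ E₀ : Type u} [CommRing A₀] [IsDomain A₀] [IsDiscreteValuationRing A₀]
  [Field E₀] [CharZero E₀] [Algebra A₀ E₀] [IsFractionRing A₀ E₀]
  {A' E' : Type v} [CommRing A'] [IsDomain A'] [IsDiscreteValuationRing A']
  [Field E'] [CharZero E'] [Algebra A' E'] [IsFractionRing A' E']
  [Algebra E₀ E'] [Algebra A₀ A'] (N : ℕ)
  [Algebra A₀ (modularFunctionFieldFullC E₀ N)]
  [IsScalarTower A₀ E₀ (modularFunctionFieldFullC E₀ N)]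
  [Algebra A' (modularFunctionFieldFullC E' N)]
  [IsScalarTower A' E' (modularFunctionFieldFullC E' N)]

/-- **(D-BC), elementwise, modular layer**: `K = F_N(E₀)`, `L = F_N(E')`. -/
theorem rtk6thrx_modular
    (hcomp : ∀ a : A₀, algebraMap A' E' (algebraMap A₀ A' a) =
      algebraMap E₀ E' (algebraMap A₀ E₀ a))
    [Algebra.IsIntegral A₀ A']
    {π : A₀} (hπ : Irreducible π) (τ : modularFunctionFieldFullC E₀ N)
    [FiniteDimensional E₀⟮τ⟯ (modularFunctionFieldFullC E₀ N)]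
    (hπu : ¬ IsUnit (algebraMap A₀
      (integralClosure (Algebra.adjoin A₀ {τ}) (modularFunctionFieldFullC E₀ N)) π))
    (hred : ∀ c : integralClosure (Algebra.adjoin A₀ {τ}) (modularFunctionFieldFullC E₀ N),
      algebraMap A₀ (integralClosure (Algebra.adjoin A₀ {τ})
        (modularFunctionFieldFullC E₀ N)) π ∣ c ^ 2 →
      algebraMap A₀ (integralClosure (Algebra.adjoin A₀ {τ})
        (modularFunctionFieldFullC E₀ N)) π ∣ c)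
    {π' : A'} (hπ' : Irreducible π') {e : ℕ}
    (hram : π' ^ e ∣ algebraMap A₀ A' π)
    (g₀ : A₀[X]) (hgm : g₀.Monic) (hroot : aeval π' g₀ = 0) (hdeg : g₀.natDegree ≤ e)
    (hadj : Algebra.adjoin E₀ ({algebraMap A' E' π'} : Set E') = ⊤)
    (halg : IsAlgebraic E₀ (algebraMap A' E' π'))
    {t : modularFunctionFieldFullC E' N} (ht : mgcEmb E₀ E' N τ = t)
    {ϖ : A'} (hϖ : Irreducible ϖ) (x : modularFunctionFieldFullC E' N)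
    (hx : IsIntegral (Algebra.adjoin A' ({t} : Set (modularFunctionFieldFullC E' N))) x) :
    ∃ c : modularFunctionFieldFullC E₀ N,
      IsIntegral (Algebra.adjoin A₀ ({τ} : Set (modularFunctionFieldFullC E₀ N))) c ∧
      ∃ z : modularFunctionFieldFullC E' N,
        IsIntegral (Algebra.adjoin A' ({t} : Set (modularFunctionFieldFullC E' N))) z ∧
        x = mgcEmb E₀ E' N c + algebraMap A' (modularFunctionFieldFullC E' N) ϖ * z := by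
  letI := mgcAlgebra E₀ E' N
  letI := mgccAlgebra (A₀ := A₀) (E₀ := E₀) (E' := E') N
  haveI := mgcc_isScalarTower (A₀ := A₀) (E₀ := E₀) (E' := E') N
  haveI := mgcc_isScalarTower' (A₀ := A₀) (E₀ := E₀) (A' := A') (E' := E') N hcomp
  subst ht
  exact rtk6thrx_stage (E₀ := E₀) hπ τ hπu hred hπ' hram g₀ hgm hroot hdeg
    (mgcc_htop (E₀ := E₀) N hadj halg) hϖ x hx

end Modular

/-! ### Level change, concrete layer -/

section Concrete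

variable {A : ValuationSubring Qb} {q M₁ : ℕ} [NeZero q] [NeZero M₁] [NeZero (M₁ * q)]
  [IsDiscreteValuationRing ↥(beta0Ring A (beta0Field A))]
  {π : ↥(beta0Ring A (beta0Field A))} (hπ : Irreducible π)
  (K₁ : IntermediateField ℚ Qb) [NumberField ↥K₁] [IsGalois ℚ ↥K₁]
  [IsDiscreteValuationRing ↥(mgcA A K₁)] {ϖ : ↥(mgcA A K₁)} (hϖ : Irreducible ϖ)

set_option synthInstance.maxHeartbeats 400000 in
set_option maxHeartbeats 3200000 in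
include hπ hϖ in
/-- **(D-BC) for the `Γ₀`-chart `j`, elementwise**: `R₀′ = R₀ + ϖ R₀′` (`R₀` the chart `j` of
`F_{M₁ q}(ℚ̄^I)` over `A ∩ ℚ̄^I`, `R₀′` the chart `j` of `F_{M₁ q}(E₁)` over `A₁`). -/
theorem rtk6thrx_decomp (hq : q.Prime) (hqM : ¬ q ∣ M₁) (hA : A.LiesOverPrime q)
    (h2 : q = 2 → 3 ∣ M₁) (h3 : q = 3 → 2 ∣ M₁)
    (x : ↥(mgcF A K₁ (M₁ * q)))
    (hx : IsIntegral ↥(Algebra.adjoin ↥(mgcA A K₁)
      ({mgcT A K₁ (M₁ * q)} : Set ↥(mgcF A K₁ (M₁ * q)))) x) :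
    ∃ c : ↥(modularFunctionFieldFullC ↥(beta0Field A) (M₁ * q)),
      IsIntegral ↥(Algebra.adjoin ↥(beta0Ring A (beta0Field A))
        ({bgJ ↥(beta0Field A) (M₁ * q)} :
          Set ↥(modularFunctionFieldFullC ↥(beta0Field A) (M₁ * q)))) c ∧
      ∃ z : ↥(mgcF A K₁ (M₁ * q)),
        IsIntegral ↥(Algebra.adjoin ↥(mgcA A K₁)
          ({mgcT A K₁ (M₁ * q)} : Set ↥(mgcF A K₁ (M₁ * q)))) z ∧
        x = mgaIncl (le_sup_left : beta0Field A ≤ beta0Field A ⊔ K₁) (M₁ * q) c +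
          algebraMap ↥(mgcA A K₁) ↥(mgcF A K₁ (M₁ * q)) ϖ * z := by
  letI := beta0InstAlgebra A K₁
  letI := beta0InstFieldAlgebra A K₁
  haveI := beta0Inst_isIntegral (A := A) K₁ hq hA
  obtain ⟨π₁, hπ₁, -, -, -, -, -, hram, ⟨g₀, hgm, hroot, hdeg, -⟩, hadj, halg⟩ :=
    beta0Inst_main (A := A) K₁ hq hA
  have hram' : π₁ ^ (beta0Deg A K₁) ∣ algebraMap ↥(beta0Ring A (beta0Field A))
      ↥(beta0Ring A (beta0Field A ⊔ K₁)) π := by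
    obtain ⟨v, hv⟩ := rtk6lfb0_hqπ hπ hq hA
    rw [← hv, map_mul]
    exact Dvd.dvd.mul_right hram _
  haveI := mgcc_finiteDimensional_j ↥(beta0Field A) (M₁ * q)
  exact rtk6thrx_modular (A₀ := ↥(beta0Ring A (beta0Field A))) (E₀ := ↥(beta0Field A))
    (A' := ↥(beta0Ring A (beta0Field A ⊔ K₁))) (E' := ↥(beta0Field A ⊔ K₁)) (M₁ * q)
    (fun a => mgcb_hcomp K₁ a) hπ (bgJ ↥(beta0Field A) (M₁ * q))
    (u5c_notUnit_J hq hA le_rfl hπ hqM h2 h3) (u5c_reduced_J hq hA le_rfl hπ hqM h2 h3)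
    hπ₁ hram' g₀ hgm hroot hdeg hadj halg (t := mgcT A K₁ (M₁ * q))
    (mgcc_emb_bgJ (E₀ := ↥(beta0Field A)) (E' := ↥(beta0Field A ⊔ K₁)) (M₁ * q)) hϖ x hx

set_option synthInstance.maxHeartbeats 400000 in
set_option maxHeartbeats 3200000 in
include hπ hϖ in
/-- **(D-BC) for the `Γ₀`-chart `1 / j`, elementwise.** -/
theorem rtk6thrx_decomp_inv (hq : q.Prime) (hqM : ¬ q ∣ M₁) (hA : A.LiesOverPrime q)
    (h2 : q = 2 → 3 ∣ M₁) (h3 : q = 3 → 2 ∣ M₁)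
    (x : ↥(mgcF A K₁ (M₁ * q)))
    (hx : IsIntegral ↥(Algebra.adjoin ↥(mgcA A K₁)
      ({(mgcT A K₁ (M₁ * q))⁻¹} : Set ↥(mgcF A K₁ (M₁ * q)))) x) :
    ∃ c : ↥(modularFunctionFieldFullC ↥(beta0Field A) (M₁ * q)),
      IsIntegral ↥(Algebra.adjoin ↥(beta0Ring A (beta0Field A))
        ({(bgJ ↥(beta0Field A) (M₁ * q))⁻¹} :
          Set ↥(modularFunctionFieldFullC ↥(beta0Field A) (M₁ * q)))) c ∧
      ∃ z : ↥(mgcF A K₁ (M₁ * q)),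
        IsIntegral ↥(Algebra.adjoin ↥(mgcA A K₁)
          ({(mgcT A K₁ (M₁ * q))⁻¹} : Set ↥(mgcF A K₁ (M₁ * q)))) z ∧
        x = mgaIncl (le_sup_left : beta0Field A ≤ beta0Field A ⊔ K₁) (M₁ * q) c +
          algebraMap ↥(mgcA A K₁) ↥(mgcF A K₁ (M₁ * q)) ϖ * z := by
  letI := beta0InstAlgebra A K₁
  letI := beta0InstFieldAlgebra A K₁
  haveI := beta0Inst_isIntegral (A := A) K₁ hq hA
  obtain ⟨π₁, hπ₁, -, -, -, -, -, hram, ⟨g₀, hgm, hroot, hdeg, -⟩, hadj, halg⟩ :=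
    beta0Inst_main (A := A) K₁ hq hA
  have hram' : π₁ ^ (beta0Deg A K₁) ∣ algebraMap ↥(beta0Ring A (beta0Field A))
      ↥(beta0Ring A (beta0Field A ⊔ K₁)) π := by
    obtain ⟨v, hv⟩ := rtk6lfb0_hqπ hπ hq hA
    rw [← hv, map_mul]
    exact Dvd.dvd.mul_right hram _
  haveI := mgcc_finiteDimensional_jinv ↥(beta0Field A) (M₁ * q)
  exact rtk6thrx_modular (A₀ := ↥(beta0Ring A (beta0Field A))) (E₀ := ↥(beta0Field A))
    (A' := ↥(beta0Ring A (beta0Field A ⊔ K₁))) (E' := ↥(beta0Field A ⊔ K₁)) (M₁ * q)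
    (fun a => mgcb_hcomp K₁ a) hπ (bgJ ↥(beta0Field A) (M₁ * q))⁻¹
    (u5c_notUnit_Jinv hq hA le_rfl hπ hqM h2 h3) (u5c_reduced_Jinv hq hA le_rfl hπ hqM h2 h3)
    hπ₁ hram' g₀ hgm hroot hdeg hadj halg (t := (mgcT A K₁ (M₁ * q))⁻¹)
    (mgcc_emb_bgJ_inv (E₀ := ↥(beta0Field A)) (E' := ↥(beta0Field A ⊔ K₁)) (M₁ * q)) hϖ x hx

end Concrete

/-! ### (THR-χ) -/

section Main

variable {A : ValuationSubring Qb} {q M₁ : ℕ} [NeZero q] [NeZero M₁] [NeZero (M₁ * q)]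
  [IsDiscreteValuationRing ↥(beta0Ring A (beta0Field A))]
  {π : ↥(beta0Ring A (beta0Field A))} (hπ : Irreducible π)
  (ιC : ↥(beta0Field A) →+* ℂ) (hq : q.Prime) (hqM : ¬ q ∣ M₁)
  (K₁ : IntermediateField ℚ Qb) [NumberField ↥K₁] [IsGalois ℚ ↥K₁]
  (M : ℕ) [NeZero M] (H : Subgroup (ZMod M)ˣ)
  (f : ↥(beta0Field A) →+* ↥(mgcE A K₁))
  (hf : ∀ a : ↥(beta0Field A), ((f a : ↥(mgcE A K₁)) : Qb) = (a : Qb))
  [Algebra ↥(modularFunctionFieldFullC ↥(beta0Field A) (M₁ * q))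
    ↥(rtk6diF A K₁ (M₁ * q) M H)]
  (halg : ∀ z : ↥(modularFunctionFieldFullC ↥(beta0Field A) (M₁ * q)),
    algebraMap ↥(modularFunctionFieldFullC ↥(beta0Field A) (M₁ * q))
      ↥(rtk6diF A K₁ (M₁ * q) M H) z = rtk6c4fdIota f (M₁ * q) M H z)
  (hA : A.LiesOverPrime q) {d : ℕ} (hd0 : d ≠ 0) {ϖ : ↥(mgcA A K₁)}
  (hϖd : ϖ ^ d =
    beta0RingIncl (A := A) (le_sup_left : beta0Field A ≤ beta0Field A ⊔ K₁) π)
  [IsDiscreteValuationRing ↥(mgcA A K₁)] (hϖ : Irreducible ϖ)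
  (ιC₁ : ↥(mgcE A K₁) →+* ℂ)
  (w : ↥(rtk6diF A K₁ (M₁ * q) M H) ≃ₐ[↥(mgcE A K₁)] ↥(rtk6diF A K₁ (M₁ * q) M H))

include hf halg in
/-- `algebraMap K F₁ = incl ∘ (coefficientwise inclusion)` -/
theorem rtk6thrx_iota (x : ↥(modularFunctionFieldFullC ↥(beta0Field A) (M₁ * q))) :
    algebraMap ↥(modularFunctionFieldFullC ↥(beta0Field A) (M₁ * q))
        ↥(rtk6diF A K₁ (M₁ * q) M H) x =
      rtk6diIncl (M₁ * q) M H
        (mgaIncl (le_sup_left : beta0Field A ≤ beta0Field A ⊔ K₁) (M₁ * q) x) := by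
  rw [halg]
  have hfe : f = (IntermediateField.inclusion
      (le_sup_left : beta0Field A ≤ beta0Field A ⊔ K₁)).toRingHom :=
    RingHom.ext fun a => Subtype.ext (hf a)
  apply Subtype.ext
  rw [rtk6c4fdIota_coe, rtk6diIncl_coe, mgaIncl_coe, hfe]

set_option synthInstance.maxHeartbeats 400000 in
set_option maxHeartbeats 1600000 in
include hπ hϖ hf halg in
/-- **Level change of through-ness, general chart.**  `u₀ ∈ K` a coordinate with images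
`u₀′ ∈ F₀′`, `u ∈ F₁`, with (D-BC) for the chart `u₀` (elementwise form, `hdec`): if `V⁰ b` passes
through `𝔫₁ ∩ R₀`, then `mgvV hϖ ιC₁ hq hqM b` passes through `𝔫₁ ∩ R₀′`. -/
theorem rtk6thrx_level_gen (b : Bool)
    {u₀ : ↥(modularFunctionFieldFullC ↥(beta0Field A) (M₁ * q))}
    {u₀' : ↥(mgcF A K₁ (M₁ * q))} {u : ↥(rtk6diF A K₁ (M₁ * q) M H)}
    (hu : algebraMap ↥(modularFunctionFieldFullC ↥(beta0Field A) (M₁ * q))
      ↥(rtk6diF A K₁ (M₁ * q) M H) u₀ = u)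
    (hu' : rtk6diIncl (M₁ * q) M H u₀' = u)
    (hu₀V : u₀' ∈ mgvV hϖ ιC₁ hq hqM b)
    (hdec : ∀ x : ↥(mgcF A K₁ (M₁ * q)),
      IsIntegral ↥(Algebra.adjoin ↥(mgcA A K₁) ({u₀'} : Set ↥(mgcF A K₁ (M₁ * q)))) x →
      ∃ c : ↥(modularFunctionFieldFullC ↥(beta0Field A) (M₁ * q)),
        IsIntegral ↥(Algebra.adjoin ↥(beta0Ring A (beta0Field A))
          ({u₀} : Set ↥(modularFunctionFieldFullC ↥(beta0Field A) (M₁ * q)))) c ∧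
        ∃ z : ↥(mgcF A K₁ (M₁ * q)),
          IsIntegral ↥(Algebra.adjoin ↥(mgcA A K₁)
            ({u₀'} : Set ↥(mgcF A K₁ (M₁ * q)))) z ∧
          x = mgaIncl (le_sup_left : beta0Field A ≤ beta0Field A ⊔ K₁) (M₁ * q) c +
            algebraMap ↥(mgcA A K₁) ↥(mgcF A K₁ (M₁ * q)) ϖ * z)
    (𝔫₁ : AtPt (F := ↥(rtk6diF A K₁ (M₁ * q) M H)) ϖ u)
    (h : atThrough (rtk6gxaPt
        (beta0RingIncl (A := A) (le_sup_left : beta0Field A ≤ beta0Field A ⊔ K₁))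
        (rtk6gxi_hgφ K₁ M H f hf halg) hu (rtk6gxi_hg K₁ hq hA) hd0 hϖd 𝔫₁)
      (mgvV hπ ιC hq hqM b)) :
    atThrough (rtk6thrPt M H u₀' hu' 𝔫₁) (mgvV hϖ ιC₁ hq hqM b) := by
  intro y hy
  rw [mem_rtk6thrPt]
  obtain ⟨c, hc, z, hz, hyz⟩ := hdec (y : ↥(mgcF A K₁ (M₁ * q))) (mem_zchClosure.mp y.2)
  have hzV : z ∈ mgvV hϖ ιC₁ hq hqM b :=
    vtFam_mem_of_isIntegral (vtBase_residue hϖ) ιC₁ hq hqM b (fun a => ⟨a, rfl⟩) _
      (by rintro s rfl; exact hu₀V) hz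
  have hϖz : algebraMap ↥(mgcA A K₁) ↥(mgcF A K₁ (M₁ * q)) ϖ * z ∈
      (mgvV hϖ ιC₁ hq hqM b).nonunits := by
    have h1 := vt_mul_mem_nonunits (mgvV hϖ ιC₁ hq hqM b) hzV (mgv_hπV hϖ ιC₁ hq hqM b)
    rwa [mul_comm z] at h1
  have hce : mgaIncl (le_sup_left : beta0Field A ≤ beta0Field A ⊔ K₁) (M₁ * q) c =
      (y : ↥(mgcF A K₁ (M₁ * q))) - algebraMap ↥(mgcA A K₁) ↥(mgcF A K₁ (M₁ * q)) ϖ * z := by
    rw [hyz]; ring
  have hc1 : mgaIncl (le_sup_left : beta0Field A ≤ beta0Field A ⊔ K₁) (M₁ * q) c ∈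
      (mgvV hϖ ιC₁ hq hqM b).nonunits := by
    rw [hce]
    exact vt_sub_mem_nonunits _ hy hϖz
  have hc2 : c ∈ (mgvV hπ ιC hq hqM b).nonunits :=
    (mgv_incl_mem_nonunits_iff hπ hϖ ιC ιC₁ hq hqM le_sup_left b c).mp hc1
  have hc3 := h ⟨c, mem_zchClosure.mpr hc⟩ hc2
  rw [rtk6gxa_mem_pt] at hc3
  -- the decomposition inside the chart `R₀′`
  have hcR : mgaIncl (le_sup_left : beta0Field A ≤ beta0Field A ⊔ K₁) (M₁ * q) c ∈
      zchClosure (A₀ := ↥(mgcA A K₁)) ({u₀'} : Set ↥(mgcF A K₁ (M₁ * q))) := by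
    rw [hce]
    exact Subalgebra.sub_mem _ y.2
      (Subalgebra.mul_mem _ (Subalgebra.algebraMap_mem _ _) (mem_zchClosure.mpr hz))
  have hyR : y = (⟨_, hcR⟩ : ↥(zchClosure (A₀ := ↥(mgcA A K₁))
        ({u₀'} : Set ↥(mgcF A K₁ (M₁ * q))))) +
      algebraMap ↥(mgcA A K₁) ↥(zchClosure (A₀ := ↥(mgcA A K₁))
        ({u₀'} : Set ↥(mgcF A K₁ (M₁ * q)))) ϖ * ⟨z, mem_zchClosure.mpr hz⟩ :=
    Subtype.ext hyz
  have hJc : rtk6thrJ M H u₀' hu' (⟨_, hcR⟩ : ↥(zchClosure (A₀ := ↥(mgcA A K₁))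
        ({u₀'} : Set ↥(mgcF A K₁ (M₁ * q))))) =
      rtk6gxaJ (beta0RingIncl (A := A) (le_sup_left : beta0Field A ≤ beta0Field A ⊔ K₁))
        (rtk6gxi_hgφ K₁ M H f hf halg) hu ⟨c, mem_zchClosure.mpr hc⟩ := by
    apply Subtype.ext
    rw [rtk6thrJ_coe, rtk6gxaJ_coe]
    exact (rtk6thrx_iota K₁ M H f hf halg c).symm
  rw [hyR, RingHom.map_add, RingHom.map_mul, rtk6thrJ_algebraMap, hJc]
  exact 𝔫₁.1.add_mem hc3 (𝔫₁.1.mul_mem_right _ 𝔫₁.2.2)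

set_option synthInstance.maxHeartbeats 400000 in
set_option maxHeartbeats 1600000 in
include hπ hϖ hf halg in
/-- **(THR-χ), general chart.** -/
theorem rtk6thrx_main_gen (hw : Rtk6dvWIncl ιC₁ hq hqM M H w) (hML : M ∣ M₁ * q) (b : Bool)
    {u₀ : ↥(modularFunctionFieldFullC ↥(beta0Field A) (M₁ * q))}
    {u₀' : ↥(mgcF A K₁ (M₁ * q))} {u : ↥(rtk6diF A K₁ (M₁ * q) M H)}
    (hu : algebraMap ↥(modularFunctionFieldFullC ↥(beta0Field A) (M₁ * q))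
      ↥(rtk6diF A K₁ (M₁ * q) M H) u₀ = u)
    (hu' : rtk6diIncl (M₁ * q) M H u₀' = u)
    (hu₀V : u₀' ∈ mgvV hϖ ιC₁ hq hqM b)
    (hdec : ∀ x : ↥(mgcF A K₁ (M₁ * q)),
      IsIntegral ↥(Algebra.adjoin ↥(mgcA A K₁) ({u₀'} : Set ↥(mgcF A K₁ (M₁ * q)))) x →
      ∃ c : ↥(modularFunctionFieldFullC ↥(beta0Field A) (M₁ * q)),
        IsIntegral ↥(Algebra.adjoin ↥(beta0Ring A (beta0Field A))
          ({u₀} : Set ↥(modularFunctionFieldFullC ↥(beta0Field A) (M₁ * q)))) c ∧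
        ∃ z : ↥(mgcF A K₁ (M₁ * q)),
          IsIntegral ↥(Algebra.adjoin ↥(mgcA A K₁)
            ({u₀'} : Set ↥(mgcF A K₁ (M₁ * q)))) z ∧
          x = mgaIncl (le_sup_left : beta0Field A ≤ beta0Field A ⊔ K₁) (M₁ * q) c +
            algebraMap ↥(mgcA A K₁) ↥(mgcF A K₁ (M₁ * q)) ϖ * z)
    (𝔫₁ : AtPt (F := ↥(rtk6diF A K₁ (M₁ * q) M H)) ϖ u)
    (h : atThrough (rtk6gxaPt
        (beta0RingIncl (A := A) (le_sup_left : beta0Field A ≤ beta0Field A ⊔ K₁))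
        (rtk6gxi_hgφ K₁ M H f hf halg) hu (rtk6gxi_hg K₁ hq hA) hd0 hϖd 𝔫₁)
      (mgvV hπ ιC hq hqM b)) :
    ∃ c : rtk6dfK hϖ M H w, atThrough 𝔫₁ (rtk6dfV hϖ M H w c) ∧
      ∀ x : ↥(modularFunctionFieldFullC ↥(beta0Field A) (M₁ * q)),
        algebraMap ↥(modularFunctionFieldFullC ↥(beta0Field A) (M₁ * q))
            ↥(rtk6diF A K₁ (M₁ * q) M H) x ∈ (rtk6dfV hϖ M H w c).nonunits ↔
          x ∈ (mgvV hπ ιC hq hqM b).nonunits := by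
  obtain ⟨c, hc, ht⟩ := rtk6thr_of_atThrough_pt hϖ ιC₁ hq hqM M H w hw hML u₀' hu' b hu₀V 𝔫₁
    (rtk6thrx_level_gen hπ ιC hq hqM K₁ M H f hf halg hA hd0 hϖd hϖ ιC₁ b hu hu' hu₀V hdec 𝔫₁ h)
  refine ⟨c, ht, fun x => ?_⟩
  rw [rtk6thrx_iota K₁ M H f hf halg x, ← vt_mem_nonunits_comap, hc]
  exact mgv_incl_mem_nonunits_iff hπ hϖ ιC ιC₁ hq hqM le_sup_left b x

include hπ hϖ in
/-- **(THR-χ), chart `j`** — in the shape asked by helper94 (C4-χ-ASM):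
`𝔫₀ = rtk6gxiPt … 𝔫₁`, `V⁰ b = mgvV hπ ιC hq hqM b`, `V₁ = rtk6dfV hϖ M H w`. -/
theorem rtk6thrx_main (hw : Rtk6dvWIncl ιC₁ hq hqM M H w) (hML : M ∣ M₁ * q)
    (h2 : q = 2 → 3 ∣ M₁) (h3 : q = 3 → 2 ∣ M₁) (b : Bool)
    (𝔫₁ : AtPt (F := ↥(rtk6diF A K₁ (M₁ * q) M H)) ϖ (rtk6diT A K₁ (M₁ * q) M H))
    (h : atThrough (rtk6gxiPt hq K₁ M H f hf halg hA hd0 hϖd 𝔫₁) (mgvV hπ ιC hq hqM b)) :
    ∃ c : rtk6dfK hϖ M H w, atThrough 𝔫₁ (rtk6dfV hϖ M H w c) ∧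
      ∀ x : ↥(modularFunctionFieldFullC ↥(beta0Field A) (M₁ * q)),
        algebraMap ↥(modularFunctionFieldFullC ↥(beta0Field A) (M₁ * q))
            ↥(rtk6diF A K₁ (M₁ * q) M H) x ∈ (rtk6dfV hϖ M H w c).nonunits ↔
          x ∈ (mgvV hπ ιC hq hqM b).nonunits :=
  rtk6thrx_main_gen hπ ιC hq hqM K₁ M H f hf halg hA hd0 hϖd hϖ ιC₁ w hw hML b
    (rtk6gxi_hu K₁ M H f halg) rfl (mgv_T_mem hϖ ιC₁ hq hqM b)
    (rtk6thrx_decomp hπ K₁ hϖ hq hqM hA h2 h3) 𝔫₁ h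

include hπ hϖ in
/-- **(THR-χ), chart `1 / j`**: `𝔫₀ = rtk6gxaPt … 𝔫₁` (the closed point `𝔫₁ ∩ R₀` of the base
chart `1 / j`, for ANY proof `hu` of `algebraMap K F₁ (1 / j) = 1 / t₁`). -/
theorem rtk6thrx_main_inv (hw : Rtk6dvWIncl ιC₁ hq hqM M H w) (hML : M ∣ M₁ * q)
    (h2 : q = 2 → 3 ∣ M₁) (h3 : q = 3 → 2 ∣ M₁) (b : Bool)
    (hu : algebraMap ↥(modularFunctionFieldFullC ↥(beta0Field A) (M₁ * q))
      ↥(rtk6diF A K₁ (M₁ * q) M H) (bgJ ↥(beta0Field A) (M₁ * q))⁻¹ =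
        (rtk6diT A K₁ (M₁ * q) M H)⁻¹)
    (𝔫₁ : AtPt (F := ↥(rtk6diF A K₁ (M₁ * q) M H)) ϖ (rtk6diT A K₁ (M₁ * q) M H)⁻¹)
    (h : atThrough (rtk6gxaPt
        (beta0RingIncl (A := A) (le_sup_left : beta0Field A ≤ beta0Field A ⊔ K₁))
        (rtk6gxi_hgφ K₁ M H f hf halg) hu (rtk6gxi_hg K₁ hq hA) hd0 hϖd 𝔫₁)
      (mgvV hπ ιC hq hqM b)) :
    ∃ c : rtk6dfK hϖ M H w, atThrough 𝔫₁ (rtk6dfV hϖ M H w c) ∧
      ∀ x : ↥(modularFunctionFieldFullC ↥(beta0Field A) (M₁ * q)),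
        algebraMap ↥(modularFunctionFieldFullC ↥(beta0Field A) (M₁ * q))
            ↥(rtk6diF A K₁ (M₁ * q) M H) x ∈ (rtk6dfV hϖ M H w c).nonunits ↔
          x ∈ (mgvV hπ ιC hq hqM b).nonunits :=
  rtk6thrx_main_gen hπ ιC hq hqM K₁ M H f hf halg hA hd0 hϖd hϖ ιC₁ w hw hML b
    hu (rtk6thr_incl_inv M H) (mgv_T_inv_mem hϖ ιC₁ hq hqM b)
    (rtk6thrx_decomp_inv hπ K₁ hϖ hq hqM hA h2 h3) 𝔫₁ h

include halg in
/-- the hypothesis `hu` of `rtk6thrx_main_inv` -/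
theorem rtk6thrx_hu_inv :
    algebraMap ↥(modularFunctionFieldFullC ↥(beta0Field A) (M₁ * q))
      ↥(rtk6diF A K₁ (M₁ * q) M H) (bgJ ↥(beta0Field A) (M₁ * q))⁻¹ =
        (rtk6diT A K₁ (M₁ * q) M H)⁻¹ := by
  rw [map_inv₀, rtk6gxi_hu K₁ M H f halg]

/-- `rigid ⇒ h2, h3` -/
theorem rtk6thrx_h23 {q M₁ : ℕ} (rigid : (q ≠ 2 → 4 ∣ M₁) ∧ (q = 2 → 9 ∣ M₁)) :
    (q = 2 → 3 ∣ M₁) ∧ (q = 3 → 2 ∣ M₁) :=
  ⟨fun h => dvd_trans (by norm_num : 3 ∣ 9) (rigid.2 h),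
    fun h => dvd_trans (by norm_num : 2 ∣ 4) (rigid.1 (by omega))⟩

include hπ hϖ in
/-- **(THR-χ), chart `j`, rigid level** (the hypotheses of `rtk6gxi_cross`). -/
theorem rtk6thrx_main_rigid (hw : Rtk6dvWIncl ιC₁ hq hqM M H w) (hML : M ∣ M₁ * q)
    (rigid : (q ≠ 2 → 4 ∣ M₁) ∧ (q = 2 → 9 ∣ M₁)) (b : Bool)
    (𝔫₁ : AtPt (F := ↥(rtk6diF A K₁ (M₁ * q) M H)) ϖ (rtk6diT A K₁ (M₁ * q) M H))
    (h : atThrough (rtk6gxiPt hq K₁ M H f hf halg hA hd0 hϖd 𝔫₁) (mgvV hπ ιC hq hqM b)) :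
    ∃ c : rtk6dfK hϖ M H w, atThrough 𝔫₁ (rtk6dfV hϖ M H w c) ∧
      ∀ x : ↥(modularFunctionFieldFullC ↥(beta0Field A) (M₁ * q)),
        algebraMap ↥(modularFunctionFieldFullC ↥(beta0Field A) (M₁ * q))
            ↥(rtk6diF A K₁ (M₁ * q) M H) x ∈ (rtk6dfV hϖ M H w c).nonunits ↔
          x ∈ (mgvV hπ ιC hq hqM b).nonunits :=
  rtk6thrx_main hπ ιC hq hqM K₁ M H f hf halg hA hd0 hϖd hϖ ιC₁ w hw hML
    (rtk6thrx_h23 rigid).1 (rtk6thrx_h23 rigid).2 b 𝔫₁ h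

include hπ hϖ in
/-- **(THR-χ) at a crossing point of the chart `j`**: both components, in the shape of
`hthr₁ hthr₂ hc₁ hc₂` of helper94's `rtk6c4a_cross` (`C4Asm.lean`). -/
theorem rtk6thrx_cross (hw : Rtk6dvWIncl ιC₁ hq hqM M H w) (hML : M ∣ M₁ * q)
    (rigid : (q ≠ 2 → 4 ∣ M₁) ∧ (q = 2 → 9 ∣ M₁))
    (𝔫₁ : AtPt (F := ↥(rtk6diF A K₁ (M₁ * q) M H)) ϖ (rtk6diT A K₁ (M₁ * q) M H))
    (h₁ : atThrough (rtk6gxiPt hq K₁ M H f hf halg hA hd0 hϖd 𝔫₁) (mgvV hπ ιC hq hqM true))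
    (h₂ : atThrough (rtk6gxiPt hq K₁ M H f hf halg hA hd0 hϖd 𝔫₁) (mgvV hπ ιC hq hqM false)) :
    ∃ c₁ c₂ : rtk6dfK hϖ M H w,
      atThrough 𝔫₁ (rtk6dfV hϖ M H w c₁) ∧ atThrough 𝔫₁ (rtk6dfV hϖ M H w c₂) ∧
      (∀ x : ↥(modularFunctionFieldFullC ↥(beta0Field A) (M₁ * q)),
        algebraMap ↥(modularFunctionFieldFullC ↥(beta0Field A) (M₁ * q))
            ↥(rtk6diF A K₁ (M₁ * q) M H) x ∈ (rtk6dfV hϖ M H w c₁).nonunits ↔
          x ∈ (mgvV hπ ιC hq hqM true).nonunits) ∧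
      (∀ x : ↥(modularFunctionFieldFullC ↥(beta0Field A) (M₁ * q)),
        algebraMap ↥(modularFunctionFieldFullC ↥(beta0Field A) (M₁ * q))
            ↥(rtk6diF A K₁ (M₁ * q) M H) x ∈ (rtk6dfV hϖ M H w c₂).nonunits ↔
          x ∈ (mgvV hπ ιC hq hqM false).nonunits) := by
  obtain ⟨c₁, ht₁, hc₁⟩ := rtk6thrx_main_rigid hπ ιC hq hqM K₁ M H f hf halg hA hd0 hϖd hϖ ιC₁ w
    hw hML rigid true 𝔫₁ h₁
  obtain ⟨c₂, ht₂, hc₂⟩ := rtk6thrx_main_rigid hπ ιC hq hqM K₁ M H f hf halg hA hd0 hϖd hϖ ιC₁ w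
    hw hML rigid false 𝔫₁ h₂
  exact ⟨c₁, c₂, ht₁, ht₂, hc₁, hc₂⟩

include hπ hϖ in
/-- **(THR-χ), chart `j`: LITERALLY the hypothesis `hthr` of helper94's `rtk6c4aj_plusAt`**
(`C4AsmJ.lean`) with `V := rtk6dfV hϖ M H w`, `κ := rtk6dfK hϖ M H w`. -/
theorem rtk6thrx_hthr (hw : Rtk6dvWIncl ιC₁ hq hqM M H w) (hML : M ∣ M₁ * q)
    (rigid : (q ≠ 2 → 4 ∣ M₁) ∧ (q = 2 → 9 ∣ M₁))
    (𝔫 : AtPt (F := ↥(rtk6diF A K₁ (M₁ * q) M H)) ϖ (rtk6diT A K₁ (M₁ * q) M H)) :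
    ∀ b : Bool,
      atThrough (rtk6gxiPt hq K₁ M H f hf halg hA hd0 hϖd 𝔫) (mgvV hπ ιC hq hqM b) →
      ∃ c : rtk6dfK hϖ M H w, atThrough 𝔫 (rtk6dfV hϖ M H w c) ∧
        ∀ x : ↥(modularFunctionFieldFullC ↥(beta0Field A) (M₁ * q)),
          algebraMap ↥(modularFunctionFieldFullC ↥(beta0Field A) (M₁ * q))
            ↥(rtk6diF A K₁ (M₁ * q) M H) x ∈ (rtk6dfV hϖ M H w c).nonunits ↔
          x ∈ (mgvV hπ ιC hq hqM b).nonunits :=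
  fun b h => rtk6thrx_main_rigid hπ ιC hq hqM K₁ M H f hf halg hA hd0 hϖd hϖ ιC₁ w hw hML
    rigid b 𝔫 h

include hπ hϖ in
/-- **(THR-χ), chart `1 / j`**, in the shape of `hthr` (the point `𝔫 ∩ R₀` written with
`rtk6gxaPt`, ANY proof `hu` of `algebraMap K F₁ (1 / j) = 1 / t₁`, e.g. `rtk6thrx_hu_inv`). -/
theorem rtk6thrx_hthr_inv (hw : Rtk6dvWIncl ιC₁ hq hqM M H w) (hML : M ∣ M₁ * q)
    (rigid : (q ≠ 2 → 4 ∣ M₁) ∧ (q = 2 → 9 ∣ M₁))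
    (hu : algebraMap ↥(modularFunctionFieldFullC ↥(beta0Field A) (M₁ * q))
      ↥(rtk6diF A K₁ (M₁ * q) M H) (bgJ ↥(beta0Field A) (M₁ * q))⁻¹ =
        (rtk6diT A K₁ (M₁ * q) M H)⁻¹)
    (𝔫 : AtPt (F := ↥(rtk6diF A K₁ (M₁ * q) M H)) ϖ (rtk6diT A K₁ (M₁ * q) M H)⁻¹) :
    ∀ b : Bool,
      atThrough (rtk6gxaPt
          (beta0RingIncl (A := A) (le_sup_left : beta0Field A ≤ beta0Field A ⊔ K₁))
          (rtk6gxi_hgφ K₁ M H f hf halg) hu (rtk6gxi_hg K₁ hq hA) hd0 hϖd 𝔫)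
        (mgvV hπ ιC hq hqM b) →
      ∃ c : rtk6dfK hϖ M H w, atThrough 𝔫 (rtk6dfV hϖ M H w c) ∧
        ∀ x : ↥(modularFunctionFieldFullC ↥(beta0Field A) (M₁ * q)),
          algebraMap ↥(modularFunctionFieldFullC ↥(beta0Field A) (M₁ * q))
            ↥(rtk6diF A K₁ (M₁ * q) M H) x ∈ (rtk6dfV hϖ M H w c).nonunits ↔
          x ∈ (mgvV hπ ιC hq hqM b).nonunits :=
  fun b h => rtk6thrx_main_inv hπ ιC hq hqM K₁ M H f hf halg hA hd0 hϖd hϖ ιC₁ w hw hML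
    (rtk6thrx_h23 rigid).1 (rtk6thrx_h23 rigid).2 b hu 𝔫 h

end Main



end Fermat.Agent.RT.K6
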