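/-
K-machine, piece K6, piece **FIX-X, THIN half, (T2) in the shape of `hT2`** (helper34): the
hypothesis `hT2` of helper54's `rtk6c4ac_hcr` (`RT/K6/C4AsmCr.lean`, the discharge of `hcr` of
C4-χ-ASM) for `𝒢 := rtk6fxbG A K₁ L M H q` (`FixXB.lean`: the coefficientwise actions of the
inertia group and the diamonds at `q`):

  for EVERY `ψr` with `Rtk6psiIsR` and every family `ψ'` with `Rtk6psiIsFam` (any `dS`), every
  `g ∈ 𝒢` satisfies `Rtk6c4aAut` on the unnormalised generators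
  `S₀ = range (rtk6c4fdY … (ψ' i))`, `y₀ = rtk6c4fdY … ψr`.

* `rtk6fxb_varpi_ne_zero` : `ϖ ≠ 0` from `ϖ ^ d = q`;
* `rtk6fxb_hT2`           : **`hT2`** for `𝒢 = rtk6fxbG`, ANY level `K₁`, ANY chart `R₀`
  (a subalgebra of `K` over `A ∩ ℚ̄^I`), `ϖ ^ d_q = q`;
* `rtk6fxb_hT2_chart`     : the same with the coordinate `u = t` or `u = t⁻¹`.
-/
import Fermat.Agent.RT.K6.FixXB
import Fermat.Agent.RT.K6.Psi

set_option autoImplicit false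
set_option linter.style.haveILetI false
set_option linter.unusedSectionVars false
set_option linter.unusedVariables false
set_option linter.style.longLine false
set_option synthInstance.maxHeartbeats 400000
set_option maxHeartbeats 4000000

noncomputable section

namespace Fermat.Agent.RT.K6

open ModularCurve AlgebraicCurve IntermediateField
open Fermat.Agent.ES Fermat.Agent.ES.G2 Fermat.Agent.INJ Fermat.Agent.UNIP Fermat.Agent.ES1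
  Fermat.Agent.ES1.G2 Fermat.Agent.STB

section T2

variable {A : ValuationSubring Qb} {q d : ℕ} {L M : ℕ} [NeZero M] {H : Subgroup (ZMod M)ˣ}

/-- `ϖ ≠ 0` from `ϖ ^ d = q` -/
theorem rtk6fxb_varpi_ne_zero {K₁ : IntermediateField ℚ Qb} {ϖ : ↥(mgcA A K₁)}
    (hq0 : q ≠ 0) (hd0 : d ≠ 0) (hϖ : ϖ ^ d = ((q : ℕ) : ↥(mgcA A K₁))) : ϖ ≠ 0 := by
  intro h0
  have h1 : (((ϖ : ↥(mgcA A K₁)) : ↥(mgcE A K₁)) : Qb) ^ d = ((q : ℕ) : Qb) := by
    have := congrArg (fun z : ↥(mgcA A K₁) => (((z : ↥(mgcA A K₁)) : ↥(mgcE A K₁)) : Qb)) hϖ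
    simpa using this
  rw [h0] at h1
  have h2 : ((q : ℕ) : Qb) = 0 := by
    rw [← h1]
    simp [hd0]
  exact hq0 (Nat.cast_eq_zero.mp h2)

/-- **(T2) in the shape of `hT2`** (`rtk6c4ac_hcr`, helper54) for `𝒢 = rtk6fxbG`. -/
theorem rtk6fxb_hT2 (K₁ : IntermediateField ℚ Qb) [IsDiscreteValuationRing ↥(mgcA A K₁)]
    (f : ↥(beta0Field A) →+* ↥(mgcE A K₁))
    (hf : ∀ a : ↥(beta0Field A), ((f a : ↥(mgcE A K₁)) : Qb) = (a : Qb))
    [Algebra ↥(modularFunctionFieldFullC ↥(beta0Field A) L) ↥(rtk6diF A K₁ L M H)]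
    (halg : ∀ z : ↥(modularFunctionFieldFullC ↥(beta0Field A) L),
      algebraMap ↥(modularFunctionFieldFullC ↥(beta0Field A) L) ↥(rtk6diF A K₁ L M H) z
        = rtk6c4fdIota f L M H z)
    (hML : M ∣ L)
    (R₀ : Subalgebra ↥(beta0Ring A (beta0Field A))
      ↥(modularFunctionFieldFullC ↥(beta0Field A) L))
    (hq : q.Prime) (hqM : q ∣ M) (hq2 : ¬ q ^ 2 ∣ M)
    {ϖ : ↥(mgcA A K₁)} (hϖq : ϖ ^ rtk6psiDr M q H = ((q : ℕ) : ↥(mgcA A K₁))) :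
    ∀ (dS : ℕ) (ψr : (ZMod M)ˣ →* (↥(beta0Field A))ˣ) (k : ℕ)
      (ψ' : Fin k → ((ZMod M)ˣ →* (↥(beta0Field A))ˣ)),
      Rtk6psiIsR ↥(beta0Field A) M q H ψr → Rtk6psiIsFam ↥(beta0Field A) M q dS H ψ' →
      ∀ g ∈ rtk6fxbG A K₁ L M H q,
        Rtk6c4aAut (A₀ := ↥(mgcA A K₁)) (E := ↥(mgcE A K₁)) (F := ↥(rtk6diF A K₁ L M H)) ↥R₀
          ↥(modularFunctionFieldFullC ↥(beta0Field A) L) ϖ (rtk6diT A K₁ L M H)
          (Set.range fun i => rtk6c4fdY f L M H (ψ' i) hML) (rtk6c4fdY f L M H ψr hML) g := by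
  intro dS ψr k ψ' hR hFam
  have hd0 : rtk6psiDr M q H ≠ 0 := (rtk6psiDr_pos (r := q) (H := H)).ne'
  obtain ⟨c₀, -, hord⟩ := hR.exists_orderOf hq hqM hq2
  exact rtk6fxb_aut K₁ f hf halg hML R₀ (rtk6fxb_varpi_ne_zero hq.ne_zero hd0 hϖq)
    (rtk6fxb_hvarpi_of_natCast hϖq) ψr hd0 hord ψ' hFam.map_atR

/-- **(T2) in the shape of `hT2`, on either chart** (`u = t` or `u = t⁻¹`). -/
theorem rtk6fxb_hT2_chart (K₁ : IntermediateField ℚ Qb)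
    [IsDiscreteValuationRing ↥(mgcA A K₁)]
    (f : ↥(beta0Field A) →+* ↥(mgcE A K₁))
    (hf : ∀ a : ↥(beta0Field A), ((f a : ↥(mgcE A K₁)) : Qb) = (a : Qb))
    [Algebra ↥(modularFunctionFieldFullC ↥(beta0Field A) L) ↥(rtk6diF A K₁ L M H)]
    (halg : ∀ z : ↥(modularFunctionFieldFullC ↥(beta0Field A) L),
      algebraMap ↥(modularFunctionFieldFullC ↥(beta0Field A) L) ↥(rtk6diF A K₁ L M H) z
        = rtk6c4fdIota f L M H z)
    (hML : M ∣ L)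
    (R₀ : Subalgebra ↥(beta0Ring A (beta0Field A))
      ↥(modularFunctionFieldFullC ↥(beta0Field A) L))
    (hq : q.Prime) (hqM : q ∣ M) (hq2 : ¬ q ^ 2 ∣ M)
    {ϖ : ↥(mgcA A K₁)} (hϖq : ϖ ^ rtk6psiDr M q H = ((q : ℕ) : ↥(mgcA A K₁)))
    {u : ↥(rtk6diF A K₁ L M H)}
    (hu : u = rtk6diT A K₁ L M H ∨ u = (rtk6diT A K₁ L M H)⁻¹) :
    ∀ (dS : ℕ) (ψr : (ZMod M)ˣ →* (↥(beta0Field A))ˣ) (k : ℕ)
      (ψ' : Fin k → ((ZMod M)ˣ →* (↥(beta0Field A))ˣ)),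
      Rtk6psiIsR ↥(beta0Field A) M q H ψr → Rtk6psiIsFam ↥(beta0Field A) M q dS H ψ' →
      ∀ g ∈ rtk6fxbG A K₁ L M H q,
        Rtk6c4aAut (A₀ := ↥(mgcA A K₁)) (E := ↥(mgcE A K₁)) (F := ↥(rtk6diF A K₁ L M H)) ↥R₀
          ↥(modularFunctionFieldFullC ↥(beta0Field A) L) ϖ u
          (Set.range fun i => rtk6c4fdY f L M H (ψ' i) hML) (rtk6c4fdY f L M H ψr hML) g :=
  fun dS ψr k ψ' hR hFam g hg =>
    rtk6fxb_aut_chart hu (rtk6fxb_hT2 K₁ f hf halg hML R₀ hq hqM hq2 hϖq dS ψr k ψ' hR hFam g hg)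

end T2

end Fermat.Agent.RT.K6

end
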