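/-
K-machine, piece K6, piece C4-χ-ASM (helper94), FINAL PLUG, chart `j`:
**the dichotomy with C4+ at every closed point of the chart `j` at the thin level
`K₁′ = rtk6ebK q d_q`** (`d_q = rtk6psiDr M q H`), for the family
`V₁ = rtk6dfV hϖ₁ M H (rtk6diwEquiv w₀ hc₁)` and the set `𝒢 = rtk6fxbG A K₁′ (M₁ q) M H q`,

  = LITERALLY the hypothesis `hJ` of `rtk6cxp_geomChiG` (`C4ChiPlusG.lean`, helper76),

from `rtk6c4aj_plusAt` (`C4AsmJ.lean`) and the three discharges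
`rtk6c4as_hsm` (helper86), `rtk6c4ac_hcr` (helper54) with `rtk6fxb_hT2` (helper34),
`rtk6thrx_hthr` (helper66); base data `π := q`, `ιC := mgdIota (ℚ̄^I)`, `f` the inclusion
`ℚ̄^I → E₁`, `ιC₁ := mgdIota E₁`, (W1) `rtk6w1_wIncl`.

* `rtk6c4atF`, `rtk6c4atF_coe` : the inclusion `ℚ̄^I → E₁ = ℚ̄^I ⊔ K₁`;
* `rtk6c4at_plusJ` : one level datum, one point;
* `rtk6c4at_hJ`    : the hypothesis `hJ` of `rtk6cxp_geomChiG`.
-/
import Fermat.Agent.RT.K6.C4AsmJ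
import Fermat.Agent.RT.K6.C4AsmSm
import Fermat.Agent.RT.K6.C4AsmCr
import Fermat.Agent.RT.K6.C4ThrChi
import Fermat.Agent.RT.K6.FixXBT2
import Fermat.Agent.RT.K6.C4ChiPlusG

set_option autoImplicit false
set_option linter.style.haveILetI false
set_option linter.unusedSectionVars false
set_option linter.unusedVariables false
set_option linter.style.longLine false
set_option synthInstance.maxHeartbeats 400000
set_option maxHeartbeats 4000000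

noncomputable section

namespace Fermat.Agent.RT.K6

open ModularCurve Polynomial IntermediateField Fermat.Agent.INJ Fermat.Agent.AL AlgebraicCurve
open Fermat.Agent.ES Fermat.Agent.ES.G2 Fermat.Agent.STB Fermat.Agent.UNIP Fermat.Agent.S36
open Fermat.Agent.RIB.MP Fermat.Agent.ES1 Fermat.Agent.ES1.G2

/-- the inclusion `ℚ̄^I → E₁ = ℚ̄^I ⊔ K₁` -/
def rtk6c4atF (A : ValuationSubring Qb) (K₁ : IntermediateField ℚ Qb) :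
    ↥(beta0Field A) →+* ↥(mgcE A K₁) :=
  (IntermediateField.inclusion (le_sup_left : beta0Field A ≤ beta0Field A ⊔ K₁)).toRingHom

theorem rtk6c4atF_coe (A : ValuationSubring Qb) (K₁ : IntermediateField ℚ Qb)
    (a : ↥(beta0Field A)) : ((rtk6c4atF A K₁ a : ↥(mgcE A K₁)) : Qb) = (a : Qb) := rfl

section Thin

variable {q M₁ : ℕ} [NeZero q] [NeZero M₁] [NeZero (M₁ * q)] {M : ℕ} {H : Subgroup (ZMod M)ˣ}

/-- **C4-χ-ASM at the thin level, chart `j`** (one level datum, one point). -/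
theorem rtk6c4at_plusJ (hq : q.Prime) (hqM' : q ∣ M) (hM0 : M ≠ 0) (hqM : ¬ q ∣ M₁)
    (hML : M ∣ M₁ * q) (hstar : IsStarStable M q H) (htame : IsTameAt (M₁ * q) M q H)
    (h4 : 4 ∣ M₁ * q) (w₀ : fieldBar (M₁ * q) M H ≃ₐ[Qb] fieldBar (M₁ * q) M H)
    (hw₀ : IsWAt (M₁ * q) M H q w₀) (A : ValuationSubring Qb) (hA : A.LiesOverPrime q)
    [IsDiscreteValuationRing ↥(mgcA A (rtk6ebK q (rtk6cxpD M q H)))]
    (ϖ₁ : ↥(mgcA A (rtk6ebK q (rtk6cxpD M q H)))) (hϖ₁ : Irreducible ϖ₁)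
    (hϖq : ϖ₁ ^ rtk6cxpD M q H = ((q : ℕ) : ↥(mgcA A (rtk6ebK q (rtk6cxpD M q H)))))
    (hc₁ : RtkCommK (mgcE A (rtk6ebK q (rtk6cxpD M q H))) w₀)
    (𝔫₁ : AtPt (F := ↥(rtk6diF A (rtk6ebK q (rtk6cxpD M q H)) (M₁ * q) M H)) ϖ₁
      (rtk6diT A (rtk6ebK q (rtk6cxpD M q H)) (M₁ * q) M H)) :
    Rtk6c4aPlusAt
      (rtk6dfV hϖ₁ M H (rtk6diwEquiv (K₀ := mgcE A (rtk6ebK q (rtk6cxpD M q H))) w₀ hc₁))
      (rtk6fxbG A (rtk6ebK q (rtk6cxpD M q H)) (M₁ * q) M H q) 𝔫₁ := by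
  haveI : NeZero M := ⟨hM0⟩
  haveI : IsDiscreteValuationRing ↥(beta0Ring A (beta0Field A)) := beta0Ring_isDVR_base hq hA
  have hπ : Irreducible ((q : ℕ) : ↥(beta0Ring A (beta0Field A))) :=
    beta0Ring_irreducible_q (A := A) hq hA
  have hd0 : rtk6psiDr M q H ≠ 0 := rtk6cxpD_ne_zero hM0
  have hq2 : ¬ q ^ 2 ∣ M := rtk6cxp_not_sq_dvd hq hqM hML
  have rigid : (q ≠ 2 → 4 ∣ M₁) ∧ (q = 2 → 9 ∣ M₁) := rtk6cxp_rigid hq hqM h4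
  have hM3 : 3 ≤ M := rtk6c4ac_three_le hq hqM h4 hqM' hM0
  letI : Algebra ↥(modularFunctionFieldFullC ↥(beta0Field A) (M₁ * q))
      ↥(rtk6diF A (rtk6ebK q (rtk6cxpD M q H)) (M₁ * q) M H) :=
    (rtk6c4fdIota (rtk6c4atF A (rtk6ebK q (rtk6cxpD M q H))) (M₁ * q) M H).toAlgebra
  have halg : ∀ z : ↥(modularFunctionFieldFullC ↥(beta0Field A) (M₁ * q)),
      algebraMap ↥(modularFunctionFieldFullC ↥(beta0Field A) (M₁ * q))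
        ↥(rtk6diF A (rtk6ebK q (rtk6cxpD M q H)) (M₁ * q) M H) z =
      rtk6c4fdIota (rtk6c4atF A (rtk6ebK q (rtk6cxpD M q H))) (M₁ * q) M H z := fun _ => rfl
  have hϖd := rtk6cxp_varpi_pow (A := A) (K₁' := rtk6ebK q (rtk6cxpD M q H)) hϖq
  have hwI := rtk6w1_wIncl w₀ hw₀ hc₁ hq (mgdIota (mgcE A (rtk6ebK q (rtk6cxpD M q H)))) hqM
  exact rtk6c4aj_plusAt hπ (mgdIota (beta0Field A)) hq hqM (rtk6ebK q (rtk6cxpD M q H)) M H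
    (rtk6c4atF A (rtk6ebK q (rtk6cxpD M q H))) (rtk6c4atF_coe A _) halg hA hd0 hϖd rigid
    (rtk6dfV hϖ₁ M H (rtk6diwEquiv (K₀ := mgcE A (rtk6ebK q (rtk6cxpD M q H))) w₀ hc₁))
    (fun c z hz => rtk6df_hBV₁ hϖ₁ (mgdIota (mgcE A (rtk6ebK q (rtk6cxpD M q H)))) hq hqM M H
      _ hwI c z hz)
    (rtk6fxbG A (rtk6ebK q (rtk6cxpD M q H)) (M₁ * q) M H q) 𝔫₁
    (rtk6c4as_hsm hπ (mgdIota (beta0Field A)) hq hqM M H
      (rtk6c4atF A (rtk6ebK q (rtk6cxpD M q H))) (rtk6c4atF_coe A _) halg hA hd0 hϖd hϖq hML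
      hqM' h4 hstar htame 𝔫₁)
    (rtk6c4ac_hcr hπ (mgdIota (beta0Field A)) hq hqM M H
      (rtk6c4atF A (rtk6ebK q (rtk6cxpD M q H))) (rtk6c4atF_coe A _) halg hA hd0 hϖd rigid hϖq
      hqM' hML hM3 hstar htame _
      (rtk6fxb_hT2 (rtk6ebK q (rtk6cxpD M q H)) (rtk6c4atF A (rtk6ebK q (rtk6cxpD M q H)))
        (rtk6c4atF_coe A _) halg hML _ hq hqM' hq2 hϖq) 𝔫₁)
    (rtk6thrx_hthr hπ (mgdIota (beta0Field A)) hq hqM (rtk6ebK q (rtk6cxpD M q H)) M H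
      (rtk6c4atF A (rtk6ebK q (rtk6cxpD M q H))) (rtk6c4atF_coe A _) halg hA hd0 hϖd hϖ₁
      (mgdIota (mgcE A (rtk6ebK q (rtk6cxpD M q H)))) _ hwI hML rigid 𝔫₁)

end Thin

/-- **The hypothesis `hJ` of `rtk6cxp_geomChiG`** (chart `j`), closed. -/
theorem rtk6c4at_hJ :
    ∀ (q M₁ : ℕ) [NeZero q] [NeZero M₁] [NeZero (M₁ * q)] (M : ℕ)
      (H : Subgroup (ZMod M)ˣ) (hq : q.Prime) (hqM' : q ∣ M) (hM0 : M ≠ 0), ¬ q ∣ M₁ →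
      M ∣ M₁ * q → IsStarStable M q H → IsTameAt (M₁ * q) M q H → 4 ∣ M₁ * q →
      ∀ (w₀ : fieldBar (M₁ * q) M H ≃ₐ[Qb] fieldBar (M₁ * q) M H)
        (hw₀ : IsWAt (M₁ * q) M H q w₀) (A : ValuationSubring Qb), A.LiesOverPrime q →
      ∀ [IsDiscreteValuationRing ↥(mgcA A (rtk6ebK q (rtk6cxpD M q H)))]
        (ϖ₁ : ↥(mgcA A (rtk6ebK q (rtk6cxpD M q H)))) (hϖ₁ : Irreducible ϖ₁)
        (_ : ϖ₁ ^ rtk6cxpD M q H = ((q : ℕ) : ↥(mgcA A (rtk6ebK q (rtk6cxpD M q H)))))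
        (hc₁ : RtkCommK (mgcE A (rtk6ebK q (rtk6cxpD M q H))) w₀)
        (𝔫₁ : AtPt (F := ↥(rtk6diF A (rtk6ebK q (rtk6cxpD M q H)) (M₁ * q) M H)) ϖ₁
          (rtk6diT A (rtk6ebK q (rtk6cxpD M q H)) (M₁ * q) M H)),
        Rtk6c4aPlusAt
          (rtk6dfV hϖ₁ M H (rtk6diwEquiv (K₀ := mgcE A (rtk6ebK q (rtk6cxpD M q H))) w₀ hc₁))
          (rtk6fxbG A (rtk6ebK q (rtk6cxpD M q H)) (M₁ * q) M H q) 𝔫₁ := by
  intro q M₁ _ _ _ M H hq hqM' hM0 hqM hML hstar htame h4 w₀ hw₀ A hA _ ϖ₁ hϖ₁ hϖq hc₁ 𝔫₁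
  exact rtk6c4at_plusJ hq hqM' hM0 hqM hML hstar htame h4 w₀ hw₀ A hA ϖ₁ hϖ₁ hϖq hc₁ 𝔫₁

end Fermat.Agent.RT.K6
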