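/-
K-machine, piece K6, piece **(THR-χ)**, chart `1 / j` (helper66, for helper94's C4-χ-ASM):
`rtk6thrx_hthrInv` = LITERALLY the hypothesis `hthr` of `rtk6c4aj_plusAt_inv` (`C4AsmJInv.lean`)
with `V := rtk6dfV hϖ M H w`, `κ := rtk6dfK hϖ M H w`, the closed point of the base chart written
`rtk6gxiPtInv` (helper54, `GenCrossInv.lean`).  Twin of `rtk6thrx_hthr` (`C4ThrChi.lean`).
-/
import Fermat.Agent.RT.K6.C4ThrChi
import Fermat.Agent.RT.K6.GenCrossInv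

set_option autoImplicit false
set_option linter.style.haveILetI false
set_option linter.unusedSectionVars false
set_option linter.unusedVariables false
set_option linter.style.longLine false

noncomputable section

namespace Fermat.Agent.RT.K6

open ModularCurve AlgebraicCurve Fermat.Agent.ES Fermat.Agent.ES.G2 Fermat.Agent.INJ
open Fermat.Agent.UNIP Fermat.Agent.ES1 Fermat.Agent.ES1.G2 Fermat.Agent.AL IntermediateField
open Fermat.Agent.STB Polynomial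

section MainInv

variable {A : ValuationSubring Qb} {q M₁ : ℕ} [NeZero q] [NeZero M₁] [NeZero (M₁ * q)]
  [IsDiscreteValuationRing ↥(beta0Ring A (beta0Field A))]
  {π : ↥(beta0Ring A (beta0Field A))} (hπ : Irreducible π)
  (ιC : ↥(beta0Field A) →+* ℂ) (hq : q.Prime) (hqM : ¬ q ∣ M₁)
  (K₁ : IntermediateField ℚ Qb) [NumberField ↥K₁] [IsGalois ℚ ↥K₁]
  (M : ℕ) [NeZero M] (H : Subgroup (ZMod M)ˣ)
  (f : ↥(beta0Field A) →+* ↥(mgcE A K₁))
  (hf : ∀ a : ↥(beta0Field A), ((f a : ↥(mgcE A K₁)) : Qb) = (a : Qb))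
  [Algebra ↥(modularFunctionFieldFullC ↥(beta0Field A) (M₁ * q))
    ↥(rtk6diF A K₁ (M₁ * q) M H)]
  (halg : ∀ z : ↥(modularFunctionFieldFullC ↥(beta0Field A) (M₁ * q)),
    algebraMap ↥(modularFunctionFieldFullC ↥(beta0Field A) (M₁ * q))
      ↥(rtk6diF A K₁ (M₁ * q) M H) z = rtk6c4fdIota f (M₁ * q) M H z)
  (hA : A.LiesOverPrime q) {d : ℕ} (hd0 : d ≠ 0) {ϖ : ↥(mgcA A K₁)}
  (hϖd : ϖ ^ d =
    beta0RingIncl (A := A) (le_sup_left : beta0Field A ≤ beta0Field A ⊔ K₁) π)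
  [IsDiscreteValuationRing ↥(mgcA A K₁)] (hϖ : Irreducible ϖ)
  (ιC₁ : ↥(mgcE A K₁) →+* ℂ)
  (w : ↥(rtk6diF A K₁ (M₁ * q) M H) ≃ₐ[↥(mgcE A K₁)] ↥(rtk6diF A K₁ (M₁ * q) M H))

set_option synthInstance.maxHeartbeats 400000 in
set_option maxHeartbeats 1600000 in
include hπ hϖ in
/-- **(THR-χ), chart `1 / j`: LITERALLY the hypothesis `hthr` of helper94's
`rtk6c4aj_plusAt_inv`** with `V := rtk6dfV hϖ M H w`, `κ := rtk6dfK hϖ M H w`. -/
theorem rtk6thrx_hthrInv (hw : Rtk6dvWIncl ιC₁ hq hqM M H w) (hML : M ∣ M₁ * q)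
    (rigid : (q ≠ 2 → 4 ∣ M₁) ∧ (q = 2 → 9 ∣ M₁))
    (𝔫 : AtPt (F := ↥(rtk6diF A K₁ (M₁ * q) M H)) ϖ (rtk6diT A K₁ (M₁ * q) M H)⁻¹) :
    ∀ b : Bool,
      atThrough (rtk6gxiPtInv hq K₁ M H f hf halg hA hd0 hϖd 𝔫) (mgvV hπ ιC hq hqM b) →
      ∃ c : rtk6dfK hϖ M H w, atThrough 𝔫 (rtk6dfV hϖ M H w c) ∧
        ∀ x : ↥(modularFunctionFieldFullC ↥(beta0Field A) (M₁ * q)),
          algebraMap ↥(modularFunctionFieldFullC ↥(beta0Field A) (M₁ * q))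
            ↥(rtk6diF A K₁ (M₁ * q) M H) x ∈ (rtk6dfV hϖ M H w c).nonunits ↔
          x ∈ (mgvV hπ ιC hq hqM b).nonunits :=
  rtk6thrx_hthr_inv hπ ιC hq hqM K₁ M H f hf halg hA hd0 hϖd hϖ ιC₁ w hw hML rigid
    (rtk6gxi_hu_inv K₁ M H f halg) 𝔫

end MainInv

end Fermat.Agent.RT.K6
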