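/-
K-machine, piece K6, case (χ), **the hPlus final glue, layer 2, chart `j`** (helper76):
the hypothesis `hJ` of `rtk6cxp_geomChiG` (`RT/K6/C4ChiPlusG.lean`), LITERALLY, with NO hypothesis
left: C4-χ-ASM on the chart `j` at the thin level `K₁′ = rtk6ebK q d_q`
(`d_q = rtk6cxpD M q H = rtk6psiDr M q H`) for the set `𝒢 = rtk6fxbG` of (T2), from

* helper94's assembly `rtk6c4aj_plusAt` (`C4AsmJ.lean`),
* `hsm`  ← helper86 `rtk6c4as_hsm` (`C4AsmSm.lean`),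
* `hcr`  ← helper54 `rtk6c4ac_hcr` (`C4AsmCr.lean`) with (T2) ← helper34 `rtk6fxb_hT2`
  (`FixXBT2.lean`),
* `hthr` ← helper66 `rtk6thrx_hthr` (`C4ThrChi.lean`),
* `hBV`  ← helper82 `rtk6m1_emFam` (`M4EMain.lean`), (W1) `rtk6w1_wIncl`.

The choices: `π := q` (uniformizer of `A ∩ ℚ̄^I`), `f :=` the inclusion `ℚ̄^I → ℚ̄^I K₁′`,
`Algebra K F₁ := (rtk6c4fdIota f).toAlgebra`, `ιC := mgdIota`.

* `rtk6cxpjF`, `rtk6cxpjF_coe` : the inclusion `f`;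
* `rtk6cxpj_plusAt` : one level datum, one point;
* **`rtk6cxpj_hJ`** : the hypothesis `hJ` of `rtk6cxp_geomChiG`;
* **`rtk6cxpj_geomChi`** : `StmtRtk6GeomChi` from the chart `1 / j` alone.
-/
import Fermat.Agent.RT.K6.C4ChiPlusG
import Fermat.Agent.RT.K6.C4AsmJ
import Fermat.Agent.RT.K6.C4AsmSm
import Fermat.Agent.RT.K6.C4AsmCr
import Fermat.Agent.RT.K6.C4ThrChi
import Fermat.Agent.RT.K6.FixXBT2

set_option autoImplicit false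
set_option linter.style.haveILetI false
set_option linter.unusedSectionVars false
set_option linter.unusedVariables false
set_option linter.style.longLine false
set_option synthInstance.maxHeartbeats 400000
set_option maxHeartbeats 4000000

noncomputable section

namespace Fermat.Agent.RT.K6

open ModularCurve AlgebraicCurve Fermat.Agent.ES Fermat.Agent.ES.G2 Fermat.Agent.INJ
open Fermat.Agent.UNIP Fermat.Agent.STB Fermat.Agent.ES1 Fermat.Agent.ES1.G2 IntermediateField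

/-! ### The inclusion `ℚ̄^I → ℚ̄^I K₁` -/

/-- **the inclusion `f : ℚ̄^I → ℚ̄^I K₁`** -/
def rtk6cxpjF (A : ValuationSubring Qb) (K₁ : IntermediateField ℚ Qb) :
    ↥(beta0Field A) →+* ↥(mgcE A K₁) :=
  (IntermediateField.inclusion
    (le_sup_left : beta0Field A ≤ beta0Field A ⊔ K₁)).toRingHom

theorem rtk6cxpjF_coe (A : ValuationSubring Qb) (K₁ : IntermediateField ℚ Qb)
    (a : ↥(beta0Field A)) : ((rtk6cxpjF A K₁ a : ↥(mgcE A K₁)) : Qb) = (a : Qb) := rfl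

/-! ### One level datum, one point -/

section Pt

variable {q M₁ : ℕ} [NeZero q] [NeZero M₁] [NeZero (M₁ * q)] {M : ℕ} {H : Subgroup (ZMod M)ˣ}

/-- **C4-χ-ASM on the chart `j` at the thin level `K₁′ = rtk6ebK q d_q`**, no hypothesis left. -/
theorem rtk6cxpj_plusAt (hq : q.Prime) (hqM' : q ∣ M) (hM0 : M ≠ 0) (hqM : ¬ q ∣ M₁)
    (hML : M ∣ M₁ * q) (hstar : IsStarStable M q H) (htame : IsTameAt (M₁ * q) M q H)
    (h4 : 4 ∣ M₁ * q)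
    (w₀ : fieldBar (M₁ * q) M H ≃ₐ[Qb] fieldBar (M₁ * q) M H)
    (hw₀ : IsWAt (M₁ * q) M H q w₀) (A : ValuationSubring Qb) (hA : A.LiesOverPrime q)
    [IsDiscreteValuationRing ↥(mgcA A (rtk6ebK q (rtk6cxpD M q H)))]
    (ϖ₁ : ↥(mgcA A (rtk6ebK q (rtk6cxpD M q H)))) (hϖ₁ : Irreducible ϖ₁)
    (hϖq : ϖ₁ ^ rtk6cxpD M q H = ((q : ℕ) : ↥(mgcA A (rtk6ebK q (rtk6cxpD M q H)))))
    (hc₁ : RtkCommK (mgcE A (rtk6ebK q (rtk6cxpD M q H))) w₀)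
    (𝔫₁ : AtPt (F := ↥(rtk6diF A (rtk6ebK q (rtk6cxpD M q H)) (M₁ * q) M H)) ϖ₁
      (rtk6diT A (rtk6ebK q (rtk6cxpD M q H)) (M₁ * q) M H)) :
    Rtk6c4aPlusAt
      (rtk6dfV hϖ₁ M H (rtk6diwEquiv (K₀ := mgcE A (rtk6ebK q (rtk6cxpD M q H))) w₀ hc₁))
      (rtk6fxbG A (rtk6ebK q (rtk6cxpD M q H)) (M₁ * q) M H q) 𝔫₁ := by
  haveI : NeZero M := ⟨hM0⟩
  haveI : IsDiscreteValuationRing ↥(beta0Ring A (beta0Field A)) := beta0Ring_isDVR_base hq hA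
  have hπ : Irreducible ((q : ℕ) : ↥(beta0Ring A (beta0Field A))) :=
    beta0Ring_irreducible_q hq hA
  have hd0 : rtk6cxpD M q H ≠ 0 := rtk6cxpD_ne_zero hM0
  have hq2 : ¬ q ^ 2 ∣ M := rtk6cxp_not_sq_dvd hq hqM hML
  have rigid := rtk6cxp_rigid hq hqM h4
  have hM3 : 3 ≤ M := rtk6c4as_three_le hq hqM' hM0 hqM h4
  letI : Algebra ↥(modularFunctionFieldFullC ↥(beta0Field A) (M₁ * q))
      ↥(rtk6diF A (rtk6ebK q (rtk6cxpD M q H)) (M₁ * q) M H) :=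
    (rtk6c4fdIota (rtk6cxpjF A (rtk6ebK q (rtk6cxpD M q H))) (M₁ * q) M H).toAlgebra
  have halg : ∀ z : ↥(modularFunctionFieldFullC ↥(beta0Field A) (M₁ * q)),
      algebraMap ↥(modularFunctionFieldFullC ↥(beta0Field A) (M₁ * q))
        ↥(rtk6diF A (rtk6ebK q (rtk6cxpD M q H)) (M₁ * q) M H) z
        = rtk6c4fdIota (rtk6cxpjF A (rtk6ebK q (rtk6cxpD M q H))) (M₁ * q) M H z :=
    fun _ => rfl
  have hϖd := rtk6cxp_varpi_pow (q := q) hϖq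
  have hwI := rtk6w1_wIncl w₀ hw₀ hc₁ hq (mgdIota (mgcE A (rtk6ebK q (rtk6cxpD M q H)))) hqM
  have fam := rtk6m1_emFam hϖ₁ (mgdIota (mgcE A (rtk6ebK q (rtk6cxpD M q H)))) hq hqM hwI hA hML
  exact rtk6c4aj_plusAt hπ (mgdIota (beta0Field A)) hq hqM (rtk6ebK q (rtk6cxpD M q H)) M H
    (rtk6cxpjF A _) (rtk6cxpjF_coe A _) halg hA hd0 hϖd rigid _ fam.hBV₁ _ 𝔫₁
    (rtk6c4as_hsm hπ (mgdIota (beta0Field A)) hq hqM M H (rtk6cxpjF A _) (rtk6cxpjF_coe A _)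
      halg hA hd0 hϖd hϖq hML hqM' h4 hstar htame 𝔫₁)
    (rtk6c4ac_hcr hπ (mgdIota (beta0Field A)) hq hqM M H (rtk6cxpjF A _) (rtk6cxpjF_coe A _)
      halg hA hd0 hϖd rigid hϖq hqM' hML hM3 hstar htame _
      (rtk6fxb_hT2 (rtk6ebK q (rtk6cxpD M q H)) (rtk6cxpjF A _) (rtk6cxpjF_coe A _) halg hML _
        hq hqM' hq2 hϖq) 𝔫₁)
    (rtk6thrx_hthr hπ (mgdIota (beta0Field A)) hq hqM (rtk6ebK q (rtk6cxpD M q H)) M H
      (rtk6cxpjF A _) (rtk6cxpjF_coe A _) halg hA hd0 hϖd hϖ₁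
      (mgdIota (mgcE A (rtk6ebK q (rtk6cxpD M q H)))) _ hwI hML rigid 𝔫₁)

end Pt

/-! ### The hypothesis `hJ` -/

/-- **the hypothesis `hJ` of `rtk6cxp_geomChiG`, LITERALLY.** -/
theorem rtk6cxpj_hJ :
    ∀ (q M₁ : ℕ) [NeZero q] [NeZero M₁] [NeZero (M₁ * q)] (M : ℕ)
      (H : Subgroup (ZMod M)ˣ) (hq : q.Prime) (hqM' : q ∣ M) (hM0 : M ≠ 0), ¬ q ∣ M₁ →
      M ∣ M₁ * q → IsStarStable M q H → IsTameAt (M₁ * q) M q H → 4 ∣ M₁ * q →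
      ∀ (w₀ : fieldBar (M₁ * q) M H ≃ₐ[Qb] fieldBar (M₁ * q) M H)
        (hw₀ : IsWAt (M₁ * q) M H q w₀) (A : ValuationSubring Qb), A.LiesOverPrime q →
      ∀ [IsDiscreteValuationRing ↥(mgcA A (rtk6ebK q (rtk6cxpD M q H)))]
        (ϖ₁ : ↥(mgcA A (rtk6ebK q (rtk6cxpD M q H)))) (hϖ₁ : Irreducible ϖ₁)
        (_ : ϖ₁ ^ rtk6cxpD M q H = ((q : ℕ) : ↥(mgcA A (rtk6ebK q (rtk6cxpD M q H)))))
        (hc₁ : RtkCommK (mgcE A (rtk6ebK q (rtk6cxpD M q H))) w₀)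
        (𝔫₁ : AtPt (F := ↥(rtk6diF A (rtk6ebK q (rtk6cxpD M q H)) (M₁ * q) M H)) ϖ₁
          (rtk6diT A (rtk6ebK q (rtk6cxpD M q H)) (M₁ * q) M H)),
        Rtk6c4aPlusAt
          (rtk6dfV hϖ₁ M H (rtk6diwEquiv (K₀ := mgcE A (rtk6ebK q (rtk6cxpD M q H))) w₀ hc₁))
          (rtk6fxbG A (rtk6ebK q (rtk6cxpD M q H)) (M₁ * q) M H q) 𝔫₁ := by
  intro q M₁ _ _ _ M H hq hqM' hM0 hqM hML hstar htame h4 w₀ hw₀ A hA _ ϖ₁ hϖ₁ hϖq hc₁ 𝔫₁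
  exact rtk6cxpj_plusAt hq hqM' hM0 hqM hML hstar htame h4 w₀ hw₀ A hA ϖ₁ hϖ₁ hϖq hc₁ 𝔫₁

/-- **`StmtRtk6GeomChi` from C4-χ-ASM on the chart `1 / j` alone.** -/
theorem rtk6cxpj_geomChi
    (hJinv : ∀ (q M₁ : ℕ) [NeZero q] [NeZero M₁] [NeZero (M₁ * q)] (M : ℕ)
      (H : Subgroup (ZMod M)ˣ) (hq : q.Prime) (hqM' : q ∣ M) (hM0 : M ≠ 0), ¬ q ∣ M₁ →
      M ∣ M₁ * q → IsStarStable M q H → IsTameAt (M₁ * q) M q H → 4 ∣ M₁ * q →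
      ∀ (w₀ : fieldBar (M₁ * q) M H ≃ₐ[Qb] fieldBar (M₁ * q) M H)
        (hw₀ : IsWAt (M₁ * q) M H q w₀) (A : ValuationSubring Qb), A.LiesOverPrime q →
      ∀ [IsDiscreteValuationRing ↥(mgcA A (rtk6ebK q (rtk6cxpD M q H)))]
        (ϖ₁ : ↥(mgcA A (rtk6ebK q (rtk6cxpD M q H)))) (hϖ₁ : Irreducible ϖ₁)
        (_ : ϖ₁ ^ rtk6cxpD M q H = ((q : ℕ) : ↥(mgcA A (rtk6ebK q (rtk6cxpD M q H)))))
        (hc₁ : RtkCommK (mgcE A (rtk6ebK q (rtk6cxpD M q H))) w₀)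
        (𝔫₁ : AtPt (F := ↥(rtk6diF A (rtk6ebK q (rtk6cxpD M q H)) (M₁ * q) M H)) ϖ₁
          (rtk6diT A (rtk6ebK q (rtk6cxpD M q H)) (M₁ * q) M H)⁻¹),
        Rtk6c4aPlusAt
          (rtk6dfV hϖ₁ M H (rtk6diwEquiv (K₀ := mgcE A (rtk6ebK q (rtk6cxpD M q H))) w₀ hc₁))
          (rtk6fxbG A (rtk6ebK q (rtk6cxpD M q H)) (M₁ * q) M H q) 𝔫₁) :
    StmtRtk6GeomChi :=
  rtk6cxp_geomChiG rtk6cxpj_hJ hJinv

end Fermat.Agent.RT.K6
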