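/-
K-machine, piece K6, case (χ), **the hPlus final glue, layer 2, chart `1 / j`** (helper86):
the input `hJinv` of helper76's `rtk6cxp_geomChiG` (`C4ChiPlusG.lean`), LITERALLY, i.e. the
dichotomy with C4+ (`Rtk6c4aPlusAt`) for `𝒢 = rtk6fxbG` at every closed point of the special fibre
of the chart `1 / j` of `F₁ = rtk6diF A K₁′ (M₁ q) M H` over `A₁ = mgcA A K₁′` at the thin level
`K₁′ = rtk6ebK q d_q`, from

* C4-χ-ASM on the chart `1 / j` (`rtk6c4aj_plusAt_inv`, helper94, `C4AsmJInv.lean`);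
* `hsm` : `rtk6c4as_hsm_inv` (`C4AsmSm.lean`);
* `hcr` : `rtk6c4aci_hcr_G` (helper98, `C4AsmCrInv.lean`; (T2) of helper34 discharged inside);
* `hthr`: `rtk6thrx_hthr_inv` (helper66, `C4ThrChi.lean`);
* `hBV` : `rtk6df_hBV₂` (`DIFamMg.lean`), `hw` : `rtk6w1_wIncl` (`W1.lean`).

Choices (those of helper76's chart `j`, `C4ChiPlusJ.lean`): `π := q` (uniformizer of the unramified
base `A ∩ ℚ̄^I`), `ιC := mgdIota`, `f := rtk6cxpjF` the inclusion `ℚ̄^I ⊆ E₁`, the algebra structure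
`K → F₁` `:= (rtk6c4fdIota f).toAlgebra`.

* `rtk6cxpi_plusAt` : one level datum, one point;
* **`rtk6cxpi_hJinv`** : the hypothesis `hJinv` of `rtk6cxp_geomChiG`, no hypothesis left;
* **`rtk6cxpi_geomChi`** : **`StmtRtk6GeomChi`**, CLOSED (`rtk6cxp_geomChiG rtk6cxpj_hJ rtk6cxpi_hJinv`).
-/
import Fermat.Agent.RT.K6.C4ChiPlusJ
import Fermat.Agent.RT.K6.C4AsmJInv
import Fermat.Agent.RT.K6.C4AsmCrInv

set_option autoImplicit false
set_option linter.style.haveILetI false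
set_option linter.unusedSectionVars false
set_option linter.unusedVariables false
set_option linter.style.longLine false
set_option synthInstance.maxHeartbeats 400000
set_option maxHeartbeats 4000000

noncomputable section

namespace Fermat.Agent.RT.K6

open ModularCurve Polynomial IntermediateField Fermat.Agent.INJ Fermat.Agent.AL AlgebraicCurve
open Fermat.Agent.ES Fermat.Agent.ES.G2 Fermat.Agent.STB Fermat.Agent.UNIP Fermat.Agent.S36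
open Fermat.Agent.RIB.MP Fermat.Agent.ES1 Fermat.Agent.ES1.G2



section Glue

/-- **`hJinv` of `rtk6cxp_geomChiG`, LITERALLY.** -/
theorem rtk6cxpi_hJinv :
    ∀ (q M₁ : ℕ) [NeZero q] [NeZero M₁] [NeZero (M₁ * q)] (M : ℕ)
      (H : Subgroup (ZMod M)ˣ) (hq : q.Prime) (hqM' : q ∣ M) (hM0 : M ≠ 0), ¬ q ∣ M₁ →
      M ∣ M₁ * q → IsStarStable M q H → IsTameAt (M₁ * q) M q H → 4 ∣ M₁ * q →
      ∀ (w₀ : fieldBar (M₁ * q) M H ≃ₐ[Qb] fieldBar (M₁ * q) M H)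
        (hw₀ : IsWAt (M₁ * q) M H q w₀) (A : ValuationSubring Qb), A.LiesOverPrime q →
      ∀ [IsDiscreteValuationRing ↥(mgcA A (rtk6ebK q (rtk6cxpD M q H)))]
        (ϖ₁ : ↥(mgcA A (rtk6ebK q (rtk6cxpD M q H)))) (hϖ₁ : Irreducible ϖ₁)
        (_ : ϖ₁ ^ rtk6cxpD M q H = ((q : ℕ) : ↥(mgcA A (rtk6ebK q (rtk6cxpD M q H)))))
        (hc₁ : RtkCommK (mgcE A (rtk6ebK q (rtk6cxpD M q H))) w₀)
        (𝔫₁ : AtPt (F := ↥(rtk6diF A (rtk6ebK q (rtk6cxpD M q H)) (M₁ * q) M H)) ϖ₁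
          (rtk6diT A (rtk6ebK q (rtk6cxpD M q H)) (M₁ * q) M H)⁻¹),
        Rtk6c4aPlusAt
          (rtk6dfV hϖ₁ M H (rtk6diwEquiv (K₀ := mgcE A (rtk6ebK q (rtk6cxpD M q H))) w₀ hc₁))
          (rtk6fxbG A (rtk6ebK q (rtk6cxpD M q H)) (M₁ * q) M H q) 𝔫₁ := by
  intro q M₁ _ _ _ M H hq hqM' hM0 hqM hML hstar htame h4 w₀ hw₀ A hA _ ϖ₁ hϖ₁ hϖq hc₁ 𝔫₁
  haveI : NeZero M := ⟨hM0⟩
  haveI : IsDiscreteValuationRing ↥(beta0Ring A (beta0Field A)) := beta0Ring_isDVR_base hq hA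
  -- the choices
  have hπ : Irreducible ((q : ℕ) : ↥(beta0Ring A (beta0Field A))) :=
    beta0Ring_irreducible_q hq hA
  letI : Algebra ↥(modularFunctionFieldFullC ↥(beta0Field A) (M₁ * q))
      ↥(rtk6diF A (rtk6ebK q (rtk6psiDr M q H)) (M₁ * q) M H) :=
    (rtk6c4fdIota (rtk6cxpjF A (rtk6ebK q (rtk6psiDr M q H))) (M₁ * q) M H).toAlgebra
  have halg : ∀ z : ↥(modularFunctionFieldFullC ↥(beta0Field A) (M₁ * q)),
      algebraMap ↥(modularFunctionFieldFullC ↥(beta0Field A) (M₁ * q))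
        ↥(rtk6diF A (rtk6ebK q (rtk6psiDr M q H)) (M₁ * q) M H) z
          = rtk6c4fdIota (rtk6cxpjF A (rtk6ebK q (rtk6psiDr M q H))) (M₁ * q) M H z :=
    fun _ => rfl
  have hd0 : rtk6psiDr M q H ≠ 0 := rtk6cxpD_ne_zero hM0
  have hϖd := rtk6cxp_varpi_pow (q := q) hϖq
  have rigid := rtk6cxp_rigid hq hqM h4
  have hwI := rtk6w1_wIncl w₀ hw₀ hc₁ hq (mgdIota (mgcE A (rtk6ebK q (rtk6psiDr M q H)))) hqM
  refine rtk6c4aj_plusAt_inv hπ (mgdIota (beta0Field A)) hq hqM (rtk6ebK q (rtk6psiDr M q H)) M H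
    (rtk6cxpjF A (rtk6ebK q (rtk6psiDr M q H))) (rtk6cxpjF_coe A _) halg hA hd0 hϖd rigid
    (rtk6dfV hϖ₁ M H (rtk6diwEquiv (K₀ := mgcE A (rtk6ebK q (rtk6cxpD M q H))) w₀ hc₁))
    (fun c z hz => rtk6df_hBV₂ hϖ₁ (mgdIota (mgcE A (rtk6ebK q (rtk6psiDr M q H)))) hq hqM M H
      _ hwI c z hz)
    (rtk6fxbG A (rtk6ebK q (rtk6cxpD M q H)) (M₁ * q) M H q) 𝔫₁ ?_ ?_ ?_
  · -- hsm
    exact rtk6c4as_hsm_inv hπ (mgdIota (beta0Field A)) hq hqM M H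
      (rtk6cxpjF A (rtk6ebK q (rtk6psiDr M q H))) (rtk6cxpjF_coe A _) halg hA hd0 hϖd hϖq hML
      hqM' h4 hstar htame 𝔫₁
  · -- hcr
    exact rtk6c4aci_hcr_G hπ (mgdIota (beta0Field A)) hq hqM M H
      (rtk6cxpjF A (rtk6ebK q (rtk6psiDr M q H))) (rtk6cxpjF_coe A _) halg hA hd0 hϖd hϖq hML
      hqM' h4 hstar htame 𝔫₁
  · -- hthr
    exact rtk6thrx_hthr_inv hπ (mgdIota (beta0Field A)) hq hqM (rtk6ebK q (rtk6psiDr M q H)) M H
      (rtk6cxpjF A (rtk6ebK q (rtk6psiDr M q H))) (rtk6cxpjF_coe A _) halg hA hd0 hϖd hϖ₁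
      (mgdIota (mgcE A (rtk6ebK q (rtk6psiDr M q H)))) _ hwI hML rigid
      (rtk6gxi_hu_inv (rtk6ebK q (rtk6psiDr M q H)) M H
        (rtk6cxpjF A (rtk6ebK q (rtk6psiDr M q H))) halg) 𝔫₁

/-- **`StmtRtk6GeomChi`, CLOSED**: the geometric statement of piece E, case (χ). -/
theorem rtk6cxpi_geomChi : StmtRtk6GeomChi :=
  rtk6cxp_geomChiG rtk6cxpj_hJ rtk6cxpi_hJinv

end Glue

end Fermat.Agent.RT.K6

end
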