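/-
K-machine, piece K6, piece **C4-THR** (helper66), complement: **Galois descent for the charts**
(the hypothesis `hfix` of helper79's `rtk6gl_ss1_perm` / `rtk6gl_ss1_unif_perm` /
`rtk6gl_through_perm`).

`F′ = rtk6diF A K₁ L M H`, `F₀′ = mgcF A K₁ L`, `u = incl u₀`, `B = zchClosure {u}`,
`R₀ = zchClosure {u₀}`, `rtk6thrJ : R₀ →+* B` (`C4Thr.lean`).

* `rtk6thr_hfix`      : an element of `B` fixed by all the diamonds comes from `R₀`;
* `rtk6thr_hfix_gam`  : the same for an element fixed by `Γ = rtk6dfGam`;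
* `rtk6thr_hfix_list` : the same for a list `l` of ring endomorphisms of `F′` whose common fixed
  points are fixed by `Γ` — the literal shape of `hfix` in `DGLSS1P.lean`
  (`ι := B.val`, `j := rtk6thrJ`).
-/
import Fermat.Agent.RT.K6.C4Thr

set_option autoImplicit false
set_option linter.style.haveILetI false
set_option linter.unusedSectionVars false
set_option linter.unusedVariables false

noncomputable section

namespace Fermat.Agent.RT.K6

open ModularCurve AlgebraicCurve Fermat.Agent.ES Fermat.Agent.ES.G2 Fermat.Agent.INJ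
open Fermat.Agent.UNIP Fermat.Agent.ES1 Fermat.Agent.ES1.G2 Fermat.Agent.AL IntermediateField

section Fix

variable {A : ValuationSubring Qb} {K₁ : IntermediateField ℚ Qb}
  [IsDiscreteValuationRing ↥(mgcA A K₁)]
  {L : ℕ} (M : ℕ) (H : Subgroup (ZMod M)ˣ)

/-- **Galois descent for the charts**: an element of the chart `B` of `F′` which is fixed by all
the diamond automorphisms comes from the chart `R₀` of the `Γ₀(L)`-field. -/
theorem rtk6thr_hfix (hL : L ≠ 0) (hML : M ∣ L)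
    (u₀ : ↥(mgcF A K₁ L)) {u : ↥(rtk6diF A K₁ L M H)} (hu : rtk6diIncl L M H u₀ = u)
    (y : ↥(zchClosure (A₀ := ↥(mgcA A K₁)) ({u} : Set ↥(rtk6diF A K₁ L M H))))
    (hy : ∀ (c : (ZMod M)ˣ)
      (σ : ↥(rtk6diF A K₁ L M H) ≃ₐ[↥(mgcE A K₁)] ↥(rtk6diF A K₁ L M H)),
      IsDiamondC ↥(mgcE A K₁) L M H c σ → σ (y : ↥(rtk6diF A K₁ L M H)) = y) :
    ∃ x : ↥(zchClosure (A₀ := ↥(mgcA A K₁)) ({u₀} : Set ↥(mgcF A K₁ L))),
      rtk6thrJ M H u₀ hu x = y := by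
  haveI : Algebra.IsAlgebraic ℚ Qb := AlgebraicClosure.isAlgebraic ℚ
  haveI : Algebra.IsAlgebraic ℚ ↥(mgcE A K₁) :=
    Algebra.IsAlgebraic.of_injective (mgcE A K₁).val Subtype.val_injective
  haveI : NeZero M := ⟨fun h0 => hL (Nat.eq_zero_of_zero_dvd (h0 ▸ hML))⟩
  have h := rtk6d0_mem_full_of_fixed ↥(mgcE A K₁) H hL hML (y : ↥(rtk6diF A K₁ L M H)) hy
  obtain ⟨x', -, hx'⟩ := rtk6thrJ_exists_of_incl M H u₀ hu y ⟨_, h⟩ (Subtype.ext rfl)
  exact ⟨x', hx'⟩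

/-- the same for an element fixed by `Γ` -/
theorem rtk6thr_hfix_gam (hL : L ≠ 0) (hML : M ∣ L)
    (u₀ : ↥(mgcF A K₁ L)) {u : ↥(rtk6diF A K₁ L M H)} (hu : rtk6diIncl L M H u₀ = u)
    (y : ↥(zchClosure (A₀ := ↥(mgcA A K₁)) ({u} : Set ↥(rtk6diF A K₁ L M H))))
    (hy : ∀ γ ∈ rtk6dfGam ↥(mgcE A K₁) L M H, γ (y : ↥(rtk6diF A K₁ L M H)) = y) :
    ∃ x : ↥(zchClosure (A₀ := ↥(mgcA A K₁)) ({u₀} : Set ↥(mgcF A K₁ L))),
      rtk6thrJ M H u₀ hu x = y :=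
  rtk6thr_hfix M H hL hML u₀ hu y fun c σ hσ => hy σ hσ.mem_gam

/-- **`hfix`** in the literal shape of `rtk6gl_ss1_perm` (`DGLSS1P.lean`: `ι := B.val`,
`j := rtk6thrJ`), for a list `l` of ring endomorphisms of `F′` whose common fixed points are
fixed by `Γ` (e.g. `l` contains diamonds for generators of `(ℤ/M)ˣ`, or all of `Γ`). -/
theorem rtk6thr_hfix_list (hL : L ≠ 0) (hML : M ∣ L)
    (u₀ : ↥(mgcF A K₁ L)) {u : ↥(rtk6diF A K₁ L M H)} (hu : rtk6diIncl L M H u₀ = u)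
    (l : List (↥(rtk6diF A K₁ L M H) →+* ↥(rtk6diF A K₁ L M H)))
    (hl : ∀ x : ↥(rtk6diF A K₁ L M H), (∀ σ ∈ l, σ x = x) →
      ∀ γ ∈ rtk6dfGam ↥(mgcE A K₁) L M H, γ x = x) :
    ∀ y : ↥(zchClosure (A₀ := ↥(mgcA A K₁)) ({u} : Set ↥(rtk6diF A K₁ L M H))),
      (∀ σ ∈ l, σ ((zchClosure (A₀ := ↥(mgcA A K₁))
        ({u} : Set ↥(rtk6diF A K₁ L M H))).val.toRingHom y) =
          (zchClosure (A₀ := ↥(mgcA A K₁))
            ({u} : Set ↥(rtk6diF A K₁ L M H))).val.toRingHom y) →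
      ∃ x : ↥(zchClosure (A₀ := ↥(mgcA A K₁)) ({u₀} : Set ↥(mgcF A K₁ L))),
        rtk6thrJ M H u₀ hu x = y :=
  fun y hy => rtk6thr_hfix_gam M H hL hML u₀ hu y (hl _ hy)

end Fix

end Fermat.Agent.RT.K6
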