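/-
K-machine, piece K6, piece **C4-U (A), (K1) characters** (helper18): the characters `ψ_i` of
`(ℤ/M)ˣ / ±H` with values in an intermediate field `K₀ ⊇ ℚ̄^I` (`= beta0Field A`), for the Kummer
generators of `fieldC K₀ L M H` over the `Γ₀(L)`-field (helper37's `Rtk6c4uGet`, case (U)).

`d` prime to `6 L`, `q ∣ L` ⇒ `q ∤ d` ⇒ the `d`-th roots of unity lie in the inertia field
`ℚ̄^I ⊆ K₀` (`stb_unit_data`); the group theory is helper5's `rtk6psi_abs_family` (`Psi.lean`).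

* `rtk6c4uc_not_dvd`             : `¬ q ∣ d`;
* `rtk6c4uc_exists_primitiveRoot` : a primitive `d`-th root of unity in `K₀`;
* **`rtk6c4uc_characters`**      : `∃ k (ψ : Fin k → ((ZMod M)ˣ →* K₀ˣ))`, trivial on `H` and on
  `−1`, `ψ_i ^ d = 1`, jointly faithful modulo `±H`;
* `rtk6c4uc_characters_pm`       : the same with "trivial on `±H`" in addition;
* `rtk6c4uc_characters_tame`     : the same from `IsTameAt L M q H`.
-/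
import Fermat.Agent.RT.K6.Psi
import Fermat.Agent.STB.FrobReg

set_option autoImplicit false
set_option linter.style.haveILetI false
set_option linter.unusedSectionVars false
set_option linter.unusedVariables false

noncomputable section

namespace Fermat.Agent.RT.K6

open Fermat.Agent.ES1 Fermat.Agent.UNIP Fermat.Agent.STB IntermediateField
open Fermat.Agent.ES Fermat.Agent.ES.G2

section Char

variable {A : ValuationSubring Qb} {K₀ : IntermediateField ℚ Qb} {q : ℕ}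

/-- `d` prime to `6 L`, `q ∣ L` ⇒ `q ∤ d` -/
theorem rtk6c4uc_not_dvd (hq : q.Prime) {L d : ℕ} (hdc : Nat.Coprime d (6 * L)) (hqL : q ∣ L) :
    ¬ q ∣ d := by
  intro hqd
  have h6 : q ∣ 6 * L := Dvd.dvd.mul_left hqL 6
  have h7 : q ∣ Nat.gcd d (6 * L) := Nat.dvd_gcd hqd h6
  rw [hdc.gcd_eq_one] at h7
  exact hq.one_lt.ne' (Nat.dvd_one.mp h7)

/-- a primitive `d`-th root of unity in `K₀ ⊇ ℚ̄^I`, `q ∤ d` -/
theorem rtk6c4uc_exists_primitiveRoot (hq : q.Prime) (hA : A.LiesOverPrime q)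
    (hE : beta0Field A ≤ K₀) {d : ℕ} (hd0 : d ≠ 0) (hqd : ¬ q ∣ d) :
    ∃ ζ : ↥K₀, IsPrimitiveRoot ζ d := by
  have hM : ((d : ℕ) : Qb) ∉ A.nonunits := stb_natCast_not_mem_nonunits A hq hA hqd
  obtain ⟨ζ, hζ⟩ := beta0Ring_exists_primitiveRoot (A := A) (K₀ := K₀) hE hd0 hM
  exact ⟨(ζ : ↥K₀), hζ.map_of_injective (f := (beta0Ring A K₀).subtype)
    Subtype.val_injective⟩

/-- **(K1), with the triviality on `±H`.** -/
theorem rtk6c4uc_characters_pm (hq : q.Prime) (hA : A.LiesOverPrime q)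
    (hE : beta0Field A ≤ K₀) {L M : ℕ} (H : Subgroup (ZMod M)ˣ) (hM0 : M ≠ 0) {d : ℕ}
    (hdc : Nat.Coprime d (6 * L)) (hqL : q ∣ L) (hdH : ∀ c : (ZMod M)ˣ, c ^ d ∈ pmH H) :
    ∃ (k : ℕ) (ψ : Fin k → ((ZMod M)ˣ →* (↥K₀)ˣ)),
      (∀ i, ∀ h ∈ pmH H, ψ i h = 1) ∧ (∀ i, ∀ h ∈ H, ψ i h = 1) ∧ (∀ i, ψ i (-1) = 1) ∧
      (∀ i c, ψ i c ^ d = 1) ∧ (∀ c, (∀ i, ψ i c = 1) → c ∈ pmH H) := by
  haveI : NeZero M := ⟨hM0⟩
  have hd0 : d ≠ 0 := rtk6psi_ne_zero_of_coprime hdc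
  obtain ⟨k, ψ, h1, h2, h3⟩ := rtk6psi_abs_family (G := (ZMod M)ˣ) ↥K₀ (pmH H) hd0 hdH
    (rtk6c4uc_exists_primitiveRoot hq hA hE hd0 (rtk6c4uc_not_dvd hq hdc hqL))
  exact ⟨k, ψ, h1, fun i h hh => h1 i h (le_pmH H hh), fun i => h1 i _ (neg_one_mem_pmH H),
    h2, h3⟩

/-- **(K1) CHARACTERS**: the characters `ψ_i : (ℤ/M)ˣ → K₀ˣ`, trivial on `H` and on `−1`, of
exponent `d`, jointly faithful modulo `±H`. -/
theorem rtk6c4uc_characters (hq : q.Prime) (hA : A.LiesOverPrime q)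
    (hE : beta0Field A ≤ K₀) {L M : ℕ} (H : Subgroup (ZMod M)ˣ) (hM0 : M ≠ 0) {d : ℕ}
    (hdc : Nat.Coprime d (6 * L)) (hqL : q ∣ L) (hdH : ∀ c : (ZMod M)ˣ, c ^ d ∈ pmH H) :
    ∃ (k : ℕ) (ψ : Fin k → ((ZMod M)ˣ →* (↥K₀)ˣ)),
      (∀ i, ∀ h ∈ H, ψ i h = 1) ∧ (∀ i, ψ i (-1) = 1) ∧ (∀ i c, ψ i c ^ d = 1) ∧
      (∀ c, (∀ i, ψ i c = 1) → c ∈ pmH H) := by
  obtain ⟨k, ψ, -, h1, h2, h3, h4⟩ := rtk6c4uc_characters_pm hq hA hE H hM0 hdc hqL hdH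
  exact ⟨k, ψ, h1, h2, h3, h4⟩

/-- **(K1) from `IsTameAt`**: the exponent `d` and the characters. -/
theorem rtk6c4uc_characters_tame (hq : q.Prime) (hA : A.LiesOverPrime q)
    (hE : beta0Field A ≤ K₀) {L M : ℕ} (H : Subgroup (ZMod M)ˣ) (hM0 : M ≠ 0) (hqL : q ∣ L)
    (htame : IsTameAt L M q H) :
    ∃ d : ℕ, Nat.Coprime d (6 * L) ∧ d ≠ 0 ∧ ¬ q ∣ d ∧ (∀ c : (ZMod M)ˣ, c ^ d ∈ pmH H) ∧
      ∃ (k : ℕ) (ψ : Fin k → ((ZMod M)ˣ →* (↥K₀)ˣ)),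
        (∀ i, ∀ h ∈ H, ψ i h = 1) ∧ (∀ i, ψ i (-1) = 1) ∧ (∀ i c, ψ i c ^ d = 1) ∧
        (∀ c, (∀ i, ψ i c = 1) → c ∈ pmH H) := by
  obtain ⟨d, hdc, hdH⟩ := htame
  exact ⟨d, hdc, rtk6psi_ne_zero_of_coprime hdc, rtk6c4uc_not_dvd hq hdc hqL, hdH,
    rtk6c4uc_characters hq hA hE H hM0 hdc hqL hdH⟩

end Char

end Fermat.Agent.RT.K6
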