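/-
K-machine, piece K6, piece **C4-U-inst, half (A)** (helper37), part 4: **(G-et) on the chart
`j` in the case (U), UNCONDITIONAL**, at every unramified level `K₁` (`q` a uniformizer of
`mgcA A K₁`), in particular at `K₁′ = rtk6ebK q 1`.

(K1) characters: helper18 `rtk6c4uc_characters` (`C4UKumChar.lean`);
(K2) generation: helper81 `rtk6c4uk_gen_alg` (`C4UKum.lean`).

* `rtk6c4u_kummer_U` : `Rtk6c4uKummer` (the chart-free Kummer data);
* `rtk6c4u_get_J_U`  : `Rtk6c4uGet π M H (bgJ)`;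
* `rtk6c4u_hA₁_U`    : the dichotomy `Rtk6ewmNodeAt` on the chart `t` (= `hA₁`).
-/
import Fermat.Agent.RT.K6.C4UGetFinal
import Fermat.Agent.RT.K6.C4UKum
import Fermat.Agent.RT.K6.C4UKumChar

set_option autoImplicit false
set_option linter.style.haveILetI false
set_option linter.unusedSectionVars false
set_option linter.unusedVariables false
set_option linter.style.longLine false
set_option synthInstance.maxHeartbeats 400000
set_option maxHeartbeats 1000000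

noncomputable section

namespace Fermat.Agent.RT.K6

open ModularCurve AlgebraicCurve Fermat.Agent.ES Fermat.Agent.ES.G2 Fermat.Agent.INJ
open Fermat.Agent.UNIP Fermat.Agent.STB Fermat.Agent.ES1 Fermat.Agent.ES1.G2 Fermat.Agent.AL
  IntermediateField

section Concrete

variable {A : ValuationSubring Qb} {K₁ : IntermediateField ℚ Qb}
  [IsDiscreteValuationRing ↥(mgcA A K₁)] {π : ↥(mgcA A K₁)} (hπ : Irreducible π)
  (ιC : ↥(mgcE A K₁) →+* ℂ) {q M₁ : ℕ} [NeZero q] [NeZero M₁] [NeZero (M₁ * q)]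
  (hq : q.Prime) (hqM : ¬ q ∣ M₁) (M : ℕ) (H : Subgroup (ZMod M)ˣ)

/-- **The Kummer data of the case (U)**, unconditional. -/
theorem rtk6c4u_kummer_U (hM0 : M ≠ 0) (hA : A.LiesOverPrime q)
    (hqπ : Associated ((q : ℕ) : ↥(mgcA A K₁)) π)
    (hML : M ∣ M₁ * q) (hqN : q ∣ M) (h4 : 4 ∣ M₁ * q)
    (hat : ∀ c : (ZMod M)ˣ, IsAtR M q c → c ∈ pmH H)
    (htame : IsTameAt (M₁ * q) M q H) :
    Rtk6c4uKummer hπ ιC hq hqM M H := by
  haveI : NeZero M := ⟨hM0⟩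
  exact rtk6c4u_kummer_of_K hπ ιC hq hqM M H hA hqπ hML hqN h4 hat htame
    (fun d hdc hdH => rtk6c4uc_characters hq hA le_sup_left H hM0 hdc (Dvd.intro_left M₁ rfl) hdH)
    (fun d k ψ hd0 hψH hψ1 hψd hfaith =>
      rtk6c4uk_gen_alg (mgcE A K₁) H ψ (NeZero.ne (M₁ * q)) hML
        (rtk6c4u_three_le hq hqN hM0 hqM h4) hψH hψ1 hd0 hψd hfaith)

include hπ ιC hq hqM in
/-- **(G-et) on the chart `j`, case (U)**, unconditional. -/
theorem rtk6c4u_get_J_U [Normal ℚ K₁] (hM0 : M ≠ 0) (hA : A.LiesOverPrime q)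
    (hqπ : Associated ((q : ℕ) : ↥(mgcA A K₁)) π)
    (hML : M ∣ M₁ * q) (hqN : q ∣ M) (h4 : 4 ∣ M₁ * q)
    (hat : ∀ c : (ZMod M)ˣ, IsAtR M q c → c ∈ pmH H)
    (htame : IsTameAt (M₁ * q) M q H) :
    Rtk6c4uGet π M H (bgJ ↥(mgcE A K₁) (M₁ * q)) := by
  haveI : NeZero M := ⟨hM0⟩
  exact rtk6c4u_get_J_of_K hπ ιC hq hqM M H hA hqπ hML hqN h4 hat htame
    (fun d hdc hdH => rtk6c4uc_characters hq hA le_sup_left H hM0 hdc (Dvd.intro_left M₁ rfl) hdH)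
    (fun d k ψ hd0 hψH hψ1 hψd hfaith =>
      rtk6c4uk_gen_alg (mgcE A K₁) H ψ (NeZero.ne (M₁ * q)) hML
        (rtk6c4u_three_le hq hqN hM0 hqM h4) hψH hψ1 hd0 hψd hfaith)

/-- **C4-U-inst (A), chart `j`, UNCONDITIONAL** (= `hA₁` of `rtk6c4b_node` / first half of
`Rtk6c4bAsm`): the dichotomy `Rtk6ewmNodeAt` at every closed point of the chart `t` of `F` over
an unramified base, case (U). -/
theorem rtk6c4u_hA₁_U [Normal ℚ K₁] (hM0 : M ≠ 0) (hA : A.LiesOverPrime q)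
    (hqπ : Associated ((q : ℕ) : ↥(mgcA A K₁)) π)
    (hML : M ∣ M₁ * q) (hqN : q ∣ M) (h4 : 4 ∣ M₁ * q)
    (hat : ∀ c : (ZMod M)ˣ, IsAtR M q c → c ∈ pmH H)
    (htame : IsTameAt (M₁ * q) M q H)
    (w : ↥(rtk6diF A K₁ (M₁ * q) M H) ≃ₐ[↥(mgcE A K₁)] ↥(rtk6diF A K₁ (M₁ * q) M H))
    (hw : Rtk6dvWIncl ιC hq hqM M H w)
    (𝔫 : AtPt (F := ↥(rtk6diF A K₁ (M₁ * q) M H)) π (rtk6diT A K₁ (M₁ * q) M H)) :
    Rtk6ewmNodeAt (rtk6dfV hπ M H w) 𝔫
      (RingHom.id ↥(zchClosure (A₀ := ↥(mgcA A K₁))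
        ({rtk6diT A K₁ (M₁ * q) M H} : Set ↥(rtk6diF A K₁ (M₁ * q) M H))))
      (algebraMap ↥(mgcA A K₁) ↥(zchClosure (A₀ := ↥(mgcA A K₁))
        ({rtk6diT A K₁ (M₁ * q) M H} : Set ↥(rtk6diF A K₁ (M₁ * q) M H))) π) := by
  have rigid : (q ≠ 2 → 4 ∣ M₁) ∧ (q = 2 → 9 ∣ M₁) := by
    have hq2 := rtk6c4u_ne_two hqM h4
    refine ⟨fun _ => ?_, fun h => absurd h hq2⟩
    have hodd : Nat.Coprime 4 q := by
      have h2q : Nat.Coprime 2 q := (Nat.coprime_primes Nat.prime_two hq).mpr (Ne.symm hq2)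
      exact Nat.Coprime.pow_left 2 h2q
    exact (Nat.Coprime.dvd_mul_right hodd).mp h4
  exact rtk6c4u_nodeAt_J hπ ιC hq hqM M H w hw hML
    (rtk6c4u_thin_J hπ ιC hq hqM hA hqπ rigid)
    (rtk6c4u_get_J_U hπ ιC hq hqM M H hM0 hA hqπ hML hqN h4 hat htame) 𝔫

end Concrete

end Fermat.Agent.RT.K6

end
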