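/-
K-machine, piece K6, **CLOSED**: `StmtChiJDiv5` (helper94's one-line wiring of the two cases).

* case (χ): `rtk6c4at_geomChi : StmtRtk6GeomChi` (`C4AsmThinInv.lean`);
* case (U): `rtk6uf_geomUnip : StmtRtk6GeomUnip` (`UnipFinal.lean`, helper81);
* master:   `rtk6_master : StmtRtk6GeomChi → StmtRtk6GeomUnip → StmtChiJDiv5` (`Master.lean`,
  helper66).

**`rtk6c4at_stmtChiJDiv5 : StmtChiJDiv5`** (no hypothesis).
-/
import Fermat.Agent.RT.K6.C4AsmThinInv
import Fermat.Agent.RT.K6.UnipFinal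
import Fermat.Agent.RT.K6.Master

set_option autoImplicit false

namespace Fermat.Agent.RT.K6

/-- **K6, closed**: `StmtChiJDiv5`. -/
theorem rtk6c4at_stmtChiJDiv5 : StmtChiJDiv5 :=
  rtk6_master rtk6c4at_geomChi rtk6uf_geomUnip

end Fermat.Agent.RT.K6
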