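/-
K-machine, piece K6 / W1 (helper96): THE ATKIN–LEHNER AUTOMORPHISM OVER A BASE WITHOUT `ζ_r`.

`w` the Atkin–Lehner automorphism of `fieldBar L M H` at `r` (`IsWAt L M H r w`, piece B),
`K₀` an intermediate field of `ℚ̄ / ℚ` with `RtkCommK K₀ w` (`w` commutes with `Gal(ℚ̄/K₀)`),
`w₁ := rtk6diwEquiv w hcomm : fieldC K₀ L M H ≃ₐ[K₀] fieldC K₀ L M H` (DIW).

* the API of `rtk6diwW` for an ARBITRARY `hcomm : RtkCommK K₀ w`:
  `rtk6w1_eq_diwW` (`rtk6diwW w … = rtk6diwEquiv w hcomm`), `rtk6w1_galois` (`σ̂ w₁ = w₁ δ′ σ̂`),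
  `rtk6w1_diamond` (`w₁ δ_c = δ_{c⁻¹} w₁`), `rtk6w1_j`, `rtk6w1_incl` / `rtk6w1_wIncl`
  (`Rtk6dvWIncl`: `w₁` on the `Γ₀`-field is `AL.atkinLehner`), `rtk6w1_coeffHom`
  (`w₁ σ̂ = δ′ σ̂ w₁`), `rtk6w1_symm_galois`, `rtk6w1_symm_coeffHom`, `rtk6w1_symm_diamond`;
* `rtk6w1_commK_mono` : `K₀ ≤ K₀′ → RtkCommK K₀ w → RtkCommK K₀′ w`;
  `rtk6w1_baseChange` : `w₁` over `K₀` and over `K₀′ ⊇ K₀` are compatible with the coefficient
  inclusion (ONE `w′` for both levels);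
* `Rtk6w1Core K₀ M r H` : "`σ` fixes `K₀` ⇒ the cyclotomic image of `σ` at `r` lies in `±H`"
  (the core; helper80 / `W1Core.lean`);
  **`rtk6w1_commK_of_core`** : `Rtk6w1Core K₀ M r H → RtkCommK K₀ w` for `K₀ ⊇ E₀ = ℚ̄^I`;
* `rtk6w1_core_of_hat`, **`rtk6w1_commK_of_hat`** : case (U) (`∀ c, IsAtR M r c → c ∈ pmH H`):
  `RtkCommK K₀ w` for EVERY `K₀ ⊇ E₀`.
-/
import Fermat.Agent.RT.K6.DIWRel
import Fermat.Agent.RT.K6.DIVertInc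
import Fermat.Agent.RT.K6.DE0
import Fermat.Agent.RT.K6.FCoset
import Fermat.Agent.UNIP.Beta0Abs

set_option autoImplicit false
set_option linter.style.haveILetI false
set_option linter.unusedSectionVars false
set_option linter.unusedVariables false

noncomputable section

namespace Fermat.Agent.RT.K6

open ModularCurve AlgebraicCurve HahnSeries Fermat.Agent.ES Fermat.Agent.ES.G2 Fermat.Agent.INJ
open Fermat.Agent.UNIP Fermat.Agent.ES1 Fermat.Agent.ES1.G2 IntermediateField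

/-! ### the API for an arbitrary `hcomm` -/

section Api

variable {K₀ : IntermediateField ℚ Qb} {L M : ℕ} {H : Subgroup (ZMod M)ˣ} {r : ℕ}
  (w : fieldBar L M H ≃ₐ[Qb] fieldBar L M H) (hw : IsWAt L M H r w) (hcomm : RtkCommK K₀ w)

/-- `rtk6diwW` is `rtk6diwEquiv` for any proof of the commutation -/
theorem rtk6w1_eq_diwW (hM0 : M ≠ 0) (hr : r.Prime) (hrM : r ∣ M)
    (hζ : ∀ ζ : Qb, ζ ^ r = 1 → ζ ∈ K₀) :
    rtk6diwW w hw hM0 hr hrM hζ = rtk6diwEquiv w hcomm := rfl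

/-- `a` at `r` ⇒ `a⁻¹` at `r` -/
theorem rtk6w1_isAtR_inv (hM0 : M ≠ 0) (hrM : r ∣ M) {c : (ZMod M)ˣ} (hc : IsAtR M r c) :
    IsAtR M r c⁻¹ := by
  have h3 := hc
  unfold IsAtR at h3 ⊢
  have hM1 : M / r ∣ M := Nat.div_dvd_of_dvd hrM
  haveI : NeZero M := ⟨hM0⟩
  have hcast : ∀ x : ZMod M, ((x.val : ℕ) : ZMod (M / r)) =
      ZMod.castHom hM1 (ZMod (M / r)) x := fun x => by
    rw [ZMod.natCast_val, ZMod.castHom_apply]
  rw [hcast] at h3 ⊢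
  have h4 : ZMod.castHom hM1 (ZMod (M / r)) (c : ZMod M) *
      ZMod.castHom hM1 (ZMod (M / r)) ((c⁻¹ : (ZMod M)ˣ) : ZMod M) = 1 := by
    rw [← map_mul, ← Units.val_mul, mul_inv_cancel, Units.val_one, map_one]
  rw [h3, one_mul] at h4
  exact h4

include hw in
/-- **`σ̂ w₁ = w₁ δ′ σ̂`** on `fieldC K₀ L M H` -/
theorem rtk6w1_galois (hL : L ≠ 0) (hML : M ∣ L) (σ : Qb ≃ₐ[ℚ] Qb)
    (hσ : ∀ x ∈ K₀, σ x ∈ K₀) (c : (ZMod M)ˣ) (hc : IsCycAt M r σ c)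
    (δ' : fieldC K₀ L M H ≃ₐ[K₀] fieldC K₀ L M H) (hδ' : IsDiamondC ↥K₀ L M H c δ')
    (x : fieldC K₀ L M H) :
    rtk6diCoeffHom L M H (mgRestrict K₀ σ hσ) (rtk6diwEquiv w hcomm x) =
      rtk6diwEquiv w hcomm (δ' (rtk6diCoeffHom L M H (mgRestrict K₀ σ hσ) x)) := by
  obtain ⟨δ, hδ⟩ := rtk6diw_exists_diamondH (H := H) hL hML c
  apply nfEmbH_injective K₀ L M H
  rw [nfEmbH_rtk6diCoeffHom, nfEmbH_rtk6diwEquiv, nfEmbH_rtk6diwEquiv,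
    rtk6diw_diamond_nfEmbH hδ' hδ, nfEmbH_rtk6diCoeffHom]
  exact hw.galois σ c hc δ hδ _

include hw in
/-- **`w₁ δ′_c = δ′_{c⁻¹} w₁`** for the diamonds at `r` -/
theorem rtk6w1_diamond (hL : L ≠ 0) (hML : M ∣ L) (c : (ZMod M)ˣ) (hc : IsAtR M r c)
    (δ₁ δ₂ : fieldC K₀ L M H ≃ₐ[K₀] fieldC K₀ L M H) (hδ₁ : IsDiamondC ↥K₀ L M H c δ₁)
    (hδ₂ : IsDiamondC ↥K₀ L M H c⁻¹ δ₂) (x : fieldC K₀ L M H) :
    rtk6diwEquiv w hcomm (δ₁ x) = δ₂ (rtk6diwEquiv w hcomm x) := by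
  obtain ⟨δ, hδ⟩ := rtk6diw_exists_diamondH (H := H) hL hML c
  obtain ⟨δi, hδi⟩ := rtk6diw_exists_diamondH (H := H) hL hML c⁻¹
  apply nfEmbH_injective K₀ L M H
  rw [nfEmbH_rtk6diwEquiv, rtk6diw_diamond_nfEmbH hδ₁ hδ, rtk6diw_diamond_nfEmbH hδ₂ hδi,
    nfEmbH_rtk6diwEquiv]
  exact hw.diamond c hc δ δi hδ hδi _

include hw in
/-- `w₁` on the generators `j(q^d)` -/
theorem rtk6w1_j (d d' : ℕ) [NeZero d] [NeZero d'] (hd : d ∣ L)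
    (hd' : d' = (if r ∣ d then d / r else d * r)) (x : fieldC K₀ L M H)
    (hx : (x : LaurentSeries K₀) = qExpand K₀ d (jqModC K₀)) :
    ((rtk6diwEquiv w hcomm x : fieldC K₀ L M H) : LaurentSeries K₀) =
      qExpand K₀ d' (jqModC K₀) := by
  apply Fermat.Agent.ES.DescentInj.coeffMap_inj (algebraMap K₀ Qb)
  have h1 := nfEmbH_rtk6diwEquiv w hcomm x
  have h2 := congrArg (fun z : fieldBar L M H => (z : LaurentSeries Qb)) h1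
  simp only [nfEmbH_coe] at h2
  rw [h2]
  have h3 : ((nfEmbH K₀ L M H x : fieldBar L M H) : LaurentSeries Qb) =
      qExpand Qb d (jqModC Qb) := by
    rw [nfEmbH_coe, hx]
    exact coeffMap_jqNModC (algebraMap K₀ Qb) d
  rw [hw.map_j d d' hd hd' _ h3]
  exact (coeffMap_jqNModC (algebraMap K₀ Qb) d').symm

include hw in
/-- **`w₁ σ̂ = δ′_c σ̂ w₁`** -/
theorem rtk6w1_coeffHom (hM0 : M ≠ 0) (hrM : r ∣ M) (hL : L ≠ 0) (hML : M ∣ L)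
    (σ : Qb ≃ₐ[ℚ] Qb)
    (hσ : ∀ x ∈ K₀, σ x ∈ K₀) (c : (ZMod M)ˣ) (hc : IsCycAt M r σ c)
    (δ₁ δ₂ : fieldC K₀ L M H ≃ₐ[K₀] fieldC K₀ L M H) (hδ₁ : IsDiamondC ↥K₀ L M H c δ₁)
    (hδ₂ : IsDiamondC ↥K₀ L M H c⁻¹ δ₂) (x : fieldC K₀ L M H) :
    rtk6diwEquiv w hcomm (rtk6diCoeffHom L M H (mgRestrict K₀ σ hσ) x) =
      δ₁ (rtk6diCoeffHom L M H (mgRestrict K₀ σ hσ) (rtk6diwEquiv w hcomm x)) := by
  have h1 := rtk6w1_galois w hw hcomm hL hML σ hσ c hc δ₁ hδ₁ x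
  have hc2 : IsAtR M r c⁻¹ := rtk6w1_isAtR_inv hM0 hrM hc.2
  have h2 := rtk6w1_diamond w hw hcomm hL hML c⁻¹ hc2 δ₂ δ₁ hδ₂
    (by rw [inv_inv]; exact hδ₁)
  rw [h1, ← h2]
  congr 1
  obtain ⟨δ, hδ⟩ := rtk6diw_exists_diamondH (H := H) hL hML c
  obtain ⟨δi, hδi⟩ := rtk6diw_exists_diamondH (H := H) hL hML c⁻¹
  apply nfEmbH_injective K₀ L M H
  rw [rtk6diw_diamond_nfEmbH hδ₂ hδi, rtk6diw_diamond_nfEmbH hδ₁ hδ]
  have h5 : IsDiamondH L M H (c⁻¹ * c) (δi * δ) := hδi.mul hδ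
  rw [inv_mul_cancel] at h5
  have h6 : δi * δ = 1 := h5.unique isDiamondH_one
  exact (congrArg (fun f : fieldBar L M H ≃ₐ[Qb] fieldBar L M H => f _) h6).symm

include hw in
/-- **`σ̂ w₁⁻¹ = w₁⁻¹ δ′_c σ̂`** -/
theorem rtk6w1_symm_galois (hM0 : M ≠ 0) (hrM : r ∣ M) (hL : L ≠ 0) (hML : M ∣ L)
    (σ : Qb ≃ₐ[ℚ] Qb)
    (hσ : ∀ x ∈ K₀, σ x ∈ K₀) (c : (ZMod M)ˣ) (hc : IsCycAt M r σ c)
    (δ₁ δ₂ : fieldC K₀ L M H ≃ₐ[K₀] fieldC K₀ L M H) (hδ₁ : IsDiamondC ↥K₀ L M H c δ₁)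
    (hδ₂ : IsDiamondC ↥K₀ L M H c⁻¹ δ₂) (x : fieldC K₀ L M H) :
    rtk6diCoeffHom L M H (mgRestrict K₀ σ hσ) ((rtk6diwEquiv w hcomm).symm x) =
      (rtk6diwEquiv w hcomm).symm (δ₁ (rtk6diCoeffHom L M H (mgRestrict K₀ σ hσ) x)) := by
  have h := rtk6w1_coeffHom w hw hcomm hM0 hrM hL hML σ hσ c hc δ₁ δ₂ hδ₁ hδ₂
    ((rtk6diwEquiv w hcomm).symm x)
  rw [AlgEquiv.apply_symm_apply] at h
  rw [← h, AlgEquiv.symm_apply_apply]

include hw in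
/-- **`w₁⁻¹ σ̂ = δ′_c σ̂ w₁⁻¹`** -/
theorem rtk6w1_symm_coeffHom (hL : L ≠ 0) (hML : M ∣ L) (σ : Qb ≃ₐ[ℚ] Qb)
    (hσ : ∀ x ∈ K₀, σ x ∈ K₀) (c : (ZMod M)ˣ) (hc : IsCycAt M r σ c)
    (δ₁ : fieldC K₀ L M H ≃ₐ[K₀] fieldC K₀ L M H) (hδ₁ : IsDiamondC ↥K₀ L M H c δ₁)
    (x : fieldC K₀ L M H) :
    (rtk6diwEquiv w hcomm).symm (rtk6diCoeffHom L M H (mgRestrict K₀ σ hσ) x) =
      δ₁ (rtk6diCoeffHom L M H (mgRestrict K₀ σ hσ) ((rtk6diwEquiv w hcomm).symm x)) := by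
  have h := rtk6w1_galois w hw hcomm hL hML σ hσ c hc δ₁ hδ₁ ((rtk6diwEquiv w hcomm).symm x)
  rw [AlgEquiv.apply_symm_apply] at h
  rw [h, AlgEquiv.symm_apply_apply]

include hw in
/-- **`w₁⁻¹ δ′_c = δ′_{c⁻¹} w₁⁻¹`** for the diamonds at `r` -/
theorem rtk6w1_symm_diamond (hM0 : M ≠ 0) (hrM : r ∣ M) (hL : L ≠ 0) (hML : M ∣ L)
    (c : (ZMod M)ˣ) (hc : IsAtR M r c)
    (δ₁ δ₂ : fieldC K₀ L M H ≃ₐ[K₀] fieldC K₀ L M H) (hδ₁ : IsDiamondC ↥K₀ L M H c δ₁)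
    (hδ₂ : IsDiamondC ↥K₀ L M H c⁻¹ δ₂) (x : fieldC K₀ L M H) :
    (rtk6diwEquiv w hcomm).symm (δ₁ x) = δ₂ ((rtk6diwEquiv w hcomm).symm x) := by
  have hc2 : IsAtR M r c⁻¹ := rtk6w1_isAtR_inv hM0 hrM hc
  have h := rtk6w1_diamond w hw hcomm hL hML c⁻¹ hc2 δ₂ δ₁ hδ₂
    (by rw [inv_inv]; exact hδ₁) ((rtk6diwEquiv w hcomm).symm x)
  rw [AlgEquiv.apply_symm_apply] at h
  rw [← h, AlgEquiv.symm_apply_apply]

end Api

/-! ### monotonicity and base change -/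

section Mono

variable {K₀ K₀' : IntermediateField ℚ Qb} {L M : ℕ} {H : Subgroup (ZMod M)ˣ}

theorem rtk6w1_commK_mono (h : K₀ ≤ K₀') {w : fieldBar L M H → fieldBar L M H}
    (hcomm : RtkCommK K₀ w) : RtkCommK K₀' w :=
  fun σ hσ y => hcomm σ (fun a ha => hσ a (h ha)) y

/-- `nfEmbH` over `K₀′` of the coefficient inclusion is `nfEmbH` over `K₀` -/
theorem rtk6w1_nfEmbH_inclusion (h : K₀ ≤ K₀') (x : fieldC K₀ L M H) :
    nfEmbH K₀' L M H (rtk6diCoeffHom L M H (IntermediateField.inclusion h).toRingHom x) =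
      nfEmbH K₀ L M H x := by
  apply Subtype.ext
  show coeffMap (algebraMap ↥K₀' Qb)
      (coeffMap (IntermediateField.inclusion h).toRingHom (x : LaurentSeries ↥K₀)) =
    coeffMap (algebraMap ↥K₀ Qb) (x : LaurentSeries ↥K₀)
  rw [coeffMap_coeffMap]
  rfl

/-- **one `w′` for both levels**: the descents of `w` to `K₀` and to `K₀′ ⊇ K₀` are compatible
with the coefficient inclusion -/
theorem rtk6w1_baseChange (h : K₀ ≤ K₀') (w : fieldBar L M H ≃ₐ[Qb] fieldBar L M H)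
    (hcomm : RtkCommK K₀ w) (hcomm' : RtkCommK K₀' w) (x : fieldC K₀ L M H) :
    rtk6diwEquiv w hcomm' (rtk6diCoeffHom L M H (IntermediateField.inclusion h).toRingHom x) =
      rtk6diCoeffHom L M H (IntermediateField.inclusion h).toRingHom (rtk6diwEquiv w hcomm x) := by
  apply nfEmbH_injective K₀' L M H
  rw [nfEmbH_rtk6diwEquiv, rtk6w1_nfEmbH_inclusion, rtk6w1_nfEmbH_inclusion,
    nfEmbH_rtk6diwEquiv]

end Mono

/-! ### `w₁` on the `Γ₀(L)`-field is the Atkin–Lehner involution -/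

section Incl

open Fermat.Agent.AL

variable {K₀ : IntermediateField ℚ Qb} {M₁ q : ℕ} [NeZero q] [NeZero M₁] [NeZero (M₁ * q)]
  {M : ℕ} {H : Subgroup (ZMod M)ˣ}
  (w : fieldBar (M₁ * q) M H ≃ₐ[Qb] fieldBar (M₁ * q) M H) (hw : IsWAt (M₁ * q) M H q w)
  (hcomm : RtkCommK K₀ w) (hq : q.Prime)
  (ιC : K₀ →+* ℂ) (hqM : ¬ q ∣ M₁)

include hw in
theorem rtk6w1_incl (x : modularFunctionFieldFullC K₀ (M₁ * q)) :
    rtk6diwEquiv w hcomm (rtk6diIncl (M₁ * q) M H x) =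
      rtk6diIncl (M₁ * q) M H (atkinLehner K₀ ιC hq hqM x) := by
  have key : ((rtk6diwEquiv w hcomm : fieldC K₀ (M₁ * q) M H →+*
        fieldC K₀ (M₁ * q) M H).comp (rtk6diIncl (M₁ * q) M H)) =
      (rtk6diIncl (M₁ * q) M H).comp
        ((atkinLehner K₀ ιC hq hqM).toRingEquiv.toRingHom) := by
    apply al_ringHom_ext K₀ (M₁ * q)
    · intro c
      show rtk6diwEquiv w hcomm (rtk6diIncl (M₁ * q) M H (algebraMap K₀ _ c)) =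
        rtk6diIncl (M₁ * q) M H (atkinLehner K₀ ιC hq hqM (algebraMap K₀ _ c))
      rw [AlgEquiv.commutes, rtk6diIncl_algebraMap, AlgEquiv.commutes]
    · intro d _ hd
      show rtk6diwEquiv w hcomm (rtk6diIncl (M₁ * q) M H
          ⟨qExpand K₀ d (jqModC K₀), jqModCd_mem_full K₀ (M₁ * q) hd⟩) =
        rtk6diIncl (M₁ * q) M H (atkinLehner K₀ ιC hq hqM
          ⟨qExpand K₀ d (jqModC K₀), jqModCd_mem_full K₀ (M₁ * q) hd⟩)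
      have hsw : alSwap q (M₁ * q) d = (if q ∣ d then d / q else d * q) := by
        unfold alSwap
        rw [if_pos hd]
      have hsd : alSwap q (M₁ * q) d ∣ M₁ * q := alSwap_dvd hq hqM hd
      haveI : NeZero (alSwap q (M₁ * q) d) :=
        ⟨fun h0 => NeZero.ne (M₁ * q) (by rw [h0] at hsd; exact Nat.eq_zero_of_zero_dvd hsd)⟩
      apply Subtype.ext
      rw [rtk6w1_j w hw hcomm d (alSwap q (M₁ * q) d) hd hsw _
        (rtk6diIncl_coe (M₁ * q) M H _), rtk6diIncl_coe]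
      have e0 : (⟨qExpand K₀ d (jqModC K₀), jqModCd_mem_full K₀ (M₁ * q) hd⟩ :
          modularFunctionFieldFullC K₀ (M₁ * q)) = ⟨alGen K₀ (M₁ * q) d, alGen_mem K₀ d⟩ :=
        Subtype.ext (alGen_of_dvd K₀ hd).symm
      rw [e0, atkinLehner_gen, alGen_of_dvd K₀ hsd]
  exact congrArg (fun φ : modularFunctionFieldFullC K₀ (M₁ * q) →+*
    fieldC K₀ (M₁ * q) M H => φ x) key

include hw in
/-- **`Rtk6dvWIncl`** for `w₁` -/
theorem rtk6w1_wIncl : Rtk6dvWIncl ιC hq hqM M H (rtk6diwEquiv w hcomm) :=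
  fun x => rtk6w1_incl w hw hcomm hq ιC hqM x

end Incl

/-! ### the commutation from the core -/

section Core

variable {L M : ℕ} {H : Subgroup (ZMod M)ˣ} {r : ℕ}

/-- **The core of W1**: an automorphism fixing `K₀` has its cyclotomic image at `r` in `±H`. -/
def Rtk6w1Core (K₀ : IntermediateField ℚ Qb) (M r : ℕ) (H : Subgroup (ZMod M)ˣ) : Prop :=
  ∀ σ : Qb ≃ₐ[ℚ] Qb, (∀ a ∈ K₀, σ a = a) → ∀ c : (ZMod M)ˣ, IsCycAt M r σ c → c ∈ pmH H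

theorem Rtk6w1Core.mono {K₀ K₀' : IntermediateField ℚ Qb} (h : K₀ ≤ K₀')
    (hc : Rtk6w1Core K₀ M r H) : Rtk6w1Core K₀' M r H :=
  fun σ hσ c hcyc => hc σ (fun a ha => hσ a (h ha)) c hcyc

/-- `c ∈ ±H` ⇒ the identity is the diamond of `c` -/
theorem rtk6w1_isDiamondH_one {c : (ZMod M)ˣ} (hc : c ∈ pmH H) :
    IsDiamondH L M H c (1 : fieldBar L M H ≃ₐ[Qb] fieldBar L M H) where
  fix_j := fun _ _ _ _ _ => rfl
  map_s := fun e _ a _ x hx => by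
    have e1 : sS Qb M H (a * c) = sS Qb M H a :=
      es1f_sS_eq_of_inPM Qb (rtk6f_inPM_iff.mpr (by rw [inv_mul_cancel_left]; exact hc))
    rw [e1]
    exact hx

/-- **W1**: `w` commutes with `Gal(ℚ̄/K₀)` for `K₀ ⊇ E₀ = ℚ̄^I` satisfying the core. -/
theorem rtk6w1_commK_of_core {w : fieldBar L M H ≃ₐ[Qb] fieldBar L M H}
    (hw : IsWAt L M H r w) (hM0 : M ≠ 0) (hr : r.Prime) (hrM : r ∣ M) (hr2 : ¬ r ^ 2 ∣ M)
    (A : ValuationSubring Qb) (hA : A.LiesOverPrime r)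
    {K₀ : IntermediateField ℚ Qb} (hE : beta0Field A ≤ K₀)
    (hcore : Rtk6w1Core K₀ M r H) : RtkCommK K₀ w := by
  intro σ hσ y
  haveI : NeZero M := ⟨hM0⟩
  have hσI : σ ∈ A.inertiaSubgroupIn ℚ :=
    beta0_mem_inertia_of_fixes hr hA σ (fun x hx => hσ x (hE hx))
  obtain ⟨c, hc⟩ := rtk6de0_isCycAt hr hrM hr2 A hA hσI
  have hcH : c ∈ pmH H := hcore σ hσ c hc
  have h := hw.galois σ c hc 1 (rtk6w1_isDiamondH_one hcH) y
  rw [h]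
  rfl

/-- the core holds over EVERY `K₀` when `H` contains all diamonds at `r` (case (U)) -/
theorem rtk6w1_core_of_hat (hat : ∀ c : (ZMod M)ˣ, IsAtR M r c → c ∈ pmH H)
    (K₀ : IntermediateField ℚ Qb) : Rtk6w1Core K₀ M r H :=
  fun _ _ c hc => hat c hc.2

/-- **W1 for (U)**: if `H` contains all diamonds at `r`, then `w` commutes with `Gal(ℚ̄/K₀)` for
EVERY `K₀ ⊇ E₀ = ℚ̄^I` (so `w₁` exists at the unramified level). -/
theorem rtk6w1_commK_of_hat {w : fieldBar L M H ≃ₐ[Qb] fieldBar L M H}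
    (hw : IsWAt L M H r w) (hM0 : M ≠ 0) (hr : r.Prime) (hrM : r ∣ M) (hr2 : ¬ r ^ 2 ∣ M)
    (A : ValuationSubring Qb) (hA : A.LiesOverPrime r)
    (hat : ∀ c : (ZMod M)ˣ, IsAtR M r c → c ∈ pmH H)
    {K₀ : IntermediateField ℚ Qb} (hE : beta0Field A ≤ K₀) : RtkCommK K₀ w :=
  rtk6w1_commK_of_core hw hM0 hr hrM hr2 A hA hE (rtk6w1_core_of_hat hat K₀)

end Core

end Fermat.Agent.RT.K6
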