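/-
K-machine, piece K6, pieces **HRED-inst + D-BC-inst** (helper45): the instance
`w₁ = rtk6diwEquiv w₀ hcomm` (W1) of the (D-BC) data `hD₁`, `hD₂` of `rtk6c4b_node`
(`RT/K6/C4InstBNode.lean`) at an intermediate level `K₁′ ≤ K₁` (`K₁′ = rtk6ebK r d` for (χ),
`K₁′ = rtk6ebK q 1` for (U)), and the resulting `Rtk6emNode` at `K₁`.

Inputs used: (W1) `rtk6w1_wIncl` (helper96), (M1) `rtk6m1_emFam` (helper82), (HRED)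
`RT/K6/HRed.lean`, (D-BC) `rtk6dbc_chart_t_of_ss1` / `rtk6dbc_chart_tinv_of_ss1` (helper56,
`RT/K6/DBCSS1.lean`), (FAM-res) `rtk6frf_R2_E` (helper82), (C4-inst (B)) `rtk6c4b_node`
(helper81), (E-BASE) `rtk6ebQ_ne_zero`, `rtk6ebQ_dvd_of_irreducible` (helper66).

* `rtk6dbi_fam_W` : **(M1) at the level `K₁′`** for `w₁ = rtk6diwEquiv w₀ hcomm`
  (`hcomm : RtkCommK (mgcE A K₁′) w₀` from `rtk6w1b_commK` or `rtk6w1_commK_of_hat`);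
* `rtk6dbi_chart_t_W`, `rtk6dbi_chart_tinv_W` : **`hD₁`, `hD₂` of `rtk6c4b_node`** at
  `w₁ = rtk6diwEquiv w₀ hcomm` (`ι = rtk6dbcIncl (M₁ q) M H h`, `q′ = rtk6ebQ h ϖ₁`; `ϖ₁`, `π′` ANY
  uniformizers), the ONLY non-formal hypothesis being (SS1) at the level `K₁′`;
* `rtk6dbi_node` : **`Rtk6emNode` at `K₁`** for `w = rtk6diwEquiv w₀ hcomm'` from (SS1) and the
  dichotomy (C4 (A)) `hA₁`, `hA₂` on the two charts at the level `K₁′`;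
* `rtk6dbi_node_W` : the same for `w = rtk6diwW w₀ hw₀ hM0 hq hqM' hζ` — LITERALLY the field
  `node` of `Rtk6eiGeom` (`RT/K6/EInst.lean`) / the body of the provider `hNode` of
  `rtk6ei_geomUnip_of_pieces`, `rtk6ei_geomChi_of_pieces` (`RT/K6/EInstGlue.lean`).
-/
import Fermat.Agent.RT.K6.DBCSS1
import Fermat.Agent.RT.K6.M4EMain
import Fermat.Agent.RT.K6.W1
import Fermat.Agent.RT.K6.C4InstBNode
import Fermat.Agent.RT.K6.FamResFam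
import Fermat.Agent.UNIP.MGData

set_option autoImplicit false
set_option linter.style.haveILetI false
set_option linter.unusedSectionVars false
set_option linter.unusedVariables false
set_option linter.style.longLine false

noncomputable section

namespace Fermat.Agent.RT.K6

open ModularCurve AlgebraicCurve Fermat.Agent.ES Fermat.Agent.ES.G2 Fermat.Agent.INJ
open Fermat.Agent.UNIP Fermat.Agent.STB Fermat.Agent.ES1 Fermat.Agent.ES1.G2 IntermediateField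

section W

variable {A : ValuationSubring Qb} {K₁' K₁ : IntermediateField ℚ Qb}
  [NumberField ↥K₁'] [IsGalois ℚ ↥K₁'] [NumberField ↥K₁] [IsGalois ℚ ↥K₁]
  [IsDiscreteValuationRing ↥(mgcA A K₁')] [IsDiscreteValuationRing ↥(mgcA A K₁)]
  {q M₁ : ℕ} [NeZero q] [NeZero M₁] [NeZero (M₁ * q)] {M : ℕ} {H : Subgroup (ZMod M)ˣ}
  {ϖ₁ : ↥(mgcA A K₁')} {π' : ↥(mgcA A K₁)}

/-- **(M1) at the level `K₁′`** for `w₁ = rtk6diwEquiv w₀ hcomm`. -/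
theorem rtk6dbi_fam_W (hϖ₁ : Irreducible ϖ₁)
    (w₀ : fieldBar (M₁ * q) M H ≃ₐ[Qb] fieldBar (M₁ * q) M H) (hw₀ : IsWAt (M₁ * q) M H q w₀)
    (hcomm : RtkCommK (mgcE A K₁') w₀)
    (hq : q.Prime) (hqM : ¬ q ∣ M₁) (hA : A.LiesOverPrime q) (hML : M ∣ M₁ * q) :
    Rtk6emFam A K₁' (M₁ * q) M H ϖ₁
      (rtk6dfV hϖ₁ M H (rtk6diwEquiv (K₀ := mgcE A K₁') w₀ hcomm)) :=
  rtk6m1_emFam hϖ₁ (mgdIota (mgcE A K₁')) hq hqM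
    (rtk6w1_wIncl w₀ hw₀ hcomm hq (mgdIota (mgcE A K₁')) hqM) hA hML

/-- **`hD₁` of `rtk6c4b_node`** at `w₁ = rtk6diwEquiv w₀ hcomm`, from (SS1) at the level `K₁′`. -/
theorem rtk6dbi_chart_t_W (hϖ₁ : Irreducible ϖ₁) (hπ' : Irreducible π')
    (w₀ : fieldBar (M₁ * q) M H ≃ₐ[Qb] fieldBar (M₁ * q) M H) (hw₀ : IsWAt (M₁ * q) M H q w₀)
    (hcomm : RtkCommK (mgcE A K₁') w₀)
    (hq : q.Prime) (hqM : ¬ q ∣ M₁) (hA : A.LiesOverPrime q)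
    (hML : M ∣ M₁ * q) (h : K₁' ≤ K₁)
    (ss1 : Rtk6emSS1 A K₁' (M₁ * q) M H ϖ₁
      (rtk6dfV hϖ₁ M H (rtk6diwEquiv (K₀ := mgcE A K₁') w₀ hcomm))) :
    ∃ j : ↥(zchClosure (A₀ := ↥(mgcA A K₁'))
          ({rtk6diT A K₁' (M₁ * q) M H} : Set ↥(rtk6diF A K₁' (M₁ * q) M H))) →+*
        ↥(zchClosure (A₀ := ↥(mgcA A K₁))
          ({rtk6diT A K₁ (M₁ * q) M H} : Set ↥(rtk6diF A K₁ (M₁ * q) M H))),
      (∀ b, ((j b : ↥(zchClosure (A₀ := ↥(mgcA A K₁))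
        ({rtk6diT A K₁ (M₁ * q) M H} : Set ↥(rtk6diF A K₁ (M₁ * q) M H)))) :
          ↥(rtk6diF A K₁ (M₁ * q) M H)) =
            rtk6dbcIncl (A := A) (M₁ * q) M H h (b : ↥(rtk6diF A K₁' (M₁ * q) M H))) ∧
      MgcRamified j
        (algebraMap ↥(mgcA A K₁) ↥(zchClosure (A₀ := ↥(mgcA A K₁))
          ({rtk6diT A K₁ (M₁ * q) M H} : Set ↥(rtk6diF A K₁ (M₁ * q) M H))) π')
        (algebraMap ↥(mgcA A K₁') ↥(zchClosure (A₀ := ↥(mgcA A K₁'))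
          ({rtk6diT A K₁' (M₁ * q) M H} : Set ↥(rtk6diF A K₁' (M₁ * q) M H))) ϖ₁) ∧
      j (algebraMap ↥(mgcA A K₁') ↥(zchClosure (A₀ := ↥(mgcA A K₁'))
          ({rtk6diT A K₁' (M₁ * q) M H} : Set ↥(rtk6diF A K₁' (M₁ * q) M H))) ϖ₁) =
        algebraMap ↥(mgcA A K₁) ↥(zchClosure (A₀ := ↥(mgcA A K₁))
          ({rtk6diT A K₁ (M₁ * q) M H} : Set ↥(rtk6diF A K₁ (M₁ * q) M H)))
          (rtk6ebQ (A := A) h ϖ₁) :=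
  rtk6dbc_chart_t_of_ss1 (M₁ * q) M H hq hA h (NeZero.ne (M₁ * q)) hML hϖ₁ hπ'
    (rtk6dbi_fam_W hϖ₁ w₀ hw₀ hcomm hq hqM hA hML) ss1

/-- **`hD₂` of `rtk6c4b_node`** at `w₁ = rtk6diwEquiv w₀ hcomm`, from (SS1) at the level `K₁′`. -/
theorem rtk6dbi_chart_tinv_W (hϖ₁ : Irreducible ϖ₁) (hπ' : Irreducible π')
    (w₀ : fieldBar (M₁ * q) M H ≃ₐ[Qb] fieldBar (M₁ * q) M H) (hw₀ : IsWAt (M₁ * q) M H q w₀)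
    (hcomm : RtkCommK (mgcE A K₁') w₀)
    (hq : q.Prime) (hqM : ¬ q ∣ M₁) (hA : A.LiesOverPrime q)
    (hML : M ∣ M₁ * q) (h : K₁' ≤ K₁)
    (ss1 : Rtk6emSS1 A K₁' (M₁ * q) M H ϖ₁
      (rtk6dfV hϖ₁ M H (rtk6diwEquiv (K₀ := mgcE A K₁') w₀ hcomm))) :
    ∃ j : ↥(zchClosure (A₀ := ↥(mgcA A K₁'))
          ({(rtk6diT A K₁' (M₁ * q) M H)⁻¹} : Set ↥(rtk6diF A K₁' (M₁ * q) M H))) →+*
        ↥(zchClosure (A₀ := ↥(mgcA A K₁))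
          ({(rtk6diT A K₁ (M₁ * q) M H)⁻¹} : Set ↥(rtk6diF A K₁ (M₁ * q) M H))),
      (∀ b, ((j b : ↥(zchClosure (A₀ := ↥(mgcA A K₁))
        ({(rtk6diT A K₁ (M₁ * q) M H)⁻¹} : Set ↥(rtk6diF A K₁ (M₁ * q) M H)))) :
          ↥(rtk6diF A K₁ (M₁ * q) M H)) =
            rtk6dbcIncl (A := A) (M₁ * q) M H h (b : ↥(rtk6diF A K₁' (M₁ * q) M H))) ∧
      MgcRamified j
        (algebraMap ↥(mgcA A K₁) ↥(zchClosure (A₀ := ↥(mgcA A K₁))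
          ({(rtk6diT A K₁ (M₁ * q) M H)⁻¹} : Set ↥(rtk6diF A K₁ (M₁ * q) M H))) π')
        (algebraMap ↥(mgcA A K₁') ↥(zchClosure (A₀ := ↥(mgcA A K₁'))
          ({(rtk6diT A K₁' (M₁ * q) M H)⁻¹} : Set ↥(rtk6diF A K₁' (M₁ * q) M H))) ϖ₁) ∧
      j (algebraMap ↥(mgcA A K₁') ↥(zchClosure (A₀ := ↥(mgcA A K₁'))
          ({(rtk6diT A K₁' (M₁ * q) M H)⁻¹} : Set ↥(rtk6diF A K₁' (M₁ * q) M H))) ϖ₁) =
        algebraMap ↥(mgcA A K₁) ↥(zchClosure (A₀ := ↥(mgcA A K₁))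
          ({(rtk6diT A K₁ (M₁ * q) M H)⁻¹} : Set ↥(rtk6diF A K₁ (M₁ * q) M H)))
          (rtk6ebQ (A := A) h ϖ₁) :=
  rtk6dbc_chart_tinv_of_ss1 (M₁ * q) M H hq hA h (NeZero.ne (M₁ * q)) hML hϖ₁ hπ'
    (rtk6dbi_fam_W hϖ₁ w₀ hw₀ hcomm hq hqM hA hML) ss1

/-- **`Rtk6emNode` at `K₁`** for `w = rtk6diwEquiv w₀ hcomm'`, from (SS1) and the dichotomy
(C4 (A)) on the two charts at the level `K₁′ ≤ K₁`, `w₁ = rtk6diwEquiv w₀ hcomm`: D-BC + HRED +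
FAM-res (R2) + E-BASE are discharged. -/
theorem rtk6dbi_node (hϖ₁ : Irreducible ϖ₁) (hπ' : Irreducible π')
    (w₀ : fieldBar (M₁ * q) M H ≃ₐ[Qb] fieldBar (M₁ * q) M H) (hw₀ : IsWAt (M₁ * q) M H q w₀)
    (hcomm : RtkCommK (mgcE A K₁') w₀)
    (hq : q.Prime) (hqM : ¬ q ∣ M₁) (hA : A.LiesOverPrime q)
    (hML : M ∣ M₁ * q) (h : K₁' ≤ K₁) (hcomm' : RtkCommK (mgcE A K₁) w₀)
    (ss1 : Rtk6emSS1 A K₁' (M₁ * q) M H ϖ₁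
      (rtk6dfV hϖ₁ M H (rtk6diwEquiv (K₀ := mgcE A K₁') w₀ hcomm)))
    (hA₁ : ∀ 𝔫₁ : AtPt (F := ↥(rtk6diF A K₁' (M₁ * q) M H)) ϖ₁ (rtk6diT A K₁' (M₁ * q) M H),
      Rtk6ewmNodeAt (rtk6dfV hϖ₁ M H (rtk6diwEquiv (K₀ := mgcE A K₁') w₀ hcomm)) 𝔫₁
        (RingHom.id _)
        (algebraMap ↥(mgcA A K₁') ↥(zchClosure (A₀ := ↥(mgcA A K₁'))
          ({rtk6diT A K₁' (M₁ * q) M H} : Set ↥(rtk6diF A K₁' (M₁ * q) M H))) ϖ₁))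
    (hA₂ : ∀ 𝔫₁ : AtPt (F := ↥(rtk6diF A K₁' (M₁ * q) M H)) ϖ₁
        (rtk6diT A K₁' (M₁ * q) M H)⁻¹,
      Rtk6ewmNodeAt (rtk6dfV hϖ₁ M H (rtk6diwEquiv (K₀ := mgcE A K₁') w₀ hcomm)) 𝔫₁
        (RingHom.id _)
        (algebraMap ↥(mgcA A K₁') ↥(zchClosure (A₀ := ↥(mgcA A K₁'))
          ({(rtk6diT A K₁' (M₁ * q) M H)⁻¹} : Set ↥(rtk6diF A K₁' (M₁ * q) M H))) ϖ₁)) :
    Rtk6emNode A K₁ (M₁ * q) M H π'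
      (rtk6dfV hπ' M H (rtk6diwEquiv (K₀ := mgcE A K₁) w₀ hcomm')) :=
  rtk6c4b_node hϖ₁ hπ' M H (rtk6diwEquiv (K₀ := mgcE A K₁') w₀ hcomm)
    (rtk6diwEquiv (K₀ := mgcE A K₁) w₀ hcomm') (rtk6dbcIncl (A := A) (M₁ * q) M H h)
    (rtk6ebQ_ne_zero h hϖ₁.ne_zero) (rtk6ebQ_dvd_of_irreducible h hπ' hϖ₁)
    (fun c₁ => by
      obtain ⟨c, -, hc⟩ := rtk6frf_R2_E hϖ₁ hπ' w₀
        (IntermediateField.inclusion (rtk6eb_mgcE_mono (A := A) h)).toRingHom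
        (fun a => rfl) hcomm hcomm' hML c₁
      exact ⟨c, hc⟩)
    (rtk6dbi_chart_t_W hϖ₁ hπ' w₀ hw₀ hcomm hq hqM hA hML h ss1)
    (rtk6dbi_chart_tinv_W hϖ₁ hπ' w₀ hw₀ hcomm hq hqM hA hML h ss1) hA₁ hA₂

/-- **`Rtk6emNode` at `K₁`**, in the form of the field `node` of `Rtk6eiGeom`
(`w = rtk6diwW w₀ hw₀ hM0 hq hqM' hζ`). -/
theorem rtk6dbi_node_W (hϖ₁ : Irreducible ϖ₁) (hπ' : Irreducible π')
    (w₀ : fieldBar (M₁ * q) M H ≃ₐ[Qb] fieldBar (M₁ * q) M H) (hw₀ : IsWAt (M₁ * q) M H q w₀)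
    (hcomm : RtkCommK (mgcE A K₁') w₀)
    (hM0 : M ≠ 0) (hq : q.Prime) (hqM' : q ∣ M) (hqM : ¬ q ∣ M₁)
    (hζ : ∀ ζ : Qb, ζ ^ q = 1 → ζ ∈ mgcE A K₁) (hA : A.LiesOverPrime q)
    (hML : M ∣ M₁ * q) (h : K₁' ≤ K₁)
    (ss1 : Rtk6emSS1 A K₁' (M₁ * q) M H ϖ₁
      (rtk6dfV hϖ₁ M H (rtk6diwEquiv (K₀ := mgcE A K₁') w₀ hcomm)))
    (hA₁ : ∀ 𝔫₁ : AtPt (F := ↥(rtk6diF A K₁' (M₁ * q) M H)) ϖ₁ (rtk6diT A K₁' (M₁ * q) M H),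
      Rtk6ewmNodeAt (rtk6dfV hϖ₁ M H (rtk6diwEquiv (K₀ := mgcE A K₁') w₀ hcomm)) 𝔫₁
        (RingHom.id _)
        (algebraMap ↥(mgcA A K₁') ↥(zchClosure (A₀ := ↥(mgcA A K₁'))
          ({rtk6diT A K₁' (M₁ * q) M H} : Set ↥(rtk6diF A K₁' (M₁ * q) M H))) ϖ₁))
    (hA₂ : ∀ 𝔫₁ : AtPt (F := ↥(rtk6diF A K₁' (M₁ * q) M H)) ϖ₁
        (rtk6diT A K₁' (M₁ * q) M H)⁻¹,
      Rtk6ewmNodeAt (rtk6dfV hϖ₁ M H (rtk6diwEquiv (K₀ := mgcE A K₁') w₀ hcomm)) 𝔫₁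
        (RingHom.id _)
        (algebraMap ↥(mgcA A K₁') ↥(zchClosure (A₀ := ↥(mgcA A K₁'))
          ({(rtk6diT A K₁' (M₁ * q) M H)⁻¹} : Set ↥(rtk6diF A K₁' (M₁ * q) M H))) ϖ₁)) :
    Rtk6emNode A K₁ (M₁ * q) M H π'
      (rtk6dfV hπ' M H (rtk6diwW (K₀ := mgcE A K₁) w₀ hw₀ hM0 hq hqM' hζ)) :=
  rtk6dbi_node hϖ₁ hπ' w₀ hw₀ hcomm hq hqM hA hML h
    (rtk6w1_commK_mono (rtk6eb_mgcE_mono (A := A) h) hcomm) ss1 hA₁ hA₂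

end W

end Fermat.Agent.RT.K6
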