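/-
K-machine, piece K6, v5 (M4) D-STAB (helper79), valuation form.

`W` a valuation ring of `F` with uniformizer `π` (`hU : x ∈ 𝔪(W) → x ∈ π W`), archimedean
(`harch`, as in `STB.stb_main_points`).

* `rtk6glu_shape`      : every `f ≠ 0` is `π ^ k · e` or `e / π ^ k`, `e` a unit of `W`;
* `rtk6glu_val_eq_one` : a ring automorphism `g` of `F` with `g W ⊆ W`, `g π = c π`, `c` a unit of
  `W`, preserves the valuation: `W.valuation (g f / f) = 1` for all `f ≠ 0`;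
* `rtk6glu_stab_val`   : **D-STAB** (`DGLStab.lean`, `rtk6glu_stab`) in the form `hgV` / `hΦV` of
  `rtk6ew_main_two`: at a crossing point (`O` local, `𝔪 = (X, Y)`) through which the component `W`
  passes (`X ∈ 𝔪(W)`, `Y ∉ 𝔪(W)`), an automorphism `g` with `g⁻¹ O ⊆ O`, `g⁻¹ X ∈ O X`,
  `g⁻¹ Y ∈ O^× Y`, `g π ∈ W^× π` has `W.valuation (g f / f) = 1`;
* `rtk6glu_stab_smul`  : the same for `g : SemilinearAut E F` (`g • f`).
-/
import Fermat.Agent.RT.K6.DGLStab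
import Fermat.Prelude.Def_AlgebraicCurve_BaseChangeGalois

set_option autoImplicit false
set_option linter.style.haveILetI false
set_option linter.unusedSectionVars false

namespace Fermat.Agent.RT.K6

open IsLocalRing AlgebraicCurve

section Shape

variable {F : Type*} [Field F]

/-- a unit of `W` has valuation `1` -/
theorem rtk6glu_val_unit (W : ValuationSubring F) {e : F} (he0 : e ≠ 0) (he : e ∈ W)
    (he' : e⁻¹ ∈ W) : W.valuation e = 1 := by
  have h1 : W.valuation e ≤ 1 := (ValuationSubring.valuation_le_one_iff W e).mpr he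
  have h2 : W.valuation e⁻¹ ≤ 1 := (ValuationSubring.valuation_le_one_iff W _).mpr he'
  have hv0 : W.valuation e ≠ 0 := (Valuation.ne_zero_iff _).mpr he0
  rw [map_inv₀] at h2
  have h3 : 1 ≤ W.valuation e := (inv_le_one₀ (zero_lt_iff.mpr hv0)).mp h2
  exact le_antisymm h1 h3

/-- elements of `W`: `f = π ^ k · e`, `e` a unit -/
theorem rtk6glu_shape_mem (W : ValuationSubring F) {π : F} (hπ0 : π ≠ 0)
    (hU : ∀ x ∈ W.nonunits, ∃ z ∈ W, x = π * z) (n : ℕ) :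
    ∀ f : F, f ≠ 0 → f ∈ W → π ^ n * f⁻¹ ∈ W.nonunits →
      ∃ (k : ℕ) (e : F), e ≠ 0 ∧ e ∈ W ∧ e⁻¹ ∈ W ∧ f = π ^ k * e := by
  induction n with
  | zero =>
    intro f hf0 hf h
    exfalso
    rw [pow_zero, one_mul] at h
    have h2 := rtk6glu_mul_mem_nonunits W hf h
    rw [mul_inv_cancel₀ hf0] at h2
    exact rtk6glu_one_not_mem W h2
  | succ n ih =>
    intro f hf0 hf h
    by_cases hfu : f ∈ W.nonunits
    · obtain ⟨z, hz, rfl⟩ := hU f hfu
      have hz0 : z ≠ 0 := right_ne_zero_of_mul hf0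
      have h' : π ^ n * z⁻¹ ∈ W.nonunits := by
        have e : π ^ (n + 1) * (π * z)⁻¹ = π ^ n * z⁻¹ := by
          rw [pow_succ, mul_inv]
          field_simp
        rwa [e] at h
      obtain ⟨k, e, he0, he, he', hze⟩ := ih z hz0 hz h'
      exact ⟨k + 1, e, he0, he, he', by rw [hze, pow_succ]; ring⟩
    · exact ⟨0, f, hf0, hf, rtk6glu_inv_mem W hf hfu, by rw [pow_zero, one_mul]⟩

/-- **The shape of the elements of `F`**: `f = π ^ k · e` or `f · π ^ k = e`, `e` a unit of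
`W`. -/
theorem rtk6glu_shape (W : ValuationSubring F) {π : F} (hπ0 : π ≠ 0) (hπW : π ∈ W.nonunits)
    (hU : ∀ x ∈ W.nonunits, ∃ z ∈ W, x = π * z)
    (harch : ∀ a x : F, a ∈ W.nonunits → ∃ N : ℕ, a ^ N * x ∈ W.nonunits)
    {f : F} (hf0 : f ≠ 0) :
    ∃ (k : ℕ) (e : F), e ≠ 0 ∧ e ∈ W ∧ e⁻¹ ∈ W ∧ (f = π ^ k * e ∨ f * π ^ k = e) := by
  rcases W.mem_or_inv_mem f with hf | hf
  · obtain ⟨N, hN⟩ := harch π f⁻¹ hπW
    obtain ⟨k, e, he0, he, he', hfe⟩ := rtk6glu_shape_mem W hπ0 hU N f hf0 hf hN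
    exact ⟨k, e, he0, he, he', Or.inl hfe⟩
  · have hf0' : f⁻¹ ≠ 0 := inv_ne_zero hf0
    obtain ⟨N, hN⟩ := harch π (f⁻¹)⁻¹ hπW
    obtain ⟨k, e, he0, he, he', hfe⟩ := rtk6glu_shape_mem W hπ0 hU N f⁻¹ hf0' hf hN
    refine ⟨k, e⁻¹, inv_ne_zero he0, he', by rwa [inv_inv], Or.inr ?_⟩
    have : f = (π ^ k * e)⁻¹ := by rw [← hfe, inv_inv]
    rw [this, mul_inv]
    have hπk : π ^ k ≠ 0 := pow_ne_zero _ hπ0
    field_simp

/-- **An automorphism preserving `W` and `π` (up to a unit) preserves the valuation.** -/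
theorem rtk6glu_val_eq_one (W : ValuationSubring F) {π : F} (hπ0 : π ≠ 0)
    (hπW : π ∈ W.nonunits) (hU : ∀ x ∈ W.nonunits, ∃ z ∈ W, x = π * z)
    (harch : ∀ a x : F, a ∈ W.nonunits → ∃ N : ℕ, a ^ N * x ∈ W.nonunits)
    (g : F ≃+* F) (hgW : ∀ x : F, x ∈ W → g x ∈ W)
    (hgπ : ∃ c : F, c ∈ W ∧ c⁻¹ ∈ W ∧ g π = c * π) (f : F) (hf0 : f ≠ 0) :
    W.valuation (g f / f) = 1 := by
  obtain ⟨c, hc, hc', hcπ⟩ := hgπ
  have hgπ0 : g π ≠ 0 := (map_ne_zero_iff g g.injective).mpr hπ0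
  have hc0 : c ≠ 0 := by
    rintro rfl
    rw [zero_mul] at hcπ
    exact hgπ0 hcπ
  have hvc : W.valuation c = 1 := rtk6glu_val_unit W hc0 hc hc'
  have hvg : ∀ e : F, e ≠ 0 → e ∈ W → e⁻¹ ∈ W → W.valuation (g e) = 1 := fun e he0 he he' =>
    rtk6glu_val_unit W ((map_ne_zero_iff g g.injective).mpr he0) (hgW e he) (by
      rw [← map_inv₀]
      exact hgW _ he')
  obtain ⟨k, e, he0, he, he', h | h⟩ := rtk6glu_shape W hπ0 hπW hU harch hf0
  · have e1 : g f / f = c ^ k * (g e / e) := by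
      rw [h, map_mul, map_pow, hcπ, mul_pow]
      have hπk : π ^ k ≠ 0 := pow_ne_zero _ hπ0
      field_simp
    rw [e1, map_mul, map_pow, hvc, one_pow, one_mul, map_div₀, hvg e he0 he he',
      rtk6glu_val_unit W he0 he he', div_one]
  · have hπk : π ^ k ≠ 0 := pow_ne_zero _ hπ0
    have hf : f = e / π ^ k := by rw [← h]; field_simp
    have e1 : g f / f = (g e / e) / c ^ k := by
      rw [hf, map_div₀, map_pow, hcπ, mul_pow]
      have hck : c ^ k ≠ 0 := pow_ne_zero _ hc0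
      field_simp
    rw [e1, map_div₀, map_div₀, map_pow, hvc, one_pow, div_one, hvg e he0 he he',
      rtk6glu_val_unit W he0 he he', div_one]

end Shape

section Stab

variable {O F : Type*} [CommRing O] [IsDomain O] [IsLocalRing O] [IsNoetherianRing O]
  [Field F] [Algebra O F] [IsFractionRing O F]

/-- **D-STAB, valuation form.** -/
theorem rtk6glu_stab_val (X Y : O) (hm : maximalIdeal O = Ideal.span {X, Y})
    (W : ValuationSubring F) (hOW : ∀ a : O, algebraMap O F a ∈ W)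
    (hXW : algebraMap O F X ∈ W.nonunits) (hYW : algebraMap O F Y ∉ W.nonunits)
    {π : F} (hπ0 : π ≠ 0) (hπW : π ∈ W.nonunits)
    (hU : ∀ x ∈ W.nonunits, ∃ z ∈ W, x = π * z)
    (harch : ∀ a x : F, a ∈ W.nonunits → ∃ N : ℕ, a ^ N * x ∈ W.nonunits)
    (g : F ≃+* F) (hgO : ∀ a : O, ∃ a' : O, g.symm (algebraMap O F a) = algebraMap O F a')
    (hgX : ∃ a : O, g.symm (algebraMap O F X) = algebraMap O F a * algebraMap O F X)
    (hgY : ∃ b : O, IsUnit b ∧ g.symm (algebraMap O F Y) = algebraMap O F b * algebraMap O F Y)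
    (hgπ : ∃ c : F, c ∈ W ∧ c⁻¹ ∈ W ∧ g π = c * π) (f : F) (hf0 : f ≠ 0) :
    W.valuation (g f / f) = 1 :=
  rtk6glu_val_eq_one W hπ0 hπW hU harch g
    (fun x hx => ((rtk6glu_stab_mem X Y hm W hOW hXW hYW g hgO hgX hgY x).1).mpr hx) hgπ f hf0

/-- **D-STAB for `g : SemilinearAut E F`**, in the form `hgV` / `hΦV` of `rtk6ew_main_two`. -/
theorem rtk6glu_stab_smul {E : Type*} [Field E] [Algebra E F] (X Y : O)
    (hm : maximalIdeal O = Ideal.span {X, Y})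
    (W : ValuationSubring F) (hOW : ∀ a : O, algebraMap O F a ∈ W)
    (hXW : algebraMap O F X ∈ W.nonunits) (hYW : algebraMap O F Y ∉ W.nonunits)
    {π : F} (hπ0 : π ≠ 0) (hπW : π ∈ W.nonunits)
    (hU : ∀ x ∈ W.nonunits, ∃ z ∈ W, x = π * z)
    (harch : ∀ a x : F, a ∈ W.nonunits → ∃ N : ℕ, a ^ N * x ∈ W.nonunits)
    (g : SemilinearAut E F)
    (hgO : ∀ a : O, ∃ a' : O, g⁻¹ • algebraMap O F a = algebraMap O F a')
    (hgX : ∃ a : O, g⁻¹ • algebraMap O F X = algebraMap O F a * algebraMap O F X)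
    (hgY : ∃ b : O, IsUnit b ∧ g⁻¹ • algebraMap O F Y = algebraMap O F b * algebraMap O F Y)
    (hgπ : ∃ c : F, c ∈ W ∧ c⁻¹ ∈ W ∧ g • π = c * π) (f : F) (hf0 : f ≠ 0) :
    W.valuation (g • f / f) = 1 :=
  rtk6glu_stab_val X Y hm W hOW hXW hYW hπ0 hπW hU harch (SemilinearAut.toRingAut g)
    hgO hgX hgY hgπ f hf0

end Stab

end Fermat.Agent.RT.K6
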