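/-
K-machine, piece K6, v5 (M4) D-STAB (helper79), CHART form.

`B` a noetherian chart (`Algebra B F`, injective, `F = Frac B`), `𝔫` a prime of `B` which is a
THIN CROSSING POINT: `w ϖ = X Y`, `w ∉ 𝔫`, `X, Y ∈ 𝔫`, `NodesLocGen 𝔫 {ϖ, X, Y}`.
`W ⊇ B` a vertical valuation ring through `𝔫` with uniformizer `ϖ`, archimedean, `X ∈ 𝔪(W)`.
`g : SemilinearAut E F` with `g⁻¹ B ⊆ B`, `g⁻¹ (B ∖ 𝔫) ⊆ B ∖ 𝔫`, `g⁻¹ X ∈ B X`,
`g⁻¹ Y ∈ (B ∖ 𝔫) Y`, `g ϖ ∈ W^× ϖ`.  Then `W.valuation (g • f / f) = 1` for all `f ≠ 0`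
(the hypothesis `hgV` / `hΦV` of `rtk6ew_main_two` at the component `W`).

* `rtk6glu_chart_hOW`  : `B_𝔫 ⊆ W` for `W` through `𝔫`;
* `rtk6glu_stab_chart` : the statement above.
-/
import Fermat.Agent.RT.K6.DGLStabVal
import Fermat.Agent.RT.K6.DLFPt

set_option autoImplicit false
set_option linter.style.haveILetI false
set_option linter.unusedSectionVars false
set_option linter.unusedVariables false

namespace Fermat.Agent.RT.K6

open Fermat.Agent.UNIP Fermat.Agent.STB Fermat.Agent.S36 AlgebraicCurve IsLocalRing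

section Chart

variable {E F : Type*} [Field E] [Field F] [Algebra E F] {B : Type*} [CommRing B] [Algebra B F]

/-- `B_𝔫 ⊆ W` for a valuation ring `W ⊇ B` through `𝔫` -/
theorem rtk6glu_chart_hOW (𝔫 : Ideal B) [h𝔫 : 𝔫.IsPrime]
    (W : ValuationSubring F) (hBW : ∀ b : B, algebraMap B F b ∈ W)
    (hthr : ∀ b : B, algebraMap B F b ∈ W.nonunits → b ∈ 𝔫)
    (a : ls_localSubring (F := F) 𝔫) : algebraMap (ls_localSubring (F := F) 𝔫) F a ∈ W := by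
  obtain ⟨b, s, hs, h⟩ := a.2
  have hsW : algebraMap B F s ∉ W.nonunits := fun h' => hs (hthr s h')
  have hsinv := rtk6glu_inv_mem W (hBW s) hsW
  have hs0 : algebraMap B F s ≠ 0 := fun h0 => hsW (h0 ▸ W.nonunits.zero_mem)
  have e : algebraMap (ls_localSubring (F := F) 𝔫) F a =
      (algebraMap B F s)⁻¹ * algebraMap B F b := by
    show (a : F) = _
    rw [← h]
    field_simp
  rw [e]
  exact W.mul_mem _ _ hsinv (hBW b)

/-- **D-STAB on the chart.** -/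
theorem rtk6glu_stab_chart [IsNoetherianRing B]
    (hinj : Function.Injective (algebraMap B F))
    (hfrac : ∀ x : F, ∃ a b : B, algebraMap B F b ≠ 0 ∧ x * algebraMap B F b = algebraMap B F a)
    (𝔫 : Ideal B) [h𝔫 : 𝔫.IsPrime]
    (ϖ : B) {X Y w : B} (hw : w ∉ 𝔫) (hXY : w * ϖ = X * Y) (hX𝔫 : X ∈ 𝔫) (hY𝔫 : Y ∈ 𝔫)
    (hgen : NodesLocGen 𝔫 {ϖ, X, Y})
    (W : ValuationSubring F) (hBW : ∀ b : B, algebraMap B F b ∈ W)
    (hthr : ∀ b : B, algebraMap B F b ∈ W.nonunits → b ∈ 𝔫)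
    (hXW : algebraMap B F X ∈ W.nonunits)
    (hϖ0 : algebraMap B F ϖ ≠ 0) (hϖW : algebraMap B F ϖ ∈ W.nonunits)
    (hU : ∀ x ∈ W.nonunits, ∃ z ∈ W, x = algebraMap B F ϖ * z)
    (harch : ∀ a x : F, a ∈ W.nonunits → ∃ N : ℕ, a ^ N * x ∈ W.nonunits)
    (g : SemilinearAut E F)
    (hgB : ∀ b : B, ∃ b' : B, g⁻¹ • algebraMap B F b = algebraMap B F b')
    (hg𝔫 : ∀ b b' : B, b ∉ 𝔫 → g⁻¹ • algebraMap B F b = algebraMap B F b' → b' ∉ 𝔫)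
    (hgX : ∃ a : B, g⁻¹ • algebraMap B F X = algebraMap B F (a * X))
    (hgY : ∃ b : B, b ∉ 𝔫 ∧ g⁻¹ • algebraMap B F Y = algebraMap B F (b * Y))
    (hgϖ : ∃ c : F, c ∈ W ∧ c⁻¹ ∈ W ∧ g • algebraMap B F ϖ = c * algebraMap B F ϖ)
    (f : F) (hf0 : f ≠ 0) : W.valuation (g • f / f) = 1 := by
  haveI : IsLocalRing (ls_localSubring (F := F) 𝔫) := ls_localSubring_isLocalRing hinj 𝔫
  haveI : IsNoetherianRing (ls_localSubring (F := F) 𝔫) := s36n2p_isNoetherianRing hinj 𝔫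
  haveI : IsFractionRing (ls_localSubring (F := F) 𝔫) F := by
    refine s36n2p_isFractionRing _ fun x => ?_
    obtain ⟨a, b, hb, h⟩ := hfrac x
    exact ⟨s36n2pToLoc (F := F) 𝔫 a, s36n2pToLoc (F := F) 𝔫 b, hb, h⟩
  have hm := rtk6lfp_cross_max (F := F) hinj 𝔫 ϖ hw hXY hX𝔫 hY𝔫 hgen
  have hOW := rtk6glu_chart_hOW 𝔫 W hBW hthr
  have h1 : (1 : B) ∉ 𝔫 := fun h => h𝔫.ne_top ((Ideal.eq_top_iff_one 𝔫).mpr h)
  have hunit : ∀ v : B, v ∉ 𝔫 → IsUnit (s36n2pToLoc (F := F) 𝔫 v) := fun v hv =>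
    ls_isUnit_of_not_mem hinj 𝔫 _ (b := v) (s := 1) hv h1 (by rw [map_one, one_mul]; rfl)
  -- `Y ∉ 𝔪(W)` by the dichotomy
  have hYW : algebraMap (ls_localSubring (F := F) 𝔫) F (s36n2pToLoc (F := F) 𝔫 Y) ∉
      W.nonunits := by
    have hXY' : algebraMap (ls_localSubring (F := F) 𝔫) F (s36n2pToLoc (F := F) 𝔫 w) *
        algebraMap B F ϖ = algebraMap (ls_localSubring (F := F) 𝔫) F (s36n2pToLoc (F := F) 𝔫 X) *
          algebraMap (ls_localSubring (F := F) 𝔫) F (s36n2pToLoc (F := F) 𝔫 Y) := by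
      show algebraMap B F w * algebraMap B F ϖ = algebraMap B F X * algebraMap B F Y
      rw [← map_mul, ← map_mul, hXY]
    rcases rtk6glu_dich W hOW hϖ0 hϖW hU (hunit w hw) hXY' with h | h
    · exact h.2
    · exact absurd hXW h.2
  refine rtk6glu_stab_smul (E := E) (s36n2pToLoc (F := F) 𝔫 X) (s36n2pToLoc (F := F) 𝔫 Y) hm W
    hOW hXW hYW hϖ0 hϖW hU harch g ?_ ?_ ?_ hgϖ f hf0
  · -- `g⁻¹ B_𝔫 ⊆ B_𝔫`
    intro a
    obtain ⟨b, s, hs, h⟩ := a.2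
    obtain ⟨b', hb'⟩ := hgB b
    obtain ⟨s', hs'⟩ := hgB s
    have hs'𝔫 : s' ∉ 𝔫 := hg𝔫 s s' hs hs'
    have hmem : g⁻¹ • (a : F) ∈ ls_localSubring (F := F) 𝔫 := by
      refine ⟨b', s', hs'𝔫, ?_⟩
      rw [← hs', ← hb', ← smul_mul', h]
    exact ⟨⟨_, hmem⟩, rfl⟩
  · obtain ⟨a, ha⟩ := hgX
    refine ⟨s36n2pToLoc (F := F) 𝔫 a, ?_⟩
    show g⁻¹ • algebraMap B F X = algebraMap B F a * algebraMap B F X
    rw [ha, map_mul]
  · obtain ⟨b, hb, hbY⟩ := hgY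
    refine ⟨s36n2pToLoc (F := F) 𝔫 b, hunit b hb, ?_⟩
    show g⁻¹ • algebraMap B F Y = algebraMap B F b * algebraMap B F Y
    rw [hbY, map_mul]

end Chart

end Fermat.Agent.RT.K6
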