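/-
K-machine, piece K6, piece **D-unr at exponents divisible by `3`** (helper37; S59 P3-STUDY, repair
(ii) of `NOTES/S59-p3/K6-helper4.md`): the Kummer cover `F_H / F₀(L)` is unramified at EVERY
place as soon as `2 ∣ L` and `gcd (d, 2 L) = 1` (instead of `gcd (d, 6 L) = 1` in `DUnr.lean`).

Reason: for `2 ∣ L` the Hauptmodul `h = hm2` of `X₀(2)` lies in `F₀(L)`, and the ramification of
`fieldBar L M H` over the `h`-line sits over `h = ∞, 0` (index `∣ L`) and `h = -64` (index `∣ 2`)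
only (`ES1.ramHH2_inf/_zero/_ell/_gen`, from `j h² = (h + 256)³`): over `j = 0`, i.e.
`h = -256`, `ord (h + 256) = 1` (`Γ₀(L)` has no elliptic point of order `3`).  So the ramification
witness of `rtk6unr_abs` is taken on the `h`-line.

* `rtk6unr3_hram` : the ramification witness at every place of `fieldBar L M H`;
* `rtk6unr3_bar`  : D-unr over `ℚ̄`;
* `rtk6unr3_nf`   : D-unr over an intermediate field `K₀ ⊆ ℚ̄`;
* `rtk6unr3_Y`    : the instance `u₀ = y_ψ ^ d` of piece D0.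
-/
import Fermat.Agent.RT.K6.DUnr
import Fermat.Agent.ES1.InjInstRamH

set_option autoImplicit false
set_option linter.style.haveILetI false
set_option linter.unusedSectionVars false
set_option linter.unusedVariables false
set_option synthInstance.maxHeartbeats 400000
set_option maxHeartbeats 1000000

noncomputable section

namespace Fermat.Agent.RT.K6

open HahnSeries ModularCurve AlgebraicCurve Polynomial IntermediateField
open Fermat.Agent.ES Fermat.Agent.ES1 Fermat.Agent.S24 Fermat.Agent.INJ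

section Bar3

variable (L M : ℕ) (H : Subgroup (ZMod M)ˣ) [NeZero L]

/-- the Hauptmodul of `X₀(2)` in `F₀(L)`, `2 ∣ L` -/
def rtk6unr3H (h2 : 2 ∣ L) : FF L := ⟨hm2 Kb, hm2_mem L h2⟩

theorem rtk6unr3Incl_H (h2 : 2 ∣ L) :
    rtk6unrIncl L M H (rtk6unr3H L h2) = hFH2 L M H h2 := by
  apply Subtype.ext
  rw [rtk6unrIncl_coe]
  rfl

/-- the ramification witness at every place of `fieldBar L M H`, `2 ∣ L`, `gcd (d, 2 L) = 1` -/
theorem rtk6unr3_hram (hML : M ∣ L) (h2 : 2 ∣ L) (d : ℕ) (hd : Nat.Coprime d (2 * L))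
    (w : Place Kb (fieldBar L M H)) :
    ∃ s : FF L, 0 < w.ord (rtk6unrIncl L M H s) ∧
      IsCoprime (w.ord (rtk6unrIncl L M H s)) (d : ℤ) := by
  have hR := stmtRamJH L M H hML
  have hd2' : Nat.Coprime d 2 := Nat.Coprime.coprime_mul_right_right hd
  have hdL : Nat.Coprime d L := Nat.Coprime.coprime_mul_left_right hd
  have hd2 : IsCoprime (2 : ℤ) (d : ℤ) := by
    exact_mod_cast Nat.isCoprime_iff_coprime.2 hd2'.symm
  have hdL' : IsCoprime (L : ℤ) (d : ℤ) := Nat.isCoprime_iff_coprime.2 hdL.symm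
  rcases lt_trichotomy (w.ord (hFH2 L M H h2)) 0 with hneg | hzero | hpos
  · -- over `h = ∞`
    refine ⟨(rtk6unr3H L h2)⁻¹, ?_, ?_⟩
    · rw [map_inv₀, rtk6unr3Incl_H, Place.ord_inv]
      omega
    · rw [map_inv₀, rtk6unr3Incl_H, Place.ord_inv]
      exact IsCoprime.of_isCoprime_of_dvd_left hdL'
        ((neg_dvd).2 (ramHH2_inf L M H h2 hR w hneg))
  · -- over a finite nonzero value of `h`
    obtain ⟨c₀, hc₀⟩ := ramHH2_cases L M H h2 hR w hzero.ge
    have hc0 : c₀ ≠ 0 := by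
      rintro rfl
      rw [map_zero, sub_zero, hzero] at hc₀
      exact lt_irrefl _ hc₀
    refine ⟨rtk6unr3H L h2 - algebraMap Kb (FF L) c₀, ?_, ?_⟩
    · rw [map_sub, rtk6unr3Incl_H, AlgHom.commutes]
      exact hc₀
    · rw [map_sub, rtk6unr3Incl_H, AlgHom.commutes]
      by_cases h64 : c₀ = -64
      · subst h64
        exact IsCoprime.of_isCoprime_of_dvd_left hd2 (ramHH2_ell L M H h2 hR w hc₀)
      · rw [ramHH2_gen L M H h2 hR c₀ hc0 h64 w hc₀]
        exact isCoprime_one_left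
  · -- over the cusp `h = 0`
    refine ⟨rtk6unr3H L h2, ?_, ?_⟩
    · rw [rtk6unr3Incl_H]
      exact hpos
    · rw [rtk6unr3Incl_H]
      exact IsCoprime.of_isCoprime_of_dvd_left hdL' (ramHH2_zero L M H h2 hR w hpos)

/-- **D-unr over `ℚ̄`, `2 ∣ L`.**  `y ∈ F_H(L)`, `y ^ d = u ∈ F₀(L)`, `gcd (d, 2 L) = 1`: then
`d ∣ ord_P u` at every place `P` of `F₀(L)`. -/
theorem rtk6unr3_bar (hML : M ∣ L) (h2 : 2 ∣ L) (d : ℕ) (hd : Nat.Coprime d (2 * L))
    (u : FF L) (y : LaurentSeries Kb) (hy : y ∈ fieldBar L M H)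
    (hyu : y ^ d = (u : LaurentSeries Kb)) (P : Place Kb (FF L)) :
    (d : ℤ) ∣ P.ord u := by
  have hFF := rtk6unr_ff1 L
  have hFF' := rtk6unr_ff1' L M H hML
  haveI := es1h_gen_hasPrincipalDivisors hFF'
  have hfin := es1h_gen_finiteAlong (rtk6unrIncl L M H) hFF hFF'
  have hn : finrankAlong Kb (rtk6unrIncl L M H) ≠ 0 := by
    letI := algebraAlong (rtk6unrIncl L M H)
    haveI : Module.Finite (FF L) (fieldBar L M H) := hfin
    exact (Module.finrank_pos (R := FF L) (M := fieldBar L M H)).ne'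
  refine rtk6unr_abs (rtk6unrIncl L M H) (es1h_gen_integral _ hFF hFF')
    (es1h_gen_fundamentalIdentityAlong _ hFF hFF') hn d (rtk6unr3_hram L M H hML h2 d hd) u
    ⟨y, hy⟩ ?_ P ?_
  · apply Subtype.ext
    rw [rtk6unrIncl_coe]
    exact hyu
  · rw [Fermat.Agent.ES.R.place_deg_eq_one P (es1h_gen_residue_bijective hFF P)]
    exact one_ne_zero

end Bar3

section NF3

variable (K₀ : IntermediateField ℚ NfQb) (L M : ℕ) (H : Subgroup (ZMod M)ˣ)

/-- **D-unr over an intermediate field `K₀ ⊆ ℚ̄`, `2 ∣ L`.**  `y ∈ fieldC K₀ L M H`,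
`y ^ d = u ∈ modularFunctionFieldFullC K₀ L`, `gcd (d, 2 L) = 1`: then `d ∣ ord_Q u` at every
place `Q` of the `Γ₀(L)`-field over `K₀`. -/
theorem rtk6unr3_nf (hL : L ≠ 0) (hML : M ∣ L) (h2 : 2 ∣ L) (d : ℕ)
    (hd : Nat.Coprime d (2 * L))
    (u : modularFunctionFieldFullC K₀ L) (y : LaurentSeries K₀) (hy : y ∈ fieldC K₀ L M H)
    (hyu : y ^ d = (u : LaurentSeries K₀)) (Q : Place K₀ (modularFunctionFieldFullC K₀ L)) :
    (d : ℤ) ∣ Q.ord u := by
  haveI : NeZero L := ⟨hL⟩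
  obtain ⟨v, hv⟩ := bgRam_hext K₀ L Q
  rw [← hv u]
  refine rtk6unr3_bar L M H hML h2 d hd (nfEmb K₀ L u) (coeffMap (algebraMap K₀ NfQb) y)
    (nfH_coeffMap_mem_bar K₀ L M H hy) ?_ v
  rw [nfEmb_coe, ← hyu, map_pow]

/-- **D-unr for the Kummer generator of piece D0, `2 ∣ L`**: `u₀ = y_ψ ^ d`, `ψ ^ d = 1`,
`gcd (d, 2 L) = 1`. -/
theorem rtk6unr3_Y [NeZero M] (hL : L ≠ 0) (hML : M ∣ L) (h2 : 2 ∣ L)
    (ψ : (ZMod M)ˣ →* (K₀)ˣ) (d : ℕ) (hd : Nat.Coprime d (2 * L))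
    (hmem : rtk6d0Y K₀ M H ⊤ ψ ^ d ∈ modularFunctionFieldFullC K₀ L)
    (Q : Place K₀ (modularFunctionFieldFullC K₀ L)) :
    (d : ℤ) ∣ Q.ord (⟨rtk6d0Y K₀ M H ⊤ ψ ^ d, hmem⟩ : modularFunctionFieldFullC K₀ L) :=
  rtk6unr3_nf K₀ L M H hL hML h2 d hd _ (rtk6d0Y K₀ M H ⊤ ψ) (rtk6d0Y_mem K₀ M H ⊤ ψ hML) rfl Q

end NF3

end Fermat.Agent.RT.K6

end
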