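/-
K-machine, piece K6, piece **E-MAIN** (helper18), part 2: **the targets `ChiFieldPPAt L M H r`,
`UnipFieldPPAt L M H r` of `RT/K6/EFinal.lean` from the data `Rtk6emData`** (`RT/K6/EMain.lean`)
at every `(A, K₁, σ, …)`.

The provider of the data chooses a finite set `S ⊆ ℚ̄` (depending on everything, also on `u`, `p`,
`k`: it may contain `ϖ₁`, the roots of unity and the toric constants); the field `K₁` is then
chosen here: a Galois number field containing `S`, a field of definition of `u` and over which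
the support of the divisor is rational (E-RAT, helper12); `E′ = ℚ̄^I · K₁`, `A′ = A ∩ E′` is a
discrete valuation ring, `σ` stabilises `E′`, and the diamonds `δ₀`, `δ′₀` of `F′` exist.

* `rtk6em_chiFieldPPAt`  : the data for `g = σ̂`, `Φ = δ′₀`, `y = rtk6eChi … u₀` ⇒
  `ChiFieldPPAt L M H r`;
* `rtk6em_unipFieldPPAt` : the data for `g = Φ = σ̂`, `y = σ̂ u₀ / u₀` ⇒ `UnipFieldPPAt L M H r`.
-/
import Fermat.Agent.RT.K6.EMain

set_option autoImplicit false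
set_option linter.style.haveILetI false
set_option linter.unusedSectionVars false
set_option linter.unusedVariables false

noncomputable section

namespace Fermat.Agent.RT.K6

open ModularCurve AlgebraicCurve Fermat.Agent.ES Fermat.Agent.ES.G2 Fermat.Agent.INJ
open Fermat.Agent.UNIP Fermat.Agent.STB Fermat.Agent.ES1 Fermat.Agent.ES1.G2 IntermediateField

section Final

variable {L M : ℕ} {H : Subgroup (ZMod M)ˣ} {r : ℕ}

/-- rationality of the support over `E ⊇ K₀`, in the form of `hrat` -/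
theorem rtk6em_hrat_of_rat {E : IntermediateField ℚ Qb} {x : fieldBar L M H}
    (hrat : ∀ u₀ : fieldC E L M H, nfEmbH E L M H u₀ = x →
      ∀ (Q : Place E (fieldC E L M H)) (s : E ≃+* E) (σ : Qb ≃ₐ[ℚ] Qb),
        (∀ a : E, σ (a : Qb) = ((s a : E) : Qb)) →
        (rtk6diGalGen L M H s • Q).ord u₀ ≠ 0 →
          ∀ f ∈ Q.toValuationSubring, ∃ c : E,
            f - algebraMap E (fieldC E L M H) c ∈ Q.toValuationSubring.nonunits)
    (x₀ : fieldC E L M H) (hx₀ : nfEmbH E L M H x₀ = x)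
    (P : Place E (fieldC E L M H)) (hP : P.ord x₀ ≠ 0) :
    ∀ f ∈ P.toValuationSubring, ∃ c : E,
      f - algebraMap E (fieldC E L M H) c ∈ P.toValuationSubring.nonunits := by
  have e : rtk6diGalGen L M H (1 : E ≃+* E) • P = P := by rw [map_one, one_smul]
  refine hrat x₀ hx₀ P 1 1 (fun a => rfl) ?_
  rw [e]
  exact hP

set_option maxHeartbeats 1600000 in
/-- **E-MAIN, (χ-K).**  `ChiFieldPPAt L M H r` from the data at every `(A, K₁, σ, δ₀, δ′₀, u₀)`,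
`K₁` a Galois number field containing a finite set chosen by the provider. -/
theorem rtk6em_chiFieldPPAt (hL : L ≠ 0) (hML : M ∣ L) (hr : r.Prime)
    (h : ∀ A : ValuationSubring Qb, A.LiesOverPrime r → ∀ p : ℕ, p.Prime → p ≠ r → ∀ k : ℕ,
      ∀ σ ∈ A.inertiaSubgroupIn ℚ, ∀ c : (ZMod M)ˣ, IsCycAt M r σ c →
      ∀ c' : (ZMod M)ˣ, IsAtR M r c' →
      ∀ u : fieldBar L M H, u ≠ 0 →
      (∀ P : Place QbH (fieldBar L M H), ((p ^ k : ℕ) : ℤ) ∣ P.ord u) →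
      ∃ S : Finset Qb, ∀ (K₁ : IntermediateField ℚ Qb) [NumberField K₁] [IsGalois ℚ K₁]
        [IsDiscreteValuationRing ↥(mgcA A K₁)], (∀ s ∈ S, s ∈ K₁) →
        ∀ (hσ : ∀ x ∈ mgcE A K₁, σ x ∈ mgcE A K₁)
          (δ₀ δ₀' : ↥(rtk6diF A K₁ L M H) ≃ₐ[↥(mgcE A K₁)] ↥(rtk6diF A K₁ L M H)),
          IsDiamondC ↥(mgcE A K₁) L M H c δ₀ → IsDiamondC ↥(mgcE A K₁) L M H c' δ₀' →
          ∀ u₀ : ↥(rtk6diF A K₁ L M H), nfEmbH (mgcE A K₁) L M H u₀ = u →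
            Rtk6emData A K₁ L M H (rtk6diGal L M H σ hσ) (SemilinearAut.ofAlgAut δ₀')
              (rtk6eChi (mgcE A K₁) L M H σ hσ δ₀ u₀) (p ^ k)) :
    ChiFieldPPAt L M H r := by
  intro A hA p hp hpr k σ hσI c hc c' hc' u hu hdiv
  obtain ⟨S, hS⟩ := h A hA p hp hpr k σ hσI c hc c' hc' u hu hdiv
  classical
  -- a number field of definition
  obtain ⟨K', hK'fin, hK'S, hK'⟩ := rtk6di_exists_descent L M H S {u}
  -- rationality of the support of `x = δ (σ u) / u`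
  obtain ⟨δ, hδ⟩ := rtk6diw_exists_diamondH (H := H) hL hML c
  have hx : rtk6eaX σ δ u ≠ 0 := rtk6eaX_ne_zero σ δ hu
  obtain ⟨K₁, hK'K₁, hK₁fin, hK₁gal, hrat⟩ :=
    rtk6rat_exists_field_rational L M H hL hML (rtk6eaX σ δ u) hx K' hK'fin
  haveI : NumberField K₁ := @NumberField.mk _ _ inferInstance hK₁fin
  haveI : IsGalois ℚ K₁ := hK₁gal
  haveI : Normal ℚ K₁ := hK₁gal.to_normal
  haveI : IsDiscreteValuationRing ↥(mgcA A K₁) := beta0Ring_isDVR_sup K₁ hr hA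
  have hK₁E : K₁ ≤ mgcE A K₁ := le_sup_right
  have hK'E : K' ≤ mgcE A K₁ := hK'K₁.trans hK₁E
  obtain ⟨u₀, hu₀⟩ := hK' (mgcE A K₁) hK'E u (Finset.mem_singleton_self u)
  have hσ : ∀ x ∈ mgcE A K₁, σ x ∈ mgcE A K₁ := mga_stable_beta0_sup hσI K₁
  have hu₀0 : u₀ ≠ 0 := by
    rintro rfl
    apply hu
    rw [← hu₀, map_zero]
  haveI : Algebra.IsAlgebraic ℚ Qb := AlgebraicClosure.isAlgebraic ℚ
  haveI : Algebra.IsAlgebraic ℚ ↥(mgcE A K₁) :=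
    Algebra.IsAlgebraic.of_injective (mgcE A K₁).val Subtype.val_injective
  haveI : NeZero M := ⟨fun h0 => hL (by rw [h0] at hML; exact Nat.eq_zero_of_zero_dvd hML)⟩
  -- the diamonds of `F′`
  obtain ⟨δ₀, hδ₀⟩ := rtk6d0_exists_diamond ↥(mgcE A K₁) H hL hML c
  obtain ⟨δ₀', hδ₀'⟩ := rtk6d0_exists_diamond ↥(mgcE A K₁) H hL hML c'
  -- the data
  have hD := hS K₁ (fun s hs => hK'K₁ (hK'S s hs)) hσ δ₀ δ₀' hδ₀ hδ₀' u₀ hu₀
  -- `x₀ = δ₀ (σ̂ u₀) / u₀` is a model of `x`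
  have hemb_x : nfEmbH (mgcE A K₁) L M H (δ₀ (rtk6diGal L M H σ hσ • u₀) / u₀)
      = rtk6eaX σ δ u := by
    rw [map_div₀, rtk6e_nfEmbH_diamond hδ₀ hδ, rtk6diGal_smul, nfEmbH_rtk6diAct, hu₀]
    rfl
  have hm : ∀ P : Place ↥(mgcE A K₁) ↥(rtk6diF A K₁ L M H), ((p ^ k : ℕ) : ℤ) ∣ P.ord u₀ := by
    refine rtk6rat_dvd_ord (mgcE A K₁) L M H _ u₀ ?_
    rw [hu₀]
    exact hdiv
  obtain ⟨h₀, hh₀⟩ := rtk6em_chi hL hML hr hA hp hpr hσI δ₀ hδ₀' hu₀0 k hm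
    (rtk6em_hrat_of_rat (hrat (mgcE A K₁) hK₁E) _ hemb_x) hD
  exact ⟨mgcE A K₁, hσ, δ₀, δ₀', u₀, hδ₀, hδ₀', hu₀, h₀, hh₀⟩

set_option maxHeartbeats 1600000 in
/-- **E-MAIN, (UNIP_H).**  `UnipFieldPPAt L M H r` from the data at every `(A, K₁, σ, u₀)`, `K₁`
a Galois number field containing a finite set chosen by the provider. -/
theorem rtk6em_unipFieldPPAt (hL : L ≠ 0) (hML : M ∣ L) (hr : r.Prime)
    (h : ∀ A : ValuationSubring Qb, A.LiesOverPrime r → ∀ p : ℕ, p.Prime → p ≠ r → ∀ k : ℕ,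
      ∀ σ ∈ A.inertiaSubgroupIn ℚ,
      ∀ u : fieldBar L M H, u ≠ 0 →
      (∀ P : Place QbH (fieldBar L M H), ((p ^ k : ℕ) : ℤ) ∣ P.ord u) →
      ∃ S : Finset Qb, ∀ (K₁ : IntermediateField ℚ Qb) [NumberField K₁] [IsGalois ℚ K₁]
        [IsDiscreteValuationRing ↥(mgcA A K₁)], (∀ s ∈ S, s ∈ K₁) →
        ∀ (hσ : ∀ x ∈ mgcE A K₁, σ x ∈ mgcE A K₁)
          (u₀ : ↥(rtk6diF A K₁ L M H)), nfEmbH (mgcE A K₁) L M H u₀ = u →
            Rtk6emData A K₁ L M H (rtk6diGal L M H σ hσ) (rtk6diGal L M H σ hσ)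
              (rtk6diGal L M H σ hσ • u₀ / u₀) (p ^ k)) :
    UnipFieldPPAt L M H r := by
  intro A hA p hp hpr k σ hσI u hu hdiv
  obtain ⟨S, hS⟩ := h A hA p hp hpr k σ hσI u hu hdiv
  classical
  obtain ⟨K', hK'fin, hK'S, hK'⟩ := rtk6di_exists_descent L M H S {u}
  obtain ⟨K₁, hK'K₁, hK₁fin, hK₁gal, hrat⟩ :=
    rtk6rat_exists_field_rational L M H hL hML u hu K' hK'fin
  haveI : NumberField K₁ := @NumberField.mk _ _ inferInstance hK₁fin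
  haveI : IsGalois ℚ K₁ := hK₁gal
  haveI : Normal ℚ K₁ := hK₁gal.to_normal
  haveI : IsDiscreteValuationRing ↥(mgcA A K₁) := beta0Ring_isDVR_sup K₁ hr hA
  have hK₁E : K₁ ≤ mgcE A K₁ := le_sup_right
  have hK'E : K' ≤ mgcE A K₁ := hK'K₁.trans hK₁E
  obtain ⟨u₀, hu₀⟩ := hK' (mgcE A K₁) hK'E u (Finset.mem_singleton_self u)
  have hσ : ∀ x ∈ mgcE A K₁, σ x ∈ mgcE A K₁ := mga_stable_beta0_sup hσI K₁
  have hu₀0 : u₀ ≠ 0 := by
    rintro rfl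
    apply hu
    rw [← hu₀, map_zero]
  have hD := hS K₁ (fun s hs => hK'K₁ (hK'S s hs)) hσ u₀ hu₀
  have hm : ∀ P : Place ↥(mgcE A K₁) ↥(rtk6diF A K₁ L M H), ((p ^ k : ℕ) : ℤ) ∣ P.ord u₀ := by
    refine rtk6rat_dvd_ord (mgcE A K₁) L M H _ u₀ ?_
    rw [hu₀]
    exact hdiv
  obtain ⟨h₀, hh₀⟩ := rtk6em_unip hL hML hr hA hp hpr hσI hu₀0 k hm
    (rtk6em_hrat_of_rat (hrat (mgcE A K₁) hK₁E) u₀ hu₀) hD
  exact ⟨mgcE A K₁, hσ, u₀, hu₀, h₀, hh₀⟩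

end Final

end Fermat.Agent.RT.K6
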