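/-
K-machine, piece K6, piece **E-INST** (helper18): the WIRING of the landed instances into the
data `Rtk6emData` of E-MAIN (`RT/K6/EMain.lean`, `RT/K6/EMainPP.lean`), at the level
`L = M₁ q` (`q` the prime, `q ∤ M₁`), for helper82's family `κ = rtk6dfK`, `V = rtk6dfV hπ M H w′`
of all conjugates of `V_∞`, `V_0 = V_∞.comap w′`, `w′ = rtk6diwW w₀ …` (helper96).

Landed instances used: (M1) `rtk6m1_emFam_W`, (M4-inst) `rtk6m4_emStab_g_W`,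
`rtk6m4_emStab_Φ_W` (helper82, from `hstab`), (M5) `rtk6m5_toric_chi_W`, `rtk6m5_toric_unip_W`
(helper96), `rtk6de0_isCycAt` (helper74).

**The open geometric inputs** are bundled in ONE Prop per `(A, K₁, π, g, Φ)`:

* `Rtk6eiGeom hπ w₀ hw₀ hM0 hq hqM' hζ g Φ` : `ss1` (SS1-inst), `node` (C4 + D-BC + FAM-res),
  `fix₁`, `fix₂`, `cong₁`, `cong₂` (FIX-inst) — each field is LITERALLY the Prop of `EMain.lean`
  at `V = rtk6dfV hπ M H (rtk6diwW w₀ hw₀ hM0 hq hqM' hζ)`;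
* `Rtk6m4Stab hπ M H w′` (HSTAB; `M4Inst.lean`) — only for (χ); in the case (U) (`H` contains
  the diamonds at `q`) it is proved here: `rtk6ei_stab_of_hat`.

**Results.**
* `rtk6ei_exists_finset` : a number field is contained in every field containing a suitable
  finite set;
* `rtk6ei_inputs_chi`, `rtk6ei_inputs_unip` : `Rtk6emInputs` from `Rtk6eiGeom` (+ `hstab`);
* `rtk6ei_isDiamondH_one`, `rtk6ei_isDiamondC_one`, `rtk6ei_diamondC_unique`,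
  `rtk6ei_stab_of_hat` : the diamonds of `±H` are trivial;
* `rtk6ei_chiFieldPPAt`  : `ChiFieldPPAt (M₁ q) M H q` from `Rtk6eiGeom` + `hstab` at every
  `(A, K₁ ⊇ K₀, π, σ, δ′₀)`;
* `rtk6ei_unipFieldPPAt` : `UnipFieldPPAt (M₁ q) M H q` from `Rtk6eiGeom` at every
  `(A, K₁ ⊇ K₀, π, σ)`, when `H` contains the diamonds at `q`.
-/
import Fermat.Agent.RT.K6.EMainPP
import Fermat.Agent.RT.K6.M4EMain
import Fermat.Agent.RT.K6.M5Em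
import Fermat.Agent.RT.K6.DE0
import Fermat.Agent.UNIP.MGData

set_option autoImplicit false
set_option linter.style.haveILetI false
set_option linter.unusedSectionVars false
set_option linter.unusedVariables false

noncomputable section

namespace Fermat.Agent.RT.K6

open ModularCurve AlgebraicCurve Fermat.Agent.ES Fermat.Agent.ES.G2 Fermat.Agent.INJ
open Fermat.Agent.UNIP Fermat.Agent.STB Fermat.Agent.ES1 Fermat.Agent.ES1.G2 IntermediateField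

/-! ### Finite sets and number fields -/

/-- a finite-dimensional intermediate field is contained in every intermediate field containing
a suitable finite set -/
theorem rtk6ei_exists_finset {F E : Type*} [Field F] [Field E] [Algebra F E]
    (K₀ : IntermediateField F E) [FiniteDimensional F K₀] :
    ∃ S : Finset E, ∀ K₁ : IntermediateField F E, (∀ s ∈ S, s ∈ K₁) → K₀ ≤ K₁ := by
  classical
  let b := Module.finBasis F K₀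
  refine ⟨Finset.univ.image (fun i => ((b i : K₀) : E)), fun K₁ h x hx => ?_⟩
  have key : ∀ y : K₀, (y : E) ∈ K₁ := by
    intro y
    rw [← b.sum_repr y]
    have : ((∑ i, (b.repr y i) • b i : K₀) : E) = ∑ i, (b.repr y i) • ((b i : K₀) : E) := by
      push_cast
      rfl
    rw [this]
    refine sum_mem (fun i _ => ?_)
    refine K₁.smul_mem ?_
    exact h _ (Finset.mem_image.mpr ⟨i, Finset.mem_univ i, rfl⟩)
  exact key ⟨x, hx⟩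

/-- the `q`-th roots of unity lie in every field containing a suitable finite set -/
theorem rtk6ei_exists_finset_roots (q : ℕ) (hq0 : 0 < q) :
    ∃ S : Finset Qb, ∀ K₁ : IntermediateField ℚ Qb, (∀ s ∈ S, s ∈ K₁) →
      ∀ ζ : Qb, ζ ^ q = 1 → ζ ∈ K₁ := by
  classical
  refine ⟨Polynomial.nthRootsFinset q (1 : Qb), fun K₁ h ζ hζ => ?_⟩
  exact h ζ ((Polynomial.mem_nthRootsFinset hq0 (1 : Qb)).2 hζ)

/-! ### Trivial diamonds -/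

section Trivial

variable {L M : ℕ} {H : Subgroup (ZMod M)ˣ}

/-- `S_{ac} = S_a` for `c ∈ ±H` -/
theorem rtk6ei_sS_mul (R : Type*) [CommRing R] (a : (ZMod M)ˣ) {c : (ZMod M)ˣ}
    (hc : c ∈ pmH H) : sS R M H (a * c) = sS R M H a :=
  es1f_sS_eq_of_inPM R (es1rc_inPM_mul_of_mem a hc)

/-- the diamond of `c ∈ ±H` on `fieldBar L M H` is the identity -/
theorem rtk6ei_isDiamondH_one {c : (ZMod M)ˣ} (hc : c ∈ pmH H) :
    IsDiamondH L M H c (1 : fieldBar L M H ≃ₐ[QbH] fieldBar L M H) where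
  fix_j := fun d _ _ x _ => rfl
  map_s := fun e _ a he x hx => by
    rw [rtk6ei_sS_mul QbH a hc]
    exact hx

/-- the diamond of `c ∈ ±H` on `fieldC K L M H` is the identity -/
theorem rtk6ei_isDiamondC_one (K : Type) [Field K] {c : (ZMod M)ˣ} (hc : c ∈ pmH H) :
    IsDiamondC K L M H c (1 : fieldC K L M H ≃ₐ[K] fieldC K L M H) where
  fix := fun f _ => rfl
  map_s := fun e _ he b => by
    rw [rtk6ei_sS_mul K b hc]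
    rfl

/-- the diamond of `c` on `fieldC K₀ L M H` is unique -/
theorem rtk6ei_diamondC_unique (hL : L ≠ 0) (hML : M ∣ L) {K₀ : IntermediateField ℚ Qb}
    {c : (ZMod M)ˣ} {δ₁ δ₂ : fieldC K₀ L M H ≃ₐ[K₀] fieldC K₀ L M H}
    (h₁ : IsDiamondC K₀ L M H c δ₁) (h₂ : IsDiamondC K₀ L M H c δ₂)
    (x : fieldC K₀ L M H) : δ₁ x = δ₂ x := by
  obtain ⟨δ, hδ⟩ := rtk6diw_exists_diamondH (H := H) hL hML c
  apply nfEmbH_injective K₀ L M H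
  rw [rtk6e_nfEmbH_diamond h₁ hδ, rtk6e_nfEmbH_diamond h₂ hδ]

end Trivial

/-! ### The open geometric inputs -/

section Geom

variable {A : ValuationSubring Qb} {K₁ : IntermediateField ℚ Qb}
  [IsDiscreteValuationRing ↥(mgcA A K₁)] {π : ↥(mgcA A K₁)} (hπ : Irreducible π)
  {q M₁ : ℕ} [NeZero q] [NeZero M₁] [NeZero (M₁ * q)]
  {M : ℕ} {H : Subgroup (ZMod M)ˣ}
  (w₀ : fieldBar (M₁ * q) M H ≃ₐ[Qb] fieldBar (M₁ * q) M H) (hw₀ : IsWAt (M₁ * q) M H q w₀)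
  (hM0 : M ≠ 0) (hq : q.Prime) (hqM' : q ∣ M)
  (hζ : ∀ ζ : Qb, ζ ^ q = 1 → ζ ∈ mgcE A K₁)

/-- **The open geometric inputs of piece E** at `(A, K₁, π)`, for the family
`V = rtk6dfV hπ M H w′`, `w′ = rtk6diwW w₀ …`, and the automorphisms `g`, `Φ` of `F′`:
(SS1-inst), (C4 + D-BC + FAM-res), (FIX-inst). -/
structure Rtk6eiGeom (g Φ : SemilinearAut ↥(mgcE A K₁) ↥(rtk6diF A K₁ (M₁ * q) M H)) : Prop where
  /-- (SS1-inst), helper79 -/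
  ss1 : Rtk6emSS1 A K₁ (M₁ * q) M H π
    (rtk6dfV hπ M H (rtk6diwW (K₀ := mgcE A K₁) w₀ hw₀ hM0 hq hqM' hζ))
  /-- (C4) + (D-BC) + (FAM-res) -/
  node : Rtk6emNode A K₁ (M₁ * q) M H π
    (rtk6dfV hπ M H (rtk6diwW (K₀ := mgcE A K₁) w₀ hw₀ hM0 hq hqM' hζ))
  /-- (FIX-inst), chart `j` -/
  fix₁ : Rtk6emFixAt A K₁ (M₁ * q) M H π
    (rtk6dfV hπ M H (rtk6diwW (K₀ := mgcE A K₁) w₀ hw₀ hM0 hq hqM' hζ)) g
    (rtk6diT A K₁ (M₁ * q) M H)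
  /-- (FIX-inst), chart `1 / j` -/
  fix₂ : Rtk6emFixAt A K₁ (M₁ * q) M H π
    (rtk6dfV hπ M H (rtk6diwW (K₀ := mgcE A K₁) w₀ hw₀ hM0 hq hqM' hζ)) g
    (rtk6diT A K₁ (M₁ * q) M H)⁻¹
  /-- (FIX-inst), chart `j` -/
  cong₁ : Rtk6emCongAt A K₁ (M₁ * q) M H π
    (rtk6dfV hπ M H (rtk6diwW (K₀ := mgcE A K₁) w₀ hw₀ hM0 hq hqM' hζ)) Φ
    (rtk6diT A K₁ (M₁ * q) M H)
  /-- (FIX-inst), chart `1 / j` -/
  cong₂ : Rtk6emCongAt A K₁ (M₁ * q) M H π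
    (rtk6dfV hπ M H (rtk6diwW (K₀ := mgcE A K₁) w₀ hw₀ hM0 hq hqM' hζ)) Φ
    (rtk6diT A K₁ (M₁ * q) M H)⁻¹

variable {hπ w₀ hw₀ hM0 hq hqM' hζ}

/-- **`Rtk6emInputs`, case (χ)**: `g = σ̂`, `Φ = δ′₀` a diamond at `q`. -/
theorem rtk6ei_inputs_chi (hqM : ¬ q ∣ M₁) (hA : A.LiesOverPrime q) (hML : M ∣ M₁ * q)
    (hstab : Rtk6m4Stab hπ M H (rtk6diwW (K₀ := mgcE A K₁) w₀ hw₀ hM0 hq hqM' hζ))
    {σ : Qb ≃ₐ[ℚ] Qb} (hσ : σ ∈ A.inertiaSubgroupIn ℚ)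
    (hσE : ∀ x ∈ mgcE A K₁, σ x ∈ mgcE A K₁) {c₀ : (ZMod M)ˣ} (hc₀ : IsCycAt M q σ c₀)
    {c' : (ZMod M)ˣ} (hc' : IsAtR M q c')
    {δ₀' : ↥(rtk6diF A K₁ (M₁ * q) M H) ≃ₐ[↥(mgcE A K₁)] ↥(rtk6diF A K₁ (M₁ * q) M H)}
    (hδ₀' : IsDiamondC ↥(mgcE A K₁) (M₁ * q) M H c' δ₀')
    (hG : Rtk6eiGeom hπ w₀ hw₀ hM0 hq hqM' hζ (rtk6diGal (M₁ * q) M H σ hσE)
      (SemilinearAut.ofAlgAut δ₀')) :
    Rtk6emInputs A K₁ (M₁ * q) M H π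
      (rtk6dfV hπ M H (rtk6diwW (K₀ := mgcE A K₁) w₀ hw₀ hM0 hq hqM' hζ))
      (rtk6diGal (M₁ * q) M H σ hσE) (SemilinearAut.ofAlgAut δ₀') where
  hπ := hπ
  fam := rtk6m1_emFam_W hπ (mgdIota (mgcE A K₁)) w₀ hw₀ hM0 hq hqM' hqM hζ hA hML
  ss1 := hG.ss1
  stab_g := rtk6m4_emStab_g_W hπ w₀ hw₀ hM0 hq hqM' hζ hML hstab hσ hσE hc₀
  stab_Φ := rtk6m4_emStab_Φ_W hπ w₀ hw₀ hM0 hq hqM' hζ hML hstab hc' hδ₀'
  node := hG.node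
  fix₁ := hG.fix₁
  fix₂ := hG.fix₂
  cong₁ := hG.cong₁
  cong₂ := hG.cong₂

/-- **`Rtk6emInputs`, case (U)**: `g = Φ = σ̂`. -/
theorem rtk6ei_inputs_unip (hqM : ¬ q ∣ M₁) (hA : A.LiesOverPrime q) (hML : M ∣ M₁ * q)
    (hstab : Rtk6m4Stab hπ M H (rtk6diwW (K₀ := mgcE A K₁) w₀ hw₀ hM0 hq hqM' hζ))
    {σ : Qb ≃ₐ[ℚ] Qb} (hσ : σ ∈ A.inertiaSubgroupIn ℚ)
    (hσE : ∀ x ∈ mgcE A K₁, σ x ∈ mgcE A K₁) {c₀ : (ZMod M)ˣ} (hc₀ : IsCycAt M q σ c₀)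
    (hG : Rtk6eiGeom hπ w₀ hw₀ hM0 hq hqM' hζ (rtk6diGal (M₁ * q) M H σ hσE)
      (rtk6diGal (M₁ * q) M H σ hσE)) :
    Rtk6emInputs A K₁ (M₁ * q) M H π
      (rtk6dfV hπ M H (rtk6diwW (K₀ := mgcE A K₁) w₀ hw₀ hM0 hq hqM' hζ))
      (rtk6diGal (M₁ * q) M H σ hσE) (rtk6diGal (M₁ * q) M H σ hσE) where
  hπ := hπ
  fam := rtk6m1_emFam_W hπ (mgdIota (mgcE A K₁)) w₀ hw₀ hM0 hq hqM' hqM hζ hA hML
  ss1 := hG.ss1
  stab_g := rtk6m4_emStab_g_W hπ w₀ hw₀ hM0 hq hqM' hζ hML hstab hσ hσE hc₀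
  stab_Φ := rtk6m4_emStab_g_W hπ w₀ hw₀ hM0 hq hqM' hζ hML hstab hσ hσE hc₀
  node := hG.node
  fix₁ := hG.fix₁
  fix₂ := hG.fix₂
  cong₁ := hG.cong₁
  cong₂ := hG.cong₂

variable (hπ w₀ hw₀ hM0 hq hqM' hζ)

/-- **(HSTAB) in the case (U)**: if `±H` contains the diamonds at `q`, these are the identity
of `F′`. -/
theorem rtk6ei_stab_of_hat (hML : M ∣ M₁ * q) (hat : ∀ c : (ZMod M)ˣ, IsAtR M q c → c ∈ pmH H)
    (w : ↥(rtk6diF A K₁ (M₁ * q) M H) ≃ₐ[↥(mgcE A K₁)] ↥(rtk6diF A K₁ (M₁ * q) M H)) :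
    Rtk6m4Stab hπ M H w := by
  intro c hc δ hδ x hx
  have h1 := rtk6ei_diamondC_unique (NeZero.ne (M₁ * q)) hML hδ
    (rtk6ei_isDiamondC_one (L := M₁ * q) ↥(mgcE A K₁) (hat c hc)) x
  rw [h1]
  exact hx

end Geom

/-! ### The targets of `EFinal.lean` at the level `M₁ q` -/

section Final

variable {q M₁ : ℕ} [NeZero q] [NeZero M₁] [NeZero (M₁ * q)] {M : ℕ} {H : Subgroup (ZMod M)ˣ}

set_option maxHeartbeats 1600000 in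
/-- **E-INST, (χ-K).**  `ChiFieldPPAt (M₁ q) M H q` from the open geometric inputs
(`hstab` and `Rtk6eiGeom` for `g = σ̂`, `Φ = δ′₀`) at every `(A, K₁ ⊇ K₀, π, σ, δ′₀)`. -/
theorem rtk6ei_chiFieldPPAt (hq : q.Prime) (hqM : ¬ q ∣ M₁) (hML : M ∣ M₁ * q) (hqM' : q ∣ M)
    (hM0 : M ≠ 0)
    (w₀ : fieldBar (M₁ * q) M H ≃ₐ[Qb] fieldBar (M₁ * q) M H) (hw₀ : IsWAt (M₁ * q) M H q w₀)
    (hG : ∀ A : ValuationSubring Qb, A.LiesOverPrime q →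
      ∃ K₀ : IntermediateField ℚ Qb, FiniteDimensional ℚ K₀ ∧
        ∀ (K₁ : IntermediateField ℚ Qb) [NumberField K₁] [IsGalois ℚ K₁]
          [IsDiscreteValuationRing ↥(mgcA A K₁)], K₀ ≤ K₁ →
          ∀ (hζ : ∀ ζ : Qb, ζ ^ q = 1 → ζ ∈ mgcE A K₁) {π : ↥(mgcA A K₁)}
            (hπ : Irreducible π),
            Rtk6m4Stab hπ M H (rtk6diwW (K₀ := mgcE A K₁) w₀ hw₀ hM0 hq hqM' hζ) ∧
            ∀ σ ∈ A.inertiaSubgroupIn ℚ, ∀ (hσE : ∀ x ∈ mgcE A K₁, σ x ∈ mgcE A K₁)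
              (c' : (ZMod M)ˣ), IsAtR M q c' →
              ∀ δ₀' : ↥(rtk6diF A K₁ (M₁ * q) M H) ≃ₐ[↥(mgcE A K₁)]
                  ↥(rtk6diF A K₁ (M₁ * q) M H),
                IsDiamondC ↥(mgcE A K₁) (M₁ * q) M H c' δ₀' →
                Rtk6eiGeom hπ w₀ hw₀ hM0 hq hqM' hζ (rtk6diGal (M₁ * q) M H σ hσE)
                  (SemilinearAut.ofAlgAut δ₀')) :
    ChiFieldPPAt (M₁ * q) M H q := by
  refine rtk6em_chiFieldPPAt (NeZero.ne _) hML hq ?_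
  intro A hA p hp hpr k σ hσI c hc c' hc' u hu hdiv
  obtain ⟨K₀, hK₀fin, hK₀⟩ := hG A hA
  have hn : p ^ k ≠ 0 := pow_ne_zero k hp.ne_zero
  obtain ⟨K₀', hK₀'fin, hK₀'⟩ := rtk6m5_toric_chi_W hML hw₀ hM0 hq hqM' A σ hσI hc hu hn
  haveI := hK₀fin
  haveI := hK₀'fin
  obtain ⟨S₁, hS₁⟩ := rtk6ei_exists_finset K₀
  obtain ⟨S₂, hS₂⟩ := rtk6ei_exists_finset K₀'
  obtain ⟨S₃, hS₃⟩ := rtk6ei_exists_finset_roots q hq.pos
  classical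
  refine ⟨S₁ ∪ S₂ ∪ S₃, ?_⟩
  intro K₁ _ _ _ hS hσE δ₀ δ₀' hδ₀ hδ₀' u₀ hu₀
  have h1 : K₀ ≤ K₁ :=
    hS₁ K₁ (fun s hs => hS s (Finset.mem_union_left _ (Finset.mem_union_left _ hs)))
  have h2 : K₀' ≤ K₁ :=
    hS₂ K₁ (fun s hs => hS s (Finset.mem_union_left _ (Finset.mem_union_right _ hs)))
  have hζ : ∀ ζ : Qb, ζ ^ q = 1 → ζ ∈ mgcE A K₁ := fun ζ h =>
    (le_sup_right : K₁ ≤ mgcE A K₁)
      (hS₃ K₁ (fun s hs => hS s (Finset.mem_union_right _ hs)) ζ h)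
  obtain ⟨π, hπ⟩ := IsDiscreteValuationRing.exists_irreducible ↥(mgcA A K₁)
  obtain ⟨hstab, hgeom⟩ := hK₀ K₁ h1 hζ hπ
  have hI := rtk6ei_inputs_chi hqM hA hML hstab hσI hσE hc hc' hδ₀'
    (hgeom σ hσI hσE c' hc' δ₀' hδ₀')
  have hT := hK₀' K₁ h2 hπ hζ hσE δ₀ hδ₀ u₀ hu₀
  exact ⟨π, _, _, hI, hT⟩

set_option maxHeartbeats 1600000 in
/-- **E-INST, (UNIP_H).**  `UnipFieldPPAt (M₁ q) M H q`, when `±H` contains the diamonds at `q`,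
from the open geometric inputs (`Rtk6eiGeom` for `g = Φ = σ̂`) at every `(A, K₁ ⊇ K₀, π, σ)`. -/
theorem rtk6ei_unipFieldPPAt (hq : q.Prime) (hqM : ¬ q ∣ M₁) (hML : M ∣ M₁ * q) (hqM' : q ∣ M)
    (hM0 : M ≠ 0) (hat : ∀ c : (ZMod M)ˣ, IsAtR M q c → c ∈ pmH H)
    (w₀ : fieldBar (M₁ * q) M H ≃ₐ[Qb] fieldBar (M₁ * q) M H) (hw₀ : IsWAt (M₁ * q) M H q w₀)
    (hG : ∀ A : ValuationSubring Qb, A.LiesOverPrime q →
      ∃ K₀ : IntermediateField ℚ Qb, FiniteDimensional ℚ K₀ ∧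
        ∀ (K₁ : IntermediateField ℚ Qb) [NumberField K₁] [IsGalois ℚ K₁]
          [IsDiscreteValuationRing ↥(mgcA A K₁)], K₀ ≤ K₁ →
          ∀ (hζ : ∀ ζ : Qb, ζ ^ q = 1 → ζ ∈ mgcE A K₁) {π : ↥(mgcA A K₁)}
            (hπ : Irreducible π),
            ∀ σ ∈ A.inertiaSubgroupIn ℚ, ∀ (hσE : ∀ x ∈ mgcE A K₁, σ x ∈ mgcE A K₁),
              Rtk6eiGeom hπ w₀ hw₀ hM0 hq hqM' hζ (rtk6diGal (M₁ * q) M H σ hσE)
                (rtk6diGal (M₁ * q) M H σ hσE)) :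
    UnipFieldPPAt (M₁ * q) M H q := by
  refine rtk6em_unipFieldPPAt (NeZero.ne _) hML hq ?_
  intro A hA p hp hpr k σ hσI u hu hdiv
  haveI : NeZero M := ⟨hM0⟩
  have hr2 : ¬ q ^ 2 ∣ M := fun h => hqM (by
    have h1 : q * q ∣ M₁ * q := by
      rw [← pow_two]
      exact h.trans hML
    exact (Nat.mul_dvd_mul_iff_right hq.pos).1 h1)
  obtain ⟨c, hc⟩ := rtk6de0_isCycAt hq hqM' hr2 A hA hσI
  have hδ1 : IsDiamondH (M₁ * q) M H c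
      (1 : fieldBar (M₁ * q) M H ≃ₐ[Qb] fieldBar (M₁ * q) M H) :=
    rtk6ei_isDiamondH_one (hat c hc.2)
  obtain ⟨K₀, hK₀fin, hK₀⟩ := hG A hA
  have hn : p ^ k ≠ 0 := pow_ne_zero k hp.ne_zero
  obtain ⟨K₀', hK₀'fin, hK₀'⟩ :=
    rtk6m5_toric_unip_W hML hw₀ hM0 hq hqM' A σ hσI hc hδ1 hu hn
  haveI := hK₀fin
  haveI := hK₀'fin
  obtain ⟨S₁, hS₁⟩ := rtk6ei_exists_finset K₀
  obtain ⟨S₂, hS₂⟩ := rtk6ei_exists_finset K₀'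
  obtain ⟨S₃, hS₃⟩ := rtk6ei_exists_finset_roots q hq.pos
  classical
  refine ⟨S₁ ∪ S₂ ∪ S₃, ?_⟩
  intro K₁ _ _ _ hS hσE u₀ hu₀
  have h1 : K₀ ≤ K₁ :=
    hS₁ K₁ (fun s hs => hS s (Finset.mem_union_left _ (Finset.mem_union_left _ hs)))
  have h2 : K₀' ≤ K₁ :=
    hS₂ K₁ (fun s hs => hS s (Finset.mem_union_left _ (Finset.mem_union_right _ hs)))
  have hζ : ∀ ζ : Qb, ζ ^ q = 1 → ζ ∈ mgcE A K₁ := fun ζ h =>
    (le_sup_right : K₁ ≤ mgcE A K₁)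
      (hS₃ K₁ (fun s hs => hS s (Finset.mem_union_right _ hs)) ζ h)
  obtain ⟨π, hπ⟩ := IsDiscreteValuationRing.exists_irreducible ↥(mgcA A K₁)
  have hstab := rtk6ei_stab_of_hat hπ hML hat
    (rtk6diwW (K₀ := mgcE A K₁) w₀ hw₀ hM0 hq hqM' hζ)
  have hI := rtk6ei_inputs_unip hqM hA hML hstab hσI hσE hc (hK₀ K₁ h1 hζ hπ σ hσI hσE)
  have hT := hK₀' K₁ h2 hπ hζ hσE u₀ hu₀
  exact ⟨π, _, _, hI, hT⟩

end Final

end Fermat.Agent.RT.K6
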