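import Fermat.Agent.RT.K6.SS1InstB
import Fermat.Agent.RT.K6.EInstGlue

/-!
# RT-K6 / SS1-inst (helper50): the providers `hSS1` of `rtk6ei_geomUnip_of_pieces` and
`rtk6ei_geomChi_of_pieces` (`RT/K6/EInstGlue.lean`, helper18)

* `rtk6sj_ev` : `Rtk6eiEv q A (fun K₁ _ hζ π hπ => Rtk6emSS1 A K₁ (M₁ q) M H π V)` at a tame
  rigid level, with `K₀ = ⊥` (no enlargement of `K₁` is needed);
* `rtk6sj_hSS1_unip`, `rtk6sj_hSS1_chi` : the LITERAL hypotheses `hSS1` of the two glue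
  theorems.
-/

set_option autoImplicit false
set_option linter.style.haveILetI false
set_option linter.unusedSectionVars false
set_option linter.unusedVariables false

noncomputable section

namespace Fermat.Agent.RT.K6

open ModularCurve AlgebraicCurve Fermat.Agent.ES Fermat.Agent.ES.G2 Fermat.Agent.INJ
open Fermat.Agent.UNIP Fermat.Agent.STB Fermat.Agent.ES1 Fermat.Agent.ES1.G2 Fermat.Agent.AL
open IntermediateField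

/-- **(SS1-inst), for all `K₁`** (`K₀ = ⊥`). -/
theorem rtk6sj_ev (q M₁ : ℕ) [NeZero q] [NeZero M₁] [NeZero (M₁ * q)] (M : ℕ)
    (H : Subgroup (ZMod M)ˣ) (hq : q.Prime) (hqM' : q ∣ M) (hM0 : M ≠ 0) (hqM : ¬ q ∣ M₁)
    (hML : M ∣ M₁ * q) (htame : IsTameAt (M₁ * q) M q H) (h4 : 4 ∣ M₁ * q)
    (w₀ : fieldBar (M₁ * q) M H ≃ₐ[Qb] fieldBar (M₁ * q) M H)
    (hw₀ : IsWAt (M₁ * q) M H q w₀) (A : ValuationSubring Qb) (hA : A.LiesOverPrime q) :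
    Rtk6eiEv q A (fun K₁ _ hζ π hπ => Rtk6emSS1 A K₁ (M₁ * q) M H π
      (rtk6dfV hπ M H (rtk6diwW (K₀ := mgcE A K₁) w₀ hw₀ hM0 hq hqM' hζ))) :=
  ⟨⊥, inferInstance, fun K₁ _ _ _ _ hζ π hπ =>
    rtk6sj_emSS1_tame hπ (mgdIota (mgcE A K₁)) w₀ hw₀ hM0 hq hqM' hqM hζ hA hML htame h4⟩

/-- **`hSS1` of `rtk6ei_geomUnip_of_pieces`**, literally. -/
theorem rtk6sj_hSS1_unip :
    ∀ (q M₁ : ℕ) [NeZero q] [NeZero M₁] [NeZero (M₁ * q)] (M : ℕ)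
      (H : Subgroup (ZMod M)ˣ) (hq : q.Prime) (hqM' : q ∣ M) (hM0 : M ≠ 0), ¬ q ∣ M₁ →
      M ∣ M₁ * q → (∀ c : (ZMod M)ˣ, IsAtR M q c → c ∈ pmH H) → IsTameAt (M₁ * q) M q H →
      4 ∣ M₁ * q →
      ∀ (w₀ : fieldBar (M₁ * q) M H ≃ₐ[Qb] fieldBar (M₁ * q) M H)
        (hw₀ : IsWAt (M₁ * q) M H q w₀) (A : ValuationSubring Qb), A.LiesOverPrime q →
        Rtk6eiEv q A (fun K₁ _ hζ π hπ => Rtk6emSS1 A K₁ (M₁ * q) M H π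
          (rtk6dfV hπ M H (rtk6diwW (K₀ := mgcE A K₁) w₀ hw₀ hM0 hq hqM' hζ))) :=
  fun q M₁ _ _ _ M H hq hqM' hM0 hqM hML _ htame h4 w₀ hw₀ A hA =>
    rtk6sj_ev q M₁ M H hq hqM' hM0 hqM hML htame h4 w₀ hw₀ A hA

/-- **`hSS1` of `rtk6ei_geomChi_of_pieces`**, literally. -/
theorem rtk6sj_hSS1_chi :
    ∀ (q M₁ : ℕ) [NeZero q] [NeZero M₁] [NeZero (M₁ * q)] (M : ℕ)
      (H : Subgroup (ZMod M)ˣ) (hq : q.Prime) (hqM' : q ∣ M) (hM0 : M ≠ 0), ¬ q ∣ M₁ →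
      M ∣ M₁ * q → IsStarStable M q H → IsTameAt (M₁ * q) M q H → 4 ∣ M₁ * q →
      ∀ (w₀ : fieldBar (M₁ * q) M H ≃ₐ[Qb] fieldBar (M₁ * q) M H)
        (hw₀ : IsWAt (M₁ * q) M H q w₀) (A : ValuationSubring Qb), A.LiesOverPrime q →
        Rtk6eiEv q A (fun K₁ _ hζ π hπ => Rtk6emSS1 A K₁ (M₁ * q) M H π
          (rtk6dfV hπ M H (rtk6diwW (K₀ := mgcE A K₁) w₀ hw₀ hM0 hq hqM' hζ))) :=
  fun q M₁ _ _ _ M H hq hqM' hM0 hqM hML _ htame h4 w₀ hw₀ A hA =>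
    rtk6sj_ev q M₁ M H hq hqM' hM0 hqM hML htame h4 w₀ hw₀ A hA

end Fermat.Agent.RT.K6

end
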