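import Fermat.Agent.UNIP.CoordTransport

/-!
# RT-K6 / E-W, part 1 — coordinate functions at the moved points of a tube, `g • q = c * q`

Forks of `UNIP.unip_deep_smul`, `unip_coord_node_gen` (UNIP/CoordGen.lean), `unip_hcoord_node`
(UNIP/CoordChart.lean) and `unip_hcoord_of_nodes` (UNIP/CoordTransport.lean) in which the
hypothesis `hgq : g • q = q` is replaced by `hgq : ∃ c : A₀, g • q = c * q`
(`rtk6ew_smul_dvd` : it follows from `hgA`, `hgA'`, i.e. from `g A₀ = A₀`).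
The coordinates `X`, `Y` need not be fixed by `g` (as in the originals): it is enough that `g`
preserves the two vertical valuations (`hgV`).

Use: K6 over the ramified base `A′ ∋ ϖ₁`, `ϖ₁ ^ d = r`, where `σ ϖ₁ = ζ ϖ₁`, `σ x₂ = ζ x₂`.
-/

set_option autoImplicit false
set_option linter.style.haveILetI false
set_option linter.unusedSectionVars false
set_option linter.unusedVariables false

namespace Fermat.Agent.RT.K6

open AlgebraicCurve IntermediateField Polynomial Fermat.Agent.S24 Fermat.Agent.INJ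
  Fermat.Agent.UNIP

section EWAssoc

variable {A₀ E Lf : Type*} [CommRing A₀] [IsDomain A₀] [IsDiscreteValuationRing A₀]
  [Field E] [CharZero E] [Algebra A₀ E] [IsFractionRing A₀ E]
  [Field Lf] [Algebra E Lf] [Algebra A₀ Lf] [IsScalarTower A₀ E Lf]

/-- if `g` and `g⁻¹` preserve `A₀`, then `g` maps units of `A₀` to units of `A₀` -/
theorem rtk6ew_smul_unit (g : SemilinearAut E Lf)
    (hgA : ∀ α : A₀, ∃ α' : A₀, g • algebraMap A₀ Lf α = algebraMap A₀ Lf α')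
    {w w' : A₀} (hw : IsUnit w) (hww' : g • algebraMap A₀ Lf w = algebraMap A₀ Lf w') :
    IsUnit w' := by
  obtain ⟨v, hv⟩ := hw.exists_right_inv
  obtain ⟨v', hv'⟩ := hgA v
  refine IsUnit.of_mul_eq_one v' ?_
  apply unip_algebraMap_injective E (A₀ := A₀) (Lf := Lf)
  rw [map_mul, ← hww', ← hv', ← smul_mul', ← map_mul, hv, map_one, smul_one]

/-- if `g` and `g⁻¹` preserve `A₀`, then `g • π = c * π` for a uniformizer `π`. -/
theorem rtk6ew_smul_irreducible (g : SemilinearAut E Lf)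
    (hgA : ∀ α : A₀, ∃ α' : A₀, g • algebraMap A₀ Lf α = algebraMap A₀ Lf α')
    (hgA' : ∀ α : A₀, ∃ α' : A₀, g⁻¹ • algebraMap A₀ Lf α = algebraMap A₀ Lf α')
    {π : A₀} (hπ : Irreducible π) :
    ∃ c : A₀, g • algebraMap A₀ Lf π = algebraMap A₀ Lf (c * π) := by
  obtain ⟨π', hπ'⟩ := hgA π
  have hnu : ¬ IsUnit π' := by
    intro hu
    have h1 : g⁻¹ • algebraMap A₀ Lf π' = algebraMap A₀ Lf π := by
      rw [← hπ', inv_smul_smul]
    exact hπ.not_isUnit (rtk6ew_smul_unit g⁻¹ hgA' hu h1)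
  have hmem : π' ∈ IsLocalRing.maximalIdeal A₀ := (IsLocalRing.mem_maximalIdeal _).mpr hnu
  rw [hπ.maximalIdeal_eq, Ideal.mem_span_singleton] at hmem
  obtain ⟨c, hc⟩ := hmem
  exact ⟨c, by rw [hπ', hc, mul_comm]⟩

/-- **`g • q = c * q`** for every `q ∈ A₀`, if `g` and `g⁻¹` preserve the DVR `A₀`. -/
theorem rtk6ew_smul_dvd (g : SemilinearAut E Lf)
    (hgA : ∀ α : A₀, ∃ α' : A₀, g • algebraMap A₀ Lf α = algebraMap A₀ Lf α')
    (hgA' : ∀ α : A₀, ∃ α' : A₀, g⁻¹ • algebraMap A₀ Lf α = algebraMap A₀ Lf α')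
    (q : A₀) : ∃ c : A₀, g • algebraMap A₀ Lf q = algebraMap A₀ Lf (c * q) := by
  by_cases hq0 : q = 0
  · exact ⟨1, by rw [hq0, mul_zero, map_zero, smul_zero]⟩
  obtain ⟨π, hπ⟩ := IsDiscreteValuationRing.exists_irreducible A₀
  obtain ⟨e, w, hw⟩ := IsDiscreteValuationRing.associated_pow_irreducible hq0 hπ
  -- hw : q * w = π ^ e
  obtain ⟨c, hc⟩ := rtk6ew_smul_irreducible g hgA hgA' hπ
  obtain ⟨w', hw'⟩ := hgA ((w⁻¹ : A₀ˣ) : A₀)
  have hq : q = π ^ e * ((w⁻¹ : A₀ˣ) : A₀) := by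
    rw [← hw, mul_assoc, Units.mul_inv, mul_one]
  refine ⟨c ^ e * w' * (w : A₀), ?_⟩
  have h1 : g • algebraMap A₀ Lf q = algebraMap A₀ Lf ((c * π) ^ e * w') := by
    conv_lhs => rw [hq]
    rw [map_mul, map_pow, smul_mul', smul_pow', hc, hw', ← map_pow, ← map_mul]
  rw [h1]
  congr 1
  have h2 : (w : A₀) * q = π ^ e := by rw [mul_comm]; exact hw
  calc (c * π) ^ e * w' = c ^ e * w' * π ^ e := by ring
    _ = c ^ e * w' * ((w : A₀) * q) := by rw [h2]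
    _ = c ^ e * w' * (w : A₀) * q := by ring

/-- divisibility by a power of `q` is preserved by `g` if `g • q = c * q` -/
theorem rtk6ew_dvd_of_smul (g : SemilinearAut E Lf)
    (hgA : ∀ α : A₀, ∃ α' : A₀, g • algebraMap A₀ Lf α = algebraMap A₀ Lf α')
    (q : A₀) (hgq : ∃ c : A₀, g • algebraMap A₀ Lf q = algebraMap A₀ Lf (c * q)) (n : ℕ)
    {α β : A₀} (hαβ : g • algebraMap A₀ Lf α = algebraMap A₀ Lf β) (h : q ^ n ∣ α) :
    q ^ n ∣ β := by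
  obtain ⟨a, rfl⟩ := h
  obtain ⟨a', ha'⟩ := hgA a
  obtain ⟨c, hc⟩ := hgq
  refine ⟨c ^ n * a', ?_⟩
  apply unip_algebraMap_injective E (A₀ := A₀) (Lf := Lf)
  rw [← hαβ, map_mul, map_pow, smul_mul', smul_pow', hc, ha', ← map_pow, ← map_mul]
  congr 1
  ring

end EWAssoc

section EWMainGen

variable {A₀ E Lf B : Type*} [CommRing A₀] [IsDomain A₀] [IsDiscreteValuationRing A₀]
  [Field E] [CharZero E] [Algebra A₀ E] [IsFractionRing A₀ E]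
  [Field Lf] [Algebra E Lf] [Algebra A₀ Lf] [IsScalarTower A₀ E Lf]
  [CommRing B] [Algebra B Lf] [Algebra A₀ B] [IsScalarTower A₀ B Lf]

/-- a `g`-translate of a deep coordinate is deep: the core of `unip_coord_node_gen`. -/
theorem rtk6ew_deep_smul [IsNoetherianRing B] {π : A₀} (hπ : Irreducible π) (τ : Lf)
    (hinj : Function.Injective (algebraMap B Lf))
    (𝔫 : Ideal B) [𝔫.IsPrime] (hπ𝔫 : algebraMap A₀ B π ∈ 𝔫)
    (𝔭 : Ideal B) [𝔭.IsPrime] (h𝔭 : 𝔭 ≤ 𝔫) (hπ𝔭 : algebraMap A₀ B π ∈ 𝔭)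
    (g : SemilinearAut E Lf)
    (hgB₀' : ∀ b : B, ∃ b' : B, g⁻¹ • algebraMap B Lf b = algebraMap B Lf b')
    (hgA : ∀ α : A₀, ∃ α' : A₀, g • algebraMap A₀ Lf α = algebraMap A₀ Lf α')
    (hgV : ∀ f : Lf, f ≠ 0 →
      ∃ s s' : B, s ∉ 𝔭 ∧ s' ∉ 𝔭 ∧ algebraMap B Lf s * (g • f / f) = algebraMap B Lf s')
    (q : A₀) (hq0 : q ≠ 0) (hgq : ∃ c : A₀, g • algebraMap A₀ Lf q = algebraMap A₀ Lf (c * q)) (n' : ℕ)
    (X Y G : B) (hX : X ∈ 𝔭) (hY : Y ∉ 𝔭) (hY𝔫 : Y ∈ 𝔫)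
    (hXY : X * Y = algebraMap A₀ B q ^ n' * G)
    (hgen : NodesLocGen 𝔫 {algebraMap A₀ B π, X, Y})
    (P : Place E Lf) (hP : UnipTubePoint τ 𝔫 P) (evP evQ : B →ₐ[A₀] A₀)
    (hevP : ∀ b : B,
      algebraMap B Lf b - algebraMap A₀ Lf (evP b) ∈ P.toValuationSubring.nonunits)
    (hevQ : ∀ b : B,
      algebraMap B Lf b - algebraMap A₀ Lf (evQ b) ∈ (g • P).toValuationSubring.nonunits)
    (hdeep : q ^ n' ∣ evP X) : q ^ n' ∣ evQ X := by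
  haveI : IsDomain B := hinj.isDomain (algebraMap B Lf)
  have hπ0 : algebraMap A₀ B π ≠ 0 := by
    intro h
    apply unip_algebraMap_irreducible_ne_zero (E) (Lf := Lf) hπ
    rw [IsScalarTower.algebraMap_apply A₀ B Lf, h, map_zero]
  -- `q ^ n'` is associated to a power of `π`
  obtain ⟨e, w, hw⟩ := IsDiscreteValuationRing.associated_pow_irreducible hq0 hπ
  -- hw : q * w = π ^ e
  have hqπ : q ^ n' * ((w : A₀) ^ n') = π ^ (e * n') := by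
    rw [← mul_pow, hw, ← pow_mul]
  have hπq : π ^ (e * n') * (((w⁻¹ : A₀ˣ) : A₀) ^ n') = q ^ n' := by
    rw [← hqπ, mul_assoc, ← mul_pow, Units.mul_inv, one_pow, mul_one]
  have hXY' : X * Y = algebraMap A₀ B (π ^ (e * n')) *
      (algebraMap A₀ B (((w⁻¹ : A₀ˣ) : A₀) ^ n') * G) := by
    rw [← mul_assoc, ← map_mul, hπq, map_pow]
    exact hXY
  have hdeep' : π ^ (e * n') ∣ evP X := by
    rw [← hqπ]
    exact (Units.mul_right_dvd (u := w ^ n') (a := q ^ n') (b := evP X)).mpr hdeep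
  have hB := unip_vert_ev_dvd (A := A₀) 𝔫 𝔭 h𝔭 π hπ0 hπ𝔭 evP
    (fun b hb => unip_tubeEv_mem_of_dvd hinj hπ𝔫 hP evP hevP b hb)
    (fun α hα => by
      by_contra hnu
      have : α ∈ IsLocalRing.maximalIdeal A₀ := (IsLocalRing.mem_maximalIdeal _).mpr hnu
      rw [hπ.maximalIdeal_eq, Ideal.mem_span_singleton] at this
      exact hα this)
    X Y _ (e * n') hX hY hY𝔫 hXY' hgen hdeep' (e * n') le_rfl
  -- the translate `g⁻¹ X`
  obtain ⟨Xg, hXg⟩ := hgB₀' X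
  have hgXg : g • algebraMap B Lf Xg = algebraMap B Lf X := by
    rw [← hXg, smul_inv_smul]
  by_cases hX0 : X = 0
  · -- degenerate: `X = 0`, then `Xg = 0`
    have : Xg = 0 := by
      apply hinj
      rw [← hXg, hX0, map_zero, smul_zero]
    have h1 := unip_tubeEv_smul_gen g hgA P evP evQ hevP hevQ X Xg hgXg
    rw [this, map_zero, map_zero, smul_zero] at h1
    have : evQ X = 0 := unip_algebraMap_injective E (A₀ := A₀) (Lf := Lf) (by rw [← h1, map_zero])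
    rw [this]
    exact dvd_zero _
  have hXgL : algebraMap B Lf Xg ≠ 0 := by
    intro h
    apply hX0
    apply hinj
    rw [← hgXg, h, smul_zero, map_zero]
  obtain ⟨s, s', hs, hs', hss⟩ := hgV (algebraMap B Lf Xg) hXgL
  rw [hgXg] at hss
  have hss' : s * X = s' * Xg := by
    apply hinj
    rw [map_mul, map_mul, ← hss]
    field_simp
  have hdvdXg : π ^ (e * n') ∣ evP Xg := by
    refine hB Xg (s' * Y) (s * (algebraMap A₀ B (((w⁻¹ : A₀ˣ) : A₀) ^ n') * G)) ?_ ?_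
    · exact fun h => (Ideal.IsPrime.mem_or_mem inferInstance h).elim hs' hY
    · linear_combination (-Y) * hss' + s * hXY'
  have hdvdXg' : q ^ n' ∣ evP Xg := by
    rw [← hπq]
    exact (Units.mul_right_dvd (u := (w⁻¹) ^ n') (a := π ^ (e * n')) (b := evP Xg)).mpr hdvdXg
  exact rtk6ew_dvd_of_smul g hgA q hgq n'
    (unip_tubeEv_smul_gen g hgA P evP evQ hevP hevQ X Xg hgXg) hdvdXg'

/-- **Coord, crossing point, general `g` (thick nodes included).**  `g` preserves the tube of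
`𝔫`, the constants `A₀`, `q`, and the valuations of the two branches `𝔭₁, 𝔭₂` through `𝔫`
(`hgV₁`, `hgV₂`: the hypothesis `hgV` of `ls_local_factor_chart`).  Stage data for every `n ≥ 1`
(`unip_morse_iter_vert` over the unramified chart, transported to `B`).  Then every rational
point `P` of the tube of `𝔫` with `g • P ≠ P` has a coordinate function. -/
theorem rtk6ew_coord_node_gen [IsNoetherianRing B] {π : A₀} (hπ : Irreducible π) (τ : Lf)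
    (hτ : Transcendental E τ) [FiniteDimensional E⟮τ⟯ Lf]
    (hinj : Function.Injective (algebraMap B Lf))
    (hB : ∀ x : Lf, x ∈ (algebraMap B Lf).range ↔ IsIntegral (Algebra.adjoin A₀ {τ}) x)
    (𝔫 : Ideal B) [𝔫.IsPrime] (hπ𝔫 : algebraMap A₀ B π ∈ 𝔫)
    (𝔭₁ 𝔭₂ : Ideal B) [𝔭₁.IsPrime] [𝔭₂.IsPrime] (h1 : 𝔭₁ ≤ 𝔫) (h2 : 𝔭₂ ≤ 𝔫)
    (hπ1 : algebraMap A₀ B π ∈ 𝔭₁) (hπ2 : algebraMap A₀ B π ∈ 𝔭₂)
    (g : SemilinearAut E Lf) (hgτ : g • τ = τ)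
    (hgB : ∀ b : B, b ∈ 𝔫 → ∃ b' : B, b' ∈ 𝔫 ∧ g • algebraMap B Lf b = algebraMap B Lf b')
    (hgB₀' : ∀ b : B, ∃ b' : B, g⁻¹ • algebraMap B Lf b = algebraMap B Lf b')
    (hgA : ∀ α : A₀, ∃ α' : A₀, g • algebraMap A₀ Lf α = algebraMap A₀ Lf α')
    (hgV₁ : ∀ f : Lf, f ≠ 0 →
      ∃ s s' : B, s ∉ 𝔭₁ ∧ s' ∉ 𝔭₁ ∧ algebraMap B Lf s * (g • f / f) = algebraMap B Lf s')
    (hgV₂ : ∀ f : Lf, f ≠ 0 →
      ∃ s s' : B, s ∉ 𝔭₂ ∧ s' ∉ 𝔭₂ ∧ algebraMap B Lf s * (g • f / f) = algebraMap B Lf s')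
    (q : A₀) (hq0 : q ≠ 0) (hqπ : π ∣ q)
    (hgq : ∃ c : A₀, g • algebraMap A₀ Lf q = algebraMap A₀ Lf (c * q))
    (hstage : ∀ n : ℕ, 1 ≤ n → ∃ (n' : ℕ) (X Y G : B), X ∈ 𝔭₁ ∧ Y ∈ 𝔭₂ ∧ X ∉ 𝔭₂ ∧ Y ∉ 𝔭₁ ∧
      X * Y = algebraMap A₀ B q ^ n' * G ∧ NodesLocGen 𝔫 {algebraMap A₀ B π, X, Y} ∧
      (n ≤ n' ∨ G ∉ 𝔫))
    (P : Place E Lf) (hP : UnipTubePoint τ 𝔫 P) (hgP : g • P ≠ P) :
    ∃ f : Lf, f ≠ 0 ∧ P.ord f = 1 ∧
      ∀ Q : Place E Lf, 0 ≤ Q.ord τ → (∀ b : B, 0 < Q.ord (algebraMap B Lf b) → b ∈ 𝔫) →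
        Q ≠ P → Q.ord f = 0 := by
  have hP' : UnipTubePoint τ 𝔫 (g • P) := hP.smul hinj g hgτ hgB hgB₀'
  obtain ⟨evP, hevP⟩ := unip_exists_tubeEv hπ τ hinj hB 𝔫 hπ𝔫 P hP
  obtain ⟨evQ, hevQ⟩ := unip_exists_tubeEv hπ τ hinj hB 𝔫 hπ𝔫 (g • P) hP'
  by_contra hcon
  have hmaxP : ∀ b ∈ 𝔫, evP b ∈ IsLocalRing.maximalIdeal A₀ := fun b hb => by
    rw [hπ.maximalIdeal_eq, Ideal.mem_span_singleton]
    exact unip_tubeEv_dvd hπ hinj hP evP hevP b hb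
  have hmaxQ : ∀ b ∈ 𝔫, evQ b ∈ IsLocalRing.maximalIdeal A₀ := fun b hb => by
    rw [hπ.maximalIdeal_eq, Ideal.mem_span_singleton]
    exact unip_tubeEv_dvd hπ hinj hP' evQ hevQ b hb
  have key : ∀ n : ℕ, 1 ≤ n → ∀ b : B, evP b - evQ b ∈ Ideal.span ({q ^ n} : Set A₀) := by
    intro n hn b
    obtain ⟨n', X, Y, G, hX1, hY2, hX2, hY1, hXY, hgen, hthin⟩ := hstage n hn
    have hX : X ∈ 𝔫 := h1 hX1
    have hY : Y ∈ 𝔫 := h2 hY2
    rcases unip_coord_stage hπ τ hτ hinj hB 𝔫 hπ𝔫 q hq0 n' X Y G hX hY hXY hgen P hP evP hevP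
      with h | ⟨hdX, hdY, hG⟩
    · exact absurd h hcon
    have hle : n ≤ n' := hthin.resolve_right (fun h => h hG)
    have hgen' : NodesLocGen 𝔫 {algebraMap A₀ B π, Y, X} := by
      have : ({algebraMap A₀ B π, Y, X} : Set B) = {algebraMap A₀ B π, X, Y} := by
        rw [Set.pair_comm Y X]
      rw [this]
      exact hgen
    have hYX : Y * X = algebraMap A₀ B q ^ n' * G := by rw [mul_comm]; exact hXY
    have hdXQ' : q ^ n' ∣ evQ X :=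
      rtk6ew_deep_smul hπ τ hinj 𝔫 hπ𝔫 𝔭₁ h1 hπ1 g hgB₀' hgA hgV₁ q hq0 hgq n' X Y G hX1 hY1 hY
        hXY hgen P hP evP evQ hevP hevQ hdX
    have hdYQ' : q ^ n' ∣ evQ Y :=
      rtk6ew_deep_smul hπ τ hinj 𝔫 hπ𝔫 𝔭₂ h2 hπ2 g hgB₀' hgA hgV₂ q hq0 hgq n' Y X G hY2 hX2 hX
        hYX hgen' P hP evP evQ hevP hevQ hdY
    have hdX' : q ^ n ∣ evP X := (pow_dvd_pow q hle).trans hdX
    have hdY' : q ^ n ∣ evP Y := (pow_dvd_pow q hle).trans hdY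
    have hdXQ : q ^ n ∣ evQ X := (pow_dvd_pow q hle).trans hdXQ'
    have hdYQ : q ^ n ∣ evQ Y := (pow_dvd_pow q hle).trans hdYQ'
    have hd := unip_dense_of_tubePoint hπ τ hinj hB 𝔫 hπ𝔫 P hP {X, Y}
      (fun x hx => by
        rcases hx with rfl | rfl
        · exact hX
        · exact hY) hgen
    refine unip_eval_sub_mem_span_of_dense 𝔫 {X, Y} (q ^ n) hd evP evQ hmaxP hmaxQ
      (fun x hx => ?_) b
    rw [Ideal.mem_span_singleton]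
    rcases hx with rfl | rfl
    · exact dvd_sub hdX' hdXQ
    · exact dvd_sub hdY' hdYQ
  have heq : ∀ b : B, evP b = evQ b := by
    intro b
    have h0 : evP b - evQ b ∈ (⨅ i : ℕ, IsLocalRing.maximalIdeal A₀ ^ i : Ideal A₀) := by
      rw [Ideal.mem_iInf]
      intro n
      rcases Nat.eq_zero_or_pos n with h | h
      · rw [h, pow_zero, Ideal.one_eq_top]; exact Submodule.mem_top
      · have h1 := key n h b
        rw [Ideal.mem_span_singleton] at h1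
        obtain ⟨c, hc⟩ := h1
        obtain ⟨q₁, hq₁⟩ := hqπ
        rw [hc, hq₁, mul_pow, hπ.maximalIdeal_eq, Ideal.span_singleton_pow]
        exact Ideal.mem_span_singleton.mpr ⟨q₁ ^ n * c, by ring⟩
    rw [Ideal.iInf_pow_eq_bot_of_isLocalRing (IsLocalRing.maximalIdeal A₀)
      Ideal.IsPrime.ne_top'] at h0
    exact sub_eq_zero.mp (by simpa using h0)
  apply hgP
  refine unip_place_eq_of_le hπ τ hτ hB P (g • P) hP.ord_nonneg hP'.ord_nonneg (fun b hb => ?_)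
  have hb0 : algebraMap B Lf b ≠ 0 := by
    intro h0
    rw [h0, Place.ord_zero] at hb
    exact lt_irrefl _ hb
  have h1 : evP b = 0 :=
    (unip_tubeEv_eq_zero_iff P evP hevP b).mpr ((unip_mem_nonunits_iff P _).mpr (Or.inr hb))
  have h2 : evQ b = 0 := by rw [← heq b, h1]
  have h3 := (unip_tubeEv_eq_zero_iff (g • P) evQ hevQ b).mp h2
  rcases (unip_mem_nonunits_iff (g • P) _).mp h3 with h | h
  · exact absurd h hb0
  · exact h

end EWMainGen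

section EWCoordChart

variable {A₀ E F : Type*} [CommRing A₀] [IsDomain A₀] [IsDiscreteValuationRing A₀]
  [Field E] [Algebra A₀ E] [IsFractionRing A₀ E] [CharZero E]
  [Field F] [Algebra E F] [Algebra A₀ F] [IsScalarTower A₀ E F]
  {π : A₀} {κ : Type*}

/-- **`hcoord` at a crossing point** of the chart `u` (components `V c₁`, `V c₂`), general `g`,
thick nodes included. -/
theorem rtk6ew_hcoord_node (hπ : Irreducible π) {u : F} (hu : Transcendental E u)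
    [FiniteDimensional E⟮u⟯ F] [IsNoetherianRing ↥(zchClosure (A₀ := A₀) ({u} : Set F))]
    (V : κ → ValuationSubring F)
    (hBV : ∀ c (b : F), IsIntegral ↥(Algebra.adjoin A₀ {u}) b → b ∈ V c)
    (hπV : ∀ c, algebraMap A₀ F π ∈ (V c).nonunits)
    (hVloc : ∀ c (x : F), x ∈ V c → ∃ b s : F, IsIntegral ↥(Algebra.adjoin A₀ {u}) b ∧
      IsIntegral ↥(Algebra.adjoin A₀ {u}) s ∧ s ∉ (V c).nonunits ∧ s * x = b)
    (g : SemilinearAut E F) (hgu : g • u = u)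
    (𝔫 : Ideal ↥(zchClosure (A₀ := A₀) ({u} : Set F))) [𝔫.IsPrime]
    (hπ𝔫 : algebraMap A₀ ↥(zchClosure (A₀ := A₀) ({u} : Set F)) π ∈ 𝔫)
    (hgB : ∀ b : ↥(zchClosure (A₀ := A₀) ({u} : Set F)), b ∈ 𝔫 →
      ∃ b' : ↥(zchClosure (A₀ := A₀) ({u} : Set F)), b' ∈ 𝔫 ∧ g • (b : F) = b')
    (hgB₀' : ∀ b : F, IsIntegral ↥(Algebra.adjoin A₀ {u}) b →
      IsIntegral ↥(Algebra.adjoin A₀ {u}) (g⁻¹ • b))
    (hgV : ∀ c (f : F), f ≠ 0 → (V c).valuation (g • f / f) = 1)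
    (hgA : ∀ α : A₀, ∃ α' : A₀, g • algebraMap A₀ F α = algebraMap A₀ F α')
    (q : A₀) (hq0 : q ≠ 0) (hqπ : π ∣ q) (hgq : ∃ c : A₀, g • algebraMap A₀ F q = algebraMap A₀ F (c * q))
    (c₁ c₂ : κ)
    (hc₁ : ∀ b : ↥(zchClosure (A₀ := A₀) ({u} : Set F)), (b : F) ∈ (V c₁).nonunits → b ∈ 𝔫)
    (hc₂ : ∀ b : ↥(zchClosure (A₀ := A₀) ({u} : Set F)), (b : F) ∈ (V c₂).nonunits → b ∈ 𝔫)
    (hstage : ∀ n : ℕ, 1 ≤ n → ∃ (n' : ℕ) (X Y G : ↥(zchClosure (A₀ := A₀) ({u} : Set F))),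
      (X : F) ∈ (V c₁).nonunits ∧ (Y : F) ∈ (V c₂).nonunits ∧
      (X : F) ∉ (V c₂).nonunits ∧ (Y : F) ∉ (V c₁).nonunits ∧
      X * Y = algebraMap A₀ ↥(zchClosure (A₀ := A₀) ({u} : Set F)) q ^ n' * G ∧
      NodesLocGen 𝔫 {algebraMap A₀ ↥(zchClosure (A₀ := A₀) ({u} : Set F)) π, X, Y} ∧
      (n ≤ n' ∨ G ∉ 𝔫))
    {x : F}
    (hrat : ∀ P : Place E F, LsTube ↥(zchClosure (A₀ := A₀) ({u} : Set F)) u 𝔫 P →
      g • P ≠ P → P.ord x ≠ 0 → ∀ f ∈ P.toValuationSubring,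
        ∃ c : E, f - algebraMap E F c ∈ P.toValuationSubring.nonunits) :
    ∀ P : Place E F, LsTube ↥(zchClosure (A₀ := A₀) ({u} : Set F)) u 𝔫 P →
      g • P ≠ P → P.ord x ≠ 0 → ∃ f : F, f ≠ 0 ∧ P.ord f = 1 ∧
        ∀ Q : Place E F, LsTube ↥(zchClosure (A₀ := A₀) ({u} : Set F)) u 𝔫 Q → g • Q ≠ Q →
          Q ≠ P → Q.ord f = 0 := by
  intro P hP hgP hPx
  set B := ↥(zchClosure (A₀ := A₀) ({u} : Set F)) with hBdef
  have hinj : Function.Injective (algebraMap B F) := Subtype.val_injective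
  haveI h1p := at_crossingIdeal_isPrime (A₀ := A₀) (S := {u}) (V c₁) (hBV c₁)
  haveI h2p := at_crossingIdeal_isPrime (A₀ := A₀) (S := {u}) (V c₂) (hBV c₂)
  have hgB₁' : ∀ b : B, ∃ b' : B, g⁻¹ • algebraMap B F b = algebraMap B F b' := fun b =>
    ⟨⟨g⁻¹ • (b : F), mem_zchClosure.mpr (hgB₀' _ (mem_zchClosure.mp b.2))⟩, rfl⟩
  have hgV' : ∀ c : κ, ∀ f : F, f ≠ 0 →
      ∃ s s' : B, s ∉ crossingIdeal (A₀ := A₀) {u} (V c) (hBV c) ∧
        s' ∉ crossingIdeal (A₀ := A₀) {u} (V c) (hBV c) ∧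
        algebraMap B F s * (g • f / f) = algebraMap B F s' := by
    intro c f hf
    haveI := at_crossingIdeal_isPrime (A₀ := A₀) (S := {u}) (V c) (hBV c)
    refine ls_vertical_unit_of_valuation hinj _ (V c) ?_ (hgV c f hf)
    intro y hy
    obtain ⟨b, s, hb, hs, hsV, hsy⟩ := hVloc c y hy
    exact ⟨⟨b, mem_zchClosure.mpr hb⟩, ⟨s, mem_zchClosure.mpr hs⟩, hsV, hsy⟩
  obtain ⟨f, hf0, hf1, hf⟩ := rtk6ew_coord_node_gen hπ u hu hinj (unip_chart_range u) 𝔫 hπ𝔫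
    (crossingIdeal (A₀ := A₀) {u} (V c₁) (hBV c₁)) (crossingIdeal (A₀ := A₀) {u} (V c₂) (hBV c₂))
    (fun b hb => hc₁ b hb) (fun b hb => hc₂ b hb) (hπV c₁) (hπV c₂) g hgu hgB hgB₁' hgA
    (hgV' c₁) (hgV' c₂) q hq0 hqπ hgq hstage P ⟨hP.1, hP.2, hrat P hP hgP hPx⟩ hgP
  exact ⟨f, hf0, hf1, fun Q hQ _ hQP => hf Q hQ.1 hQ.2 hQP⟩

/-- **MG-hcoord.**  `hcoord` of `at_local_factor` / `at_main_two` at a prime `𝔫 ∋ π` of the chart
`B' = zchClosure {u}` over the ramified base, from the output of U5 at `𝔫.comap j` on the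
unramified chart `R` (`MgcRamified j π p`, `j p = q`), for any `g` preserving `𝔫`, the chart,
the constants, `q` and the vertical valuations. -/
theorem rtk6ew_hcoord_of_nodes (hπ : Irreducible π) {u : F} (hu : Transcendental E u)
    [FiniteDimensional E⟮u⟯ F] [IsNoetherianRing ↥(zchClosure (A₀ := A₀) ({u} : Set F))]
    (V : κ → ValuationSubring F)
    (hBV : ∀ c (b : F), IsIntegral ↥(Algebra.adjoin A₀ {u}) b → b ∈ V c)
    (hπV : ∀ c, algebraMap A₀ F π ∈ (V c).nonunits)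
    (hSS1 : ∀ b : F, IsIntegral ↥(Algebra.adjoin A₀ {u}) b → (∀ c, b ∈ (V c).nonunits) →
      ∃ b' : F, IsIntegral ↥(Algebra.adjoin A₀ {u}) b' ∧ b = algebraMap A₀ F π * b')
    (hVloc : ∀ c (x : F), x ∈ V c → ∃ b s : F, IsIntegral ↥(Algebra.adjoin A₀ {u}) b ∧
      IsIntegral ↥(Algebra.adjoin A₀ {u}) s ∧ s ∉ (V c).nonunits ∧ s * x = b)
    (g : SemilinearAut E F) (hgu : g • u = u)
    (𝔫 : Ideal ↥(zchClosure (A₀ := A₀) ({u} : Set F))) [𝔫.IsPrime]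
    (hπ𝔫 : algebraMap A₀ ↥(zchClosure (A₀ := A₀) ({u} : Set F)) π ∈ 𝔫)
    (hgB : ∀ b : ↥(zchClosure (A₀ := A₀) ({u} : Set F)), b ∈ 𝔫 →
      ∃ b' : ↥(zchClosure (A₀ := A₀) ({u} : Set F)), b' ∈ 𝔫 ∧ g • (b : F) = b')
    (hgB₀' : ∀ b : F, IsIntegral ↥(Algebra.adjoin A₀ {u}) b →
      IsIntegral ↥(Algebra.adjoin A₀ {u}) (g⁻¹ • b))
    (hgV : ∀ c (f : F), f ≠ 0 → (V c).valuation (g • f / f) = 1)
    (hgA : ∀ α : A₀, ∃ α' : A₀, g • algebraMap A₀ F α = algebraMap A₀ F α')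
    (q : A₀) (hq0 : q ≠ 0) (hqπ : π ∣ q) (hgq : ∃ c : A₀, g • algebraMap A₀ F q = algebraMap A₀ F (c * q))
    {R : Type*} [CommRing R] (j : R →+* ↥(zchClosure (A₀ := A₀) ({u} : Set F))) (p : R)
    (hram : MgcRamified j (algebraMap A₀ ↥(zchClosure (A₀ := A₀) ({u} : Set F)) π) p)
    (hjp : j p = algebraMap A₀ ↥(zchClosure (A₀ := A₀) ({u} : Set F)) q)
    (c₁ c₂ : κ) (hκ : ∀ c, c = c₁ ∨ c = c₂)
    (hnode : (∃ s : R, j s ∈ 𝔫 ∧ NodesLocGen (𝔫.comap j) {p, s}) ∨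
      ((∀ x : R, ((j x : ↥(zchClosure (A₀ := A₀) ({u} : Set F))) : F) ∈ (V c₁).nonunits →
          j x ∈ 𝔫) ∧
       (∀ x : R, ((j x : ↥(zchClosure (A₀ := A₀) ({u} : Set F))) : F) ∈ (V c₂).nonunits →
          j x ∈ 𝔫) ∧
       ∃ X Y : R, ((j X : ↥(zchClosure (A₀ := A₀) ({u} : Set F))) : F) ∈ (V c₁).nonunits ∧
         ((j Y : ↥(zchClosure (A₀ := A₀) ({u} : Set F))) : F) ∈ (V c₂).nonunits ∧
         NodesLocGen (𝔫.comap j) {p, X, Y}))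
    {x : F}
    (hrat : ∀ P : Place E F, LsTube ↥(zchClosure (A₀ := A₀) ({u} : Set F)) u 𝔫 P →
      g • P ≠ P → P.ord x ≠ 0 → ∀ f ∈ P.toValuationSubring,
        ∃ c : E, f - algebraMap E F c ∈ P.toValuationSubring.nonunits) :
    ∀ P : Place E F, LsTube ↥(zchClosure (A₀ := A₀) ({u} : Set F)) u 𝔫 P →
      g • P ≠ P → P.ord x ≠ 0 → ∃ f : F, f ≠ 0 ∧ P.ord f = 1 ∧
        ∀ Q : Place E F, LsTube ↥(zchClosure (A₀ := A₀) ({u} : Set F)) u 𝔫 Q → g • Q ≠ Q →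
          Q ≠ P → Q.ord f = 0 := by
  set B := ↥(zchClosure (A₀ := A₀) ({u} : Set F)) with hBdef
  -- the smooth case
  have hdisc : ∀ s : R, j s ∈ 𝔫 → NodesLocGen (𝔫.comap j) {p, s} →
      ∀ P : Place E F, LsTube B u 𝔫 P →
      g • P ≠ P → P.ord x ≠ 0 → ∃ f : F, f ≠ 0 ∧ P.ord f = 1 ∧
        ∀ Q : Place E F, LsTube B u 𝔫 Q → g • Q ≠ Q → Q ≠ P → Q.ord f = 0 :=
    fun s hs hgen => unip_hcoord_disc hπ hu 𝔫 hπ𝔫 (j s) hs (hram.mgg_locGen_pair hπ𝔫 s hgen) g hrat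
  rcases hnode with ⟨s, hs, hgen⟩ | ⟨hthr₁, hthr₂, X, Y, hX, hY, hgen⟩
  · exact hdisc s hs hgen
  -- the two branches on `R`
  haveI h1p := at_crossingIdeal_isPrime (A₀ := A₀) (S := {u}) (V c₁) (hBV c₁)
  haveI h2p := at_crossingIdeal_isPrime (A₀ := A₀) (S := {u}) (V c₂) (hBV c₂)
  set 𝔭₁ : Ideal R := (crossingIdeal (A₀ := A₀) {u} (V c₁) (hBV c₁)).comap j with h𝔭₁
  set 𝔭₂ : Ideal R := (crossingIdeal (A₀ := A₀) {u} (V c₂) (hBV c₂)).comap j with h𝔭₂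
  haveI : 𝔭₁.IsPrime := Ideal.comap_isPrime j _
  haveI : 𝔭₂.IsPrime := Ideal.comap_isPrime j _
  haveI : (𝔫.comap j).IsPrime := Ideal.comap_isPrime j _
  have hϖ1 : algebraMap A₀ B π ∈ crossingIdeal (A₀ := A₀) {u} (V c₁) (hBV c₁) := hπV c₁
  have hϖ2 : algebraMap A₀ B π ∈ crossingIdeal (A₀ := A₀) {u} (V c₂) (hBV c₂) := hπV c₂
  have hp1 : p ∈ 𝔭₁ := by
    rw [h𝔭₁, Ideal.mem_comap]
    obtain ⟨z, hz⟩ := hram.dvd
    rw [hz]
    exact Ideal.mul_mem_right _ _ hϖ1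
  have hp2 : p ∈ 𝔭₂ := by
    rw [h𝔭₂, Ideal.mem_comap]
    obtain ⟨z, hz⟩ := hram.dvd
    rw [hz]
    exact Ideal.mul_mem_right _ _ hϖ2
  have hSS1R : ∀ y : R, y ∈ 𝔭₁ → y ∈ 𝔭₂ → p ∣ y := by
    intro y hy1 hy2
    apply hram.cancel
    obtain ⟨b', hb', hyb'⟩ := hSS1 ((j y : B) : F) (mem_zchClosure.mp (j y).2) (fun c => by
      rcases hκ c with rfl | rfl
      · exact hy1
      · exact hy2)
    exact ⟨⟨b', mem_zchClosure.mpr hb'⟩, Subtype.ext hyb'⟩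
  rcases unip_stage_or_disc (𝔫.comap j) 𝔭₁ 𝔭₂ (fun y hy => hthr₁ y hy) (fun y hy => hthr₂ y hy)
    p hp1 hp2 hSS1R X Y hX hY hgen with ⟨s, hs, hgen'⟩ | hstage
  · exact hdisc s hs hgen'
  -- "through" on `B`
  have hthrB : ∀ c : κ, (∀ y : R, ((j y : B) : F) ∈ (V c).nonunits → j y ∈ 𝔫) →
      ∀ b : B, (b : F) ∈ (V c).nonunits → b ∈ 𝔫 := by
    intro c hthr b hb
    obtain ⟨y, z, rfl⟩ := hram.decomp b
    have hϖz : algebraMap A₀ B π * z ∈ crossingIdeal (A₀ := A₀) {u} (V c) (hBV c) :=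
      Ideal.mul_mem_right _ _ (hπV c)
    have hjy : j y ∈ crossingIdeal (A₀ := A₀) {u} (V c) (hBV c) := by
      have : j y = (j y + algebraMap A₀ B π * z) - algebraMap A₀ B π * z := by ring
      rw [this]
      exact Ideal.sub_mem _ hb hϖz
    exact Ideal.add_mem _ (hthr y hjy) (Ideal.mul_mem_right _ _ hπ𝔫)
  refine rtk6ew_hcoord_node hπ hu V hBV hπV hVloc g hgu 𝔫 hπ𝔫 hgB hgB₀' hgV hgA q hq0 hqπ hgq c₁ c₂
    (hthrB c₁ hthr₁) (hthrB c₂ hthr₂) ?_ hrat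
  intro n hn
  obtain ⟨n', X', Y', G', -, hX1', hY2', hX2', hY1', hXY', hgen', hthin⟩ := hstage n hn
  refine ⟨n', j X', j Y', j G', hX1', hY2', hX2', hY1', ?_,
    hram.mgg_locGen_triple hπ𝔫 X' Y' hgen', ?_⟩
  · rw [← map_mul, hXY', map_mul, map_pow, hjp]
  · rcases hthin with h | h
    · exact Or.inl h
    · exact Or.inr (fun hG => h (Ideal.mem_comap.mpr hG))

end EWCoordChart

end Fermat.Agent.RT.K6
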