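/-
K-machine, piece K6 / F (helper66): the group of diamonds at `r`.

`r ∣ M`, `C = {c ∈ (ℤ/M)ˣ : c ≡ 1 mod M / r}` (`IsAtR M r c`), `H⁺ = H ⊔ C`.

* `rtk6fAtR M r hrM` : `C` as a subgroup (kernel of the reduction to `(ℤ/(M/r))ˣ`);
* `rtk6f_card_atR`   : `#C = r − 1` when `r ∥ M`;
* `rtk6f_pm_le`, `rtk6f_atR_le`, `rtk6f_exists_split` : `±H ≤ ±H⁺`, `C ≤ ±H⁺`, `±H⁺ = C · ±H`;
* `rtk6f_exists_relRep_atR` : a system of representatives of `±H⁺ / ±H` inside `C`, with at most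
  `r − 1` elements.
-/
import Fermat.Agent.RT.K6.FPlan
import Fermat.Agent.RT.K6.FCoset

set_option autoImplicit false

noncomputable section

namespace Fermat.Agent.RT.K6

open Fermat.Agent.ES1

variable {M r : ℕ}

theorem rtk6f_isAtR_iff [NeZero M] (hrM : r ∣ M) (c : (ZMod M)ˣ) :
    IsAtR M r c ↔ ZMod.unitsMap (Nat.div_dvd_of_dvd hrM) c = 1 := by
  unfold IsAtR
  rw [ZMod.natCast_val, Units.ext_iff, ZMod.unitsMap_val, Units.val_one]

/-- the diamonds at `r` -/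
def rtk6fAtR (M r : ℕ) (hrM : r ∣ M) : Subgroup (ZMod M)ˣ :=
  (ZMod.unitsMap (Nat.div_dvd_of_dvd hrM)).ker

theorem mem_rtk6fAtR [NeZero M] (hrM : r ∣ M) {c : (ZMod M)ˣ} :
    c ∈ rtk6fAtR M r hrM ↔ IsAtR M r c := by
  rw [rtk6f_isAtR_iff hrM]
  exact MonoidHom.mem_ker

/-- `#C = r − 1` -/
theorem rtk6f_card_atR [NeZero M] (hr : r.Prime) (hrM : r ∣ M) (hr2 : ¬ r ^ 2 ∣ M) :
    Nat.card (rtk6fAtR M r hrM) = r - 1 := by
  have hM0 : M ≠ 0 := NeZero.ne M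
  have hpos : 0 < M / r := Nat.div_pos (Nat.le_of_dvd (Nat.pos_of_ne_zero hM0) hrM) hr.pos
  have : NeZero (M / r) := ⟨hpos.ne'⟩
  have hcop : Nat.Coprime r (M / r) := by
    rw [Nat.Prime.coprime_iff_not_dvd hr]
    intro h
    apply hr2
    obtain ⟨k, hk⟩ := h
    refine ⟨k, ?_⟩
    have := Nat.div_mul_cancel hrM
    rw [hk] at this
    rw [← this]
    ring
  have hsurj := ZMod.unitsMap_surjective (Nat.div_dvd_of_dvd hrM)
  have h1 := Subgroup.card_mul_index (rtk6fAtR M r hrM)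
  have h2 : (rtk6fAtR M r hrM).index = Nat.card (ZMod (M / r))ˣ := by
    unfold rtk6fAtR
    rw [Subgroup.index_ker, MonoidHom.range_eq_top.mpr hsurj, Subgroup.card_top]
  rw [h2, Nat.card_eq_fintype_card (α := (ZMod (M / r))ˣ),
    Nat.card_eq_fintype_card (α := (ZMod M)ˣ), ZMod.card_units_eq_totient,
    ZMod.card_units_eq_totient] at h1
  have h3 : Nat.totient M = (r - 1) * Nat.totient (M / r) := by
    conv_lhs => rw [← Nat.mul_div_cancel' hrM]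
    rw [Nat.totient_mul hcop, Nat.totient_prime hr]
  rw [h3] at h1
  exact Nat.eq_of_mul_eq_mul_right (Nat.totient_pos.mpr hpos) h1

section Plus

variable (H : Subgroup (ZMod M)ˣ) (hrM : r ∣ M)

theorem rtk6f_pm_le : pmH H ≤ pmH (H ⊔ rtk6fAtR M r hrM) :=
  sup_le_sup_right le_sup_left _

theorem rtk6f_atR_le : rtk6fAtR M r hrM ≤ pmH (H ⊔ rtk6fAtR M r hrM) :=
  le_sup_right.trans le_sup_left

theorem rtk6f_exists_split {g : (ZMod M)ˣ} (hg : g ∈ pmH (H ⊔ rtk6fAtR M r hrM)) :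
    ∃ x ∈ rtk6fAtR M r hrM, x⁻¹ * g ∈ pmH H := by
  have e : pmH (H ⊔ rtk6fAtR M r hrM) = rtk6fAtR M r hrM ⊔ pmH H := by
    unfold pmH
    rw [sup_comm H, sup_assoc]
  rw [e, Subgroup.mem_sup] at hg
  obtain ⟨x, hx, h, hh, rfl⟩ := hg
  exact ⟨x, hx, by rwa [inv_mul_cancel_left]⟩

/-- **representatives of `±H⁺ / ±H` among the diamonds at `r`** -/
theorem rtk6f_exists_relRep_atR [NeZero M] (hr : r.Prime) (hr2 : ¬ r ^ 2 ∣ M) :
    ∃ c : RelIdx H (H ⊔ rtk6fAtR M r hrM) → (ZMod M)ˣ,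
      IsRelRep H (H ⊔ rtk6fAtR M r hrM) c ∧ (∀ i, IsAtR M r (c i)) ∧
        Nat.card (RelIdx H (H ⊔ rtk6fAtR M r hrM)) ≠ 0 ∧
        ¬ r ∣ Nat.card (RelIdx H (H ⊔ rtk6fAtR M r hrM)) := by
  obtain ⟨c, hc, hcC⟩ := rtk6f_exists_relRep (rtk6f_pm_le H hrM)
    (rtk6fAtR M r hrM : Set (ZMod M)ˣ) (fun g hg => by
      obtain ⟨x, hx, hxg⟩ := rtk6f_exists_split H hrM hg
      exact ⟨x, hx, rtk6f_atR_le H hrM hx, hxg⟩)
  have hpos : Nat.card (RelIdx H (H ⊔ rtk6fAtR M r hrM)) ≠ 0 :=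
    Nat.card_pos.ne'
  refine ⟨c, hc, fun i => (mem_rtk6fAtR hrM).mp (hcC i), hpos, ?_⟩
  have hinj : Function.Injective
      (fun i : RelIdx H (H ⊔ rtk6fAtR M r hrM) => (⟨c i, hcC i⟩ : rtk6fAtR M r hrM)) := by
    intro i j hij
    apply hc.inj
    have : c i = c j := congrArg Subtype.val hij
    rw [this, inv_mul_cancel]
    exact one_mem _
  have hle := Nat.card_le_card_of_injective _ hinj
  rw [rtk6f_card_atR hr hrM hr2] at hle
  intro hdvd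
  have h1 := Nat.le_of_dvd (Nat.pos_of_ne_zero hpos) hdvd
  have h2 : 0 < r := hr.pos
  omega

end Plus

end Fermat.Agent.RT.K6
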