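/-
K-machine, piece K6 / **F + AUX at exponents divisible by `3`** (helper37; S59 P3-STUDY, repair (i)
of `NOTES/S59-p3/K6-helper4.md`): (χ-J) on the divisible classes at every tame level `L` with
`2 ∣ L`, for ODD exponents `m` (`3 ∣ m` allowed), from (χ-K) and UNIP at the rigid levels `4 ∣ L`.

In `FAux.lean` the auxiliary level is `36` (two steps `ℓ₀ = 2`, two steps `ℓ₀ = 3`: indices
`2, 3, 3, 4`, so `m` has to be prime to `6`).  For `2 ∣ L` ONE step `ℓ₀ = 2` reaches `4 ∣ L * 2`,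
of index `2`: `m` odd suffices.

The tameness predicate is a PARAMETER `T` (stable under `L ↦ L * 2`), so that the fork of the
chain (`IsTameAt3`, exponent prime to `2 L`) can be plugged in whatever its name is; the instance
`rtk6fa3_IsTame` (= exponent prime to `2 L`) is given here.

* `rtk6fa3_step2`      : descent from the level `L * 2` to `L`, `2 ∣ L`, `m` odd;
* `rtk6fa3_IsTame`, `rtk6fa3_isTame_of`, `rtk6fa3_isTame_two`;
* `rtk6fa3_StmtKRigid4 T`, `rtk6fa3_StmtURigid4` : the targets at the rigid levels `4 ∣ L`;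
* `rtk6fa3_StmtChiJDiv T` : (χ-J) on the divisible classes, `2 ∣ L`, `m` odd;
* `rtk6fa3_of_rigid`   : `rtk6fa3_StmtKRigid4 T → rtk6fa3_StmtURigid4 → rtk6fa3_StmtChiJDiv T`.
-/
import Fermat.Agent.RT.K6.FAux

set_option autoImplicit false
set_option linter.unusedSectionVars false
set_option linter.unusedVariables false
set_option linter.style.haveILetI false

noncomputable section

open AlgebraicCurve AlgebraicCurve.SemilinearAut Module ModularCurve IntermediateField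

namespace Fermat.Agent.RT.K6

open Fermat.Agent.ES Fermat.Agent.ES1 Fermat.Agent.ES1.G2 Fermat.Agent.W1 Fermat.Agent.STB
  Fermat.Agent.S15.LD

/-- **one step `ℓ₀ = 2` at an even level**: index `2`, so `m` odd suffices -/
theorem rtk6fa3_step2 (L M : ℕ) (H : Subgroup (ZMod M)ˣ) (r m : ℕ) (hL : L ≠ 0) (hML : M ∣ L)
    (h2 : 2 ∣ L) (hm : Nat.Coprime m 2) (h : ChiJDivAtM (L * 2) M H r m) :
    ChiJDivAtM L M H r m :=
  rtk6fa_step L M H r m 2 hL hML Nat.prime_two (by rw [if_pos h2]; exact hm) h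

/-- tameness with exponent prime to `2 L` only (`3 ∣ d` allowed) -/
def rtk6fa3_IsTame (L M _r : ℕ) (H : Subgroup (ZMod M)ˣ) : Prop :=
  ∃ d : ℕ, Nat.Coprime d (2 * L) ∧ ∀ c : (ZMod M)ˣ, c ^ d ∈ pmH H

theorem rtk6fa3_isTame_of {L M r : ℕ} {H : Subgroup (ZMod M)ˣ} (h : IsTameAt L M r H) :
    rtk6fa3_IsTame L M r H := by
  obtain ⟨d, hd, hc⟩ := h
  refine ⟨d, ?_, hc⟩
  exact Nat.Coprime.coprime_dvd_right (Nat.mul_dvd_mul_right (by norm_num : 2 ∣ 6) L) hd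

theorem rtk6fa3_isTame_two {L M r : ℕ} {H : Subgroup (ZMod M)ˣ} (h : rtk6fa3_IsTame L M r H) :
    rtk6fa3_IsTame (L * 2) M r H := by
  obtain ⟨d, hd, hc⟩ := h
  refine ⟨d, ?_, hc⟩
  have h2 : Nat.Coprime d 2 := Nat.Coprime.coprime_dvd_right (Dvd.intro _ rfl) hd
  have hL : Nat.Coprime d L := Nat.Coprime.coprime_dvd_right (Dvd.intro_left _ rfl) hd
  exact Nat.Coprime.mul_right h2 (Nat.Coprime.mul_right hL h2)

/-- **(χ-K) at the rigid levels `4 ∣ L`**, tameness predicate `T`. -/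
def rtk6fa3_StmtKRigid4 (T : ∀ (_L M _r : ℕ), Subgroup (ZMod M)ˣ → Prop) : Prop :=
  ∀ (L M : ℕ) (H : Subgroup (ZMod M)ˣ) (r : ℕ), L ≠ 0 → M ∣ L → r.Prime → r ∣ M → ¬ r ^ 2 ∣ L →
    IsStarStable M r H → T L M r H → 4 ∣ L → 5 ≤ r → ChiKummerAt L M H r

/-- **UNIP for the levels without diamonds at `r`, at the rigid levels `4 ∣ L`.** -/
def rtk6fa3_StmtURigid4 : Prop :=
  ∀ (L M : ℕ) (H : Subgroup (ZMod M)ˣ) (r : ℕ), L ≠ 0 → M ∣ L → r.Prime → r ∣ M → ¬ r ^ 2 ∣ L →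
    (∀ c : (ZMod M)ˣ, IsAtR M r c → c ∈ pmH H) → 4 ∣ L → 5 ≤ r → UnipHAt L M H r

/-- **(χ-J) on the divisible classes**, even tame levels, `r ≥ 5`, ODD exponents. -/
def rtk6fa3_StmtChiJDiv (T : ∀ (_L M _r : ℕ), Subgroup (ZMod M)ˣ → Prop) : Prop :=
  ∀ (L M : ℕ) (H : Subgroup (ZMod M)ˣ) (r : ℕ), L ≠ 0 → M ∣ L → r.Prime → r ∣ M → ¬ r ^ 2 ∣ L →
    IsStarStable M r H → T L M r H → 2 ∣ L → 5 ≤ r →
    ∀ A : ValuationSubring QbH, A.LiesOverPrime r →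
      ∀ m : ℕ, ¬ r ∣ m → Nat.Coprime m 2 →
        ∀ σ ∈ A.inertiaSubgroupIn ℚ, ∀ c : (ZMod M)ˣ, IsCycAt M r σ c →
        ∀ δ : fieldBar L M H ≃ₐ[QbH] fieldBar L M H, IsDiamondH L M H c δ →
          ∀ x : JH L M H, m • x = 0 → IsDivJ x →
            σ • diamondJ δ (σ • x) - σ • x - diamondJ δ (σ • x) + x = 0

/-- **K6 / F + AUX, odd exponents.**  (χ-J) on the divisible classes at ALL even tame levels
(`r ≥ 5`, `m` odd) from (χ-K) and UNIP at the rigid levels `4 ∣ L`. -/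
theorem rtk6fa3_of_rigid (T : ∀ (_L M _r : ℕ), Subgroup (ZMod M)ˣ → Prop)
    (hT : ∀ (L M r : ℕ) (H : Subgroup (ZMod M)ˣ), T L M r H → T (L * 2) M r H)
    (hK : rtk6fa3_StmtKRigid4 T) (hU : rtk6fa3_StmtURigid4) : rtk6fa3_StmtChiJDiv T := by
  intro L M H r hL hML hr hrM hr2 hstar htame h2L hr5 A hA m hrm hm2 σ hσ c hc δ hδ x hx hdiv
  have hM0 : M ≠ 0 := fun h => hL (by rw [h] at hML; exact Nat.eq_zero_of_zero_dvd hML)
  haveI : NeZero M := ⟨hM0⟩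
  have hL2 : L * 2 ≠ 0 := Nat.mul_ne_zero hL two_ne_zero
  have hML2 : M ∣ L * 2 := Dvd.dvd.mul_right hML _
  have hr2' : Nat.Coprime r 2 :=
    (Nat.coprime_primes hr Nat.prime_two).mpr (by omega)
  have hcop : Nat.Coprime (r ^ 2) 2 := Nat.Coprime.pow_left 2 hr2'
  have hr4 : ¬ r ^ 2 ∣ L * 2 := fun h => hr2 (hcop.dvd_of_dvd_mul_right h)
  have h4 : 4 ∣ L * 2 := by
    obtain ⟨k, hk⟩ := h2L
    exact ⟨k, by rw [hk]; ring⟩
  have hmain : ChiJDivAt (L * 2) M H r :=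
    rtk6f_main hL2 hML2 hr hrM hr4
      (hK _ M H r hL2 hML2 hr hrM hr4 hstar (hT L M r H htame) h4 hr5)
      (hU _ M (H ⊔ rtk6fAtR M r hrM) r hL2 hML2 hr hrM hr4
        (fun c' hc' => rtk6f_atR_le H hrM ((mem_rtk6fAtR hrM).mpr hc')) h4 hr5)
  have key : ChiJDivAtM (L * 2) M H r m :=
    fun A' hA' σ' hσ' c' hc' δ' hδ' y hy hyd =>
      hmain A' hA' m hrm σ' hσ' c' hc' δ' hδ' y hy hyd
  exact rtk6fa3_step2 L M H r m hL hML h2L hm2 key A hA σ hσ c hc δ hδ x hx hdiv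

/-- the instance `T = rtk6fa3_IsTame` (exponent prime to `2 L`) -/
theorem rtk6fa3_of_rigid_tame (hK : rtk6fa3_StmtKRigid4 rtk6fa3_IsTame)
    (hU : rtk6fa3_StmtURigid4) : rtk6fa3_StmtChiJDiv rtk6fa3_IsTame :=
  rtk6fa3_of_rigid rtk6fa3_IsTame (fun _ _ _ _ h => rtk6fa3_isTame_two h) hK hU

end Fermat.Agent.RT.K6

end
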