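/-
K-machine, piece K6 / F + AUX (helper66): **wiring to what piece E delivers**.

`RT/K6/EFinal.lean` (helper4) states the outputs of piece E at the tame RIGID levels (`4 ∣ L`):
`StmtChiKummerRig` ((χ-K)) and `StmtUnipHRig` (UNIP_H, with the hypothesis `IsTameAt`).

* `rtk6far_isTameAt_mono` : `IsTameAt` is monotone in `H`;
* `stmtChiJDiv5_of_rig : StmtChiKummerRig → StmtUnipHRig → StmtChiJDiv5` :
  **(χ-J) on the divisible classes at ALL tame levels** (`r ≥ 5`, exponents prime to `6`).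
-/
import Fermat.Agent.RT.K6.FAux
import Fermat.Agent.RT.K6.EFinal

set_option autoImplicit false
set_option linter.unusedSectionVars false
set_option linter.style.haveILetI false

noncomputable section

namespace Fermat.Agent.RT.K6

open ModularCurve AlgebraicCurve Fermat.Agent.ES Fermat.Agent.ES1 Fermat.Agent.ES1.G2

/-- `IsTameAt` is monotone in `±H` -/
theorem rtk6far_isTameAt_mono {L M r : ℕ} {H H' : Subgroup (ZMod M)ˣ} (hle : pmH H ≤ pmH H')
    (h : IsTameAt L M r H) : IsTameAt L M r H' := by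
  obtain ⟨d, hd, hc⟩ := h
  exact ⟨d, hd, fun c => hle (hc c)⟩

/-- **K6 / F + AUX from the outputs of piece E.**  (χ-J) on the divisible classes at ALL tame
levels (`r ≥ 5`, exponents prime to `6`) from (χ-K) and UNIP_H at the tame rigid levels. -/
theorem stmtChiJDiv5_of_rig (hK : StmtChiKummerRig) (hU : StmtUnipHRig) : StmtChiJDiv5 := by
  intro L M H r hL hML hr hrM hr2 hstar htame hr5 A hA m hrm hm6 σ hσ c hc δ hδ x hx hdiv
  have hM0 : M ≠ 0 := fun h => hL (by rw [h] at hML; exact Nat.eq_zero_of_zero_dvd hML)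
  haveI : NeZero M := ⟨hM0⟩
  have hL36 : L * 2 ^ 2 * 3 ^ 2 ≠ 0 :=
    Nat.mul_ne_zero (Nat.mul_ne_zero hL (by norm_num)) (by norm_num)
  have hML36 : M ∣ L * 2 ^ 2 * 3 ^ 2 := Dvd.dvd.mul_right (Dvd.dvd.mul_right hML _) _
  have hr2' : Nat.Coprime r 2 :=
    (Nat.coprime_primes hr Nat.prime_two).mpr (by omega)
  have hr3' : Nat.Coprime r 3 :=
    (Nat.coprime_primes hr Nat.prime_three).mpr (by omega)
  have hcop : Nat.Coprime (r ^ 2) (2 ^ 2 * 3 ^ 2) :=
    Nat.Coprime.pow_left 2 (Nat.Coprime.mul_right (Nat.Coprime.pow_right 2 hr2')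
      (Nat.Coprime.pow_right 2 hr3'))
  have hr36 : ¬ r ^ 2 ∣ L * 2 ^ 2 * 3 ^ 2 := by
    intro h
    rw [mul_assoc] at h
    exact hr2 (hcop.dvd_of_dvd_mul_right h)
  have h4 : 4 ∣ L * 2 ^ 2 * 3 ^ 2 := ⟨L * 3 ^ 2, by ring⟩
  have htame36 : IsTameAt (L * 2 ^ 2 * 3 ^ 2) M r H := rtk6aux_isTameAt_36 htame
  have hmain : ChiJDivAt (L * 2 ^ 2 * 3 ^ 2) M H r :=
    rtk6f_main hL36 hML36 hr hrM hr36
      (hK _ M H r hL36 hML36 hr hrM hr36 hstar htame36 h4)
      (hU _ M (H ⊔ rtk6fAtR M r hrM) r hL36 hML36 hr hrM hr36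
        (fun c' hc' => rtk6f_atR_le H hrM ((mem_rtk6fAtR hrM).mpr hc'))
        (rtk6far_isTameAt_mono (rtk6f_pm_le H hrM) htame36) h4)
  have key : ChiJDivAtM (L * 2 ^ 2 * 3 ^ 2) M H r m :=
    fun A' hA' σ' hσ' c' hc' δ' hδ' y hy hyd =>
      hmain A' hA' m hrm σ' hσ' c' hc' δ' hδ' y hy hyd
  exact rtk6fa_pow M H r m hm6 2 2 L hL hML key A hA σ hσ c hc δ hδ x hx hdiv

end Fermat.Agent.RT.K6
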