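/-
K-machine, piece K6, piece **(R4)** (helper82), abstract part (Mathlib only): UNIQUE EXTENSION
of a discrete valuation along a totally ramified extension.

`ι : K →+* L` fields, `W W' : ValuationSubring L`, `ϖ : K`, `π' : L`, `e : ℕ` with
 * every `x : L` is `∑ i < e, ι (a i) * π' ^ i`;
 * `ι ϖ = π' ^ e * u`, `u ∈ W`; `π' ∈ 𝔪(W)`;
 * `𝔪(W) ∩ ι K ⊆ ι ϖ · (W ∩ ι K)` (`ϖ` is a uniformizer of the restriction of `W` to `K`);
 * `∀ a : K, ∃ n, ι (ϖ ^ n * a) ∈ W`.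
Then
* `rtk6fu_coeff_mem` : `∑ i < e, ι (a i) * π' ^ i ∈ W → ∀ i, ι (a i) ∈ W`;
* `rtk6fu_le` : if moreover `π' ∈ W'` and `W ∩ ι K ⊆ W'`, then `W ≤ W'`;
* `rtk6fu_eq` : two such valuation rings with the same restriction to `K` are equal;



-/
import Mathlib

set_option autoImplicit false
set_option linter.style.haveILetI false
set_option linter.unusedSectionVars false
set_option linter.unusedVariables false

namespace Fermat.Agent.RT.K6

open Polynomial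

section Val

variable {L : Type*} [Field L]

/-- `𝔪(W)` is an ideal of `W` -/
theorem rtk6fu_mul_mem_nonunits (W : ValuationSubring L) {a x : L} (ha : a ∈ W.nonunits)
    (hx : x ∈ W) : a * x ∈ W.nonunits := by
  rw [ValuationSubring.mem_nonunits_iff_exists_mem_maximalIdeal] at ha ⊢
  obtain ⟨ha', ham⟩ := ha
  refine ⟨W.mul_mem _ _ ha' hx, ?_⟩
  have : (⟨a * x, W.mul_mem _ _ ha' hx⟩ : W) = ⟨a, ha'⟩ * ⟨x, hx⟩ := rfl
  rw [this]
  exact Ideal.mul_mem_right _ _ ham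

/-- for `x ≠ 0`: `x ∈ 𝔪(W) ↔ x⁻¹ ∉ W` -/
theorem rtk6fu_mem_nonunits_iff_inv (W : ValuationSubring L) {x : L} (hx : x ≠ 0) :
    x ∈ W.nonunits ↔ x⁻¹ ∉ W := by
  rw [ValuationSubring.mem_nonunits_iff, ← W.valuation_le_one_iff, map_inv₀, not_le]
  have hv : W.valuation x ≠ 0 := (Valuation.ne_zero_iff _).mpr hx
  constructor
  · intro h
    exact (one_lt_inv₀ (zero_lt_iff.mpr hv)).mpr h
  · intro h
    exact (one_lt_inv₀ (zero_lt_iff.mpr hv)).mp h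

end Val

section Abs

variable {K L : Type*} [Field K] [Field L] (ι : K →+* L)

/-- the case of pole order `≤ 1` -/
theorem rtk6fu_coeff_mem_one (W : ValuationSubring L) {ϖ : K} {π' : L} {e : ℕ}
    (hπ0 : π' ≠ 0) (hϖ0 : ϖ ≠ 0)
    (hϖ : ∃ u ∈ W, ι ϖ = π' ^ e * u) (hπW : π' ∈ W.nonunits)
    (hU : ∀ a : K, ι a ∈ W.nonunits → ∃ b : K, ι b ∈ W ∧ a = ϖ * b)
    (a : Fin e → K) (ha : ∀ i, ι (ϖ * a i) ∈ W)
    (hx : ∑ i, ι (a i) * π' ^ (i : ℕ) ∈ W) : ∀ i, ι (a i) ∈ W := by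
  have hπ'W : π' ∈ W := W.nonunits_le hπW
  obtain ⟨u, hu, hϖu⟩ := hϖ
  have hϖW : ι ϖ ∈ W := by
    rw [hϖu]
    exact W.mul_mem _ _ (W.pow_mem hπ'W e) hu
  -- strong induction on `i`
  have key : ∀ n : ℕ, ∀ i : Fin e, (i : ℕ) = n → ι (a i) ∈ W := by
    intro n
    induction n using Nat.strong_induction_on with
    | _ n ih =>
      intro i hi
      -- `ι (ϖ * a i) * π' ^ i ∈ π' ^ (i + 1) * W`
      have hsum : ι ϖ * ∑ j, ι (a j) * π' ^ (j : ℕ) =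
          ι (ϖ * a i) * π' ^ (i : ℕ) +
            ∑ j ∈ Finset.univ.erase i, ι (ϖ * a j) * π' ^ (j : ℕ) := by
        rw [Finset.mul_sum, ← Finset.add_sum_erase _ _ (Finset.mem_univ i)]
        congr 1
        · rw [map_mul]; ring
        · refine Finset.sum_congr rfl fun j _ => ?_
          rw [map_mul]; ring
      -- every other term is in `π' ^ (i + 1) * W`
      have hother : ∀ j ∈ Finset.univ.erase i,
          ∃ z ∈ W, ι (ϖ * a j) * π' ^ (j : ℕ) = π' ^ ((i : ℕ) + 1) * z := by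
        intro j hj
        have hji : j ≠ i := Finset.ne_of_mem_erase hj
        rcases lt_or_gt_of_ne (fun h => hji (Fin.ext h) : (j : ℕ) ≠ (i : ℕ)) with hlt | hgt
        · -- `j < i`: `a j ∈ W`
          have haj : ι (a j) ∈ W := ih (j : ℕ) (hi ▸ hlt) j rfl
          have hie : (i : ℕ) + 1 ≤ e := i.2
          refine ⟨π' ^ (e - ((i : ℕ) + 1)) * u * ι (a j) * π' ^ (j : ℕ), ?_, ?_⟩
          · exact W.mul_mem _ _ (W.mul_mem _ _ (W.mul_mem _ _ (W.pow_mem hπ'W _) hu) haj)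
              (W.pow_mem hπ'W _)
          · rw [map_mul, hϖu]
            have : π' ^ e = π' ^ ((i : ℕ) + 1) * π' ^ (e - ((i : ℕ) + 1)) := by
              rw [← pow_add, Nat.add_sub_cancel' hie]
            rw [this]
            ring
        · -- `j > i`
          refine ⟨ι (ϖ * a j) * π' ^ ((j : ℕ) - ((i : ℕ) + 1)), ?_, ?_⟩
          · exact W.mul_mem _ _ (ha j) (W.pow_mem hπ'W _)
          · have : π' ^ (j : ℕ) = π' ^ ((i : ℕ) + 1) * π' ^ ((j : ℕ) - ((i : ℕ) + 1)) := by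
              rw [← pow_add, Nat.add_sub_cancel' (Nat.succ_le_of_lt hgt)]
            rw [this]
            ring
      have hothersum : ∃ z ∈ W, ∑ j ∈ Finset.univ.erase i, ι (ϖ * a j) * π' ^ (j : ℕ) =
          π' ^ ((i : ℕ) + 1) * z := by
        choose! z hzW hz using hother
        refine ⟨∑ j ∈ Finset.univ.erase i, z j, ?_, ?_⟩
        · exact W.toSubring.sum_mem fun j hj => hzW j hj
        · rw [Finset.mul_sum]
          exact Finset.sum_congr rfl fun j hj => hz j hj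
      obtain ⟨z, hzW, hz⟩ := hothersum
      -- `ϖ x ∈ π' ^ (i + 1) * W`
      have hie : (i : ℕ) + 1 ≤ e := i.2
      have hlhs : ι ϖ * ∑ j, ι (a j) * π' ^ (j : ℕ) =
          π' ^ ((i : ℕ) + 1) *
            (π' ^ (e - ((i : ℕ) + 1)) * u * ∑ j, ι (a j) * π' ^ (j : ℕ)) := by
        rw [hϖu]
        have : π' ^ e = π' ^ ((i : ℕ) + 1) * π' ^ (e - ((i : ℕ) + 1)) := by
          rw [← pow_add, Nat.add_sub_cancel' hie]
        rw [this]
        ring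
      have hlhsW : π' ^ (e - ((i : ℕ) + 1)) * u * ∑ j, ι (a j) * π' ^ (j : ℕ) ∈ W :=
        W.mul_mem _ _ (W.mul_mem _ _ (W.pow_mem hπ'W _) hu) hx
      -- so `ι (ϖ * a i) = π' * (…)`
      have hmain : ι (ϖ * a i) =
          π' * (π' ^ (e - ((i : ℕ) + 1)) * u * ∑ j, ι (a j) * π' ^ (j : ℕ) - z) := by
        have h1 : ι (ϖ * a i) * π' ^ (i : ℕ) =
            π' ^ ((i : ℕ) + 1) *
              (π' ^ (e - ((i : ℕ) + 1)) * u * ∑ j, ι (a j) * π' ^ (j : ℕ) - z) := by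
          rw [mul_sub, ← hlhs, ← hz, hsum]
          ring
        have hpi : π' ^ (i : ℕ) ≠ 0 := pow_ne_zero _ hπ0
        apply mul_right_cancel₀ hpi
        rw [h1, pow_succ]
        ring
      have hnon : ι (ϖ * a i) ∈ W.nonunits := by
        rw [hmain]
        exact rtk6fu_mul_mem_nonunits W hπW (W.toSubring.sub_mem hlhsW hzW)
      obtain ⟨b, hbW, hb⟩ := hU _ hnon
      have : a i = b := mul_left_cancel₀ hϖ0 hb
      rw [this]
      exact hbW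
  exact fun i => key (i : ℕ) i rfl

/-- **the coefficients of an element of `W` are in `W`** -/
theorem rtk6fu_coeff_mem (W : ValuationSubring L) {ϖ : K} {π' : L} {e : ℕ}
    (hπ0 : π' ≠ 0) (hϖ0 : ϖ ≠ 0)
    (hϖ : ∃ u ∈ W, ι ϖ = π' ^ e * u) (hπW : π' ∈ W.nonunits)
    (hU : ∀ a : K, ι a ∈ W.nonunits → ∃ b : K, ι b ∈ W ∧ a = ϖ * b)
    (harch : ∀ a : K, ∃ n : ℕ, ι (ϖ ^ n * a) ∈ W)
    (a : Fin e → K) (hx : ∑ i, ι (a i) * π' ^ (i : ℕ) ∈ W) : ∀ i, ι (a i) ∈ W := by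
  have hπ'W : π' ∈ W := W.nonunits_le hπW
  have hϖW : ι ϖ ∈ W := by
    obtain ⟨u, hu, hϖu⟩ := hϖ
    rw [hϖu]
    exact W.mul_mem _ _ (W.pow_mem hπ'W e) hu
  -- a common pole order
  have hN : ∃ N : ℕ, ∀ i, ι (ϖ ^ N * a i) ∈ W := by
    choose n hn using fun i => harch (a i)
    refine ⟨Finset.univ.sup n, fun i => ?_⟩
    have hle : n i ≤ Finset.univ.sup n := Finset.le_sup (Finset.mem_univ i)
    have : ϖ ^ (Finset.univ.sup n) * a i = ϖ ^ (Finset.univ.sup n - n i) * (ϖ ^ n i * a i) := by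
      rw [← mul_assoc, ← pow_add, Nat.sub_add_cancel hle]
    rw [this, map_mul, map_pow]
    exact W.mul_mem _ _ (W.pow_mem hϖW _) (hn i)
  obtain ⟨N, hN⟩ := hN
  -- induction on the pole order
  induction N generalizing a with
  | zero =>
    intro i
    have := hN i
    rwa [pow_zero, one_mul] at this
  | succ N ih =>
    -- `a' := ϖ ^ N * a`
    have h1 : ∀ i, ι (ϖ ^ N * a i) ∈ W := by
      refine rtk6fu_coeff_mem_one ι W hπ0 hϖ0 hϖ hπW hU (fun i => ϖ ^ N * a i) (fun i => ?_) ?_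
      · have := hN i
        rwa [pow_succ, mul_comm (ϖ ^ N) ϖ, mul_assoc] at this
      · have : ∑ i, ι (ϖ ^ N * a i) * π' ^ (i : ℕ) =
            ι ϖ ^ N * ∑ i, ι (a i) * π' ^ (i : ℕ) := by
          rw [Finset.mul_sum]
          refine Finset.sum_congr rfl fun i _ => ?_
          rw [map_mul, map_pow]
          ring
        rw [this]
        exact W.mul_mem _ _ (W.pow_mem hϖW _) hx
    exact ih a hx h1

/-- **`W ≤ W'`** -/
theorem rtk6fu_le (W W' : ValuationSubring L) {ϖ : K} {π' : L} {e : ℕ}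
    (hspan : ∀ x : L, ∃ a : Fin e → K, x = ∑ i, ι (a i) * π' ^ (i : ℕ))
    (hπ0 : π' ≠ 0) (hϖ0 : ϖ ≠ 0)
    (hϖ : ∃ u ∈ W, ι ϖ = π' ^ e * u) (hπW : π' ∈ W.nonunits)
    (hU : ∀ a : K, ι a ∈ W.nonunits → ∃ b : K, ι b ∈ W ∧ a = ϖ * b)
    (harch : ∀ a : K, ∃ n : ℕ, ι (ϖ ^ n * a) ∈ W)
    (hπW' : π' ∈ W') (hKW : ∀ a : K, ι a ∈ W → ι a ∈ W') : W ≤ W' := by
  intro x hx
  obtain ⟨a, rfl⟩ := hspan x
  have ha := rtk6fu_coeff_mem ι W hπ0 hϖ0 hϖ hπW hU harch a hx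
  exact W'.toSubring.sum_mem fun i _ => W'.mul_mem _ _ (hKW _ (ha i)) (W'.pow_mem hπW' _)

/-- **unique extension**: two valuation rings of `L` with the same restriction to `K`, in which
`π'` is a nonunit and `ϖ = π' ^ e · unit`, are equal. -/
theorem rtk6fu_eq (W W' : ValuationSubring L) {ϖ : K} {π' : L} {e : ℕ}
    (hspan : ∀ x : L, ∃ a : Fin e → K, x = ∑ i, ι (a i) * π' ^ (i : ℕ))
    (hπ0 : π' ≠ 0) (hϖ0 : ϖ ≠ 0)
    (hϖ : ∃ u ∈ W, ι ϖ = π' ^ e * u) (hπW : π' ∈ W.nonunits)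
    (hϖ' : ∃ u ∈ W', ι ϖ = π' ^ e * u) (hπW' : π' ∈ W'.nonunits)
    (hU : ∀ a : K, ι a ∈ W.nonunits → ∃ b : K, ι b ∈ W ∧ a = ϖ * b)
    (harch : ∀ a : K, ∃ n : ℕ, ι (ϖ ^ n * a) ∈ W)
    (hKW : ∀ a : K, ι a ∈ W ↔ ι a ∈ W') : W = W' := by
  have hnon : ∀ a : K, ι a ∈ W'.nonunits → ι a ∈ W.nonunits := by
    intro a h
    rcases eq_or_ne a 0 with rfl | ha0
    · rw [map_zero]
      exact W.nonunits.zero_mem
    · have hι0 : ι a ≠ 0 := (map_ne_zero ι).mpr ha0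
      rw [rtk6fu_mem_nonunits_iff_inv W hι0, ← map_inv₀, hKW, map_inv₀,
        ← rtk6fu_mem_nonunits_iff_inv W' hι0]
      exact h
  refine le_antisymm
    (rtk6fu_le ι W W' hspan hπ0 hϖ0 hϖ hπW hU harch (W'.nonunits_le hπW')
      (fun a h => (hKW a).1 h))
    (rtk6fu_le ι W' W hspan hπ0 hϖ0 hϖ' hπW' ?_ ?_ (W.nonunits_le hπW)
      (fun a h => (hKW a).2 h))
  · intro a ha
    obtain ⟨b, hb, hab⟩ := hU a (hnon a ha)
    exact ⟨b, (hKW b).1 hb, hab⟩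
  · intro a
    obtain ⟨n, hn⟩ := harch a
    exact ⟨n, (hKW _).1 hn⟩

end Abs

end Fermat.Agent.RT.K6
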