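/-
K-machine, piece K6, piece **FIX-U** (helper49), part 3 (final): the provider `hFix` of
`rtk6ei_geomUnip_of_pieces` (`RT/K6/EInstGlue.lean`) WITHOUT hypotheses.

The (D-BC) datum at the unramified level `K₁′ = rtk6ebK q 1 ≤ ℚ̄^I` is obtained from
`rtk6dbc_chart_t_of_ss1`, `rtk6dbc_chart_tinv_of_ss1` (`RT/K6/DBCSS1.lean`, helper56), with the
family and (SS1) at `K₁′` for `w₁ = rtk6diwEquiv w₀ hcomm` (`RT/K6/W1.lean`: in case (U) the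
operator `w₀` descends to every field containing `ℚ̄^I`).

* `rtk6fxu_not_sq_dvd` : `¬ q ^ 2 ∣ M` from `M ∣ M₁ q`, `¬ q ∣ M₁`;
* `rtk6fxu_dbc_unr` : the (D-BC) datum on the two charts, for all `K₁ ⊇ rtk6ebK q 1`;
* `rtk6fxu_hFix` : **the provider `hFix` of `rtk6ei_geomUnip_of_pieces`**, literally;
* `rtk6fxu_geomUnip_final` : `StmtRtk6GeomUnip` from the provider (C4-U) `hNode` alone.
-/
import Fermat.Agent.RT.K6.FixUInst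
import Fermat.Agent.RT.K6.DBCSS1
import Fermat.Agent.RT.K6.SS1InstEvB
import Fermat.Agent.RT.K6.W1

set_option autoImplicit false
set_option linter.style.haveILetI false
set_option linter.unusedSectionVars false
set_option linter.unusedVariables false
set_option linter.style.longLine false

noncomputable section

namespace Fermat.Agent.RT.K6

open ModularCurve AlgebraicCurve Fermat.Agent.ES Fermat.Agent.ES.G2 Fermat.Agent.INJ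
open Fermat.Agent.UNIP Fermat.Agent.STB Fermat.Agent.ES1 Fermat.Agent.ES1.G2 Fermat.Agent.AL
open IntermediateField

/-- `q ∥ M₁ q`: no multiple-free divisor `M` of `M₁ q` is divisible by `q ^ 2`. -/
theorem rtk6fxu_not_sq_dvd {q M₁ M : ℕ} (hq : q.Prime) (hqM : ¬ q ∣ M₁) (hML : M ∣ M₁ * q) :
    ¬ q ^ 2 ∣ M := by
  intro h
  have h1 : q * q ∣ M₁ * q := by
    rw [← pow_two]
    exact dvd_trans h hML
  exact hqM ((Nat.mul_dvd_mul_iff_right hq.pos).mp h1)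

/-- **The (D-BC) datum at the unramified level**: for `K₁ ⊇ rtk6ebK q 1` and both charts. -/
theorem rtk6fxu_dbc_unr {q M₁ : ℕ} [NeZero q] [NeZero M₁] [NeZero (M₁ * q)] {M : ℕ}
    {H : Subgroup (ZMod M)ˣ} (hq : q.Prime) (hqM' : q ∣ M) (hM0 : M ≠ 0) (hqM : ¬ q ∣ M₁)
    (hML : M ∣ M₁ * q) (hat : ∀ c : (ZMod M)ˣ, IsAtR M q c → c ∈ pmH H)
    (htame : IsTameAt (M₁ * q) M q H) (h4 : 4 ∣ M₁ * q)
    (w₀ : fieldBar (M₁ * q) M H ≃ₐ[Qb] fieldBar (M₁ * q) M H)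
    (hw₀ : IsWAt (M₁ * q) M H q w₀) {A : ValuationSubring Qb} (hA : A.LiesOverPrime q)
    {K₁ : IntermediateField ℚ Qb} [NumberField ↥K₁] [IsGalois ℚ ↥K₁]
    [IsDiscreteValuationRing ↥(mgcA A K₁)] (hK : rtk6ebK q 1 ≤ K₁)
    {π : ↥(mgcA A K₁)} (hπ : Irreducible π) (u : ↥(rtk6diF A K₁ (M₁ * q) M H))
    (hu : u = rtk6diT A K₁ (M₁ * q) M H ∨ u = (rtk6diT A K₁ (M₁ * q) M H)⁻¹) :
    Rtk6fxuDbc A K₁ (M₁ * q) M H π u := by
  haveI : IsDiscreteValuationRing ↥(mgcA A (rtk6ebK q 1)) := rtk6eb_isDVR hq hA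
  obtain ⟨ϖ₁, hϖ₁⟩ := rtk6eb_exists_irreducible (A := A) (K₁ := rtk6ebK q 1)
  have hL : M₁ * q ≠ 0 := NeZero.ne _
  have hr2 : ¬ q ^ 2 ∣ M := rtk6fxu_not_sq_dvd hq hqM hML
  have hE : beta0Field A ≤ mgcE A (rtk6ebK q 1) := le_sup_left
  have hcomm : RtkCommK (mgcE A (rtk6ebK q 1)) w₀ :=
    rtk6w1_commK_of_hat hw₀ hM0 hq hqM' hr2 A hA hat hE
  have hw₁ : Rtk6dvWIncl (mgdIota (mgcE A (rtk6ebK q 1))) hq hqM M H
      (rtk6diwEquiv w₀ hcomm) :=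
    rtk6w1_wIncl w₀ hw₀ hcomm hq (mgdIota (mgcE A (rtk6ebK q 1))) hqM
  have fam₁ := rtk6m1_emFam hϖ₁ (mgdIota (mgcE A (rtk6ebK q 1))) hq hqM hw₁ hA hML
  obtain ⟨d, hdc, hd⟩ := htame
  have hq2 : q ≠ 2 := by
    rintro rfl
    apply hqM
    have h5 : 2 ∣ M₁ := by omega
    exact h5
  have hd0 : d ≠ 0 := by
    rintro rfl
    rw [Nat.coprime_zero_left] at hdc
    have : 6 ≤ 6 * (M₁ * q) := Nat.le_mul_of_pos_right 6 (Nat.pos_of_ne_zero hL)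
    omega
  have hqd : ¬ q ∣ d := by
    intro hqd
    have h6 : q ∣ 6 * (M₁ * q) := Dvd.dvd.mul_left (Dvd.intro_left M₁ rfl) 6
    have h7 : q ∣ Nat.gcd d (6 * (M₁ * q)) := Nat.dvd_gcd hqd h6
    rw [hdc.gcd_eq_one] at h7
    exact hq.one_lt.ne' (Nat.dvd_one.mp h7)
  have h3 : q = 3 → 2 ∣ M₁ := by
    rintro rfl
    have h5 : 4 ∣ M₁ :=
      (Nat.Coprime.dvd_mul_right (by norm_num : Nat.Coprime 4 3)).mp h4
    exact dvd_trans (by norm_num : 2 ∣ 4) h5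
  have ss1₁ := rtk6sj_emSS1 hϖ₁ (mgdIota (mgcE A (rtk6ebK q 1))) hq hqM hw₁ hA hML
    (fun h => absurd h hq2) h3 hd0 hqd hd
  rcases hu with rfl | rfl
  · exact rtk6fxu_dbc_of_hD hK (rtk6fxu_ebK_one_le A q)
      (rtk6dbc_chart_t_of_ss1 (M₁ * q) M H hq hA hK hL hML hϖ₁ hπ fam₁ ss1₁)
  · exact rtk6fxu_dbc_of_hD hK (rtk6fxu_ebK_one_le A q)
      (rtk6dbc_chart_tinv_of_ss1 (M₁ * q) M H hq hA hK hL hML hϖ₁ hπ fam₁ ss1₁)

/-- **The provider (FIX-U) `hFix` of `rtk6ei_geomUnip_of_pieces`**, literally, without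
hypotheses (`K₀ = rtk6ebK q 1`). -/
theorem rtk6fxu_hFix :
    ∀ (q M₁ : ℕ) [NeZero q] [NeZero M₁] [NeZero (M₁ * q)] (M : ℕ)
      (H : Subgroup (ZMod M)ˣ) (hq : q.Prime) (hqM' : q ∣ M) (hM0 : M ≠ 0), ¬ q ∣ M₁ →
      M ∣ M₁ * q → (∀ c : (ZMod M)ˣ, IsAtR M q c → c ∈ pmH H) → IsTameAt (M₁ * q) M q H →
      4 ∣ M₁ * q →
      ∀ (w₀ : fieldBar (M₁ * q) M H ≃ₐ[Qb] fieldBar (M₁ * q) M H)
        (hw₀ : IsWAt (M₁ * q) M H q w₀) (A : ValuationSubring Qb), A.LiesOverPrime q →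
        Rtk6eiEv q A (fun K₁ _ hζ π hπ =>
          ∀ σ ∈ A.inertiaSubgroupIn ℚ, ∀ (hσE : ∀ x ∈ mgcE A K₁, σ x ∈ mgcE A K₁)
            (u : ↥(rtk6diF A K₁ (M₁ * q) M H)),
            (u = rtk6diT A K₁ (M₁ * q) M H ∨ u = (rtk6diT A K₁ (M₁ * q) M H)⁻¹) →
            Rtk6emFixAt A K₁ (M₁ * q) M H π
              (rtk6dfV hπ M H (rtk6diwW (K₀ := mgcE A K₁) w₀ hw₀ hM0 hq hqM' hζ))
              (rtk6diGal (M₁ * q) M H σ hσE) u ∧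
            Rtk6emCongAt A K₁ (M₁ * q) M H π
              (rtk6dfV hπ M H (rtk6diwW (K₀ := mgcE A K₁) w₀ hw₀ hM0 hq hqM' hζ))
              (rtk6diGal (M₁ * q) M H σ hσE) u) := by
  intro q M₁ _ _ _ M H hq hqM' hM0 hqM hML hat htame h4 w₀ hw₀ A hA
  refine ⟨rtk6ebK q 1, inferInstance, ?_⟩
  intro K₁ _ _ _ hK hζ π hπ σ hσI hσE u hu
  exact rtk6fxu_of_dbc hσI hσE hπ _ hu
    (rtk6fxu_dbc_unr hq hqM' hM0 hqM hML hat htame h4 w₀ hw₀ hA hK hπ u hu)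

/-- **`StmtRtk6GeomUnip` from the provider (C4-U) `hNode` alone**: (SS1-inst) is
`rtk6sj_hSS1_unip`, (FIX-U) is `rtk6fxu_hFix`. -/
theorem rtk6fxu_geomUnip_final
    (hNode : ∀ (q M₁ : ℕ) [NeZero q] [NeZero M₁] [NeZero (M₁ * q)] (M : ℕ)
      (H : Subgroup (ZMod M)ˣ) (hq : q.Prime) (hqM' : q ∣ M) (hM0 : M ≠ 0), ¬ q ∣ M₁ →
      M ∣ M₁ * q → (∀ c : (ZMod M)ˣ, IsAtR M q c → c ∈ pmH H) → IsTameAt (M₁ * q) M q H →
      4 ∣ M₁ * q →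
      ∀ (w₀ : fieldBar (M₁ * q) M H ≃ₐ[Qb] fieldBar (M₁ * q) M H)
        (hw₀ : IsWAt (M₁ * q) M H q w₀) (A : ValuationSubring Qb), A.LiesOverPrime q →
        Rtk6eiEv q A (fun K₁ _ hζ π hπ => Rtk6emNode A K₁ (M₁ * q) M H π
          (rtk6dfV hπ M H (rtk6diwW (K₀ := mgcE A K₁) w₀ hw₀ hM0 hq hqM' hζ)))) :
    StmtRtk6GeomUnip :=
  rtk6ei_geomUnip_of_pieces rtk6sj_hSS1_unip hNode rtk6fxu_hFix

end Fermat.Agent.RT.K6

end
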