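/-
K-machine, piece K6, piece **FIX-U** (helper49), part 2: the provider `hFix` of
`rtk6ei_geomUnip_of_pieces` (`RT/K6/EInstGlue.lean`) from a provider of the (D-BC) datum.

* `Rtk6fxuDbc A K₁ L M H π u` : the (D-BC) datum of the chart `B′_u = zchClosure {u}` of
  `F′ = rtk6diF A K₁ L M H` over `A′ = mgcA A K₁`: a field `E₀` with `f : E₀ →+* E′`,
  `f E₀ ⊆ ℚ̄^I`, a ring `R` with `ι : R → fieldC E₀ L M H` and `j : R →+* B′_u` coefficientwise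
  (`(j b : F′) = rtk6diCoeffHom f (ι b)`) such that `B′_u = j R + π B′_u`;
* `rtk6fxu_dbc_of_ramified` : the datum from `MgcRamified j π p`;
* `rtk6fxu_of_dbc` : the datum gives `Rtk6emFixAt ∧ Rtk6emCongAt` for `g = Φ = σ̂`, `σ` in the
  inertia group of `A`;
* `rtk6fxu_provider` : **the provider (FIX-U)** of `rtk6ei_geomUnip_of_pieces`;
* `rtk6fxu_geomUnip` : `StmtRtk6GeomUnip` from the providers (SS1-inst), (C4-U), (D-BC datum);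
* `rtk6fxu_dbc_of_hD` : the datum from `hD` (the output of `rtk6dbc_chart_t / _tinv`, = the
  hypothesis `hD` of `rtk6c4b_chartAt`) for a base level `K₁′ ≤ ℚ̄^I`;
* `rtk6fxu_ebK_one_le` : `rtk6ebK q 1 ≤ ℚ̄^I`;
* `StmtRtk6HredU` : the special fibres of the two charts at the UNRAMIFIED level
  `K₁′ = rtk6ebK q 1` are reduced (levels with `±H ⊇` diamonds at `q`);
* `rtk6fxu_dbcProvider_of_hred`, `rtk6fxu_geomUnip_of_hred` : the providers from `StmtRtk6HredU`.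
-/
import Fermat.Agent.RT.K6.FixU
import Fermat.Agent.RT.K6.EInstGlue
import Fermat.Agent.RT.K6.DBCConc

set_option autoImplicit false
set_option linter.style.haveILetI false
set_option linter.unusedSectionVars false
set_option linter.unusedVariables false
set_option linter.style.longLine false

noncomputable section

namespace Fermat.Agent.RT.K6

open ModularCurve AlgebraicCurve Fermat.Agent.ES Fermat.Agent.ES.G2 Fermat.Agent.INJ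
open Fermat.Agent.UNIP Fermat.Agent.STB Fermat.Agent.ES1 Fermat.Agent.ES1.G2 IntermediateField

section Datum

variable (A : ValuationSubring Qb) (K₁ : IntermediateField ℚ Qb)
  (L M : ℕ) (H : Subgroup (ZMod M)ˣ) [IsDiscreteValuationRing ↥(mgcA A K₁)]

/-- **The (D-BC) datum with coefficients in the inertia field** on the chart `u`:
`B′_u = j R + π B′_u`, `j` coefficientwise over a field `E₀` whose image in `E′` lies in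
`ℚ̄^I`. -/
def Rtk6fxuDbc (π : ↥(mgcA A K₁)) (u : ↥(rtk6diF A K₁ L M H)) : Prop :=
  ∃ (E₀ : Type) (_ : Field E₀) (f : E₀ →+* ↥(mgcE A K₁)) (R : Type) (_ : CommRing R)
    (ι : R → fieldC E₀ L M H)
    (j : R →+* ↥(zchClosure (A₀ := ↥(mgcA A K₁)) ({u} : Set ↥(rtk6diF A K₁ L M H)))),
    (∀ a : E₀, ((f a : ↥(mgcE A K₁)) : Qb) ∈ beta0Field A) ∧
    (∀ b : R, ((j b : ↥(zchClosure (A₀ := ↥(mgcA A K₁))
        ({u} : Set ↥(rtk6diF A K₁ L M H)))) : ↥(rtk6diF A K₁ L M H)) =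
      rtk6diCoeffHom L M H f (ι b)) ∧
    ∀ x : ↥(zchClosure (A₀ := ↥(mgcA A K₁)) ({u} : Set ↥(rtk6diF A K₁ L M H))),
      ∃ (c : R) (z : ↥(zchClosure (A₀ := ↥(mgcA A K₁)) ({u} : Set ↥(rtk6diF A K₁ L M H)))),
        x = j c + algebraMap ↥(mgcA A K₁) ↥(zchClosure (A₀ := ↥(mgcA A K₁))
          ({u} : Set ↥(rtk6diF A K₁ L M H))) π * z

variable {A K₁ L M H}

/-- the datum from `MgcRamified j π p` (the output of (D-BC)) -/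
theorem rtk6fxu_dbc_of_ramified {π : ↥(mgcA A K₁)} {u : ↥(rtk6diF A K₁ L M H)}
    {E₀ : Type} [Field E₀] (f : E₀ →+* ↥(mgcE A K₁))
    (hf : ∀ a : E₀, ((f a : ↥(mgcE A K₁)) : Qb) ∈ beta0Field A)
    {R : Type} [CommRing R] (ι : R → fieldC E₀ L M H)
    (j : R →+* ↥(zchClosure (A₀ := ↥(mgcA A K₁)) ({u} : Set ↥(rtk6diF A K₁ L M H))))
    (hj : ∀ b : R, ((j b : ↥(zchClosure (A₀ := ↥(mgcA A K₁))
        ({u} : Set ↥(rtk6diF A K₁ L M H)))) : ↥(rtk6diF A K₁ L M H)) =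
      rtk6diCoeffHom L M H f (ι b))
    (p : R)
    (hram : MgcRamified j (algebraMap ↥(mgcA A K₁) ↥(zchClosure (A₀ := ↥(mgcA A K₁))
      ({u} : Set ↥(rtk6diF A K₁ L M H))) π) p) :
    Rtk6fxuDbc A K₁ L M H π u :=
  ⟨E₀, inferInstance, f, R, inferInstance, ι, j, hf, hj, hram.decomp⟩

/-- **FIX-U from the (D-BC) datum**: `Rtk6emFixAt ∧ Rtk6emCongAt` for `g = Φ = σ̂`. -/
theorem rtk6fxu_of_dbc {σ : Qb ≃ₐ[ℚ] Qb} (hσI : σ ∈ A.inertiaSubgroupIn ℚ)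
    (hσ : ∀ x ∈ mgcE A K₁, σ x ∈ mgcE A K₁) {π : ↥(mgcA A K₁)} (hπ : Irreducible π)
    {κ : Type} (V : κ → ValuationSubring ↥(rtk6diF A K₁ L M H))
    {u : ↥(rtk6diF A K₁ L M H)}
    (hu : u = rtk6diT A K₁ L M H ∨ u = (rtk6diT A K₁ L M H)⁻¹)
    (h : Rtk6fxuDbc A K₁ L M H π u) :
    Rtk6emFixAt A K₁ L M H π V (rtk6diGal L M H σ hσ) u ∧
      Rtk6emCongAt A K₁ L M H π V (rtk6diGal L M H σ hσ) u := by
  obtain ⟨E₀, _, f, R, _, ι, j, hf, hj, hdec⟩ := h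
  have hf' : ∀ a : E₀, σ ((f a : ↥(mgcE A K₁)) : Qb) = ((f a : ↥(mgcE A K₁)) : Qb) :=
    fun a => rtk6fxu_fix_beta0 hσI (hf a)
  exact ⟨rtk6fxu_fixAt hσI hσ hπ V hu f hf' ι j hj hdec,
    rtk6fxu_congAt hσI hσ hπ V hu f hf' ι j hj hdec⟩

/-- **the datum from `hD`** (the output of `rtk6dbc_chart_t`, `rtk6dbc_chart_tinv`), for a base
level `K₁′ ≤ ℚ̄^I`. -/
theorem rtk6fxu_dbc_of_hD {K₁' : IntermediateField ℚ Qb} (h : K₁' ≤ K₁)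
    (hK' : K₁' ≤ beta0Field A) [IsDiscreteValuationRing ↥(mgcA A K₁')]
    {ϖ₁ : ↥(mgcA A K₁')} {π : ↥(mgcA A K₁)} {u₁ : ↥(rtk6diF A K₁' L M H)}
    {u : ↥(rtk6diF A K₁ L M H)} {q' : ↥(mgcA A K₁)}
    (hD : ∃ j : ↥(zchClosure (A₀ := ↥(mgcA A K₁'))
          ({u₁} : Set ↥(rtk6diF A K₁' L M H))) →+*
        ↥(zchClosure (A₀ := ↥(mgcA A K₁)) ({u} : Set ↥(rtk6diF A K₁ L M H))),
      (∀ b, ((j b : ↥(zchClosure (A₀ := ↥(mgcA A K₁))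
        ({u} : Set ↥(rtk6diF A K₁ L M H)))) : ↥(rtk6diF A K₁ L M H)) =
          rtk6dbcIncl (A := A) L M H h (b : ↥(rtk6diF A K₁' L M H))) ∧
      MgcRamified j
        (algebraMap ↥(mgcA A K₁) ↥(zchClosure (A₀ := ↥(mgcA A K₁))
          ({u} : Set ↥(rtk6diF A K₁ L M H))) π)
        (algebraMap ↥(mgcA A K₁') ↥(zchClosure (A₀ := ↥(mgcA A K₁'))
          ({u₁} : Set ↥(rtk6diF A K₁' L M H))) ϖ₁) ∧
      j (algebraMap ↥(mgcA A K₁') ↥(zchClosure (A₀ := ↥(mgcA A K₁'))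
          ({u₁} : Set ↥(rtk6diF A K₁' L M H))) ϖ₁) =
        algebraMap ↥(mgcA A K₁) ↥(zchClosure (A₀ := ↥(mgcA A K₁))
          ({u} : Set ↥(rtk6diF A K₁ L M H))) q') :
    Rtk6fxuDbc A K₁ L M H π u := by
  obtain ⟨j, hj, hram, -⟩ := hD
  refine rtk6fxu_dbc_of_ramified (E₀ := ↥(mgcE A K₁'))
    (R := ↥(zchClosure (A₀ := ↥(mgcA A K₁')) ({u₁} : Set ↥(rtk6diF A K₁' L M H))))
    (IntermediateField.inclusion (rtk6eb_mgcE_mono (A := A) h)).toRingHom ?_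
    (fun b : ↥(zchClosure (A₀ := ↥(mgcA A K₁')) ({u₁} : Set ↥(rtk6diF A K₁' L M H))) =>
      (b : ↥(rtk6diF A K₁' L M H))) j (fun b => hj b) _ hram
  intro a
  have e : (((IntermediateField.inclusion (rtk6eb_mgcE_mono (A := A) h)).toRingHom a :
      ↥(mgcE A K₁)) : Qb) = (a : Qb) := by
    rw [AlgHom.toRingHom_eq_coe, RingHom.coe_coe, IntermediateField.coe_inclusion]
  rw [e]
  have hle : beta0Field A ⊔ K₁' ≤ beta0Field A := sup_le (le_refl (beta0Field A)) hK'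
  have ha : (a : Qb) ∈ beta0Field A ⊔ K₁' := a.2
  exact hle ha

end Datum

/-- `rtk6ebK q 1 ≤ ℚ̄^I` (the splitting field of `X − q` is `ℚ`) -/
theorem rtk6fxu_ebK_one_le (A : ValuationSubring Qb) (q : ℕ) : rtk6ebK q 1 ≤ beta0Field A := by
  unfold rtk6ebK
  rw [IntermediateField.adjoin_le_iff]
  intro x hx
  have hx' : x ^ 1 = (q : Qb) := (rtk6eb_mem_rootSet q 1 one_ne_zero).mp hx
  rw [pow_one] at hx'
  have e : x = algebraMap ℚ Qb (q : ℚ) := by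
    rw [hx']
    simp
  rw [e]
  exact (beta0Field A).algebraMap_mem _

/-! ### The provider -/

/-- **The provider (FIX-U) of `rtk6ei_geomUnip_of_pieces`**, from a provider of the (D-BC) datum
on the two charts (for all sufficiently large `K₁`). -/
theorem rtk6fxu_provider
    (hDbc : ∀ (q M₁ : ℕ) [NeZero q] [NeZero M₁] [NeZero (M₁ * q)] (M : ℕ)
      (H : Subgroup (ZMod M)ˣ) (hq : q.Prime) (hqM' : q ∣ M) (hM0 : M ≠ 0), ¬ q ∣ M₁ →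
      M ∣ M₁ * q → (∀ c : (ZMod M)ˣ, IsAtR M q c → c ∈ pmH H) → IsTameAt (M₁ * q) M q H →
      4 ∣ M₁ * q →
      ∀ (A : ValuationSubring Qb), A.LiesOverPrime q →
        Rtk6eiEv q A (fun K₁ _ hζ π hπ =>
          ∀ u : ↥(rtk6diF A K₁ (M₁ * q) M H),
            (u = rtk6diT A K₁ (M₁ * q) M H ∨ u = (rtk6diT A K₁ (M₁ * q) M H)⁻¹) →
            Rtk6fxuDbc A K₁ (M₁ * q) M H π u)) :
    ∀ (q M₁ : ℕ) [NeZero q] [NeZero M₁] [NeZero (M₁ * q)] (M : ℕ)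
      (H : Subgroup (ZMod M)ˣ) (hq : q.Prime) (hqM' : q ∣ M) (hM0 : M ≠ 0), ¬ q ∣ M₁ →
      M ∣ M₁ * q → (∀ c : (ZMod M)ˣ, IsAtR M q c → c ∈ pmH H) → IsTameAt (M₁ * q) M q H →
      4 ∣ M₁ * q →
      ∀ (w₀ : fieldBar (M₁ * q) M H ≃ₐ[Qb] fieldBar (M₁ * q) M H)
        (hw₀ : IsWAt (M₁ * q) M H q w₀) (A : ValuationSubring Qb), A.LiesOverPrime q →
        Rtk6eiEv q A (fun K₁ _ hζ π hπ =>
          ∀ σ ∈ A.inertiaSubgroupIn ℚ, ∀ (hσE : ∀ x ∈ mgcE A K₁, σ x ∈ mgcE A K₁)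
            (u : ↥(rtk6diF A K₁ (M₁ * q) M H)),
            (u = rtk6diT A K₁ (M₁ * q) M H ∨ u = (rtk6diT A K₁ (M₁ * q) M H)⁻¹) →
            Rtk6emFixAt A K₁ (M₁ * q) M H π
              (rtk6dfV hπ M H (rtk6diwW (K₀ := mgcE A K₁) w₀ hw₀ hM0 hq hqM' hζ))
              (rtk6diGal (M₁ * q) M H σ hσE) u ∧
            Rtk6emCongAt A K₁ (M₁ * q) M H π
              (rtk6dfV hπ M H (rtk6diwW (K₀ := mgcE A K₁) w₀ hw₀ hM0 hq hqM' hζ))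
              (rtk6diGal (M₁ * q) M H σ hσE) u) := by
  intro q M₁ _ _ _ M H hq hqM' hM0 hqM hML hat htame h4 w₀ hw₀ A hA
  refine (hDbc q M₁ M H hq hqM' hM0 hqM hML hat htame h4 A hA).mono ?_
  intro K₁ _ hζ π hπ h σ hσI hσE u hu
  exact rtk6fxu_of_dbc hσI hσE hπ _ hu (h u hu)

/-- **`StmtRtk6GeomUnip` from the providers (SS1-inst), (C4-U) and the (D-BC) datum.** -/
theorem rtk6fxu_geomUnip
    (hSS1 : ∀ (q M₁ : ℕ) [NeZero q] [NeZero M₁] [NeZero (M₁ * q)] (M : ℕ)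
      (H : Subgroup (ZMod M)ˣ) (hq : q.Prime) (hqM' : q ∣ M) (hM0 : M ≠ 0), ¬ q ∣ M₁ →
      M ∣ M₁ * q → (∀ c : (ZMod M)ˣ, IsAtR M q c → c ∈ pmH H) → IsTameAt (M₁ * q) M q H →
      4 ∣ M₁ * q →
      ∀ (w₀ : fieldBar (M₁ * q) M H ≃ₐ[Qb] fieldBar (M₁ * q) M H)
        (hw₀ : IsWAt (M₁ * q) M H q w₀) (A : ValuationSubring Qb), A.LiesOverPrime q →
        Rtk6eiEv q A (fun K₁ _ hζ π hπ => Rtk6emSS1 A K₁ (M₁ * q) M H π
          (rtk6dfV hπ M H (rtk6diwW (K₀ := mgcE A K₁) w₀ hw₀ hM0 hq hqM' hζ))))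
    (hNode : ∀ (q M₁ : ℕ) [NeZero q] [NeZero M₁] [NeZero (M₁ * q)] (M : ℕ)
      (H : Subgroup (ZMod M)ˣ) (hq : q.Prime) (hqM' : q ∣ M) (hM0 : M ≠ 0), ¬ q ∣ M₁ →
      M ∣ M₁ * q → (∀ c : (ZMod M)ˣ, IsAtR M q c → c ∈ pmH H) → IsTameAt (M₁ * q) M q H →
      4 ∣ M₁ * q →
      ∀ (w₀ : fieldBar (M₁ * q) M H ≃ₐ[Qb] fieldBar (M₁ * q) M H)
        (hw₀ : IsWAt (M₁ * q) M H q w₀) (A : ValuationSubring Qb), A.LiesOverPrime q →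
        Rtk6eiEv q A (fun K₁ _ hζ π hπ => Rtk6emNode A K₁ (M₁ * q) M H π
          (rtk6dfV hπ M H (rtk6diwW (K₀ := mgcE A K₁) w₀ hw₀ hM0 hq hqM' hζ))))
    (hDbc : ∀ (q M₁ : ℕ) [NeZero q] [NeZero M₁] [NeZero (M₁ * q)] (M : ℕ)
      (H : Subgroup (ZMod M)ˣ) (hq : q.Prime) (hqM' : q ∣ M) (hM0 : M ≠ 0), ¬ q ∣ M₁ →
      M ∣ M₁ * q → (∀ c : (ZMod M)ˣ, IsAtR M q c → c ∈ pmH H) → IsTameAt (M₁ * q) M q H →
      4 ∣ M₁ * q →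
      ∀ (A : ValuationSubring Qb), A.LiesOverPrime q →
        Rtk6eiEv q A (fun K₁ _ hζ π hπ =>
          ∀ u : ↥(rtk6diF A K₁ (M₁ * q) M H),
            (u = rtk6diT A K₁ (M₁ * q) M H ∨ u = (rtk6diT A K₁ (M₁ * q) M H)⁻¹) →
            Rtk6fxuDbc A K₁ (M₁ * q) M H π u)) :
    StmtRtk6GeomUnip :=
  rtk6ei_geomUnip_of_pieces hSS1 hNode (rtk6fxu_provider hDbc)

/-! ### The unramified level `K₁′ = rtk6ebK q 1` -/

/-- **(HRED-U)**: at the levels `L = M₁ q` with `±H ⊇` the diamonds at `q`, the special fibres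
of the two charts `t`, `t⁻¹` of `fieldC E₁ L M H` over the UNRAMIFIED base
`A₁ = mgcA A (rtk6ebK q 1)` are reduced. -/
def StmtRtk6HredU : Prop :=
  ∀ (q M₁ : ℕ) [NeZero q] [NeZero M₁] [NeZero (M₁ * q)] (M : ℕ)
    (H : Subgroup (ZMod M)ˣ) (hq : q.Prime) (hqM' : q ∣ M) (hM0 : M ≠ 0), ¬ q ∣ M₁ →
    M ∣ M₁ * q → (∀ c : (ZMod M)ˣ, IsAtR M q c → c ∈ pmH H) → IsTameAt (M₁ * q) M q H →
    4 ∣ M₁ * q →
    ∀ (A : ValuationSubring Qb), A.LiesOverPrime q →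
    ∀ [IsDiscreteValuationRing ↥(mgcA A (rtk6ebK q 1))]
      (ϖ₁ : ↥(mgcA A (rtk6ebK q 1))), Irreducible ϖ₁ →
      ∀ u₁ : ↥(rtk6diF A (rtk6ebK q 1) (M₁ * q) M H),
        (u₁ = rtk6diT A (rtk6ebK q 1) (M₁ * q) M H ∨
          u₁ = (rtk6diT A (rtk6ebK q 1) (M₁ * q) M H)⁻¹) →
        ∀ c : ↥(zchClosure (A₀ := ↥(mgcA A (rtk6ebK q 1)))
            ({u₁} : Set ↥(rtk6diF A (rtk6ebK q 1) (M₁ * q) M H))),
          algebraMap ↥(mgcA A (rtk6ebK q 1)) ↥(zchClosure (A₀ := ↥(mgcA A (rtk6ebK q 1)))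
            ({u₁} : Set ↥(rtk6diF A (rtk6ebK q 1) (M₁ * q) M H))) ϖ₁ ∣ c ^ 2 →
          algebraMap ↥(mgcA A (rtk6ebK q 1)) ↥(zchClosure (A₀ := ↥(mgcA A (rtk6ebK q 1)))
            ({u₁} : Set ↥(rtk6diF A (rtk6ebK q 1) (M₁ * q) M H))) ϖ₁ ∣ c

/-- **the provider of the (D-BC) datum from (HRED-U)**. -/
theorem rtk6fxu_dbcProvider_of_hred (hred : StmtRtk6HredU) :
    ∀ (q M₁ : ℕ) [NeZero q] [NeZero M₁] [NeZero (M₁ * q)] (M : ℕ)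
      (H : Subgroup (ZMod M)ˣ) (hq : q.Prime) (hqM' : q ∣ M) (hM0 : M ≠ 0), ¬ q ∣ M₁ →
      M ∣ M₁ * q → (∀ c : (ZMod M)ˣ, IsAtR M q c → c ∈ pmH H) → IsTameAt (M₁ * q) M q H →
      4 ∣ M₁ * q →
      ∀ (A : ValuationSubring Qb), A.LiesOverPrime q →
        Rtk6eiEv q A (fun K₁ _ hζ π hπ =>
          ∀ u : ↥(rtk6diF A K₁ (M₁ * q) M H),
            (u = rtk6diT A K₁ (M₁ * q) M H ∨ u = (rtk6diT A K₁ (M₁ * q) M H)⁻¹) →
            Rtk6fxuDbc A K₁ (M₁ * q) M H π u) := by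
  intro q M₁ _ _ _ M H hq hqM' hM0 hqM hML hat htame h4 A hA
  refine ⟨rtk6ebK q 1, inferInstance, ?_⟩
  intro K₁ _ _ _ hK hζ π hπ u hu
  haveI : IsDiscreteValuationRing ↥(mgcA A (rtk6ebK q 1)) := rtk6eb_isDVR hq hA
  obtain ⟨ϖ₁, hϖ₁⟩ := rtk6eb_exists_irreducible (A := A) (K₁ := rtk6ebK q 1)
  have hL : M₁ * q ≠ 0 := NeZero.ne _
  have hr := hred q M₁ M H hq hqM' hM0 hqM hML hat htame h4 A hA ϖ₁ hϖ₁
  rcases hu with rfl | rfl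
  · exact rtk6fxu_dbc_of_hD hK (rtk6fxu_ebK_one_le A q)
      (rtk6dbc_chart_t (M₁ * q) M H hq hA hK hL hML hϖ₁ hπ (hr _ (Or.inl rfl)))
  · exact rtk6fxu_dbc_of_hD hK (rtk6fxu_ebK_one_le A q)
      (rtk6dbc_chart_tinv (M₁ * q) M H hq hA hK hL hML hϖ₁ hπ (hr _ (Or.inr rfl)))

/-- **`StmtRtk6GeomUnip` from the providers (SS1-inst), (C4-U) and (HRED-U).** -/
theorem rtk6fxu_geomUnip_of_hred
    (hSS1 : ∀ (q M₁ : ℕ) [NeZero q] [NeZero M₁] [NeZero (M₁ * q)] (M : ℕ)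
      (H : Subgroup (ZMod M)ˣ) (hq : q.Prime) (hqM' : q ∣ M) (hM0 : M ≠ 0), ¬ q ∣ M₁ →
      M ∣ M₁ * q → (∀ c : (ZMod M)ˣ, IsAtR M q c → c ∈ pmH H) → IsTameAt (M₁ * q) M q H →
      4 ∣ M₁ * q →
      ∀ (w₀ : fieldBar (M₁ * q) M H ≃ₐ[Qb] fieldBar (M₁ * q) M H)
        (hw₀ : IsWAt (M₁ * q) M H q w₀) (A : ValuationSubring Qb), A.LiesOverPrime q →
        Rtk6eiEv q A (fun K₁ _ hζ π hπ => Rtk6emSS1 A K₁ (M₁ * q) M H π
          (rtk6dfV hπ M H (rtk6diwW (K₀ := mgcE A K₁) w₀ hw₀ hM0 hq hqM' hζ))))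
    (hNode : ∀ (q M₁ : ℕ) [NeZero q] [NeZero M₁] [NeZero (M₁ * q)] (M : ℕ)
      (H : Subgroup (ZMod M)ˣ) (hq : q.Prime) (hqM' : q ∣ M) (hM0 : M ≠ 0), ¬ q ∣ M₁ →
      M ∣ M₁ * q → (∀ c : (ZMod M)ˣ, IsAtR M q c → c ∈ pmH H) → IsTameAt (M₁ * q) M q H →
      4 ∣ M₁ * q →
      ∀ (w₀ : fieldBar (M₁ * q) M H ≃ₐ[Qb] fieldBar (M₁ * q) M H)
        (hw₀ : IsWAt (M₁ * q) M H q w₀) (A : ValuationSubring Qb), A.LiesOverPrime q →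
        Rtk6eiEv q A (fun K₁ _ hζ π hπ => Rtk6emNode A K₁ (M₁ * q) M H π
          (rtk6dfV hπ M H (rtk6diwW (K₀ := mgcE A K₁) w₀ hw₀ hM0 hq hqM' hζ))))
    (hred : StmtRtk6HredU) : StmtRtk6GeomUnip :=
  rtk6fxu_geomUnip hSS1 hNode (rtk6fxu_dbcProvider_of_hred hred)

end Fermat.Agent.RT.K6
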