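/-
K-machine, piece K6, C4-χ-ASM: **`hcr` of `rtk6c4aj_plusAt` for `𝒢 = rtk6fxbG`, chart `j`, with
NO open hypothesis on the automorphisms** (helper34) = helper54's `rtk6c4ac_hcr`
(`C4AsmCr.lean`) fed with (T2) `rtk6fxb_hT2` (`FixXBT2.lean`).

* `rtk6fxb_hcr` : at a closed point `𝔫` of the chart `j` of `F₁` (thin level
  `K₁ = rtk6ebK q d_q`) over a crossing point of the base chart: the datum `Rtk6c4CrossE`, the
  positions of `X₀`, `Y₀`, and `Rtk6c4aAut` for EVERY `g ∈ rtk6fxbG` (inertia + diamonds at `q`).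
-/
import Fermat.Agent.RT.K6.FixXBT2
import Fermat.Agent.RT.K6.C4AsmCr

set_option autoImplicit false
set_option linter.style.haveILetI false
set_option linter.unusedSectionVars false
set_option linter.unusedVariables false
set_option linter.style.longLine false
set_option synthInstance.maxHeartbeats 400000
set_option maxHeartbeats 4000000

noncomputable section

namespace Fermat.Agent.RT.K6

open ModularCurve Polynomial IntermediateField Fermat.Agent.INJ Fermat.Agent.AL AlgebraicCurve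
open Fermat.Agent.ES Fermat.Agent.ES.G2 Fermat.Agent.STB Fermat.Agent.UNIP Fermat.Agent.S36
open Fermat.Agent.RIB.MP Fermat.Agent.ES1 Fermat.Agent.ES1.G2

section Cr

variable {A : ValuationSubring Qb} {q M₁ : ℕ} [NeZero q] [NeZero M₁] [NeZero (M₁ * q)]
  [IsDiscreteValuationRing ↥(beta0Ring A (beta0Field A))]
  {π : ↥(beta0Ring A (beta0Field A))} (hπ : Irreducible π)
  (ιC : ↥(beta0Field A) →+* ℂ) (hq : q.Prime) (hqM : ¬ q ∣ M₁)
  (M : ℕ) [NeZero M] (H : Subgroup (ZMod M)ˣ)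
  [IsDiscreteValuationRing ↥(mgcA A (rtk6ebK q (rtk6psiDr M q H)))]
  (f : ↥(beta0Field A) →+* ↥(mgcE A (rtk6ebK q (rtk6psiDr M q H))))
  (hf : ∀ a : ↥(beta0Field A),
    ((f a : ↥(mgcE A (rtk6ebK q (rtk6psiDr M q H)))) : Qb) = (a : Qb))
  [Algebra ↥(modularFunctionFieldFullC ↥(beta0Field A) (M₁ * q))
    ↥(rtk6diF A (rtk6ebK q (rtk6psiDr M q H)) (M₁ * q) M H)]
  (halg : ∀ z : ↥(modularFunctionFieldFullC ↥(beta0Field A) (M₁ * q)),
    algebraMap ↥(modularFunctionFieldFullC ↥(beta0Field A) (M₁ * q))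
      ↥(rtk6diF A (rtk6ebK q (rtk6psiDr M q H)) (M₁ * q) M H) z
        = rtk6c4fdIota f (M₁ * q) M H z)
  (hA : A.LiesOverPrime q) (hd0 : rtk6psiDr M q H ≠ 0)
  {ϖ : ↥(mgcA A (rtk6ebK q (rtk6psiDr M q H)))}
  (hϖd : ϖ ^ rtk6psiDr M q H =
    beta0RingIncl (A := A)
      (le_sup_left : beta0Field A ≤ beta0Field A ⊔ rtk6ebK q (rtk6psiDr M q H)) π)

include hπ ιC hqM in
/-- **`hcr` for `𝒢 = rtk6fxbG`, chart `j`.** -/
theorem rtk6fxb_hcr (rigid : (q ≠ 2 → 4 ∣ M₁) ∧ (q = 2 → 9 ∣ M₁))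
    (hϖq : ϖ ^ rtk6psiDr M q H = ((q : ℕ) : ↥(mgcA A (rtk6ebK q (rtk6psiDr M q H)))))
    (hqN : q ∣ M) (hML : M ∣ M₁ * q) (hM3 : 3 ≤ M) (hstar : IsStarStable M q H)
    (htame : IsTameAt (M₁ * q) M q H)
    (𝔫 : AtPt (F := ↥(rtk6diF A (rtk6ebK q (rtk6psiDr M q H)) (M₁ * q) M H)) ϖ
      (rtk6diT A (rtk6ebK q (rtk6psiDr M q H)) (M₁ * q) M H))
    (h₁ : atThrough (rtk6gxiPt hq (rtk6ebK q (rtk6psiDr M q H)) M H f hf halg hA hd0 hϖd 𝔫)
      (mgvV hπ ιC hq hqM true))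
    (h₂ : atThrough (rtk6gxiPt hq (rtk6ebK q (rtk6psiDr M q H)) M H f hf halg hA hd0 hϖd 𝔫)
      (mgvV hπ ιC hq hqM false)) :
    ∃ (d' dS : ℕ) (ζ X Y w e₁ e₂ : ↥(zchClosure (A₀ := ↥(beta0Ring A (beta0Field A)))
        ({bgJ ↥(beta0Field A) (M₁ * q)} :
          Set ↥(modularFunctionFieldFullC ↥(beta0Field A) (M₁ * q)))))
      (S : Set ↥(rtk6diF A (rtk6ebK q (rtk6psiDr M q H)) (M₁ * q) M H))
      (y : ↥(rtk6diF A (rtk6ebK q (rtk6psiDr M q H)) (M₁ * q) M H))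
      (γ : ↥(modularFunctionFieldFullC ↥(beta0Field A) (M₁ * q))) (n₀ a b : ℤ)
      (σ δ : ↥(rtk6diF A (rtk6ebK q (rtk6psiDr M q H)) (M₁ * q) M H)
        ≃ₐ[↥(modularFunctionFieldFullC ↥(beta0Field A) (M₁ * q))]
        ↥(rtk6diF A (rtk6ebK q (rtk6psiDr M q H)) (M₁ * q) M H)),
      Rtk6c4CrossE (rtk6gxiJ (rtk6ebK q (rtk6psiDr M q H)) M H f hf halg)
        (algebraMap ↥(zchClosure (A₀ := ↥(mgcA A (rtk6ebK q (rtk6psiDr M q H))))
          ({rtk6diT A (rtk6ebK q (rtk6psiDr M q H)) (M₁ * q) M H} :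
            Set ↥(rtk6diF A (rtk6ebK q (rtk6psiDr M q H)) (M₁ * q) M H)))
          ↥(rtk6diF A (rtk6ebK q (rtk6psiDr M q H)) (M₁ * q) M H)) 𝔫.1 d' dS ζ
        (algebraMap ↥(beta0Ring A (beta0Field A))
          ↥(zchClosure (A₀ := ↥(beta0Ring A (beta0Field A)))
            ({bgJ ↥(beta0Field A) (M₁ * q)} :
              Set ↥(modularFunctionFieldFullC ↥(beta0Field A) (M₁ * q)))) π) X Y w S
        (algebraMap ↥(mgcA A (rtk6ebK q (rtk6psiDr M q H)))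
          ↥(rtk6diF A (rtk6ebK q (rtk6psiDr M q H)) (M₁ * q) M H) ϖ) y γ e₁ e₂ n₀ a b σ δ ∧
      (X : ↥(modularFunctionFieldFullC ↥(beta0Field A) (M₁ * q))) ∈
        (mgvV hπ ιC hq hqM true).nonunits ∧
      (Y : ↥(modularFunctionFieldFullC ↥(beta0Field A) (M₁ * q))) ∉
        (mgvV hπ ιC hq hqM true).nonunits ∧
      (Y : ↥(modularFunctionFieldFullC ↥(beta0Field A) (M₁ * q))) ∈
        (mgvV hπ ιC hq hqM false).nonunits ∧
      (X : ↥(modularFunctionFieldFullC ↥(beta0Field A) (M₁ * q))) ∉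
        (mgvV hπ ιC hq hqM false).nonunits ∧
      ∀ g ∈ rtk6fxbG A (rtk6ebK q (rtk6psiDr M q H)) (M₁ * q) M H q, Rtk6c4aAut
        ↥(zchClosure (A₀ := ↥(beta0Ring A (beta0Field A)))
          ({bgJ ↥(beta0Field A) (M₁ * q)} :
            Set ↥(modularFunctionFieldFullC ↥(beta0Field A) (M₁ * q))))
        ↥(modularFunctionFieldFullC ↥(beta0Field A) (M₁ * q)) ϖ
        (rtk6diT A (rtk6ebK q (rtk6psiDr M q H)) (M₁ * q) M H) S y g := by
  have hq2 : ¬ q ^ 2 ∣ M := by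
    intro h
    have h1 : q ^ 2 ∣ M₁ * q := h.trans hML
    rw [pow_two] at h1
    exact hqM (Nat.dvd_of_mul_dvd_mul_right hq.pos h1)
  exact rtk6c4ac_hcr hπ ιC hq hqM M H f hf halg hA hd0 hϖd rigid hϖq hqN hML hM3 hstar htame
    (rtk6fxbG A (rtk6ebK q (rtk6psiDr M q H)) (M₁ * q) M H q)
    (rtk6fxb_hT2 (rtk6ebK q (rtk6psiDr M q H)) f hf halg hML _ hq hqN hq2 hϖq) 𝔫 h₁ h₂

end Cr

end Fermat.Agent.RT.K6

end
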