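/-
K-machine, piece K6, piece **FIX-X** (helper67): the provider `hFix` and the final wiring of the
case (χ) with the open input stated for helper34's set `rtk6fxbG` (`RT/K6/FixXB.lean`).

* `rtk6fxxG_eq_fxbG`      : `rtk6fxxG A K₁ L M H r = rtk6fxbG A K₁ L M H r`;
* `Rtk6fxxThinPlusB A w₀` : the open input with `𝒢 = rtk6fxbG`; `Rtk6fxxThinPlusB.plus`;
* **`rtk6fxx_geomChi_B`** : `StmtRtk6SS1Gen → (hPlus with rtk6fxbG) → StmtRtk6GeomChi`.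
-/
import Fermat.Agent.RT.K6.FixXInst
import Fermat.Agent.RT.K6.FixXB

set_option autoImplicit false
set_option linter.style.haveILetI false
set_option linter.unusedSectionVars false
set_option linter.unusedVariables false
set_option linter.style.longLine false

noncomputable section

namespace Fermat.Agent.RT.K6

open ModularCurve AlgebraicCurve Fermat.Agent.ES Fermat.Agent.ES.G2 Fermat.Agent.INJ
open Fermat.Agent.UNIP Fermat.Agent.STB Fermat.Agent.ES1 Fermat.Agent.ES1.G2 IntermediateField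

/-- the two descriptions of the set of automorphisms of FIX-X agree -/
theorem rtk6fxxG_eq_fxbG (A : ValuationSubring Qb) (K₁ : IntermediateField ℚ Qb)
    (L M : ℕ) (H : Subgroup (ZMod M)ˣ) (r : ℕ) :
    rtk6fxxG A K₁ L M H r = rtk6fxbG A K₁ L M H r := by
  ext g
  constructor
  · rintro (⟨σ, hσ, hσI, rfl⟩ | ⟨c, δ, hc, hδ, rfl⟩)
    · exact Or.inl ⟨σ, hσI, hσ, rfl⟩
    · exact Or.inr ⟨c, δ, hc, hδ, rfl⟩
  · rintro (⟨σ, hσI, hσ, rfl⟩ | ⟨c, δ, hc, hδ, rfl⟩)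
    · exact rtk6fxx_gal_mem_G r hσI hσ
    · exact rtk6fxx_diamond_mem_G hc hδ

section Ev

variable {q M₁ : ℕ} [NeZero q] [NeZero M₁] [NeZero (M₁ * q)] {M : ℕ} {H : Subgroup (ZMod M)ˣ}

/-- **The open input of the case (χ)**, with helper34's set `rtk6fxbG`. -/
def Rtk6fxxThinPlusB (A : ValuationSubring Qb)
    (w₀ : fieldBar (M₁ * q) M H ≃ₐ[Qb] fieldBar (M₁ * q) M H) : Prop :=
  ∃ (K₁' : IntermediateField ℚ Qb) (_ : NumberField ↥K₁') (_ : IsGalois ℚ ↥K₁')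
    (_ : IsDiscreteValuationRing ↥(mgcA A K₁')) (ϖ₁ : ↥(mgcA A K₁')) (hϖ₁ : Irreducible ϖ₁)
    (hc₁ : RtkCommK (mgcE A K₁') w₀),
    (∀ 𝔫₁ : AtPt (F := ↥(rtk6diF A K₁' (M₁ * q) M H)) ϖ₁ (rtk6diT A K₁' (M₁ * q) M H),
      Rtk6c4aPlusAt (rtk6dfV hϖ₁ M H (rtk6diwEquiv (K₀ := mgcE A K₁') w₀ hc₁))
        (rtk6fxbG A K₁' (M₁ * q) M H q) 𝔫₁) ∧
    (∀ 𝔫₁ : AtPt (F := ↥(rtk6diF A K₁' (M₁ * q) M H)) ϖ₁
        (rtk6diT A K₁' (M₁ * q) M H)⁻¹,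
      Rtk6c4aPlusAt (rtk6dfV hϖ₁ M H (rtk6diwEquiv (K₀ := mgcE A K₁') w₀ hc₁))
        (rtk6fxbG A K₁' (M₁ * q) M H q) 𝔫₁)

theorem Rtk6fxxThinPlusB.plus {A : ValuationSubring Qb}
    {w₀ : fieldBar (M₁ * q) M H ≃ₐ[Qb] fieldBar (M₁ * q) M H}
    (hT : Rtk6fxxThinPlusB A w₀) : Rtk6fxxThinPlus A w₀ := by
  obtain ⟨K₁', hNF, hGal, hDVR, ϖ₁, hϖ₁, hc₁, hP₁, hP₂⟩ := hT
  exact ⟨K₁', hNF, hGal, hDVR, ϖ₁, hϖ₁, hc₁,
    fun 𝔫₁ => (hP₁ 𝔫₁).mono (rtk6fxxG_eq_fxbG A K₁' (M₁ * q) M H q).le,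
    fun 𝔫₁ => (hP₂ 𝔫₁).mono (rtk6fxxG_eq_fxbG A K₁' (M₁ * q) M H q).le⟩

end Ev

/-- **FINAL wiring, case (χ), ONE open input** (with `𝒢 = rtk6fxbG`). -/
theorem rtk6fxx_geomChi_B (hS : StmtRtk6SS1Gen)
    (hPlus : ∀ (q M₁ : ℕ) [NeZero q] [NeZero M₁] [NeZero (M₁ * q)] (M : ℕ)
      (H : Subgroup (ZMod M)ˣ) (hq : q.Prime) (hqM' : q ∣ M) (hM0 : M ≠ 0), ¬ q ∣ M₁ →
      M ∣ M₁ * q → IsStarStable M q H → IsTameAt (M₁ * q) M q H → 4 ∣ M₁ * q →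
      ∀ (w₀ : fieldBar (M₁ * q) M H ≃ₐ[Qb] fieldBar (M₁ * q) M H)
        (hw₀ : IsWAt (M₁ * q) M H q w₀) (A : ValuationSubring Qb), A.LiesOverPrime q →
        Rtk6fxxThinPlusB A w₀) :
    StmtRtk6GeomChi :=
  rtk6fxx_geomChi hS
    (fun q M₁ _ _ _ M H hq hqM' hM0 hqM hML hstar htame h4 w₀ hw₀ A hA =>
      (hPlus q M₁ M H hq hqM' hM0 hqM hML hstar htame h4 w₀ hw₀ A hA).plus)

end Fermat.Agent.RT.K6
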