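/-
K-machine, piece K6, LF-inst on the chart `1 / j` (helper71), part 3: TRANSFER OF THE NODE DATUM
`Rtk6ewmNodeAt` (RT/K6/EWMulti.lean, helper18) between two charts with the same local ring, and
the reduction of the chart `t⁻¹` to the chart `t` and the cusps.

Setting of `UNIP/AbstractT.lean` (all universes free): charts `B_u = zchClosure {u}`, closed points
`AtPt π u`, local rings `atLoc 𝔫`.

* `rtk6lfn_through`, `rtk6lfn_smooth`, `rtk6lfn_cross` : the universe-free twins of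
  `rtk6lfi_through_transfer`, `rtk6lfi_smooth_transfer`, `rtk6lfi_cross_transfer`;
* `rtk6lfn_nodeAt_transfer` : **`Rtk6ewmNodeAt V 𝔫₁ id π → Rtk6ewmNodeAt V 𝔫₂ id π`** if
  `atLoc 𝔫₁ = atLoc 𝔫₂`;
* `rtk6lfn_nodeAt_inv` : the node datum at the closed points of the chart `t` and at the CUSPS of the
  chart `t⁻¹` (`t⁻¹ ∈ 𝔫`) gives the node datum at ALL closed points of the chart `t⁻¹`;
* `rtk6lfn_thinAt_inv` : the same for `Rtk6lfThinAt` (RT/K6/DLFChart.lean).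
-/
import Fermat.Agent.RT.K6.LFInvAbs
import Fermat.Agent.RT.K6.EWMulti
import Fermat.Agent.RIB.MP.FacGlue

set_option autoImplicit false
set_option linter.unusedSectionVars false
set_option linter.unusedVariables false
set_option linter.style.haveILetI false

namespace Fermat.Agent.RT.K6

open Fermat.Agent.UNIP Fermat.Agent.STB Fermat.Agent.INJ Fermat.Agent.RIB.MP IntermediateField

section Node

variable {A₀ E F : Type*} [CommRing A₀] [IsDomain A₀] [IsDiscreteValuationRing A₀]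
  [Field E] [Algebra A₀ E] [IsFractionRing A₀ E] [CharZero E]
  [Field F] [Algebra E F] [Algebra A₀ F] [IsScalarTower A₀ E F]
  {π : A₀} {κ : Type*}

/-- incidence moves between charts with the same local ring -/
theorem rtk6lfn_through {u u' : F} (𝔫₁ : AtPt (F := F) π u) (𝔫₂ : AtPt (F := F) π u')
    (h : atLoc 𝔫₁ = atLoc 𝔫₂) (W : ValuationSubring F)
    (hBW : ∀ b : F, IsIntegral ↥(Algebra.adjoin A₀ {u}) b → b ∈ W)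
    (h₁ : atThrough 𝔫₁ W) : atThrough 𝔫₂ W := by
  haveI := 𝔫₁.2.1.isPrime
  haveI := 𝔫₂.2.1.isPrime
  intro b' hb'
  obtain ⟨b, t, ht, e⟩ := rtk6lfi_exists_num (F := F) 𝔫₂.1 𝔫₁.1 h.ge b'
  have e' : (t : F) * (b' : F) = (b : F) := e
  have hb : (b : F) ∈ W.nonunits := by
    rw [← e']
    exact pwi_mul_mem_nonunits W (hBW _ (mem_zchClosure.mp t.2)) hb'
  have hb𝔫 : b ∈ 𝔫₁.1 := h₁ b hb
  by_contra hb'𝔫
  exact rtk6lfi_not_mem_of_not_mem (F := F) Subtype.val_injective Subtype.val_injective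
    𝔫₂.1 𝔫₁.1 h.ge hb'𝔫 ht e hb𝔫

/-- the coercion of the uniformizer of a chart -/
theorem rtk6lfn_coe_pi (u : F) :
    ((algebraMap A₀ ↥(zchClosure (A₀ := A₀) ({u} : Set F)) π :
      ↥(zchClosure (A₀ := A₀) ({u} : Set F))) : F) = algebraMap A₀ F π := rfl

/-- the uniformizer moves between charts -/
theorem rtk6lfn_pi {u u' : F} (𝔫₂ : AtPt (F := F) π u')
    (T₂ : Set ↥(zchClosure (A₀ := A₀) ({u'} : Set F)))
    (hT₂ : algebraMap A₀ ↥(zchClosure (A₀ := A₀) ({u'} : Set F)) π ∈ T₂) :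
    ∃ w y : ↥(zchClosure (A₀ := A₀) ({u'} : Set F)), w ∉ 𝔫₂.1 ∧ y ∈ Ideal.span T₂ ∧
      algebraMap ↥(zchClosure (A₀ := A₀) ({u'} : Set F)) F w *
        algebraMap ↥(zchClosure (A₀ := A₀) ({u} : Set F)) F
          (algebraMap A₀ ↥(zchClosure (A₀ := A₀) ({u} : Set F)) π) =
      algebraMap ↥(zchClosure (A₀ := A₀) ({u'} : Set F)) F y := by
  haveI := 𝔫₂.2.1.isPrime
  refine ⟨1, algebraMap A₀ ↥(zchClosure (A₀ := A₀) ({u'} : Set F)) π,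
    fun h' => 𝔫₂.2.1.isPrime.ne_top ((Ideal.eq_top_iff_one 𝔫₂.1).mpr h'),
    Ideal.subset_span hT₂, ?_⟩
  rw [map_one, one_mul]
  exact (rtk6lfn_coe_pi (π := π) u).trans (rtk6lfn_coe_pi (π := π) u').symm

/-- **Transfer of the thin dichotomy, smooth case.** -/
theorem rtk6lfn_smooth {u u' : F} (𝔫₁ : AtPt (F := F) π u) (𝔫₂ : AtPt (F := F) π u')
    (h : atLoc 𝔫₁ = atLoc 𝔫₂)
    {s : ↥(zchClosure (A₀ := A₀) ({u} : Set F))} (hs : s ∈ 𝔫₁.1)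
    (hgen : NodesLocGen 𝔫₁.1 {algebraMap A₀ ↥(zchClosure (A₀ := A₀) ({u} : Set F)) π, s}) :
    ∃ s' : ↥(zchClosure (A₀ := A₀) ({u'} : Set F)), s' ∈ 𝔫₂.1 ∧
      NodesLocGen 𝔫₂.1 {algebraMap A₀ ↥(zchClosure (A₀ := A₀) ({u'} : Set F)) π, s'} := by
  haveI := 𝔫₁.2.1.isPrime
  haveI := 𝔫₂.2.1.isPrime
  have hinj₁ : Function.Injective
      (algebraMap ↥(zchClosure (A₀ := A₀) ({u} : Set F)) F) := Subtype.val_injective
  have hinj₂ : Function.Injective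
      (algebraMap ↥(zchClosure (A₀ := A₀) ({u'} : Set F)) F) := Subtype.val_injective
  have hloc : ls_localSubring (F := F) 𝔫₁.1 = ls_localSubring (F := F) 𝔫₂.1 := h
  obtain ⟨s', v, hv, e⟩ := rtk6lfi_exists_num (F := F) 𝔫₁.1 𝔫₂.1 hloc.le s
  have hs' : s' ∈ 𝔫₂.1 := rtk6lfi_mem_of_mem hinj₁ hinj₂ 𝔫₁.1 𝔫₂.1 hloc.ge hs e
  refine ⟨s', hs', ?_⟩
  refine rtk6lfi_locGen_transfer hinj₁ hinj₂ 𝔫₁.1 𝔫₂.1 hloc ?_ hgen
  intro x hx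
  rcases hx with hx | hx
  · rw [hx]
    exact rtk6lfn_pi 𝔫₂ _ (Set.mem_insert _ _)
  · rw [Set.mem_singleton_iff] at hx
    rw [hx]
    exact ⟨v, s', hv, Ideal.subset_span (Set.mem_insert_of_mem _ rfl), e⟩

/-- **Transfer of the thin dichotomy, crossing case.** -/
theorem rtk6lfn_cross {u u' : F} (𝔫₁ : AtPt (F := F) π u) (𝔫₂ : AtPt (F := F) π u')
    (h : atLoc 𝔫₁ = atLoc 𝔫₂) (V₁ V₂ : ValuationSubring F)
    (hBV₁ : ∀ b : F, IsIntegral ↥(Algebra.adjoin A₀ {u}) b → b ∈ V₁)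
    (hBV₂ : ∀ b : F, IsIntegral ↥(Algebra.adjoin A₀ {u}) b → b ∈ V₂)
    (hBV₁' : ∀ b : F, IsIntegral ↥(Algebra.adjoin A₀ {u'}) b → b ∈ V₁)
    (hBV₂' : ∀ b : F, IsIntegral ↥(Algebra.adjoin A₀ {u'}) b → b ∈ V₂)
    {X Y w : ↥(zchClosure (A₀ := A₀) ({u} : Set F))}
    (hth₁ : atThrough 𝔫₁ V₁) (hth₂ : atThrough 𝔫₁ V₂)
    (hX : (X : F) ∈ V₁.nonunits) (hY : (Y : F) ∈ V₂.nonunits) (hw : w ∉ 𝔫₁.1)
    (hXY : w * algebraMap A₀ ↥(zchClosure (A₀ := A₀) ({u} : Set F)) π = X * Y)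
    (hgen : NodesLocGen 𝔫₁.1 {algebraMap A₀ ↥(zchClosure (A₀ := A₀) ({u} : Set F)) π, X, Y}) :
    ∃ X' Y' w' : ↥(zchClosure (A₀ := A₀) ({u'} : Set F)),
      atThrough 𝔫₂ V₁ ∧ atThrough 𝔫₂ V₂ ∧ (X' : F) ∈ V₁.nonunits ∧ (Y' : F) ∈ V₂.nonunits ∧
      w' ∉ 𝔫₂.1 ∧
      w' * algebraMap A₀ ↥(zchClosure (A₀ := A₀) ({u'} : Set F)) π = X' * Y' ∧
      NodesLocGen 𝔫₂.1 {algebraMap A₀ ↥(zchClosure (A₀ := A₀) ({u'} : Set F)) π, X', Y'} := by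
  haveI := 𝔫₁.2.1.isPrime
  haveI := 𝔫₂.2.1.isPrime
  have hinj₁ : Function.Injective
      (algebraMap ↥(zchClosure (A₀ := A₀) ({u} : Set F)) F) := Subtype.val_injective
  have hinj₂ : Function.Injective
      (algebraMap ↥(zchClosure (A₀ := A₀) ({u'} : Set F)) F) := Subtype.val_injective
  have hloc : ls_localSubring (F := F) 𝔫₁.1 = ls_localSubring (F := F) 𝔫₂.1 := h
  obtain ⟨X', v₁, hv₁, eX⟩ := rtk6lfi_exists_num (F := F) 𝔫₁.1 𝔫₂.1 hloc.le X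
  obtain ⟨Y', v₂, hv₂, eY⟩ := rtk6lfi_exists_num (F := F) 𝔫₁.1 𝔫₂.1 hloc.le Y
  obtain ⟨w₁, w₀, hw₀, ew⟩ := rtk6lfi_exists_num (F := F) 𝔫₁.1 𝔫₂.1 hloc.le w
  have hw₁ : w₁ ∉ 𝔫₂.1 :=
    rtk6lfi_not_mem_of_not_mem hinj₁ hinj₂ 𝔫₁.1 𝔫₂.1 hloc.le hw hw₀ ew
  have eX' : (v₁ : F) * (X : F) = (X' : F) := eX
  have eY' : (v₂ : F) * (Y : F) = (Y' : F) := eY
  have ew' : (w₀ : F) * (w : F) = (w₁ : F) := ew
  have hXY' : (w : F) * algebraMap A₀ F π = (X : F) * (Y : F) := by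
    have h1 := congrArg (fun z : ↥(zchClosure (A₀ := A₀) ({u} : Set F)) => (z : F)) hXY
    simp only [MulMemClass.coe_mul] at h1
    rw [rtk6lfn_coe_pi] at h1
    exact h1
  have hwv : w₀ * v₁ ∉ 𝔫₂.1 := fun h' => by
    rcases 𝔫₂.2.1.isPrime.mem_or_mem h' with h'' | h''
    · exact hw₀ h''
    · exact hv₁ h''
  have e1 : ((w₀ * X' : ↥(zchClosure (A₀ := A₀) ({u'} : Set F))) : F) =
      ((w₀ : F) * (v₁ : F)) * (X : F) := by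
    rw [MulMemClass.coe_mul, ← eX']; ring
  refine ⟨w₀ * X', Y', w₁ * v₁ * v₂, ?_, ?_, ?_, ?_, ?_, ?_, ?_⟩
  · exact rtk6lfn_through 𝔫₁ 𝔫₂ h V₁ hBV₁ hth₁
  · exact rtk6lfn_through 𝔫₁ 𝔫₂ h V₂ hBV₂ hth₂
  · -- `w₀ X' = (w₀ v₁) X ∈ 𝔪(V₁)`
    rw [e1]
    exact pwi_mul_mem_nonunits V₁
      (V₁.mul_mem _ _ (hBV₁' _ (mem_zchClosure.mp w₀.2)) (hBV₁' _ (mem_zchClosure.mp v₁.2))) hX
  · rw [← eY']
    exact pwi_mul_mem_nonunits V₂ (hBV₂' _ (mem_zchClosure.mp v₂.2)) hY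
  · intro h'
    rcases 𝔫₂.2.1.isPrime.mem_or_mem h' with h'' | h''
    · rcases 𝔫₂.2.1.isPrime.mem_or_mem h'' with h3 | h3
      · exact hw₁ h3
      · exact hv₁ h3
    · exact hv₂ h''
  · apply Subtype.ext
    rw [MulMemClass.coe_mul, MulMemClass.coe_mul, MulMemClass.coe_mul, MulMemClass.coe_mul,
      MulMemClass.coe_mul, rtk6lfn_coe_pi, ← ew', ← eX', ← eY']
    calc (w₀ : F) * (w : F) * (v₁ : F) * (v₂ : F) * algebraMap A₀ F π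
        = (w₀ : F) * (v₁ : F) * (v₂ : F) * ((w : F) * algebraMap A₀ F π) := by ring
      _ = (w₀ : F) * (v₁ : F) * (v₂ : F) * ((X : F) * (Y : F)) := by rw [hXY']
      _ = (w₀ : F) * ((v₁ : F) * (X : F)) * ((v₂ : F) * (Y : F)) := by ring
  · refine rtk6lfi_locGen_transfer hinj₁ hinj₂ 𝔫₁.1 𝔫₂.1 hloc ?_ hgen
    intro x hx
    rcases hx with hx | hx | hx
    · rw [hx]
      exact rtk6lfn_pi 𝔫₂ _ (Set.mem_insert _ _)
    · rw [hx]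
      exact ⟨w₀ * v₁, w₀ * X', hwv,
        Ideal.subset_span (Set.mem_insert_of_mem _ (Set.mem_insert _ _)), by
          show ((w₀ * v₁ : ↥(zchClosure (A₀ := A₀) ({u'} : Set F))) : F) * (X : F) =
            ((w₀ * X' : ↥(zchClosure (A₀ := A₀) ({u'} : Set F))) : F)
          rw [e1, MulMemClass.coe_mul]⟩
    · rw [Set.mem_singleton_iff] at hx
      rw [hx]
      exact ⟨v₂, Y', hv₂,
        Ideal.subset_span (Set.mem_insert_of_mem _ (Set.mem_insert_of_mem _ rfl)), eY⟩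


/-- **Transfer of the node datum `Rtk6ewmNodeAt`** (on the chart itself, `j = id`) between two
charts with the same local ring. -/
theorem rtk6lfn_nodeAt_transfer (V : κ → ValuationSubring F) {u u' : F}
    (𝔫₁ : AtPt (F := F) π u) (𝔫₂ : AtPt (F := F) π u') (h : atLoc 𝔫₁ = atLoc 𝔫₂)
    (hBV : ∀ c (b : F), IsIntegral ↥(Algebra.adjoin A₀ {u}) b → b ∈ V c)
    (hBV' : ∀ c (b : F), IsIntegral ↥(Algebra.adjoin A₀ {u'}) b → b ∈ V c)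
    (hnode : Rtk6ewmNodeAt V 𝔫₁ (RingHom.id ↥(zchClosure (A₀ := A₀) ({u} : Set F)))
      (algebraMap A₀ ↥(zchClosure (A₀ := A₀) ({u} : Set F)) π)) :
    Rtk6ewmNodeAt V 𝔫₂ (RingHom.id ↥(zchClosure (A₀ := A₀) ({u'} : Set F)))
      (algebraMap A₀ ↥(zchClosure (A₀ := A₀) ({u'} : Set F)) π) := by
  rcases hnode with ⟨s, hs, hgen⟩ | ⟨c₁, c₂, X, Y, w, hth₁, hth₂, hX, hY, hw, hXY, hgen⟩
  · rw [Ideal.comap_id] at hgen
    obtain ⟨s', hs', hgen'⟩ := rtk6lfn_smooth 𝔫₁ 𝔫₂ h hs hgen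
    refine Or.inl ⟨s', hs', ?_⟩
    rw [Ideal.comap_id]
    exact hgen'
  · rw [Ideal.comap_id] at hgen
    obtain ⟨X', Y', w', h1, h2, h3, h4, h5, h6, h7⟩ :=
      rtk6lfn_cross 𝔫₁ 𝔫₂ h (V c₁) (V c₂) (hBV c₁) (hBV c₂) (hBV' c₁) (hBV' c₂)
        (fun b hb => hth₁ b hb) (fun b hb => hth₂ b hb) hX hY hw hXY hgen
    refine Or.inr ⟨c₁, c₂, X', Y', w', fun x hx => h1 x hx, fun x hx => h2 x hx, h3, h4, h5, h6, ?_⟩
    rw [Ideal.comap_id]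
    exact h7

/-- **The chart `t⁻¹` from the chart `t` and the cusps**, for the node datum `Rtk6ewmNodeAt`. -/
theorem rtk6lfn_nodeAt_inv (hπ : Irreducible π) {t : F} (ht : t ≠ 0)
    (V : κ → ValuationSubring F)
    (hBV₁ : ∀ c (b : F), IsIntegral ↥(Algebra.adjoin A₀ {t}) b → b ∈ V c)
    (hBV₂ : ∀ c (b : F), IsIntegral ↥(Algebra.adjoin A₀ {t⁻¹}) b → b ∈ V c)
    (h₁ : ∀ 𝔫 : AtPt (F := F) π t,
      Rtk6ewmNodeAt V 𝔫 (RingHom.id ↥(zchClosure (A₀ := A₀) ({t} : Set F)))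
        (algebraMap A₀ ↥(zchClosure (A₀ := A₀) ({t} : Set F)) π))
    (h₂ : ∀ 𝔫 : AtPt (F := F) π t⁻¹, ribmpFglGen (A₀ := A₀) t⁻¹ ∈ 𝔫.1 →
      Rtk6ewmNodeAt V 𝔫 (RingHom.id ↥(zchClosure (A₀ := A₀) ({t⁻¹} : Set F)))
        (algebraMap A₀ ↥(zchClosure (A₀ := A₀) ({t⁻¹} : Set F)) π))
    (𝔫 : AtPt (F := F) π t⁻¹) :
    Rtk6ewmNodeAt V 𝔫 (RingHom.id ↥(zchClosure (A₀ := A₀) ({t⁻¹} : Set F)))
      (algebraMap A₀ ↥(zchClosure (A₀ := A₀) ({t⁻¹} : Set F)) π) := by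
  by_cases hT : ribmpFglGen (A₀ := A₀) t⁻¹ ∈ 𝔫.1
  · exact h₂ 𝔫 hT
  · obtain ⟨𝔫₁, h𝔫₁⟩ := ribmp_fgl_exists_pt_inv hπ ht 𝔫 hT
    exact rtk6lfn_nodeAt_transfer V 𝔫₁ 𝔫 h𝔫₁ hBV₁ hBV₂ (h₁ 𝔫₁)

end Node

section Thin

universe u

variable {A₀ E F : Type u} [CommRing A₀] [IsDomain A₀] [IsDiscreteValuationRing A₀]
  [Field E] [Algebra A₀ E] [IsFractionRing A₀ E] [CharZero E]
  [Field F] [Algebra E F] [Algebra A₀ F] [IsScalarTower A₀ E F]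
  {π : A₀}

/-- **The chart `t⁻¹` from the chart `t` and the cusps**, for the thin dichotomy
`Rtk6lfThinAt`. -/
theorem rtk6lfn_thinAt_inv (hπ : Irreducible π) {t : F} (ht : t ≠ 0)
    (V₁ V₂ : ValuationSubring F)
    (hBV₁ : ∀ b : F, IsIntegral ↥(Algebra.adjoin A₀ {t}) b → b ∈ V₁)
    (hBV₂ : ∀ b : F, IsIntegral ↥(Algebra.adjoin A₀ {t}) b → b ∈ V₂)
    (hBV₁' : ∀ b : F, IsIntegral ↥(Algebra.adjoin A₀ {t⁻¹}) b → b ∈ V₁)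
    (hBV₂' : ∀ b : F, IsIntegral ↥(Algebra.adjoin A₀ {t⁻¹}) b → b ∈ V₂)
    (h₁ : ∀ 𝔫 : AtPt (F := F) π t, Rtk6lfThinAt V₁ V₂ 𝔫)
    (h₂ : ∀ 𝔫 : AtPt (F := F) π t⁻¹, ribmpFglGen (A₀ := A₀) t⁻¹ ∈ 𝔫.1 →
      ∃ s : ↥(zchClosure (A₀ := A₀) ({t⁻¹} : Set F)), s ∈ 𝔫.1 ∧
        NodesLocGen 𝔫.1 {algebraMap A₀ ↥(zchClosure (A₀ := A₀) ({t⁻¹} : Set F)) π, s})
    (𝔫 : AtPt (F := F) π t⁻¹) : Rtk6lfThinAt V₁ V₂ 𝔫 := by
  by_cases hT : ribmpFglGen (A₀ := A₀) t⁻¹ ∈ 𝔫.1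
  · exact Or.inl (h₂ 𝔫 hT)
  · obtain ⟨𝔫₁, h𝔫₁⟩ := ribmp_fgl_exists_pt_inv hπ ht 𝔫 hT
    exact rtk6lfi_thinAt_transfer 𝔫₁ 𝔫 h𝔫₁ V₁ V₂ hBV₁ hBV₂ hBV₁' hBV₂' (h₁ 𝔫₁)

end Thin

end Fermat.Agent.RT.K6
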