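/-
K-machine, piece K6, piece **HSTAB-inst** (helper11), chart `j` ONLY: `Rtk6m4Stab` from

* the THIN datum with (EIGEN) for the diamonds at `q` on the chart `t` of `F′` ONLY
  (`Rtk6hsThinChart … t`, `RT/K6/HStabThin.lean`);
* (FIX-X) `Rtk6emCongAt` for the diamonds at `q` on the chart `t` ONLY;
* the CUSPS of the chart `t⁻¹` are smooth points (`Rtk6hsCusp`): on a chart `(R, j, p)`,
  `MgcRamified j π p`, every closed point `𝔫 ∋ t⁻¹` of the chart `t⁻¹` is `(p, s)` locally.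

Reason: a closed point of the chart `t⁻¹` through which two components pass is not a cusp, hence
has the same local ring as a closed point of the chart `t` (`ribmp_fgl_exists_pt_inv`), and
`atThrough` moves between charts with the same local ring (`rtk6lfn_through`).  So NO crossing
datum, NO (EIGEN) and NO (FIX) is needed on the chart `t⁻¹`.

* `rtk6hs_stab_thinJ_abs` : the abstract theorem;
* `Rtk6hsCusp`, `rtk6hs_cusp_only` : the cusps;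
* `rtk6hs_comap_eq_thinJ`, **`rtk6hs_stab_thinJ`**, `rtk6hs_stab_thinJ_W`;
* **`rtk6hs_hStab_of_piecesJ`**  : the provider `hStab` of the glue `rtk6ei_geomChi_of_pieces`;
* **`rtk6hs_geomChi_of_piecesJ`** : `StmtRtk6GeomChi` from (THIN on `t`), (CUSP), (SS1-inst), (C4),
  (FIX-X).
-/
import Fermat.Agent.RT.K6.HStabThin
import Fermat.Agent.RT.K6.LFInvNode

set_option autoImplicit false
set_option linter.style.haveILetI false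
set_option linter.unusedSectionVars false
set_option linter.unusedVariables false

noncomputable section

namespace Fermat.Agent.RT.K6

open ModularCurve AlgebraicCurve Fermat.Agent.ES Fermat.Agent.ES.G2 Fermat.Agent.INJ
open Fermat.Agent.UNIP Fermat.Agent.STB Fermat.Agent.ES1 Fermat.Agent.ES1.G2 IntermediateField
open Fermat.Agent.RIB.MP

/-! ### The abstract theorem -/

section Abs

variable {A₀ E F : Type*} [CommRing A₀] [IsDomain A₀] [IsDiscreteValuationRing A₀]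
  [Field E] [Algebra A₀ E] [IsFractionRing A₀ E] [CharZero E]
  [Field F] [Algebra E F] [Algebra A₀ F] [IsScalarTower A₀ E F]
  {π : A₀} {κ : Type*}

/-- **HSTAB, abstract form, chart `t` only.**  The thin datum with (EIGEN) and (FIX) on the chart
`t`; through every cusp of the chart `t⁻¹` passes only one component. -/
theorem rtk6hs_stab_thinJ_abs (hπ : Irreducible π) {t : F} (ht : Transcendental E t)
    [FiniteDimensional E⟮t⟯ F]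
    (hcl : ∀ x : F, IsAlgebraic E x → x ∈ (algebraMap E F).range)
    [Finite κ]
    [IsNoetherianRing ↥(zchClosure (A₀ := A₀) ({t} : Set F))]
    (V : κ → ValuationSubring F) (hinj : Function.Injective V)
    (hBV₁ : ∀ c (b : F), IsIntegral ↥(Algebra.adjoin A₀ {t}) b → b ∈ V c)
    (hBV₂ : ∀ c (b : F), IsIntegral ↥(Algebra.adjoin A₀ {t⁻¹}) b → b ∈ V c)
    (hπV : ∀ c, algebraMap A₀ F π ∈ (V c).nonunits)
    (hSS1 : ∀ b : F, IsIntegral ↥(Algebra.adjoin A₀ {t}) b → (∀ c, b ∈ (V c).nonunits) →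
      ∃ b' : F, IsIntegral ↥(Algebra.adjoin A₀ {t}) b' ∧ b = algebraMap A₀ F π * b')
    (harch : ∀ c (a x : F), a ∈ (V c).nonunits → ∃ N : ℕ, a ^ N * x ∈ (V c).nonunits)
    (hVloc₁ : ∀ c (x : F), x ∈ V c → ∃ b s : F, IsIntegral ↥(Algebra.adjoin A₀ {t}) b ∧
      IsIntegral ↥(Algebra.adjoin A₀ {t}) s ∧ s ∉ (V c).nonunits ∧ s * x = b)
    (D : Set (F →+* F)) (δ : F →+* F) (hδ : δ ∈ D)
    (hδB₁ : ∀ b : F, IsIntegral ↥(Algebra.adjoin A₀ {t}) b →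
      IsIntegral ↥(Algebra.adjoin A₀ {t}) (δ b))
    (c₀ c₁ : κ) (hne : c₁ ≠ c₀) (hperm : ∃ c', V c' = (V c₀).comap δ)
    {R₁ : Type*} [CommRing R₁] (j₁ : R₁ →+* ↥(zchClosure (A₀ := A₀) ({t} : Set F))) (p₁ : R₁)
    (hram₁ : MgcRamified j₁ (algebraMap A₀ ↥(zchClosure (A₀ := A₀) ({t} : Set F)) π) p₁)
    (hjp₁ : j₁ p₁ ≠ 0)
    (hthin₁ : ∀ 𝔫 : AtPt (F := F) π t, Rtk6hsThinAt D 𝔫 j₁ p₁)
    (hfix₁ : ∀ (𝔫 : AtPt (F := F) π t) (c c' : κ), c ≠ c' → atThrough 𝔫 (V c) →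
      atThrough 𝔫 (V c') → Rtk6ewCong δ 1 𝔫)
    (hcusp : ∀ 𝔫 : AtPt (F := F) π t⁻¹, ribmpFglGen (A₀ := A₀) t⁻¹ ∈ 𝔫.1 →
      ∀ c c' : κ, atThrough 𝔫 (V c) → atThrough 𝔫 (V c') → c = c') :
    (V c₀).comap δ = V c₀ := by
  have hπ0 : algebraMap A₀ F π ≠ 0 :=
    (map_ne_zero_iff _ (zch_algebraMap_injective (A₀ := A₀) (E := E) (L := F))).mpr hπ.ne_zero
  have ht0 : t ≠ 0 := fun h => ht (by rw [h]; exact isAlgebraic_zero)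
  have hconn := rtk6ewm_hconn hπ ht hcl V hinj hBV₁ hBV₂ hπV hSS1 harch hVloc₁
  obtain ⟨i, c, hc, h₀, h₁⟩ := rtk6hs_exists_edge (atInc π t V) hconn c₀ c₁ hne
  -- a closed point of the chart `t` through which `V c₀` and `V c` pass
  have key : ∃ 𝔫 : AtPt (F := F) π t, atThrough 𝔫 (V c₀) ∧ atThrough 𝔫 (V c) := by
    rcases i with 𝔫 | 𝔫
    · exact ⟨𝔫, h₀, h₁⟩
    · by_cases hT : ribmpFglGen (A₀ := A₀) t⁻¹ ∈ 𝔫.1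
      · exact absurd (hcusp 𝔫 hT c c₀ h₁ h₀) hc
      · obtain ⟨𝔫₁, h𝔫₁⟩ := ribmp_fgl_exists_pt_inv hπ ht0 𝔫 hT
        exact ⟨𝔫₁, rtk6lfn_through 𝔫 𝔫₁ h𝔫₁.symm (V c₀) (hBV₂ c₀) h₀,
          rtk6lfn_through 𝔫 𝔫₁ h𝔫₁.symm (V c) (hBV₂ c) h₁⟩
  obtain ⟨𝔫, h₀', h₁'⟩ := key
  obtain ⟨X, hX, hXc⟩ := rtk6hs_sem_of_thin hπ0 V hinj hBV₁ hπV hSS1 harch hVloc₁ D δ hδ
    j₁ p₁ hram₁ hjp₁ 𝔫 (hthin₁ 𝔫) c₀ c hc h₀' h₁'
  exact rtk6hs_core V c₀ δ hperm 𝔫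
    (rtk6hs_through_comap (V c₀) δ 𝔫 h₀' hδB₁
      (rtk6hs_fix_of_ewCong δ 𝔫 (hfix₁ 𝔫 c c₀ hc h₁' h₀'))) hX hXc

/-- **Only one component passes through a smooth point given on a chart `(R, j, p)`.** -/
theorem rtk6hs_smooth_only (hπ0 : algebraMap A₀ F π ≠ 0) {u : F}
    [IsNoetherianRing ↥(zchClosure (A₀ := A₀) ({u} : Set F))]
    (V : κ → ValuationSubring F) (hinj : Function.Injective V)
    (hBV : ∀ c (b : F), IsIntegral ↥(Algebra.adjoin A₀ {u}) b → b ∈ V c)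
    (hπV : ∀ c, algebraMap A₀ F π ∈ (V c).nonunits)
    (harch : ∀ c (a x : F), a ∈ (V c).nonunits → ∃ N : ℕ, a ^ N * x ∈ (V c).nonunits)
    (hVloc : ∀ c (x : F), x ∈ V c → ∃ b s : F, IsIntegral ↥(Algebra.adjoin A₀ {u}) b ∧
      IsIntegral ↥(Algebra.adjoin A₀ {u}) s ∧ s ∉ (V c).nonunits ∧ s * x = b)
    {R : Type*} [CommRing R] (j : R →+* ↥(zchClosure (A₀ := A₀) ({u} : Set F))) (p : R)
    (hram : MgcRamified j (algebraMap A₀ ↥(zchClosure (A₀ := A₀) ({u} : Set F)) π) p)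
    (𝔫 : AtPt (F := F) π u)
    (hsm : ∃ s : R, j s ∈ 𝔫.1 ∧ NodesLocGen (𝔫.1.comap j) {p, s})
    (c c' : κ) (hc : atThrough 𝔫 (V c)) (hc' : atThrough 𝔫 (V c')) : c = c' := by
  obtain ⟨s, hs, hgen⟩ := hsm
  exact stb_sx_only V hBV hπV hVloc (rtk6ewm_hinc hπ0 V hinj hπV harch) 𝔫 (j s) hs
    (hram.mgg_locGen_pair 𝔫.2.2 s hgen) c c' hc hc'

end Abs

/-! ### The inputs -/

section Inputs

variable (A : ValuationSubring Qb) (K₁ : IntermediateField ℚ Qb)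
  (L M : ℕ) (H : Subgroup (ZMod M)ˣ) [IsDiscreteValuationRing ↥(mgcA A K₁)]

/-- **The cusps of the chart `t⁻¹` are smooth points**: on a chart `(R, j, p)`,
`MgcRamified j π p`, every closed point `𝔫 ∋ t⁻¹` of the special fibre of the chart `t⁻¹` is
`(p, s)` locally. -/
def Rtk6hsCusp (π : ↥(mgcA A K₁)) : Prop :=
  ∃ (R : Type) (_ : CommRing R)
    (j : R →+* ↥(zchClosure (A₀ := ↥(mgcA A K₁))
      ({(rtk6diT A K₁ L M H)⁻¹} : Set ↥(rtk6diF A K₁ L M H)))) (p : R),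
    MgcRamified j (algebraMap ↥(mgcA A K₁) ↥(zchClosure (A₀ := ↥(mgcA A K₁))
      ({(rtk6diT A K₁ L M H)⁻¹} : Set ↥(rtk6diF A K₁ L M H))) π) p ∧
    ∀ 𝔫 : AtPt (F := ↥(rtk6diF A K₁ L M H)) π (rtk6diT A K₁ L M H)⁻¹,
      ribmpFglGen (A₀ := ↥(mgcA A K₁)) (rtk6diT A K₁ L M H)⁻¹ ∈ 𝔫.1 →
      ∃ s : R, j s ∈ 𝔫.1 ∧ NodesLocGen (𝔫.1.comap j) {p, s}

variable {A K₁ L M H}

/-- the cusps are smooth if they are smooth on the chart `t⁻¹` itself -/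
theorem rtk6hs_cusp_of_id {π : ↥(mgcA A K₁)}
    (h : ∀ 𝔫 : AtPt (F := ↥(rtk6diF A K₁ L M H)) π (rtk6diT A K₁ L M H)⁻¹,
      ribmpFglGen (A₀ := ↥(mgcA A K₁)) (rtk6diT A K₁ L M H)⁻¹ ∈ 𝔫.1 →
      ∃ s : ↥(zchClosure (A₀ := ↥(mgcA A K₁))
          ({(rtk6diT A K₁ L M H)⁻¹} : Set ↥(rtk6diF A K₁ L M H))), s ∈ 𝔫.1 ∧
        NodesLocGen 𝔫.1 {algebraMap ↥(mgcA A K₁) ↥(zchClosure (A₀ := ↥(mgcA A K₁))
          ({(rtk6diT A K₁ L M H)⁻¹} : Set ↥(rtk6diF A K₁ L M H))) π, s}) :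
    Rtk6hsCusp A K₁ L M H π := by
  refine ⟨_, _, RingHom.id _, algebraMap ↥(mgcA A K₁) _ π,
    ⟨dvd_refl _, fun x => ⟨x, 0, by simp⟩, fun c hc => hc⟩, fun 𝔫 h𝔫 => ?_⟩
  obtain ⟨s, hs, hgen⟩ := h 𝔫 h𝔫
  refine ⟨s, hs, ?_⟩
  rw [Ideal.comap_id]
  exact hgen

end Inputs

/-! ### The theorem -/

section Main

variable {A : ValuationSubring Qb} {K₁ : IntermediateField ℚ Qb}
  [IsDiscreteValuationRing ↥(mgcA A K₁)] {π : ↥(mgcA A K₁)} (hπ : Irreducible π)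
  {q M₁ : ℕ} [NeZero q] [NeZero M₁] [NeZero (M₁ * q)]
  {M : ℕ} {H : Subgroup (ZMod M)ˣ}
  {w : ↥(rtk6diF A K₁ (M₁ * q) M H) ≃ₐ[↥(mgcE A K₁)] ↥(rtk6diF A K₁ (M₁ * q) M H)}

set_option maxHeartbeats 1600000 in
/-- only one component of the family passes through a cusp of the chart `t⁻¹` -/
theorem rtk6hs_cusp_only (hML : M ∣ M₁ * q)
    (fam : Rtk6emFam A K₁ (M₁ * q) M H π (rtk6dfV hπ M H w))
    (hcusp : Rtk6hsCusp A K₁ (M₁ * q) M H π)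
    (𝔫 : AtPt (F := ↥(rtk6diF A K₁ (M₁ * q) M H)) π (rtk6diT A K₁ (M₁ * q) M H)⁻¹)
    (h𝔫 : ribmpFglGen (A₀ := ↥(mgcA A K₁)) (rtk6diT A K₁ (M₁ * q) M H)⁻¹ ∈ 𝔫.1)
    (c c' : rtk6dfK hπ M H w) (hc : atThrough 𝔫 (rtk6dfV hπ M H w c))
    (hc' : atThrough 𝔫 (rtk6dfV hπ M H w c')) : c = c' := by
  haveI := rtk6di_finiteDimensional A K₁ (M₁ * q) M H (NeZero.ne (M₁ * q)) hML
  have ht := rtk6di_transcendental A K₁ (M₁ * q) M H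
  have ht' : Transcendental ↥(mgcE A K₁) (rtk6diT A K₁ (M₁ * q) M H)⁻¹ :=
    zch_transcendental_inv ht
  haveI : FiniteDimensional (↥(mgcE A K₁))⟮(rtk6diT A K₁ (M₁ * q) M H)⁻¹⟯
      ↥(rtk6diF A K₁ (M₁ * q) M H) :=
    at_finiteDimensional_inv (rtk6diT A K₁ (M₁ * q) M H)
  haveI : IsNoetherianRing ↥(zchClosure (A₀ := ↥(mgcA A K₁))
      ({(rtk6diT A K₁ (M₁ * q) M H)⁻¹} : Set ↥(rtk6diF A K₁ (M₁ * q) M H))) :=
    chart_closure_isNoetherianRing (A₀ := ↥(mgcA A K₁)) (E := ↥(mgcE A K₁)) ht'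
  have hπ0 : algebraMap ↥(mgcA A K₁) ↥(rtk6diF A K₁ (M₁ * q) M H) π ≠ 0 :=
    (map_ne_zero_iff _ (zch_algebraMap_injective (A₀ := ↥(mgcA A K₁)) (E := ↥(mgcE A K₁))
      (L := ↥(rtk6diF A K₁ (M₁ * q) M H)))).mpr hπ.ne_zero
  obtain ⟨R, _, j, p, hram, hsm⟩ := hcusp
  exact rtk6hs_smooth_only hπ0 (rtk6dfV hπ M H w) fam.hinj fam.hBV₂ fam.hπV fam.harch
    fam.hVloc₂ j p hram 𝔫 (hsm 𝔫 h𝔫) c c' hc hc'

set_option maxHeartbeats 1600000 in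
/-- **`δ⁻¹ V_∞ = V_∞` for ONE `δ ∈ Γ`**, from the thin datum with (EIGEN) and (FIX-X) for `δ`
on the chart `t`, and the smoothness of the cusps. -/
theorem rtk6hs_comap_eq_thinJ (hML : M ∣ M₁ * q)
    (fam : Rtk6emFam A K₁ (M₁ * q) M H π (rtk6dfV hπ M H w))
    (ss1 : Rtk6emSS1 A K₁ (M₁ * q) M H π (rtk6dfV hπ M H w))
    (hne : rtk6dvV hπ M H w true ≠ rtk6dvV hπ M H w false)
    {δ : ↥(rtk6diF A K₁ (M₁ * q) M H) ≃ₐ[↥(mgcE A K₁)] ↥(rtk6diF A K₁ (M₁ * q) M H)}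
    (hδ : δ ∈ rtk6dfGam ↥(mgcE A K₁) (M₁ * q) M H)
    (D : Set (↥(rtk6diF A K₁ (M₁ * q) M H) →+* ↥(rtk6diF A K₁ (M₁ * q) M H)))
    (hδD : δ.toRingEquiv.toRingHom ∈ D) {q₀ : ↥(mgcA A K₁)} (hq0 : q₀ ≠ 0)
    (hthin : Rtk6hsThinChart A K₁ (M₁ * q) M H π q₀ D (rtk6diT A K₁ (M₁ * q) M H))
    (hcusp : Rtk6hsCusp A K₁ (M₁ * q) M H π)
    (hcong₁ : Rtk6emCongAt A K₁ (M₁ * q) M H π (rtk6dfV hπ M H w)
      (SemilinearAut.ofAlgAut δ) (rtk6diT A K₁ (M₁ * q) M H)) :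
    (rtk6dvV hπ M H w true).comap δ.toRingEquiv.toRingHom = rtk6dvV hπ M H w true := by
  haveI := rtk6di_finiteDimensional A K₁ (M₁ * q) M H (NeZero.ne (M₁ * q)) hML
  haveI : Finite (rtk6dfK hπ M H w) := fam.hfin
  have ht := rtk6di_transcendental A K₁ (M₁ * q) M H
  haveI : IsNoetherianRing ↥(zchClosure (A₀ := ↥(mgcA A K₁))
      ({rtk6diT A K₁ (M₁ * q) M H} : Set ↥(rtk6diF A K₁ (M₁ * q) M H))) :=
    chart_closure_isNoetherianRing (A₀ := ↥(mgcA A K₁)) (E := ↥(mgcE A K₁)) ht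
  obtain ⟨R₁, _, j₁, p₁, hram₁, hjp₁, hthin₁⟩ := hthin
  exact rtk6hs_stab_thinJ_abs hπ ht (rtk6di_hcl A K₁ (M₁ * q) M H) (rtk6dfV hπ M H w)
    fam.hinj fam.hBV₁ fam.hBV₂ fam.hπV ss1 fam.harch fam.hVloc₁
    D δ.toRingEquiv.toRingHom hδD (fun b hb => rtk6hs_gam_isIntegral hδ hb)
    (rtk6dfInf hπ M H w) (rtk6dfZero hπ M H w) (rtk6hs_zero_ne_inf hπ hne)
    ⟨rtk6dfComap (rtk6dvV hπ M H w) δ hδ (rtk6dfInf hπ M H w), rfl⟩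
    j₁ p₁ hram₁ (rtk6ewm_jp_ne_zero (E := ↥(mgcE A K₁)) hπ q₀ hq0 j₁ p₁ hjp₁)
    hthin₁
    (fun 𝔫 c c' hcc' hc hc' b => hcong₁ 𝔫 c c' hcc' hc hc' b)
    (fun 𝔫 h𝔫 c c' hc hc' => rtk6hs_cusp_only hπ hML fam hcusp 𝔫 h𝔫 c c' hc hc')

/-- **HSTAB from the thin datum on the chart `t` only.** -/
theorem rtk6hs_stab_thinJ (hML : M ∣ M₁ * q)
    (fam : Rtk6emFam A K₁ (M₁ * q) M H π (rtk6dfV hπ M H w))
    (ss1 : Rtk6emSS1 A K₁ (M₁ * q) M H π (rtk6dfV hπ M H w))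
    (hne : rtk6dvV hπ M H w true ≠ rtk6dvV hπ M H w false)
    {q₀ : ↥(mgcA A K₁)} (hq0 : q₀ ≠ 0)
    (hthin : Rtk6hsThinChart A K₁ (M₁ * q) M H π q₀ (rtk6hsDiam A K₁ (M₁ * q) M H q)
      (rtk6diT A K₁ (M₁ * q) M H))
    (hcusp : Rtk6hsCusp A K₁ (M₁ * q) M H π)
    (hcong : ∀ c : (ZMod M)ˣ, IsAtR M q c →
      ∀ δ : ↥(rtk6diF A K₁ (M₁ * q) M H) ≃ₐ[↥(mgcE A K₁)] ↥(rtk6diF A K₁ (M₁ * q) M H),
        IsDiamondC ↥(mgcE A K₁) (M₁ * q) M H c δ →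
        Rtk6emCongAt A K₁ (M₁ * q) M H π (rtk6dfV hπ M H w)
          (SemilinearAut.ofAlgAut δ) (rtk6diT A K₁ (M₁ * q) M H)) :
    Rtk6m4Stab hπ M H w := by
  intro c hc δ hδ x hx
  have key := rtk6hs_comap_eq_thinJ hπ hML fam ss1 hne hδ.mem_gam
    (rtk6hsDiam A K₁ (M₁ * q) M H q) ⟨c, δ, hc, hδ, rfl⟩ hq0 hthin hcusp (hcong c hc δ hδ)
  have hx' : x ∈ (rtk6dvV hπ M H w true).comap δ.toRingEquiv.toRingHom := by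
    rw [key]
    exact hx
  exact hx'

end Main

/-! ### The instance `w = rtk6diwW` -/

section Inst

variable {A : ValuationSubring Qb} {K₁ : IntermediateField ℚ Qb}
  [IsDiscreteValuationRing ↥(mgcA A K₁)] {π : ↥(mgcA A K₁)} (hπ : Irreducible π)
  {q M₁ : ℕ} [NeZero q] [NeZero M₁] [NeZero (M₁ * q)]
  {M : ℕ} {H : Subgroup (ZMod M)ˣ}
  (w₀ : fieldBar (M₁ * q) M H ≃ₐ[Qb] fieldBar (M₁ * q) M H) (hw₀ : IsWAt (M₁ * q) M H q w₀)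
  (hM0 : M ≠ 0) (hq : q.Prime) (hqM' : q ∣ M)
  (hζ : ∀ ζ : Qb, ζ ^ q = 1 → ζ ∈ mgcE A K₁)

/-- **HSTAB at `w = rtk6diwW`**, chart `t` only. -/
theorem rtk6hs_stab_thinJ_W (hqM : ¬ q ∣ M₁) (hA : A.LiesOverPrime q) (hML : M ∣ M₁ * q)
    (ss1 : Rtk6emSS1 A K₁ (M₁ * q) M H π
      (rtk6dfV hπ M H (rtk6diwW (K₀ := mgcE A K₁) w₀ hw₀ hM0 hq hqM' hζ)))
    {q₀ : ↥(mgcA A K₁)} (hq0 : q₀ ≠ 0)
    (hthin : Rtk6hsThinChart A K₁ (M₁ * q) M H π q₀ (rtk6hsDiam A K₁ (M₁ * q) M H q)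
      (rtk6diT A K₁ (M₁ * q) M H))
    (hcusp : Rtk6hsCusp A K₁ (M₁ * q) M H π)
    (hcong : ∀ c : (ZMod M)ˣ, IsAtR M q c →
      ∀ δ : ↥(rtk6diF A K₁ (M₁ * q) M H) ≃ₐ[↥(mgcE A K₁)] ↥(rtk6diF A K₁ (M₁ * q) M H),
        IsDiamondC ↥(mgcE A K₁) (M₁ * q) M H c δ →
        Rtk6emCongAt A K₁ (M₁ * q) M H π
          (rtk6dfV hπ M H (rtk6diwW (K₀ := mgcE A K₁) w₀ hw₀ hM0 hq hqM' hζ))
          (SemilinearAut.ofAlgAut δ) (rtk6diT A K₁ (M₁ * q) M H)) :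
    Rtk6m4Stab hπ M H (rtk6diwW (K₀ := mgcE A K₁) w₀ hw₀ hM0 hq hqM' hζ) :=
  rtk6hs_stab_thinJ hπ hML
    (rtk6m1_emFam_W hπ (mgdIota (mgcE A K₁)) w₀ hw₀ hM0 hq hqM' hqM hζ hA hML) ss1
    (rtk6dv_hne hπ (mgdIota (mgcE A K₁)) hq hqM M H _
      (rtk6m1_wIncl (mgdIota (mgcE A K₁)) w₀ hw₀ hM0 hq hqM' hqM hζ) hA)
    hq0 hthin hcusp hcong

end Inst

/-! ### The provider of the glue -/

/-- **The provider `hStab` of `rtk6ei_geomChi_of_pieces`** from (THIN on the chart `t`), (CUSP),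
(SS1-inst), (FIX-X). -/
theorem rtk6hs_hStab_of_piecesJ
    (hThin : ∀ (q M₁ : ℕ) [NeZero q] [NeZero M₁] [NeZero (M₁ * q)] (M : ℕ)
      (H : Subgroup (ZMod M)ˣ) (hq : q.Prime) (hqM' : q ∣ M) (hM0 : M ≠ 0), ¬ q ∣ M₁ →
      M ∣ M₁ * q → IsStarStable M q H → IsTameAt (M₁ * q) M q H → 4 ∣ M₁ * q →
      ∀ (A : ValuationSubring Qb), A.LiesOverPrime q →
        Rtk6eiEv q A (fun K₁ _ hζ π hπ =>
          (∃ q₀ : ↥(mgcA A K₁), q₀ ≠ 0 ∧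
            Rtk6hsThinChart A K₁ (M₁ * q) M H π q₀ (rtk6hsDiam A K₁ (M₁ * q) M H q)
              (rtk6diT A K₁ (M₁ * q) M H)) ∧
          Rtk6hsCusp A K₁ (M₁ * q) M H π))
    (hSS1 : ∀ (q M₁ : ℕ) [NeZero q] [NeZero M₁] [NeZero (M₁ * q)] (M : ℕ)
      (H : Subgroup (ZMod M)ˣ) (hq : q.Prime) (hqM' : q ∣ M) (hM0 : M ≠ 0), ¬ q ∣ M₁ →
      M ∣ M₁ * q → IsStarStable M q H → IsTameAt (M₁ * q) M q H → 4 ∣ M₁ * q →
      ∀ (w₀ : fieldBar (M₁ * q) M H ≃ₐ[Qb] fieldBar (M₁ * q) M H)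
        (hw₀ : IsWAt (M₁ * q) M H q w₀) (A : ValuationSubring Qb), A.LiesOverPrime q →
        Rtk6eiEv q A (fun K₁ _ hζ π hπ => Rtk6emSS1 A K₁ (M₁ * q) M H π
          (rtk6dfV hπ M H (rtk6diwW (K₀ := mgcE A K₁) w₀ hw₀ hM0 hq hqM' hζ))))
    (hFix : ∀ (q M₁ : ℕ) [NeZero q] [NeZero M₁] [NeZero (M₁ * q)] (M : ℕ)
      (H : Subgroup (ZMod M)ˣ) (hq : q.Prime) (hqM' : q ∣ M) (hM0 : M ≠ 0), ¬ q ∣ M₁ →
      M ∣ M₁ * q → IsStarStable M q H → IsTameAt (M₁ * q) M q H → 4 ∣ M₁ * q →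
      ∀ (w₀ : fieldBar (M₁ * q) M H ≃ₐ[Qb] fieldBar (M₁ * q) M H)
        (hw₀ : IsWAt (M₁ * q) M H q w₀) (A : ValuationSubring Qb), A.LiesOverPrime q →
        Rtk6eiEv q A (fun K₁ _ hζ π hπ =>
          ∀ σ ∈ A.inertiaSubgroupIn ℚ, ∀ (hσE : ∀ x ∈ mgcE A K₁, σ x ∈ mgcE A K₁)
            (c' : (ZMod M)ˣ), IsAtR M q c' →
            ∀ δ₀' : ↥(rtk6diF A K₁ (M₁ * q) M H) ≃ₐ[↥(mgcE A K₁)]
                ↥(rtk6diF A K₁ (M₁ * q) M H),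
              IsDiamondC ↥(mgcE A K₁) (M₁ * q) M H c' δ₀' →
              ∀ u : ↥(rtk6diF A K₁ (M₁ * q) M H),
                (u = rtk6diT A K₁ (M₁ * q) M H ∨ u = (rtk6diT A K₁ (M₁ * q) M H)⁻¹) →
                Rtk6emFixAt A K₁ (M₁ * q) M H π
                  (rtk6dfV hπ M H (rtk6diwW (K₀ := mgcE A K₁) w₀ hw₀ hM0 hq hqM' hζ))
                  (rtk6diGal (M₁ * q) M H σ hσE) u ∧
                Rtk6emCongAt A K₁ (M₁ * q) M H π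
                  (rtk6dfV hπ M H (rtk6diwW (K₀ := mgcE A K₁) w₀ hw₀ hM0 hq hqM' hζ))
                  (SemilinearAut.ofAlgAut δ₀') u)) :
    ∀ (q M₁ : ℕ) [NeZero q] [NeZero M₁] [NeZero (M₁ * q)] (M : ℕ)
      (H : Subgroup (ZMod M)ˣ) (hq : q.Prime) (hqM' : q ∣ M) (hM0 : M ≠ 0), ¬ q ∣ M₁ →
      M ∣ M₁ * q → IsStarStable M q H → IsTameAt (M₁ * q) M q H → 4 ∣ M₁ * q →
      ∀ (w₀ : fieldBar (M₁ * q) M H ≃ₐ[Qb] fieldBar (M₁ * q) M H)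
        (hw₀ : IsWAt (M₁ * q) M H q w₀) (A : ValuationSubring Qb), A.LiesOverPrime q →
        Rtk6eiEv q A (fun K₁ _ hζ π hπ =>
          Rtk6m4Stab hπ M H (rtk6diwW (K₀ := mgcE A K₁) w₀ hw₀ hM0 hq hqM' hζ)) := by
  intro q M₁ _ _ _ M H hq hqM' hM0 hqM hML hstar htame h4 w₀ hw₀ A hA
  have h0 := hThin q M₁ M H hq hqM' hM0 hqM hML hstar htame h4 A hA
  have h1 := hSS1 q M₁ M H hq hqM' hM0 hqM hML hstar htame h4 w₀ hw₀ A hA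
  have h3 := hFix q M₁ M H hq hqM' hM0 hqM hML hstar htame h4 w₀ hw₀ A hA
  obtain ⟨K₀, hfin, hK₀⟩ := (h0.and h1).and h3
  refine ⟨K₀, hfin, fun K₁ _ _ _ hK hζ π hπ => ?_⟩
  obtain ⟨⟨⟨⟨q₀, hq0, hthin⟩, hcusp⟩, hss1⟩, hfix⟩ := hK₀ K₁ hK hζ hπ
  refine rtk6hs_stab_thinJ_W hπ w₀ hw₀ hM0 hq hqM' hζ hqM hA hML hss1 hq0 hthin hcusp
    fun c hc δ hδ => ?_
  have hone : (1 : Qb ≃ₐ[ℚ] Qb) ∈ A.inertiaSubgroupIn ℚ := Subgroup.one_mem _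
  have hσE : ∀ x ∈ mgcE A K₁, (1 : Qb ≃ₐ[ℚ] Qb) x ∈ mgcE A K₁ := fun x hx => hx
  exact (hfix 1 hone hσE c hc δ hδ _ (Or.inl rfl)).2

/-- **`StmtRtk6GeomChi` from (THIN on the chart `t`), (CUSP), (SS1-inst), (C4), (FIX-X)**: the glue
`rtk6ei_geomChi_of_pieces` with (HSTAB) discharged from the chart `t` only. -/
theorem rtk6hs_geomChi_of_piecesJ
    (hThin : ∀ (q M₁ : ℕ) [NeZero q] [NeZero M₁] [NeZero (M₁ * q)] (M : ℕ)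
      (H : Subgroup (ZMod M)ˣ) (hq : q.Prime) (hqM' : q ∣ M) (hM0 : M ≠ 0), ¬ q ∣ M₁ →
      M ∣ M₁ * q → IsStarStable M q H → IsTameAt (M₁ * q) M q H → 4 ∣ M₁ * q →
      ∀ (A : ValuationSubring Qb), A.LiesOverPrime q →
        Rtk6eiEv q A (fun K₁ _ hζ π hπ =>
          (∃ q₀ : ↥(mgcA A K₁), q₀ ≠ 0 ∧
            Rtk6hsThinChart A K₁ (M₁ * q) M H π q₀ (rtk6hsDiam A K₁ (M₁ * q) M H q)
              (rtk6diT A K₁ (M₁ * q) M H)) ∧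
          Rtk6hsCusp A K₁ (M₁ * q) M H π))
    (hSS1 : ∀ (q M₁ : ℕ) [NeZero q] [NeZero M₁] [NeZero (M₁ * q)] (M : ℕ)
      (H : Subgroup (ZMod M)ˣ) (hq : q.Prime) (hqM' : q ∣ M) (hM0 : M ≠ 0), ¬ q ∣ M₁ →
      M ∣ M₁ * q → IsStarStable M q H → IsTameAt (M₁ * q) M q H → 4 ∣ M₁ * q →
      ∀ (w₀ : fieldBar (M₁ * q) M H ≃ₐ[Qb] fieldBar (M₁ * q) M H)
        (hw₀ : IsWAt (M₁ * q) M H q w₀) (A : ValuationSubring Qb), A.LiesOverPrime q →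
        Rtk6eiEv q A (fun K₁ _ hζ π hπ => Rtk6emSS1 A K₁ (M₁ * q) M H π
          (rtk6dfV hπ M H (rtk6diwW (K₀ := mgcE A K₁) w₀ hw₀ hM0 hq hqM' hζ))))
    (hNode : ∀ (q M₁ : ℕ) [NeZero q] [NeZero M₁] [NeZero (M₁ * q)] (M : ℕ)
      (H : Subgroup (ZMod M)ˣ) (hq : q.Prime) (hqM' : q ∣ M) (hM0 : M ≠ 0), ¬ q ∣ M₁ →
      M ∣ M₁ * q → IsStarStable M q H → IsTameAt (M₁ * q) M q H → 4 ∣ M₁ * q →
      ∀ (w₀ : fieldBar (M₁ * q) M H ≃ₐ[Qb] fieldBar (M₁ * q) M H)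
        (hw₀ : IsWAt (M₁ * q) M H q w₀) (A : ValuationSubring Qb), A.LiesOverPrime q →
        Rtk6eiEv q A (fun K₁ _ hζ π hπ => Rtk6emNode A K₁ (M₁ * q) M H π
          (rtk6dfV hπ M H (rtk6diwW (K₀ := mgcE A K₁) w₀ hw₀ hM0 hq hqM' hζ))))
    (hFix : ∀ (q M₁ : ℕ) [NeZero q] [NeZero M₁] [NeZero (M₁ * q)] (M : ℕ)
      (H : Subgroup (ZMod M)ˣ) (hq : q.Prime) (hqM' : q ∣ M) (hM0 : M ≠ 0), ¬ q ∣ M₁ →
      M ∣ M₁ * q → IsStarStable M q H → IsTameAt (M₁ * q) M q H → 4 ∣ M₁ * q →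
      ∀ (w₀ : fieldBar (M₁ * q) M H ≃ₐ[Qb] fieldBar (M₁ * q) M H)
        (hw₀ : IsWAt (M₁ * q) M H q w₀) (A : ValuationSubring Qb), A.LiesOverPrime q →
        Rtk6eiEv q A (fun K₁ _ hζ π hπ =>
          ∀ σ ∈ A.inertiaSubgroupIn ℚ, ∀ (hσE : ∀ x ∈ mgcE A K₁, σ x ∈ mgcE A K₁)
            (c' : (ZMod M)ˣ), IsAtR M q c' →
            ∀ δ₀' : ↥(rtk6diF A K₁ (M₁ * q) M H) ≃ₐ[↥(mgcE A K₁)]
                ↥(rtk6diF A K₁ (M₁ * q) M H),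
              IsDiamondC ↥(mgcE A K₁) (M₁ * q) M H c' δ₀' →
              ∀ u : ↥(rtk6diF A K₁ (M₁ * q) M H),
                (u = rtk6diT A K₁ (M₁ * q) M H ∨ u = (rtk6diT A K₁ (M₁ * q) M H)⁻¹) →
                Rtk6emFixAt A K₁ (M₁ * q) M H π
                  (rtk6dfV hπ M H (rtk6diwW (K₀ := mgcE A K₁) w₀ hw₀ hM0 hq hqM' hζ))
                  (rtk6diGal (M₁ * q) M H σ hσE) u ∧
                Rtk6emCongAt A K₁ (M₁ * q) M H π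
                  (rtk6dfV hπ M H (rtk6diwW (K₀ := mgcE A K₁) w₀ hw₀ hM0 hq hqM' hζ))
                  (SemilinearAut.ofAlgAut δ₀') u)) :
    StmtRtk6GeomChi :=
  rtk6ei_geomChi_of_pieces (rtk6hs_hStab_of_piecesJ hThin hSS1 hFix) hSS1 hNode hFix

end Fermat.Agent.RT.K6
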