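/-
K-machine, piece K6, piece **HSTAB-inst** (helper11), two levels: transfer of the thin datum with
(EIGEN) (`Rtk6hsThinAt`, `RT/K6/HStabThinAbs.lean`) from the chart `R₁ = zchClosure {u₁}` of the
thin level `A₁` to the chart `B′ = zchClosure {u}` of the level `A′`, along
`j : R₁ →+* B′` (`MgcRamified j π′ π₁`, D-BC), `(j b : F′) = ι b`.

Setting of `RT/K6/FixXAbs.lean`, section TwoLevel (helper67).

* `rtk6hs_thinAt_of_plusAt`   : the thin datum at the thin level from helper94's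
  `Rtk6c4aPlusAt V₁ 𝒢 𝔫₁` (`RT/K6/C4Asm.lean`);
* **`rtk6hs_thinAt_transfer`** : `Rtk6hsThinAt D₁ (𝔫 ∩ R₁) id π₁ → Rtk6hsThinAt D 𝔫 j π₁`, if every
  `δ ∈ D` restricts to some `δ₁ ∈ D₁` (`δ ∘ ι = ι ∘ δ₁`);
* `rtk6hs_thinAt_of_plusAt_transfer` : the two together.
-/
import Fermat.Agent.RT.K6.HStabThinAbs
import Fermat.Agent.RT.K6.FixXAbs
import Fermat.Agent.RT.K6.C4Asm

set_option autoImplicit false
set_option linter.style.haveILetI false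
set_option linter.unusedSectionVars false
set_option linter.unusedVariables false

namespace Fermat.Agent.RT.K6

open Polynomial IntermediateField Fermat.Agent.INJ AlgebraicCurve Fermat.Agent.UNIP
  Fermat.Agent.STB

section OneLevel

variable {A₀ E F : Type*} [CommRing A₀] [IsDomain A₀] [IsDiscreteValuationRing A₀]
  [Field E] [Algebra A₀ E] [IsFractionRing A₀ E] [CharZero E]
  [Field F] [Algebra E F] [Algebra A₀ F] [IsScalarTower A₀ E F]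
  {π : A₀} {κ : Type*}

/-- **The thin datum with (EIGEN) from C4+** (`Rtk6c4aPlusAt`, helper94): for a set `D` of ring
endomorphisms each of which is the action of some `g ∈ 𝒢`. -/
theorem rtk6hs_thinAt_of_plusAt {V : κ → ValuationSubring F} {𝒢 : Set (SemilinearAut E F)}
    {u : F} {𝔫 : AtPt (F := F) π u} (h : Rtk6c4aPlusAt V 𝒢 𝔫) (D : Set (F →+* F))
    (hD : ∀ δ ∈ D, ∃ g ∈ 𝒢, ∀ x : F, δ x = g • x) :
    Rtk6hsThinAt D 𝔫 (RingHom.id ↥(zchClosure (A₀ := A₀) ({u} : Set F)))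
      (algebraMap A₀ ↥(zchClosure (A₀ := A₀) ({u} : Set F)) π) := by
  rcases h with h | ⟨c₁, c₂, X, Y, w, hcr, hg⟩
  · exact Or.inl h
  · refine rtk6hs_thinAt_of_cross D hcr fun δ hδ => ?_
    obtain ⟨g, hg𝒢, hδg⟩ := hD δ hδ
    obtain ⟨-, -, a', b', -, -, hX, hY⟩ := hg g hg𝒢
    exact ⟨⟨a', by rw [hδg]; exact hX⟩, ⟨b', by rw [hδg]; exact hY⟩⟩

end OneLevel

section TwoLevel

variable {A₁ E₁ F₁ : Type*} [CommRing A₁] [IsDomain A₁] [IsDiscreteValuationRing A₁]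
  [Field E₁] [Algebra A₁ E₁] [IsFractionRing A₁ E₁] [CharZero E₁]
  [Field F₁] [Algebra E₁ F₁] [Algebra A₁ F₁] [IsScalarTower A₁ E₁ F₁]
  {π₁ : A₁}
  {A' E' F' : Type*} [CommRing A'] [IsDomain A'] [IsDiscreteValuationRing A']
  [Field E'] [Algebra A' E'] [IsFractionRing A' E'] [CharZero E']
  [Field F'] [Algebra E' F'] [Algebra A' F'] [IsScalarTower A' E' F']
  {π' : A'}

/-- **Transfer of the thin datum with (EIGEN)** from the thin level to the level `A′`. -/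
theorem rtk6hs_thinAt_transfer {u₁ : F₁} {u : F'} (ι : F₁ →+* F')
    (j : ↥(zchClosure (A₀ := A₁) ({u₁} : Set F₁)) →+* ↥(zchClosure (A₀ := A') ({u} : Set F')))
    (hj : ∀ b, ((j b : ↥(zchClosure (A₀ := A') ({u} : Set F'))) : F') = ι (b : F₁))
    (hram : MgcRamified j (algebraMap A' ↥(zchClosure (A₀ := A') ({u} : Set F')) π')
      (algebraMap A₁ ↥(zchClosure (A₀ := A₁) ({u₁} : Set F₁)) π₁))
    (𝔫 : AtPt (F := F') π' u) (D₁ : Set (F₁ →+* F₁)) (D : Set (F' →+* F'))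
    (hD : ∀ δ ∈ D, ∃ δ₁ ∈ D₁, ∀ x : F₁, δ (ι x) = ι (δ₁ x))
    (h₁ : Rtk6hsThinAt D₁ (rtk6fxxPt j hram 𝔫)
      (RingHom.id ↥(zchClosure (A₀ := A₁) ({u₁} : Set F₁)))
      (algebraMap A₁ ↥(zchClosure (A₀ := A₁) ({u₁} : Set F₁)) π₁)) :
    Rtk6hsThinAt D 𝔫 j (algebraMap A₁ ↥(zchClosure (A₀ := A₁) ({u₁} : Set F₁)) π₁) := by
  rcases h₁ with ⟨s, hs, hgen⟩ | ⟨X, Y, w, hw, hXY, hX, hY, hgen, heig⟩
  · refine Or.inl ⟨s, (rtk6fxx_mem_pt j hram 𝔫 s).1 hs, ?_⟩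
    rw [Ideal.comap_id] at hgen
    exact hgen
  · refine Or.inr ⟨X, Y, w, fun h => hw ((rtk6fxx_mem_pt j hram 𝔫 w).2 h), hXY,
      (rtk6fxx_mem_pt j hram 𝔫 X).1 hX, (rtk6fxx_mem_pt j hram 𝔫 Y).1 hY, ?_, fun δ hδ => ?_⟩
    · rw [Ideal.comap_id] at hgen
      exact hgen
    · obtain ⟨δ₁, hδ₁, hcomm⟩ := hD δ hδ
      obtain ⟨⟨a, ha⟩, ⟨b, hb⟩⟩ := heig δ₁ hδ₁
      have ha' : δ₁ (X : F₁) = (a : F₁) * (X : F₁) := ha
      have hb' : δ₁ (Y : F₁) = (b : F₁) * (Y : F₁) := hb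
      refine ⟨⟨j a, ?_⟩, ⟨j b, ?_⟩⟩
      · rw [hj, hj, hcomm, ha', map_mul]
      · rw [hj, hj, hcomm, hb', map_mul]

/-- **The thin datum with (EIGEN) at the level `A′` from C4+ at the thin level**
(`Rtk6c4aPlusAt`, helper94). -/
theorem rtk6hs_thinAt_of_plusAt_transfer {κ₁ : Type*} {u₁ : F₁} {u : F'} (ι : F₁ →+* F')
    (j : ↥(zchClosure (A₀ := A₁) ({u₁} : Set F₁)) →+* ↥(zchClosure (A₀ := A') ({u} : Set F')))
    (hj : ∀ b, ((j b : ↥(zchClosure (A₀ := A') ({u} : Set F'))) : F') = ι (b : F₁))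
    (hram : MgcRamified j (algebraMap A' ↥(zchClosure (A₀ := A') ({u} : Set F')) π')
      (algebraMap A₁ ↥(zchClosure (A₀ := A₁) ({u₁} : Set F₁)) π₁))
    (𝔫 : AtPt (F := F') π' u) (V₁ : κ₁ → ValuationSubring F₁)
    (𝒢 : Set (SemilinearAut E₁ F₁)) (D : Set (F' →+* F'))
    (hD : ∀ δ ∈ D, ∃ g ∈ 𝒢, ∀ x : F₁, δ (ι x) = ι (g • x))
    (h₁ : Rtk6c4aPlusAt V₁ 𝒢 (rtk6fxxPt j hram 𝔫)) :
    Rtk6hsThinAt D 𝔫 j (algebraMap A₁ ↥(zchClosure (A₀ := A₁) ({u₁} : Set F₁)) π₁) := by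
  refine rtk6hs_thinAt_transfer ι j hj hram 𝔫
    {δ₁ | ∃ g ∈ 𝒢, ∀ x : F₁, δ₁ x = g • x} D (fun δ hδ => ?_)
    (rtk6hs_thinAt_of_plusAt h₁ _ fun δ₁ hδ₁ => hδ₁)
  obtain ⟨g, hg, hcomm⟩ := hD δ hδ
  exact ⟨(SemilinearAut.toRingAut g : F₁ ≃+* F₁).toRingHom, ⟨g, hg, fun x => rfl⟩, hcomm⟩

end TwoLevel

end Fermat.Agent.RT.K6
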