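/-
K-machine, piece K6, chart `1/j` (helper71): CHART TRANSFER of `Rtk6ewFix` and `Rtk6ewCong`
(`RT/K6/EWCross.lean`), the two clauses of `Rtk6c4aPlusAt` (`RT/K6/C4Asm.lean`) beside the node
datum which `Rtk6c4aPlusAt.fixCong` exports.  (The clause EIGEN of `Rtk6c4aPlusAt` is NOT local:
its eigenvalues are units OF THE CHART; it is not transferred here.)

Two charts `B_u`, `B_u'` of `F`, closed points `𝔫₁`, `𝔫₂` of their special fibres with the same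
local ring `atLoc 𝔫₁ = atLoc 𝔫₂`:

* `rtk6lfp2_map_mem`       : a ring endomorphism `Φ` of `F` which maps `𝔫₁` into `𝔫₁`,
  `B_u ∖ 𝔫₁` into `B_u ∖ 𝔫₁` and `B_u'` into `B_u'` maps `𝔫₂` into `𝔫₂`;
* `rtk6lfp2_cong_transfer` : `Rtk6ewCong Φ Q 𝔫₁ → Rtk6ewCong Φ Q 𝔫₂` if `Φ` maps `B_u'` into `B_u'`;
* `rtk6lfp2_fix_transfer`  : `Rtk6ewFix g 𝔫₁ → Rtk6ewFix g 𝔫₂` if `g`, `g⁻¹` preserve both charts;
* `rtk6lfp2_fixCong_transfer` : the two together, for `g • u = u`, `g • u' = u'`, `g` and `g⁻¹`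
  preserving `A₀`;
* `rtk6lfp2_fixCong_inv`   : **the dichotomy `smooth ∨ (Fix ∧ Cong)` (the conclusion of
  `Rtk6c4aPlusAt.fixCong`) at ALL closed points of the chart `t⁻¹`** from the same on the chart
  `t` and at the cusps (`ribmpFglGen t⁻¹ ∈ 𝔫`) of the chart `t⁻¹`, for `g • t = t`.
-/
import Fermat.Agent.RT.K6.LFInvNode
import Fermat.Agent.RT.K6.EWCross

set_option autoImplicit false
set_option linter.unusedSectionVars false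
set_option linter.unusedVariables false
set_option linter.style.haveILetI false

namespace Fermat.Agent.RT.K6

open Fermat.Agent.UNIP Fermat.Agent.STB Fermat.Agent.INJ Fermat.Agent.RIB.MP IntermediateField
  AlgebraicCurve

section Plus

variable {A₀ E F : Type*} [CommRing A₀] [IsDomain A₀] [IsDiscreteValuationRing A₀]
  [Field E] [Algebra A₀ E] [IsFractionRing A₀ E] [CharZero E]
  [Field F] [Algebra E F] [Algebra A₀ F] [IsScalarTower A₀ E F]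
  {π : A₀} {κ : Type*}

/-- a ring endomorphism of `F` which maps `𝔫₁` into `𝔫₁`, `B_u ∖ 𝔫₁` into `B_u ∖ 𝔫₁` and the
chart `B_u'` into itself maps `𝔫₂` into `𝔫₂` (`atLoc 𝔫₁ = atLoc 𝔫₂`) -/
theorem rtk6lfp2_map_mem {u u' : F} (𝔫₁ : AtPt (F := F) π u) (𝔫₂ : AtPt (F := F) π u')
    (h : atLoc 𝔫₁ = atLoc 𝔫₂) (Φ : F →+* F)
    (h1 : ∀ b : ↥(zchClosure (A₀ := A₀) ({u} : Set F)), b ∈ 𝔫₁.1 →
      ∃ b' : ↥(zchClosure (A₀ := A₀) ({u} : Set F)), b' ∈ 𝔫₁.1 ∧ Φ (b : F) = b')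
    (h2 : ∀ b : ↥(zchClosure (A₀ := A₀) ({u} : Set F)), b ∉ 𝔫₁.1 →
      ∃ b' : ↥(zchClosure (A₀ := A₀) ({u} : Set F)), b' ∉ 𝔫₁.1 ∧ Φ (b : F) = b')
    (h3 : ∀ b : ↥(zchClosure (A₀ := A₀) ({u'} : Set F)),
      ∃ b' : ↥(zchClosure (A₀ := A₀) ({u'} : Set F)), Φ (b : F) = b')
    (b : ↥(zchClosure (A₀ := A₀) ({u'} : Set F))) (hb : b ∈ 𝔫₂.1) :
    ∃ b' : ↥(zchClosure (A₀ := A₀) ({u'} : Set F)), b' ∈ 𝔫₂.1 ∧ Φ (b : F) = b' := by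
  haveI := 𝔫₁.2.1.isPrime
  haveI := 𝔫₂.2.1.isPrime
  have hinj₁ : Function.Injective
      (algebraMap ↥(zchClosure (A₀ := A₀) ({u} : Set F)) F) := Subtype.val_injective
  have hinj₂ : Function.Injective
      (algebraMap ↥(zchClosure (A₀ := A₀) ({u'} : Set F)) F) := Subtype.val_injective
  have hloc : ls_localSubring (F := F) 𝔫₁.1 = ls_localSubring (F := F) 𝔫₂.1 := h
  obtain ⟨x, s, hs, e⟩ := rtk6lfi_exists_num (F := F) 𝔫₂.1 𝔫₁.1 hloc.ge b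
  have hx : x ∈ 𝔫₁.1 := rtk6lfi_mem_of_mem hinj₂ hinj₁ 𝔫₂.1 𝔫₁.1 hloc.le hb e
  have e' : (s : F) * (b : F) = (x : F) := e
  obtain ⟨x', hx', ex⟩ := h1 x hx
  obtain ⟨s', hs', es⟩ := h2 s hs
  obtain ⟨b', eb⟩ := h3 b
  refine ⟨b', ?_, eb⟩
  by_contra hb'
  have e'' : (s' : F) * (b' : F) = (x' : F) := by
    rw [← es, ← eb, ← ex, ← map_mul, e']
  exact rtk6lfi_not_mem_of_not_mem (F := F) hinj₂ hinj₁ 𝔫₂.1 𝔫₁.1 hloc.ge hb' hs' e'' hx'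

/-- **Transfer of `Rtk6ewCong`** between two charts with the same local ring. -/
theorem rtk6lfp2_cong_transfer {u u' : F} (𝔫₁ : AtPt (F := F) π u) (𝔫₂ : AtPt (F := F) π u')
    (h : atLoc 𝔫₁ = atLoc 𝔫₂) (Φ : F →+* F) (Q : ℕ)
    (h3 : ∀ b : ↥(zchClosure (A₀ := A₀) ({u'} : Set F)),
      ∃ b' : ↥(zchClosure (A₀ := A₀) ({u'} : Set F)), Φ (b : F) = b')
    (hc : Rtk6ewCong Φ Q 𝔫₁) : Rtk6ewCong Φ Q 𝔫₂ := by
  haveI := 𝔫₁.2.1.isPrime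
  haveI := 𝔫₂.2.1.isPrime
  have hinj₁ : Function.Injective
      (algebraMap ↥(zchClosure (A₀ := A₀) ({u} : Set F)) F) := Subtype.val_injective
  have hinj₂ : Function.Injective
      (algebraMap ↥(zchClosure (A₀ := A₀) ({u'} : Set F)) F) := Subtype.val_injective
  have hloc : ls_localSubring (F := F) 𝔫₁.1 = ls_localSubring (F := F) 𝔫₂.1 := h
  intro b
  obtain ⟨x, s, hs, e⟩ := rtk6lfi_exists_num (F := F) 𝔫₂.1 𝔫₁.1 hloc.ge b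
  have e' : (s : F) * (b : F) = (x : F) := e
  obtain ⟨c₁, hc₁, ex⟩ := hc x
  obtain ⟨c₂, hc₂, es⟩ := hc s
  obtain ⟨b', eb⟩ := h3 b
  -- the denominator `v = s ^ Q * (s ^ Q + c₂) ∉ 𝔫₁`
  have hsQ : s ^ Q ∉ 𝔫₁.1 := fun h' => hs (Ideal.IsPrime.mem_of_pow_mem inferInstance Q h')
  have hsQ' : s ^ Q + c₂ ∉ 𝔫₁.1 := fun h' =>
    hsQ (by
      have := 𝔫₁.1.sub_mem h' hc₂
      rwa [add_sub_cancel_right] at this)
  have hv : s ^ Q * (s ^ Q + c₂) ∉ 𝔫₁.1 := fun h' =>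
    (Ideal.IsPrime.mem_or_mem inferInstance h').elim hsQ hsQ'
  have hy : s ^ Q * c₁ - c₂ * x ^ Q ∈ 𝔫₁.1 :=
    𝔫₁.1.sub_mem (𝔫₁.1.mul_mem_left _ hc₁) (𝔫₁.1.mul_mem_right _ hc₂)
  refine ⟨b' - b ^ Q, ?_, ?_⟩
  · by_contra hcn
    have hΦ : Φ (s : F) * Φ (b : F) = Φ (x : F) := by rw [← map_mul, e']
    have key : ((s ^ Q * (s ^ Q + c₂) : ↥(zchClosure (A₀ := A₀) ({u} : Set F))) : F) *
        ((b' - b ^ Q : ↥(zchClosure (A₀ := A₀) ({u'} : Set F))) : F) =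
        ((s ^ Q * c₁ - c₂ * x ^ Q : ↥(zchClosure (A₀ := A₀) ({u} : Set F))) : F) := by
      push_cast
      rw [es, ex, eb] at hΦ
      have hx' : (x : F) ^ Q = (s : F) ^ Q * (b : F) ^ Q := by rw [← e', mul_pow]
      rw [hx'] at hΦ ⊢
      linear_combination ((s : F) ^ Q) * hΦ
    exact rtk6lfi_not_mem_of_not_mem (F := F) hinj₂ hinj₁ 𝔫₂.1 𝔫₁.1 hloc.ge
      (x := b' - b ^ Q) (x' := s ^ Q * c₁ - c₂ * x ^ Q) (v := s ^ Q * (s ^ Q + c₂)) hcn hv key hy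
  · rw [eb]
    push_cast
    ring

/-- one half of `Rtk6ewFix` moves between charts -/
theorem rtk6lfp2_fix_half (g : SemilinearAut E F) {u u' : F}
    (𝔫₁ : AtPt (F := F) π u) (𝔫₂ : AtPt (F := F) π u') (h : atLoc 𝔫₁ = atLoc 𝔫₂)
    (hgB : ∀ b : ↥(zchClosure (A₀ := A₀) ({u} : Set F)),
      ∃ b' : ↥(zchClosure (A₀ := A₀) ({u} : Set F)), g • (b : F) = b')
    (hgB₂ : ∀ b : ↥(zchClosure (A₀ := A₀) ({u'} : Set F)),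
      ∃ b' : ↥(zchClosure (A₀ := A₀) ({u'} : Set F)), g • (b : F) = b')
    (hfix : ∀ b : ↥(zchClosure (A₀ := A₀) ({u} : Set F)), b ∈ 𝔫₁.1 →
      ∃ b' : ↥(zchClosure (A₀ := A₀) ({u} : Set F)), b' ∈ 𝔫₁.1 ∧ g • (b : F) = b')
    (hfix' : ∀ b : ↥(zchClosure (A₀ := A₀) ({u} : Set F)), b ∈ 𝔫₁.1 →
      ∃ b' : ↥(zchClosure (A₀ := A₀) ({u} : Set F)), b' ∈ 𝔫₁.1 ∧ g⁻¹ • (b : F) = b')
    (b : ↥(zchClosure (A₀ := A₀) ({u'} : Set F))) (hb : b ∈ 𝔫₂.1) :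
    ∃ b' : ↥(zchClosure (A₀ := A₀) ({u'} : Set F)), b' ∈ 𝔫₂.1 ∧ g • (b : F) = b' := by
  refine rtk6lfp2_map_mem 𝔫₁ 𝔫₂ h (MulSemiringAction.toRingHom (SemilinearAut E F) F g)
    hfix ?_ hgB₂ b hb
  intro s hs
  obtain ⟨s', es⟩ := hgB s
  refine ⟨s', fun hs' => hs ?_, es⟩
  obtain ⟨s'', hs'', es''⟩ := hfix' s' hs'
  have : s = s'' := Subtype.ext (by
    rw [← es'']
    have es2 : g • (s : F) = (s' : F) := es
    rw [← es2, inv_smul_smul])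
  rw [this]
  exact hs''

/-- **Transfer of `Rtk6ewFix`** between two charts with the same local ring, for `g` and `g⁻¹`
preserving both charts. -/
theorem rtk6lfp2_fix_transfer (g : SemilinearAut E F) {u u' : F}
    (𝔫₁ : AtPt (F := F) π u) (𝔫₂ : AtPt (F := F) π u') (h : atLoc 𝔫₁ = atLoc 𝔫₂)
    (hgB : ∀ b : ↥(zchClosure (A₀ := A₀) ({u} : Set F)),
      ∃ b' : ↥(zchClosure (A₀ := A₀) ({u} : Set F)), g • (b : F) = b')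
    (hgB' : ∀ b : ↥(zchClosure (A₀ := A₀) ({u} : Set F)),
      ∃ b' : ↥(zchClosure (A₀ := A₀) ({u} : Set F)), g⁻¹ • (b : F) = b')
    (hgB₂ : ∀ b : ↥(zchClosure (A₀ := A₀) ({u'} : Set F)),
      ∃ b' : ↥(zchClosure (A₀ := A₀) ({u'} : Set F)), g • (b : F) = b')
    (hgB₂' : ∀ b : ↥(zchClosure (A₀ := A₀) ({u'} : Set F)),
      ∃ b' : ↥(zchClosure (A₀ := A₀) ({u'} : Set F)), g⁻¹ • (b : F) = b')
    (hfix : Rtk6ewFix g 𝔫₁) : Rtk6ewFix g 𝔫₂ := by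
  refine ⟨fun b hb => rtk6lfp2_fix_half g 𝔫₁ 𝔫₂ h hgB hgB₂ hfix.1 hfix.2 b hb,
    fun b hb => rtk6lfp2_fix_half g⁻¹ 𝔫₁ 𝔫₂ h hgB' hgB₂' hfix.2 ?_ b hb⟩
  intro b hb
  rw [inv_inv]
  exact hfix.1 b hb

/-- a semilinear automorphism fixing `u` and preserving `A₀` preserves the chart `B_u`
(`rtk6gf_ew_preserves` of `DGLFixEW.lean`, repeated here to keep the imports small) -/
theorem rtk6lfp2_preserves (g : SemilinearAut E F) {u : F} (hgu : g • u = u)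
    (hgA : ∀ α : A₀, ∃ α' : A₀, g • algebraMap A₀ F α = algebraMap A₀ F α')
    (b : ↥(zchClosure (A₀ := A₀) ({u} : Set F))) :
    ∃ b' : ↥(zchClosure (A₀ := A₀) ({u} : Set F)), g • (b : F) = (b' : F) :=
  ⟨⟨g • (b : F), mem_zchClosure.mpr (stb_mt_isIntegral_smul g hgu hgA (mem_zchClosure.mp b.2))⟩,
    rfl⟩

/-- `g • u = u` ⇒ `g⁻¹ • u = u` -/
theorem rtk6lfp2_inv_smul (g : SemilinearAut E F) {u : F} (hgu : g • u = u) :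
    g⁻¹ • u = u := by
  conv_lhs => rw [← hgu]
  rw [inv_smul_smul]

/-- **Transfer of `Rtk6ewFix ∧ Rtk6ewCong`** between two charts `u`, `u'` fixed by `g`, for `g`,
`g⁻¹` preserving `A₀`. -/
theorem rtk6lfp2_fixCong_transfer (g : SemilinearAut E F) {u u' : F}
    (𝔫₁ : AtPt (F := F) π u) (𝔫₂ : AtPt (F := F) π u') (h : atLoc 𝔫₁ = atLoc 𝔫₂)
    (hgu : g • u = u) (hgu' : g • u' = u')
    (hgA : ∀ α : A₀, ∃ α' : A₀, g • algebraMap A₀ F α = algebraMap A₀ F α')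
    (hgA' : ∀ α : A₀, ∃ α' : A₀, g⁻¹ • algebraMap A₀ F α = algebraMap A₀ F α')
    (h₁ : Rtk6ewFix g 𝔫₁ ∧
      Rtk6ewCong (SemilinearAut.toRingAut g : F ≃+* F).toRingHom 1 𝔫₁) :
    Rtk6ewFix g 𝔫₂ ∧ Rtk6ewCong (SemilinearAut.toRingAut g : F ≃+* F).toRingHom 1 𝔫₂ :=
  ⟨rtk6lfp2_fix_transfer g 𝔫₁ 𝔫₂ h (rtk6lfp2_preserves g hgu hgA)
      (rtk6lfp2_preserves g⁻¹ (rtk6lfp2_inv_smul g hgu) hgA')
      (rtk6lfp2_preserves g hgu' hgA)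
      (rtk6lfp2_preserves g⁻¹ (rtk6lfp2_inv_smul g hgu') hgA') h₁.1,
    rtk6lfp2_cong_transfer 𝔫₁ 𝔫₂ h _ 1 (rtk6lfp2_preserves g hgu' hgA) h₁.2⟩

/-- **The dichotomy `smooth ∨ (Fix ∧ Cong)` on the chart `t⁻¹`** (the conclusion of
`Rtk6c4aPlusAt.fixCong`, `C4Asm.lean`) from the same on the chart `t` and at the cusps of the chart
`t⁻¹`. -/
theorem rtk6lfp2_fixCong_inv (hπ : Irreducible π) {t : F} (ht : t ≠ 0)
    (g : SemilinearAut E F) (hgt : g • t = t)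
    (hgA : ∀ α : A₀, ∃ α' : A₀, g • algebraMap A₀ F α = algebraMap A₀ F α')
    (hgA' : ∀ α : A₀, ∃ α' : A₀, g⁻¹ • algebraMap A₀ F α = algebraMap A₀ F α')
    (h₁ : ∀ 𝔫 : AtPt (F := F) π t,
      (∃ s : ↥(zchClosure (A₀ := A₀) ({t} : Set F)), s ∈ 𝔫.1 ∧
        NodesLocGen 𝔫.1 {algebraMap A₀ ↥(zchClosure (A₀ := A₀) ({t} : Set F)) π, s}) ∨
      (Rtk6ewFix g 𝔫 ∧ Rtk6ewCong (SemilinearAut.toRingAut g : F ≃+* F).toRingHom 1 𝔫))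
    (h₂ : ∀ 𝔫 : AtPt (F := F) π t⁻¹, ribmpFglGen (A₀ := A₀) t⁻¹ ∈ 𝔫.1 →
      (∃ s : ↥(zchClosure (A₀ := A₀) ({t⁻¹} : Set F)), s ∈ 𝔫.1 ∧
        NodesLocGen 𝔫.1 {algebraMap A₀ ↥(zchClosure (A₀ := A₀) ({t⁻¹} : Set F)) π, s}) ∨
      (Rtk6ewFix g 𝔫 ∧ Rtk6ewCong (SemilinearAut.toRingAut g : F ≃+* F).toRingHom 1 𝔫))
    (𝔫 : AtPt (F := F) π t⁻¹) :
    (∃ s : ↥(zchClosure (A₀ := A₀) ({t⁻¹} : Set F)), s ∈ 𝔫.1 ∧
      NodesLocGen 𝔫.1 {algebraMap A₀ ↥(zchClosure (A₀ := A₀) ({t⁻¹} : Set F)) π, s}) ∨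
    (Rtk6ewFix g 𝔫 ∧ Rtk6ewCong (SemilinearAut.toRingAut g : F ≃+* F).toRingHom 1 𝔫) := by
  by_cases hT : ribmpFglGen (A₀ := A₀) t⁻¹ ∈ 𝔫.1
  · exact h₂ 𝔫 hT
  · obtain ⟨𝔫₁, h𝔫₁⟩ := ribmp_fgl_exists_pt_inv hπ ht 𝔫 hT
    rcases h₁ 𝔫₁ with ⟨s, hs, hgen⟩ | hFC
    · exact Or.inl (rtk6lfn_smooth 𝔫₁ 𝔫 h𝔫₁ hs hgen)
    · refine Or.inr (rtk6lfp2_fixCong_transfer g 𝔫₁ 𝔫 h𝔫₁ hgt ?_ hgA hgA' hFC)
      rw [smul_inv'', hgt]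

end Plus

end Fermat.Agent.RT.K6
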