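/-
K-machine, piece K6 / M5 (helper96), part 1: THE TORIC TRANSFER for the vertical valuations of
`F′ = fieldC E′ L M H` (fork of `STB/ToricTransfer.lean`, through the generic core
`STB.stb_mgt_core`).

`A` a valuation subring of `ℚ̄`, `E′` an intermediate field of `ℚ̄ / ℚ`, `hB : VtBase ι r π` a
discrete base with fraction field `E′`, compatible with `A` (`(c1)`, `(c2)`; for the base
`A ∩ E′`: `STB.stb_mgt_c1`, `STB.stb_mgt_c2`), `w′ : F′ ≃ₐ[E′] F′` with `nfEmbH ∘ w′ = w ∘ nfEmbH`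
(`nfEmbH_rtk6diwW`), `V = rtk6dvFam hB L M H w′ : Bool → ValuationSubring F′`.

* `rtk6m5_inf`  (t∞) : `ReducesToOneF A (nfEmbH x₀) → x₀ - 1 ∈ 𝔪(V true)`;
* `rtk6m5_zero` (t0) : `ReducesToOneF A (w (nfEmbH x₀)) → x₀ - 1 ∈ 𝔪(V false)`;
* `rtk6m5_comap` : the transfer at a conjugate `(V b).comap γ`.
-/
import Fermat.Agent.RT.K6.DIVert
import Fermat.Agent.STB.ToricTransferCore
import Fermat.Agent.ES1.G2.Plan
import Fermat.Agent.ES1.NFEmbH
import Fermat.Agent.UNIP.MGVertCompat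

set_option autoImplicit false
set_option linter.style.haveILetI false
set_option linter.unusedSectionVars false
set_option linter.unusedVariables false

noncomputable section

namespace Fermat.Agent.RT.K6

open ModularCurve AlgebraicCurve Fermat.Agent.ES Fermat.Agent.ES.G2 Fermat.Agent.INJ
open Fermat.Agent.UNIP Fermat.Agent.ES1 Fermat.Agent.ES1.G2 IntermediateField

section Transfer

variable {A₀ k : Type*} [CommRing A₀] [Field k] {E' : IntermediateField ℚ Qb}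
  {ι : A₀ →+* ↥E'} {r : A₀ →+* k} {π : A₀} (hB : VtBase ι r π) (A : ValuationSubring Qb)
  (L M : ℕ) (H : Subgroup (ZMod M)ˣ)
  (w' : ↥(fieldC ↥E' L M H) ≃ₐ[↥E'] ↥(fieldC ↥E' L M H))

/-- **(t∞)**  `x₀ ∈ F′` reduces to one at `A` ⇒ `x₀ ≡ 1` at the vertical valuation `V_∞`. -/
theorem rtk6m5_inf (h1 : ∀ a, algebraMap ↥E' Qb (ι a) ∈ A)
    (h2 : ∀ a, algebraMap ↥E' Qb (ι a) ∈ A.nonunits → r a = 0)
    {x₀ : ↥(fieldC ↥E' L M H)}
    (hx : ReducesToOneF A (fieldBar L M H) (nfEmbH E' L M H x₀)) :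
    x₀ - 1 ∈ (rtk6dvFam hB L M H w' true).nonunits := by
  obtain ⟨y₁, y₂, -, -, hy₁, hy₂, hc, hxy⟩ := hx
  rw [rtk6dvFam_mem_nonunits_iff]
  have key := Fermat.Agent.STB.stb_mgt_core (ψ := algebraMap ↥E' Qb) hB h1 h2
    (rtk6dv_frac hB L M H x₀.2) hy₁ hy₂ hc hxy
  have e : rtk6dvEmbFam L M H w' true (x₀ - 1) = (x₀ : LaurentSeries ↥E') - 1 := by
    rw [map_sub, map_one]
    rfl
  obtain ⟨h, h0⟩ := key
  refine ⟨by rw [e]; exact h, ?_⟩
  have e' : (⟨rtk6dvEmbFam L M H w' true (x₀ - 1), by rw [e]; exact h⟩ : gaussRing ι r) =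
      ⟨_, h⟩ := Subtype.ext e
  rw [e']
  exact h0

/-- **(t0)**  `w x₀` reduces to one at `A` ⇒ `x₀ ≡ 1` at the vertical valuation `V_0`. -/
theorem rtk6m5_zero (h1 : ∀ a, algebraMap ↥E' Qb (ι a) ∈ A)
    (h2 : ∀ a, algebraMap ↥E' Qb (ι a) ∈ A.nonunits → r a = 0)
    {w : fieldBar L M H ≃ₐ[Qb] fieldBar L M H}
    (hw : ∀ x : ↥(fieldC ↥E' L M H), nfEmbH E' L M H (w' x) = w (nfEmbH E' L M H x))
    {x₀ : ↥(fieldC ↥E' L M H)}
    (hx : ReducesToOneF A (fieldBar L M H) (w (nfEmbH E' L M H x₀))) :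
    x₀ - 1 ∈ (rtk6dvFam hB L M H w' false).nonunits := by
  rw [← hw] at hx
  have h := rtk6m5_inf hB A L M H w' h1 h2 hx
  rw [rtk6dvFam_mem_nonunits_iff] at h ⊢
  have e : rtk6dvEmbFam L M H w' false (x₀ - 1) = rtk6dvEmbFam L M H w' true (w' x₀ - 1) := by
    rw [rtk6dvEmbFam_false, rtk6dvEmbFam_true, map_sub, map_one]
  obtain ⟨h, h0⟩ := h
  refine ⟨by rw [e]; exact h, ?_⟩
  have e' : (⟨rtk6dvEmbFam L M H w' false (x₀ - 1), by rw [e]; exact h⟩ : gaussRing ι r) =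
      ⟨_, h⟩ := Subtype.ext e
  rw [e']
  exact h0

/-- **(t∞) and (t0) together.** -/
theorem rtk6m5_fam (h1 : ∀ a, algebraMap ↥E' Qb (ι a) ∈ A)
    (h2 : ∀ a, algebraMap ↥E' Qb (ι a) ∈ A.nonunits → r a = 0)
    {w : fieldBar L M H ≃ₐ[Qb] fieldBar L M H}
    (hw : ∀ x : ↥(fieldC ↥E' L M H), nfEmbH E' L M H (w' x) = w (nfEmbH E' L M H x))
    {x₀ : ↥(fieldC ↥E' L M H)} (b : Bool)
    (hx : ReducesToOneF A (fieldBar L M H)
      (bif b then nfEmbH E' L M H x₀ else w (nfEmbH E' L M H x₀))) :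
    x₀ - 1 ∈ (rtk6dvFam hB L M H w' b).nonunits := by
  cases b
  · exact rtk6m5_zero hB A L M H w' h1 h2 hw hx
  · exact rtk6m5_inf hB A L M H w' h1 h2 hx

/-- **The transfer at a conjugate** `(V b).comap γ`. -/
theorem rtk6m5_comap (h1 : ∀ a, algebraMap ↥E' Qb (ι a) ∈ A)
    (h2 : ∀ a, algebraMap ↥E' Qb (ι a) ∈ A.nonunits → r a = 0)
    {w : fieldBar L M H ≃ₐ[Qb] fieldBar L M H}
    (hw : ∀ x : ↥(fieldC ↥E' L M H), nfEmbH E' L M H (w' x) = w (nfEmbH E' L M H x))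
    (γ : ↥(fieldC ↥E' L M H) →+* ↥(fieldC ↥E' L M H))
    {x₀ : ↥(fieldC ↥E' L M H)} (b : Bool)
    (hx : ReducesToOneF A (fieldBar L M H)
      (bif b then nfEmbH E' L M H (γ x₀) else w (nfEmbH E' L M H (γ x₀)))) :
    x₀ - 1 ∈ ((rtk6dvFam hB L M H w' b).comap γ).nonunits := by
  rw [vt_mem_nonunits_comap, map_sub, map_one]
  exact rtk6m5_fam hB A L M H w' h1 h2 hw b hx

end Transfer

end Fermat.Agent.RT.K6
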