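/-
K-machine, piece K6 / M5 (helper96), part 2: THE HYPOTHESIS `htoric` OF `rtk6ew_main_multi`.

Setting: `A` a valuation subring of `ℚ̄`, `σ` in its inertia group, `c` the cyclotomic image of `σ`
at `r`, `δ = δ_c` the diamond, `w` the Atkin–Lehner automorphism at `r` (piece B), all on
`fieldBar L M H`;  `u ∈ fieldBar L M H`, `n ≠ 0`.

* `rtk6m5_diamondH_comm` : diamonds of `fieldBar L M H` commute;
* `rtk6m5_chiExpr_diamond` : `γ (chiExpr σ δ u) = chiExpr σ δ (γ u)` for a diamond `γ`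
  (γ-transport);
* `rtk6m5_chi_root` : for every diamond `γ` and `b : Bool` there is a constant `β ≠ 0` with
  `γ (chiExpr σ δ u) / β ^ n` (`b = true`), resp. `w (γ (chiExpr σ δ u) / β ^ n)` (`b = false`)
  reducing to one (cheap halves C∞ / C0 for `γ u`, helper18's `rtk6ea_toric_*_root`);
* **`rtk6m5_pack_chi`** : there is a number field `K₀` such that for EVERY intermediate field
  `E′ ⊇ K₀` stable under `σ`, every discrete base `hB` of `E′` compatible with `A`, every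
  `w′ : F′ ≃ₐ[E′] F′` lifting `w`, every diamond `δ₀` (for `c`) of `F′ = fieldC E′ L M H`, every
  descent `u₀ ∈ F′` of `u`, every diamond `γ` of `F′` and `b : Bool`:
  `∃ tt ≠ 0, rtk6eChi σ δ₀ u₀ / tt ^ n - 1 ∈ 𝔪((rtk6dvFam hB L M H w′ b).comap γ)`
  (`tt` is a constant of `E′`);
* `rtk6m5_pack_unip` : the same for `σ̂ u₀ / u₀` when the diamond `δ_c` is trivial
  (`IsDiamondH L M H c 1`: the case UNIP_H);
* `rtk6m5_pack_chi_beta0`, `rtk6m5_pack_unip_beta0` : for the base `A ∩ E′`;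
* `rtk6m5_gal_quot_eq_chi` : `g • x / x = rtk6eChi σ δ₀ u₀` for `g = rtk6diGal σ`,
  `x = δ₀ (σ̂ u₀) / u₀`.
-/
import Fermat.Agent.RT.K6.M5Transfer
import Fermat.Agent.RT.K6.EAsmTor
import Fermat.Agent.RT.K6.EFinal
import Fermat.Agent.RT.K6.DIWRel
import Fermat.Agent.STB.ToricTransfer

set_option autoImplicit false
set_option linter.style.haveILetI false
set_option linter.unusedSectionVars false
set_option linter.unusedVariables false

noncomputable section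

namespace Fermat.Agent.RT.K6

open ModularCurve AlgebraicCurve HahnSeries Fermat.Agent.ES Fermat.Agent.ES.G2 Fermat.Agent.INJ
open Fermat.Agent.UNIP Fermat.Agent.ES1 Fermat.Agent.ES1.G2 IntermediateField

universe u₁ u₂

/-! ### γ-transport on `fieldBar L M H` -/

section Bar

variable {L M : ℕ} {H : Subgroup (ZMod M)ˣ}

/-- diamonds commute -/
theorem rtk6m5_diamondH_comm {c c' : (ZMod M)ˣ}
    {δ γ : fieldBar L M H ≃ₐ[Qb] fieldBar L M H} (hδ : IsDiamondH L M H c δ)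
    (hγ : IsDiamondH L M H c' γ) (x : fieldBar L M H) : γ (δ x) = δ (γ x) := by
  have h1 : IsDiamondH L M H (c' * c) (γ * δ) := hγ.mul hδ
  have h2 : IsDiamondH L M H (c * c') (δ * γ) := hδ.mul hγ
  rw [mul_comm] at h2
  have h3 := h1.unique h2
  exact congrArg (fun f : fieldBar L M H ≃ₐ[Qb] fieldBar L M H => f x) h3

/-- **γ-transport**: a diamond `γ` commutes with `u ↦ chiExpr σ δ u` -/
theorem rtk6m5_chiExpr_diamond {c c' : (ZMod M)ˣ}
    {δ γ : fieldBar L M H ≃ₐ[Qb] fieldBar L M H} (hδ : IsDiamondH L M H c δ)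
    (hγ : IsDiamondH L M H c' γ) (σ : Qb ≃ₐ[ℚ] Qb) (u : fieldBar L M H) :
    γ (chiExpr σ δ u) = chiExpr σ δ (γ u) := by
  have hg := rtk6diw_diamondH_galois hγ σ
  have hd := rtk6m5_diamondH_comm hδ hγ
  unfold chiExpr
  rw [map_div₀, map_mul, map_mul, hg, hd, hg]

/-- γ-transport for `σ u / u` -/
theorem rtk6m5_unip_diamond {c' : (ZMod M)ˣ}
    {γ : fieldBar L M H ≃ₐ[Qb] fieldBar L M H}
    (hγ : IsDiamondH L M H c' γ) (σ : Qb ≃ₐ[ℚ] Qb) (u : fieldBar L M H) :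
    γ ((arithmeticGalois (fieldQ L M H) σ • u) / u) =
      (arithmeticGalois (fieldQ L M H) σ • γ u) / γ u := by
  rw [map_div₀, rtk6diw_diamondH_galois hγ σ]

variable {r : ℕ} {w : fieldBar L M H ≃ₐ[Qb] fieldBar L M H}

/-- **the toric constants over `ℚ̄`**, (χ) -/
theorem rtk6m5_chi_root (hw : IsWAt L M H r w) (A : ValuationSubring Qb) (σ : Qb ≃ₐ[ℚ] Qb)
    (hσ : σ ∈ A.inertiaSubgroupIn ℚ) {c : (ZMod M)ˣ} (hc : IsCycAt M r σ c)
    {δ : fieldBar L M H ≃ₐ[Qb] fieldBar L M H} (hδ : IsDiamondH L M H c δ)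
    {u : fieldBar L M H} (hu : u ≠ 0) {n : ℕ} (hn : n ≠ 0)
    {c' : (ZMod M)ˣ} {γ : fieldBar L M H ≃ₐ[Qb] fieldBar L M H} (hγ : IsDiamondH L M H c' γ)
    (b : Bool) :
    ∃ β : Qb, β ≠ 0 ∧
      ReducesToOneF A (fieldBar L M H)
        (bif b then γ (chiExpr σ δ u) / algebraMap Qb (fieldBar L M H) β ^ n
          else w (γ (chiExpr σ δ u) / algebraMap Qb (fieldBar L M H) β ^ n)) := by
  have hγu : γ u ≠ 0 := (map_ne_zero γ).mpr hu
  rw [rtk6m5_chiExpr_diamond hδ hγ]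
  cases b
  · exact rtk6ea_toric_zero_root hw A σ hσ hc hδ hγu hn
  · exact rtk6ea_toric_infty_root A σ hσ δ hγu hn

/-- **the toric constants over `ℚ̄`**, (UNIP_H): the diamond `δ_c` is trivial -/
theorem rtk6m5_unip_root (hw : IsWAt L M H r w) (A : ValuationSubring Qb) (σ : Qb ≃ₐ[ℚ] Qb)
    (hσ : σ ∈ A.inertiaSubgroupIn ℚ) {c : (ZMod M)ˣ} (hc : IsCycAt M r σ c)
    (hδ : IsDiamondH L M H c (1 : fieldBar L M H ≃ₐ[Qb] fieldBar L M H))
    {u : fieldBar L M H} (hu : u ≠ 0) {n : ℕ} (hn : n ≠ 0)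
    {c' : (ZMod M)ˣ} {γ : fieldBar L M H ≃ₐ[Qb] fieldBar L M H} (hγ : IsDiamondH L M H c' γ)
    (b : Bool) :
    ∃ β : Qb, β ≠ 0 ∧
      ReducesToOneF A (fieldBar L M H)
        (bif b then γ ((arithmeticGalois (fieldQ L M H) σ • u) / u) /
            algebraMap Qb (fieldBar L M H) β ^ n
          else w (γ ((arithmeticGalois (fieldQ L M H) σ • u) / u) /
            algebraMap Qb (fieldBar L M H) β ^ n)) := by
  have hγu : γ u ≠ 0 := (map_ne_zero γ).mpr hu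
  rw [rtk6m5_unip_diamond hγ]
  cases b
  · obtain ⟨c₀, hc₀, h⟩ := rtk6c0_cheap_zero hw A σ hσ c hc 1 hδ (γ u) hγu
    obtain ⟨β, hβ, hβn⟩ := rtk6ea_exists_root c₀ hc₀ hn
    refine ⟨β, hβ, ?_⟩
    have e : (arithmeticGalois (fieldQ L M H) σ • γ u) / γ u /
          algebraMap Qb (fieldBar L M H) β ^ n
        = algebraMap Qb (fieldBar L M H) c₀ *
          ((1 : fieldBar L M H ≃ₐ[Qb] fieldBar L M H)
            (arithmeticGalois (fieldQ L M H) σ • γ u) / γ u) := by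
      rw [← map_pow, hβn, map_inv₀, div_eq_mul_inv _ (_)⁻¹, inv_inv, mul_comm]
      rfl
    show ReducesToOneF A (fieldBar L M H) (w _)
    rw [e]
    exact h
  · obtain ⟨c₀, hc₀, h⟩ := rtk6c_cheap_infty_H L M H A σ hσ (γ u) hγu
    obtain ⟨β, hβ, hβn⟩ := rtk6ea_exists_root c₀ hc₀ hn
    refine ⟨β, hβ, ?_⟩
    have e : (arithmeticGalois (fieldQ L M H) σ • γ u) / γ u /
          algebraMap Qb (fieldBar L M H) β ^ n
        = algebraMap Qb (fieldBar L M H) c₀ *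
          ((arithmeticGalois (fieldQ L M H) σ • γ u) / γ u) := by
      rw [← map_pow, hβn, map_inv₀, div_eq_mul_inv _ (_)⁻¹, inv_inv, mul_comm]
    show ReducesToOneF A (fieldBar L M H) _
    rw [e]
    exact h

end Bar

/-! ### The pack -/

section Pack

variable {L M : ℕ} {H : Subgroup (ZMod M)ˣ}

/-- a constant of `E′` in `fieldC E′ L M H` -/
theorem rtk6m5_nfEmbH_const (E' : IntermediateField ℚ Qb) {β : Qb} (hβ : β ∈ E') :
    nfEmbH E' L M H (algebraMap ↥E' ↥(fieldC ↥E' L M H) ⟨β, hβ⟩) =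
      algebraMap Qb (fieldBar L M H) β :=
  nfEmbH_algebraMap E' L M H ⟨β, hβ⟩

/-- **The pack, generic form.**  `Y ∈ fieldBar L M H` such that for every diamond `γ` and every
`b : Bool` the element `γ Y` is toric at `v_∞` (`b = true`), resp. `v_0` (`b = false`), with a
constant `n`-th power.  Then there is a number field `K₀` such that over every `E′ ⊇ K₀`, for
every descent `y₀ ∈ fieldC E′ L M H` of `Y`, every diamond `γ` of `fieldC E′ L M H` and every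
`b`, `y₀ / tt ^ n ≡ 1` at `(rtk6dvFam hB L M H w′ b).comap γ` for a constant `tt ≠ 0`. -/
theorem rtk6m5_pack_gen (hL : L ≠ 0) (hML : M ∣ L) (A : ValuationSubring Qb)
    (w : fieldBar L M H ≃ₐ[Qb] fieldBar L M H) (n : ℕ) (Y : fieldBar L M H)
    (hroot : ∀ (c' : (ZMod M)ˣ) (γ : fieldBar L M H ≃ₐ[Qb] fieldBar L M H),
      IsDiamondH L M H c' γ → ∀ b : Bool, ∃ β : Qb, β ≠ 0 ∧
        ReducesToOneF A (fieldBar L M H)
          (bif b then γ Y / algebraMap Qb (fieldBar L M H) β ^ n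
            else w (γ Y / algebraMap Qb (fieldBar L M H) β ^ n))) :
    ∃ K₀ : IntermediateField ℚ Qb, FiniteDimensional ℚ K₀ ∧
      ∀ E' : IntermediateField ℚ Qb, K₀ ≤ E' →
        ∀ {A₀ : Type u₁} {k : Type u₂} [CommRing A₀] [Field k] {ι : A₀ →+* ↥E'}
          {ρ : A₀ →+* k} {π : A₀} (hB : VtBase ι ρ π),
          (∀ a, algebraMap ↥E' Qb (ι a) ∈ A) →
          (∀ a, algebraMap ↥E' Qb (ι a) ∈ A.nonunits → ρ a = 0) →
          ∀ (w' : ↥(fieldC ↥E' L M H) ≃ₐ[↥E'] ↥(fieldC ↥E' L M H)),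
            (∀ x : ↥(fieldC ↥E' L M H), nfEmbH E' L M H (w' x) = w (nfEmbH E' L M H x)) →
            ∀ y₀ : ↥(fieldC ↥E' L M H), nfEmbH E' L M H y₀ = Y →
              ∀ (c' : (ZMod M)ˣ) (γ : ↥(fieldC ↥E' L M H) ≃ₐ[↥E'] ↥(fieldC ↥E' L M H)),
                IsDiamondC ↥E' L M H c' γ → ∀ b : Bool,
                  ∃ tt : ↥(fieldC ↥E' L M H), tt ≠ 0 ∧
                    y₀ / tt ^ n - 1 ∈
                      ((rtk6dvFam hB L M H w' b).comap γ.toRingEquiv.toRingHom).nonunits := by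
  classical
  haveI : NeZero M := ⟨fun h0 => hL (Nat.eq_zero_of_zero_dvd (h0 ▸ hML))⟩
  -- the diamonds over `ℚ̄` and the constants
  choose γb hγb using fun c' : (ZMod M)ˣ => rtk6diw_exists_diamondH (H := H) hL hML c'
  choose β hβ0 hβ using fun p : (ZMod M)ˣ × Bool => hroot p.1 (γb p.1) (hγb p.1) p.2
  have hfinS : (Set.range β).Finite := Set.finite_range β
  obtain ⟨K₀, hfin, hS, -⟩ := rtk6di_exists_descent L M H hfinS.toFinset ∅
  refine ⟨K₀, hfin, fun E' hE A₀ k _ _ ι ρ π hB h1 h2 w' hw' y₀ hy₀ c' γ hγ b => ?_⟩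
  have hmem : β (c', b) ∈ E' :=
    hE (hS _ (hfinS.mem_toFinset.mpr ⟨(c', b), rfl⟩))
  refine ⟨algebraMap ↥E' ↥(fieldC ↥E' L M H) ⟨β (c', b), hmem⟩, ?_, ?_⟩
  · intro h0
    have h1' := congrArg (nfEmbH E' L M H) h0
    rw [rtk6m5_nfEmbH_const, map_zero] at h1'
    exact hβ0 (c', b) ((map_eq_zero _).mp h1')
  · refine rtk6m5_comap hB A L M H w' h1 h2 hw' γ.toRingEquiv.toRingHom b ?_
    have e : nfEmbH E' L M H (γ (y₀ / algebraMap ↥E' ↥(fieldC ↥E' L M H) ⟨β (c', b), hmem⟩ ^ n))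
        = γb c' Y / algebraMap Qb (fieldBar L M H) (β (c', b)) ^ n := by
      rw [rtk6diw_diamond_nfEmbH hγ (hγb c'), map_div₀, map_pow, rtk6m5_nfEmbH_const, hy₀,
        map_div₀, map_pow, AlgEquiv.commutes]
    show ReducesToOneF A (fieldBar L M H)
      (bif b then nfEmbH E' L M H (γ (y₀ / _ ^ n)) else w (nfEmbH E' L M H (γ (y₀ / _ ^ n))))
    rw [e]
    exact hβ (c', b)

variable {r : ℕ} {w : fieldBar L M H ≃ₐ[Qb] fieldBar L M H}

/-- **M5, (χ), generic base.** -/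
theorem rtk6m5_pack_chi (hL : L ≠ 0) (hML : M ∣ L) (hw : IsWAt L M H r w)
    (A : ValuationSubring Qb) (σ : Qb ≃ₐ[ℚ] Qb) (hσ : σ ∈ A.inertiaSubgroupIn ℚ)
    {c : (ZMod M)ˣ} (hc : IsCycAt M r σ c)
    {u : fieldBar L M H} (hu : u ≠ 0) {n : ℕ} (hn : n ≠ 0) :
    ∃ K₀ : IntermediateField ℚ Qb, FiniteDimensional ℚ K₀ ∧
      ∀ E' : IntermediateField ℚ Qb, K₀ ≤ E' →
        ∀ {A₀ : Type u₁} {k : Type u₂} [CommRing A₀] [Field k] {ι : A₀ →+* ↥E'}
          {ρ : A₀ →+* k} {π : A₀} (hB : VtBase ι ρ π),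
          (∀ a, algebraMap ↥E' Qb (ι a) ∈ A) →
          (∀ a, algebraMap ↥E' Qb (ι a) ∈ A.nonunits → ρ a = 0) →
          ∀ (w' : ↥(fieldC ↥E' L M H) ≃ₐ[↥E'] ↥(fieldC ↥E' L M H)),
            (∀ x : ↥(fieldC ↥E' L M H), nfEmbH E' L M H (w' x) = w (nfEmbH E' L M H x)) →
            ∀ (hσE : ∀ x ∈ E', σ x ∈ E')
              (δ₀ : ↥(fieldC ↥E' L M H) ≃ₐ[↥E'] ↥(fieldC ↥E' L M H)),
              IsDiamondC ↥E' L M H c δ₀ →
              ∀ u₀ : ↥(fieldC ↥E' L M H), nfEmbH E' L M H u₀ = u →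
                ∀ (c' : (ZMod M)ˣ) (γ : ↥(fieldC ↥E' L M H) ≃ₐ[↥E'] ↥(fieldC ↥E' L M H)),
                  IsDiamondC ↥E' L M H c' γ → ∀ b : Bool,
                    ∃ tt : ↥(fieldC ↥E' L M H), tt ≠ 0 ∧
                      rtk6eChi E' L M H σ hσE δ₀ u₀ / tt ^ n - 1 ∈
                        ((rtk6dvFam hB L M H w' b).comap γ.toRingEquiv.toRingHom).nonunits := by
  obtain ⟨δ, hδ⟩ := rtk6diw_exists_diamondH (H := H) hL hML c
  obtain ⟨K₀, hfin, h⟩ := rtk6m5_pack_gen.{u₁, u₂} hL hML A w n (chiExpr σ δ u)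
    (fun c' γ hγ b => rtk6m5_chi_root hw A σ hσ hc hδ hu hn hγ b)
  refine ⟨K₀, hfin, fun E' hE A₀ k _ _ ι ρ π hB h1 h2 w' hw' hσE δ₀ hδ₀ u₀ hu₀ c' γ hγ b => ?_⟩
  refine h E' hE hB h1 h2 w' hw' _ ?_ c' γ hγ b
  rw [nfEmbH_rtk6eChi σ hσE hδ₀ hδ, hu₀]

/-- **M5, (UNIP_H), generic base**: the diamond `δ_c` is trivial on `fieldBar L M H`. -/
theorem rtk6m5_pack_unip (hL : L ≠ 0) (hML : M ∣ L) (hw : IsWAt L M H r w)
    (A : ValuationSubring Qb) (σ : Qb ≃ₐ[ℚ] Qb) (hσ : σ ∈ A.inertiaSubgroupIn ℚ)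
    {c : (ZMod M)ˣ} (hc : IsCycAt M r σ c)
    (hδ : IsDiamondH L M H c (1 : fieldBar L M H ≃ₐ[Qb] fieldBar L M H))
    {u : fieldBar L M H} (hu : u ≠ 0) {n : ℕ} (hn : n ≠ 0) :
    ∃ K₀ : IntermediateField ℚ Qb, FiniteDimensional ℚ K₀ ∧
      ∀ E' : IntermediateField ℚ Qb, K₀ ≤ E' →
        ∀ {A₀ : Type u₁} {k : Type u₂} [CommRing A₀] [Field k] {ι : A₀ →+* ↥E'}
          {ρ : A₀ →+* k} {π : A₀} (hB : VtBase ι ρ π),
          (∀ a, algebraMap ↥E' Qb (ι a) ∈ A) →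
          (∀ a, algebraMap ↥E' Qb (ι a) ∈ A.nonunits → ρ a = 0) →
          ∀ (w' : ↥(fieldC ↥E' L M H) ≃ₐ[↥E'] ↥(fieldC ↥E' L M H)),
            (∀ x : ↥(fieldC ↥E' L M H), nfEmbH E' L M H (w' x) = w (nfEmbH E' L M H x)) →
            ∀ (hσE : ∀ x ∈ E', σ x ∈ E')
              (u₀ : ↥(fieldC ↥E' L M H)), nfEmbH E' L M H u₀ = u →
                ∀ (c' : (ZMod M)ˣ) (γ : ↥(fieldC ↥E' L M H) ≃ₐ[↥E'] ↥(fieldC ↥E' L M H)),
                  IsDiamondC ↥E' L M H c' γ → ∀ b : Bool,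
                    ∃ tt : ↥(fieldC ↥E' L M H), tt ≠ 0 ∧
                      (rtk6eAct E' L M H σ hσE u₀ / u₀) / tt ^ n - 1 ∈
                        ((rtk6dvFam hB L M H w' b).comap γ.toRingEquiv.toRingHom).nonunits := by
  obtain ⟨K₀, hfin, h⟩ := rtk6m5_pack_gen.{u₁, u₂} hL hML A w n
    ((arithmeticGalois (fieldQ L M H) σ • u) / u)
    (fun c' γ hγ b => rtk6m5_unip_root hw A σ hσ hc hδ hu hn hγ b)
  refine ⟨K₀, hfin, fun E' hE A₀ k _ _ ι ρ π hB h1 h2 w' hw' hσE u₀ hu₀ c' γ hγ b => ?_⟩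
  refine h E' hE hB h1 h2 w' hw' _ ?_ c' γ hγ b
  rw [map_div₀, nfEmbH_rtk6eAct, hu₀]

end Pack

end Fermat.Agent.RT.K6
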