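/-
K-machine, piece K6 / M5 (helper96), part 3: `htoric` of `rtk6ew_main_multi` for helper82's family
`κ = rtk6dfK hπ M H w′`, `V = rtk6dfV hπ M H w′` of ALL `Γ`-conjugates of `V_∞`, `V_0` on
`F′ = rtk6diF A K₁ (M₁ q) M H`, `E′ = mgcE A K₁`.

* `rtk6m5_gal_quot_eq_chi` : `g • x / x = rtk6eChi σ δ₀ u₀` for `g = rtk6diGal σ`,
  `x = δ₀ (σ̂ u₀) / u₀`;
* **`rtk6m5_htoric_chi`** : there is a number field `K₀` such that for every `K₁ ⊇ K₀` (with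
  `A′ = mgcA A K₁` a DVR, `E′` stable under `σ`), every `w′` lifting `w`, every diamond `δ₀` for
  `c = c(σ)` and every descent `u₀ ∈ F′` of `u`:
  `∃ tt : κ → F′, (∀ c, tt c ≠ 0) ∧ ∀ c, (g • x / x) / tt c ^ n - 1 ∈ 𝔪(V c)`,
  `g = rtk6diGal σ`, `x = δ₀ (σ̂ u₀) / u₀` — LITERALLY the hypothesis `htoric` of
  `rtk6ew_main_multi` (with `p ^ r := n`);
* **`rtk6m5_htoric_unip`** : the same with `x = u₀` when the diamond `δ_c` is trivial (UNIP_H);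
* `rtk6m5_htoric_chi_W`, `rtk6m5_htoric_unip_W` : the same for `w′ := rtk6diwW w …` (DIW).
-/
import Fermat.Agent.RT.K6.M5Pack
import Fermat.Agent.RT.K6.DIFamComm

set_option autoImplicit false
set_option linter.style.haveILetI false
set_option linter.unusedSectionVars false
set_option linter.unusedVariables false

noncomputable section

namespace Fermat.Agent.RT.K6

open ModularCurve AlgebraicCurve HahnSeries Fermat.Agent.ES Fermat.Agent.ES.G2 Fermat.Agent.INJ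
open Fermat.Agent.UNIP Fermat.Agent.ES1 Fermat.Agent.ES1.G2 IntermediateField

section Quot

variable {K₀ : IntermediateField ℚ Qb} {L M : ℕ} {H : Subgroup (ZMod M)ˣ}

theorem rtk6m5_field_aux {F : Type*} [Field F] (a b s u : F) (hb : b ≠ 0) (hs : s ≠ 0)
    (hu : u ≠ 0) : a / s / (b / u) = a * u / (s * b) := by
  field_simp

/-- `σ̂ x / x = rtk6eChi σ δ₀ u₀` for `x = δ₀ (σ̂ u₀) / u₀` -/
theorem rtk6m5_act_quot_eq_chi (σ : Qb ≃ₐ[ℚ] Qb) (hσ : ∀ x ∈ K₀, σ x ∈ K₀)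
    (δ₀ : ↥(fieldC ↥K₀ L M H) ≃ₐ[↥K₀] ↥(fieldC ↥K₀ L M H)) {u₀ : ↥(fieldC ↥K₀ L M H)}
    (hu₀ : u₀ ≠ 0) :
    rtk6eAct K₀ L M H σ hσ (δ₀ (rtk6eAct K₀ L M H σ hσ u₀) / u₀) /
        (δ₀ (rtk6eAct K₀ L M H σ hσ u₀) / u₀) =
      rtk6eChi K₀ L M H σ hσ δ₀ u₀ := by
  have h1 : rtk6eAct K₀ L M H σ hσ u₀ ≠ 0 := (map_ne_zero _).mpr hu₀
  have h2 : δ₀ (rtk6eAct K₀ L M H σ hσ u₀) ≠ 0 := (map_ne_zero δ₀).mpr h1
  unfold rtk6eChi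
  rw [map_div₀ (rtk6eAct K₀ L M H σ hσ)]
  exact rtk6m5_field_aux _ _ _ _ h2 h1 hu₀

end Quot

section Concrete

variable {q M₁ : ℕ} [NeZero q] [NeZero M₁] [NeZero (M₁ * q)] {M : ℕ} {H : Subgroup (ZMod M)ˣ}
  {w : fieldBar (M₁ * q) M H ≃ₐ[Qb] fieldBar (M₁ * q) M H}

/-- `g • x / x = rtk6eChi σ δ₀ u₀` for `g = rtk6diGal σ`, `x = δ₀ (σ̂ u₀) / u₀` -/
theorem rtk6m5_gal_quot_eq_chi {A : ValuationSubring Qb} {K₁ : IntermediateField ℚ Qb}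
    (σ : Qb ≃ₐ[ℚ] Qb) (hσE : ∀ x ∈ mgcE A K₁, σ x ∈ mgcE A K₁)
    (δ₀ : ↥(rtk6diF A K₁ (M₁ * q) M H) ≃ₐ[↥(mgcE A K₁)] ↥(rtk6diF A K₁ (M₁ * q) M H))
    {u₀ : ↥(rtk6diF A K₁ (M₁ * q) M H)} (hu₀ : u₀ ≠ 0) :
    rtk6diGal (M₁ * q) M H σ hσE • (δ₀ (rtk6diAct (M₁ * q) M H σ hσE u₀) / u₀) /
        (δ₀ (rtk6diAct (M₁ * q) M H σ hσE u₀) / u₀) =
      rtk6eChi (mgcE A K₁) (M₁ * q) M H σ hσE δ₀ u₀ :=
  rtk6m5_act_quot_eq_chi σ hσE δ₀ hu₀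

/-- **M5, (χ): the hypothesis `htoric` of `rtk6ew_main_multi`** for the family
`κ = rtk6dfK`, `V = rtk6dfV`, `g = rtk6diGal σ`, `x = δ₀ (σ̂ u₀) / u₀`. -/
theorem rtk6m5_htoric_chi (hML : M ∣ M₁ * q) (hw : IsWAt (M₁ * q) M H q w)
    (A : ValuationSubring Qb) (σ : Qb ≃ₐ[ℚ] Qb) (hσ : σ ∈ A.inertiaSubgroupIn ℚ)
    {c : (ZMod M)ˣ} (hc : IsCycAt M q σ c)
    {u : fieldBar (M₁ * q) M H} (hu : u ≠ 0) {n : ℕ} (hn : n ≠ 0) :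
    ∃ K₀ : IntermediateField ℚ Qb, FiniteDimensional ℚ K₀ ∧
      ∀ K₁ : IntermediateField ℚ Qb, K₀ ≤ K₁ →
        ∀ [IsDiscreteValuationRing ↥(mgcA A K₁)] {π : ↥(mgcA A K₁)} (hπ : Irreducible π)
          (w' : ↥(rtk6diF A K₁ (M₁ * q) M H) ≃ₐ[↥(mgcE A K₁)] ↥(rtk6diF A K₁ (M₁ * q) M H)),
          (∀ x : ↥(rtk6diF A K₁ (M₁ * q) M H),
            nfEmbH (mgcE A K₁) (M₁ * q) M H (w' x) = w (nfEmbH (mgcE A K₁) (M₁ * q) M H x)) →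
          ∀ (hσE : ∀ x ∈ mgcE A K₁, σ x ∈ mgcE A K₁)
            (δ₀ : ↥(rtk6diF A K₁ (M₁ * q) M H) ≃ₐ[↥(mgcE A K₁)] ↥(rtk6diF A K₁ (M₁ * q) M H)),
            IsDiamondC ↥(mgcE A K₁) (M₁ * q) M H c δ₀ →
            ∀ u₀ : ↥(rtk6diF A K₁ (M₁ * q) M H), nfEmbH (mgcE A K₁) (M₁ * q) M H u₀ = u →
              ∃ tt : rtk6dfK hπ M H w' → ↥(rtk6diF A K₁ (M₁ * q) M H), (∀ c, tt c ≠ 0) ∧
                ∀ c, (rtk6diGal (M₁ * q) M H σ hσE •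
                      (δ₀ (rtk6diAct (M₁ * q) M H σ hσE u₀) / u₀) /
                    (δ₀ (rtk6diAct (M₁ * q) M H σ hσE u₀) / u₀)) / tt c ^ n - 1 ∈
                  (rtk6dfV hπ M H w' c).nonunits := by
  have hL : M₁ * q ≠ 0 := NeZero.ne _
  obtain ⟨K₀, hfin, h⟩ := rtk6m5_pack_chi hL hML hw A σ hσ hc hu hn
  refine ⟨K₀, hfin, fun K₁ hK _ π hπ w' hw' hσE δ₀ hδ₀ u₀ hu₀ => ?_⟩
  haveI : Algebra.IsAlgebraic ℚ Qb := AlgebraicClosure.isAlgebraic ℚ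
  haveI : Algebra.IsAlgebraic ℚ ↥(mgcE A K₁) :=
    Algebra.IsAlgebraic.of_injective (mgcE A K₁).val Subtype.val_injective
  haveI : NeZero M := ⟨fun h0 => hL (Nat.eq_zero_of_zero_dvd (h0 ▸ hML))⟩
  have hu₀0 : u₀ ≠ 0 := by
    rintro rfl
    rw [map_zero] at hu₀
    exact hu hu₀.symm
  have hE : K₀ ≤ mgcE A K₁ := le_trans hK le_sup_right
  have key : ∀ c : rtk6dfK hπ M H w', ∃ tt : ↥(rtk6diF A K₁ (M₁ * q) M H), tt ≠ 0 ∧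
      rtk6eChi (mgcE A K₁) (M₁ * q) M H σ hσE δ₀ u₀ / tt ^ n - 1 ∈
        (rtk6dfV hπ M H w' c).nonunits := by
    intro c
    obtain ⟨γ, hγ, b, hV⟩ := rtk6df_existsK hπ M H w' c
    obtain ⟨c', hc'⟩ := rtk6df_isDiamond hL hML hγ
    obtain ⟨tt, htt, hmem⟩ := h (mgcE A K₁) hE (vtBase_residue hπ)
      (Fermat.Agent.STB.stb_mgt_c1 A (mgcE A K₁)) (Fermat.Agent.STB.stb_mgt_c2 A (mgcE A K₁))
      w' hw' hσE δ₀ hδ₀ u₀ hu₀ c' γ hc' b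
    refine ⟨tt, htt, ?_⟩
    rw [hV]
    exact hmem
  choose tt htt hmem using key
  refine ⟨tt, htt, fun c => ?_⟩
  rw [rtk6m5_gal_quot_eq_chi σ hσE δ₀ hu₀0]
  exact hmem c

/-- **M5, (UNIP_H): the hypothesis `htoric` of `rtk6ew_main_multi`** for the family
`κ = rtk6dfK`, `V = rtk6dfV`, `g = rtk6diGal σ`, `x = u₀`, when the diamond `δ_c` is trivial. -/
theorem rtk6m5_htoric_unip (hML : M ∣ M₁ * q) (hw : IsWAt (M₁ * q) M H q w)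
    (A : ValuationSubring Qb) (σ : Qb ≃ₐ[ℚ] Qb) (hσ : σ ∈ A.inertiaSubgroupIn ℚ)
    {c : (ZMod M)ˣ} (hc : IsCycAt M q σ c)
    (hδ : IsDiamondH (M₁ * q) M H c
      (1 : fieldBar (M₁ * q) M H ≃ₐ[Qb] fieldBar (M₁ * q) M H))
    {u : fieldBar (M₁ * q) M H} (hu : u ≠ 0) {n : ℕ} (hn : n ≠ 0) :
    ∃ K₀ : IntermediateField ℚ Qb, FiniteDimensional ℚ K₀ ∧
      ∀ K₁ : IntermediateField ℚ Qb, K₀ ≤ K₁ →
        ∀ [IsDiscreteValuationRing ↥(mgcA A K₁)] {π : ↥(mgcA A K₁)} (hπ : Irreducible π)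
          (w' : ↥(rtk6diF A K₁ (M₁ * q) M H) ≃ₐ[↥(mgcE A K₁)] ↥(rtk6diF A K₁ (M₁ * q) M H)),
          (∀ x : ↥(rtk6diF A K₁ (M₁ * q) M H),
            nfEmbH (mgcE A K₁) (M₁ * q) M H (w' x) = w (nfEmbH (mgcE A K₁) (M₁ * q) M H x)) →
          ∀ (hσE : ∀ x ∈ mgcE A K₁, σ x ∈ mgcE A K₁)
            (u₀ : ↥(rtk6diF A K₁ (M₁ * q) M H)), nfEmbH (mgcE A K₁) (M₁ * q) M H u₀ = u →
              ∃ tt : rtk6dfK hπ M H w' → ↥(rtk6diF A K₁ (M₁ * q) M H), (∀ c, tt c ≠ 0) ∧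
                ∀ c, (rtk6diGal (M₁ * q) M H σ hσE • u₀ / u₀) / tt c ^ n - 1 ∈
                  (rtk6dfV hπ M H w' c).nonunits := by
  have hL : M₁ * q ≠ 0 := NeZero.ne _
  obtain ⟨K₀, hfin, h⟩ := rtk6m5_pack_unip hL hML hw A σ hσ hc hδ hu hn
  refine ⟨K₀, hfin, fun K₁ hK _ π hπ w' hw' hσE u₀ hu₀ => ?_⟩
  haveI : Algebra.IsAlgebraic ℚ Qb := AlgebraicClosure.isAlgebraic ℚ
  haveI : Algebra.IsAlgebraic ℚ ↥(mgcE A K₁) :=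
    Algebra.IsAlgebraic.of_injective (mgcE A K₁).val Subtype.val_injective
  haveI : NeZero M := ⟨fun h0 => hL (Nat.eq_zero_of_zero_dvd (h0 ▸ hML))⟩
  have hE : K₀ ≤ mgcE A K₁ := le_trans hK le_sup_right
  have key : ∀ c : rtk6dfK hπ M H w', ∃ tt : ↥(rtk6diF A K₁ (M₁ * q) M H), tt ≠ 0 ∧
      (rtk6eAct (mgcE A K₁) (M₁ * q) M H σ hσE u₀ / u₀) / tt ^ n - 1 ∈
        (rtk6dfV hπ M H w' c).nonunits := by
    intro c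
    obtain ⟨γ, hγ, b, hV⟩ := rtk6df_existsK hπ M H w' c
    obtain ⟨c', hc'⟩ := rtk6df_isDiamond hL hML hγ
    obtain ⟨tt, htt, hmem⟩ := h (mgcE A K₁) hE (vtBase_residue hπ)
      (Fermat.Agent.STB.stb_mgt_c1 A (mgcE A K₁)) (Fermat.Agent.STB.stb_mgt_c2 A (mgcE A K₁))
      w' hw' hσE u₀ hu₀ c' γ hc' b
    refine ⟨tt, htt, ?_⟩
    rw [hV]
    exact hmem
  choose tt htt hmem using key
  exact ⟨tt, htt, fun c => hmem c⟩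

end Concrete

end Fermat.Agent.RT.K6
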