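/-
K-machine, piece K6 / M5 (helper96), part 4: the input `Rtk6emToric` of E-MAIN (helper18's
`RT/K6/EMain.lean`) for helper82's family `V = rtk6dfV hπ M H w′` at the level `L = M₁ q`.

* **`rtk6m5_toric_chi`** : `∃ K₀` number field, `∀ K₁ ⊇ K₀` …,
  `Rtk6emToric A K₁ (M₁ q) M H (rtk6dfV hπ M H w′) (rtk6eChi (mgcE A K₁) (M₁ q) M H σ hσ δ₀ u₀) n`;
* **`rtk6m5_toric_unip`** : the same for `y = rtk6diGal σ • u₀ / u₀` when the diamond `δ_c` is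
  trivial on `fieldBar` (UNIP_H);
* `rtk6m5_toric_chi_W`, `rtk6m5_toric_unip_W` : for `w′ := rtk6diwW w hw …` (DIW).
-/
import Fermat.Agent.RT.K6.M5Inst
import Fermat.Agent.RT.K6.EMain

set_option autoImplicit false
set_option linter.style.haveILetI false
set_option linter.unusedSectionVars false
set_option linter.unusedVariables false

noncomputable section

namespace Fermat.Agent.RT.K6

open ModularCurve AlgebraicCurve HahnSeries Fermat.Agent.ES Fermat.Agent.ES.G2 Fermat.Agent.INJ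
open Fermat.Agent.UNIP Fermat.Agent.ES1 Fermat.Agent.ES1.G2 IntermediateField

section Em

variable {q M₁ : ℕ} [NeZero q] [NeZero M₁] [NeZero (M₁ * q)] {M : ℕ} {H : Subgroup (ZMod M)ˣ}
  {w : fieldBar (M₁ * q) M H ≃ₐ[Qb] fieldBar (M₁ * q) M H}

/-- **M5, (χ): `Rtk6emToric`** for `V = rtk6dfV hπ M H w′`, `y = rtk6eChi σ δ₀ u₀`. -/
theorem rtk6m5_toric_chi (hML : M ∣ M₁ * q) (hw : IsWAt (M₁ * q) M H q w)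
    (A : ValuationSubring Qb) (σ : Qb ≃ₐ[ℚ] Qb) (hσ : σ ∈ A.inertiaSubgroupIn ℚ)
    {c : (ZMod M)ˣ} (hc : IsCycAt M q σ c)
    {u : fieldBar (M₁ * q) M H} (hu : u ≠ 0) {n : ℕ} (hn : n ≠ 0) :
    ∃ K₀ : IntermediateField ℚ Qb, FiniteDimensional ℚ K₀ ∧
      ∀ K₁ : IntermediateField ℚ Qb, K₀ ≤ K₁ →
        ∀ [IsDiscreteValuationRing ↥(mgcA A K₁)] {π : ↥(mgcA A K₁)} (hπ : Irreducible π)
          (w' : ↥(rtk6diF A K₁ (M₁ * q) M H) ≃ₐ[↥(mgcE A K₁)] ↥(rtk6diF A K₁ (M₁ * q) M H)),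
          (∀ x : ↥(rtk6diF A K₁ (M₁ * q) M H),
            nfEmbH (mgcE A K₁) (M₁ * q) M H (w' x) = w (nfEmbH (mgcE A K₁) (M₁ * q) M H x)) →
          ∀ (hσE : ∀ x ∈ mgcE A K₁, σ x ∈ mgcE A K₁)
            (δ₀ : ↥(rtk6diF A K₁ (M₁ * q) M H) ≃ₐ[↥(mgcE A K₁)] ↥(rtk6diF A K₁ (M₁ * q) M H)),
            IsDiamondC ↥(mgcE A K₁) (M₁ * q) M H c δ₀ →
            ∀ u₀ : ↥(rtk6diF A K₁ (M₁ * q) M H), nfEmbH (mgcE A K₁) (M₁ * q) M H u₀ = u →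
              Rtk6emToric A K₁ (M₁ * q) M H (rtk6dfV hπ M H w')
                (rtk6eChi (mgcE A K₁) (M₁ * q) M H σ hσE δ₀ u₀) n := by
  obtain ⟨K₀, hfin, h⟩ := rtk6m5_htoric_chi hML hw A σ hσ hc hu hn
  refine ⟨K₀, hfin, fun K₁ hK _ π hπ w' hw' hσE δ₀ hδ₀ u₀ hu₀ => ?_⟩
  have hu₀0 : u₀ ≠ 0 := by
    rintro rfl
    rw [map_zero] at hu₀
    exact hu hu₀.symm
  obtain ⟨tt, -, htt⟩ := h K₁ hK hπ w' hw' hσE δ₀ hδ₀ u₀ hu₀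
  refine ⟨tt, fun c => ?_⟩
  have := htt c
  rwa [rtk6m5_gal_quot_eq_chi σ hσE δ₀ hu₀0] at this

/-- **M5, (UNIP_H): `Rtk6emToric`** for `V = rtk6dfV hπ M H w′`, `y = rtk6diGal σ • u₀ / u₀`. -/
theorem rtk6m5_toric_unip (hML : M ∣ M₁ * q) (hw : IsWAt (M₁ * q) M H q w)
    (A : ValuationSubring Qb) (σ : Qb ≃ₐ[ℚ] Qb) (hσ : σ ∈ A.inertiaSubgroupIn ℚ)
    {c : (ZMod M)ˣ} (hc : IsCycAt M q σ c)
    (hδ : IsDiamondH (M₁ * q) M H c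
      (1 : fieldBar (M₁ * q) M H ≃ₐ[Qb] fieldBar (M₁ * q) M H))
    {u : fieldBar (M₁ * q) M H} (hu : u ≠ 0) {n : ℕ} (hn : n ≠ 0) :
    ∃ K₀ : IntermediateField ℚ Qb, FiniteDimensional ℚ K₀ ∧
      ∀ K₁ : IntermediateField ℚ Qb, K₀ ≤ K₁ →
        ∀ [IsDiscreteValuationRing ↥(mgcA A K₁)] {π : ↥(mgcA A K₁)} (hπ : Irreducible π)
          (w' : ↥(rtk6diF A K₁ (M₁ * q) M H) ≃ₐ[↥(mgcE A K₁)] ↥(rtk6diF A K₁ (M₁ * q) M H)),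
          (∀ x : ↥(rtk6diF A K₁ (M₁ * q) M H),
            nfEmbH (mgcE A K₁) (M₁ * q) M H (w' x) = w (nfEmbH (mgcE A K₁) (M₁ * q) M H x)) →
          ∀ (hσE : ∀ x ∈ mgcE A K₁, σ x ∈ mgcE A K₁)
            (u₀ : ↥(rtk6diF A K₁ (M₁ * q) M H)), nfEmbH (mgcE A K₁) (M₁ * q) M H u₀ = u →
              Rtk6emToric A K₁ (M₁ * q) M H (rtk6dfV hπ M H w')
                (rtk6diGal (M₁ * q) M H σ hσE • u₀ / u₀) n := by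
  obtain ⟨K₀, hfin, h⟩ := rtk6m5_htoric_unip hML hw A σ hσ hc hδ hu hn
  refine ⟨K₀, hfin, fun K₁ hK _ π hπ w' hw' hσE u₀ hu₀ => ?_⟩
  obtain ⟨tt, -, htt⟩ := h K₁ hK hπ w' hw' hσE u₀ hu₀
  exact ⟨tt, htt⟩

/-- **M5, (χ)** for `w′ := rtk6diwW w hw …` (DIW). -/
theorem rtk6m5_toric_chi_W (hML : M ∣ M₁ * q) (hw : IsWAt (M₁ * q) M H q w)
    (hM0 : M ≠ 0) (hq : q.Prime) (hqM : q ∣ M)
    (A : ValuationSubring Qb) (σ : Qb ≃ₐ[ℚ] Qb) (hσ : σ ∈ A.inertiaSubgroupIn ℚ)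
    {c : (ZMod M)ˣ} (hc : IsCycAt M q σ c)
    {u : fieldBar (M₁ * q) M H} (hu : u ≠ 0) {n : ℕ} (hn : n ≠ 0) :
    ∃ K₀ : IntermediateField ℚ Qb, FiniteDimensional ℚ K₀ ∧
      ∀ K₁ : IntermediateField ℚ Qb, K₀ ≤ K₁ →
        ∀ [IsDiscreteValuationRing ↥(mgcA A K₁)] {π : ↥(mgcA A K₁)} (hπ : Irreducible π)
          (hζ : ∀ ζ : Qb, ζ ^ q = 1 → ζ ∈ mgcE A K₁)
          (hσE : ∀ x ∈ mgcE A K₁, σ x ∈ mgcE A K₁)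
          (δ₀ : ↥(rtk6diF A K₁ (M₁ * q) M H) ≃ₐ[↥(mgcE A K₁)] ↥(rtk6diF A K₁ (M₁ * q) M H)),
          IsDiamondC ↥(mgcE A K₁) (M₁ * q) M H c δ₀ →
          ∀ u₀ : ↥(rtk6diF A K₁ (M₁ * q) M H), nfEmbH (mgcE A K₁) (M₁ * q) M H u₀ = u →
            Rtk6emToric A K₁ (M₁ * q) M H
              (rtk6dfV hπ M H (rtk6diwW (K₀ := mgcE A K₁) w hw hM0 hq hqM hζ))
              (rtk6eChi (mgcE A K₁) (M₁ * q) M H σ hσE δ₀ u₀) n := by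
  obtain ⟨K₀, hfin, h⟩ := rtk6m5_toric_chi hML hw A σ hσ hc hu hn
  exact ⟨K₀, hfin, fun K₁ hK _ π hπ hζ hσE δ₀ hδ₀ u₀ hu₀ =>
    h K₁ hK hπ _ (nfEmbH_rtk6diwW w hw hM0 hq hqM hζ) hσE δ₀ hδ₀ u₀ hu₀⟩

/-- **M5, (UNIP_H)** for `w′ := rtk6diwW w hw …` (DIW). -/
theorem rtk6m5_toric_unip_W (hML : M ∣ M₁ * q) (hw : IsWAt (M₁ * q) M H q w)
    (hM0 : M ≠ 0) (hq : q.Prime) (hqM : q ∣ M)
    (A : ValuationSubring Qb) (σ : Qb ≃ₐ[ℚ] Qb) (hσ : σ ∈ A.inertiaSubgroupIn ℚ)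
    {c : (ZMod M)ˣ} (hc : IsCycAt M q σ c)
    (hδ : IsDiamondH (M₁ * q) M H c
      (1 : fieldBar (M₁ * q) M H ≃ₐ[Qb] fieldBar (M₁ * q) M H))
    {u : fieldBar (M₁ * q) M H} (hu : u ≠ 0) {n : ℕ} (hn : n ≠ 0) :
    ∃ K₀ : IntermediateField ℚ Qb, FiniteDimensional ℚ K₀ ∧
      ∀ K₁ : IntermediateField ℚ Qb, K₀ ≤ K₁ →
        ∀ [IsDiscreteValuationRing ↥(mgcA A K₁)] {π : ↥(mgcA A K₁)} (hπ : Irreducible π)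
          (hζ : ∀ ζ : Qb, ζ ^ q = 1 → ζ ∈ mgcE A K₁)
          (hσE : ∀ x ∈ mgcE A K₁, σ x ∈ mgcE A K₁)
          (u₀ : ↥(rtk6diF A K₁ (M₁ * q) M H)), nfEmbH (mgcE A K₁) (M₁ * q) M H u₀ = u →
            Rtk6emToric A K₁ (M₁ * q) M H
              (rtk6dfV hπ M H (rtk6diwW (K₀ := mgcE A K₁) w hw hM0 hq hqM hζ))
              (rtk6diGal (M₁ * q) M H σ hσE • u₀ / u₀) n := by
  obtain ⟨K₀, hfin, h⟩ := rtk6m5_toric_unip hML hw A σ hσ hc hδ hu hn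
  exact ⟨K₀, hfin, fun K₁ hK _ π hπ hζ hσE u₀ hu₀ =>
    h K₁ hK hπ _ (nfEmbH_rtk6diwW w hw hM0 hq hqM hζ) hσE u₀ hu₀⟩

end Em

end Fermat.Agent.RT.K6
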