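/-
K-machine, piece K6 / M5 (helper96), part 5: the case UNIP_H, hypothesis "`H ∋` all diamonds at
`r`" in the form of `StmtUnipHRig` (`∀ c, IsAtR M r c → c ∈ pmH H`).

* `rtk6m5_isDiamondH_one` : `c ∈ pmH H ⇒ IsDiamondH L M H c 1` (the diamond `δ_c` is trivial on
  `fieldBar L M H`);
* `rtk6m5_isDiamondC_one` : the same on `fieldC K L M H`;
* **`rtk6m5_toric_unip_at`**, `rtk6m5_toric_unip_at_W` : `Rtk6emToric` for `y = rtk6diGal σ • u₀ / u₀`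
  under `∀ c, IsAtR M q c → c ∈ pmH H`.
-/
import Fermat.Agent.RT.K6.M5Em
import Fermat.Agent.RT.K6.FCoset

set_option autoImplicit false
set_option linter.style.haveILetI false
set_option linter.unusedSectionVars false
set_option linter.unusedVariables false

noncomputable section

namespace Fermat.Agent.RT.K6

open ModularCurve AlgebraicCurve HahnSeries Fermat.Agent.ES Fermat.Agent.ES.G2 Fermat.Agent.INJ
open Fermat.Agent.UNIP Fermat.Agent.ES1 Fermat.Agent.ES1.G2 IntermediateField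

section One

variable {L M : ℕ} {H : Subgroup (ZMod M)ˣ}

/-- `S_{a c} = S_a` for `c ∈ ±H` -/
theorem rtk6m5_sS_mul_of_mem (R : Type*) [CommRing R] {c : (ZMod M)ˣ} (hc : c ∈ pmH H)
    (a : (ZMod M)ˣ) : sS R M H (a * c) = sS R M H a :=
  es1f_sS_eq_of_inPM R (rtk6f_inPM_iff.mpr (by rw [inv_mul_cancel_left]; exact hc))

/-- **the diamond of `c ∈ ±H` is trivial** on `fieldBar L M H` -/
theorem rtk6m5_isDiamondH_one {c : (ZMod M)ˣ} (hc : c ∈ pmH H) :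
    IsDiamondH L M H c (1 : fieldBar L M H ≃ₐ[Qb] fieldBar L M H) where
  fix_j := fun _ _ _ _ _ => rfl
  map_s := fun e _ a _ x hx => by
    rw [rtk6m5_sS_mul_of_mem Qb hc a]
    exact hx

/-- **the diamond of `c ∈ ±H` is trivial** on `fieldC K L M H` -/
theorem rtk6m5_isDiamondC_one (K : Type) [Field K] {c : (ZMod M)ˣ} (hc : c ∈ pmH H) :
    IsDiamondC K L M H c (1 : ↥(fieldC K L M H) ≃ₐ[K] ↥(fieldC K L M H)) where
  fix := fun _ _ => rfl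
  map_s := fun e _ he b => by
    rw [rtk6m5_sS_mul_of_mem K hc b]
    rfl

end One

section Em

variable {q M₁ : ℕ} [NeZero q] [NeZero M₁] [NeZero (M₁ * q)] {M : ℕ} {H : Subgroup (ZMod M)ˣ}
  {w : fieldBar (M₁ * q) M H ≃ₐ[Qb] fieldBar (M₁ * q) M H}

/-- **M5, (UNIP_H): `Rtk6emToric`** for `V = rtk6dfV hπ M H w′`, `y = rtk6diGal σ • u₀ / u₀`, when
`H` contains all diamonds at `q`. -/
theorem rtk6m5_toric_unip_at (hML : M ∣ M₁ * q) (hw : IsWAt (M₁ * q) M H q w)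
    (hat : ∀ c : (ZMod M)ˣ, IsAtR M q c → c ∈ pmH H)
    (A : ValuationSubring Qb) (σ : Qb ≃ₐ[ℚ] Qb) (hσ : σ ∈ A.inertiaSubgroupIn ℚ)
    {c : (ZMod M)ˣ} (hc : IsCycAt M q σ c)
    {u : fieldBar (M₁ * q) M H} (hu : u ≠ 0) {n : ℕ} (hn : n ≠ 0) :
    ∃ K₀ : IntermediateField ℚ Qb, FiniteDimensional ℚ K₀ ∧
      ∀ K₁ : IntermediateField ℚ Qb, K₀ ≤ K₁ →
        ∀ [IsDiscreteValuationRing ↥(mgcA A K₁)] {π : ↥(mgcA A K₁)} (hπ : Irreducible π)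
          (w' : ↥(rtk6diF A K₁ (M₁ * q) M H) ≃ₐ[↥(mgcE A K₁)] ↥(rtk6diF A K₁ (M₁ * q) M H)),
          (∀ x : ↥(rtk6diF A K₁ (M₁ * q) M H),
            nfEmbH (mgcE A K₁) (M₁ * q) M H (w' x) = w (nfEmbH (mgcE A K₁) (M₁ * q) M H x)) →
          ∀ (hσE : ∀ x ∈ mgcE A K₁, σ x ∈ mgcE A K₁)
            (u₀ : ↥(rtk6diF A K₁ (M₁ * q) M H)), nfEmbH (mgcE A K₁) (M₁ * q) M H u₀ = u →
              Rtk6emToric A K₁ (M₁ * q) M H (rtk6dfV hπ M H w')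
                (rtk6diGal (M₁ * q) M H σ hσE • u₀ / u₀) n :=
  rtk6m5_toric_unip hML hw A σ hσ hc (rtk6m5_isDiamondH_one (hat c hc.2)) hu hn

/-- **M5, (UNIP_H)** for `w′ := rtk6diwW w hw …`, when `H` contains all diamonds at `q`. -/
theorem rtk6m5_toric_unip_at_W (hML : M ∣ M₁ * q) (hw : IsWAt (M₁ * q) M H q w)
    (hat : ∀ c : (ZMod M)ˣ, IsAtR M q c → c ∈ pmH H)
    (hM0 : M ≠ 0) (hq : q.Prime) (hqM : q ∣ M)
    (A : ValuationSubring Qb) (σ : Qb ≃ₐ[ℚ] Qb) (hσ : σ ∈ A.inertiaSubgroupIn ℚ)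
    {c : (ZMod M)ˣ} (hc : IsCycAt M q σ c)
    {u : fieldBar (M₁ * q) M H} (hu : u ≠ 0) {n : ℕ} (hn : n ≠ 0) :
    ∃ K₀ : IntermediateField ℚ Qb, FiniteDimensional ℚ K₀ ∧
      ∀ K₁ : IntermediateField ℚ Qb, K₀ ≤ K₁ →
        ∀ [IsDiscreteValuationRing ↥(mgcA A K₁)] {π : ↥(mgcA A K₁)} (hπ : Irreducible π)
          (hζ : ∀ ζ : Qb, ζ ^ q = 1 → ζ ∈ mgcE A K₁)
          (hσE : ∀ x ∈ mgcE A K₁, σ x ∈ mgcE A K₁)
          (u₀ : ↥(rtk6diF A K₁ (M₁ * q) M H)), nfEmbH (mgcE A K₁) (M₁ * q) M H u₀ = u →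
            Rtk6emToric A K₁ (M₁ * q) M H
              (rtk6dfV hπ M H (rtk6diwW (K₀ := mgcE A K₁) w hw hM0 hq hqM hζ))
              (rtk6diGal (M₁ * q) M H σ hσE • u₀ / u₀) n :=
  rtk6m5_toric_unip_W hML hw hM0 hq hqM A σ hσ hc (rtk6m5_isDiamondH_one (hat c hc.2)) hu hn

end Em

end Fermat.Agent.RT.K6
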