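/-
K-machine, piece K6, SS1-inst, hfix half, ABSTRACT part (helper54, handed to helper50): integrality
ascends and descends along a ring homomorphism of fields `φ : F₀ →+* F` compatible with `A₀`:
`rtk6sfx_isIntegral_map`, `rtk6sfx_isIntegral_descend` (`x₀` integral over `A₀[S₀]` iff `φ x₀`
integral over `A₀[φ S₀]`).  Mathlib only.
-/
import Mathlib

set_option autoImplicit false

namespace Fermat.Agent.RT.K6

section Abs

variable {A₀ F₀ F : Type*} [CommRing A₀] [Field F₀] [Field F] [Algebra A₀ F₀] [Algebra A₀ F]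

/-- the `A₀`-algebra homomorphism of a compatible ring homomorphism -/
def rtk6sfxAlg (φ : F₀ →+* F) (hφ : ∀ a, φ (algebraMap A₀ F₀ a) = algebraMap A₀ F a) :
    F₀ →ₐ[A₀] F :=
  { φ with commutes' := hφ }

@[simp]
theorem rtk6sfxAlg_apply (φ : F₀ →+* F) (hφ : ∀ a, φ (algebraMap A₀ F₀ a) = algebraMap A₀ F a)
    (x : F₀) : rtk6sfxAlg φ hφ x = φ x := rfl

/-- `φ` maps `A₀[S₀]` into `A₀[φ S₀]` -/
theorem rtk6sfx_map_mem_adjoin (φ : F₀ →+* F)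
    (hφ : ∀ a, φ (algebraMap A₀ F₀ a) = algebraMap A₀ F a) (S₀ : Set F₀) {y : F₀}
    (hy : y ∈ Algebra.adjoin A₀ S₀) : φ y ∈ Algebra.adjoin A₀ (φ '' S₀) := by
  have h : (Algebra.adjoin A₀ S₀).map (rtk6sfxAlg φ hφ) = Algebra.adjoin A₀ (φ '' S₀) :=
    AlgHom.map_adjoin (rtk6sfxAlg φ hφ) S₀
  rw [← h]
  exact ⟨y, hy, rfl⟩

/-- every element of `A₀[φ S₀]` is the image of an element of `A₀[S₀]` -/
theorem rtk6sfx_exists_of_mem_adjoin (φ : F₀ →+* F)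
    (hφ : ∀ a, φ (algebraMap A₀ F₀ a) = algebraMap A₀ F a) (S₀ : Set F₀) {z : F}
    (hz : z ∈ Algebra.adjoin A₀ (φ '' S₀)) : ∃ y ∈ Algebra.adjoin A₀ S₀, φ y = z := by
  have h : (Algebra.adjoin A₀ S₀).map (rtk6sfxAlg φ hφ) = Algebra.adjoin A₀ (φ '' S₀) :=
    AlgHom.map_adjoin (rtk6sfxAlg φ hφ) S₀
  rw [← h] at hz
  obtain ⟨y, hy, rfl⟩ := hz
  exact ⟨y, hy, rfl⟩

/-- the restriction `A₀[S₀] → A₀[φ S₀]` of `φ` -/
def rtk6sfxRes (φ : F₀ →+* F) (hφ : ∀ a, φ (algebraMap A₀ F₀ a) = algebraMap A₀ F a)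
    (S₀ : Set F₀) : ↥(Algebra.adjoin A₀ S₀) →+* ↥(Algebra.adjoin A₀ (φ '' S₀)) where
  toFun y := ⟨φ (y : F₀), rtk6sfx_map_mem_adjoin φ hφ S₀ y.2⟩
  map_one' := Subtype.ext (map_one φ)
  map_mul' _ _ := Subtype.ext (map_mul φ _ _)
  map_zero' := Subtype.ext (map_zero φ)
  map_add' _ _ := Subtype.ext (map_add φ _ _)

theorem rtk6sfxRes_coe (φ : F₀ →+* F) (hφ : ∀ a, φ (algebraMap A₀ F₀ a) = algebraMap A₀ F a)
    (S₀ : Set F₀) (y : ↥(Algebra.adjoin A₀ S₀)) :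
    ((rtk6sfxRes φ hφ S₀ y : ↥(Algebra.adjoin A₀ (φ '' S₀))) : F) = φ (y : F₀) := rfl

theorem rtk6sfxRes_surjective (φ : F₀ →+* F)
    (hφ : ∀ a, φ (algebraMap A₀ F₀ a) = algebraMap A₀ F a) (S₀ : Set F₀) :
    Function.Surjective (rtk6sfxRes φ hφ S₀) := by
  rintro ⟨z, hz⟩
  obtain ⟨y, hy, rfl⟩ := rtk6sfx_exists_of_mem_adjoin φ hφ S₀ hz
  exact ⟨⟨y, hy⟩, Subtype.ext rfl⟩

/-- **Integrality ascends**: `x₀` integral over `A₀[S₀]` ⟹ `φ x₀` integral over `A₀[φ S₀]`. -/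
theorem rtk6sfx_isIntegral_map (φ : F₀ →+* F)
    (hφ : ∀ a, φ (algebraMap A₀ F₀ a) = algebraMap A₀ F a) (S₀ : Set F₀) {x₀ : F₀}
    (hx : IsIntegral ↥(Algebra.adjoin A₀ S₀) x₀) :
    IsIntegral ↥(Algebra.adjoin A₀ (φ '' S₀)) (φ x₀) := by
  obtain ⟨P, hP, hPx⟩ := hx
  refine ⟨P.map (rtk6sfxRes φ hφ S₀), hP.map _, ?_⟩
  rw [Polynomial.eval₂_map]
  have h := congrArg φ hPx
  rw [Polynomial.hom_eval₂, map_zero] at h
  exact h

/-- **Integrality descends**: `φ x₀` integral over `A₀[φ S₀]` ⟹ `x₀` integral over `A₀[S₀]`. -/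
theorem rtk6sfx_isIntegral_descend (φ : F₀ →+* F)
    (hφ : ∀ a, φ (algebraMap A₀ F₀ a) = algebraMap A₀ F a) (S₀ : Set F₀) {x₀ : F₀}
    (hx : IsIntegral ↥(Algebra.adjoin A₀ (φ '' S₀)) (φ x₀)) :
    IsIntegral ↥(Algebra.adjoin A₀ S₀) x₀ := by
  obtain ⟨P, hP, hPx⟩ := hx
  have hl : P ∈ Polynomial.lifts (rtk6sfxRes φ hφ S₀) := by
    rw [Polynomial.lifts_iff_coeff_lifts]
    intro n
    exact Set.mem_range.2 (rtk6sfxRes_surjective φ hφ S₀ _)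
  obtain ⟨P₀, hP₀, -, hmon⟩ := Polynomial.lifts_and_natDegree_eq_and_monic hl hP
  refine ⟨P₀, hmon, φ.injective ?_⟩
  rw [map_zero, Polynomial.hom_eval₂, ← hPx, ← hP₀, Polynomial.eval₂_map]
  rfl

end Abs

end Fermat.Agent.RT.K6
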