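/-
K-machine, piece K6 / W1 (helper96), part 3: THE INSTANCE — the Atkin–Lehner automorphism `w₁` of
`F′ = rtk6diF A K₁ (M₁ q) M H` for EVERY `K₁ ⊇ K₁′ = rtk6ebK q d` (helper66: the splitting field
of `X ^ d − q`; NO `ζ_q` needed), in particular at the thin level `K₁ = K₁′`.

Hypotheses (`Rtk6w1iHyp`-style, all explicit): `q` prime, `q ∣ M ∣ M₁ q`, `¬ q² ∣ M`, `A` over
`q`, `¬ q ∣ d`, `htame : ∀ c, IsAtR M q c → c ^ d ∈ pmH H`, `hw : IsWAt (M₁ q) M H q w`.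

* `rtk6w1i_commK` : `RtkCommK (mgcE A K₁) w` (helper80's `rtk6w1b_commK`);
* **`rtk6w1iW`** `: F′ ≃ₐ[E′] F′` := `rtk6diwEquiv w (rtk6w1i_commK …)`;
* `rtk6w1iW_eq_diwW` : `= rtk6diwW w …` whenever `ζ_q ∈ E′` (`rfl`): ONE `w′` at all levels;
* `nfEmbH_rtk6w1iW`, `rtk6w1iW_wIncl` (`Rtk6dvWIncl`), `rtk6w1iW_wDiamond` (`Rtk6m4WDiamond`),
  `rtk6w1iW_wGalois` (`Rtk6m4WGalois`), `rtk6w1iW_baseChange` (levels `K₁ ≤ K₁″`);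
* `rtk6w1i_emFam` : (M1) `Rtk6emFam` for `V = rtk6dfV hπ M H w₁`;
  `rtk6w1i_emStab_g`, `rtk6w1i_emStab_Φ` : (M4-inst) from `hstab`;
* `rtk6w1i_toric_chi`, `rtk6w1i_toric_unip` : (M5) `Rtk6emToric` for `V = rtk6dfV hπ M H w₁`.
-/
import Fermat.Agent.RT.K6.W1Core
import Fermat.Agent.RT.K6.EBaseVarpi
import Fermat.Agent.RT.K6.M4EMain
import Fermat.Agent.RT.K6.M5Unip

set_option autoImplicit false
set_option linter.style.haveILetI false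
set_option linter.unusedSectionVars false
set_option linter.unusedVariables false

noncomputable section

namespace Fermat.Agent.RT.K6

open ModularCurve AlgebraicCurve HahnSeries Fermat.Agent.ES Fermat.Agent.ES.G2 Fermat.Agent.INJ
open Fermat.Agent.UNIP Fermat.Agent.ES1 Fermat.Agent.ES1.G2 Fermat.Agent.AL IntermediateField

section Inst

variable {q M₁ : ℕ} [NeZero q] [NeZero M₁] [NeZero (M₁ * q)] {M : ℕ} [NeZero M]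
  {H : Subgroup (ZMod M)ˣ} {d : ℕ}
  {w : fieldBar (M₁ * q) M H ≃ₐ[Qb] fieldBar (M₁ * q) M H}
  (hw : IsWAt (M₁ * q) M H q w) (hML : M ∣ M₁ * q) (hq : q.Prime) (hqM' : q ∣ M)
  (hq2 : ¬ q ^ 2 ∣ M) (A : ValuationSubring Qb) (hA : A.LiesOverPrime q) (hd : ¬ q ∣ d)
  (htame : ∀ c : (ZMod M)ˣ, IsAtR M q c → c ^ d ∈ pmH H)
  {K₁ : IntermediateField ℚ Qb} (hK : rtk6ebK q d ≤ K₁)

include hw hML hq hqM' hq2 hA hd htame hK in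
/-- **`w` commutes with `Gal(ℚ̄/E′)`**, `E′ = mgcE A K₁`, `K₁ ⊇ rtk6ebK q d`. -/
theorem rtk6w1i_commK : RtkCommK (mgcE A K₁) w := by
  have hd0 : d ≠ 0 := by
    rintro rfl
    exact hd (dvd_zero q)
  obtain ⟨ϖ, hϖ⟩ := IsAlgClosed.exists_pow_nat_eq ((q : ℕ) : Qb) (Nat.pos_of_ne_zero hd0)
  exact rtk6w1b_commK (NeZero.ne (M₁ * q)) hML hq hqM' hq2 A hA hd htame hw hϖ
    (le_sup_left : beta0Field A ≤ mgcE A K₁)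
    ((le_sup_right : K₁ ≤ mgcE A K₁) (hK (rtk6eb_mem_K q d hd0 hϖ)))

/-- **the Atkin–Lehner automorphism `w₁` of `F′ = rtk6diF A K₁ (M₁ q) M H`**,
`K₁ ⊇ rtk6ebK q d`. -/
def rtk6w1iW :
    ↥(rtk6diF A K₁ (M₁ * q) M H) ≃ₐ[↥(mgcE A K₁)] ↥(rtk6diF A K₁ (M₁ * q) M H) :=
  rtk6diwEquiv w (rtk6w1i_commK hw hML hq hqM' hq2 A hA hd htame hK)

/-- ONE `w′` at all levels: `w₁ = rtk6diwW w …` when `ζ_q ∈ E′` -/
theorem rtk6w1iW_eq_diwW (hζ : ∀ ζ : Qb, ζ ^ q = 1 → ζ ∈ mgcE A K₁) :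
    rtk6w1iW hw hML hq hqM' hq2 A hA hd htame hK =
      rtk6diwW (K₀ := mgcE A K₁) w hw (NeZero.ne M) hq hqM' hζ := rfl

theorem nfEmbH_rtk6w1iW (x : ↥(rtk6diF A K₁ (M₁ * q) M H)) :
    nfEmbH (mgcE A K₁) (M₁ * q) M H (rtk6w1iW hw hML hq hqM' hq2 A hA hd htame hK x) =
      w (nfEmbH (mgcE A K₁) (M₁ * q) M H x) :=
  nfEmbH_rtk6diwEquiv w _ x

/-- **`Rtk6dvWIncl`** for `w₁` -/
theorem rtk6w1iW_wIncl (ιC : ↥(mgcE A K₁) →+* ℂ) (hqM : ¬ q ∣ M₁) :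
    Rtk6dvWIncl ιC hq hqM M H (rtk6w1iW hw hML hq hqM' hq2 A hA hd htame hK) :=
  rtk6w1_wIncl w hw _ hq ιC hqM

/-- **`Rtk6m4WDiamond`** for `w₁` -/
theorem rtk6w1iW_wDiamond :
    Rtk6m4WDiamond (A := A) (K₁ := K₁) (q := q) (M₁ := M₁) M H
      (rtk6w1iW hw hML hq hqM' hq2 A hA hd htame hK) :=
  fun c hc δ₁ δ₂ hδ₁ hδ₂ x =>
    rtk6w1_diamond w hw _ (NeZero.ne (M₁ * q)) hML c hc δ₁ δ₂ hδ₁ hδ₂ x

/-- **`Rtk6m4WGalois`** for `w₁` -/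
theorem rtk6w1iW_wGalois (σ : Qb ≃ₐ[ℚ] Qb)
    (hσE : ∀ x ∈ mgcE A K₁, σ x ∈ mgcE A K₁) {c : (ZMod M)ˣ} (hc : IsCycAt M q σ c) :
    Rtk6m4WGalois (A := A) (K₁ := K₁) (q := q) (M₁ := M₁) M H
      (rtk6w1iW hw hML hq hqM' hq2 A hA hd htame hK) σ hσE c :=
  fun δ hδ x =>
    rtk6w1_galois w hw _ (NeZero.ne (M₁ * q)) hML σ hσE c hc δ hδ x

/-- **one `w′` for two levels** `K₁ ≤ K₁″` -/
theorem rtk6w1iW_baseChange {K₁' : IntermediateField ℚ Qb} (h : K₁ ≤ K₁')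
    (x : ↥(rtk6diF A K₁ (M₁ * q) M H)) :
    rtk6w1iW hw hML hq hqM' hq2 A hA hd htame (le_trans hK h)
        (rtk6diCoeffHom (M₁ * q) M H
          (IntermediateField.inclusion (rtk6eb_mgcE_mono (A := A) h)).toRingHom x) =
      rtk6diCoeffHom (M₁ * q) M H
        (IntermediateField.inclusion (rtk6eb_mgcE_mono (A := A) h)).toRingHom
        (rtk6w1iW hw hML hq hqM' hq2 A hA hd htame hK x) :=
  rtk6w1_baseChange (rtk6eb_mgcE_mono (A := A) h) w _ _ x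

/-! ### the instances of (M1), (M4), (M5) at `w₁` -/

variable [IsDiscreteValuationRing ↥(mgcA A K₁)] {π : ↥(mgcA A K₁)} (hπ : Irreducible π)

/-- **(M1) at `w₁`** -/
theorem rtk6w1i_emFam (ιC : ↥(mgcE A K₁) →+* ℂ) (hqM : ¬ q ∣ M₁) :
    Rtk6emFam A K₁ (M₁ * q) M H π
      (rtk6dfV hπ M H (rtk6w1iW hw hML hq hqM' hq2 A hA hd htame hK)) :=
  rtk6m1_emFam hπ ιC hq hqM (rtk6w1iW_wIncl hw hML hq hqM' hq2 A hA hd htame hK ιC hqM) hA hML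

/-- **(M4-inst) for `g = rtk6diGal σ` at `w₁`** -/
theorem rtk6w1i_emStab_g
    (hstab : Rtk6m4Stab hπ M H (rtk6w1iW hw hML hq hqM' hq2 A hA hd htame hK))
    {σ : Qb ≃ₐ[ℚ] Qb} (hσ : σ ∈ A.inertiaSubgroupIn ℚ)
    (hσE : ∀ x ∈ mgcE A K₁, σ x ∈ mgcE A K₁) {c₀ : (ZMod M)ˣ} (hc₀ : IsCycAt M q σ c₀) :
    Rtk6emStab A K₁ (M₁ * q) M H
      (rtk6dfV hπ M H (rtk6w1iW hw hML hq hqM' hq2 A hA hd htame hK))
      (rtk6diGal (M₁ * q) M H σ hσE) :=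
  rtk6m4_emStab_g hπ hML hqM' hstab (rtk6w1iW_wDiamond hw hML hq hqM' hq2 A hA hd htame hK)
    hσ hσE hc₀.2 (rtk6w1iW_wGalois hw hML hq hqM' hq2 A hA hd htame hK σ hσE hc₀)

/-- **(M4-inst) for `Φ = ofAlgAut δ₀` at `w₁`** -/
theorem rtk6w1i_emStab_Φ
    (hstab : Rtk6m4Stab hπ M H (rtk6w1iW hw hML hq hqM' hq2 A hA hd htame hK))
    {c₀ : (ZMod M)ˣ} (hc₀ : IsAtR M q c₀)
    {δ₀ : ↥(rtk6diF A K₁ (M₁ * q) M H) ≃ₐ[↥(mgcE A K₁)] ↥(rtk6diF A K₁ (M₁ * q) M H)}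
    (hδ₀ : IsDiamondC ↥(mgcE A K₁) (M₁ * q) M H c₀ δ₀) :
    Rtk6emStab A K₁ (M₁ * q) M H
      (rtk6dfV hπ M H (rtk6w1iW hw hML hq hqM' hq2 A hA hd htame hK))
      (SemilinearAut.ofAlgAut δ₀) :=
  rtk6m4_emStab_Φ hπ hML hqM' hstab (rtk6w1iW_wDiamond hw hML hq hqM' hq2 A hA hd htame hK)
    hc₀ hδ₀

end Inst

section Toric

variable {q M₁ : ℕ} [NeZero q] [NeZero M₁] [NeZero (M₁ * q)] {M : ℕ} [NeZero M]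
  {H : Subgroup (ZMod M)ˣ} {d : ℕ}
  {w : fieldBar (M₁ * q) M H ≃ₐ[Qb] fieldBar (M₁ * q) M H}

/-- **(M5), (χ), at `w₁`**: `Rtk6emToric` for `V = rtk6dfV hπ M H w₁`, every `K₁ ⊇ K₀` containing
`rtk6ebK q d`. -/
theorem rtk6w1i_toric_chi (hw : IsWAt (M₁ * q) M H q w) (hML : M ∣ M₁ * q) (hq : q.Prime)
    (hqM' : q ∣ M) (hq2 : ¬ q ^ 2 ∣ M) (A : ValuationSubring Qb) (hA : A.LiesOverPrime q)
    (hd : ¬ q ∣ d) (htame : ∀ c : (ZMod M)ˣ, IsAtR M q c → c ^ d ∈ pmH H)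
    (σ : Qb ≃ₐ[ℚ] Qb) (hσ : σ ∈ A.inertiaSubgroupIn ℚ)
    {c : (ZMod M)ˣ} (hc : IsCycAt M q σ c)
    {u : fieldBar (M₁ * q) M H} (hu : u ≠ 0) {n : ℕ} (hn : n ≠ 0) :
    ∃ K₀ : IntermediateField ℚ Qb, FiniteDimensional ℚ K₀ ∧
      ∀ K₁ : IntermediateField ℚ Qb, K₀ ≤ K₁ → ∀ hK : rtk6ebK q d ≤ K₁,
        ∀ [IsDiscreteValuationRing ↥(mgcA A K₁)] {π : ↥(mgcA A K₁)} (hπ : Irreducible π)
          (hσE : ∀ x ∈ mgcE A K₁, σ x ∈ mgcE A K₁)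
          (δ₀ : ↥(rtk6diF A K₁ (M₁ * q) M H) ≃ₐ[↥(mgcE A K₁)] ↥(rtk6diF A K₁ (M₁ * q) M H)),
          IsDiamondC ↥(mgcE A K₁) (M₁ * q) M H c δ₀ →
          ∀ u₀ : ↥(rtk6diF A K₁ (M₁ * q) M H), nfEmbH (mgcE A K₁) (M₁ * q) M H u₀ = u →
            Rtk6emToric A K₁ (M₁ * q) M H
              (rtk6dfV hπ M H (rtk6w1iW hw hML hq hqM' hq2 A hA hd htame hK))
              (rtk6eChi (mgcE A K₁) (M₁ * q) M H σ hσE δ₀ u₀) n := by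
  obtain ⟨K₀, hfin, h⟩ := rtk6m5_toric_chi hML hw A σ hσ hc hu hn
  exact ⟨K₀, hfin, fun K₁ hK₀ hK _ π hπ hσE δ₀ hδ₀ u₀ hu₀ =>
    h K₁ hK₀ hπ _ (nfEmbH_rtk6w1iW hw hML hq hqM' hq2 A hA hd htame hK) hσE δ₀ hδ₀ u₀ hu₀⟩

/-- **(M5), (UNIP_H), at `w₁`** (`H` contains the diamonds at `q`; then `d := 1` works). -/
theorem rtk6w1i_toric_unip (hw : IsWAt (M₁ * q) M H q w) (hML : M ∣ M₁ * q) (hq : q.Prime)
    (hqM' : q ∣ M) (hq2 : ¬ q ^ 2 ∣ M) (A : ValuationSubring Qb) (hA : A.LiesOverPrime q)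
    (hd : ¬ q ∣ d) (htame : ∀ c : (ZMod M)ˣ, IsAtR M q c → c ^ d ∈ pmH H)
    (hat : ∀ c : (ZMod M)ˣ, IsAtR M q c → c ∈ pmH H)
    (σ : Qb ≃ₐ[ℚ] Qb) (hσ : σ ∈ A.inertiaSubgroupIn ℚ)
    {c : (ZMod M)ˣ} (hc : IsCycAt M q σ c)
    {u : fieldBar (M₁ * q) M H} (hu : u ≠ 0) {n : ℕ} (hn : n ≠ 0) :
    ∃ K₀ : IntermediateField ℚ Qb, FiniteDimensional ℚ K₀ ∧
      ∀ K₁ : IntermediateField ℚ Qb, K₀ ≤ K₁ → ∀ hK : rtk6ebK q d ≤ K₁,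
        ∀ [IsDiscreteValuationRing ↥(mgcA A K₁)] {π : ↥(mgcA A K₁)} (hπ : Irreducible π)
          (hσE : ∀ x ∈ mgcE A K₁, σ x ∈ mgcE A K₁)
          (u₀ : ↥(rtk6diF A K₁ (M₁ * q) M H)), nfEmbH (mgcE A K₁) (M₁ * q) M H u₀ = u →
            Rtk6emToric A K₁ (M₁ * q) M H
              (rtk6dfV hπ M H (rtk6w1iW hw hML hq hqM' hq2 A hA hd htame hK))
              (rtk6diGal (M₁ * q) M H σ hσE • u₀ / u₀) n := by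
  obtain ⟨K₀, hfin, h⟩ := rtk6m5_toric_unip_at hML hw hat A σ hσ hc hu hn
  exact ⟨K₀, hfin, fun K₁ hK₀ hK _ π hπ hσE u₀ hu₀ =>
    h K₁ hK₀ hπ _ (nfEmbH_rtk6w1iW hw hML hq hqM' hq2 A hA hd htame hK) hσE u₀ hu₀⟩

end Toric

end Fermat.Agent.RT.K6
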